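/-
S35, INTERFACE (helper16).  Prefix `s35_`.  The push-forward of divisor classes.

* `s35_pushPic φ : Pic0 K F' →+ Pic0 K F` for ANY `φ : F →ₐ[K] F'` (total definition; it is
  `[D] ↦ [φ_* D]` as soon as `φ` is integral, finite and satisfies the norm formula:
  `s35_pushPic_mk`);
* `s35_pushA M q`, `s35_pushB M q : JZero (M * q) →+ JZero M`, the push-forwards along the two
  degeneracy maps `heckeAlphaBar` (the inclusion `F̄_M ⊆ F̄_{Mq}`) and `heckeBetaBar` (`t ↦ t^q`);
* `s35_castJ h : JZero N →+ JZero N'` for `h : N = N'` (the passage between a level `N` with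
  `q ∣ N` and the level `M * q`);
* `s35_IsNewAt N q y`: the class `y` of level `N` is killed by both push-forwards to the level
  `M`, for every `M` with `N = M * q`.
-/
import Mathlib
import Fermat.Prelude.Def_ModularCurve_HeckeModule

set_option autoImplicit false

noncomputable section

namespace Fermat.Agent.S35

open AlgebraicCurve ModularCurve

section Abs

variable {K F F' : Type*} [Field K] [Field F] [Field F'] [Algebra K F] [Algebra K F']

/-- The inputs of the push-forward of divisor classes along `φ`. -/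
def s35_PushInputs (φ : F →ₐ[K] F') : Prop :=
  ∃ (_ : φ.toRingHom.IsIntegral) (hfin : FiniteAlong K φ), NormFormulaAlong K φ hfin

/-- The push-forward of divisors of degree zero. -/
def s35_pushDeg (φ : F →ₐ[K] F') (hφ : φ.toRingHom.IsIntegral) :
    Divisor.degZero (K := K) (F := F') →+ Divisor.degZero (K := K) (F := F) :=
  ((Divisor.pushforwardAlong φ hφ).comp (Divisor.degZero (K := K) (F := F')).subtype).codRestrict
    _ (fun D => Divisor.pushforwardAlong_mem_degZero φ hφ D.2)

@[simp]
theorem s35_coe_pushDeg (φ : F →ₐ[K] F') (hφ : φ.toRingHom.IsIntegral)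
    (D : Divisor.degZero (K := K) (F := F')) :
    (s35_pushDeg φ hφ D : Divisor K F) = Divisor.pushforwardAlong φ hφ (D : Divisor K F') :=
  rfl

/-- The push-forward of divisor classes, given the inputs. -/
def s35_pushPicOf (φ : F →ₐ[K] F') (hφ : φ.toRingHom.IsIntegral) (hfin : FiniteAlong K φ)
    (hN : NormFormulaAlong K φ hfin) : Pic0 K F' →+ Pic0 K F :=
  QuotientAddGroup.map _ _ (s35_pushDeg φ hφ) (by
    rintro ⟨D, hD0⟩ hD
    simp only [AddSubgroup.mem_addSubgroupOf] at hD ⊢
    exact Divisor.isPrincipal_pushforwardAlong φ hφ hfin hN hD)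

open Classical in
/-- **The push-forward of divisor classes** along `φ : F → F'` (total definition). -/
def s35_pushPic (φ : F →ₐ[K] F') : Pic0 K F' →+ Pic0 K F :=
  if h : s35_PushInputs φ then s35_pushPicOf φ h.1 h.2.1 h.2.2 else 0

theorem s35_pushPic_eq (φ : F →ₐ[K] F') (hφ : φ.toRingHom.IsIntegral) (hfin : FiniteAlong K φ)
    (hN : NormFormulaAlong K φ hfin) : s35_pushPic φ = s35_pushPicOf φ hφ hfin hN := by
  have h : s35_PushInputs φ := ⟨hφ, hfin, hN⟩
  rw [s35_pushPic, dif_pos h]

/-- `φ_* [D] = [φ_* D]`. -/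
theorem s35_pushPic_mk (φ : F →ₐ[K] F') (hφ : φ.toRingHom.IsIntegral) (hfin : FiniteAlong K φ)
    (hN : NormFormulaAlong K φ hfin) (D : Divisor.degZero (K := K) (F := F')) :
    s35_pushPic φ (Pic0.mk D) = Pic0.mk (s35_pushDeg φ hφ D) := by
  rw [s35_pushPic_eq φ hφ hfin hN]
  rfl

end Abs

section Levels

/-- The identification of `J₀(N)` and `J₀(N')` for `N = N'`. -/
def s35_castJ {N N' : ℕ} (h : N = N') : JZero N →+ JZero N' :=
  h ▸ AddMonoidHom.id (JZero N)

@[simp]
theorem s35_castJ_rfl (N : ℕ) (y : JZero N) : s35_castJ (rfl : N = N) y = y := rfl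

theorem s35_castJ_galois {N N' : ℕ} (h : N = N')
    (σ : AlgebraicClosure ℚ ≃ₐ[ℚ] AlgebraicClosure ℚ) (y : JZero N) :
    s35_castJ h (σ • y) = σ • s35_castJ h y := by
  subst h
  rfl

theorem s35_castJ_injective {N N' : ℕ} (h : N = N') : Function.Injective (s35_castJ h) := by
  subst h
  exact fun _ _ h => h

variable (M q : ℕ) [NeZero M] [NeZero q]

/-- The push-forward `J₀(M q) → J₀(M)` along the degeneracy map `α` (the inclusion
`F̄_M ⊆ F̄_{Mq}`). -/
def s35_pushA : JZero (M * q) →+ JZero M :=
  s35_pushPic (heckeAlphaBar (AlgebraicClosure ℚ) M q)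

/-- The push-forward `J₀(M q) → J₀(M)` along the degeneracy map `β` (`t ↦ t^q`). -/
def s35_pushB : JZero (M * q) →+ JZero M :=
  s35_pushPic (heckeBetaBar (AlgebraicClosure ℚ) M q)

end Levels

/-- The class `y` of level `N` is **new at `q`**: it is killed by both push-forwards to the
level `M`, for every `M` with `N = M * q`. -/
def s35_IsNewAt (N q : ℕ) (y : JZero N) : Prop :=
  ∀ (M : ℕ) (_ : NeZero M) (_ : NeZero q) (h : N = M * q),
    s35_pushA M q (s35_castJ h y) = 0 ∧ s35_pushB M q (s35_castJ h y) = 0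

end Fermat.Agent.S35
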