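/-
S35, leaf [J-PUSH], ABSTRACT PART (helper19).  Prefix `s35jp_`.
Imports: Mathlib + Prelude + S37/DescGal + S24/PlaceBasic + S35/Push (helper16's definitions
`s35_pushPic`, `s35_pushDeg`, `s35_PushInputs`).

For an embedding `φ : F → F'` of function fields over `K`:

* `s35jp_pushPic_smul`: the push-forward `s35_pushPic φ : Pic⁰(F') →+ Pic⁰(F)` is equivariant
  for intertwined semilinear automorphisms (no hypothesis on `φ`);
* `s35jp_normAlong φ : F' →* F`, the norm along `φ`, with `div (N f) = φ_* (div f)`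
  (`s35jp_ord_normAlong`);
* THE DICTIONARY (`φ` integral, finite, with the norm formula): if `n • D = div f` then
  `φ_* [D] = 0  ⟺  N f = c · g ^ n` for some `g ∈ Fˣ`, `c ∈ Kˣ` (`s35jp_push_eq_zero_iff`);
  over an algebraically closed `K`, for `n ≠ 0`:
  `φ_* [D] = 0  ⟺  ∃ g, g ^ n = N f` (`s35jp_push_eq_zero_iff_pow`).
-/
import Mathlib
import Fermat.Agent.S37.DescGal
import Fermat.Agent.S24.PlaceBasic
import Fermat.Agent.S35.Push

set_option autoImplicit false
set_option linter.unusedSectionVars false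
set_option linter.style.haveILetI false

open AlgebraicCurve

noncomputable section

namespace Fermat.Agent.S35

variable {K F F' : Type*} [Field K] [Field F] [Field F'] [Algebra K F] [Algebra K F']
variable (φ : F →ₐ[K] F')

/-! ### Equivariance -/

/-- The push-forward (with the inputs) is equivariant. -/
theorem s35jp_pushPicOf_smul (hφ : φ.toRingHom.IsIntegral) (hfin : FiniteAlong K φ)
    (hN : NormFormulaAlong K φ hfin) {g : SemilinearAut K F} {g' : SemilinearAut K F'}
    (h : SemilinearAut.IntertwinesAlong φ.toRingHom g g') (x : Pic0 K F') :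
    s35_pushPicOf φ hφ hfin hN (g' • x) = g • s35_pushPicOf φ hφ hfin hN x := by
  obtain ⟨D, rfl⟩ := Pic0.mk_surjective x
  rw [SemilinearAut.pic0_smul_mk]
  show Pic0.mk (s35_pushDeg φ hφ _) = g • Pic0.mk (s35_pushDeg φ hφ D)
  rw [SemilinearAut.pic0_smul_mk]
  refine congrArg Pic0.mk (Subtype.ext ?_)
  rw [s35_coe_pushDeg, SemilinearAut.coe_degZeroSMulHom,
    SemilinearAut.coe_degZeroSMulHom, s35_coe_pushDeg]
  exact Fermat.Agent.S37.s37dg_pushforwardAlong_smul φ hφ h (D : Divisor K F')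

/-- **The push-forward is equivariant** (total form: no hypothesis on `φ`). -/
theorem s35jp_pushPic_smul {g : SemilinearAut K F} {g' : SemilinearAut K F'}
    (h : SemilinearAut.IntertwinesAlong φ.toRingHom g g') (x : Pic0 K F') :
    s35_pushPic φ (g' • x) = g • s35_pushPic φ x := by
  by_cases hI : s35_PushInputs φ
  · obtain ⟨hφ, hfin, hN⟩ := hI
    rw [s35_pushPic_eq φ hφ hfin hN]
    exact s35jp_pushPicOf_smul φ hφ hfin hN h x
  · rw [s35_pushPic, dif_neg hI, AddMonoidHom.zero_apply, AddMonoidHom.zero_apply]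
    exact (smul_zero (A := Pic0 K F) g).symm

/-- Torsion classes are mapped to torsion classes. -/
theorem s35jp_pushPic_torsion {n : ℕ} {x : Pic0 K F'} (hx : n • x = 0) :
    n • s35_pushPic φ x = 0 := by
  rw [← map_nsmul, hx, map_zero]

/-! ### The norm -/

/-- The norm `F' → F` along `φ`. -/
def s35jp_normAlong : F' →* F :=
  letI := algebraAlong φ
  Algebra.norm F

theorem s35jp_normAlong_apply (f : F') :
    s35jp_normAlong φ f = (letI := algebraAlong φ; Algebra.norm F f) := rfl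

variable (hφ : φ.toRingHom.IsIntegral) (hfin : FiniteAlong K φ) (hN : NormFormulaAlong K φ hfin)

include hfin in
theorem s35jp_normAlong_ne_zero {f : F'} (hf : f ≠ 0) : s35jp_normAlong φ f ≠ 0 := by
  letI := algebraAlong φ
  haveI : Module.Finite F F' := hfin
  exact Algebra.norm_ne_zero_iff.mpr hf

include hφ hfin hN in
/-- `div (N f) = φ_* (div f)`. -/
theorem s35jp_ord_normAlong {f : F'} (hf : f ≠ 0) (D : Divisor K F')
    (hD : ∀ w : Place K F', D w = w.ord f) (v : Place K F) :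
    v.ord (s35jp_normAlong φ f) = Divisor.pushforwardAlong φ hφ D v := by
  letI := algebraAlong φ
  haveI := isScalarTower_along φ
  haveI := isIntegral_along φ hφ
  haveI : Module.Finite F F' := hfin
  exact (hN f hf D hD v).symm

/-! ### The dictionary -/

include hφ hfin hN in
/-- **The dictionary**, direction `⟹`: if `n • D = div f` and the push-forward of the class of
`D` vanishes then `N f = c · g ^ n`. -/
theorem s35jp_norm_of_push_eq_zero
    (hconst : ∀ y : F, y ≠ 0 → (∀ v : Place K F, v.ord y = 0) → ∃ c : K, y = algebraMap K F c)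
    (n : ℕ) (D : Divisor.degZero (K := K) (F := F')) (f : F') (hf : f ≠ 0)
    (hfD : ∀ w : Place K F', (n : ℤ) * (D : Divisor K F') w = w.ord f)
    (h0 : s35_pushPic φ (Pic0.mk D) = 0) :
    ∃ (g : F) (c : K), g ≠ 0 ∧ c ≠ 0 ∧ s35jp_normAlong φ f = algebraMap K F c * g ^ n := by
  rw [s35_pushPic_mk φ hφ hfin hN] at h0
  have h1 := (QuotientAddGroup.eq_zero_iff (s35_pushDeg φ hφ D)).1 h0
  rw [AddSubgroup.mem_addSubgroupOf] at h1
  obtain ⟨g, hg, hgD⟩ := h1
  have hNf : s35jp_normAlong φ f ≠ 0 := s35jp_normAlong_ne_zero φ hfin hf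
  have hord : ∀ v : Place K F, v.ord (s35jp_normAlong φ f) = (n : ℤ) * v.ord g := by
    intro v
    have hD' : ∀ w : Place K F', ((n • (D : Divisor K F') : Divisor K F')) w = w.ord f := by
      intro w
      rw [← hfD w]
      simp [Finsupp.smul_apply]
    rw [s35jp_ord_normAlong φ hφ hfin hN hf _ hD' v, map_nsmul, ← hgD v]
    simp [Finsupp.smul_apply]
  have hy0 : s35jp_normAlong φ f / g ^ n ≠ 0 := div_ne_zero hNf (pow_ne_zero _ hg)
  obtain ⟨c, hc⟩ := hconst (s35jp_normAlong φ f / g ^ n) hy0 (fun v => by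
    rw [div_eq_mul_inv, v.ord_mul hNf (inv_ne_zero (pow_ne_zero _ hg)), v.ord_inv,
      ← zpow_natCast g n, v.ord_zpow, hord v]
    ring)
  refine ⟨g, c, hg, ?_, ?_⟩
  · rintro rfl
    rw [map_zero] at hc
    exact hy0 hc
  · rw [← hc, div_mul_cancel₀ _ (pow_ne_zero _ hg)]

include hφ hfin hN in
/-- **The dictionary**, direction `⟸`. -/
theorem s35jp_push_eq_zero_of_norm
    (n : ℕ) (hn : n ≠ 0) (D : Divisor.degZero (K := K) (F := F')) (f : F') (hf : f ≠ 0)
    (hfD : ∀ w : Place K F', (n : ℤ) * (D : Divisor K F') w = w.ord f)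
    (g : F) (c : K) (hg : g ≠ 0) (hc : c ≠ 0)
    (h : s35jp_normAlong φ f = algebraMap K F c * g ^ n) :
    s35_pushPic φ (Pic0.mk D) = 0 := by
  rw [s35_pushPic_mk φ hφ hfin hN]
  refine (QuotientAddGroup.eq_zero_iff _).2 ?_
  rw [AddSubgroup.mem_addSubgroupOf]
  refine ⟨g, hg, fun v => ?_⟩
  have hD' : ∀ w : Place K F', ((n • (D : Divisor K F') : Divisor K F')) w = w.ord f := by
    intro w
    rw [← hfD w]
    simp [Finsupp.smul_apply]
  have h1 := s35jp_ord_normAlong φ hφ hfin hN hf _ hD' v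
  have hc' : algebraMap K F c ≠ 0 := by
    rwa [Ne, map_eq_zero]
  rw [h, v.ord_mul hc' (pow_ne_zero _ hg), Fermat.Agent.S24.place_ord_algebraMap v c, zero_add,
    ← zpow_natCast g n, v.ord_zpow, map_nsmul] at h1
  have h2 : (n : ℤ) * v.ord g =
      (n : ℤ) * (Divisor.pushforwardAlong φ hφ (D : Divisor K F')) v := by
    rw [h1]
    simp [Finsupp.smul_apply]
  have hn' : (n : ℤ) ≠ 0 := by exact_mod_cast hn
  rw [s35_coe_pushDeg]
  exact (mul_left_cancel₀ hn' h2).symm

include hφ hfin hN in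
/-- **[J-PUSH], the dictionary.** -/
theorem s35jp_push_eq_zero_iff
    (hconst : ∀ y : F, y ≠ 0 → (∀ v : Place K F, v.ord y = 0) → ∃ c : K, y = algebraMap K F c)
    (n : ℕ) (hn : n ≠ 0) (D : Divisor.degZero (K := K) (F := F')) (f : F') (hf : f ≠ 0)
    (hfD : ∀ w : Place K F', (n : ℤ) * (D : Divisor K F') w = w.ord f) :
    s35_pushPic φ (Pic0.mk D) = 0 ↔
      ∃ (g : F) (c : K), g ≠ 0 ∧ c ≠ 0 ∧ s35jp_normAlong φ f = algebraMap K F c * g ^ n :=
  ⟨s35jp_norm_of_push_eq_zero φ hφ hfin hN hconst n D f hf hfD,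
    fun ⟨g, c, hg, hc, h⟩ => s35jp_push_eq_zero_of_norm φ hφ hfin hN n hn D f hf hfD g c hg hc h⟩

/-! ### The dictionary over an algebraically closed field of constants -/

include hφ hfin hN in
/-- Direction `⟹` over an algebraically closed field: `N f` is an `n`-th power. -/
theorem s35jp_pow_of_push_eq_zero [IsAlgClosed K]
    (hconst : ∀ y : F, y ≠ 0 → (∀ v : Place K F, v.ord y = 0) → ∃ c : K, y = algebraMap K F c)
    (n : ℕ) (hn : n ≠ 0) (D : Divisor.degZero (K := K) (F := F')) (f : F') (hf : f ≠ 0)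
    (hfD : ∀ w : Place K F', (n : ℤ) * (D : Divisor K F') w = w.ord f)
    (h0 : s35_pushPic φ (Pic0.mk D) = 0) :
    ∃ g : F, g ^ n = s35jp_normAlong φ f := by
  obtain ⟨g, c, -, -, h⟩ := s35jp_norm_of_push_eq_zero φ hφ hfin hN hconst n D f hf hfD h0
  obtain ⟨d, hd⟩ := IsAlgClosed.exists_pow_nat_eq c (Nat.pos_of_ne_zero hn)
  refine ⟨algebraMap K F d * g, ?_⟩
  rw [h, mul_pow, ← map_pow, hd]

include hφ hfin hN in
/-- Direction `⟸`: if `N f` is an `n`-th power then the push-forward of the class vanishes. -/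
theorem s35jp_push_eq_zero_of_pow
    (n : ℕ) (hn : n ≠ 0) (D : Divisor.degZero (K := K) (F := F')) (f : F') (hf : f ≠ 0)
    (hfD : ∀ w : Place K F', (n : ℤ) * (D : Divisor K F') w = w.ord f)
    (h : ∃ g : F, g ^ n = s35jp_normAlong φ f) :
    s35_pushPic φ (Pic0.mk D) = 0 := by
  obtain ⟨g, hg⟩ := h
  have hg0 : g ≠ 0 := by
    rintro rfl
    rw [zero_pow hn] at hg
    exact s35jp_normAlong_ne_zero φ hfin hf hg.symm
  refine s35jp_push_eq_zero_of_norm φ hφ hfin hN n hn D f hf hfD g 1 hg0 one_ne_zero ?_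
  rw [map_one, one_mul, hg]

include hφ hfin hN in
/-- **[J-PUSH], the dictionary over an algebraically closed field.** -/
theorem s35jp_push_eq_zero_iff_pow [IsAlgClosed K]
    (hconst : ∀ y : F, y ≠ 0 → (∀ v : Place K F, v.ord y = 0) → ∃ c : K, y = algebraMap K F c)
    (n : ℕ) (hn : n ≠ 0) (D : Divisor.degZero (K := K) (F := F')) (f : F') (hf : f ≠ 0)
    (hfD : ∀ w : Place K F', (n : ℤ) * (D : Divisor K F') w = w.ord f) :
    s35_pushPic φ (Pic0.mk D) = 0 ↔ ∃ g : F, g ^ n = s35jp_normAlong φ f :=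
  ⟨s35jp_pow_of_push_eq_zero φ hφ hfin hN hconst n hn D f hf hfD,
    s35jp_push_eq_zero_of_pow φ hφ hfin hN n hn D f hf hfD⟩

end Fermat.Agent.S35
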