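/-
S35, leaf [COR], abstract part (owner: helper11).  Prefix `s35c_`.  Mathlib only.

HECKE DATA.  `G₁`, `G₂` groups with homomorphisms `ι₁ : G₁ →* 𝔾`, `ι₂ : G₂ →* 𝔾` into an ambient
group, a finite family `rep : X → 𝔾` with

    rep x * ι₂ γ = ι₁ (coc γ x) * rep (act γ x)          (γ : G₂, x : X)

and the cocycle rules.  The operator of the datum is

    (op D ψ)(γ) = ∑ₓ ψ (coc γ x)          (ψ : G₁ → A a homomorphism into an abelian group).

* `s35c_op`, `s35c_opHom`: the operator;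
* `s35c_Datum.ofExists`: a datum from representatives of pairwise distinct cosets;
* `s35c_op_eq_of_equiv`: the operator depends only on the cosets `ι₁ G₁ * rep x`;
* `s35c_Datum.comp`, `s35c_op_comp`: composition;
* `s35c_dcSub`, `s35c_dc`: the datum of a double coset `ι₁ G₁ * ρ₀ * ι₂ G₂`;
* `s35c_op_par`: the operator preserves the homomorphisms vanishing on a class of elements
  stable under powers and conjugation (values without torsion).
-/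
import Mathlib

set_option autoImplicit false
set_option linter.unusedSectionVars false
set_option linter.unusedVariables false
set_option linter.style.haveILetI false

namespace Fermat.Agent.S35

section Datum

variable {𝔾 : Type*} [Group 𝔾] {G₁ G₂ G₃ : Type*} [Group G₁] [Group G₂] [Group G₃]

/-- A Hecke datum from `G₁` to `G₂` inside `𝔾`, indexed by `X`. -/
structure s35c_Datum (ι₁ : G₁ →* 𝔾) (ι₂ : G₂ →* 𝔾) (X : Type*) where
  /-- the representatives -/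
  rep : X → 𝔾
  /-- the permutation of the index set -/
  act : G₂ → X → X
  /-- the cocycle -/
  coc : G₂ → X → G₁
  spec : ∀ γ x, rep x * ι₂ γ = ι₁ (coc γ x) * rep (act γ x)
  act_one : ∀ x, act 1 x = x
  act_mul : ∀ γ δ x, act (γ * δ) x = act δ (act γ x)
  coc_mul : ∀ γ δ x, coc (γ * δ) x = coc γ x * coc δ (act γ x)

variable {ι₁ : G₁ →* 𝔾} {ι₂ : G₂ →* 𝔾} {ι₃ : G₃ →* 𝔾} {X Y X' : Type*}

theorem s35c_Datum.coc_one (D : s35c_Datum ι₁ ι₂ X) (x : X) : D.coc 1 x = 1 := by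
  have h := D.coc_mul 1 1 x
  rw [one_mul, D.act_one] at h
  exact (mul_eq_left.mp h.symm)

/-- The permutation of the index set attached to `γ`. -/
def s35c_Datum.actEquiv (D : s35c_Datum ι₁ ι₂ X) (γ : G₂) : X ≃ X where
  toFun := D.act γ
  invFun := D.act γ⁻¹
  left_inv x := by rw [← D.act_mul, mul_inv_cancel, D.act_one]
  right_inv x := by rw [← D.act_mul, inv_mul_cancel, D.act_one]

@[simp] theorem s35c_Datum.actEquiv_apply (D : s35c_Datum ι₁ ι₂ X) (γ : G₂) (x : X) :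
    D.actEquiv γ x = D.act γ x := rfl

theorem s35c_Datum.act_pow (D : s35c_Datum ι₁ ι₂ X) (γ : G₂) (n : ℕ) (x : X) :
    D.act (γ ^ n) x = (D.act γ)^[n] x := by
  induction n generalizing x with
  | zero => rw [pow_zero, D.act_one, Function.iterate_zero, id]
  | succ n ih =>
    rw [pow_succ, D.act_mul, ih, Function.iterate_succ_apply']

section Op

variable [Fintype X] {A : Type*} [AddCommMonoid A]

/-- The operator of a Hecke datum on homomorphisms. -/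
noncomputable def s35c_op (D : s35c_Datum ι₁ ι₂ X) (ψ : Additive G₁ →+ A) :
    Additive G₂ →+ A where
  toFun γ := ∑ x : X, ψ (Additive.ofMul (D.coc (Additive.toMul γ) x))
  map_zero' := by
    show ∑ x : X, ψ (Additive.ofMul (D.coc 1 x)) = 0
    simp only [D.coc_one, ofMul_one, map_zero, Finset.sum_const_zero]
  map_add' γ δ := by
    show ∑ x : X, ψ (Additive.ofMul (D.coc (Additive.toMul γ * Additive.toMul δ) x)) =
      ∑ x : X, ψ (Additive.ofMul (D.coc (Additive.toMul γ) x)) +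
        ∑ x : X, ψ (Additive.ofMul (D.coc (Additive.toMul δ) x))
    simp only [D.coc_mul, ofMul_mul, map_add, Finset.sum_add_distrib]
    congr 1
    exact Equiv.sum_comp (D.actEquiv (Additive.toMul γ))
      (fun x => ψ (Additive.ofMul (D.coc (Additive.toMul δ) x)))

theorem s35c_op_apply (D : s35c_Datum ι₁ ι₂ X) (ψ : Additive G₁ →+ A) (γ : G₂) :
    s35c_op D ψ (Additive.ofMul γ) = ∑ x : X, ψ (Additive.ofMul (D.coc γ x)) := rfl

theorem s35c_op_add (D : s35c_Datum ι₁ ι₂ X) (ψ ψ' : Additive G₁ →+ A) :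
    s35c_op D (ψ + ψ') = s35c_op D ψ + s35c_op D ψ' := by
  refine AddMonoidHom.ext fun γ => ?_
  show ∑ x : X, (ψ + ψ') (Additive.ofMul (D.coc (Additive.toMul γ) x)) =
    ∑ x : X, ψ (Additive.ofMul (D.coc (Additive.toMul γ) x)) +
      ∑ x : X, ψ' (Additive.ofMul (D.coc (Additive.toMul γ) x))
  simp only [AddMonoidHom.add_apply, Finset.sum_add_distrib]

theorem s35c_op_zero (D : s35c_Datum ι₁ ι₂ X) :
    s35c_op D (0 : Additive G₁ →+ A) = 0 := by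
  refine AddMonoidHom.ext fun γ => ?_
  show ∑ x : X, (0 : Additive G₁ →+ A) (Additive.ofMul (D.coc (Additive.toMul γ) x)) = 0
  simp only [AddMonoidHom.zero_apply, Finset.sum_const_zero]

/-- The operator of a Hecke datum, as an additive map. -/
noncomputable def s35c_opHom (D : s35c_Datum ι₁ ι₂ X) :
    (Additive G₁ →+ A) →+ (Additive G₂ →+ A) where
  toFun := s35c_op D
  map_zero' := s35c_op_zero D
  map_add' := s35c_op_add D

@[simp] theorem s35c_opHom_apply (D : s35c_Datum ι₁ ι₂ X) (ψ : Additive G₁ →+ A) :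
    s35c_opHom D ψ = s35c_op D ψ := rfl

/-- Naturality in the coefficients. -/
theorem s35c_op_comp_coeff {B : Type*} [AddCommMonoid B] (D : s35c_Datum ι₁ ι₂ X) (f : A →+ B)
    (ψ : Additive G₁ →+ A) : s35c_op D (f.comp ψ) = f.comp (s35c_op D ψ) := by
  refine AddMonoidHom.ext fun γ => ?_
  show ∑ x : X, f (ψ (Additive.ofMul (D.coc (Additive.toMul γ) x))) =
    f (∑ x : X, ψ (Additive.ofMul (D.coc (Additive.toMul γ) x)))
  rw [map_sum]

end Op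

/-! ### Uniqueness of the cocycle, data from representatives -/

/-- Uniqueness: the index and the element of `G₁` in `rep x * a = ι₁ g * rep y` are determined
by the left-hand side, when the cosets are pairwise distinct. -/
theorem s35c_unique (hι₁ : Function.Injective ι₁) (rep : X → 𝔾)
    (hinj : ∀ x y : X, (∃ g : G₁, rep x * (rep y)⁻¹ = ι₁ g) → x = y)
    {a : 𝔾} {g g' : G₁} {y y' : X} (h : a = ι₁ g * rep y) (h' : a = ι₁ g' * rep y') :
    y = y' ∧ g = g' := by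
  have h1 : ι₁ g * rep y = ι₁ g' * rep y' := h.symm.trans h'
  have h2 : rep y * (rep y')⁻¹ = ι₁ (g⁻¹ * g') := by
    rw [map_mul, map_inv, mul_inv_eq_iff_eq_mul, mul_assoc, ← h1, ← mul_assoc, inv_mul_cancel,
      one_mul]
  have hy : y = y' := hinj y y' ⟨_, h2⟩
  subst hy
  exact ⟨rfl, hι₁ (mul_right_cancel h1)⟩

theorem s35c_spec_mul (rep : X → 𝔾) {γ δ : G₂} {x y z : X} {g₁ g₂ : G₁}
    (h1 : rep x * ι₂ γ = ι₁ g₁ * rep y) (h2 : rep y * ι₂ δ = ι₁ g₂ * rep z) :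
    rep x * ι₂ (γ * δ) = ι₁ (g₁ * g₂) * rep z := by
  rw [map_mul, ← mul_assoc, h1, mul_assoc, h2, map_mul, mul_assoc]

/-- A Hecke datum from representatives of pairwise distinct cosets whose union is stable under
right multiplication by `ι₂ G₂`. -/
noncomputable def s35c_Datum.ofExists (hι₁ : Function.Injective ι₁) (rep : X → 𝔾)
    (hex : ∀ (γ : G₂) (x : X), ∃ (y : X) (g : G₁), rep x * ι₂ γ = ι₁ g * rep y)
    (hinj : ∀ x y : X, (∃ g : G₁, rep x * (rep y)⁻¹ = ι₁ g) → x = y) :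
    s35c_Datum ι₁ ι₂ X where
  rep := rep
  act γ x := (hex γ x).choose
  coc γ x := (hex γ x).choose_spec.choose
  spec γ x := (hex γ x).choose_spec.choose_spec
  act_one x := by
    have h := (hex 1 x).choose_spec.choose_spec
    have h' : rep x * ι₂ 1 = ι₁ 1 * rep x := by rw [map_one, map_one, mul_one, one_mul]
    exact (s35c_unique hι₁ rep hinj h h').1
  act_mul γ δ x := by
    have h := (hex (γ * δ) x).choose_spec.choose_spec
    have h1 := (hex γ x).choose_spec.choose_spec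
    have h2 := (hex δ (hex γ x).choose).choose_spec.choose_spec
    have h' := s35c_spec_mul (ι₁ := ι₁) (ι₂ := ι₂) rep h1 h2
    exact (s35c_unique hι₁ rep hinj h h').1
  coc_mul γ δ x := by
    have h := (hex (γ * δ) x).choose_spec.choose_spec
    have h1 := (hex γ x).choose_spec.choose_spec
    have h2 := (hex δ (hex γ x).choose).choose_spec.choose_spec
    have h' := s35c_spec_mul (ι₁ := ι₁) (ι₂ := ι₂) rep h1 h2
    exact (s35c_unique hι₁ rep hinj h h').2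

@[simp] theorem s35c_Datum.ofExists_rep (hι₁ : Function.Injective ι₁) (rep : X → 𝔾)
    (hex : ∀ (γ : G₂) (x : X), ∃ (y : X) (g : G₁), rep x * ι₂ γ = ι₁ g * rep y)
    (hinj : ∀ x y : X, (∃ g : G₁, rep x * (rep y)⁻¹ = ι₁ g) → x = y) :
    (s35c_Datum.ofExists hι₁ rep hex hinj).rep = rep := rfl

/-! ### Independence of the representatives -/

/-- **Independence.** Two data with the same cosets `ι₁ G₁ * rep x` have the same operator. -/
theorem s35c_op_eq_of_equiv [Fintype X] [Fintype X'] {A : Type*} [AddCommGroup A]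
    (hι₁ : Function.Injective ι₁) (D : s35c_Datum ι₁ ι₂ X) (D' : s35c_Datum ι₁ ι₂ X')
    (hinj : ∀ x y : X', (∃ g : G₁, D'.rep x * (D'.rep y)⁻¹ = ι₁ g) → x = y)
    (e : X ≃ X') (u : X → G₁) (hu : ∀ x, D'.rep (e x) = ι₁ (u x) * D.rep x)
    (ψ : Additive G₁ →+ A) : s35c_op D' ψ = s35c_op D ψ := by
  refine AddMonoidHom.ext fun γ' => ?_
  obtain ⟨γ, rfl⟩ : ∃ γ : G₂, Additive.ofMul γ = γ' := ⟨Additive.toMul γ', rfl⟩
  rw [s35c_op_apply, s35c_op_apply]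
  have key : ∀ x : X, D'.act γ (e x) = e (D.act γ x) ∧
      D'.coc γ (e x) = u x * D.coc γ x * (u (D.act γ x))⁻¹ := by
    intro x
    have h := D'.spec γ (e x)
    have h' : D'.rep (e x) * ι₂ γ =
        ι₁ (u x * D.coc γ x * (u (D.act γ x))⁻¹) * D'.rep (e (D.act γ x)) := by
      rw [hu x, mul_assoc, D.spec, hu (D.act γ x), map_mul, map_mul, map_inv]
      simp only [mul_assoc, inv_mul_cancel_left]
    exact s35c_unique hι₁ D'.rep hinj h h'
  rw [← Equiv.sum_comp e (fun x' => ψ (Additive.ofMul (D'.coc γ x')))]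
  have h1 : ∀ x : X, ψ (Additive.ofMul (D'.coc γ (e x))) =
      ψ (Additive.ofMul (u x)) + ψ (Additive.ofMul (D.coc γ x)) -
        ψ (Additive.ofMul (u (D.act γ x))) := by
    intro x
    rw [(key x).2, ofMul_mul, ofMul_mul, ofMul_inv, map_add, map_add, map_neg, sub_eq_add_neg]
  rw [Finset.sum_congr rfl (fun x _ => h1 x), Finset.sum_sub_distrib, Finset.sum_add_distrib]
  have h2 : ∑ x : X, ψ (Additive.ofMul (u (D.act γ x))) = ∑ x : X, ψ (Additive.ofMul (u x)) :=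
    Equiv.sum_comp (D.actEquiv γ) (fun x => ψ (Additive.ofMul (u x)))
  rw [h2]
  abel

/-- **Independence**, with an injection between index sets of the same cardinality. -/
theorem s35c_op_eq_of_inj [Fintype X] [Fintype X'] {A : Type*} [AddCommGroup A]
    (hι₁ : Function.Injective ι₁) (D : s35c_Datum ι₁ ι₂ X) (D' : s35c_Datum ι₁ ι₂ X')
    (hinj : ∀ x y : X', (∃ g : G₁, D'.rep x * (D'.rep y)⁻¹ = ι₁ g) → x = y)
    (hcard : Fintype.card X = Fintype.card X')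
    (e : X → X') (he : Function.Injective e) (u : X → G₁)
    (hu : ∀ x, D'.rep (e x) = ι₁ (u x) * D.rep x)
    (ψ : Additive G₁ →+ A) : s35c_op D' ψ = s35c_op D ψ := by
  have hbij : Function.Bijective e :=
    (Fintype.bijective_iff_injective_and_card e).mpr ⟨he, hcard⟩
  exact s35c_op_eq_of_equiv hι₁ D D' hinj (Equiv.ofBijective e hbij) u (fun x => hu x) ψ

/-! ### Composition -/

/-- The composite of two Hecke data. -/
def s35c_Datum.comp (D : s35c_Datum ι₁ ι₂ X) (E : s35c_Datum ι₂ ι₃ Y) :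
    s35c_Datum ι₁ ι₃ (X × Y) where
  rep p := D.rep p.1 * E.rep p.2
  act γ p := (D.act (E.coc γ p.2) p.1, E.act γ p.2)
  coc γ p := D.coc (E.coc γ p.2) p.1
  spec γ p := by
    rw [mul_assoc, E.spec, ← mul_assoc, D.spec, mul_assoc]
  act_one p := by
    simp only [E.coc_one, D.act_one, E.act_one]
  act_mul γ δ p := by
    simp only [E.coc_mul, D.act_mul, E.act_mul]
  coc_mul γ δ p := by
    simp only [E.coc_mul, D.coc_mul]

@[simp] theorem s35c_Datum.comp_rep (D : s35c_Datum ι₁ ι₂ X) (E : s35c_Datum ι₂ ι₃ Y)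
    (p : X × Y) : (D.comp E).rep p = D.rep p.1 * E.rep p.2 := rfl

@[simp] theorem s35c_Datum.comp_coc (D : s35c_Datum ι₁ ι₂ X) (E : s35c_Datum ι₂ ι₃ Y)
    (γ : G₃) (p : X × Y) : (D.comp E).coc γ p = D.coc (E.coc γ p.2) p.1 := rfl

@[simp] theorem s35c_Datum.comp_act (D : s35c_Datum ι₁ ι₂ X) (E : s35c_Datum ι₂ ι₃ Y)
    (γ : G₃) (p : X × Y) :
    (D.comp E).act γ p = (D.act (E.coc γ p.2) p.1, E.act γ p.2) := rfl

/-- The operator of the composite is the composite of the operators. -/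
theorem s35c_op_comp [Fintype X] [Fintype Y] {A : Type*} [AddCommMonoid A]
    (D : s35c_Datum ι₁ ι₂ X) (E : s35c_Datum ι₂ ι₃ Y) (ψ : Additive G₁ →+ A) :
    s35c_op (D.comp E) ψ = s35c_op E (s35c_op D ψ) := by
  refine AddMonoidHom.ext fun γ' => ?_
  obtain ⟨γ, rfl⟩ : ∃ γ : G₃, Additive.ofMul γ = γ' := ⟨Additive.toMul γ', rfl⟩
  rw [s35c_op_apply, s35c_op_apply, Fintype.sum_prod_type_right]
  refine Finset.sum_congr rfl fun y _ => ?_
  rw [s35c_op_apply]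
  rfl

/-! ### The datum of a double coset -/

/-- The subgroup of `G₂` of the elements `g` with `ρ₀ * ι₂ g * ρ₀⁻¹ ∈ ι₁ G₁`. -/
def s35c_dcSub (ι₁ : G₁ →* 𝔾) (ι₂ : G₂ →* 𝔾) (ρ₀ : 𝔾) : Subgroup G₂ where
  carrier := {g | ∃ h : G₁, ρ₀ * ι₂ g = ι₁ h * ρ₀}
  one_mem' := ⟨1, by rw [map_one, map_one, mul_one, one_mul]⟩
  mul_mem' := by
    rintro a b ⟨h, hh⟩ ⟨k, hk⟩
    exact ⟨h * k, by rw [map_mul, ← mul_assoc, hh, mul_assoc, hk, map_mul, mul_assoc]⟩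
  inv_mem' := by
    rintro a ⟨h, hh⟩
    refine ⟨h⁻¹, ?_⟩
    rw [map_inv, map_inv, eq_inv_mul_iff_mul_eq, ← mul_assoc, ← hh, mul_assoc, mul_inv_cancel,
      mul_one]

theorem s35c_mem_dcSub {ρ₀ : 𝔾} {g : G₂} :
    g ∈ s35c_dcSub ι₁ ι₂ ρ₀ ↔ ∃ h : G₁, ρ₀ * ι₂ g = ι₁ h * ρ₀ := Iff.rfl

/-- The representatives of the double coset `ι₁ G₁ * ρ₀ * ι₂ G₂`. -/
noncomputable def s35c_dcRep (ι₁ : G₁ →* 𝔾) (ι₂ : G₂ →* 𝔾) (ρ₀ : 𝔾)
    (x : G₂ ⧸ s35c_dcSub ι₁ ι₂ ρ₀) : 𝔾 :=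
  ρ₀ * ι₂ (x.out)⁻¹

theorem s35c_dcRep_ex (ι₁ : G₁ →* 𝔾) (ι₂ : G₂ →* 𝔾) (ρ₀ : 𝔾) (γ : G₂)
    (x : G₂ ⧸ s35c_dcSub ι₁ ι₂ ρ₀) :
    ∃ (y : G₂ ⧸ s35c_dcSub ι₁ ι₂ ρ₀) (g : G₁),
      s35c_dcRep ι₁ ι₂ ρ₀ x * ι₂ γ = ι₁ g * s35c_dcRep ι₁ ι₂ ρ₀ y := by
  obtain ⟨k, hk⟩ := QuotientGroup.mk_out_eq_mul (s35c_dcSub ι₁ ι₂ ρ₀) (γ⁻¹ * x.out)
  obtain ⟨h, hh⟩ := (s35c_dcSub ι₁ ι₂ ρ₀).inv_mem k.2
  refine ⟨(QuotientGroup.mk (γ⁻¹ * x.out) : G₂ ⧸ s35c_dcSub ι₁ ι₂ ρ₀), h⁻¹, ?_⟩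
  unfold s35c_dcRep
  rw [hk]
  have e1 : (x.out)⁻¹ * γ = (k : G₂) * (γ⁻¹ * x.out * (k : G₂))⁻¹ := by
    group
  have e2 : ρ₀ * ι₂ (k : G₂) = ι₁ h⁻¹ * ρ₀ := by
    rw [map_inv, eq_inv_mul_iff_mul_eq, ← mul_assoc, ← hh, mul_assoc, ← map_mul, inv_mul_cancel,
      map_one, mul_one]
  calc ρ₀ * ι₂ (x.out)⁻¹ * ι₂ γ = ρ₀ * ι₂ ((x.out)⁻¹ * γ) := by rw [map_mul, mul_assoc]
    _ = ρ₀ * ι₂ ((k : G₂) * (γ⁻¹ * x.out * (k : G₂))⁻¹) := by rw [e1]
    _ = ρ₀ * ι₂ (k : G₂) * ι₂ (γ⁻¹ * x.out * (k : G₂))⁻¹ := by rw [map_mul, ← mul_assoc]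
    _ = ι₁ h⁻¹ * (ρ₀ * ι₂ (γ⁻¹ * x.out * (k : G₂))⁻¹) := by rw [e2, mul_assoc]

theorem s35c_dcRep_inj (ι₁ : G₁ →* 𝔾) (ι₂ : G₂ →* 𝔾) (ρ₀ : 𝔾)
    (x y : G₂ ⧸ s35c_dcSub ι₁ ι₂ ρ₀)
    (h : ∃ g : G₁, s35c_dcRep ι₁ ι₂ ρ₀ x * (s35c_dcRep ι₁ ι₂ ρ₀ y)⁻¹ = ι₁ g) : x = y := by
  obtain ⟨g, hg⟩ := h
  unfold s35c_dcRep at hg
  have h1 : (x.out)⁻¹ * y.out ∈ s35c_dcSub ι₁ ι₂ ρ₀ := by
    refine ⟨g, ?_⟩
    rw [← hg, map_mul]
    simp only [mul_inv_rev, map_inv, inv_inv, mul_assoc, inv_mul_cancel, mul_one]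
  have h2 : (QuotientGroup.mk x.out : G₂ ⧸ s35c_dcSub ι₁ ι₂ ρ₀) = QuotientGroup.mk y.out :=
    QuotientGroup.eq.mpr h1
  rwa [QuotientGroup.out_eq', QuotientGroup.out_eq'] at h2

/-- The Hecke datum of the double coset `ι₁ G₁ * ρ₀ * ι₂ G₂`. -/
noncomputable def s35c_dc (hι₁ : Function.Injective ι₁) (ι₂ : G₂ →* 𝔾) (ρ₀ : 𝔾) :
    s35c_Datum ι₁ ι₂ (G₂ ⧸ s35c_dcSub ι₁ ι₂ ρ₀) :=
  s35c_Datum.ofExists hι₁ (s35c_dcRep ι₁ ι₂ ρ₀) (s35c_dcRep_ex ι₁ ι₂ ρ₀)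
    (s35c_dcRep_inj ι₁ ι₂ ρ₀)

@[simp] theorem s35c_dc_rep (hι₁ : Function.Injective ι₁) (ι₂ : G₂ →* 𝔾) (ρ₀ : 𝔾)
    (x : G₂ ⧸ s35c_dcSub ι₁ ι₂ ρ₀) :
    (s35c_dc hι₁ ι₂ ρ₀).rep x = ρ₀ * ι₂ (x.out)⁻¹ := rfl

open Classical in
/-- The operator of the double coset `ι₁ G₁ * ρ₀ * ι₂ G₂` on homomorphisms (zero when the
double coset is not a finite union of cosets). -/
noncomputable def s35c_dcOp (hι₁ : Function.Injective ι₁) (ι₂ : G₂ →* 𝔾) (ρ₀ : 𝔾)
    {A : Type*} [AddCommMonoid A] : (Additive G₁ →+ A) →+ (Additive G₂ →+ A) :=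
  if h : Finite (G₂ ⧸ s35c_dcSub ι₁ ι₂ ρ₀) then
    haveI := h
    letI := Fintype.ofFinite (G₂ ⧸ s35c_dcSub ι₁ ι₂ ρ₀)
    s35c_opHom (s35c_dc hι₁ ι₂ ρ₀)
  else 0

theorem s35c_dcOp_eq (hι₁ : Function.Injective ι₁) (ι₂ : G₂ →* 𝔾) (ρ₀ : 𝔾)
    [Fintype (G₂ ⧸ s35c_dcSub ι₁ ι₂ ρ₀)] {A : Type*} [AddCommMonoid A]
    (ψ : Additive G₁ →+ A) :
    s35c_dcOp hι₁ ι₂ ρ₀ ψ = s35c_op (s35c_dc hι₁ ι₂ ρ₀) ψ := by
  have hfin : Finite (G₂ ⧸ s35c_dcSub ι₁ ι₂ ρ₀) := Finite.of_fintype _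
  unfold s35c_dcOp
  rw [dif_pos hfin]
  refine AddMonoidHom.ext fun γ => ?_
  show @Finset.sum _ _ _ (@Finset.univ _ (Fintype.ofFinite _)) _ = @Finset.sum _ _ _ _ _
  congr 1
  exact Finset.ext (fun x => by simp)

theorem s35c_dcOp_of_not_finite (hι₁ : Function.Injective ι₁) (ι₂ : G₂ →* 𝔾) (ρ₀ : 𝔾)
    (h : ¬ Finite (G₂ ⧸ s35c_dcSub ι₁ ι₂ ρ₀)) {A : Type*} [AddCommMonoid A]
    (ψ : Additive G₁ →+ A) : s35c_dcOp hι₁ ι₂ ρ₀ ψ = 0 := by
  unfold s35c_dcOp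
  rw [dif_neg h]
  rfl

/-! ### Parabolic elements -/

theorem s35c_Datum.coc_pow [Fintype X] {A : Type*} [AddCommMonoid A]
    (D : s35c_Datum ι₁ ι₂ X) (ψ : Additive G₁ →+ A) (γ : G₂) (x : X) (n : ℕ) :
    ψ (Additive.ofMul (D.coc (γ ^ n) x)) =
      ∑ i ∈ Finset.range n, ψ (Additive.ofMul (D.coc γ ((D.act γ)^[i] x))) := by
  induction n with
  | zero =>
    rw [pow_zero, D.coc_one, ofMul_one, map_zero, Finset.range_zero, Finset.sum_empty]
  | succ n ih =>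
    rw [pow_succ, D.coc_mul, ofMul_mul, map_add, ih, Finset.sum_range_succ, D.act_pow]

/-- The operator of a datum preserves the homomorphisms which vanish on a class of elements
stable under powers and under the conjugations `ρ * ι₂ γ = ι₁ g * ρ`, when the group of values
has no torsion. -/
theorem s35c_op_par [Fintype X] {A : Type*} [AddCommGroup A]
    (hA : ∀ (n : ℕ) (a : A), n ≠ 0 → n • a = 0 → a = 0)
    (D : s35c_Datum ι₁ ι₂ X) (P₁ : G₁ → Prop) (P₂ : G₂ → Prop)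
    (hpow : ∀ (γ : G₂) (n : ℕ), P₂ γ → P₂ (γ ^ n))
    (hconj : ∀ (γ : G₂) (g : G₁) (ρ : 𝔾), ρ * ι₂ γ = ι₁ g * ρ → P₂ γ → P₁ g)
    (ψ : Additive G₁ →+ A) (hψ : ∀ g : G₁, P₁ g → ψ (Additive.ofMul g) = 0)
    (γ : G₂) (hγ : P₂ γ) : s35c_op D ψ (Additive.ofMul γ) = 0 := by
  classical
  set π : Equiv.Perm X := D.actEquiv γ with hπ
  set r : ℕ := orderOf π with hr
  have hr0 : r ≠ 0 := (orderOf_pos π).ne'
  have hπr : π ^ r = 1 := pow_orderOf_eq_one π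
  have hiter : ∀ (i : ℕ) (x : X), (D.act γ)^[i] x = (π ^ i) x := by
    intro i x
    rw [Equiv.Perm.coe_pow]
    rfl
  have hx : ∀ x : X, ∑ i ∈ Finset.range r,
      ψ (Additive.ofMul (D.coc γ ((π ^ i) x))) = 0 := by
    intro x
    have h1 := D.coc_pow ψ γ x r
    rw [Finset.sum_congr rfl (fun i _ => by rw [hiter i x])] at h1
    rw [← h1]
    apply hψ
    have hfix : D.act (γ ^ r) x = x := by
      rw [D.act_pow, hiter, hπr]
      rfl
    have hs := D.spec (γ ^ r) x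
    rw [hfix] at hs
    exact hconj (γ ^ r) _ (D.rep x) hs (hpow γ r hγ)
  have hsum : ∑ x : X, ∑ i ∈ Finset.range r,
      ψ (Additive.ofMul (D.coc γ ((π ^ i) x))) = 0 :=
    Finset.sum_eq_zero (fun x _ => hx x)
  rw [Finset.sum_comm] at hsum
  have hi : ∀ i ∈ Finset.range r, ∑ x : X,
      ψ (Additive.ofMul (D.coc γ ((π ^ i) x))) = s35c_op D ψ (Additive.ofMul γ) := by
    intro i _
    rw [s35c_op_apply]
    exact Equiv.sum_comp (π ^ i) (fun x => ψ (Additive.ofMul (D.coc γ x)))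
  rw [Finset.sum_congr rfl hi, Finset.sum_const, Finset.card_range] at hsum
  exact hA r _ hr0 hsum

end Datum

end Fermat.Agent.S35
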