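/-
S35, leaf [COR] (owner: helper11).  Prefix `s35c_`.

THE TWO TRANSFERS from the level `M * q` to the level `M` on homomorphisms `Γ₀ → A`:

* `s35c_corA M q` : the operator of the double coset `Γ₀(M q) · 1 · Γ₀(M)`
  (the transfer for the inclusion `Γ₀(M q) ⊆ Γ₀(M)`; representatives `r_c ∈ Γ₀(M)` of
  `Γ₀(M q) \ Γ₀(M)`);
* `s35c_corB M q` : the operator of the double coset `Γ₀(M q) · (1 0; 0 q) · Γ₀(M)`
  (the transfer for the second embedding; representatives `(1 0; 0 q) · r_c`, `r_c` running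
  through `(Γ₀(M) ∩ Γ⁰(q)) \ Γ₀(M)`).

For a datum `D` with representatives `rep x` (`rep x * γ = coc γ x * rep (act γ x)`) the operator
is `(op ψ)(γ) = ∑ₓ ψ (coc γ x)`; it depends only on the cosets `Γ₀(M q) · rep x`
(`s35c_op_eq_of_equiv`, `CorAbs.lean`).  On functions `h` with `h ∘ γ = χ(γ) h`, `γ ∈ Γ₀(M q)`,
the product `∏ₓ h ∘ rep x` has the character `op χ`.
-/
import Mathlib
import Fermat.Prelude.Def_ModularForm_HeckeOperator
import Fermat.Agent.S35.CorAbs

set_option autoImplicit false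
set_option linter.unusedSectionVars false
set_option linter.unusedVariables false
set_option linter.style.haveILetI false

namespace Fermat.Agent.S35

open CongruenceSubgroup Matrix.SpecialLinearGroup
open scoped MatrixGroups

/-- The embedding of `Γ₀(N)` into `GL₂(ℝ)`. -/
noncomputable def s35c_iota (N : ℕ) : Gamma0 N →* GL (Fin 2) ℝ :=
  (mapGL ℝ).comp (Gamma0 N).subtype

@[simp] theorem s35c_iota_apply (N : ℕ) (γ : Gamma0 N) :
    s35c_iota N γ = mapGL ℝ (γ : SL(2, ℤ)) := rfl

theorem s35c_iota_injective (N : ℕ) : Function.Injective (s35c_iota N) :=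
  (mapGL_injective (R := ℤ) (S := ℝ)).comp Subtype.val_injective

/-- The base element `(1 0; 0 q)` of the second double coset. -/
noncomputable def s35c_rhoB (q : ℕ) : GL (Fin 2) ℝ := ModularForm.heckeMatrix q 0

theorem s35c_rhoB_val {q : ℕ} (hq : q ≠ 0) :
    ((s35c_rhoB q : GL (Fin 2) ℝ) : Matrix (Fin 2) (Fin 2) ℝ) = !![(1 : ℝ), 0; 0, (q : ℝ)] := by
  rw [s35c_rhoB, ModularForm.val_heckeMatrix hq]
  simp

/-- **The transfer along the inclusion** `Γ₀(M q) ⊆ Γ₀(M)`. -/
noncomputable def s35c_corA (M q : ℕ) {A : Type*} [AddCommMonoid A] :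
    (Additive (Gamma0 (M * q)) →+ A) →+ (Additive (Gamma0 M) →+ A) :=
  s35c_dcOp (s35c_iota_injective (M * q)) (s35c_iota M) 1

/-- **The transfer along the second embedding** of `Γ₀(M q)` into `Γ₀(M)`. -/
noncomputable def s35c_corB (M q : ℕ) {A : Type*} [AddCommMonoid A] :
    (Additive (Gamma0 (M * q)) →+ A) →+ (Additive (Gamma0 M) →+ A) :=
  s35c_dcOp (s35c_iota_injective (M * q)) (s35c_iota M) (s35c_rhoB q)

/-- The index set of the first transfer. -/
abbrev s35c_XA (M q : ℕ) : Type :=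
  Gamma0 M ⧸ s35c_dcSub (s35c_iota (M * q)) (s35c_iota M) 1

/-- The index set of the second transfer. -/
abbrev s35c_XB (M q : ℕ) : Type :=
  Gamma0 M ⧸ s35c_dcSub (s35c_iota (M * q)) (s35c_iota M) (s35c_rhoB q)

/-- The datum of the first transfer. -/
noncomputable def s35c_datA (M q : ℕ) :
    s35c_Datum (s35c_iota (M * q)) (s35c_iota M) (s35c_XA M q) :=
  s35c_dc (s35c_iota_injective (M * q)) (s35c_iota M) 1

/-- The datum of the second transfer. -/
noncomputable def s35c_datB (M q : ℕ) :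
    s35c_Datum (s35c_iota (M * q)) (s35c_iota M) (s35c_XB M q) :=
  s35c_dc (s35c_iota_injective (M * q)) (s35c_iota M) (s35c_rhoB q)

theorem s35c_corA_eq (M q : ℕ) [Fintype (s35c_XA M q)] {A : Type*} [AddCommMonoid A]
    (ψ : Additive (Gamma0 (M * q)) →+ A) :
    s35c_corA M q ψ = s35c_op (s35c_datA M q) ψ :=
  s35c_dcOp_eq _ _ _ ψ

theorem s35c_corB_eq (M q : ℕ) [Fintype (s35c_XB M q)] {A : Type*} [AddCommMonoid A]
    (ψ : Additive (Gamma0 (M * q)) →+ A) :
    s35c_corB M q ψ = s35c_op (s35c_datB M q) ψ :=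
  s35c_dcOp_eq _ _ _ ψ

/-- Naturality of the first transfer in the coefficients. -/
theorem s35c_corA_comp (M q : ℕ) {A B : Type*} [AddCommMonoid A] [AddCommMonoid B]
    (f : A →+ B) (ψ : Additive (Gamma0 (M * q)) →+ A) :
    s35c_corA M q (f.comp ψ) = f.comp (s35c_corA M q ψ) := by
  classical
  by_cases h : Finite (s35c_XA M q)
  · haveI := h
    letI := Fintype.ofFinite (s35c_XA M q)
    rw [s35c_corA_eq, s35c_corA_eq, s35c_op_comp_coeff]
  · unfold s35c_corA
    rw [s35c_dcOp_of_not_finite _ _ _ h, s35c_dcOp_of_not_finite _ _ _ h, AddMonoidHom.comp_zero]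

/-- Naturality of the second transfer in the coefficients. -/
theorem s35c_corB_comp (M q : ℕ) {A B : Type*} [AddCommMonoid A] [AddCommMonoid B]
    (f : A →+ B) (ψ : Additive (Gamma0 (M * q)) →+ A) :
    s35c_corB M q (f.comp ψ) = f.comp (s35c_corB M q ψ) := by
  classical
  by_cases h : Finite (s35c_XB M q)
  · haveI := h
    letI := Fintype.ofFinite (s35c_XB M q)
    rw [s35c_corB_eq, s35c_corB_eq, s35c_op_comp_coeff]
  · unfold s35c_corB
    rw [s35c_dcOp_of_not_finite _ _ _ h, s35c_dcOp_of_not_finite _ _ _ h, AddMonoidHom.comp_zero]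

end Fermat.Agent.S35
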