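/-
S35, INTERFACE of the quadratic lattice [N-MOD] (`s35_NModStatement`, `S35/Top.lean`).
Architect: helper16.  Prefix `s35_`.  Definitions and `Prop`s only.

`g` a newform of level `M`, `Λ = parabolicHoms ℤ Γ₀(M) ℤ`, `J = J₀(M)(Q̄)`.

  [N-MOD]   ⇐  [TATE-ABS] (`s30m_TateStatement`, S30) applied to a sublattice `Λ' ⊆ Λ` and to
               the subgroup `J' ⊆ J` generated by the Galois conjugates of the Kummer classes
               `D k c`, `c ∈ Λ'`                                              (`S35/NModAsm.lean`)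
  [K-PUSH]  `s35_KumPushStatement`: the family `D` of [KUM-∞] (S30) with the additional property
            `cor c = 0 ⟹ push (D k c) = 0` for the two degeneracy maps;
  [J-GAL]   `s35_PushGalStatement`: the two push-forwards `J₀(M q) → J₀(M)` are Galois equivariant;
  [N-NEW]   `s35_NNewStatement`: the two transfers of the period homomorphism of a newform of
            level `M q`, `q ∤ M`, vanish;
  [N-LAT]   `s35_NLatStatement`: a saturated Hecke stable sublattice `Λ' ⊆ Λ` killed by all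
            transfers, with an eigenvector of the eigensystem of `g` in `𝒪 ⊗ Λ'`;
  (NEW-FROB) `s35_NewFrobStatement` (`S35/NfDefs.lean`).
-/
import Mathlib
import Fermat.Prelude.Def_CuspForm_HeckeGaloisRepDatum
import Fermat.Prelude.Def_CuspForm_Newforms
import Fermat.Prelude.Def_ModularCurve_HeckeModule
import Fermat.Agent.S29.LatDefs
import Fermat.Agent.S35.Push
import Fermat.Agent.S35.Cor

set_option autoImplicit false

open scoped TensorProduct

open ModularCurve ModularCurve.Period CongruenceSubgroup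

noncomputable section

namespace Fermat.Agent.S35

open Fermat.Agent.S29

/-- The identification of the homomorphisms on `Γ₀(N)` and on `Γ₀(N')` for `N = N'`. -/
def s35_castG {N N' : ℕ} (h : N = N') {A : Type*} [AddCommMonoid A] :
    (Additive (Gamma0 N) →+ A) →+ (Additive (Gamma0 N') →+ A) :=
  h ▸ AddMonoidHom.id (Additive (Gamma0 N) →+ A)

@[simp]
theorem s35_castG_rfl (N : ℕ) {A : Type*} [AddCommMonoid A] (ψ : Additive (Gamma0 N) →+ A) :
    s35_castG (rfl : N = N) ψ = ψ := rfl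

/-- **[K-PUSH]** the compatible family of Kummer maps of [KUM-∞] (`s30ki_Statement`, the first
four clauses verbatim), with the additional property: if a transfer of `c` to a level `M`,
`N = M q`, vanishes, then the corresponding push-forward of the classes `D k c` vanishes. -/
def s35_KumPushStatement : Prop :=
  ∀ (N : ℕ) [NeZero N] (p : ℕ), p.Prime →
    ∃ D : ℕ → ↥(parabolicHoms ℤ (Gamma0 N) ℤ) →+ JZero N,
      (∀ k c, p ^ k • D k c = 0) ∧ (∀ k c, D k c = 0 → ∃ c', c = p ^ k • c') ∧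
      (∀ k c, p • D (k + 1) c = D k c) ∧
      (∀ (k : ℕ) (ℓ : ℕ) [Fact ℓ.Prime] (hℓN : ¬ ℓ ∣ N), ℓ ≠ p → ∀ c,
        D k (s29lat_T N ℓ hℓN c) = heckeOperatorBar N ⟨ℓ, Fact.out⟩ (D k c)) ∧
      ∀ (M q : ℕ) [NeZero M] [NeZero q] (h : N = M * q), q.Prime → ¬ q ∣ M →
        ∀ (k : ℕ) (c : ↥(parabolicHoms ℤ (Gamma0 N) ℤ)),
          (s35c_corA M q (s35_castG h (c : Additive (Gamma0 N) →+ ℤ)) = 0 →
            s35_pushA M q (s35_castJ h (D k c)) = 0) ∧
          (s35c_corB M q (s35_castG h (c : Additive (Gamma0 N) →+ ℤ)) = 0 →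
            s35_pushB M q (s35_castJ h (D k c)) = 0)

/-- **[J-GAL]** the push-forwards along the two degeneracy maps are Galois equivariant. -/
def s35_PushGalStatement : Prop :=
  ∀ (M q : ℕ) [NeZero M] [NeZero q], q.Prime → ¬ q ∣ M →
    ∀ (σ : AlgebraicClosure ℚ ≃ₐ[ℚ] AlgebraicClosure ℚ) (y : JZero (M * q)),
      s35_pushA M q (σ • y) = σ • s35_pushA M q y ∧
      s35_pushB M q (σ • y) = σ • s35_pushB M q y

/-- **[N-NEW]** the two transfers of the period homomorphism of a newform of level `M q`,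
`q ∤ M`, to the level `M` vanish. -/
def s35_NNewStatement : Prop :=
  ∀ (M q : ℕ) [NeZero M] [NeZero q], q.Prime → ¬ q ∣ M →
    ∀ g : CuspForm (Gamma0 (M * q)) 2, g.IsNewform →
      s35c_corA M q (periodMap (M * q) g) = 0 ∧ s35c_corB M q (periodMap (M * q) g) = 0

/-- **[N-LAT]** the lattice of a newform `g` of level `M`: a saturated sublattice `Λ'` of
`Λ = parabolicHoms ℤ Γ₀(M) ℤ`, stable under the Hecke operators `T_ℓ` (`ℓ ∤ M`, `ℓ ∉ S`), killed
by the two transfers to every level `M'` with `M = M' q`, `q ∤ M'` prime, and containing an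
eigenvector of the eigensystem of `g` with coefficients in `𝒪`. -/
def s35_NLatStatement : Prop :=
  ∀ {M : ℕ} [NeZero M] {g : CuspForm (Gamma0 M) 2} (_ : g.IsNewform) (S : Set ℕ)
    (𝒪 : Type) [CommRing 𝒪] [IsDomain 𝒪] [CharZero 𝒪]
    (chig : CuspForm.heckeAlgebra M 2 S →+* ℂ)
    (_ : ∀ (ℓ : ℕ) (hℓ : ℓ.Prime) (hℓM : ¬ ℓ ∣ M) (hℓS : ℓ ∉ S),
      chig (CuspForm.heckeAlgebra.T hℓ hℓM hℓS) = ModularFormClass.qCoeff g ℓ)
    (iota : chig.range →+* 𝒪),
    ∃ (Λ' : Submodule ℤ ↥(parabolicHoms ℤ (Gamma0 M) ℤ))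
      (hstab : ∀ (ℓ : ℕ) [Fact ℓ.Prime] (hℓM : ¬ ℓ ∣ M), ℓ ∉ S →
        ∀ c ∈ Λ', s29lat_T M ℓ hℓM c ∈ Λ'),
      (∀ (n : ℕ) (c : ↥(parabolicHoms ℤ (Gamma0 M) ℤ)), n ≠ 0 → n • c ∈ Λ' → c ∈ Λ') ∧
      (∀ c ∈ Λ', ∀ (M' q : ℕ) [NeZero M'] [NeZero q] (h : M = M' * q), q.Prime → ¬ q ∣ M' →
        s35c_corA M' q (s35_castG h (c : Additive (Gamma0 M) →+ ℤ)) = 0 ∧
        s35c_corB M' q (s35_castG h (c : Additive (Gamma0 M) →+ ℤ)) = 0) ∧
      ∃ w : 𝒪 ⊗[ℤ] ↥Λ', w ≠ 0 ∧
        ∀ (ℓ : ℕ) [Fact ℓ.Prime] (hℓM : ¬ ℓ ∣ M) (hℓS : ℓ ∉ S),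
          LinearMap.baseChange 𝒪 ((s29lat_T M ℓ hℓM).restrict (hstab ℓ hℓM hℓS)) w =
            (iota.comp chig.rangeRestrict) (CuspForm.heckeAlgebra.T Fact.out hℓM hℓS) • w

end Fermat.Agent.S35
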