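/-
S35, leaf [J-PUSH] / [J-GAL] (helper19).  Prefix `s35jp_`.

* `s35jp_pushA_galois`, `s35jp_pushB_galois`: the two push-forwards
  `s35_pushA M q`, `s35_pushB M q : J₀(M q) →+ J₀(M)` commute with the action of `Gal(Q̄/ℚ)`
  (every `M`, `q`; no primality hypothesis);
* `s35jp_pushGal : s35_PushGalStatement` ([J-GAL], VERBATIM `S35/NModDefs.lean`);
* torsion is mapped to torsion (`s35jp_pushA_torsion`, `s35jp_pushB_torsion`).
The dictionary at the levels `M q → M` is in `S35/JPushDict.lean`.
-/
import Mathlib
import Fermat.Agent.S29.QuadHG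
import Fermat.Agent.S35.JPushAbs
import Fermat.Agent.S35.NModDefs

set_option autoImplicit false
set_option linter.unusedSectionVars false
set_option linter.style.haveILetI false

open AlgebraicCurve ModularCurve

noncomputable section

namespace Fermat.Agent.S35

variable (M q : ℕ) [NeZero M] [NeZero q]

/-! ### Galois equivariance -/

/-- The push-forward along `α` commutes with the Galois action. -/
theorem s35jp_pushA_galois (σ : AlgebraicClosure ℚ ≃ₐ[ℚ] AlgebraicClosure ℚ)
    (y : JZero (M * q)) : s35_pushA M q (σ • y) = σ • s35_pushA M q y :=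
  s35jp_pushPic_smul (heckeAlphaBar (AlgebraicClosure ℚ) M q)
    (Fermat.Agent.S29.s29q_alpha_intertwines M q σ) y

/-- The push-forward along `β` commutes with the Galois action. -/
theorem s35jp_pushB_galois (σ : AlgebraicClosure ℚ ≃ₐ[ℚ] AlgebraicClosure ℚ)
    (y : JZero (M * q)) : s35_pushB M q (σ • y) = σ • s35_pushB M q y :=
  s35jp_pushPic_smul (heckeBetaBar (AlgebraicClosure ℚ) M q)
    (Fermat.Agent.S29.s29q_beta_intertwines M q σ) y

/-- **[J-GAL]** the push-forwards along the two degeneracy maps are Galois equivariant. -/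
theorem s35jp_pushGal : s35_PushGalStatement := fun M q _ _ _ _ σ y =>
  ⟨s35jp_pushA_galois M q σ y, s35jp_pushB_galois M q σ y⟩

/-- The classes killed by both push-forwards form a Galois stable set. -/
theorem s35jp_new_galois (σ : AlgebraicClosure ℚ ≃ₐ[ℚ] AlgebraicClosure ℚ)
    {y : JZero (M * q)} (hA : s35_pushA M q y = 0) (hB : s35_pushB M q y = 0) :
    s35_pushA M q (σ • y) = 0 ∧ s35_pushB M q (σ • y) = 0 := by
  rw [s35jp_pushA_galois, s35jp_pushB_galois, hA, hB]
  exact ⟨smul_zero (A := JZero M) σ, smul_zero (A := JZero M) σ⟩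

/-! ### Torsion -/

theorem s35jp_pushA_torsion {n : ℕ} {y : JZero (M * q)} (hy : n • y = 0) :
    n • s35_pushA M q y = 0 := by
  rw [← map_nsmul, hy, map_zero]

theorem s35jp_pushB_torsion {n : ℕ} {y : JZero (M * q)} (hy : n • y = 0) :
    n • s35_pushB M q y = 0 := by
  rw [← map_nsmul, hy, map_zero]

end Fermat.Agent.S35
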