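/-
S35, leaf [K-PUSH], part [KP-COSET], abstract half (owner: helper5).  Prefix `s35kp_`.

EXPLICIT REPRESENTATIVES OF A DOUBLE COSET.  In the vocabulary of helper11's `CorAbs.lean`:
for `ρ₀ : 𝔾` and a family `r : X → G₂` which is a system of representatives of
`s35c_dcSub ι₁ ι₂ ρ₀ \ G₂`, the elements `ρ₀ * ι₂ (r x)` are the representatives of a Hecke datum
`s35kp_dat`, and its operator is the operator `s35c_dcOp` of the double coset.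
-/
import Mathlib
import Fermat.Agent.S35.CorAbs

set_option autoImplicit false
set_option linter.unusedSectionVars false
set_option linter.unusedVariables false
set_option linter.style.haveILetI false

namespace Fermat.Agent.S35

section Abs

variable {𝔾 : Type*} [Group 𝔾] {G₁ G₂ : Type*} [Group G₁] [Group G₂]
  {ι₁ : G₁ →* 𝔾} {ι₂ : G₂ →* 𝔾} {X : Type*}

theorem s35kp_rep_ex (ρ₀ : 𝔾) (r : X → G₂)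
    (hcompl : ∀ g : G₂, ∃ x, g * (r x)⁻¹ ∈ s35c_dcSub ι₁ ι₂ ρ₀) (γ : G₂) (x : X) :
    ∃ (y : X) (g : G₁), ρ₀ * ι₂ (r x) * ι₂ γ = ι₁ g * (ρ₀ * ι₂ (r y)) := by
  obtain ⟨y, h, hh⟩ := hcompl (r x * γ)
  refine ⟨y, h, ?_⟩
  rw [← mul_assoc, ← hh, mul_assoc, mul_assoc, ← map_mul, ← map_mul]
  congr 2
  group

theorem s35kp_rep_inj (ρ₀ : 𝔾) (r : X → G₂)
    (hdist : ∀ x y, r x * (r y)⁻¹ ∈ s35c_dcSub ι₁ ι₂ ρ₀ → x = y) (x y : X)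
    (h : ∃ g : G₁, ρ₀ * ι₂ (r x) * (ρ₀ * ι₂ (r y))⁻¹ = ι₁ g) : x = y := by
  obtain ⟨g, hg⟩ := h
  refine hdist x y ⟨g, ?_⟩
  rw [← hg, map_mul, map_inv]
  simp only [mul_inv_rev, mul_assoc, inv_mul_cancel, mul_one]

/-- The Hecke datum with the representatives `ρ₀ * ι₂ (r x)`. -/
noncomputable def s35kp_dat (hι₁ : Function.Injective ι₁) (ρ₀ : 𝔾) (r : X → G₂)
    (hcompl : ∀ g : G₂, ∃ x, g * (r x)⁻¹ ∈ s35c_dcSub ι₁ ι₂ ρ₀)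
    (hdist : ∀ x y, r x * (r y)⁻¹ ∈ s35c_dcSub ι₁ ι₂ ρ₀ → x = y) : s35c_Datum ι₁ ι₂ X :=
  s35c_Datum.ofExists hι₁ (fun x => ρ₀ * ι₂ (r x)) (s35kp_rep_ex ρ₀ r hcompl)
    (s35kp_rep_inj ρ₀ r hdist)

@[simp] theorem s35kp_dat_rep (hι₁ : Function.Injective ι₁) (ρ₀ : 𝔾) (r : X → G₂)
    (hcompl : ∀ g : G₂, ∃ x, g * (r x)⁻¹ ∈ s35c_dcSub ι₁ ι₂ ρ₀)
    (hdist : ∀ x y, r x * (r y)⁻¹ ∈ s35c_dcSub ι₁ ι₂ ρ₀ → x = y) (x : X) :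
    (s35kp_dat hι₁ ρ₀ r hcompl hdist).rep x = ρ₀ * ι₂ (r x) := rfl

theorem s35kp_mk_bijective (ρ₀ : 𝔾) (r : X → G₂)
    (hcompl : ∀ g : G₂, ∃ x, g * (r x)⁻¹ ∈ s35c_dcSub ι₁ ι₂ ρ₀)
    (hdist : ∀ x y, r x * (r y)⁻¹ ∈ s35c_dcSub ι₁ ι₂ ρ₀ → x = y) :
    Function.Bijective
      (fun x : X => (QuotientGroup.mk (r x)⁻¹ : G₂ ⧸ s35c_dcSub ι₁ ι₂ ρ₀)) := by
  constructor
  · intro x y hxy
    have h1 : ((r x)⁻¹)⁻¹ * (r y)⁻¹ ∈ s35c_dcSub ι₁ ι₂ ρ₀ := QuotientGroup.eq.mp hxy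
    rw [inv_inv] at h1
    exact hdist x y h1
  · intro c
    obtain ⟨g, rfl⟩ := QuotientGroup.mk_surjective c
    obtain ⟨x, hx⟩ := hcompl g⁻¹
    refine ⟨x, QuotientGroup.eq.mpr ?_⟩
    have h2 := (s35c_dcSub ι₁ ι₂ ρ₀).inv_mem hx
    rw [mul_inv_rev, inv_inv, inv_inv] at h2
    rw [inv_inv]
    exact h2

/-- The index set of the explicit representatives is the index set of the double coset. -/
noncomputable def s35kp_equiv (ρ₀ : 𝔾) (r : X → G₂)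
    (hcompl : ∀ g : G₂, ∃ x, g * (r x)⁻¹ ∈ s35c_dcSub ι₁ ι₂ ρ₀)
    (hdist : ∀ x y, r x * (r y)⁻¹ ∈ s35c_dcSub ι₁ ι₂ ρ₀ → x = y) :
    X ≃ G₂ ⧸ s35c_dcSub ι₁ ι₂ ρ₀ :=
  Equiv.ofBijective _ (s35kp_mk_bijective ρ₀ r hcompl hdist)

theorem s35kp_out_spec (ρ₀ : 𝔾) (r : X → G₂) (x : X) :
    ∃ h : G₁, ρ₀ * ι₂ ((QuotientGroup.mk (r x)⁻¹ : G₂ ⧸ s35c_dcSub ι₁ ι₂ ρ₀).out)⁻¹ =
      ι₁ h * (ρ₀ * ι₂ (r x)) := by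
  set o := (QuotientGroup.mk (r x)⁻¹ : G₂ ⧸ s35c_dcSub ι₁ ι₂ ρ₀).out with ho
  have h1 : (QuotientGroup.mk o : G₂ ⧸ s35c_dcSub ι₁ ι₂ ρ₀) = QuotientGroup.mk (r x)⁻¹ :=
    QuotientGroup.out_eq' _
  have h2 : o⁻¹ * (r x)⁻¹ ∈ s35c_dcSub ι₁ ι₂ ρ₀ := QuotientGroup.eq.mp h1
  obtain ⟨h, hh⟩ := h2
  refine ⟨h, ?_⟩
  rw [← mul_assoc, ← hh, mul_assoc, ← map_mul]
  congr 2
  group

/-- **The operator of the double coset, computed with explicit representatives.** -/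
theorem s35kp_dcOp_eq [Fintype X] {A : Type*} [AddCommGroup A] (hι₁ : Function.Injective ι₁)
    (ρ₀ : 𝔾) (r : X → G₂)
    (hcompl : ∀ g : G₂, ∃ x, g * (r x)⁻¹ ∈ s35c_dcSub ι₁ ι₂ ρ₀)
    (hdist : ∀ x y, r x * (r y)⁻¹ ∈ s35c_dcSub ι₁ ι₂ ρ₀ → x = y)
    (ψ : Additive G₁ →+ A) :
    s35c_dcOp hι₁ ι₂ ρ₀ ψ = s35c_op (s35kp_dat hι₁ ρ₀ r hcompl hdist) ψ := by
  classical
  letI : Fintype (G₂ ⧸ s35c_dcSub ι₁ ι₂ ρ₀) :=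
    Fintype.ofEquiv X (s35kp_equiv ρ₀ r hcompl hdist)
  rw [s35c_dcOp_eq]
  choose u hu using s35kp_out_spec (ι₁ := ι₁) (ι₂ := ι₂) ρ₀ r
  exact s35c_op_eq_of_equiv hι₁ (s35kp_dat hι₁ ρ₀ r hcompl hdist) (s35c_dc hι₁ ι₂ ρ₀)
    (s35c_dcRep_inj ι₁ ι₂ ρ₀) (s35kp_equiv ρ₀ r hcompl hdist) u (fun x => hu x) ψ

end Abs

end Fermat.Agent.S35
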