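/-
S35, leaf [K-PUSH], part [KP-COSET] (owner: helper5).  Prefix `s35kp_`.

EXPLICIT REPRESENTATIVES for the two transfers of helper11's `Cor.lean`, indexed by
`OnePoint (ZMod q)`; `γ₁ = [[x, y], [M, q]]`, `x q - y M = 1`:

* A (`ρ₀ = 1`):            `r ∞ = 1`,                       `r j = γ₁ T^j = [[x, x j + y], [M, M j + q]]`;
* B (`ρ₀ = (1 0; 0 q)`):   `r ∞ = γ' = [[q x, y], [M, 1]]`,  `r j = T^j`
  (so that `ρ₀ r ∞ = γ₁ · diag(q, 1)` and `ρ₀ r j = heckeMatrix q j`).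

* `s35kp_mem_dcSubA`, `s35kp_mem_dcSubB`: the subgroups of the two double cosets are
  `Γ₀(M q)` and `Γ₀(M) ∩ Γ⁰(q)`;
* `s35kp_datA`, `s35kp_datB`: the Hecke data with these representatives;
* `s35kp_corA_eq`, `s35kp_corB_eq`: `s35c_corA M q ψ = s35c_op (s35kp_datA ..) ψ` (and B).
-/
import Mathlib
import Fermat.Agent.S37.AtkinLehnerMap
import Fermat.Agent.S35.Cor
import Fermat.Agent.S35.KPushCosetAbs

set_option autoImplicit false
set_option linter.unusedSectionVars false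
set_option linter.unusedVariables false
set_option linter.style.haveILetI false

noncomputable section

namespace Fermat.Agent.S35

open CongruenceSubgroup Matrix.SpecialLinearGroup ModularForm Fermat.Agent.S37
open scoped MatrixGroups

theorem s35kp_mul_inv_10 (a b : SL(2, ℤ)) :
    (a * b⁻¹ : SL(2, ℤ)) 1 0 = a 1 0 * b 1 1 - a 1 1 * b 1 0 := by
  rw [Matrix.SpecialLinearGroup.SL2_inv_expl]
  simp [Matrix.mul_apply, Fin.sum_univ_two]
  ring

theorem s35kp_mul_inv_01 (a b : SL(2, ℤ)) :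
    (a * b⁻¹ : SL(2, ℤ)) 0 1 = a 0 1 * b 0 0 - a 0 0 * b 0 1 := by
  rw [Matrix.SpecialLinearGroup.SL2_inv_expl]
  simp [Matrix.mul_apply, Fin.sum_univ_two]
  ring

theorem s35kp_det (a : SL(2, ℤ)) : a 0 0 * a 1 1 - a 0 1 * a 1 0 = 1 := by
  have h := a.det_coe
  rw [Matrix.det_fin_two] at h
  exact h

theorem s35kp_mem_Gamma0_iff (N : ℕ) (a : SL(2, ℤ)) : a ∈ Gamma0 N ↔ (N : ℤ) ∣ a 1 0 := by
  rw [Gamma0_mem, ZMod.intCast_zmod_eq_zero_iff_dvd]

@[simp] theorem s35kp_mat_00 (a b c d : ℤ) (h : a * d - b * c = 1) :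
    (s37al_mat a b c d h) 0 0 = a := rfl
@[simp] theorem s35kp_mat_01 (a b c d : ℤ) (h : a * d - b * c = 1) :
    (s37al_mat a b c d h) 0 1 = b := rfl
@[simp] theorem s35kp_mat_10 (a b c d : ℤ) (h : a * d - b * c = 1) :
    (s37al_mat a b c d h) 1 0 = c := rfl
@[simp] theorem s35kp_mat_11 (a b c d : ℤ) (h : a * d - b * c = 1) :
    (s37al_mat a b c d h) 1 1 = d := rfl

variable (M q : ℕ)

theorem s35kp_mem_dcSubA (g : ↥(Gamma0 M)) :
    g ∈ s35c_dcSub (s35c_iota (M * q)) (s35c_iota M) 1 ↔ (g : SL(2, ℤ)) ∈ Gamma0 (M * q) := by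
  constructor
  · rintro ⟨h, hh⟩
    rw [one_mul, mul_one, s35c_iota_apply, s35c_iota_apply] at hh
    have := mapGL_injective (R := ℤ) (S := ℝ) hh
    rw [this]
    exact h.2
  · intro hg
    exact ⟨⟨(g : SL(2, ℤ)), hg⟩, by rw [one_mul, mul_one]; rfl⟩

theorem s35kp_glext {A B : GL (Fin 2) ℝ}
    (h00 : (A : Matrix (Fin 2) (Fin 2) ℝ) 0 0 = (B : Matrix (Fin 2) (Fin 2) ℝ) 0 0)
    (h01 : (A : Matrix (Fin 2) (Fin 2) ℝ) 0 1 = (B : Matrix (Fin 2) (Fin 2) ℝ) 0 1)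
    (h10 : (A : Matrix (Fin 2) (Fin 2) ℝ) 1 0 = (B : Matrix (Fin 2) (Fin 2) ℝ) 1 0)
    (h11 : (A : Matrix (Fin 2) (Fin 2) ℝ) 1 1 = (B : Matrix (Fin 2) (Fin 2) ℝ) 1 1) : A = B := by
  apply Units.ext
  ext i j
  fin_cases i <;> fin_cases j
  · exact h00
  · exact h01
  · exact h10
  · exact h11

theorem s35kp_rho_mul_apply {q : ℕ} (hq : q ≠ 0) (g : SL(2, ℤ)) (i j : Fin 2) :
    ((s35c_rhoB q * mapGL ℝ g : GL (Fin 2) ℝ) : Matrix (Fin 2) (Fin 2) ℝ) i j =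
      (if i = 0 then 1 else (q : ℝ)) * ((g i j : ℤ) : ℝ) := by
  rw [Units.val_mul, s35c_rhoB_val hq, mapGL_coe_matrix]
  fin_cases i <;> fin_cases j <;> simp [Matrix.mul_apply, Fin.sum_univ_two]

theorem s35kp_mul_rho_apply {q : ℕ} (hq : q ≠ 0) (g : SL(2, ℤ)) (i j : Fin 2) :
    ((mapGL ℝ g * s35c_rhoB q : GL (Fin 2) ℝ) : Matrix (Fin 2) (Fin 2) ℝ) i j =
      ((g i j : ℤ) : ℝ) * (if j = 0 then 1 else (q : ℝ)) := by
  rw [Units.val_mul, s35c_rhoB_val hq, mapGL_coe_matrix]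
  fin_cases i <;> fin_cases j <;> simp [Matrix.mul_apply, Fin.sum_univ_two]

theorem s35kp_mem_dcSubB [NeZero q] (g : ↥(Gamma0 M)) :
    g ∈ s35c_dcSub (s35c_iota (M * q)) (s35c_iota M) (s35c_rhoB q) ↔
      (q : ℤ) ∣ (g : SL(2, ℤ)) 0 1 := by
  have hq : q ≠ 0 := NeZero.ne q
  constructor
  · rintro ⟨h, hh⟩
    rw [s35c_iota_apply, s35c_iota_apply] at hh
    have h1 := congrArg (fun A : GL (Fin 2) ℝ => (A : Matrix (Fin 2) (Fin 2) ℝ) 0 1) hh
    simp only [s35kp_rho_mul_apply hq, s35kp_mul_rho_apply hq] at h1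
    simp only [if_true, one_mul] at h1
    have h2 : ((g : SL(2, ℤ)) 0 1 : ℤ) = (h : SL(2, ℤ)) 0 1 * q := by
      have : (((g : SL(2, ℤ)) 0 1 : ℤ) : ℝ) = (((h : SL(2, ℤ)) 0 1 * q : ℤ) : ℝ) := by
        push_cast
        rw [h1]
        simp
      exact_mod_cast this
    exact ⟨_, by rw [h2, mul_comm]⟩
  · rintro ⟨b', hb'⟩
    have hdet := s35kp_det (g : SL(2, ℤ))
    have hg : (M : ℤ) ∣ (g : SL(2, ℤ)) 1 0 := (s35kp_mem_Gamma0_iff M _).mp g.2
    have hmem : s37al_mat ((g : SL(2, ℤ)) 0 0) b' (q * (g : SL(2, ℤ)) 1 0) ((g : SL(2, ℤ)) 1 1)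
        (by rw [hb'] at hdet; linear_combination hdet) ∈ Gamma0 (M * q) := by
      rw [s35kp_mem_Gamma0_iff, s35kp_mat_10]
      push_cast
      rw [mul_comm (M : ℤ)]
      exact mul_dvd_mul_left _ hg
    refine ⟨⟨_, hmem⟩, ?_⟩
    rw [s35c_iota_apply, s35c_iota_apply]
    apply s35kp_glext
    all_goals
      rw [s35kp_rho_mul_apply hq, s35kp_mul_rho_apply hq]
      simp [hb']
    all_goals ring

/-! ### The representatives -/

variable (x y : ℤ) (h : x * q - y * M = 1)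

/-- `γ₁ T^j = [[x, x j + y], [M, M j + q]]`, `γ₁ = [[x, y], [M, q]]`. -/
def s35kp_gam (j : ℤ) : SL(2, ℤ) :=
  s37al_mat x (x * j + y) M (M * j + q) (by linear_combination h)

theorem s35kp_gam_mem (j : ℤ) : s35kp_gam M q x y h j ∈ Gamma0 M :=
  (s35kp_mem_Gamma0_iff M _).mpr (dvd_refl _)

/-- `γ' = [[q x, y], [M, 1]]`. -/
def s35kp_gamB : SL(2, ℤ) :=
  s37al_mat (q * x) y M 1 (by linear_combination h)

theorem s35kp_gamB_mem : s35kp_gamB M q x y h ∈ Gamma0 M :=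
  (s35kp_mem_Gamma0_iff M _).mpr (dvd_refl _)

/-- `T^j = [[1, j], [0, 1]]`. -/
def s35kp_tr (j : ℤ) : SL(2, ℤ) := s37al_mat 1 j 0 1 (by ring)

theorem s35kp_tr_mem (j : ℤ) : s35kp_tr j ∈ Gamma0 M :=
  (s35kp_mem_Gamma0_iff M _).mpr (dvd_zero _)

/-- The representatives `1`, `γ₁ T^j` of `Γ₀(M q) \ Γ₀(M)`. -/
def s35kp_rA (c : OnePoint (ZMod q)) : ↥(Gamma0 M) :=
  c.elim 1 (fun j => ⟨s35kp_gam M q x y h (j.val : ℤ), s35kp_gam_mem M q x y h _⟩)

/-- The representatives `γ'`, `T^j` of `(Γ₀(M) ∩ Γ⁰(q)) \ Γ₀(M)`. -/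
def s35kp_rB (c : OnePoint (ZMod q)) : ↥(Gamma0 M) :=
  c.elim ⟨s35kp_gamB M q x y h, s35kp_gamB_mem M q x y h⟩
    (fun j => ⟨s35kp_tr (j.val : ℤ), s35kp_tr_mem M _⟩)

section Prime

variable [Fact q.Prime]

theorem s35kp_zmod_solve {a b : ℤ} (ha : ¬ (q : ℤ) ∣ a) :
    ∃ u : ZMod q, (q : ℤ) ∣ a * (u.val : ℤ) - b := by
  have hq : q.Prime := Fact.out
  have ha' : ((a : ℤ) : ZMod q) ≠ 0 := by
    rw [Ne, ZMod.intCast_zmod_eq_zero_iff_dvd]
    exact ha
  refine ⟨((b : ℤ) : ZMod q) * ((a : ℤ) : ZMod q)⁻¹, ?_⟩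
  rw [← ZMod.intCast_zmod_eq_zero_iff_dvd]
  push_cast
  rw [ZMod.natCast_zmod_val, mul_comm ((b : ℤ) : ZMod q), ← mul_assoc, mul_inv_cancel₀ ha',
    one_mul, sub_self]

theorem s35kp_val_inj {u v : ZMod q} (huv : (q : ℤ) ∣ (u.val : ℤ) - (v.val : ℤ)) : u = v := by
  have h1 : (((u.val : ℤ) - (v.val : ℤ) : ℤ) : ZMod q) = 0 :=
    (ZMod.intCast_zmod_eq_zero_iff_dvd _ q).mpr huv
  push_cast at h1
  rw [ZMod.natCast_zmod_val, ZMod.natCast_zmod_val] at h1
  exact sub_eq_zero.mp h1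

theorem s35kp_not_dvd_M (hqM : ¬ q ∣ M) : ¬ (q : ℤ) ∣ (M : ℤ) := by
  intro hd
  exact hqM (by exact_mod_cast hd)

theorem s35kp_prime_int : Prime (q : ℤ) :=
  Nat.prime_iff_prime_int.mp Fact.out

theorem s35kp_not_dvd_one : ¬ (q : ℤ) ∣ 1 := by
  intro hd
  have hq : q.Prime := Fact.out
  have := Int.natAbs_dvd_natAbs.mpr hd
  simp at this
  exact hq.one_lt.ne' this

include h in
theorem s35kp_not_dvd_y : ¬ (q : ℤ) ∣ y := by
  intro hd
  apply s35kp_not_dvd_one q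
  have : (q : ℤ) ∣ x * q - y * M := dvd_sub (dvd_mul_left _ _) (Dvd.dvd.mul_right hd _)
  rwa [h] at this

theorem s35kp_complA [NeZero M] (hqM : ¬ q ∣ M) (g : ↥(Gamma0 M)) :
    ∃ c, g * (s35kp_rA M q x y h c)⁻¹ ∈ s35c_dcSub (s35c_iota (M * q)) (s35c_iota M) 1 := by
  obtain ⟨c', hc'⟩ := (s35kp_mem_Gamma0_iff M _).mp g.2
  by_cases hq : (q : ℤ) ∣ c'
  · refine ⟨OnePoint.infty, ?_⟩
    rw [s35kp_mem_dcSubA, s35kp_mem_Gamma0_iff]
    simp only [s35kp_rA, OnePoint.elim_infty, inv_one, mul_one]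
    rw [hc']
    push_cast
    exact mul_dvd_mul_left _ hq
  · have hMc : ¬ (q : ℤ) ∣ (M : ℤ) * c' := fun hd =>
      ((s35kp_prime_int q).dvd_or_dvd hd).elim (s35kp_not_dvd_M M q hqM) hq
    obtain ⟨u, t, ht⟩ := s35kp_zmod_solve q (b := (g : SL(2, ℤ)) 1 1) hMc
    refine ⟨(u : OnePoint (ZMod q)), ?_⟩
    rw [s35kp_mem_dcSubA, s35kp_mem_Gamma0_iff, Subgroup.coe_mul, Subgroup.coe_inv,
      s35kp_mul_inv_10]
    simp only [s35kp_rA, OnePoint.elim_some, s35kp_gam, s35kp_mat_11, s35kp_mat_10]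
    rw [hc']
    refine ⟨t + c', ?_⟩
    push_cast
    linear_combination (M : ℤ) * ht

theorem s35kp_distA [NeZero M] (hqM : ¬ q ∣ M) (c c' : OnePoint (ZMod q))
    (hcc : s35kp_rA M q x y h c * (s35kp_rA M q x y h c')⁻¹ ∈
      s35c_dcSub (s35c_iota (M * q)) (s35c_iota M) 1) : c = c' := by
  rw [s35kp_mem_dcSubA, s35kp_mem_Gamma0_iff, Subgroup.coe_mul, Subgroup.coe_inv,
    s35kp_mul_inv_10] at hcc
  have hM0 : (M : ℤ) ≠ 0 := by exact_mod_cast NeZero.ne M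
  induction c using OnePoint.rec with
  | infty =>
    induction c' using OnePoint.rec with
    | infty => rfl
    | coe j' =>
      exfalso
      simp only [s35kp_rA, OnePoint.elim_infty, OnePoint.elim_some, s35kp_gam, s35kp_mat_11,
        s35kp_mat_10, Subgroup.coe_one, Matrix.SpecialLinearGroup.coe_one, Matrix.one_apply_ne,
        Matrix.one_apply_eq, ne_eq, one_ne_zero, not_false_eq_true, zero_mul, one_mul,
        zero_sub] at hcc
      push_cast at hcc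
      obtain ⟨t, ht⟩ := hcc
      apply s35kp_not_dvd_one q
      refine ⟨-t, ?_⟩
      have : (M : ℤ) * 1 = (M : ℤ) * (q * -t) := by linear_combination -ht
      exact mul_left_cancel₀ hM0 this
  | coe j =>
    induction c' using OnePoint.rec with
    | infty =>
      exfalso
      simp only [s35kp_rA, OnePoint.elim_infty, OnePoint.elim_some, s35kp_gam, s35kp_mat_11,
        s35kp_mat_10, Subgroup.coe_one, Matrix.SpecialLinearGroup.coe_one, Matrix.one_apply_ne,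
        Matrix.one_apply_eq, ne_eq, one_ne_zero, not_false_eq_true, mul_zero, mul_one,
        sub_zero] at hcc
      push_cast at hcc
      obtain ⟨t, ht⟩ := hcc
      apply s35kp_not_dvd_one q
      refine ⟨t, ?_⟩
      have : (M : ℤ) * 1 = (M : ℤ) * (q * t) := by linear_combination ht
      exact mul_left_cancel₀ hM0 this
    | coe j' =>
      simp only [s35kp_rA, OnePoint.elim_some, s35kp_gam, s35kp_mat_11, s35kp_mat_10] at hcc
      push_cast at hcc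
      obtain ⟨t, ht⟩ := hcc
      have h1 : (q : ℤ) ∣ (M : ℤ) * ((j'.val : ℤ) - (j.val : ℤ)) := by
        refine ⟨t, ?_⟩
        have : (M : ℤ) * ((M : ℤ) * ((j'.val : ℤ) - (j.val : ℤ))) = (M : ℤ) * (q * t) := by
          linear_combination ht
        exact mul_left_cancel₀ hM0 this
      have h2 : (q : ℤ) ∣ (j'.val : ℤ) - (j.val : ℤ) :=
        ((s35kp_prime_int q).dvd_or_dvd h1).resolve_left (s35kp_not_dvd_M M q hqM)
      rw [s35kp_val_inj q h2]


theorem s35kp_complB (g : ↥(Gamma0 M)) :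
    ∃ c, g * (s35kp_rB M q x y h c)⁻¹ ∈
      s35c_dcSub (s35c_iota (M * q)) (s35c_iota M) (s35c_rhoB q) := by
  haveI : NeZero q := ⟨(Fact.out : q.Prime).ne_zero⟩
  by_cases hq : (q : ℤ) ∣ (g : SL(2, ℤ)) 0 0
  · refine ⟨OnePoint.infty, ?_⟩
    rw [s35kp_mem_dcSubB, Subgroup.coe_mul, Subgroup.coe_inv, s35kp_mul_inv_01]
    simp only [s35kp_rB, OnePoint.elim_infty, s35kp_gamB, s35kp_mat_00, s35kp_mat_01]
    exact dvd_sub (Dvd.dvd.mul_left (dvd_mul_right _ _) _) (Dvd.dvd.mul_right hq _)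
  · obtain ⟨u, t, ht⟩ := s35kp_zmod_solve q (b := (g : SL(2, ℤ)) 0 1) hq
    refine ⟨(u : OnePoint (ZMod q)), ?_⟩
    rw [s35kp_mem_dcSubB, Subgroup.coe_mul, Subgroup.coe_inv, s35kp_mul_inv_01]
    simp only [s35kp_rB, OnePoint.elim_some, s35kp_tr, s35kp_mat_00, s35kp_mat_01]
    refine ⟨-t, ?_⟩
    linear_combination -ht

theorem s35kp_distB (c c' : OnePoint (ZMod q))
    (hcc : s35kp_rB M q x y h c * (s35kp_rB M q x y h c')⁻¹ ∈
      s35c_dcSub (s35c_iota (M * q)) (s35c_iota M) (s35c_rhoB q)) : c = c' := by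
  haveI : NeZero q := ⟨(Fact.out : q.Prime).ne_zero⟩
  rw [s35kp_mem_dcSubB, Subgroup.coe_mul, Subgroup.coe_inv, s35kp_mul_inv_01] at hcc
  induction c using OnePoint.rec with
  | infty =>
    induction c' using OnePoint.rec with
    | infty => rfl
    | coe j' =>
      exfalso
      simp only [s35kp_rB, OnePoint.elim_infty, OnePoint.elim_some, s35kp_gamB, s35kp_tr,
        s35kp_mat_00, s35kp_mat_01] at hcc
      apply s35kp_not_dvd_y M q x y h
      have h1 : (q : ℤ) ∣ (q : ℤ) * x * (j'.val : ℤ) := Dvd.dvd.mul_right (dvd_mul_right _ _) _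
      have h2 := dvd_add hcc h1
      have e : y * 1 - (q : ℤ) * x * (j'.val : ℤ) + (q : ℤ) * x * (j'.val : ℤ) = y := by ring
      rwa [e] at h2
  | coe j =>
    induction c' using OnePoint.rec with
    | infty =>
      exfalso
      simp only [s35kp_rB, OnePoint.elim_infty, OnePoint.elim_some, s35kp_gamB, s35kp_tr,
        s35kp_mat_00, s35kp_mat_01] at hcc
      apply s35kp_not_dvd_y M q x y h
      have h1 : (q : ℤ) ∣ (j.val : ℤ) * ((q : ℤ) * x) := Dvd.dvd.mul_left (dvd_mul_right _ _) _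
      have h2 := dvd_sub h1 hcc
      have e : (j.val : ℤ) * ((q : ℤ) * x) - ((j.val : ℤ) * ((q : ℤ) * x) - 1 * y) = y := by ring
      rwa [e] at h2
    | coe j' =>
      simp only [s35kp_rB, OnePoint.elim_some, s35kp_tr, s35kp_mat_00, s35kp_mat_01] at hcc
      have h2 : (q : ℤ) ∣ (j.val : ℤ) - (j'.val : ℤ) := by
        have e : (j.val : ℤ) * 1 - 1 * (j'.val : ℤ) = (j.val : ℤ) - (j'.val : ℤ) := by ring
        rwa [e] at hcc
      rw [s35kp_val_inj q h2]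

/-! ### The two data -/

/-- The Hecke datum of the transfer A with the representatives `1`, `γ₁ T^j`. -/
def s35kp_datA [NeZero M] (hqM : ¬ q ∣ M) :
    s35c_Datum (s35c_iota (M * q)) (s35c_iota M) (OnePoint (ZMod q)) :=
  s35kp_dat (s35c_iota_injective (M * q)) 1 (s35kp_rA M q x y h)
    (s35kp_complA M q x y h hqM) (s35kp_distA M q x y h hqM)

/-- The Hecke datum of the transfer B with the representatives `ρ γ'`, `ρ T^j`. -/
def s35kp_datB :
    s35c_Datum (s35c_iota (M * q)) (s35c_iota M) (OnePoint (ZMod q)) :=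
  s35kp_dat (s35c_iota_injective (M * q)) (s35c_rhoB q) (s35kp_rB M q x y h)
    (s35kp_complB M q x y h) (s35kp_distB M q x y h)

theorem s35kp_datA_rep [NeZero M] (hqM : ¬ q ∣ M) (c : OnePoint (ZMod q)) :
    (s35kp_datA M q x y h hqM).rep c = mapGL ℝ ((s35kp_rA M q x y h c : ↥(Gamma0 M)) : SL(2, ℤ)) := by
  show (1 : GL (Fin 2) ℝ) * s35c_iota M (s35kp_rA M q x y h c) = _
  rw [one_mul, s35c_iota_apply]

theorem s35kp_datB_rep (c : OnePoint (ZMod q)) :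
    (s35kp_datB M q x y h).rep c =
      s35c_rhoB q * mapGL ℝ ((s35kp_rB M q x y h c : ↥(Gamma0 M)) : SL(2, ℤ)) := rfl

variable [NeZero q]

/-- The transfer A is the operator of the explicit datum. -/
theorem s35kp_corA_eq [NeZero M] (hqM : ¬ q ∣ M) {A : Type*} [AddCommGroup A]
    (ψ : Additive ↥(Gamma0 (M * q)) →+ A) :
    s35c_corA M q ψ = s35c_op (s35kp_datA M q x y h hqM) ψ :=
  s35kp_dcOp_eq (s35c_iota_injective (M * q)) 1 (s35kp_rA M q x y h)
    (s35kp_complA M q x y h hqM) (s35kp_distA M q x y h hqM) ψ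

/-- The transfer B is the operator of the explicit datum. -/
theorem s35kp_corB_eq {A : Type*} [AddCommGroup A]
    (ψ : Additive ↥(Gamma0 (M * q)) →+ A) :
    s35c_corB M q ψ = s35c_op (s35kp_datB M q x y h) ψ :=
  s35kp_dcOp_eq (s35c_iota_injective (M * q)) (s35c_rhoB q) (s35kp_rB M q x y h)
    (s35kp_complB M q x y h) (s35kp_distB M q x y h) ψ

end Prime

end Fermat.Agent.S35

end
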