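/-
S35, leaf [K-PUSH], part [KP-SER] (owner: helper5).  Prefix `s35kp_`.

The MIXED Hecke product of two functions on the upper half plane,

    s35kp_mix ℓ P₁ P₂ (z) = P₁ (z) · ∏_{j < ℓ} P₂ ((z + j) / ℓ),

and its `q`-expansion for nice `P₁`, `P₂`:

    (series (mix P₁ P₂))(t^ℓ) = (series P₁)(t^ℓ) · ∏_{j < ℓ} (series P₂)(ζ^j t).

For a form `f` of level `M q` and `f^w (z) = (f ∣ γ₁)(q z)` the product over the `q + 1` cosets of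
`Γ₀(M q)` in `Γ₀(M)` is `mix q f f^w` (push-forward along `α`), and the product for the second
degeneracy map is `mix q f^w f` (push-forward along `β`).
-/
import Mathlib
import Fermat.Agent.S29.HkAnKum

set_option autoImplicit false
set_option linter.unusedSectionVars false

noncomputable section

namespace Fermat.Agent.S35

open UpperHalfPlane ModularFormClass CongruenceSubgroup Matrix.SpecialLinearGroup Function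
open ModularForm Filter Asymptotics
open scoped MatrixGroups ModularForm Manifold Real Topology

open Fermat.Agent.S22 Fermat.Agent.S24 Fermat.Agent.S28 Fermat.Agent.S29 Fermat.Agent.S37

/-- The mixed Hecke product `z ↦ P₁ (z) · ∏_{j<ℓ} P₂ ((z + j) / ℓ)`. -/
def s35kp_mix (ℓ : ℕ) (P₁ P₂ : ℍ → ℂ) : ℍ → ℂ :=
  fun z => P₁ z * ∏ j ∈ Finset.range ℓ, P₂ (heckeMatrix ℓ j • z)

theorem s35kp_mix_apply (ℓ : ℕ) (P₁ P₂ : ℍ → ℂ) (z : ℍ) :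
    s35kp_mix ℓ P₁ P₂ z = P₁ z * ∏ j ∈ Finset.range ℓ, P₂ (heckeMatrix ℓ j • z) := rfl

theorem s35kp_mix_mul (ℓ : ℕ) (P₁ P₂ Q₁ Q₂ : ℍ → ℂ) :
    s35kp_mix ℓ (P₁ * Q₁) (P₂ * Q₂) = s35kp_mix ℓ P₁ P₂ * s35kp_mix ℓ Q₁ Q₂ := by
  funext z
  simp only [s35kp_mix_apply, Pi.mul_apply, Finset.prod_mul_distrib]
  ring

theorem s35kp_mix_pow (ℓ : ℕ) (P₁ P₂ : ℍ → ℂ) (n : ℕ) :
    s35kp_mix ℓ (P₁ ^ n) (P₂ ^ n) = s35kp_mix ℓ P₁ P₂ ^ n := by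
  funext z
  simp only [s35kp_mix_apply, Pi.pow_apply, Finset.prod_pow, mul_pow]

theorem s35kp_mix_one (ℓ : ℕ) : s35kp_mix ℓ (1 : ℍ → ℂ) 1 = 1 := by
  funext z
  simp [s35kp_mix_apply]

theorem s35kp_mix_smul (ℓ : ℕ) (c₁ c₂ : ℂ) (P₁ P₂ : ℍ → ℂ) :
    s35kp_mix ℓ (c₁ • P₁) (c₂ • P₂) = (c₁ * c₂ ^ ℓ) • s35kp_mix ℓ P₁ P₂ := by
  funext z
  simp only [s35kp_mix_apply, Pi.smul_apply, smul_eq_mul, Finset.prod_mul_distrib,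
    Finset.prod_const, Finset.card_range]
  ring

/-! ### Regularity -/

theorem s35kp_mix_mdiff (ℓ : ℕ) {P₁ P₂ : ℍ → ℂ} (h₁ : MDiff P₁) (h₂ : MDiff P₂) :
    MDiff (s35kp_mix ℓ P₁ P₂) := by
  have h := s29hka_mdiff_finprod (Finset.range ℓ) (fun j z => P₂ (heckeMatrix ℓ j • z))
    fun j _ => s29hka_mdiff_comp _ (det_heckeMatrix_pos ℓ j) h₂
  exact h₁.mul h

theorem s35kp_mix_bdd (ℓ : ℕ) {P₁ P₂ : ℍ → ℂ} (h₁ : IsBoundedAtImInfty P₁)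
    (h₂ : IsBoundedAtImInfty P₂) : IsBoundedAtImInfty (s35kp_mix ℓ P₁ P₂) := by
  have h := s29hka_bdd_finprod (Finset.range ℓ) (fun j z => P₂ (heckeMatrix ℓ j • z))
    fun j _ => s29hka_bdd_comp _ (det_heckeMatrix_pos ℓ j) (s29hka_heckeMatrix_one_zero ℓ j) h₂
  exact h₁.mul h

theorem s35kp_mix_vadd (ℓ : ℕ) [NeZero ℓ] {P₁ P₂ : ℍ → ℂ} (h₁ : Periodic (P₁ ∘ ofComplex) 1)
    (h₂ : Periodic (P₂ ∘ ofComplex) 1) (τ : ℍ) :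
    s35kp_mix ℓ P₁ P₂ ((1 : ℝ) +ᵥ τ) = s35kp_mix ℓ P₁ P₂ τ := by
  have hℓ : ℓ ≠ 0 := NeZero.ne ℓ
  have e1 : P₁ ((1 : ℝ) +ᵥ τ) = P₁ τ := by
    refine s29hka_apply_eq_of_coe_eq_add_nat h₁ 1 ?_
    rw [coe_vadd]
    push_cast
    ring
  rw [s35kp_mix_apply, s35kp_mix_apply, e1]
  congr 1
  simp only [s29hka_heckeMatrix_smul_vadd hℓ]
  obtain ⟨n, hn⟩ : ∃ n, ℓ = n + 1 := Nat.exists_eq_succ_of_ne_zero hℓ
  have h0 := Finset.prod_range_succ' (fun j => P₂ (heckeMatrix ℓ j • τ)) n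
  have h1 := Finset.prod_range_succ (fun j => P₂ (heckeMatrix ℓ (j + 1) • τ)) n
  have h2 : P₂ (heckeMatrix ℓ (n + 1) • τ) = P₂ (heckeMatrix ℓ 0 • τ) := by
    rw [← hn]
    exact s29hka_apply_eq_of_coe_eq_add_nat h₂ 1 (s29hka_coe_heckeMatrix_smul_self hℓ τ)
  rw [hn] at *
  rw [h1, h0, h2]

/-- The mixed Hecke product of nice functions is nice. -/
theorem s35kp_mix_isNice (ℓ : ℕ) [NeZero ℓ] {P₁ P₂ : ℍ → ℂ} (h₁ : IsNice P₁) (h₂ : IsNice P₂) :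
    IsNice (s35kp_mix ℓ P₁ P₂) where
  per := s29hka_periodic_of_vadd (s35kp_mix_vadd ℓ h₁.per h₂.per)
  holo := s35kp_mix_mdiff ℓ h₁.holo h₂.holo
  bdd := s35kp_mix_bdd ℓ h₁.bdd h₂.bdd

/-! ### The `q`-expansion -/

theorem s35kp_mix_diag (ℓ : ℕ) (P₁ P₂ : ℍ → ℂ) (z : ℍ) :
    s35kp_mix ℓ P₁ P₂ (heckeDiagMatrix ℓ • z) =
      P₁ (heckeDiagMatrix ℓ • z) * ∏ j ∈ Finset.range ℓ, s29hka_fac ℓ j P₂ z := rfl

/-- **[KP-SER], core.** The `q`-expansion of the mixed Hecke product of nice functions: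
`(series (mix P₁ P₂))(t^ℓ) = (series P₁)(t^ℓ) · ∏_{j<ℓ} (series P₂)(ζ^j t)`. -/
theorem s35kp_mix_series (ℓ : ℕ) [NeZero ℓ] {P₁ P₂ : ℍ → ℂ} (h₁ : IsNice P₁) (h₂ : IsNice P₂) :
    ModularCurve.qExpand ℂ ℓ (s29k_ser (s35kp_mix ℓ P₁ P₂)) =
      ModularCurve.qExpand ℂ ℓ (s29k_ser P₁) *
        ∏ j ∈ Finset.range ℓ, twL_twist (s29hka_zeta ℓ ^ j) (s29k_ser P₂) := by
  have hℓ : ℓ ≠ 0 := NeZero.ne ℓ
  have H1 := twL_hasLaurent_diag' (anA_HasLaurent.of_isNice (s35kp_mix_isNice ℓ h₁ h₂)) ℓ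
  have H2 := twL_hasLaurent_diag' (anA_HasLaurent.of_isNice h₁) ℓ
  have H3 : anA_HasLaurent
      (∏ j ∈ Finset.range ℓ,
        twL_twist (s29hka_zeta ℓ ^ j) (HahnSeries.ofPowerSeries ℤ ℂ (qExpansion 1 P₂)))
      (fun z => ∏ j ∈ Finset.range ℓ, s29hka_fac ℓ j P₂ z) := by
    refine twL_hasLaurent_prod (Finset.range ℓ) fun j _ => ?_
    rw [← s29hka_fac_series hℓ j h₂]
    exact anA_HasLaurent.of_isNice (s29hka_fac_isNice hℓ j h₂)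
  have H4 := H2.mul H3
  have e : ((fun z => P₁ (heckeDiagMatrix ℓ • z)) *
      fun z => ∏ j ∈ Finset.range ℓ, s29hka_fac ℓ j P₂ z) =
      fun z => s35kp_mix ℓ P₁ P₂ (heckeDiagMatrix ℓ • z) := by
    funext z
    rw [s35kp_mix_diag]
    rfl
  rw [e] at H4
  exact H1.unique_series H4

/-- The mixed Hecke product of non-zero nice functions is non-zero. -/
theorem s35kp_mix_ne_zero (ℓ : ℕ) [NeZero ℓ] {P₁ P₂ : ℍ → ℂ} (h₁ : IsNice P₁) (h₂ : IsNice P₂)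
    (h₁0 : P₁ ≠ 0) (h₂0 : P₂ ≠ 0) : s35kp_mix ℓ P₁ P₂ ≠ 0 := by
  intro h
  have h1 := s35kp_mix_series ℓ h₁ h₂
  have h2 : s29k_ser (s35kp_mix ℓ P₁ P₂) = 0 := by
    have h3 := anA_HasLaurent.of_isNice (s35kp_mix_isNice ℓ h₁ h₂)
    rw [h] at h3 ⊢
    exact h3.series_eq_zero
  rw [h2, map_zero] at h1
  have hs₁ := s29ku_ser_ne_zero h₁ h₁0
  have hs₂ := s29ku_ser_ne_zero h₂ h₂0
  have h4 : ModularCurve.qExpand ℂ ℓ (s29k_ser P₁) ≠ 0 := by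
    intro h5
    exact hs₁ ((s29hka_qExpand_injective ℓ) (by rw [h5, map_zero]))
  have h6 : ∏ j ∈ Finset.range ℓ, twL_twist (s29hka_zeta ℓ ^ j) (s29k_ser P₂) ≠ 0 :=
    Finset.prod_ne_zero_iff.mpr fun j _ => (twL_twist_eq_zero _).not.mpr hs₂
  exact mul_ne_zero h4 h6 h1.symm

/-- The mixed product of functions with non-zero nice powers is non-zero. -/
theorem s35kp_mix_ne_zero_of_pow (ℓ : ℕ) [NeZero ℓ] {f₁ f₂ : ℍ → ℂ} {p : ℕ}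
    (h₁ : IsNice (f₁ ^ p)) (h₂ : IsNice (f₂ ^ p)) (h₁0 : f₁ ≠ 0) (h₂0 : f₂ ≠ 0) (hp : p ≠ 0) :
    s35kp_mix ℓ f₁ f₂ ≠ 0 := by
  intro h
  have h3 := s35kp_mix_ne_zero ℓ h₁ h₂ (s29ku_pow_ne_zero h₁0 p) (s29ku_pow_ne_zero h₂0 p)
  rw [s35kp_mix_pow, h] at h3
  exact h3 (zero_pow hp)

/-- **[KP-SER]** for ratios, in the spelling of S37's twist and for ANY primitive `ℓ`-th root of
unity: `(series (mix P₁ P₂) / series (mix Q₁ Q₂))(t^ℓ) = y₁(t^ℓ) · ∏_{i<ℓ} y₂(ζ^i t)`,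
`y_i = series P_i / series Q_i`. -/
theorem s35kp_mix_ratio (ℓ : ℕ) [NeZero ℓ] {ζ : ℂˣ} (hζ : IsPrimitiveRoot ζ ℓ)
    {P₁ P₂ Q₁ Q₂ : ℍ → ℂ} (hP₁ : IsNice P₁) (hP₂ : IsNice P₂) (hQ₁ : IsNice Q₁)
    (hQ₂ : IsNice Q₂) :
    ModularCurve.qExpand ℂ ℓ (s29k_ser (s35kp_mix ℓ P₁ P₂) / s29k_ser (s35kp_mix ℓ Q₁ Q₂)) =
      ModularCurve.qExpand ℂ ℓ (s29k_ser P₁ / s29k_ser Q₁) *
        ∏ i ∈ Finset.range ℓ, s37es_tw (ζ ^ i) (s29k_ser P₂ / s29k_ser Q₂) := by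
  rw [s29hka_prod_tw_eq (NeZero.ne ℓ) hζ (s29hka_zeta_isPrimitiveRoot (NeZero.ne ℓ))]
  rw [map_div₀, s35kp_mix_series ℓ hP₁ hP₂, s35kp_mix_series ℓ hQ₁ hQ₂, map_div₀]
  have e : ∀ j, s37es_tw (s29hka_zeta ℓ ^ j) (s29k_ser P₂ / s29k_ser Q₂) =
      twL_twist (s29hka_zeta ℓ ^ j) (s29k_ser P₂) /
        twL_twist (s29hka_zeta ℓ ^ j) (s29k_ser Q₂) := by
    intro j
    rw [← s29hka_twist_eq, map_div₀]
  simp only [e]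
  rw [Finset.prod_div_distrib, div_mul_div_comm]

/-- The element `y'` with `y'(t^ℓ) = y₁(t^ℓ) ∏ y₂(ζ^i t)` IS the ratio of the series of the
mixed products. -/
theorem s35kp_mix_root_series (ℓ : ℕ) [NeZero ℓ] {ζ : ℂˣ} (hζ : IsPrimitiveRoot ζ ℓ)
    {P₁ P₂ Q₁ Q₂ : ℍ → ℂ} (hP₁ : IsNice P₁) (hP₂ : IsNice P₂) (hQ₁ : IsNice Q₁)
    (hQ₂ : IsNice Q₂) {y₁ y₂ y' : LaurentSeries ℂ} (hy₁ : y₁ = s29k_ser P₁ / s29k_ser Q₁)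
    (hy₂ : y₂ = s29k_ser P₂ / s29k_ser Q₂)
    (hy' : ModularCurve.qExpand ℂ ℓ y' =
      ModularCurve.qExpand ℂ ℓ y₁ * ∏ i ∈ Finset.range ℓ, s37es_tw (ζ ^ i) y₂) :
    y' = s29k_ser (s35kp_mix ℓ P₁ P₂) / s29k_ser (s35kp_mix ℓ Q₁ Q₂) := by
  apply s29hka_qExpand_injective ℓ
  rw [hy', hy₁, hy₂, s35kp_mix_ratio ℓ hζ hP₁ hP₂ hQ₁ hQ₂]

end Fermat.Agent.S35

end
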