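/-
S35, leaf [K-PUSH], sub-leaf [KP-FORM] (owner: helper1), part 3.  Prefix `s35kf_`.

THE PRODUCT OF A HECKE DATUM, form (F2), in the vocabulary of helper11's `S35/CorAbs.lean`.
`D : s35c_Datum (s35c_iota N₁) (s35c_iota N₂) X` a Hecke datum from `Γ₀(N₁)` to `Γ₀(N₂)` inside
`GL₂(ℝ)` with representatives of positive determinant, `f` of weight `k` and character `χ` on
`Γ₀(N₁)`.  The product

    s35kf_dprod D k f = ∏_{x : X} f ∣[k] D.rep x

satisfies `(s35kf_dprod D k f) ∣[|X| k] γ = (∏ₓ χ (D.coc γ x)) • s35kf_dprod D k f`, `γ ∈ Γ₀(N₂)`;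
for `χ = ζ^c` the character is `ζ^(s35c_op D c)`.  In particular for the data of `s35c_corA`,
`s35c_corB`: if `cor c = 0` the product has trivial character.
-/
import Mathlib
import Fermat.Agent.S29.KumDefs
import Fermat.Agent.S29.HkAnChar
import Fermat.Agent.S35.Cor

set_option autoImplicit false

noncomputable section

namespace Fermat.Agent.S35

open UpperHalfPlane ModularFormClass CongruenceSubgroup Matrix.SpecialLinearGroup Function
open ModularForm Filter Asymptotics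
open scoped MatrixGroups ModularForm Manifold Real Topology

open Fermat.Agent.S29

variable {N₁ N₂ : ℕ} {X : Type*} [Fintype X]

/-- **The product of a Hecke datum** `∏ₓ f ∣[k] D.rep x`. -/
def s35kf_dprod (D : s35c_Datum (s35c_iota N₁) (s35c_iota N₂) X) (k : ℤ) (f : ℍ → ℂ) : ℍ → ℂ :=
  ∏ x : X, f ∣[k] D.rep x

theorem s35kf_dprod_apply (D : s35c_Datum (s35c_iota N₁) (s35c_iota N₂) X) (k : ℤ) (f : ℍ → ℂ)
    (z : ℍ) : s35kf_dprod D k f z = ∏ x : X, (f ∣[k] D.rep x) z := by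
  rw [s35kf_dprod, Finset.prod_apply]

/-- The translates of the product. -/
theorem s35kf_dprod_slash (D : s35c_Datum (s35c_iota N₁) (s35c_iota N₂) X) (k : ℤ) (f : ℍ → ℂ)
    (δ : SL(2, ℤ)) :
    s35kf_dprod D k f ∣[(Fintype.card X : ℤ) * k] δ =
      ∏ x : X, f ∣[k] (D.rep x * mapGL ℝ δ) := by
  rw [s35kf_dprod, ← Finset.card_univ, s29hka_finprod_slash]
  refine Finset.prod_congr rfl fun x _ => ?_
  rw [SlashAction.slash_mul]
  rfl

/-- **The character of the product of a Hecke datum.** -/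
theorem s35kf_dprod_char (D : s35c_Datum (s35c_iota N₁) (s35c_iota N₂) X)
    (hdet : ∀ x, 0 < (Matrix.GeneralLinearGroup.det (D.rep x)).val) (k : ℤ)
    (χ : ↥(Gamma0 N₁) →* ℂˣ) (f : ℍ → ℂ)
    (hχ : ∀ γ : ↥(Gamma0 N₁), f ∣[k] (γ : SL(2, ℤ)) = ((χ γ : ℂˣ) : ℂ) • f)
    (γ : ↥(Gamma0 N₂)) :
    s35kf_dprod D k f ∣[(Fintype.card X : ℤ) * k] (γ : SL(2, ℤ)) =
      (∏ x : X, ((χ (D.coc γ x) : ℂˣ) : ℂ)) • s35kf_dprod D k f := by
  rw [s35kf_dprod_slash]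
  have h1 : ∀ x : X, f ∣[k] (D.rep x * mapGL ℝ (γ : SL(2, ℤ))) =
      ((χ (D.coc γ x) : ℂˣ) : ℂ) • (f ∣[k] D.rep (D.act γ x)) := by
    intro x
    have hs := D.spec γ x
    rw [s35c_iota_apply, s35c_iota_apply] at hs
    rw [hs, SlashAction.slash_mul]
    have h2 : f ∣[k] mapGL ℝ ((D.coc γ x : ↥(Gamma0 N₁)) : SL(2, ℤ)) =
        ((χ (D.coc γ x) : ℂˣ) : ℂ) • f := hχ _
    rw [h2, ModularForm.smul_slash, UpperHalfPlane.σ, if_pos (hdet _)]
    rfl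
  simp only [h1]
  rw [Finset.prod_smul, s35kf_dprod]
  congr 1
  exact Equiv.prod_comp (D.actEquiv γ) (fun x => f ∣[k] D.rep x)

/-- The product is holomorphic. -/
theorem s35kf_dprod_mdiff (D : s35c_Datum (s35c_iota N₁) (s35c_iota N₂) X) (k : ℤ) {f : ℍ → ℂ}
    (hf : MDiff f) : MDiff (s35kf_dprod D k f) := by
  have e : s35kf_dprod D k f = fun z => ∏ x : X, (f ∣[k] D.rep x) z := by
    funext z
    rw [s35kf_dprod_apply]
  rw [e]
  exact s29hka_mdiff_finprod Finset.univ _ fun x _ => hf.slash k _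

/-- All `SL(2, ℤ)`-translates of the product are bounded at `i∞`, when all the functions
`f ∣[k] (D.rep x * δ)` are. -/
theorem s35kf_dprod_bdd (D : s35c_Datum (s35c_iota N₁) (s35c_iota N₂) X) (k : ℤ) (f : ℍ → ℂ)
    (hb : ∀ (x : X) (δ : SL(2, ℤ)), IsBoundedAtImInfty (f ∣[k] (D.rep x * mapGL ℝ δ)))
    (δ : SL(2, ℤ)) :
    IsBoundedAtImInfty (s35kf_dprod D k f ∣[(Fintype.card X : ℤ) * k] δ) := by
  rw [s35kf_dprod_slash]
  have e : (∏ x : X, f ∣[k] (D.rep x * mapGL ℝ δ)) =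
      fun z => ∏ x : X, (f ∣[k] (D.rep x * mapGL ℝ δ)) z := by
    funext z
    rw [Finset.prod_apply]
  rw [e]
  exact s29hka_bdd_finprod Finset.univ _ fun x _ => hb x δ

theorem s35kf_zpow_sum {G ι : Type*} [CommGroup G] (ζ : G) (s : Finset ι) (a : ι → ℤ) :
    ∏ x ∈ s, ζ ^ a x = ζ ^ ∑ x ∈ s, a x := by
  classical
  induction s using Finset.induction_on with
  | empty => simp
  | insert i s hi ih => rw [Finset.prod_insert hi, Finset.sum_insert hi, zpow_add, ih]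

/-- The character `∏ₓ ζ^(c (coc γ x))` is `ζ^(s35c_op D c)`. -/
theorem s35kf_chi_op (D : s35c_Datum (s35c_iota N₁) (s35c_iota N₂) X) (ζ : ℂˣ)
    (c : Additive ↥(Gamma0 N₁) →+ ℤ) (γ : ↥(Gamma0 N₂)) :
    ∏ x : X, s29k_chi ζ c (D.coc γ x) = s29k_chi ζ (s35c_op D c) γ := by
  show ∏ x : X, ζ ^ c (Additive.ofMul (D.coc γ x)) = ζ ^ (s35c_op D c) (Additive.ofMul γ)
  rw [s35c_op_apply, s35kf_zpow_sum]

/-- **[KP-FORM], (F2)**: the product of a Hecke datum applied to a form of weight `k` and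
character `ζ^c` on `Γ₀(N₁)` is a form of weight `|X| k` and character `ζ^(s35c_op D c)` on
`Γ₀(N₂)`. -/
theorem s35kf_isForm_datum (D : s35c_Datum (s35c_iota N₁) (s35c_iota N₂) X)
    (hdet : ∀ x, 0 < (Matrix.GeneralLinearGroup.det (D.rep x)).val) (k : ℕ) (ζ : ℂˣ)
    (c : Additive ↥(Gamma0 N₁) →+ ℤ) {f : ℍ → ℂ} (hf : s29k_IsForm N₁ k (s29k_chi ζ c) f)
    (hb : ∀ (x : X) (δ : SL(2, ℤ)),
      IsBoundedAtImInfty (f ∣[(k : ℤ)] (D.rep x * mapGL ℝ δ))) :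
    s29k_IsForm N₂ ((Fintype.card X * k : ℕ) : ℤ) (s29k_chi ζ (s35c_op D c))
      (s35kf_dprod D (k : ℤ) f) := by
  have hw : (((Fintype.card X * k : ℕ) : ℤ)) = (Fintype.card X : ℤ) * (k : ℤ) := by
    push_cast; ring
  refine ⟨s35kf_dprod_mdiff D k hf.1, ?_, ?_⟩
  · intro γ
    rw [hw, s35kf_dprod_char D hdet k (s29k_chi ζ c) f hf.2.1 γ, ← s35kf_chi_op D ζ c γ]
    push_cast
    rfl
  · intro δ
    rw [hw]
    exact s35kf_dprod_bdd D k f hb δ

/-- If `s35c_op D c = 0` the product has trivial character. -/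
theorem s35kf_isForm_datum_one (D : s35c_Datum (s35c_iota N₁) (s35c_iota N₂) X)
    (hdet : ∀ x, 0 < (Matrix.GeneralLinearGroup.det (D.rep x)).val) (k : ℕ) (ζ : ℂˣ)
    (c : Additive ↥(Gamma0 N₁) →+ ℤ) (hc : s35c_op D c = 0) {f : ℍ → ℂ}
    (hf : s29k_IsForm N₁ k (s29k_chi ζ c) f)
    (hb : ∀ (x : X) (δ : SL(2, ℤ)),
      IsBoundedAtImInfty (f ∣[(k : ℤ)] (D.rep x * mapGL ℝ δ))) :
    s29k_IsForm N₂ ((Fintype.card X * k : ℕ) : ℤ) 1 (s35kf_dprod D (k : ℤ) f) := by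
  have h := s35kf_isForm_datum D hdet k ζ c hf hb
  have e : s29k_chi ζ (s35c_op D c) = (1 : ↥(Gamma0 N₂) →* ℂˣ) := by
    rw [hc]
    ext γ
    show ((ζ ^ (0 : Additive ↥(Gamma0 N₂) →+ ℤ) (Additive.ofMul γ) : ℂˣ) : ℂ) = 1
    simp
  rwa [e] at h

end Fermat.Agent.S35

end
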