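/-
S35 / [K-PUSH], piece (3) [KP-W] (owner: helper4), part 2.  Prefix `s35kw_`.

THE ATKIN-LEHNER TRANSFORM OF A FORM.  For `x q - y M = 1`, `γ₁ = [[x, y], [M, q]] ∈ SL(2, ℤ)`
(the `γ₁` of `S37/AtkinLehnerMap.lean`, `w z = γ₁ (q z)`) and a function `P` on the upper half
plane put

    s35kw_Wf M q x y h K P (z) = (P ∣[K] γ₁) (q z) = P (w z) · (M q z + q) ^ (-K).

(W1) `s35kw_Wf_isNice` : if `P` is a modular form of weight `K` on `Γ₀(M q)` then
`s35kw_Wf … K P` is `1`-periodic, holomorphic and bounded at `i∞`.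
-/
import Mathlib
import Fermat.Agent.S20.Conj
import Fermat.Agent.S29.HkAnTwist
import Fermat.Agent.S37.AtkinLehnerMap

set_option autoImplicit false
set_option linter.style.haveILetI false
set_option linter.unusedSectionVars false
set_option linter.unusedVariables false

noncomputable section

namespace Fermat.Agent.S35

open UpperHalfPlane ModularFormClass CongruenceSubgroup Matrix.SpecialLinearGroup Function
open ModularForm Filter Asymptotics
open scoped MatrixGroups ModularForm Manifold Real Topology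

open Fermat.Agent.S20 Fermat.Agent.S22 Fermat.Agent.S24 Fermat.Agent.S28 Fermat.Agent.S29
open Fermat.Agent.S37

/-- **The Atkin-Lehner transform** `P ↦ (P ∣[K] γ₁) (q z)`. -/
def s35kw_Wf (M q : ℕ) (x y : ℤ) (h : x * q - y * M = 1) (K : ℤ) (P : ℍ → ℂ) : ℍ → ℂ :=
  fun z => (P ∣[K] s37al_mat x y M q h) (heckeDiagMatrix q • z)

theorem s35kw_Wf_apply (M q : ℕ) (x y : ℤ) (h : x * q - y * M = 1) (K : ℤ) (P : ℍ → ℂ)
    (z : ℍ) :
    s35kw_Wf M q x y h K P z =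
      P (s37al_w M q x y h z) *
        denom (s37al_mat x y M q h) ((heckeDiagMatrix q • z : ℍ) : ℂ) ^ (-K) := by
  rw [s35kw_Wf, SL_slash_apply]
  rfl

theorem s35kw_Wf_mul (M q : ℕ) (x y : ℤ) (h : x * q - y * M = 1) (K₁ K₂ : ℤ) (P Q : ℍ → ℂ) :
    s35kw_Wf M q x y h (K₁ + K₂) (P * Q) =
      s35kw_Wf M q x y h K₁ P * s35kw_Wf M q x y h K₂ Q := by
  funext z
  rw [Pi.mul_apply, s35kw_Wf, s35kw_Wf, s35kw_Wf, mul_slash_SL2]
  rfl

theorem s35kw_Wf_pow (M q : ℕ) (x y : ℤ) (h : x * q - y * M = 1) (K : ℤ) (P : ℍ → ℂ) (n : ℕ) :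
    s35kw_Wf M q x y h (n * K) (P ^ n) = s35kw_Wf M q x y h K P ^ n := by
  induction n with
  | zero =>
    funext z
    simp only [Nat.cast_zero, zero_mul, pow_zero]
    rw [s35kw_Wf, is_invariant_one]
    rfl
  | succ n ih =>
    have e : ((n + 1 : ℕ) : ℤ) * K = (n : ℤ) * K + K := by push_cast; ring
    rw [e, pow_succ, pow_succ, s35kw_Wf_mul, ih]

/-- `f^w ≠ 0` if `f ≠ 0`. -/
theorem s35kw_Wf_ne_zero (M q : ℕ) (x y : ℤ) (h : x * q - y * M = 1) (K : ℤ) {P : ℍ → ℂ}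
    (hP : P ≠ 0) : s35kw_Wf M q x y h K P ≠ 0 := by
  obtain ⟨z, hz⟩ : ∃ z, P z ≠ 0 := by
    by_contra hcon
    exact hP (funext fun z => by_contra fun hz => hcon ⟨z, hz⟩)
  obtain ⟨z', rfl⟩ := s37al_w_surjective M q x y h z
  intro h0
  have h1 := congrFun h0 z'
  rw [s35kw_Wf_apply, Pi.zero_apply] at h1
  rcases mul_eq_zero.1 h1 with h2 | h2
  · exact hz h2
  · exact zpow_ne_zero _ (denom_ne_zero _ _) h2

/-! ### Periodicity -/

/-- The translation `z ↦ z + q`. -/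
def s35kw_Tq (q : ℕ) : SL(2, ℤ) := s37al_mat 1 q 0 1 (by ring)

theorem s35kw_coe_Tq_smul (q : ℕ) (z : ℍ) : ((s35kw_Tq q • z : ℍ) : ℂ) = (z : ℂ) + q := by
  rw [s35kw_Tq, s37al_coe_mat_smul]
  simp

theorem s35kw_denom_Tq (q : ℕ) (z : ℍ) : denom (s35kw_Tq q) (z : ℂ) = 1 := by
  rw [s35kw_Tq, s37al_mat]
  simp [denom]

theorem s35kw_diag_vadd (q : ℕ) [NeZero q] (z : ℍ) :
    heckeDiagMatrix q • ((1 : ℝ) +ᵥ z) = s35kw_Tq q • (heckeDiagMatrix q • z) := by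
  apply UpperHalfPlane.ext
  rw [s35kw_coe_Tq_smul, coe_heckeDiagMatrix_smul (NeZero.ne q),
    coe_heckeDiagMatrix_smul (NeZero.ne q), coe_vadd]
  push_cast
  ring

/-- `γ₁ T^q γ₁⁻¹`. -/
def s35kw_hq (M q : ℕ) (x y : ℤ) : SL(2, ℤ) :=
  s37al_mat (1 - q * x * M) (q * x * x) (-(q * M * M)) (1 + q * x * M) (by ring)

theorem s35kw_hq_mem (M q : ℕ) (x y : ℤ) : s35kw_hq M q x y ∈ Gamma0 (M * q) := by
  rw [Gamma0_mem]
  have h1 : ((s35kw_hq M q x y : SL(2, ℤ)) : Matrix (Fin 2) (Fin 2) ℤ) 1 0 = -(q * M * M) := by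
    simp [s35kw_hq, s37al_mat]
  rw [h1]
  rw [ZMod.intCast_zmod_eq_zero_iff_dvd]
  push_cast
  exact Dvd.intro (-(M : ℤ)) (by ring)

theorem s35kw_hq_mul (M q : ℕ) (x y : ℤ) (h : x * q - y * M = 1) :
    s37al_mat x y M q h * s35kw_Tq q = s35kw_hq M q x y * s37al_mat x y M q h := by
  apply Subtype.ext
  simp only [s35kw_hq, s35kw_Tq, s37al_mat, Matrix.SpecialLinearGroup.coe_mul]
  ext i j
  fin_cases i <;> fin_cases j
  · simp [Matrix.mul_apply, Fin.sum_univ_two]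
    ring
  · simp [Matrix.mul_apply, Fin.sum_univ_two]
    linear_combination (-(q : ℤ) * x) * h
  · simp [Matrix.mul_apply, Fin.sum_univ_two]
    ring
  · simp [Matrix.mul_apply, Fin.sum_univ_two]
    linear_combination (-(q : ℤ) * M) * h

theorem s35kw_Wf_vadd {M q : ℕ} [NeZero M] [NeZero q] (x y : ℤ) (h : x * q - y * M = 1)
    {K : ℤ} {P : ℍ → ℂ} (hP : IsMF (G0 (M * q)) K P) (z : ℍ) :
    s35kw_Wf M q x y h K P ((1 : ℝ) +ᵥ z) = s35kw_Wf M q x y h K P z := by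
  have h1 : (P ∣[K] s37al_mat x y M q h) ∣[K] s35kw_Tq q = P ∣[K] s37al_mat x y M q h := by
    rw [← SlashAction.slash_mul, s35kw_hq_mul M q x y h, SlashAction.slash_mul,
      conj_slash_Gamma0 hP _ (s35kw_hq_mem M q x y)]
  have h2 := congrFun h1 (heckeDiagMatrix q • z)
  rw [SL_slash_apply, s35kw_denom_Tq, one_zpow, mul_one] at h2
  rw [s35kw_Wf, s35kw_diag_vadd, h2]
  rfl

/-- **(W1)** the Atkin-Lehner transform of a modular form on `Γ₀(M q)` is nice. -/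
theorem s35kw_Wf_isNice {M q : ℕ} [NeZero M] [NeZero q] (x y : ℤ) (h : x * q - y * M = 1)
    {K : ℤ} {P : ℍ → ℂ} (hP : IsMF (G0 (M * q)) K P) : IsNice (s35kw_Wf M q x y h K P) where
  per := s29hka_periodic_of_vadd (s35kw_Wf_vadd x y h hP)
  holo := by
    have h1 : MDiff (P ∣[K] s37al_mat x y M q h) := by
      rw [SL_slash]
      exact (conj_mdiff_of_isMF hP).slash K _
    exact s29hka_mdiff_comp _ (det_heckeDiagMatrix_pos q) h1
  bdd := by
    haveI : NeZero (M * q) := ⟨Nat.mul_ne_zero (NeZero.ne M) (NeZero.ne q)⟩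
    have h1 : IsBoundedAtImInfty (P ∣[K] s37al_mat x y M q h) :=
      isBoundedAtImInfty_slash_of_isMF hP _
    exact s29hka_bdd_comp _ (det_heckeDiagMatrix_pos q) (s29hka_heckeDiagMatrix_one_zero q) h1

end Fermat.Agent.S35
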