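/-
S35, leaf [K-PUSH], part (b) (owner: helper5).  Prefix `s35kp_`.

THE A-PRODUCT.  For the explicit datum `s35kp_datA` (representatives `1`, `γ₁ T^j`) the product
`∏ₓ f ∣[k] rep x` of helper1's `KpFormDatum.lean` IS the mixed Hecke product
`s35kp_mix q f f^w`, `f^w = s35kw_Wf M q x y h k f` (helper4's Atkin-Lehner transform):

    (f ∣[k] γ₁ T^j)(z) = f^w ((z + j) / q).

Hence `s35kp_mix q f f^w` is a form of weight `(q + 1) k` and character `ζ^(s35c_corA c)` on
`Γ₀(M)` (`s35kp_isForm_A`).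
-/
import Mathlib
import Fermat.Agent.S35.KPushSer
import Fermat.Agent.S35.KPushCoset
import Fermat.Agent.S35.KpWNice
import Fermat.Agent.S35.KpFormDatum
import Fermat.Agent.S29.KumC

set_option autoImplicit false
set_option linter.unusedSectionVars false
set_option linter.unusedVariables false
set_option linter.style.haveILetI false

noncomputable section

namespace Fermat.Agent.S35

open UpperHalfPlane ModularFormClass CongruenceSubgroup Matrix.SpecialLinearGroup Function
open ModularForm Filter Asymptotics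
open scoped MatrixGroups ModularForm Manifold Real Topology

open Fermat.Agent.S22 Fermat.Agent.S24 Fermat.Agent.S28 Fermat.Agent.S29 Fermat.Agent.S37

variable (M q : ℕ) (x y : ℤ) (h : x * q - y * M = 1)

/-- `q · ((z + j) / q) = z + j`. -/
theorem s35kp_coe_diag_matrix [NeZero q] (j : ℕ) (z : ℍ) :
    ((heckeDiagMatrix q • (heckeMatrix q j • z) : ℍ) : ℂ) = (z : ℂ) + (j : ℂ) := by
  have hq : q ≠ 0 := NeZero.ne q
  have hq' : (q : ℂ) ≠ 0 := by exact_mod_cast hq
  rw [coe_heckeDiagMatrix_smul hq, coe_heckeMatrix_smul hq]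
  field_simp

/-- `(f ∣[k] γ₁ T^j)(z) = f^w ((z + j) / q)`. -/
theorem s35kp_slash_gam [NeZero q] (k : ℤ) (f : ℍ → ℂ) (j : ℕ) (z : ℍ) :
    (f ∣[k] s35kp_gam M q x y h (j : ℤ)) z =
      s35kw_Wf M q x y h k f (heckeMatrix q j • z) := by
  rw [s35kw_Wf, SL_slash_apply, SL_slash_apply]
  have e1 : s35kp_gam M q x y h (j : ℤ) • z =
      s37al_mat x y M q h • (heckeDiagMatrix q • (heckeMatrix q j • z)) := by
    apply UpperHalfPlane.ext
    rw [s35kp_gam, s37al_coe_mat_smul, s37al_coe_mat_smul, s35kp_coe_diag_matrix]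
    push_cast
    ring_nf
  have e2 : denom (s35kp_gam M q x y h (j : ℤ)) (z : ℂ) =
      denom (s37al_mat x y M q h)
        ((heckeDiagMatrix q • (heckeMatrix q j • z) : ℍ) : ℂ) := by
    rw [s35kp_coe_diag_matrix]
    simp [denom, s35kp_gam, s37al_mat]
    ring
  rw [e1, e2]

variable [NeZero M] [NeZero q] [Fact q.Prime]

theorem s35kp_datA_det (hqM : ¬ q ∣ M) (c : OnePoint (ZMod q)) :
    0 < (Matrix.GeneralLinearGroup.det ((s35kp_datA M q x y h hqM).rep c)).val := by
  rw [s35kp_datA_rep]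
  simp

theorem s35kp_datA_bdd (hqM : ¬ q ∣ M) (k : ℤ) {f : ℍ → ℂ}
    (hb : ∀ δ : SL(2, ℤ), IsBoundedAtImInfty (f ∣[k] δ)) (c : OnePoint (ZMod q))
    (δ : SL(2, ℤ)) :
    IsBoundedAtImInfty (f ∣[k] ((s35kp_datA M q x y h hqM).rep c * mapGL ℝ δ)) := by
  rw [s35kp_datA_rep, ← map_mul]
  exact hb _

/-- **The A-product is the mixed Hecke product** `mix q f f^w`. -/
theorem s35kp_prodA (hqM : ¬ q ∣ M) (k : ℤ) (f : ℍ → ℂ) :
    s35kf_dprod (s35kp_datA M q x y h hqM) k f =
      s35kp_mix q f (s35kw_Wf M q x y h k f) := by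
  funext z
  rw [s35kf_dprod_apply, s35kp_mix_apply, s29hka_prod_range_eq_prod_zmod]
  have e := Fintype.prod_option
    (fun c : OnePoint (ZMod q) => (f ∣[k] (s35kp_datA M q x y h hqM).rep c) z)
  refine e.trans ?_
  congr 1
  · show (f ∣[k] (s35kp_datA M q x y h hqM).rep OnePoint.infty) z = f z
    rw [s35kp_datA_rep]
    simp only [s35kp_rA, OnePoint.elim_infty, Subgroup.coe_one, map_one]
    rw [SlashAction.slash_one]
  · refine Finset.prod_congr rfl fun j _ => ?_
    show (f ∣[k] (s35kp_datA M q x y h hqM).rep (OnePoint.some j)) z = _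
    rw [s35kp_datA_rep]
    simp only [s35kp_rA, OnePoint.elim_some]
    exact s35kp_slash_gam M q x y h k f j.val z

theorem s35kp_card_onePoint : Fintype.card (OnePoint (ZMod q)) = q + 1 := by
  have h1 : Fintype.card (OnePoint (ZMod q)) = Fintype.card (ZMod q) + 1 := Fintype.card_option
  rw [h1, ZMod.card]

/-- **[KP-FORM] for the explicit A-product**: `mix q f f^w` is a form of weight `(q + 1) k` and
character `ζ^(s35c_corA c)` on `Γ₀(M)`. -/
theorem s35kp_isForm_A (hqM : ¬ q ∣ M) (k : ℕ) (ζ : ℂˣ) (c : Additive ↥(Gamma0 (M * q)) →+ ℤ) {f : ℍ → ℂ}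
    (hf : s29k_IsForm (M * q) k (s29k_chi ζ c) f) :
    s29k_IsForm M (((q + 1) * k : ℕ) : ℤ) (s29k_chi ζ (s35c_corA M q c))
      (s35kp_mix q f (s35kw_Wf M q x y h k f)) := by
  have h1 := s35kf_isForm_datum (s35kp_datA M q x y h hqM) (s35kp_datA_det M q x y h hqM) k ζ c
    hf (s35kp_datA_bdd M q x y h hqM (k : ℤ) hf.2.2)
  rw [s35kp_prodA, ← s35kp_corA_eq, s35kp_card_onePoint] at h1
  exact h1

/-- The same for a form of trivial character. -/
theorem s35kp_isForm_A_one (hqM : ¬ q ∣ M) (k : ℕ) {g : ℍ → ℂ} (hg : s29k_IsForm (M * q) k 1 g) :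
    s29k_IsForm M (((q + 1) * k : ℕ) : ℤ) 1 (s35kp_mix q g (s35kw_Wf M q x y h k g)) := by
  have hg' : s29k_IsForm (M * q) k (s29k_chi (1 : ℂˣ) (0 : Additive ↥(Gamma0 (M * q)) →+ ℤ)) g := by
    rw [s29k_chi_zero]
    exact hg
  have h1 := s35kp_isForm_A M q x y h hqM k 1 0 hg'
  rw [map_zero, s29k_chi_zero] at h1
  exact h1

end Fermat.Agent.S35

end
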