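/-
S35 / [K-PUSH], piece (3) [KP-W] (owner: helper4), part 1.  Prefix `s35kw_`.

THE GENERAL NORM FORMULA ALONG `α` OVER A FIELD `L ⊇ Q̄` (in particular `L = ℂ`), in
`q`-expansion form: for `q ∤ M` prime, `ζ` a primitive `q`-th root of unity of `L` and
`x ∈ F_L(M q)`

    N_α(x)(t^q) = x(t^q) · ∏_{i<q} (τ_W x)(ζ^i t)            (`s35kw_normA_gen`)

where `τ_W : F_L(M q) → L((t))` (`s35kw_tauWgen`) is the ring homomorphism "expansion of `x ∘ w`":
it fixes the constants, `τ_W (α g) = g(t^q)` and `τ_W (β g) = g`.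

Everything is read off from helper14's `S29/HeckeKNorm.lean` (`s29hk_tau`, `s29hk_abs`), applied to
a general element instead of `β y`.
-/
import Mathlib
import Fermat.Agent.S29.HeckeKNorm

set_option autoImplicit false
set_option linter.style.haveILetI false
set_option linter.unusedSectionVars false
set_option linter.unusedVariables false

open ModularCurve AlgebraicCurve
open Fermat.Agent.S24 Fermat.Agent.S37 Fermat.Agent.S18 Fermat.Agent.S29

noncomputable section

namespace Fermat.Agent.S35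

section Gen

variable (L : Type) [Field L] [Algebra ℚ L] [Algebra QBar L]
variable (M q : ℕ) [NeZero M] [NeZero q]

/-- The Atkin-Lehner involution of `F̄_{M q}` (a choice; it is unique). -/
def s35kw_W0 (hq : q.Prime) (hqM : ¬ q ∣ M) : FunField (M * q) →ₐ[QBar] FunField (M * q) :=
  (s37es_nm_W M q hq hqM).choose

theorem s35kw_W0_alpha (hq : q.Prime) (hqM : ¬ q ∣ M) (f : FunField M) :
    s35kw_W0 M q hq hqM (heckeAlphaBar QBar M q f) = heckeBetaBar QBar M q f :=
  (s37es_nm_W M q hq hqM).choose_spec.1 f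

theorem s35kw_W0_beta (hq : q.Prime) (hqM : ¬ q ∣ M) (f : FunField M) :
    s35kw_W0 M q hq hqM (heckeBetaBar QBar M q f) = heckeAlphaBar QBar M q f :=
  (s37es_nm_W M q hq hqM).choose_spec.2 f

theorem s35kw_exists_zeta0 (hq : q.Prime) : ∃ ζ₀ : QBarˣ, IsPrimitiveRoot ζ₀ q := by
  haveI : NeZero (q : QBar) := ⟨by exact_mod_cast hq.ne_zero⟩
  obtain ⟨z, hz⟩ := HasEnoughRootsOfUnity.exists_primitiveRoot QBar q
  exact ⟨hz.isUnit hq.ne_zero |>.unit, IsPrimitiveRoot.coe_units_iff.1 (by simpa using hz)⟩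

/-- A primitive `q`-th root of unity of `Q̄`. -/
def s35kw_zeta0 (hq : q.Prime) : QBarˣ := (s35kw_exists_zeta0 q hq).choose

theorem s35kw_zeta0_prim (hq : q.Prime) : IsPrimitiveRoot (s35kw_zeta0 q hq) q :=
  (s35kw_exists_zeta0 q hq).choose_spec

/-- **The expansion of `x ∘ w`** as a ring homomorphism `F_L(M q) → L((t))`. -/
def s35kw_tauWgen (hq : q.Prime) (hqM : ¬ q ∣ M) : s29hk_F L (M * q) →+* LaurentSeries L :=
  s29hk_tau L M q (s35kw_W0 M q hq hqM) (s35kw_zeta0 q hq) (some ⟨0, hq.pos⟩)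

theorem s35kw_tauWgen_iota (hq : q.Prime) (hqM : ¬ q ∣ M) (f : FunField (M * q)) :
    s35kw_tauWgen L M q hq hqM (s29hk_iota L (M * q) f) =
      coeffMap (algebraMap QBar L)
        ((s35kw_W0 M q hq hqM f : FunField (M * q)) : LaurentSeries QBar) := by
  rw [s35kw_tauWgen, s29hk_tau_iota, s37es_nm_sigma_some]
  simp only [pow_zero]
  rw [s37es_tw_one]

theorem s35kw_tauWgen_const (hq : q.Prime) (hqM : ¬ q ∣ M) (c : L) :
    s35kw_tauWgen L M q hq hqM (algebraMap L (s29hk_F L (M * q)) c) =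
      algebraMap L (LaurentSeries L) c :=
  s29hk_tau_const L M q _ _ _ c

/-- `τ_i = (t ↦ ζ^i t) ∘ τ_W`. -/
theorem s35kw_tau_some (hq : q.Prime) (hqM : ¬ q ∣ M) (i : Fin q) (x : s29hk_F L (M * q)) :
    s29hk_tau L M q (s35kw_W0 M q hq hqM) (s35kw_zeta0 q hq) (some i) x =
      s37es_tw (s29hk_zeta L (s35kw_zeta0 q hq) ^ (i : ℕ)) (s35kw_tauWgen L M q hq hqM x) := by
  have h := s29hk_hom_ext L (M * q)
    (s29hk_tau L M q (s35kw_W0 M q hq hqM) (s35kw_zeta0 q hq) (some i))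
    ((s37es_tw (s29hk_zeta L (s35kw_zeta0 q hq) ^ (i : ℕ))).toRingHom.comp
      (s35kw_tauWgen L M q hq hqM)) ?_ ?_
  · exact DFunLike.congr_fun h x
  · intro c
    show _ = s37es_tw _ (s35kw_tauWgen L M q hq hqM (algebraMap L (s29hk_F L (M * q)) c))
    rw [s29hk_tau_const, s35kw_tauWgen_const, algebraMap_laurentSeries_eq_single]
    exact (s37es_tw_C _ c).symm
  · intro f
    show _ = s37es_tw _ (s35kw_tauWgen L M q hq hqM (s29hk_iota L (M * q) f))
    rw [s29hk_tau_iota, s35kw_tauWgen_iota, s37es_nm_sigma_some, s37es_tw_coeffMap, map_pow]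
    rfl

/-- `τ_∞ = (x ↦ x(t^q))`. -/
theorem s35kw_tau_none (hq : q.Prime) (hqM : ¬ q ∣ M) (x : s29hk_F L (M * q)) :
    s29hk_tau L M q (s35kw_W0 M q hq hqM) (s35kw_zeta0 q hq) none x =
      qExpand L q (x : LaurentSeries L) := by
  have h := s29hk_hom_ext L (M * q)
    (s29hk_tau L M q (s35kw_W0 M q hq hqM) (s35kw_zeta0 q hq) none)
    ((qExpand L q).comp (algebraMap (s29hk_F L (M * q)) (LaurentSeries L))) ?_ ?_
  · exact DFunLike.congr_fun h x
  · intro c
    show _ = qExpand L q (algebraMap L (LaurentSeries L) c)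
    rw [s29hk_tau_const, algebraMap_laurentSeries_eq_single, qExpand_single, mul_zero]
  · intro f
    show _ = qExpand L q ((s29hk_iota L (M * q) f : s29hk_F L (M * q)) : LaurentSeries L)
    rw [s29hk_tau_iota, s37es_nm_sigma_none, s29hk_coeffMap_qExpand, s29hk_iota_coe]

/-- `τ_W ∘ α = (g ↦ g(t^q))`. -/
theorem s35kw_tauWgen_alpha (hq : q.Prime) (hqM : ¬ q ∣ M) (g : s29hk_F L M) :
    s35kw_tauWgen L M q hq hqM (heckeAlphaBar L M q g) = qExpand L q (g : LaurentSeries L) :=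
  s29hk_tau_alpha L M q _ _ (s35kw_W0_alpha M q hq hqM) (s35kw_zeta0_prim q hq).pow_eq_one _ g

/-- `τ_W ∘ β = (g ↦ g)`. -/
theorem s35kw_tauWgen_beta (hq : q.Prime) (hqM : ¬ q ∣ M) (g : s29hk_F L M) :
    s35kw_tauWgen L M q hq hqM (heckeBetaBar L M q g) = (g : LaurentSeries L) := by
  rw [s35kw_tauWgen, s29hk_tau_some_beta L M q _ _ (s35kw_W0_beta M q hq hqM)]
  simp only [pow_zero]
  rw [s37es_tw_one]

/-- **The general norm formula along `α`**, for the image of `ζ₀`. -/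
theorem s35kw_normA_gen0 (hq : q.Prime) (hqM : ¬ q ∣ M) (x : s29hk_F L (M * q)) :
    qExpand L q
      (((letI := algebraAlong (heckeAlphaBar L M q);
        Algebra.norm (s29hk_F L M) x : s29hk_F L M)) : LaurentSeries L) =
      qExpand L q (x : LaurentSeries L) *
        ∏ i ∈ Finset.range q,
          s37es_tw (s29hk_zeta L (s35kw_zeta0 q hq) ^ i) (s35kw_tauWgen L M q hq hqM x) := by
  letI : Algebra (s29hk_F L M) (s29hk_F L (M * q)) := algebraAlong (heckeAlphaBar L M q)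
  obtain ⟨hfin, hle⟩ := s29hk_finite L M q hq hqM
  haveI : Module.Finite (s29hk_F L M) (s29hk_F L (M * q)) := hfin
  haveI : CharZero (s29hk_F L M) := s29hk_charZero L M
  haveI : Algebra.IsSeparable (s29hk_F L M) (s29hk_F L (M * q)) := inferInstance
  have h := s29hk_abs ((qExpand L q).comp (algebraMap (s29hk_F L M) (LaurentSeries L)))
    (s29hk_tau L M q (s35kw_W0 M q hq hqM) (s35kw_zeta0 q hq))
    (s29hk_tau_injective L M q _ _ hq (s35kw_W0_beta M q hq hqM) (s35kw_zeta0_prim q hq))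
    (fun a z => s29hk_tau_alpha L M q _ _ (s35kw_W0_alpha M q hq hqM)
      (s35kw_zeta0_prim q hq).pow_eq_one a z)
    (by rw [Fintype.card_option, Fintype.card_fin]; exact hle) x
  rw [Fintype.prod_option, s35kw_tau_none] at h
  have h2 : (∏ i : Fin q, s29hk_tau L M q (s35kw_W0 M q hq hqM) (s35kw_zeta0 q hq) (some i) x) =
      ∏ i ∈ Finset.range q,
        s37es_tw (s29hk_zeta L (s35kw_zeta0 q hq) ^ i) (s35kw_tauWgen L M q hq hqM x) := by
    rw [← Fin.prod_univ_eq_prod_range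
      (fun i => s37es_tw (s29hk_zeta L (s35kw_zeta0 q hq) ^ i)
        (s35kw_tauWgen L M q hq hqM x)) q]
    exact Finset.prod_congr rfl fun i _ => s35kw_tau_some L M q hq hqM i x
  rw [h2] at h
  exact h

/-- **The general norm formula along `α`** over any field `L ⊇ Q̄`, for every primitive `q`-th
root of unity of `L`:  `N_α(x)(t^q) = x(t^q) · ∏_{i<q} (τ_W x)(ζ^i t)`. -/
theorem s35kw_normA_gen (hq : q.Prime) (hqM : ¬ q ∣ M) (ζ : Lˣ) (hζ : IsPrimitiveRoot ζ q)
    (x : s29hk_F L (M * q)) :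
    qExpand L q
      (((letI := algebraAlong (heckeAlphaBar L M q);
        Algebra.norm (s29hk_F L M) x : s29hk_F L M)) : LaurentSeries L) =
      qExpand L q (x : LaurentSeries L) *
        ∏ i ∈ Finset.range q, s37es_tw (ζ ^ i) (s35kw_tauWgen L M q hq hqM x) := by
  rw [s35kw_normA_gen0 L M q hq hqM x]
  congr 1
  exact s29hk_prod_indep q (s29hk_zeta L (s35kw_zeta0 q hq)) ζ
    (s29hk_zeta_primitive L q _ (s35kw_zeta0_prim q hq)) hζ
    (fun u => s37es_tw u (s35kw_tauWgen L M q hq hqM x))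

end Gen

end Fermat.Agent.S35
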