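/-
S35 / [K-PUSH], piece (3) [KP-W] (owner: helper4), part 3.  Prefix `s35kw_`.

THE ANALYTIC DESCRIPTION OF `τ_W` OVER `ℂ`.

* `s35kw_tauW M q hq hqM : F_ℂ(M q) →+* ℂ((t))` : the expansion of `y ∘ w` (ring homomorphism,
  identity on constants, `τ_W (α g) = g(t^q)`, `τ_W (β g) = g`);
* **(W2)** `s35kw_tauW_ratio` : for modular forms `P`, `Q ≠ 0` of the same weight `K` on
  `Γ₀(M q)` and `y ∈ F_ℂ(M q)` with `y = ser P / ser Q`:
  `τ_W y = ser P^w / ser Q^w`, `P^w = s35kw_Wf M q x y h K P = (P ∣[K] γ₁)(q z)`;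
* **(W3)** `s35kw_normA` : `N_α(y)(t^q) = y(t^q) · ∏_{i<q} (τ_W y)(ζ^i t)`.

PROOF OF (W2): `s29kan_ratio_poly` (S29/Kan.lean) gives bivariate polynomials `A`, `B` with
`P · B(j, j_N) = Q · A(j, j_N)` on `ℍ` and on series; composing with `w` and multiplying by the
automorphy factor gives `P^w · B(j_q, j_M) = Q^w · A(j_q, j_M)`; and `τ_W j = j_q`,
`τ_W j_N = j_M`.
-/
import Mathlib
import Fermat.Agent.S29.Kan
import Fermat.Agent.S29.KumDefs
import Fermat.Agent.S35.KpWNorm
import Fermat.Agent.S35.KpWNice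

set_option autoImplicit false
set_option linter.style.haveILetI false
set_option linter.unusedSectionVars false
set_option linter.unusedVariables false

noncomputable section

namespace Fermat.Agent.S35

open UpperHalfPlane ModularFormClass CongruenceSubgroup Matrix.SpecialLinearGroup Function
open ModularForm Filter Asymptotics ModularCurve AlgebraicCurve
open scoped MatrixGroups ModularForm Manifold Real Topology Polynomial

open Fermat.Agent.S20 Fermat.Agent.S22 Fermat.Agent.S24 Fermat.Agent.S28 Fermat.Agent.S29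
open Fermat.Agent.S37 Fermat.Agent.S18

/-- `F_ℂ(N) ⊆ ℂ((t))` (reducible abbreviation). -/
abbrev s35kw_FC (N : ℕ) : Type := ↥(laurentBaseChange ℂ (modularFunctionFieldFull N))

/-! ### `τ_W` over `ℂ` -/

/-- **The expansion of `y ∘ w`** over `ℂ`. -/
def s35kw_tauW (M q : ℕ) [NeZero M] [NeZero q] (hq : q.Prime) (hqM : ¬ q ∣ M) :
    ↥(laurentBaseChange ℂ (modularFunctionFieldFull (M * q))) →+* LaurentSeries ℂ :=
  letI : Algebra QBar ℂ := iota.toAlgebra
  s35kw_tauWgen ℂ M q hq hqM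

section TauW

variable (M q : ℕ) [NeZero M] [NeZero q] (hq : q.Prime) (hqM : ¬ q ∣ M)

theorem s35kw_tauW_const (c : ℂ) :
    s35kw_tauW M q hq hqM
        (algebraMap ℂ ↥(laurentBaseChange ℂ (modularFunctionFieldFull (M * q))) c) =
      HahnSeries.C c := by
  letI : Algebra QBar ℂ := iota.toAlgebra
  have h := s35kw_tauWgen_const ℂ M q hq hqM c
  rw [algebraMap_laurentSeries_eq_single] at h
  exact h

theorem s35kw_tauW_alpha (g : ↥(laurentBaseChange ℂ (modularFunctionFieldFull M))) :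
    s35kw_tauW M q hq hqM (heckeAlphaBar ℂ M q g) = qExpand ℂ q (g : LaurentSeries ℂ) := by
  letI : Algebra QBar ℂ := iota.toAlgebra
  exact s35kw_tauWgen_alpha ℂ M q hq hqM g

theorem s35kw_tauW_beta (g : ↥(laurentBaseChange ℂ (modularFunctionFieldFull M))) :
    s35kw_tauW M q hq hqM (heckeBetaBar ℂ M q g) = (g : LaurentSeries ℂ) := by
  letI : Algebra QBar ℂ := iota.toAlgebra
  exact s35kw_tauWgen_beta ℂ M q hq hqM g

theorem s35kw_tauW_injective : Function.Injective (s35kw_tauW M q hq hqM) :=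
  (s35kw_tauW M q hq hqM).injective

/-- **(W3)** the general norm formula along `α` over `ℂ`. -/
theorem s35kw_normA (ζ : ℂˣ) (hζ : IsPrimitiveRoot ζ q)
    (yy : ↥(laurentBaseChange ℂ (modularFunctionFieldFull (M * q)))) :
    qExpand ℂ q
      (((letI := algebraAlong (heckeAlphaBar ℂ M q);
        Algebra.norm ↥(laurentBaseChange ℂ (modularFunctionFieldFull M)) yy :
          ↥(laurentBaseChange ℂ (modularFunctionFieldFull M)))) : LaurentSeries ℂ) =
      qExpand ℂ q (yy : LaurentSeries ℂ) *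
        ∏ i ∈ Finset.range q, s37es_tw (ζ ^ i) (s35kw_tauW M q hq hqM yy) := by
  letI : Algebra QBar ℂ := iota.toAlgebra
  exact s35kw_normA_gen ℂ M q hq hqM ζ hζ yy

end TauW

/-! ### Bivariate polynomials under ring homomorphisms -/

/-- A ring homomorphism into `ℂ((t))` which is the identity on constants commutes with the
evaluation of bivariate polynomials. -/
theorem s35kw_hom_serEval {F : Type*} [Field F] [Algebra ℂ F] (φ : F →+* LaurentSeries ℂ)
    (hφ : ∀ c : ℂ, φ (algebraMap ℂ F c) = HahnSeries.C c) (a b : F) (A : ℂ[X][X]) :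
    φ (A.eval₂ (Polynomial.eval₂RingHom (algebraMap ℂ F) a) b) =
      umem_serEval (φ a) (φ b) A := by
  unfold umem_serEval
  rw [Polynomial.hom_eval₂]
  congr 1
  refine Polynomial.ringHom_ext (fun c => ?_) ?_
  · simp only [RingHom.comp_apply, Polynomial.coe_eval₂RingHom, Polynomial.eval₂_C]
    exact hφ c
  · simp only [RingHom.comp_apply, Polynomial.coe_eval₂RingHom, Polynomial.eval₂_X]

/-! ### The generators `j`, `j_M` over `ℂ` -/

/-- `j ∈ F_ℂ(M)`. -/
def s35kw_jC (M : ℕ) [NeZero M] : ↥(laurentBaseChange ℂ (modularFunctionFieldFull M)) :=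
  ⟨anA_jSeries, by
    have h1 := coeffEmb_mem_laurentBaseChange ℂ (jq_mem M)
    rw [umem_coeffEmb_jq] at h1
    exact s29kan_laurentBaseChange_mono ℂ (modularFunctionField_le_full M) h1⟩

/-- `j_M ∈ F_ℂ(M)`. -/
def s35kw_jdC (M : ℕ) [NeZero M] : ↥(laurentBaseChange ℂ (modularFunctionFieldFull M)) :=
  ⟨qExpand ℂ M anA_jSeries, by
    have h1 := coeffEmb_mem_laurentBaseChange ℂ (jqN_mem M)
    rw [umem_coeffEmb_jqd] at h1
    exact s29kan_laurentBaseChange_mono ℂ (modularFunctionField_le_full M) h1⟩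

theorem s35kw_coe_jC (M : ℕ) [NeZero M] : ((s35kw_jC M : _) : LaurentSeries ℂ) = anA_jSeries :=
  rfl

theorem s35kw_coe_jdC (M : ℕ) [NeZero M] :
    ((s35kw_jdC M : _) : LaurentSeries ℂ) = qExpand ℂ M anA_jSeries := rfl

/-! ### The functions `j ∘ w`, `j_N ∘ w` -/

theorem s35kw_jfun_w (M q : ℕ) (x y : ℤ) (h : x * q - y * M = 1) (z : ℍ) :
    jfun (s37al_w M q x y h z) = anB_jd q z := by
  rw [s37al_w, jfun_smul]
  rfl

theorem s35kw_jd_w (M q : ℕ) [NeZero M] [NeZero q] (x y : ℤ) (h : x * q - y * M = 1) (z : ℍ) :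
    anB_jd (M * q) (s37al_w M q x y h z) = anB_jd M z := by
  have h' : (x * (q : ℕ)) * ((1 : ℕ) : ℤ) - ((M : ℕ) * y) * ((1 : ℕ) : ℤ) = 1 := by
    rw [← h]
    push_cast
    ring
  have h1 := s37al_diag_w M q x y h M 1 q 1 (mul_one M) (mul_one q) h' z
  show jfun (heckeDiagMatrix (M * q) • s37al_w M q x y h z) = jfun (heckeDiagMatrix M • z)
  rw [h1, jfun_smul, mul_one]

/-! ### (W2) -/

/-- The functional equation `P^w · B(j_q, j_M) = Q^w · A(j_q, j_M)`. -/
theorem s35kw_Wf_poly (M q : ℕ) [NeZero M] [NeZero q] (x y : ℤ) (h : x * q - y * M = 1)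
    (K : ℤ) {P Q : ℍ → ℂ} (A B : ℂ[X][X])
    (hfun : ∀ z : ℍ, P z * B.evalEval (jfun z) (anB_jd (M * q) z) =
      Q z * A.evalEval (jfun z) (anB_jd (M * q) z)) :
    (s35kw_Wf M q x y h K P * fun z => B.evalEval (anB_jd q z) (anB_jd M z)) =
      s35kw_Wf M q x y h K Q * fun z => A.evalEval (anB_jd q z) (anB_jd M z) := by
  funext z
  have h1 := hfun (s37al_w M q x y h z)
  rw [s35kw_jfun_w, s35kw_jd_w] at h1
  simp only [Pi.mul_apply]
  rw [s35kw_Wf_apply, s35kw_Wf_apply]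
  linear_combination
    (denom (s37al_mat x y M q h) ((heckeDiagMatrix q • z : ℍ) : ℂ) ^ (-K)) * h1

/-- **(W2)** the analytic description of `τ_W`: for modular forms `P`, `Q ≠ 0` of weight `K` on
`Γ₀(M q)` and `y = ser P / ser Q`:  `τ_W y = ser P^w / ser Q^w`. -/
theorem s35kw_tauW_ratio (M q : ℕ) [NeZero M] [NeZero q] (hq : q.Prime) (hqM : ¬ q ∣ M)
    (x y : ℤ) (h : x * q - y * M = 1) (K : ℕ) {P Q : ℍ → ℂ}
    (hP : IsMF (G0 (M * q)) K P) (hQ : IsMF (G0 (M * q)) K Q) (hQ0 : Q ≠ 0)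
    (yy : ↥(laurentBaseChange ℂ (modularFunctionFieldFull (M * q))))
    (hy : (yy : LaurentSeries ℂ) = s29k_ser P / s29k_ser Q) :
    s35kw_tauW M q hq hqM yy =
      s29k_ser (s35kw_Wf M q x y h K P) / s29k_ser (s35kw_Wf M q x y h K Q) := by
  haveI : NeZero (M * q) := ⟨Nat.mul_ne_zero (NeZero.ne M) (NeZero.ne q)⟩
  obtain ⟨A, B, hfun, hser, hB0, -⟩ := s29kan_ratio_poly (M * q) K P Q hP hQ hQ0
  -- the generators
  set a : s35kw_FC (M * q) := heckeAlphaBar ℂ M q (s35kw_jC M) with ha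
  set b : s35kw_FC (M * q) := heckeBetaBar ℂ M q (s35kw_jdC M) with hb
  have hac : (a : LaurentSeries ℂ) = anA_jSeries := by
    rw [ha, coe_heckeAlphaBar]
    rfl
  have hbc : (b : LaurentSeries ℂ) = qExpand ℂ (M * q) anA_jSeries := by
    rw [hb, coe_heckeBetaBar, s35kw_coe_jdC, qExpand_qExpand]
    exact qExpand_congr (mul_comm q M) _
  have hτa : s35kw_tauW M q hq hqM a = qExpand ℂ q anA_jSeries := by
    rw [ha, s35kw_tauW_alpha]
    rfl
  have hτb : s35kw_tauW M q hq hqM b = qExpand ℂ M anA_jSeries := by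
    rw [hb, s35kw_tauW_beta]
    rfl
  -- the two evaluations
  set EA : s35kw_FC (M * q) :=
    A.eval₂ (Polynomial.eval₂RingHom (algebraMap ℂ (s35kw_FC (M * q))) a) b with hEA
  set EB : s35kw_FC (M * q) :=
    B.eval₂ (Polynomial.eval₂RingHom (algebraMap ℂ (s35kw_FC (M * q))) a) b with hEB
  have hval : ∀ c : ℂ, (algebraMap (s35kw_FC (M * q)) (LaurentSeries ℂ))
      (algebraMap ℂ (s35kw_FC (M * q)) c) = HahnSeries.C c := by
    intro c
    show ((algebraMap ℂ (s35kw_FC (M * q)) c : s35kw_FC (M * q)) : LaurentSeries ℂ) =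
      HahnSeries.C c
    have h1 : ((algebraMap ℂ (s35kw_FC (M * q)) c : s35kw_FC (M * q)) : LaurentSeries ℂ) =
        algebraMap ℂ (LaurentSeries ℂ) c := rfl
    rw [h1, algebraMap_laurentSeries_eq_single]
    rfl
  have hEAc : (EA : LaurentSeries ℂ) =
      umem_serEval anA_jSeries (qExpand ℂ (M * q) anA_jSeries) A := by
    have h1 := s35kw_hom_serEval (algebraMap (s35kw_FC (M * q)) (LaurentSeries ℂ)) hval a b A
    have h2 : (algebraMap (s35kw_FC (M * q)) (LaurentSeries ℂ)) a = anA_jSeries := hac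
    have h3 : (algebraMap (s35kw_FC (M * q)) (LaurentSeries ℂ)) b =
        qExpand ℂ (M * q) anA_jSeries := hbc
    rw [h2, h3] at h1
    exact h1
  have hEBc : (EB : LaurentSeries ℂ) =
      umem_serEval anA_jSeries (qExpand ℂ (M * q) anA_jSeries) B := by
    have h1 := s35kw_hom_serEval (algebraMap (s35kw_FC (M * q)) (LaurentSeries ℂ)) hval a b B
    have h2 : (algebraMap (s35kw_FC (M * q)) (LaurentSeries ℂ)) a = anA_jSeries := hac
    have h3 : (algebraMap (s35kw_FC (M * q)) (LaurentSeries ℂ)) b =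
        qExpand ℂ (M * q) anA_jSeries := hbc
    rw [h2, h3] at h1
    exact h1
  have hSQ : s29k_ser Q ≠ 0 := s29kan_series_ne_zero hQ.isNice_G0 hQ0
  have e2 : yy * EB = EA := by
    apply Subtype.ext
    show (yy : LaurentSeries ℂ) * (EB : LaurentSeries ℂ) = (EA : LaurentSeries ℂ)
    rw [hEAc, hEBc, hy, div_mul_eq_mul_div, div_eq_iff hSQ, mul_comm _ (s29k_ser Q)]
    exact hser
  have hEB0 : EB ≠ 0 := by
    intro h0
    apply hB0
    rw [← hEBc, h0]
    rfl
  -- apply `τ_W`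
  have e3 := congrArg (s35kw_tauW M q hq hqM) e2
  rw [map_mul, hEA, hEB,
    s35kw_hom_serEval (s35kw_tauW M q hq hqM) (s35kw_tauW_const M q hq hqM) a b A,
    s35kw_hom_serEval (s35kw_tauW M q hq hqM) (s35kw_tauW_const M q hq hqM) a b B,
    hτa, hτb] at e3
  have hB'0 : umem_serEval (qExpand ℂ q anA_jSeries) (qExpand ℂ M anA_jSeries) B ≠ 0 := by
    have h1 := s35kw_hom_serEval (s35kw_tauW M q hq hqM) (s35kw_tauW_const M q hq hqM) a b B
    rw [hτa, hτb] at h1
    rw [← h1]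
    exact (map_ne_zero (s35kw_tauW M q hq hqM)).2 hEB0
  -- the analytic side
  have nP := s35kw_Wf_isNice x y h hP
  have nQ := s35kw_Wf_isNice x y h hQ
  have hWP := anA_HasLaurent.of_isNice nP
  have hWQ := anA_HasLaurent.of_isNice nQ
  have hA' := umem_hasLaurent_evalEval (umem_hasLaurent_jd q) (umem_hasLaurent_jd M) A
  have hB' := umem_hasLaurent_evalEval (umem_hasLaurent_jd q) (umem_hasLaurent_jd M) B
  have h5 := hWP.mul hB'
  rw [s35kw_Wf_poly M q x y h K A B hfun] at h5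
  have e4 := h5.unique_series (hWQ.mul hA')
  have hWQ0 : s29k_ser (s35kw_Wf M q x y h K Q) ≠ 0 :=
    s29kan_series_ne_zero nQ (s35kw_Wf_ne_zero M q x y h K hQ0)
  -- conclusion
  rw [eq_div_iff hWQ0]
  have e5 : s35kw_tauW M q hq hqM yy =
      umem_serEval (qExpand ℂ q anA_jSeries) (qExpand ℂ M anA_jSeries) A /
        umem_serEval (qExpand ℂ q anA_jSeries) (qExpand ℂ M anA_jSeries) B :=
    eq_div_of_mul_eq hB'0 e3
  rw [e5, div_mul_eq_mul_div, div_eq_iff hB'0]
  rw [mul_comm]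
  exact e4.symm

end Fermat.Agent.S35
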