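/-
S35 / [K-PUSH], piece (3) [KP-W] (owner: helper4), part 4.  Prefix `s35kw_`.

THE ATKIN-LEHNER INVOLUTION OVER `L ⊇ Q̄` AND THE NORM FORMULA ALONG `β`.

* `s35kw_WLgen L M q hq hqM : F_L(M q) ≃+* F_L(M q)` : the Atkin-Lehner involution, with
  `coe (W x) = τ_W x`, `W (W x) = x`, `W (α g) = β g`, `W (β g) = α g`, `W c = c`;
* `s35kw_normB_eq_gen` : `N_β (x) = N_α (W x)`;
* `s35kw_normB_gen`    : `N_β(x)(t^q) = (τ_W x)(t^q) · ∏_{i<q} x(ζ^i t)`.
-/
import Mathlib
import Fermat.Agent.S37.AtkinLehnerInv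
import Fermat.Agent.S35.KpWNorm

set_option autoImplicit false
set_option linter.style.haveILetI false
set_option linter.unusedSectionVars false
set_option linter.unusedVariables false

open ModularCurve AlgebraicCurve
open Fermat.Agent.S24 Fermat.Agent.S37 Fermat.Agent.S18 Fermat.Agent.S29

noncomputable section

namespace Fermat.Agent.S35

/-! ### `W₀` is an involution -/

section W0

variable (M q : ℕ) [NeZero M] [NeZero q]

theorem s35kw_jDiv_alpha (d : ℕ) [NeZero d] (hd : d ∣ M) (hd' : d ∣ M * q) :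
    jDiv (M * q) d hd' = heckeAlphaBar QBar M q (jDiv M d hd) := by
  apply Subtype.ext
  rw [coe_heckeAlphaBar]
  rfl

theorem s35kw_jDiv_beta (d : ℕ) [NeZero d] [NeZero (d * q)] (hd : d ∣ M)
    (hd' : d * q ∣ M * q) :
    jDiv (M * q) (d * q) hd' = heckeBetaBar QBar M q (jDiv M d hd) := by
  apply Subtype.ext
  rw [coe_heckeBetaBar]
  show jLaurent (d * q) = qExpand QBar q (jLaurent d)
  rw [s37al_qExpand_jLaurent]

theorem s35kw_W0_W0 (hq : q.Prime) (hqM : ¬ q ∣ M) (f : FunField (M * q)) :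
    s35kw_W0 M q hq hqM (s35kw_W0 M q hq hqM f) = f := by
  have key : ((s35kw_W0 M q hq hqM : FunField (M * q) →+* FunField (M * q)).comp
      (s35kw_W0 M q hq hqM : FunField (M * q) →+* FunField (M * q))) =
      RingHom.id (FunField (M * q)) := by
    refine s37al_ringHom_ext _ _ ?_ ?_
    · intro c
      show s35kw_W0 M q hq hqM (s35kw_W0 M q hq hqM (algebraMap QBar (FunField (M * q)) c)) =
        algebraMap QBar (FunField (M * q)) c
      rw [AlgHom.commutes, AlgHom.commutes]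
    · intro d' _ hd'
      show s35kw_W0 M q hq hqM (s35kw_W0 M q hq hqM (jDiv (M * q) d' hd')) =
        jDiv (M * q) d' hd'
      obtain ⟨d, e, hdM, heq, hde⟩ := (Nat.dvd_mul).1 hd'
      have hd0 : d ≠ 0 := by
        rintro rfl
        exact NeZero.ne M (Nat.eq_zero_of_zero_dvd hdM)
      haveI : NeZero d := ⟨hd0⟩
      rcases (Nat.dvd_prime hq).1 heq with h1 | h1
      · rw [h1, mul_one] at hde
        subst hde
        rw [s35kw_jDiv_alpha M q d hdM hd', s35kw_W0_alpha, s35kw_W0_beta]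
      · rw [h1] at hde
        subst hde
        rw [s35kw_jDiv_beta M q d hdM hd', s35kw_W0_beta, s35kw_W0_alpha]
  exact RingHom.congr_fun key f

end W0

section Gen

variable (L : Type) [Field L] [Algebra ℚ L] [Algebra QBar L]
variable (M q : ℕ) [NeZero M] [NeZero q]

/-! ### The involution over `L` -/

theorem s35kw_tauWgen_mem (hq : q.Prime) (hqM : ¬ q ∣ M) (x : s29hk_F L (M * q)) :
    s35kw_tauWgen L M q hq hqM x ∈ laurentBaseChange L (modularFunctionFieldFull (M * q)) := by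
  have h := s18cfe_iota_gen QBar L (modularFunctionFieldFull (M * q))
    ((laurentBaseChange L (modularFunctionFieldFull (M * q))).toSubfield.comap
      (s35kw_tauWgen L M q hq hqM)) ?_ ?_ x
  · exact h
  · intro f
    show s35kw_tauWgen L M q hq hqM (s29hk_iota L (M * q) f) ∈
      laurentBaseChange L (modularFunctionFieldFull (M * q))
    rw [s35kw_tauWgen_iota, ← s29hk_iota_coe]
    exact (s29hk_iota L (M * q) _).2
  · intro c
    show s35kw_tauWgen L M q hq hqM (algebraMap L (s29hk_F L (M * q)) c) ∈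
      laurentBaseChange L (modularFunctionFieldFull (M * q))
    rw [s35kw_tauWgen_const]
    exact (laurentBaseChange L (modularFunctionFieldFull (M * q))).algebraMap_mem c

/-- The Atkin-Lehner involution over `L`, as a ring homomorphism. -/
def s35kw_WLhom (hq : q.Prime) (hqM : ¬ q ∣ M) : s29hk_F L (M * q) →+* s29hk_F L (M * q) where
  toFun x := ⟨s35kw_tauWgen L M q hq hqM x, s35kw_tauWgen_mem L M q hq hqM x⟩
  map_one' := Subtype.ext (map_one _)
  map_zero' := Subtype.ext (map_zero _)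
  map_mul' a b := Subtype.ext (map_mul _ a b)
  map_add' a b := Subtype.ext (map_add _ a b)

theorem s35kw_coe_WLhom (hq : q.Prime) (hqM : ¬ q ∣ M) (x : s29hk_F L (M * q)) :
    ((s35kw_WLhom L M q hq hqM x : s29hk_F L (M * q)) : LaurentSeries L) =
      s35kw_tauWgen L M q hq hqM x := rfl

theorem s35kw_WLhom_const (hq : q.Prime) (hqM : ¬ q ∣ M) (c : L) :
    s35kw_WLhom L M q hq hqM (algebraMap L (s29hk_F L (M * q)) c) =
      algebraMap L (s29hk_F L (M * q)) c := by
  apply Subtype.ext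
  rw [s35kw_coe_WLhom, s35kw_tauWgen_const]
  rfl

theorem s35kw_WLhom_iota (hq : q.Prime) (hqM : ¬ q ∣ M) (f : FunField (M * q)) :
    s35kw_WLhom L M q hq hqM (s29hk_iota L (M * q) f) =
      s29hk_iota L (M * q) (s35kw_W0 M q hq hqM f) := by
  apply Subtype.ext
  rw [s35kw_coe_WLhom, s35kw_tauWgen_iota, s29hk_iota_coe]

theorem s35kw_WLhom_alpha (hq : q.Prime) (hqM : ¬ q ∣ M) (g : s29hk_F L M) :
    s35kw_WLhom L M q hq hqM (heckeAlphaBar L M q g) = heckeBetaBar L M q g := by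
  apply Subtype.ext
  rw [s35kw_coe_WLhom, s35kw_tauWgen_alpha, coe_heckeBetaBar]

theorem s35kw_WLhom_beta (hq : q.Prime) (hqM : ¬ q ∣ M) (g : s29hk_F L M) :
    s35kw_WLhom L M q hq hqM (heckeBetaBar L M q g) = heckeAlphaBar L M q g := by
  apply Subtype.ext
  rw [s35kw_coe_WLhom, s35kw_tauWgen_beta, coe_heckeAlphaBar]

theorem s35kw_WLhom_WLhom (hq : q.Prime) (hqM : ¬ q ∣ M) (x : s29hk_F L (M * q)) :
    s35kw_WLhom L M q hq hqM (s35kw_WLhom L M q hq hqM x) = x := by
  have h := s29hk_hom_ext L (M * q)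
    ((s35kw_WLhom L M q hq hqM).comp (s35kw_WLhom L M q hq hqM))
    (RingHom.id (s29hk_F L (M * q))) ?_ ?_
  · exact DFunLike.congr_fun h x
  · intro c
    show s35kw_WLhom L M q hq hqM (s35kw_WLhom L M q hq hqM _) = _
    rw [s35kw_WLhom_const, s35kw_WLhom_const]
    rfl
  · intro f
    show s35kw_WLhom L M q hq hqM (s35kw_WLhom L M q hq hqM _) = _
    rw [s35kw_WLhom_iota, s35kw_WLhom_iota, s35kw_W0_W0]
    rfl

/-- **The Atkin-Lehner involution over `L`**, as a ring automorphism of `F_L(M q)`. -/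
def s35kw_WLgen (hq : q.Prime) (hqM : ¬ q ∣ M) : s29hk_F L (M * q) ≃+* s29hk_F L (M * q) :=
  RingEquiv.ofRingHom (s35kw_WLhom L M q hq hqM) (s35kw_WLhom L M q hq hqM)
    (RingHom.ext (s35kw_WLhom_WLhom L M q hq hqM)) (RingHom.ext (s35kw_WLhom_WLhom L M q hq hqM))

theorem s35kw_WLgen_apply (hq : q.Prime) (hqM : ¬ q ∣ M) (x : s29hk_F L (M * q)) :
    s35kw_WLgen L M q hq hqM x = s35kw_WLhom L M q hq hqM x := rfl

theorem s35kw_coe_WLgen (hq : q.Prime) (hqM : ¬ q ∣ M) (x : s29hk_F L (M * q)) :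
    ((s35kw_WLgen L M q hq hqM x : s29hk_F L (M * q)) : LaurentSeries L) =
      s35kw_tauWgen L M q hq hqM x := rfl

theorem s35kw_tauWgen_WLgen (hq : q.Prime) (hqM : ¬ q ∣ M) (x : s29hk_F L (M * q)) :
    s35kw_tauWgen L M q hq hqM (s35kw_WLgen L M q hq hqM x) = (x : LaurentSeries L) := by
  rw [← s35kw_coe_WLgen, s35kw_WLgen_apply, s35kw_WLgen_apply, s35kw_WLhom_WLhom]

/-! ### The norm along `β` -/

/-- `N_β (W x) = N_α (x)`. -/
theorem s35kw_normA_eq_gen (hq : q.Prime) (hqM : ¬ q ∣ M) (x : s29hk_F L (M * q)) :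
    (letI := algebraAlong (heckeAlphaBar L M q); Algebra.norm (s29hk_F L M) x) =
      (letI := algebraAlong (heckeBetaBar L M q);
        Algebra.norm (s29hk_F L M) (s35kw_WLgen L M q hq hqM x)) := by
  have he : RingHom.comp
      (@algebraMap (s29hk_F L M) (s29hk_F L (M * q)) _ _ (algebraAlong (heckeBetaBar L M q)))
      ((RingEquiv.refl (s29hk_F L M) : s29hk_F L M ≃+* s29hk_F L M) :
        s29hk_F L M →+* s29hk_F L M) =
      RingHom.comp ((s35kw_WLgen L M q hq hqM : s29hk_F L (M * q) ≃+* s29hk_F L (M * q)) :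
        s29hk_F L (M * q) →+* s29hk_F L (M * q))
      (@algebraMap (s29hk_F L M) (s29hk_F L (M * q)) _ _ (algebraAlong (heckeAlphaBar L M q))) := by
    ext g : 1
    show heckeBetaBar L M q g = s35kw_WLhom L M q hq hqM (heckeAlphaBar L M q g)
    rw [s35kw_WLhom_alpha]
  have h := @Algebra.norm_eq_of_equiv_equiv (s29hk_F L M) (s29hk_F L (M * q)) (s29hk_F L M)
    (s29hk_F L (M * q)) _ _ _ _ (algebraAlong (heckeAlphaBar L M q))
    (algebraAlong (heckeBetaBar L M q)) (RingEquiv.refl _) (s35kw_WLgen L M q hq hqM) he x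
  exact h

/-- `N_β (x) = N_α (W x)`. -/
theorem s35kw_normB_eq_gen (hq : q.Prime) (hqM : ¬ q ∣ M) (x : s29hk_F L (M * q)) :
    (letI := algebraAlong (heckeBetaBar L M q); Algebra.norm (s29hk_F L M) x) =
      (letI := algebraAlong (heckeAlphaBar L M q);
        Algebra.norm (s29hk_F L M) (s35kw_WLgen L M q hq hqM x)) := by
  rw [s35kw_normA_eq_gen L M q hq hqM (s35kw_WLgen L M q hq hqM x)]
  congr 1
  exact (s35kw_WLhom_WLhom L M q hq hqM x).symm

/-- **The general norm formula along `β`**: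
`N_β(x)(t^q) = (τ_W x)(t^q) · ∏_{i<q} x(ζ^i t)`. -/
theorem s35kw_normB_gen (hq : q.Prime) (hqM : ¬ q ∣ M) (ζ : Lˣ) (hζ : IsPrimitiveRoot ζ q)
    (x : s29hk_F L (M * q)) :
    qExpand L q
      (((letI := algebraAlong (heckeBetaBar L M q);
        Algebra.norm (s29hk_F L M) x : s29hk_F L M)) : LaurentSeries L) =
      qExpand L q (s35kw_tauWgen L M q hq hqM x) *
        ∏ i ∈ Finset.range q, s37es_tw (ζ ^ i) (x : LaurentSeries L) := by
  rw [s35kw_normB_eq_gen L M q hq hqM x,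
    s35kw_normA_gen L M q hq hqM ζ hζ (s35kw_WLgen L M q hq hqM x), s35kw_coe_WLgen,
    s35kw_tauWgen_WLgen]

end Gen

end Fermat.Agent.S35
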