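/-
S35, INTERFACE of the geometric input (NEW-FROB).  Architect: helper16.  Prefix `s35_`.
Definitions, `Prop`s and the composition; the shapes mirror `S34/Defs.lean`.

`q` a prime, `q ∤ M`, `A` a valuation ring of `Q̄` over `q`, `σ` ANY Frobenius lift at `A`,
`s := σ * σ`, `n` prime to `q`.

  (NEW-FROB)  `(s - q²)(s - 1) = 0` on `{y ∈ J₀(M q)[n] : α_* y = 0 = β_* y}`:
              `s • s • y + q² • y = (q² + 1) • s • y`                       (`s35_NewFrobAt`).
  [NF-DOWN]   (NEW-FROB) at the levels `M q` with `4 ∣ M` or `9 ∣ M` ⟹ (NEW-FROB) at all levels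
              `M q` (the conorm to `s18_level` preserves `α_* y = 0 = β_* y`).
  (NF-USTAR)  the Kummer form: for `f ∈ F̄_{Mq}ˣ` with `n ∣ ord_P f` at all places and with
              `N_α f`, `N_β f` `n`-th powers in `F̄_M`, the function
              `u = s(s f) · f^(q²) / (s f)^(q²+1)` is an `n`-th power in `F̄_{Mq}`.
  [NF-WIRE]   (NF-USTAR) ⟹ (NEW-FROB)                                       (Kummer dictionary).
  [NF-RAT]    (NF-K) ⟹ (NF-USTAR) at the levels `M q`, `4 ∣ M` or `9 ∣ M`.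
  (NF-K)      the number field form ⟸ [LIFT2] + the S34 model + [NF-NORM] + [NF-LOC].
-/
import Mathlib
import Fermat.Agent.S34.Defs
import Fermat.Agent.S35.Push

set_option autoImplicit false

open AlgebraicCurve ModularCurve IntermediateField
open scoped TensorProduct

noncomputable section

namespace Fermat.Agent.S35

open Fermat.Agent.S18

/-! ### (NEW-FROB) -/

/-- **(NEW-FROB) at the level `M q`**: for every Frobenius lift `σ` at `q`, the operator
`(σ² - q²)(σ² - 1)` kills the classes of order prime to `q` of `J₀(M q)(Q̄)` which are killed by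
the two push-forwards to `J₀(M)`. -/
def s35_NewFrobAt (M q : ℕ) [NeZero M] [NeZero q] : Prop :=
  ∀ A : ValuationSubring (AlgebraicClosure ℚ), A.LiesOverPrime q →
    ∀ σ : AlgebraicClosure ℚ ≃ₐ[ℚ] AlgebraicClosure ℚ, A.IsFrobeniusAt σ q →
    ∀ n : ℕ, ¬ q ∣ n → ∀ y : JZero (M * q), n • y = 0 →
      s35_pushA M q y = 0 → s35_pushB M q y = 0 →
      (σ * σ) • (σ * σ) • y + (q ^ 2) • y = (q ^ 2 + 1) • (σ * σ) • y

/-- **(NEW-FROB)** at all levels `M q`, `q ∤ M`. -/
def s35_NewFrobStatement : Prop :=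
  ∀ (M q : ℕ) [NeZero M] [NeZero q], q.Prime → ¬ q ∣ M → s35_NewFrobAt M q

/-- **(NEW-FROB-M)** at the levels `M q`, `q ∤ M`, `4 ∣ M` or `9 ∣ M`. -/
def s35_NewFrobMStatement : Prop :=
  ∀ (M q : ℕ) [NeZero M] [NeZero q], q.Prime → ¬ q ∣ M → (4 ∣ M ∨ 9 ∣ M) → s35_NewFrobAt M q

/-- **[NF-DOWN]** the passage to the levels with `4 ∣ M` or `9 ∣ M`. -/
def s35_DownStatement : Prop := s35_NewFrobMStatement → s35_NewFrobStatement

/-! ### The Kummer form -/

section FD

variable {L : Type*} [Field L] [Algebra ℚ L]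

/-- The Frobenius difference `(s - q²)(s - 1) f = s(s f) · f^(q²) / (s f)^(q² + 1)` of a
function, `s` acting on the coefficients of the `q`-expansion. -/
def s35_fd (N q : ℕ) (s : L ≃ₐ[ℚ] L)
    (f : ↥(laurentBaseChange L (modularFunctionFieldFull N))) :
    ↥(laurentBaseChange L (modularFunctionFieldFull N)) :=
  (arithmeticGalois (modularFunctionFieldFull N) s •
      (arithmeticGalois (modularFunctionFieldFull N) s • f)) * f ^ (q ^ 2) /
    (arithmeticGalois (modularFunctionFieldFull N) s • f) ^ (q ^ 2 + 1)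

variable (L) (M q : ℕ) [NeZero M] [NeZero q]

/-- The norm along the degeneracy map `α` (the inclusion `F_M ⊆ F_{Mq}`). -/
def s35_normA (f : ↥(laurentBaseChange L (modularFunctionFieldFull (M * q)))) :
    ↥(laurentBaseChange L (modularFunctionFieldFull M)) :=
  letI := algebraAlong (heckeAlphaBar L M q)
  Algebra.norm ↥(laurentBaseChange L (modularFunctionFieldFull M)) f

/-- The norm along the degeneracy map `β` (`t ↦ t^q`). -/
def s35_normB (f : ↥(laurentBaseChange L (modularFunctionFieldFull (M * q)))) :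
    ↥(laurentBaseChange L (modularFunctionFieldFull M)) :=
  letI := algebraAlong (heckeBetaBar L M q)
  Algebra.norm ↥(laurentBaseChange L (modularFunctionFieldFull M)) f

end FD

/-- **(NF-USTAR)** at the level `M q` for the exponent `n` and the automorphism `s`. -/
def s35_UStar (M q : ℕ) [NeZero M] [NeZero q] (n : ℕ)
    (s : AlgebraicClosure ℚ ≃ₐ[ℚ] AlgebraicClosure ℚ) : Prop :=
  ∀ f : ↥(modularFunctionFieldBar (M * q)), f ≠ 0 →
    (∀ P : Place (AlgebraicClosure ℚ) ↥(modularFunctionFieldBar (M * q)), (n : ℤ) ∣ P.ord f) →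
    (∃ g : ↥(modularFunctionFieldBar M), g ^ n = s35_normA (AlgebraicClosure ℚ) M q f) →
    (∃ g : ↥(modularFunctionFieldBar M), g ^ n = s35_normB (AlgebraicClosure ℚ) M q f) →
    ∃ v : ↥(modularFunctionFieldBar (M * q)), v ^ n = s35_fd (M * q) q s f

/-- **(NF-USTAR-M)** (NF-USTAR) at the levels `M q`, `q ∤ M`, `4 ∣ M` or `9 ∣ M`, for the squares
of the Frobenius lifts at `q` and the exponents prime to `q`. -/
def s35_UStarMStatement : Prop :=
  ∀ (M q : ℕ) [NeZero M] [NeZero q], q.Prime → ¬ q ∣ M → (4 ∣ M ∨ 9 ∣ M) →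
    ∀ A : ValuationSubring (AlgebraicClosure ℚ), A.LiesOverPrime q →
    ∀ σ : AlgebraicClosure ℚ ≃ₐ[ℚ] AlgebraicClosure ℚ, A.IsFrobeniusAt σ q →
    ∀ n : ℕ, ¬ q ∣ n → s35_UStar M q n (σ * σ)

/-- **[NF-WIRE]** the Kummer dictionary: (NF-USTAR) at the level `M q` implies (NEW-FROB) at the
level `M q`. -/
def s35_WireStatement : Prop :=
  ∀ (M q : ℕ) [NeZero M] [NeZero q], q.Prime → ¬ q ∣ M →
    (∀ A : ValuationSubring (AlgebraicClosure ℚ), A.LiesOverPrime q →
      ∀ σ : AlgebraicClosure ℚ ≃ₐ[ℚ] AlgebraicClosure ℚ, A.IsFrobeniusAt σ q →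
      ∀ n : ℕ, ¬ q ∣ n → s35_UStar M q n (σ * σ)) →
    s35_NewFrobAt M q

/-! ### The number field form -/

/-- **(NF-K)** over a number field `K0 ⊆ Q̄`: `A` a valuation ring of `Q̄` over `q`,
`O = A ∩ K0` a discrete valuation ring, `σ0` an automorphism of `K0` with `σ0 x ≡ x^q` modulo
`𝔪_O` on `O` (a Frobenius lift), `f ∈ F_{K0}(M q)ˣ` with all orders divisible by `n`, all zeros
and poles of degree `1`, and with `N_α f`, `N_β f` `n`-th powers in `F_{K0}(M)`: the Frobenius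
difference of `f` for `s = σ0 * σ0` is an `n`-th power after extension of constants to an
algebraically closed field. -/
def s35_UStarKStatement : Prop :=
  ∀ (M q : ℕ) [NeZero M] [NeZero q], q.Prime → ¬ q ∣ M → (4 ∣ M ∨ 9 ∣ M) →
    ∀ A : ValuationSubring (AlgebraicClosure ℚ), A.LiesOverPrime q →
    ∀ (K0 : IntermediateField ℚ (AlgebraicClosure ℚ)), FiniteDimensional ℚ ↥K0 →
    ∀ (O : ValuationSubring ↥K0) [IsDiscreteValuationRing ↥O],
      (∀ x : ↥K0, x ∈ O ↔ (x : AlgebraicClosure ℚ) ∈ A) →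
    ∀ σ0 : ↥K0 ≃ₐ[ℚ] ↥K0,
      (∀ x : ↥O, ∃ y : ↥O, y ∈ IsLocalRing.maximalIdeal ↥O ∧
        (y : ↥K0) = σ0 (x : ↥K0) - (x : ↥K0) ^ q) →
    ∀ n : ℕ, ¬ q ∣ n → ∀ f : ↥(s18_F ↥K0 (M * q)), f ≠ 0 →
      (∀ P : Place ↥K0 ↥(s18_F ↥K0 (M * q)), (n : ℤ) ∣ P.ord f) →
      (∀ P : Place ↥K0 ↥(s18_F ↥K0 (M * q)), P.ord f ≠ 0 → P.deg = 1) →
      (∃ g : ↥(s18_F ↥K0 M), g ^ n = s35_normA ↥K0 M q f) →
      (∃ g : ↥(s18_F ↥K0 M), g ^ n = s35_normB ↥K0 M q f) →
      ∀ (C : Type) [Field C] [IsAlgClosed C] [Algebra ↥K0 C],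
        ∃ y : C ⊗[↥K0] ↥(s18_F ↥K0 (M * q)),
          y ^ n = (1 : C) ⊗ₜ[↥K0] s35_fd (M * q) q (σ0 * σ0) f

/-- **[NF-RAT]** the passage from `Q̄`, `A`, `σ` to number fields. -/
def s35_RatStatement : Prop := s35_UStarKStatement → s35_UStarMStatement

/-! ### The composition -/

/-- (NEW-FROB-M) from (NF-USTAR-M) and [NF-WIRE]. -/
theorem s35_newFrobM_of (hW : s35_WireStatement) (hU : s35_UStarMStatement) :
    s35_NewFrobMStatement := by
  intro M q _ _ hq hqM h49
  exact hW M q hq hqM fun A hA σ hσ n hn => hU M q hq hqM h49 A hA σ hσ n hn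

/-- **The composition**: (NEW-FROB) from [NF-DOWN], [NF-WIRE], [NF-RAT] and (NF-K). -/
theorem s35_newFrob_of (hD : s35_DownStatement) (hW : s35_WireStatement)
    (hR : s35_RatStatement) (hK : s35_UStarKStatement) : s35_NewFrobStatement :=
  hD (s35_newFrobM_of hW (hR hK))

end Fermat.Agent.S35
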