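/-
S35 / [K-PUSH], piece (3) [KP-W] (owner: helper4), part 5.  Prefix `s35kw_`.

THE ATKIN-LEHNER INVOLUTION AND THE TWO NORM FORMULAS OVER `ℂ`, in the vocabulary of
`S35/NfDefs.lean` (`s35_normA`, `s35_normB`).

* `s35kw_WC M q hq hqM : F_ℂ(M q) ≃+* F_ℂ(M q)`, `coe (W y) = τ_W y`, `W (W y) = y`,
  `W (α g) = β g`, `W (β g) = α g`, `W c = c`;
* **(W3)** `s35kw_normA'` : `N_α(y)(t^q) = y(t^q) · ∏_{i<q} (τ_W y)(ζ^i t)`;
* **(W4)** `s35kw_normB`  : `N_β(y)(t^q) = (τ_W y)(t^q) · ∏_{i<q} y(ζ^i t)`;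
* **(W5)** `s35kw_normB_eq` : `N_β y = N_α (W y)`,  `s35kw_normA_eq` : `N_α y = N_β (W y)`.
-/
import Mathlib
import Fermat.Agent.S35.NfDefs
import Fermat.Agent.S35.KpWAn
import Fermat.Agent.S35.KpWBeta

set_option autoImplicit false
set_option linter.style.haveILetI false
set_option linter.unusedSectionVars false
set_option linter.unusedVariables false

open ModularCurve AlgebraicCurve
open Fermat.Agent.S24 Fermat.Agent.S37 Fermat.Agent.S18 Fermat.Agent.S29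

noncomputable section

namespace Fermat.Agent.S35

variable (M q : ℕ) [NeZero M] [NeZero q] (hq : q.Prime) (hqM : ¬ q ∣ M)

/-- **The Atkin-Lehner involution of `F_ℂ(M q)`.** -/
def s35kw_WC : s35kw_FC (M * q) ≃+* s35kw_FC (M * q) :=
  letI : Algebra QBar ℂ := iota.toAlgebra
  s35kw_WLgen ℂ M q hq hqM

theorem s35kw_coe_WC (y : s35kw_FC (M * q)) :
    ((s35kw_WC M q hq hqM y : s35kw_FC (M * q)) : LaurentSeries ℂ) =
      s35kw_tauW M q hq hqM y := rfl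

theorem s35kw_WC_WC (y : s35kw_FC (M * q)) :
    s35kw_WC M q hq hqM (s35kw_WC M q hq hqM y) = y := by
  letI : Algebra QBar ℂ := iota.toAlgebra
  exact s35kw_WLhom_WLhom ℂ M q hq hqM y

theorem s35kw_WC_alpha (g : s35kw_FC M) :
    s35kw_WC M q hq hqM (heckeAlphaBar ℂ M q g) = heckeBetaBar ℂ M q g := by
  letI : Algebra QBar ℂ := iota.toAlgebra
  exact s35kw_WLhom_alpha ℂ M q hq hqM g

theorem s35kw_WC_beta (g : s35kw_FC M) :
    s35kw_WC M q hq hqM (heckeBetaBar ℂ M q g) = heckeAlphaBar ℂ M q g := by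
  letI : Algebra QBar ℂ := iota.toAlgebra
  exact s35kw_WLhom_beta ℂ M q hq hqM g

theorem s35kw_WC_const (c : ℂ) :
    s35kw_WC M q hq hqM (algebraMap ℂ (s35kw_FC (M * q)) c) =
      algebraMap ℂ (s35kw_FC (M * q)) c := by
  letI : Algebra QBar ℂ := iota.toAlgebra
  exact s35kw_WLhom_const ℂ M q hq hqM c

theorem s35kw_tauW_WC (y : s35kw_FC (M * q)) :
    s35kw_tauW M q hq hqM (s35kw_WC M q hq hqM y) = (y : LaurentSeries ℂ) := by
  letI : Algebra QBar ℂ := iota.toAlgebra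
  exact s35kw_tauWgen_WLgen ℂ M q hq hqM y

theorem s35kw_WC_ne_zero {y : s35kw_FC (M * q)} (hy : y ≠ 0) : s35kw_WC M q hq hqM y ≠ 0 :=
  (map_ne_zero (s35kw_WC M q hq hqM)).2 hy

/-- **(W3)** in the vocabulary of `S35/NfDefs.lean`. -/
theorem s35kw_normA' (ζ : ℂˣ) (hζ : IsPrimitiveRoot ζ q) (y : s35kw_FC (M * q)) :
    qExpand ℂ q ((s35_normA ℂ M q y : s35kw_FC M) : LaurentSeries ℂ) =
      qExpand ℂ q (y : LaurentSeries ℂ) *
        ∏ i ∈ Finset.range q, s37es_tw (ζ ^ i) (s35kw_tauW M q hq hqM y) :=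
  s35kw_normA M q hq hqM ζ hζ y

/-- **(W4)** the general norm formula along `β` over `ℂ`:
`N_β(y)(t^q) = (τ_W y)(t^q) · ∏_{i<q} y(ζ^i t)`. -/
theorem s35kw_normB (ζ : ℂˣ) (hζ : IsPrimitiveRoot ζ q) (y : s35kw_FC (M * q)) :
    qExpand ℂ q ((s35_normB ℂ M q y : s35kw_FC M) : LaurentSeries ℂ) =
      qExpand ℂ q (s35kw_tauW M q hq hqM y) *
        ∏ i ∈ Finset.range q, s37es_tw (ζ ^ i) (y : LaurentSeries ℂ) := by
  letI : Algebra QBar ℂ := iota.toAlgebra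
  exact s35kw_normB_gen ℂ M q hq hqM ζ hζ y

/-- **(W5)** `N_β y = N_α (W y)`. -/
theorem s35kw_normB_eq (y : s35kw_FC (M * q)) :
    s35_normB ℂ M q y = s35_normA ℂ M q (s35kw_WC M q hq hqM y) := by
  letI : Algebra QBar ℂ := iota.toAlgebra
  exact s35kw_normB_eq_gen ℂ M q hq hqM y

/-- **(W5)** `N_α y = N_β (W y)`. -/
theorem s35kw_normA_eq (y : s35kw_FC (M * q)) :
    s35_normA ℂ M q y = s35_normB ℂ M q (s35kw_WC M q hq hqM y) := by
  letI : Algebra QBar ℂ := iota.toAlgebra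
  exact s35kw_normA_eq_gen ℂ M q hq hqM y

end Fermat.Agent.S35
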