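/-
S35 / [K-PUSH], piece (3) [KP-W] (owner: helper4), part 6.  Prefix `s35kw_`.

THE MIXED HECKE PRODUCT AND THE SERIES OF THE TWO NORMS.

For functions `P₁`, `P₂` on the upper half plane the **mixed product** is

    s35kw_mix q P₁ P₂ (z) = P₁ (z) · ∏_{j<q} P₂ ((z + j) / q).

* `s35kw_mix_isNice`  : nice if `P₁`, `P₂` are;
* `s35kw_mix_series`  : `(ser mix)(t^q) = (ser P₁)(t^q) · ∏_{j<q} (ser P₂)(ζ^j t)`;
* `s35kw_normA_ratio` : for forms `P`, `Q ≠ 0` of weight `K` on `Γ₀(M q)` and `y = ser P / ser Q`: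
      `N_α y = ser (mix q P P^w) / ser (mix q Q Q^w)`;
* `s35kw_normB_ratio` : `N_β y = ser (mix q P^w P) / ser (mix q Q^w Q)`.

Here `P^w = s35kw_Wf M q x y h K P` is the Atkin-Lehner translate.
-/
import Mathlib
import Fermat.Agent.S29.HkAn
import Fermat.Agent.S35.KpWC

set_option autoImplicit false
set_option linter.style.haveILetI false
set_option linter.unusedSectionVars false
set_option linter.unusedVariables false

noncomputable section

namespace Fermat.Agent.S35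

open UpperHalfPlane ModularFormClass CongruenceSubgroup Matrix.SpecialLinearGroup Function
open ModularForm Filter Asymptotics ModularCurve AlgebraicCurve
open scoped MatrixGroups ModularForm Manifold Real Topology

open Fermat.Agent.S20 Fermat.Agent.S22 Fermat.Agent.S24 Fermat.Agent.S28 Fermat.Agent.S29
open Fermat.Agent.S37 Fermat.Agent.S18

/-- **The mixed Hecke product** `z ↦ P₁ (z) · ∏_{j<q} P₂ ((z + j) / q)`. -/
def s35kw_mix (q : ℕ) (P₁ P₂ : ℍ → ℂ) : ℍ → ℂ :=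
  fun z => P₁ z * ∏ j ∈ Finset.range q, P₂ (heckeMatrix q j • z)

theorem s35kw_mix_apply (q : ℕ) (P₁ P₂ : ℍ → ℂ) (z : ℍ) :
    s35kw_mix q P₁ P₂ z = P₁ z * ∏ j ∈ Finset.range q, P₂ (heckeMatrix q j • z) := rfl

theorem s35kw_mix_mul (q : ℕ) (P₁ P₂ Q₁ Q₂ : ℍ → ℂ) :
    s35kw_mix q (P₁ * Q₁) (P₂ * Q₂) = s35kw_mix q P₁ P₂ * s35kw_mix q Q₁ Q₂ := by
  funext z
  simp only [s35kw_mix_apply, Pi.mul_apply, Finset.prod_mul_distrib]
  ring

theorem s35kw_mix_one (q : ℕ) : s35kw_mix q (1 : ℍ → ℂ) 1 = 1 := by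
  funext z
  simp [s35kw_mix_apply]

theorem s35kw_mix_pow (q : ℕ) (P₁ P₂ : ℍ → ℂ) (n : ℕ) :
    s35kw_mix q (P₁ ^ n) (P₂ ^ n) = s35kw_mix q P₁ P₂ ^ n := by
  induction n with
  | zero => simp only [pow_zero, s35kw_mix_one]
  | succ n ih => rw [pow_succ, pow_succ, pow_succ, s35kw_mix_mul, ih]

theorem s35kw_mix_mdiff (q : ℕ) {P₁ P₂ : ℍ → ℂ} (h₁ : MDiff P₁) (h₂ : MDiff P₂) :
    MDiff (s35kw_mix q P₁ P₂) :=
  h₁.mul (s29hka_mdiff_finprod (Finset.range q) (fun j z => P₂ (heckeMatrix q j • z))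
    fun j _ => s29hka_mdiff_comp _ (det_heckeMatrix_pos q j) h₂)

theorem s35kw_mix_bdd (q : ℕ) {P₁ P₂ : ℍ → ℂ} (h₁ : IsBoundedAtImInfty P₁)
    (h₂ : IsBoundedAtImInfty P₂) : IsBoundedAtImInfty (s35kw_mix q P₁ P₂) :=
  h₁.mul (s29hka_bdd_finprod (Finset.range q) (fun j z => P₂ (heckeMatrix q j • z))
    fun j _ => s29hka_bdd_comp _ (det_heckeMatrix_pos q j) (s29hka_heckeMatrix_one_zero q j) h₂)

theorem s35kw_mix_vadd (q : ℕ) [NeZero q] {P₁ P₂ : ℍ → ℂ} (h₁ : Periodic (P₁ ∘ ofComplex) 1)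
    (h₂ : Periodic (P₂ ∘ ofComplex) 1) (τ : ℍ) :
    s35kw_mix q P₁ P₂ ((1 : ℝ) +ᵥ τ) = s35kw_mix q P₁ P₂ τ := by
  have hq : q ≠ 0 := NeZero.ne q
  rw [s35kw_mix_apply, s35kw_mix_apply]
  have e1 : P₁ ((1 : ℝ) +ᵥ τ) = P₁ τ := by
    refine s29hka_apply_eq_of_coe_eq_add_nat h₁ 1 ?_
    rw [coe_vadd]
    push_cast
    ring
  rw [e1]
  congr 1
  simp only [s29hka_heckeMatrix_smul_vadd hq]
  obtain ⟨n, hn⟩ : ∃ n, q = n + 1 := Nat.exists_eq_succ_of_ne_zero hq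
  have h0 := Finset.prod_range_succ' (fun j => P₂ (heckeMatrix q j • τ)) n
  have h1 := Finset.prod_range_succ (fun j => P₂ (heckeMatrix q (j + 1) • τ)) n
  have h2' : P₂ (heckeMatrix q (n + 1) • τ) = P₂ (heckeMatrix q 0 • τ) := by
    rw [← hn]
    exact s29hka_apply_eq_of_coe_eq_add_nat h₂ 1 (s29hka_coe_heckeMatrix_smul_self hq τ)
  rw [hn] at *
  rw [h1, h0, h2']

/-- The mixed product of nice functions is nice. -/
theorem s35kw_mix_isNice (q : ℕ) [NeZero q] {P₁ P₂ : ℍ → ℂ} (h₁ : IsNice P₁) (h₂ : IsNice P₂) :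
    IsNice (s35kw_mix q P₁ P₂) where
  per := s29hka_periodic_of_vadd (s35kw_mix_vadd q h₁.per h₂.per)
  holo := s35kw_mix_mdiff q h₁.holo h₂.holo
  bdd := s35kw_mix_bdd q h₁.bdd h₂.bdd

theorem s35kw_mix_diag (q : ℕ) [NeZero q] (P₁ P₂ : ℍ → ℂ) (z : ℍ) :
    s35kw_mix q P₁ P₂ (heckeDiagMatrix q • z) =
      P₁ (heckeDiagMatrix q • z) * ∏ j ∈ Finset.range q, s29hka_fac q j P₂ z := rfl

/-- **The series of the mixed product**:
`(ser mix)(t^q) = (ser P₁)(t^q) · ∏_{j<q} (ser P₂)(ζ^j t)`, `ζ = exp (2 π i / q)`. -/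
theorem s35kw_mix_series (q : ℕ) [NeZero q] {P₁ P₂ : ℍ → ℂ} (h₁ : IsNice P₁) (h₂ : IsNice P₂) :
    qExpand ℂ q (s29k_ser (s35kw_mix q P₁ P₂)) =
      qExpand ℂ q (s29k_ser P₁) *
        ∏ j ∈ Finset.range q, s37es_tw (s29hka_zeta q ^ j) (s29k_ser P₂) := by
  have hq : q ≠ 0 := NeZero.ne q
  have H1 := twL_hasLaurent_diag' (anA_HasLaurent.of_isNice (s35kw_mix_isNice q h₁ h₂)) q
  have H2 := twL_hasLaurent_diag' (anA_HasLaurent.of_isNice h₁) q
  have H3 : anA_HasLaurent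
      (∏ j ∈ Finset.range q, s37es_tw (s29hka_zeta q ^ j) (s29k_ser P₂))
      (fun z => ∏ j ∈ Finset.range q, s29hka_fac q j P₂ z) := by
    refine twL_hasLaurent_prod (Finset.range q) fun j _ => ?_
    rw [← s29hka_twist_eq]
    show anA_HasLaurent (twL_twist (s29hka_zeta q ^ j)
      (HahnSeries.ofPowerSeries ℤ ℂ (qExpansion 1 P₂))) _
    rw [← s29hka_fac_series hq j h₂]
    exact anA_HasLaurent.of_isNice (s29hka_fac_isNice hq j h₂)
  have H4 := H2.mul H3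
  have e : ((fun z => P₁ (heckeDiagMatrix q • z)) *
      fun z => ∏ j ∈ Finset.range q, s29hka_fac q j P₂ z) =
      fun z => s35kw_mix q P₁ P₂ (heckeDiagMatrix q • z) := by
    funext z
    rw [s35kw_mix_diag]
    rfl
  rw [e] at H4
  exact H1.unique_series H4

theorem s35kw_mix_ne_zero (q : ℕ) [NeZero q] {P₁ P₂ : ℍ → ℂ} (h₁ : IsNice P₁) (h₂ : IsNice P₂)
    (h₁0 : P₁ ≠ 0) (h₂0 : P₂ ≠ 0) : s35kw_mix q P₁ P₂ ≠ 0 := by
  intro h
  have h1 := s35kw_mix_series q h₁ h₂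
  have h2 : s29k_ser (s35kw_mix q P₁ P₂) = 0 := by
    have h3 := anA_HasLaurent.of_isNice (s35kw_mix_isNice q h₁ h₂)
    rw [h] at h3 ⊢
    exact h3.series_eq_zero
  rw [h2, map_zero] at h1
  have hs1 : s29k_ser P₁ ≠ 0 := s29kan_series_ne_zero h₁ h₁0
  have hs2 : s29k_ser P₂ ≠ 0 := s29kan_series_ne_zero h₂ h₂0
  have h4 : qExpand ℂ q (s29k_ser P₁) ≠ 0 := by
    intro h5
    exact hs1 ((s29hka_qExpand_injective q) (by rw [h5, map_zero]))
  have h6 : ∏ j ∈ Finset.range q, s37es_tw (s29hka_zeta q ^ j) (s29k_ser P₂) ≠ 0 :=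
    Finset.prod_ne_zero_iff.mpr fun j _ => (s37es_tw_eq_zero_iff _ _).not.mpr hs2
  exact mul_ne_zero h4 h6 h1.symm

/-! ### The two norms of a ratio of forms -/

section Ratio

variable (M q : ℕ) [NeZero M] [NeZero q] (hq : q.Prime) (hqM : ¬ q ∣ M)
  (x y : ℤ) (h : x * q - y * M = 1) (K : ℕ) {P Q : ℍ → ℂ}

include hq hqM

/-- **The norm along `α` of a ratio of forms**:
`N_α (ser P / ser Q) = ser (mix q P P^w) / ser (mix q Q Q^w)`. -/
theorem s35kw_normA_ratio (hP : IsMF (G0 (M * q)) K P) (hQ : IsMF (G0 (M * q)) K Q)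
    (hQ0 : Q ≠ 0) (yy : s35kw_FC (M * q))
    (hy : (yy : LaurentSeries ℂ) = s29k_ser P / s29k_ser Q) :
    ((s35_normA ℂ M q yy : s35kw_FC M) : LaurentSeries ℂ) =
      s29k_ser (s35kw_mix q P (s35kw_Wf M q x y h K P)) /
        s29k_ser (s35kw_mix q Q (s35kw_Wf M q x y h K Q)) := by
  apply s29hka_qExpand_injective q
  rw [s35kw_normA' M q hq hqM (s29hka_zeta q) (s29hka_zeta_isPrimitiveRoot (NeZero.ne q)) yy,
    s35kw_tauW_ratio M q hq hqM x y h K hP hQ hQ0 yy hy, hy]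
  simp only [map_div₀]
  rw [s35kw_mix_series q hP.isNice_G0 (s35kw_Wf_isNice x y h hP),
    s35kw_mix_series q hQ.isNice_G0 (s35kw_Wf_isNice x y h hQ),
    Finset.prod_div_distrib, div_mul_div_comm]

/-- **The norm along `β` of a ratio of forms**:
`N_β (ser P / ser Q) = ser (mix q P^w P) / ser (mix q Q^w Q)`. -/
theorem s35kw_normB_ratio (hP : IsMF (G0 (M * q)) K P) (hQ : IsMF (G0 (M * q)) K Q)
    (hQ0 : Q ≠ 0) (yy : s35kw_FC (M * q))
    (hy : (yy : LaurentSeries ℂ) = s29k_ser P / s29k_ser Q) :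
    ((s35_normB ℂ M q yy : s35kw_FC M) : LaurentSeries ℂ) =
      s29k_ser (s35kw_mix q (s35kw_Wf M q x y h K P) P) /
        s29k_ser (s35kw_mix q (s35kw_Wf M q x y h K Q) Q) := by
  apply s29hka_qExpand_injective q
  rw [s35kw_normB M q hq hqM (s29hka_zeta q) (s29hka_zeta_isPrimitiveRoot (NeZero.ne q)) yy,
    s35kw_tauW_ratio M q hq hqM x y h K hP hQ hQ0 yy hy, hy]
  simp only [map_div₀]
  rw [s35kw_mix_series q (s35kw_Wf_isNice x y h hP) hP.isNice_G0,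
    s35kw_mix_series q (s35kw_Wf_isNice x y h hQ) hQ.isNice_G0,
    Finset.prod_div_distrib, div_mul_div_comm]

end Ratio

end Fermat.Agent.S35
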