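/-
S35, leaf [K-PUSH], cut (a) of helper5's split of [KP-SER] (owner of this file: helper14).
Prefix `s35x14_`.

THE SERIES OF THE TWO NORMS OF A RATIO OF FORMS, in the vocabulary of helper5's mixed Hecke
product `s35kp_mix` (S35/KPushSer.lean): for modular forms `P`, `Q ≠ 0` of weight `K` on
`Γ₀(M q)` and `y ∈ F_ℂ(M q)` with `y = ser P / ser Q`,

* `s35x14_serA` : `N_α y = ser (mix q P P^w) / ser (mix q Q Q^w)`;
* `s35x14_serB` : `N_β y = ser (mix q P^w P) / ser (mix q Q^w Q)`,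

`P^w = s35kw_Wf M q x y h K P` the Atkin-Lehner translate (helper4).  The content is helper4's
`s35kw_normA_ratio` / `s35kw_normB_ratio` (S35/KpWSer.lean: (W2) + (W3) / (W4) + the series of
the mixed product); the two mixed products `s35kw_mix` and `s35kp_mix` agree definitionally
(`s35x14_mix_eq`).  Also the variants for ANY pair of nice representatives of the translates
(`s35x14_serA_of`, `s35x14_serB_of`) and the non-vanishing of the two mixed products.
-/
import Mathlib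
import Fermat.Agent.S35.KPushSer
import Fermat.Agent.S35.KpWSer

set_option autoImplicit false
set_option linter.style.haveILetI false
set_option linter.unusedSectionVars false
set_option linter.unusedVariables false

noncomputable section

namespace Fermat.Agent.S35

open UpperHalfPlane ModularFormClass CongruenceSubgroup Matrix.SpecialLinearGroup Function
open ModularForm Filter Asymptotics ModularCurve AlgebraicCurve
open scoped MatrixGroups ModularForm Manifold Real Topology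

open Fermat.Agent.S20 Fermat.Agent.S22 Fermat.Agent.S24 Fermat.Agent.S28 Fermat.Agent.S29
open Fermat.Agent.S37 Fermat.Agent.S18

/-- The two mixed Hecke products (helper4's and helper5's) are the same function. -/
theorem s35x14_mix_eq (q : ℕ) (P₁ P₂ : ℍ → ℂ) : s35kw_mix q P₁ P₂ = s35kp_mix q P₁ P₂ := rfl

section Ratio

variable (M q : ℕ) [NeZero M] [NeZero q] (hq : q.Prime) (hqM : ¬ q ∣ M)
  (x y : ℤ) (h : x * q - y * M = 1) (K : ℕ) {P Q : ℍ → ℂ}

include hq hqM

/-- **(a), the `α` half**: `N_α (ser P / ser Q) = ser (mix q P P^w) / ser (mix q Q Q^w)`. -/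
theorem s35x14_serA (hP : IsMF (G0 (M * q)) K P) (hQ : IsMF (G0 (M * q)) K Q)
    (hQ0 : Q ≠ 0) (yy : s35kw_FC (M * q))
    (hy : (yy : LaurentSeries ℂ) = s29k_ser P / s29k_ser Q) :
    ((s35_normA ℂ M q yy : s35kw_FC M) : LaurentSeries ℂ) =
      s29k_ser (s35kp_mix q P (s35kw_Wf M q x y h ↑K P)) /
        s29k_ser (s35kp_mix q Q (s35kw_Wf M q x y h ↑K Q)) := by
  rw [← s35x14_mix_eq, ← s35x14_mix_eq]
  exact s35kw_normA_ratio M q hq hqM x y h K hP hQ hQ0 yy hy

/-- **(a), the `β` half**: `N_β (ser P / ser Q) = ser (mix q P^w P) / ser (mix q Q^w Q)`. -/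
theorem s35x14_serB (hP : IsMF (G0 (M * q)) K P) (hQ : IsMF (G0 (M * q)) K Q)
    (hQ0 : Q ≠ 0) (yy : s35kw_FC (M * q))
    (hy : (yy : LaurentSeries ℂ) = s29k_ser P / s29k_ser Q) :
    ((s35_normB ℂ M q yy : s35kw_FC M) : LaurentSeries ℂ) =
      s29k_ser (s35kp_mix q (s35kw_Wf M q x y h ↑K P) P) /
        s29k_ser (s35kp_mix q (s35kw_Wf M q x y h ↑K Q) Q) := by
  rw [← s35x14_mix_eq, ← s35x14_mix_eq]
  exact s35kw_normB_ratio M q hq hqM x y h K hP hQ hQ0 yy hy

/-- The `α` half for ANY functions `P'`, `Q'` equal to the Atkin-Lehner translates. -/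
theorem s35x14_serA_of (hP : IsMF (G0 (M * q)) K P) (hQ : IsMF (G0 (M * q)) K Q)
    (hQ0 : Q ≠ 0) (yy : s35kw_FC (M * q))
    (hy : (yy : LaurentSeries ℂ) = s29k_ser P / s29k_ser Q) {P' Q' : ℍ → ℂ}
    (hP' : P' = s35kw_Wf M q x y h ↑K P) (hQ' : Q' = s35kw_Wf M q x y h ↑K Q) :
    ((s35_normA ℂ M q yy : s35kw_FC M) : LaurentSeries ℂ) =
      s29k_ser (s35kp_mix q P P') / s29k_ser (s35kp_mix q Q Q') := by
  rw [hP', hQ']
  exact s35x14_serA M q hq hqM x y h K hP hQ hQ0 yy hy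

/-- The `β` half for ANY functions `P'`, `Q'` equal to the Atkin-Lehner translates. -/
theorem s35x14_serB_of (hP : IsMF (G0 (M * q)) K P) (hQ : IsMF (G0 (M * q)) K Q)
    (hQ0 : Q ≠ 0) (yy : s35kw_FC (M * q))
    (hy : (yy : LaurentSeries ℂ) = s29k_ser P / s29k_ser Q) {P' Q' : ℍ → ℂ}
    (hP' : P' = s35kw_Wf M q x y h ↑K P) (hQ' : Q' = s35kw_Wf M q x y h ↑K Q) :
    ((s35_normB ℂ M q yy : s35kw_FC M) : LaurentSeries ℂ) =
      s29k_ser (s35kp_mix q P' P) / s29k_ser (s35kp_mix q Q' Q) := by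
  rw [hP', hQ']
  exact s35x14_serB M q hq hqM x y h K hP hQ hQ0 yy hy

omit hq hqM in
/-- The mixed product `mix q P P^w` of a non-zero form is non-zero. -/
theorem s35x14_mixA_ne_zero (hP : IsMF (G0 (M * q)) K P) (hP0 : P ≠ 0) :
    s35kp_mix q P (s35kw_Wf M q x y h ↑K P) ≠ 0 :=
  s35kp_mix_ne_zero q hP.isNice_G0 (s35kw_Wf_isNice x y h hP) hP0
    (s35kw_Wf_ne_zero M q x y h K hP0)

omit hq hqM in
/-- The mixed product `mix q P^w P` of a non-zero form is non-zero. -/
theorem s35x14_mixB_ne_zero (hP : IsMF (G0 (M * q)) K P) (hP0 : P ≠ 0) :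
    s35kp_mix q (s35kw_Wf M q x y h ↑K P) P ≠ 0 :=
  s35kp_mix_ne_zero q (s35kw_Wf_isNice x y h hP) hP.isNice_G0
    (s35kw_Wf_ne_zero M q x y h K hP0) hP0

end Ratio

end Fermat.Agent.S35

end
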