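/-
S35, leaf [K-PUSH], part (d), the `α` half (owner: helper5).  Prefix `s35kp_`.

`s35kp_normSerA`: THE `α` HALF OF helper26's `s35kb_NormSerStatement`.  For forms `f`, `g` of
the level `M q`, of weight `k` and characters `ζ^c`, `1`, and `y = ser (f^n) / ser (g^n)`:

    N_α y = ser (F^n) / ser (G^n),   F = mix q f f^w,   G = mix q g g^w,

`F`, `G` forms of the level `M`, weight `(q + 1) k`, characters `ζ^(s35c_corA c)`, `1`.

Inputs: helper4's [KP-W] (`s35kw_Wf`, (W1)-(W3)) in helper14's adapter `s35x14_serA`, helper1's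
(F2) `s35kf_isForm_datum`, helper11's [COR], and `KPushSer` / `KPushCoset` / `KPushProdA`.
-/
import Mathlib
import Fermat.Agent.S35.KPushProdA
import Fermat.Agent.S35.KpSerX

set_option autoImplicit false
set_option linter.unusedSectionVars false
set_option linter.unusedVariables false
set_option linter.style.haveILetI false

noncomputable section

namespace Fermat.Agent.S35

open UpperHalfPlane ModularFormClass CongruenceSubgroup Matrix.SpecialLinearGroup Function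
open ModularForm Filter Asymptotics ModularCurve AlgebraicCurve
open scoped MatrixGroups ModularForm Manifold Real Topology

open Fermat.Agent.S22 Fermat.Agent.S24 Fermat.Agent.S28 Fermat.Agent.S29 Fermat.Agent.S37

/-- Bézout: `x q - y M = 1` for a prime `q ∤ M`. -/
theorem s35kp_bezout {M q : ℕ} (hq : q.Prime) (hqM : ¬ q ∣ M) :
    ∃ x y : ℤ, x * q - y * M = 1 := by
  have hc : Nat.Coprime q M := (Nat.Prime.coprime_iff_not_dvd hq).mpr hqM
  have h := Nat.gcd_eq_gcd_ab q M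
  rw [hc.gcd_eq_one] at h
  refine ⟨Nat.gcdA q M, -Nat.gcdB q M, ?_⟩
  push_cast at h
  linear_combination -h

section Pow

variable {N : ℕ} [NeZero N]

/-- The `n`-th power of a form whose character has order dividing `n`, with the weight as a
natural number. -/
theorem s35kp_isMF_pow {k : ℕ} {χ : ↥(Gamma0 N) →* ℂˣ} {f : ℍ → ℂ}
    (hf : s29k_IsForm N k χ f) (n : ℕ) (hχ : ∀ γ, χ γ ^ n = 1) :
    IsMF (G0 N) ((n * k : ℕ) : ℤ) (f ^ n) := by
  have h := s29ku_isMF_pow hf n hχ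
  have e : ((n * k : ℕ) : ℤ) = (n : ℤ) * (k : ℤ) := by push_cast; ring
  rw [e]
  exact h

end Pow

section Main

variable (M q : ℕ) [NeZero M] [NeZero q] (hq : q.Prime) (hqM : ¬ q ∣ M)
  (x y : ℤ) (h : x * q - y * M = 1)

theorem s35kp_Wf_pow_nat (k n : ℕ) (f : ℍ → ℂ) :
    s35kw_Wf M q x y h ((n * k : ℕ) : ℤ) (f ^ n) = s35kw_Wf M q x y h (k : ℤ) f ^ n := by
  have e : ((n * k : ℕ) : ℤ) = (n : ℤ) * (k : ℤ) := by push_cast; ring
  rw [e, s35kw_Wf_pow]

include hq hqM in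
/-- The `α` half with explicit `x`, `y`. -/
theorem s35kp_normSerA_xy (n : ℕ) (hn : 0 < n) (ζ : ℂˣ) (hζ : ζ ^ n = 1)
    (c : Additive ↥(Gamma0 (M * q)) →+ ℤ) (k : ℕ) (f g : ℍ → ℂ)
    (hf : s29k_IsForm (M * q) k (s29k_chi ζ c) f) (hg : s29k_IsForm (M * q) k 1 g)
    (hf0 : f ≠ 0) (hg0 : g ≠ 0)
    (yy : ↥(laurentBaseChange ℂ (modularFunctionFieldFull (M * q))))
    (hy : (yy : LaurentSeries ℂ) = s29k_ser (f ^ n) / s29k_ser (g ^ n)) :
    s29k_IsForm M (((q + 1) * k : ℕ) : ℤ) (s29k_chi ζ (s35c_corA M q c))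
        (s35kp_mix q f (s35kw_Wf M q x y h k f)) ∧
      s29k_IsForm M (((q + 1) * k : ℕ) : ℤ) 1 (s35kp_mix q g (s35kw_Wf M q x y h k g)) ∧
      s35kp_mix q f (s35kw_Wf M q x y h k f) ≠ 0 ∧
      s35kp_mix q g (s35kw_Wf M q x y h k g) ≠ 0 ∧
      ((s35_normA ℂ M q yy : ↥(laurentBaseChange ℂ (modularFunctionFieldFull M))) :
          LaurentSeries ℂ) =
        s29k_ser (s35kp_mix q f (s35kw_Wf M q x y h k f) ^ n) /
          s29k_ser (s35kp_mix q g (s35kw_Wf M q x y h k g) ^ n) := by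
  haveI : Fact q.Prime := ⟨hq⟩
  haveI : NeZero (M * q) := ⟨Nat.mul_ne_zero (NeZero.ne M) (NeZero.ne q)⟩
  have hχ : ∀ γ, s29k_chi ζ c γ ^ n = 1 := fun γ => s29k_chi_pow hζ c γ
  have hone : ∀ γ : ↥(Gamma0 (M * q)), (1 : ↥(Gamma0 (M * q)) →* ℂˣ) γ ^ n = 1 := fun γ => by
    rw [MonoidHom.one_apply, one_pow]
  have hP := s35kp_isMF_pow hf n hχ
  have hQ := s35kp_isMF_pow hg n hone
  have hP0 : f ^ n ≠ 0 := s29ku_pow_ne_zero hf0 n
  have hQ0 : g ^ n ≠ 0 := s29ku_pow_ne_zero hg0 n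
  have eF : s35kp_mix q f (s35kw_Wf M q x y h k f) ^ n =
      s35kp_mix q (f ^ n) (s35kw_Wf M q x y h ((n * k : ℕ) : ℤ) (f ^ n)) := by
    rw [s35kp_Wf_pow_nat, s35kp_mix_pow]
  have eG : s35kp_mix q g (s35kw_Wf M q x y h k g) ^ n =
      s35kp_mix q (g ^ n) (s35kw_Wf M q x y h ((n * k : ℕ) : ℤ) (g ^ n)) := by
    rw [s35kp_Wf_pow_nat, s35kp_mix_pow]
  refine ⟨s35kp_isForm_A M q x y h hqM k ζ c hf, s35kp_isForm_A_one M q x y h hqM k hg,
    ?_, ?_, ?_⟩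
  · intro h0
    have h1 := s35x14_mixA_ne_zero M q x y h (n * k) hP hP0
    rw [← eF, h0, zero_pow hn.ne'] at h1
    exact h1 rfl
  · intro h0
    have h1 := s35x14_mixA_ne_zero M q x y h (n * k) hQ hQ0
    rw [← eG, h0, zero_pow hn.ne'] at h1
    exact h1 rfl
  · rw [eF, eG]
    exact s35x14_serA M q hq hqM x y h (n * k) hP hQ hQ0 yy hy

include hq hqM in
/-- **[KP-SER], the `α` half** (the first half of `s35kb_NormSerStatement`). -/
theorem s35kp_normSerA (n : ℕ) (hn : 0 < n) (ζ : ℂˣ) (hζ : ζ ^ n = 1)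
    (c : Additive ↥(Gamma0 (M * q)) →+ ℤ) (k : ℕ) (f g : ℍ → ℂ)
    (hf : s29k_IsForm (M * q) k (s29k_chi ζ c) f) (hg : s29k_IsForm (M * q) k 1 g)
    (hf0 : f ≠ 0) (hg0 : g ≠ 0)
    (yy : ↥(laurentBaseChange ℂ (modularFunctionFieldFull (M * q))))
    (hy : (yy : LaurentSeries ℂ) = s29k_ser (f ^ n) / s29k_ser (g ^ n)) :
    ∃ (k' : ℕ) (F G : ℍ → ℂ),
      s29k_IsForm M k' (s29k_chi ζ (s35c_corA M q c)) F ∧ s29k_IsForm M k' 1 G ∧ F ≠ 0 ∧
        G ≠ 0 ∧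
        ((s35_normA ℂ M q yy : ↥(laurentBaseChange ℂ (modularFunctionFieldFull M))) :
          LaurentSeries ℂ) = s29k_ser (F ^ n) / s29k_ser (G ^ n) := by
  obtain ⟨x, y, h⟩ := s35kp_bezout hq hqM
  exact ⟨(q + 1) * k, _, _,
    s35kp_normSerA_xy M q hq hqM x y h n hn ζ hζ c k f g hf hg hf0 hg0 yy hy⟩

end Main

end Fermat.Agent.S35

end
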