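/-
S35, leaf [K-PUSH], sub-leaf [KP-FORM] (owner: helper1), part 4.  Prefix `s35kf_`.

THE TWO TRANSFER PRODUCTS at the levels `M q → M`, for the data `s35c_datA M q`, `s35c_datB M q`
of helper11's `s35c_corA`, `s35c_corB`:  for a form `f` of weight `k` and character `ζ^c` on
`Γ₀(M q)`

* `s35kf_isForm_A` : `∏ₓ f ∣[k] (datA).rep x` is a form of weight `|X_A| k` and character
  `ζ^(s35c_corA M q c)` on `Γ₀(M)`;
* `s35kf_isForm_B` : `∏ₓ f ∣[k] (datB).rep x` is a form of weight `|X_B| k` and character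
  `ζ^(s35c_corB M q c)` on `Γ₀(M)`;
* `s35kf_isForm_A_one`, `s35kf_isForm_B_one` : if `cor c = 0` the character is trivial.
-/
import Mathlib
import Fermat.Agent.S35.KpFormDatum

set_option autoImplicit false

noncomputable section

namespace Fermat.Agent.S35

open UpperHalfPlane ModularFormClass CongruenceSubgroup Matrix.SpecialLinearGroup Function
open ModularForm Filter Asymptotics
open scoped MatrixGroups ModularForm Manifold Real Topology

open Fermat.Agent.S29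
open P2MW.S_ModularForm_heckeT_slash_eq_self_of_mem_Gamma0.ModularForm.HeckeSlashInvariance

variable {M q : ℕ}

/-! ### The first transfer -/

theorem s35kf_datA_rep (x : s35c_XA M q) :
    (s35c_datA M q).rep x = mapGL ℝ ((((Quotient.out x : ↥(Gamma0 M)))⁻¹ : ↥(Gamma0 M)) : SL(2, ℤ)) := by
  unfold s35c_datA
  rw [s35c_dc_rep, one_mul, s35c_iota_apply]

theorem s35kf_datA_det (x : s35c_XA M q) :
    0 < (Matrix.GeneralLinearGroup.det ((s35c_datA M q).rep x)).val := by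
  rw [s35kf_datA_rep]
  simp

theorem s35kf_datA_bdd (k : ℤ) {f : ℍ → ℂ}
    (hb : ∀ δ : SL(2, ℤ), IsBoundedAtImInfty (f ∣[k] δ)) (x : s35c_XA M q) (δ : SL(2, ℤ)) :
    IsBoundedAtImInfty (f ∣[k] ((s35c_datA M q).rep x * mapGL ℝ δ)) := by
  rw [s35kf_datA_rep, ← map_mul]
  exact hb _

/-- **[KP-FORM] (A)** -/
theorem s35kf_isForm_A [Fintype (s35c_XA M q)] (k : ℕ) (ζ : ℂˣ)
    (c : Additive ↥(Gamma0 (M * q)) →+ ℤ) {f : ℍ → ℂ}
    (hf : s29k_IsForm (M * q) k (s29k_chi ζ c) f) :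
    s29k_IsForm M ((Fintype.card (s35c_XA M q) * k : ℕ) : ℤ) (s29k_chi ζ (s35c_corA M q c))
      (s35kf_dprod (s35c_datA M q) (k : ℤ) f) := by
  rw [s35c_corA_eq]
  exact s35kf_isForm_datum (s35c_datA M q) s35kf_datA_det k ζ c hf
    (s35kf_datA_bdd (k : ℤ) hf.2.2)

/-- **[KP-FORM] (A)**, trivial transfer. -/
theorem s35kf_isForm_A_one [Fintype (s35c_XA M q)] (k : ℕ) (ζ : ℂˣ)
    (c : Additive ↥(Gamma0 (M * q)) →+ ℤ) (hc : s35c_corA M q c = 0) {f : ℍ → ℂ}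
    (hf : s29k_IsForm (M * q) k (s29k_chi ζ c) f) :
    s29k_IsForm M ((Fintype.card (s35c_XA M q) * k : ℕ) : ℤ) 1
      (s35kf_dprod (s35c_datA M q) (k : ℤ) f) := by
  rw [s35c_corA_eq] at hc
  exact s35kf_isForm_datum_one (s35c_datA M q) s35kf_datA_det k ζ c hc hf
    (s35kf_datA_bdd (k : ℤ) hf.2.2)

/-! ### The second transfer -/

theorem s35kf_datB_rep (x : s35c_XB M q) :
    (s35c_datB M q).rep x =
      s35c_rhoB q * mapGL ℝ ((((Quotient.out x : ↥(Gamma0 M)))⁻¹ : ↥(Gamma0 M)) : SL(2, ℤ)) := by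
  unfold s35c_datB
  rw [s35c_dc_rep, s35c_iota_apply]

theorem s35kf_datB_det (x : s35c_XB M q) :
    0 < (Matrix.GeneralLinearGroup.det ((s35c_datB M q).rep x)).val := by
  rw [s35kf_datB_rep, map_mul]
  have h1 : 0 < ((Matrix.GeneralLinearGroup.det (s35c_rhoB q)).val : ℝ) :=
    ModularForm.det_heckeMatrix_pos q 0
  simpa using h1

theorem s35kf_rhoB_bdd [Fact q.Prime] (k : ℤ) {f : ℍ → ℂ}
    (hb : ∀ δ : SL(2, ℤ), IsBoundedAtImInfty (f ∣[k] δ)) (g : SL(2, ℤ)) :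
    IsBoundedAtImInfty (f ∣[k] (s35c_rhoB q * mapGL ℝ g)) := by
  have h1 : ¬ q ∣ 1 := fun h => (Fact.out : q.Prime).one_lt.ne' (Nat.dvd_one.mp h)
  have e : s35c_rhoB q = heckeRep q ((0 : ZMod q) : OnePoint (ZMod q)) := by
    rw [heckeRep_coe, ZMod.val_zero]
    rfl
  obtain ⟨δ', -, hmul⟩ := heckeRep_mul (p := q) (N := 1) h1 g (by simp)
    ((0 : ZMod q) : OnePoint (ZMod q))
  rw [e, hmul, SlashAction.slash_mul]
  exact (hb δ').slash k (s29hka_heckeRep_one_zero q _)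

theorem s35kf_datB_bdd [Fact q.Prime] (k : ℤ) {f : ℍ → ℂ}
    (hb : ∀ δ : SL(2, ℤ), IsBoundedAtImInfty (f ∣[k] δ)) (x : s35c_XB M q) (δ : SL(2, ℤ)) :
    IsBoundedAtImInfty (f ∣[k] ((s35c_datB M q).rep x * mapGL ℝ δ)) := by
  rw [s35kf_datB_rep, mul_assoc, ← map_mul]
  exact s35kf_rhoB_bdd k hb _

/-- **[KP-FORM] (B)** -/
theorem s35kf_isForm_B [Fact q.Prime] [Fintype (s35c_XB M q)] (k : ℕ) (ζ : ℂˣ)
    (c : Additive ↥(Gamma0 (M * q)) →+ ℤ) {f : ℍ → ℂ}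
    (hf : s29k_IsForm (M * q) k (s29k_chi ζ c) f) :
    s29k_IsForm M ((Fintype.card (s35c_XB M q) * k : ℕ) : ℤ) (s29k_chi ζ (s35c_corB M q c))
      (s35kf_dprod (s35c_datB M q) (k : ℤ) f) := by
  rw [s35c_corB_eq]
  exact s35kf_isForm_datum (s35c_datB M q) s35kf_datB_det k ζ c hf
    (s35kf_datB_bdd (k : ℤ) hf.2.2)

/-- **[KP-FORM] (B)**, trivial transfer. -/
theorem s35kf_isForm_B_one [Fact q.Prime] [Fintype (s35c_XB M q)] (k : ℕ) (ζ : ℂˣ)
    (c : Additive ↥(Gamma0 (M * q)) →+ ℤ) (hc : s35c_corB M q c = 0) {f : ℍ → ℂ}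
    (hf : s29k_IsForm (M * q) k (s29k_chi ζ c) f) :
    s29k_IsForm M ((Fintype.card (s35c_XB M q) * k : ℕ) : ℤ) 1
      (s35kf_dprod (s35c_datB M q) (k : ℤ) f) := by
  rw [s35c_corB_eq] at hc
  exact s35kf_isForm_datum_one (s35c_datB M q) s35kf_datB_det k ζ c hc hf
    (s35kf_datB_bdd (k : ℤ) hf.2.2)

end Fermat.Agent.S35

end
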