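/-
S35, leaf [K-PUSH], sub-leaf [KP-FORM] (owner: helper1), part 5.  Prefix `s35kf_`.

EXPLICIT REPRESENTATIVES, form (F3).  `D` a Hecke datum from `Γ₀(N₁)` to `Γ₀(N₂)` (e.g.
`s35c_datA M q`, `s35c_datB M q`), `r' : X' → GL₂(ℝ)` another system of representatives of the
same cosets: `r' (e x) = ι₁ (u x) * D.rep x` for a bijection `e : X ≃ X'` (the hypothesis of
helper11's `s35c_op_eq_of_equiv`).  For `f` of weight `k` and character `χ` on `Γ₀(N₁)`

    ∏_{x'} f ∣[k] r' x' = (∏ₓ χ (u x)) • s35kf_dprod D k f,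

so the explicit product is a form of weight `|X'| k` and character `ζ^(s35c_op D c)` on `Γ₀(N₂)`
when `χ = ζ^c`.
-/
import Mathlib
import Fermat.Agent.S35.KpFormAB

set_option autoImplicit false

noncomputable section

namespace Fermat.Agent.S35

open UpperHalfPlane ModularFormClass CongruenceSubgroup Matrix.SpecialLinearGroup Function
open ModularForm Filter Asymptotics
open scoped MatrixGroups ModularForm Manifold Real Topology

open Fermat.Agent.S29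

variable {N₁ N₂ : ℕ} {X X' : Type*} [Fintype X] [Fintype X']

/-- The product over explicit representatives is a constant multiple of the product of the
datum. -/
theorem s35kf_reps_eq (D : s35c_Datum (s35c_iota N₁) (s35c_iota N₂) X)
    (hdet : ∀ x, 0 < (Matrix.GeneralLinearGroup.det (D.rep x)).val) (k : ℤ)
    (χ : ↥(Gamma0 N₁) →* ℂˣ) (f : ℍ → ℂ)
    (hχ : ∀ γ : ↥(Gamma0 N₁), f ∣[k] (γ : SL(2, ℤ)) = ((χ γ : ℂˣ) : ℂ) • f)
    (r' : X' → GL (Fin 2) ℝ) (e : X ≃ X') (u : X → ↥(Gamma0 N₁))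
    (hu : ∀ x, r' (e x) = s35c_iota N₁ (u x) * D.rep x) :
    ∏ x' : X', f ∣[k] r' x' = (∏ x : X, ((χ (u x) : ℂˣ) : ℂ)) • s35kf_dprod D k f := by
  rw [← Equiv.prod_comp e (fun x' => f ∣[k] r' x')]
  have h1 : ∀ x : X, f ∣[k] r' (e x) = ((χ (u x) : ℂˣ) : ℂ) • (f ∣[k] D.rep x) := by
    intro x
    rw [hu x, s35c_iota_apply, SlashAction.slash_mul]
    have h2 : f ∣[k] mapGL ℝ ((u x : ↥(Gamma0 N₁)) : SL(2, ℤ)) = ((χ (u x) : ℂˣ) : ℂ) • f :=
      hχ _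
    rw [h2, ModularForm.smul_slash, UpperHalfPlane.σ, if_pos (hdet _)]
    rfl
  simp only [h1]
  rw [Finset.prod_smul, s35kf_dprod]

theorem s35kf_isForm_smul {N : ℕ} {k : ℤ} {χ : ↥(Gamma0 N) →* ℂˣ} {F : ℍ → ℂ}
    (hF : s29k_IsForm N k χ F) (a : ℂ) : s29k_IsForm N k χ (a • F) := by
  obtain ⟨hmd, hchar, hbdd⟩ := hF
  refine ⟨?_, ?_, ?_⟩
  · have e : (a • F) = fun z => a * F z := by
      funext z
      rfl
    rw [e]
    exact mdifferentiable_const.mul hmd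
  · intro γ
    rw [ModularForm.SL_smul_slash, hchar γ, smul_comm]
  · intro δ
    rw [ModularForm.SL_smul_slash]
    exact (hbdd δ).const_smul_left a

/-- **[KP-FORM], (F3)**: the product over explicit representatives of the cosets of a Hecke
datum, applied to a form of weight `k` and character `ζ^c` on `Γ₀(N₁)`, is a form of weight
`|X'| k` and character `ζ^(s35c_op D c)` on `Γ₀(N₂)`. -/
theorem s35kf_isForm_reps (D : s35c_Datum (s35c_iota N₁) (s35c_iota N₂) X)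
    (hdet : ∀ x, 0 < (Matrix.GeneralLinearGroup.det (D.rep x)).val) (k : ℕ) (ζ : ℂˣ)
    (c : Additive ↥(Gamma0 N₁) →+ ℤ) {f : ℍ → ℂ} (hf : s29k_IsForm N₁ k (s29k_chi ζ c) f)
    (hb : ∀ (x : X) (δ : SL(2, ℤ)),
      IsBoundedAtImInfty (f ∣[(k : ℤ)] (D.rep x * mapGL ℝ δ)))
    (r' : X' → GL (Fin 2) ℝ) (e : X ≃ X') (u : X → ↥(Gamma0 N₁))
    (hu : ∀ x, r' (e x) = s35c_iota N₁ (u x) * D.rep x) :
    s29k_IsForm N₂ ((Fintype.card X' * k : ℕ) : ℤ) (s29k_chi ζ (s35c_op D c))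
      (∏ x' : X', f ∣[(k : ℤ)] r' x') := by
  rw [s35kf_reps_eq D hdet k (s29k_chi ζ c) f hf.2.1 r' e u hu, ← Fintype.card_congr e]
  exact s35kf_isForm_smul (s35kf_isForm_datum D hdet k ζ c hf hb) _

/-- (F3) for the first transfer: explicit representatives of `Γ₀(M q) \ Γ₀(M)`. -/
theorem s35kf_isForm_reps_A {M q : ℕ} [Fintype (s35c_XA M q)] (k : ℕ) (ζ : ℂˣ)
    (c : Additive ↥(Gamma0 (M * q)) →+ ℤ) {f : ℍ → ℂ}
    (hf : s29k_IsForm (M * q) k (s29k_chi ζ c) f)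
    (r' : X' → GL (Fin 2) ℝ) (e : s35c_XA M q ≃ X') (u : s35c_XA M q → ↥(Gamma0 (M * q)))
    (hu : ∀ x, r' (e x) = s35c_iota (M * q) (u x) * (s35c_datA M q).rep x) :
    s29k_IsForm M ((Fintype.card X' * k : ℕ) : ℤ) (s29k_chi ζ (s35c_corA M q c))
      (∏ x' : X', f ∣[(k : ℤ)] r' x') := by
  rw [s35c_corA_eq]
  exact s35kf_isForm_reps (s35c_datA M q) s35kf_datA_det k ζ c hf
    (s35kf_datA_bdd (k : ℤ) hf.2.2) r' e u hu

/-- (F3) for the second transfer: explicit representatives of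
`Γ₀(M q) \ Γ₀(M q) (1 0; 0 q) Γ₀(M)`. -/
theorem s35kf_isForm_reps_B {M q : ℕ} [Fact q.Prime] [Fintype (s35c_XB M q)] (k : ℕ) (ζ : ℂˣ)
    (c : Additive ↥(Gamma0 (M * q)) →+ ℤ) {f : ℍ → ℂ}
    (hf : s29k_IsForm (M * q) k (s29k_chi ζ c) f)
    (r' : X' → GL (Fin 2) ℝ) (e : s35c_XB M q ≃ X') (u : s35c_XB M q → ↥(Gamma0 (M * q)))
    (hu : ∀ x, r' (e x) = s35c_iota (M * q) (u x) * (s35c_datB M q).rep x) :
    s29k_IsForm M ((Fintype.card X' * k : ℕ) : ℤ) (s29k_chi ζ (s35c_corB M q c))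
      (∏ x' : X', f ∣[(k : ℤ)] r' x') := by
  rw [s35c_corB_eq]
  exact s35kf_isForm_reps (s35c_datB M q) s35kf_datB_det k ζ c hf
    (s35kf_datB_bdd (k : ℤ) hf.2.2) r' e u hu

end Fermat.Agent.S35

end
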