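/-
S35, leaf [K-PUSH], part (c) (owner: helper5).  Prefix `s35kp_`.

THE B-PRODUCT.  For the explicit datum `s35kp_datB` (representatives `ρ γ'`, `ρ T^j`,
`ρ = (1 0; 0 q)`) the product `∏ₓ f ∣[k] rep x` of helper1's `KpFormDatum.lean` is a constant
multiple of the mixed Hecke product `s35kp_mix q f^w f`:

    ρ γ' = γ₁ · diag(q, 1),   ρ T^j = heckeMatrix q j,
    ∏ₓ f ∣[k] rep x = q^(k-1) q^(-q) · mix q f^w f.

Hence `s35kp_mix q f^w f` is a form of weight `(q + 1) k` and character `ζ^(s35c_corB c)` on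
`Γ₀(M)` (`s35kp_isForm_B`).
-/
import Mathlib
import Fermat.Agent.S35.KPushProdA
import Fermat.Agent.S35.KpFormAB
import Fermat.Agent.S35.KpFormReps

set_option autoImplicit false
set_option linter.unusedSectionVars false
set_option linter.unusedVariables false
set_option linter.style.haveILetI false

noncomputable section

namespace Fermat.Agent.S35

open UpperHalfPlane ModularFormClass CongruenceSubgroup Matrix.SpecialLinearGroup Function
open ModularForm Filter Asymptotics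
open scoped MatrixGroups ModularForm Manifold Real Topology

open Fermat.Agent.S22 Fermat.Agent.S24 Fermat.Agent.S28 Fermat.Agent.S29 Fermat.Agent.S37

variable (M q : ℕ) (x y : ℤ) (h : x * q - y * M = 1)

theorem s35kp_mul_diag_apply {q : ℕ} (hq : q ≠ 0) (g : SL(2, ℤ)) (i j : Fin 2) :
    ((mapGL ℝ g * heckeDiagMatrix q : GL (Fin 2) ℝ) : Matrix (Fin 2) (Fin 2) ℝ) i j =
      ((g i j : ℤ) : ℝ) * (if j = 0 then (q : ℝ) else 1) := by
  rw [Units.val_mul, val_heckeDiagMatrix hq, mapGL_coe_matrix]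
  fin_cases i <;> fin_cases j <;> simp [Matrix.mul_apply, Fin.sum_univ_two]

/-- `ρ γ' = γ₁ · diag(q, 1)`. -/
theorem s35kp_rho_gamB [NeZero q] :
    s35c_rhoB q * mapGL ℝ (s35kp_gamB M q x y h) =
      mapGL ℝ (s37al_mat x y M q h) * heckeDiagMatrix q := by
  have hq : q ≠ 0 := NeZero.ne q
  apply s35kp_glext
  all_goals
    rw [s35kp_rho_mul_apply hq, s35kp_mul_diag_apply hq]
    simp [s35kp_gamB]
  all_goals ring

/-- `ρ T^j = heckeMatrix q j`. -/
theorem s35kp_rho_tr [NeZero q] (j : ℕ) :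
    s35c_rhoB q * mapGL ℝ (s35kp_tr (j : ℤ)) = heckeMatrix q j := by
  have hq : q ≠ 0 := NeZero.ne q
  apply s35kp_glext
  all_goals
    rw [s35kp_rho_mul_apply hq, val_heckeMatrix hq]
    simp [s35kp_tr]

variable [NeZero M] [NeZero q] [Fact q.Prime]

theorem s35kp_datB_det (c : OnePoint (ZMod q)) :
    0 < (Matrix.GeneralLinearGroup.det ((s35kp_datB M q x y h).rep c)).val := by
  rw [s35kp_datB_rep, map_mul]
  have h1 : 0 < ((Matrix.GeneralLinearGroup.det (s35c_rhoB q)).val : ℝ) :=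
    ModularForm.det_heckeMatrix_pos q 0
  simpa using h1

theorem s35kp_datB_bdd (k : ℤ) {f : ℍ → ℂ}
    (hb : ∀ δ : SL(2, ℤ), IsBoundedAtImInfty (f ∣[k] δ)) (c : OnePoint (ZMod q))
    (δ : SL(2, ℤ)) :
    IsBoundedAtImInfty (f ∣[k] ((s35kp_datB M q x y h).rep c * mapGL ℝ δ)) := by
  rw [s35kp_datB_rep, mul_assoc, ← map_mul]
  exact s35kf_rhoB_bdd k hb _

/-- The constant of the B-product. -/
def s35kp_CB (q : ℕ) (k : ℤ) : ℂ := (q : ℂ) ^ (k - 1) * ((q : ℂ)⁻¹) ^ q

theorem s35kp_CB_ne_zero (k : ℤ) : s35kp_CB q k ≠ 0 := by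
  have hq' : (q : ℂ) ≠ 0 := by exact_mod_cast NeZero.ne q
  exact mul_ne_zero (zpow_ne_zero _ hq') (pow_ne_zero _ (inv_ne_zero hq'))

/-- **The B-product is a constant multiple of the mixed Hecke product** `mix q f^w f`. -/
theorem s35kp_prodB (k : ℤ) (f : ℍ → ℂ) :
    s35kf_dprod (s35kp_datB M q x y h) k f =
      s35kp_CB q k • s35kp_mix q (s35kw_Wf M q x y h k f) f := by
  have hq : q ≠ 0 := NeZero.ne q
  funext z
  rw [s35kf_dprod_apply, Pi.smul_apply, s35kp_mix_apply, s29hka_prod_range_eq_prod_zmod,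
    smul_eq_mul]
  have e := Fintype.prod_option
    (fun c : OnePoint (ZMod q) => (f ∣[k] (s35kp_datB M q x y h).rep c) z)
  refine e.trans ?_
  have e1 : (f ∣[k] (s35kp_datB M q x y h).rep (none : Option (ZMod q))) z =
      (q : ℂ) ^ (k - 1) * s35kw_Wf M q x y h k f z := by
    show (f ∣[k] (s35kp_datB M q x y h).rep OnePoint.infty) z = _
    rw [s35kp_datB_rep]
    simp only [s35kp_rB, OnePoint.elim_infty]
    rw [s35kp_rho_gamB, SlashAction.slash_mul, slash_heckeDiagMatrix_apply k hq]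
    rfl
  have e2 : ∀ j : ZMod q, (f ∣[k] (s35kp_datB M q x y h).rep (some j : Option (ZMod q))) z =
      (q : ℂ)⁻¹ * f (heckeMatrix q j.val • z) := by
    intro j
    show (f ∣[k] (s35kp_datB M q x y h).rep (OnePoint.some j)) z = _
    rw [s35kp_datB_rep]
    simp only [s35kp_rB, OnePoint.elim_some]
    rw [s35kp_rho_tr, slash_heckeMatrix_apply k hq]
  rw [e1, Finset.prod_congr rfl (fun j _ => e2 j), Finset.prod_mul_distrib, Finset.prod_const,
    Finset.card_univ, ZMod.card, s35kp_CB]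
  ring

/-- **[KP-FORM] for the explicit B-product**: `mix q f^w f` is a form of weight `(q + 1) k` and
character `ζ^(s35c_corB c)` on `Γ₀(M)`. -/
theorem s35kp_isForm_B (k : ℕ) (ζ : ℂˣ) (c : Additive ↥(Gamma0 (M * q)) →+ ℤ) {f : ℍ → ℂ}
    (hf : s29k_IsForm (M * q) k (s29k_chi ζ c) f) :
    s29k_IsForm M (((q + 1) * k : ℕ) : ℤ) (s29k_chi ζ (s35c_corB M q c))
      (s35kp_mix q (s35kw_Wf M q x y h k f) f) := by
  have h1 := s35kf_isForm_datum (s35kp_datB M q x y h) (s35kp_datB_det M q x y h) k ζ c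
    hf (s35kp_datB_bdd M q x y h (k : ℤ) hf.2.2)
  rw [s35kp_prodB, ← s35kp_corB_eq, s35kp_card_onePoint] at h1
  have h2 := s35kf_isForm_smul (a := (s35kp_CB q (k : ℤ))⁻¹) h1
  rwa [smul_smul, inv_mul_cancel₀ (s35kp_CB_ne_zero q (k : ℤ)), one_smul] at h2

/-- The same for a form of trivial character. -/
theorem s35kp_isForm_B_one (k : ℕ) {g : ℍ → ℂ} (hg : s29k_IsForm (M * q) k 1 g) :
    s29k_IsForm M (((q + 1) * k : ℕ) : ℤ) 1 (s35kp_mix q (s35kw_Wf M q x y h k g) g) := by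
  have hg' : s29k_IsForm (M * q) k (s29k_chi (1 : ℂˣ) (0 : Additive ↥(Gamma0 (M * q)) →+ ℤ)) g := by
    rw [s29k_chi_zero]
    exact hg
  have h1 := s35kp_isForm_B M q x y h k 1 0 hg'
  rw [map_zero, s29k_chi_zero] at h1
  exact h1

end Fermat.Agent.S35

end
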