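/-
S35, leaf [K-PUSH], part [KP-BC] (owner: helper26).  Prefix `s35kb_`.

**The base change `J₀(N)(Q̄) → Pic⁰(F_ℂ(N))` commutes with the push-forwards along the two
degeneracy maps.**

* `s35kb_bc N : JZero N →+ Pic0 ℂ F_ℂ(N)`: ONE concrete base change map at every level (the map
  `s29bc_pic` of S29 for the extension of places `s29bc_ext`, the embedding `Q̄ → ℂ` being
  `S24.iota`), with the three clauses of S30's `s30ki_BCStatement`:
  `s35kb_bc_injective`, `s35kb_bc_surj`, `s35kb_bc_hecke`;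
* `s35kb_inputsA_bar`, `s35kb_inputsB_bar`, `s35kb_inputsA_C`, `s35kb_inputsB_C`: the inputs
  `s35_PushInputs` of helper16's `s35_pushPic` for `heckeAlphaBar`, `heckeBetaBar` over `Q̄`, `ℂ`;
* `s35kb_pushA`, `s35kb_pushB`:
  `s35kb_bc M (s35_pushA M q y) = s35_pushPic (heckeAlphaBar ℂ M q) (s35kb_bc (M * q) y)`.
-/
import Mathlib
import Fermat.Agent.S29.DescHeckeMain
import Fermat.Agent.S29.RootFinJ
import Fermat.Agent.S35.Push

set_option autoImplicit false
set_option linter.style.haveILetI false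
set_option linter.unusedSectionVars false
set_option linter.unusedVariables false

noncomputable section

namespace Fermat.Agent.S35

open AlgebraicCurve ModularCurve
open Fermat.Agent.S29

/-! ### The inputs of the push-forwards -/

section Inputs

variable (M q : ℕ) [NeZero M] [NeZero q]

/-- The inputs of the push-forward along `α` over `Q̄`. -/
theorem s35kb_inputsA_bar : s35_PushInputs (heckeAlphaBar (AlgebraicClosure ℚ) M q) := by
  obtain ⟨hα, hP, hfin, -, hN⟩ := Fermat.Agent.S37.s37hi_gen (AlgebraicClosure ℚ)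
    (Fermat.Agent.S24.FunField M) (Fermat.Agent.S24.FunField (M * q)) (Fermat.Agent.S24.jF M)
    (Fermat.Agent.S24.jF (M * q)) (Fermat.Agent.S24.final_jCoordinate M)
    (Fermat.Agent.S24.final_jCoordinate (M * q)) (heckeAlphaBar (AlgebraicClosure ℚ) M q)
  exact ⟨hα, hfin, hN⟩

/-- The inputs of the push-forward along `β` over `Q̄`. -/
theorem s35kb_inputsB_bar : s35_PushInputs (heckeBetaBar (AlgebraicClosure ℚ) M q) := by
  obtain ⟨hβ, hP, hfin, -, hN⟩ := Fermat.Agent.S37.s37hi_gen (AlgebraicClosure ℚ)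
    (Fermat.Agent.S24.FunField M) (Fermat.Agent.S24.FunField (M * q)) (Fermat.Agent.S24.jF M)
    (Fermat.Agent.S24.jF (M * q)) (Fermat.Agent.S24.final_jCoordinate M)
    (Fermat.Agent.S24.final_jCoordinate (M * q)) (heckeBetaBar (AlgebraicClosure ℚ) M q)
  exact ⟨hβ, hfin, hN⟩

/-- The inputs of the push-forward along `α` over `ℂ`. -/
theorem s35kb_inputsA_C : s35_PushInputs (heckeAlphaBar ℂ M q) := by
  obtain ⟨hα, hP, hfin, -, hN⟩ := Fermat.Agent.S37.s37hi_gen ℂ (DictC.FunField M)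
    (DictC.FunField (M * q)) (DictC.jF M) (DictC.jF (M * q)) (DictC.dc_jCoordinate M)
    (DictC.dc_jCoordinate (M * q)) (heckeAlphaBar ℂ M q)
  exact ⟨hα, hfin, hN⟩

/-- The inputs of the push-forward along `β` over `ℂ`. -/
theorem s35kb_inputsB_C : s35_PushInputs (heckeBetaBar ℂ M q) := by
  obtain ⟨hβ, hP, hfin, -, hN⟩ := Fermat.Agent.S37.s37hi_gen ℂ (DictC.FunField M)
    (DictC.FunField (M * q)) (DictC.jF M) (DictC.jF (M * q)) (DictC.dc_jCoordinate M)
    (DictC.dc_jCoordinate (M * q)) (heckeBetaBar ℂ M q)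
  exact ⟨hβ, hfin, hN⟩

end Inputs

/-! ### The base change map -/

/-- The embedding `Q̄ → ℂ` (`S24.iota`) as an algebra structure. -/
abbrev s35kb_alg : Algebra (AlgebraicClosure ℚ) ℂ := (Fermat.Agent.S24.iota).toAlgebra

section BC

variable (N : ℕ) [NeZero N]

/-- The extension datum of places `Q̄ → ℂ` at level `N`. -/
theorem s35kb_isExt :
    letI := s35kb_alg
    s29bc_IsExt (S18.s18cfe_iota (AlgebraicClosure ℚ) ℂ (modularFunctionFieldFull N))
      (s29bc_ext (AlgebraicClosure ℚ) ℂ (modularFunctionFieldFull N) (s29bh_degBar N)) :=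
  letI := s35kb_alg
  s29bh_isExt (modularFunctionFieldFull N) (s29bh_degBar N) (s29bh_degC N)

/-- **The base change map** `J₀(N)(Q̄) → Pic⁰(F_ℂ(N))`. -/
def s35kb_bc : JZero N →+ Pic0 ℂ ↥(laurentBaseChange ℂ (modularFunctionFieldFull N)) :=
  letI := s35kb_alg
  s29bc_pic (s35kb_isExt N)

theorem s35kb_bc_mk (D : Divisor.degZero (K := AlgebraicClosure ℚ)
    (F := ↥(modularFunctionFieldBar N))) :
    s35kb_bc N (Pic0.mk D) =
      (letI := s35kb_alg; Pic0.mk (s29bc_degZero (s35kb_isExt N) D)) := rfl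

/-- The setup of the abstract descent theorem at level `N`. -/
theorem s35kb_setup :
    letI := s35kb_alg
    s29d_Setup (algebraMap (AlgebraicClosure ℚ) ℂ)
      (S18.s18cfe_iota (AlgebraicClosure ℚ) ℂ (modularFunctionFieldFull N))
      (s29bc_ext (AlgebraicClosure ℚ) ℂ (modularFunctionFieldFull N) (s29bh_degBar N))
      (s29dh_H (AlgebraicClosure ℚ) ℂ (modularFunctionFieldFull N)) :=
  letI := s35kb_alg
  s29d_setup_coord (AlgebraicClosure ℚ) ℂ (modularFunctionFieldFull N)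
    (Fermat.Agent.S24.jF N) (Fermat.Agent.S24.final_jCoordinate N) (DictC.jF N)
    (DictC.dc_jCoordinate N) (s29bh_degBar N)

/-- The base change map is injective. -/
theorem s35kb_bc_injective : Function.Injective (s35kb_bc N) :=
  letI := s35kb_alg
  s29d_pic_injective (s35kb_isExt N) (s29di_main (s35kb_setup N))

/-- The base change map is onto the `n`-torsion, for every `n > 0`. -/
theorem s35kb_bc_surj (n : ℕ) (hn : 0 < n)
    (x : Pic0 ℂ ↥(laurentBaseChange ℂ (modularFunctionFieldFull N))) (hx : n • x = 0) :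
    ∃ y, s35kb_bc N y = x := by
  letI := s35kb_alg
  have hx' : (n : ℤ) • x = 0 := by
    rw [natCast_zsmul]
    exact hx
  obtain ⟨y, -, hy⟩ := s29d_main_abs (s35kb_setup N) (s35kb_isExt N)
    (s29di_main (s35kb_setup N)) n (s29rf_stmt N n hn) x hx'
  exact ⟨y, hy⟩

/-- The base change map commutes with the Hecke operators. -/
theorem s35kb_bc_hecke (ℓ : ℕ) [Fact ℓ.Prime] (hℓN : ¬ ℓ ∣ N) (y : JZero N) :
    s35kb_bc N (heckeOperatorBar N ⟨ℓ, Fact.out⟩ y) =
      (haveI : NeZero ℓ := ⟨(Fact.out : ℓ.Prime).ne_zero⟩;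
        heckeOperatorAlong ℂ N ℓ (s35kb_bc N y)) := by
  haveI : NeZero ℓ := ⟨(Fact.out : ℓ.Prime).ne_zero⟩
  exact s29bh_heckeBC_main s35kb_alg N (s29bh_degBar N) (s35kb_isExt N) ℓ Fact.out hℓN y

end BC

/-! ### The squares -/

section Square

variable (M q : ℕ) [NeZero M] [NeZero q]

/-- The abstract square on `Pic⁰`: base change commutes with `s35_pushPic`. -/
theorem s35kb_push_abs {K F F₁ K' F' F₁' : Type*} [Field K] [Field F] [Field F₁] [Algebra K F]
    [Algebra K F₁] [Field K'] [Field F'] [Field F₁'] [Algebra K' F'] [Algebra K' F₁']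
    {ι : F →+* F'} {ι₁ : F₁ →+* F₁'} {ext : Place K F → Place K' F'}
    {ext₁ : Place K F₁ → Place K' F₁'}
    (φ : F →ₐ[K] F₁) (hφ : s35_PushInputs φ) (φ' : F' →ₐ[K'] F₁') (hφ' : s35_PushInputs φ')
    (h : s29bc_IsExt ι ext) (h₁ : s29bc_IsExt ι₁ ext₁)
    (hc : ∀ f : F, ι₁ (φ f) = φ' (ι f)) (hdeg : ∀ P : Place K F, P.deg ≠ 0)
    (x : Pic0 K F₁) :
    s29bc_pic h (s35_pushPic φ x) = s35_pushPic φ' (s29bc_pic h₁ x) := by
  obtain ⟨h1, h2, h3⟩ := hφ
  obtain ⟨h1', h2', h3'⟩ := hφ'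
  induction x using QuotientAddGroup.induction_on with
  | H D =>
    show s29bc_pic h (s35_pushPic φ (Pic0.mk D)) = s35_pushPic φ' (s29bc_pic h₁ (Pic0.mk D))
    rw [s35_pushPic_mk φ h1 h2 h3, s29bc_pic_mk, s29bc_pic_mk, s35_pushPic_mk φ' h1' h2' h3']
    congr 1
    apply Subtype.ext
    rw [s29bc_coe_degZero, s35_coe_pushDeg, s35_coe_pushDeg, s29bc_coe_degZero]
    exact s29bh_pushforwardAlong φ h1 φ' h1' h h₁ hc hdeg _

/-- **[KP-BC]** for `α`: base change commutes with the push-forward along `heckeAlphaBar`. -/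
theorem s35kb_pushA (y : JZero (M * q)) :
    s35kb_bc M (s35_pushA M q y) =
      s35_pushPic (heckeAlphaBar ℂ M q) (s35kb_bc (M * q) y) := by
  letI := s35kb_alg
  exact s35kb_push_abs (heckeAlphaBar (AlgebraicClosure ℚ) M q) (s35kb_inputsA_bar M q)
    (heckeAlphaBar ℂ M q) (s35kb_inputsA_C M q) (s35kb_isExt M) (s35kb_isExt (M * q))
    (s29bh_iota_alpha (AlgebraicClosure ℚ) ℂ M q)
    (fun P => by rw [s29bh_degBar M P]; exact one_ne_zero) y

/-- **[KP-BC]** for `β`: base change commutes with the push-forward along `heckeBetaBar`. -/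
theorem s35kb_pushB (y : JZero (M * q)) :
    s35kb_bc M (s35_pushB M q y) =
      s35_pushPic (heckeBetaBar ℂ M q) (s35kb_bc (M * q) y) := by
  letI := s35kb_alg
  exact s35kb_push_abs (heckeBetaBar (AlgebraicClosure ℚ) M q) (s35kb_inputsB_bar M q)
    (heckeBetaBar ℂ M q) (s35kb_inputsB_C M q) (s35kb_isExt M) (s35kb_isExt (M * q))
    (s29bh_iota_beta (AlgebraicClosure ℚ) ℂ M q)
    (fun P => by rw [s29bh_degBar M P]; exact one_ne_zero) y

end Square

end Fermat.Agent.S35

end
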