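/-
S35, leaf [K-PUSH], part [KP-BC] (owner: helper26), second file.  Prefix `s35kb_`.

**The compatible family of Kummer maps of S30, with its root classes.**

* `s35kb_FamStatement` / `s35kb_fam_main`: for every level `N` and every prime `p` there is a
  family `D_k : Λ →+ J₀(N)(Q̄)` with the four clauses of S30's `s30ki_Statement` AND
  `s35kb_bc N (D k c)` is a root class of the character `ζ_{p^k}^c` (for the SAME base change
  map `s35kb_bc` at every level and the SAME roots of unity `s30ki_zeta p k` at every level);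
* `s35kb_root_one`: `0` is a root class of the trivial character;
* `s35kb_pushA_eq_zero`, `s35kb_pushB_eq_zero`: if the push-forward over `ℂ` of `s35kb_bc y` is
  a root class of the trivial character, then the push-forward of `y` vanishes.
-/
import Mathlib
import Fermat.Agent.S30.KumInfFinal
import Fermat.Agent.S35.KpBc

set_option autoImplicit false
set_option linter.style.haveILetI false
set_option linter.unusedSectionVars false
set_option linter.unusedVariables false

noncomputable section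

namespace Fermat.Agent.S35

open UpperHalfPlane CongruenceSubgroup ModularCurve ModularCurve.Period AlgebraicCurve
open scoped MatrixGroups

open Fermat.Agent.S29 Fermat.Agent.S30

/-- [K-C], hypothesis-free. -/
theorem s35kb_c_main : s29k_CStatement := s30ki_c_of_hecke s29hk_main

/-- `0` is a root class of the trivial character. -/
theorem s35kb_root_one (N : ℕ) [NeZero N] (n : ℕ) (hn : 0 < n) : s29k_IsRoot N n 1 0 := by
  have hζ : IsPrimitiveRoot
      (Units.mk0 (Complex.exp (2 * Real.pi * Complex.I / ((n : ℕ) : ℂ)))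
        (Complex.exp_ne_zero _)) n := by
    rw [← IsPrimitiveRoot.coe_units_iff]
    exact Complex.isPrimitiveRoot_exp n hn.ne'
  obtain ⟨D, hroot, -⟩ := s35kb_c_main N n hn _ hζ
  have h := hroot 0
  rw [map_zero] at h
  have e : s29k_chi (Units.mk0 (Complex.exp (2 * Real.pi * Complex.I / ((n : ℕ) : ℂ)))
      (Complex.exp_ne_zero _))
      ((0 : ↥(parabolicHoms ℤ (Gamma0 N) ℤ)) : Additive ↥(Gamma0 N) →+ ℤ) = 1 :=
    s29k_chi_zero _
  rw [e] at h
  exact h

/-- A root class of the trivial character vanishes. -/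
theorem s35kb_root_one_eq_zero (N : ℕ) [NeZero N] (n : ℕ) (hn : 0 < n)
    (x : Pic0 ℂ ↥(laurentBaseChange ℂ (modularFunctionFieldFull N)))
    (hx : s29k_IsRoot N n 1 x) : x = 0 :=
  s29ku_main N n hn 1 (fun γ => by rw [MonoidHom.one_apply, one_pow]) _ _ hx
    (s35kb_root_one N n hn)

/-- A root class of the character `ζ^c` with `c = 0` vanishes. -/
theorem s35kb_root_chi_zero (N : ℕ) [NeZero N] (n : ℕ) (hn : 0 < n) (ζ : ℂˣ)
    (c : Additive ↥(Gamma0 N) →+ ℤ) (hc : c = 0)
    (x : Pic0 ℂ ↥(laurentBaseChange ℂ (modularFunctionFieldFull N)))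
    (hx : s29k_IsRoot N n (s29k_chi ζ c) x) : x = 0 := by
  subst hc
  rw [s29k_chi_zero] at hx
  exact s35kb_root_one_eq_zero N n hn x hx

/-! ### Vanishing of the push-forwards -/

section Kill

variable (M q : ℕ) [NeZero M] [NeZero q]

/-- If `α_* (bc y)` is a root class of the trivial character then `α_* y = 0`. -/
theorem s35kb_pushA_eq_zero (n : ℕ) (hn : 0 < n) (y : JZero (M * q))
    (h : s29k_IsRoot M n 1 (s35_pushPic (heckeAlphaBar ℂ M q) (s35kb_bc (M * q) y))) :
    s35_pushA M q y = 0 := by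
  apply s35kb_bc_injective M
  rw [s35kb_pushA, map_zero]
  exact s35kb_root_one_eq_zero M n hn _ h

/-- If `β_* (bc y)` is a root class of the trivial character then `β_* y = 0`. -/
theorem s35kb_pushB_eq_zero (n : ℕ) (hn : 0 < n) (y : JZero (M * q))
    (h : s29k_IsRoot M n 1 (s35_pushPic (heckeBetaBar ℂ M q) (s35kb_bc (M * q) y))) :
    s35_pushB M q y = 0 := by
  apply s35kb_bc_injective M
  rw [s35kb_pushB, map_zero]
  exact s35kb_root_one_eq_zero M n hn _ h

/-- The same for a character `ζ^c'` with `c' = 0` (the shape of the transfer). -/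
theorem s35kb_pushA_eq_zero' (n : ℕ) (hn : 0 < n) (ζ : ℂˣ) (c' : Additive ↥(Gamma0 M) →+ ℤ)
    (hc' : c' = 0) (y : JZero (M * q))
    (h : s29k_IsRoot M n (s29k_chi ζ c')
      (s35_pushPic (heckeAlphaBar ℂ M q) (s35kb_bc (M * q) y))) :
    s35_pushA M q y = 0 := by
  subst hc'
  rw [s29k_chi_zero] at h
  exact s35kb_pushA_eq_zero M q n hn y h

theorem s35kb_pushB_eq_zero' (n : ℕ) (hn : 0 < n) (ζ : ℂˣ) (c' : Additive ↥(Gamma0 M) →+ ℤ)
    (hc' : c' = 0) (y : JZero (M * q))
    (h : s29k_IsRoot M n (s29k_chi ζ c')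
      (s35_pushPic (heckeBetaBar ℂ M q) (s35kb_bc (M * q) y))) :
    s35_pushB M q y = 0 := by
  subst hc'
  rw [s29k_chi_zero] at h
  exact s35kb_pushB_eq_zero M q n hn y h

end Kill

/-! ### The family -/

/-- **[KUM-∞] with root classes**: one compatible family of Kummer maps at the levels `p^k`,
whose values are, after the base change `s35kb_bc`, THE root classes of the characters
`ζ_{p^k}^c`. -/
def s35kb_FamStatement : Prop :=
  ∀ (N : ℕ) [NeZero N] (p : ℕ), p.Prime →
    ∃ D : ℕ → ↥(parabolicHoms ℤ (Gamma0 N) ℤ) →+ JZero N,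
      ((∀ k c, p ^ k • D k c = 0) ∧ (∀ k c, D k c = 0 → ∃ c', c = p ^ k • c') ∧
        (∀ k c, p • D (k + 1) c = D k c) ∧
        ∀ (k : ℕ) (ℓ : ℕ) [Fact ℓ.Prime] (hℓN : ¬ ℓ ∣ N), ℓ ≠ p → ∀ c,
          D k (s29lat_T N ℓ hℓN c) = heckeOperatorBar N ⟨ℓ, Fact.out⟩ (D k c)) ∧
      ∀ (k : ℕ) (c : ↥(parabolicHoms ℤ (Gamma0 N) ℤ)),
        s29k_IsRoot N (p ^ k) (s29k_chi (s30ki_zeta p k) (c : Additive ↥(Gamma0 N) →+ ℤ))
          (s35kb_bc N (D k c))

/-- **[KUM-∞] with root classes.** -/
theorem s35kb_fam_main : s35kb_FamStatement := by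
  intro N _ p hp
  have hpk : ∀ k : ℕ, 0 < p ^ k := fun k => pow_pos hp.pos k
  choose Dc hroot htors hker hhecke using
    fun k : ℕ => s35kb_c_main N (p ^ k) (hpk k) (s30ki_zeta p k) (s30ki_zeta_prim hp k)
  have hex : ∀ (k : ℕ) (c : ↥(parabolicHoms ℤ (Gamma0 N) ℤ)), ∃ y, s35kb_bc N y = Dc k c :=
    fun k c => s35kb_bc_surj N (p ^ k) (hpk k) _ (htors k c)
  choose E hE using hex
  have hinj := s35kb_bc_injective N
  -- compatibility over `ℂ`
  have hcompC : ∀ k c, p • Dc (k + 1) c = Dc k c := by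
    intro k c
    have h1 := hroot (k + 1) c
    rw [pow_succ] at h1
    have h2 := s30ki_pow N (p ^ k) p _ _ h1
    rw [s30ki_chi_pow hp k] at h2
    exact s29ku_main N (p ^ k) (hpk k) _ (s30ki_chi_tors hp k _) _ _ h2 (hroot k c)
  have hadd : ∀ k c c', E k (c + c') = E k c + E k c' := fun k c c' => hinj (by
    rw [map_add, hE, hE, hE, map_add])
  let D : ℕ → ↥(parabolicHoms ℤ (Gamma0 N) ℤ) →+ JZero N :=
    fun k => AddMonoidHom.mk' (E k) (hadd k)
  have hD : ∀ k c, s35kb_bc N (D k c) = Dc k c := fun k c => hE k c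
  refine ⟨D, ⟨?_, ?_, ?_, ?_⟩, ?_⟩
  · intro k c
    apply hinj
    rw [(s35kb_bc N).map_nsmul, hD, map_zero]
    exact htors k c
  · intro k c hc
    apply hker k c
    rw [← hD, hc, map_zero]
  · intro k c
    apply hinj
    rw [(s35kb_bc N).map_nsmul, hD, hD]
    exact hcompC k c
  · intro k ℓ hℓ hℓN hℓp c
    apply hinj
    have hndvd : ¬ ℓ ∣ p ^ k := fun hd =>
      hℓp ((Nat.prime_dvd_prime_iff_eq (Fact.out : ℓ.Prime) hp).mp
        ((Fact.out : ℓ.Prime).dvd_of_dvd_pow hd))
    rw [hD, s35kb_bc_hecke N ℓ hℓN, hD]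
    exact hhecke k ℓ hℓN hndvd c
  · intro k c
    rw [hD]
    exact hroot k c

/-- The family of `s35kb_FamStatement` satisfies S30's `s30ki_Statement`. -/
theorem s35kb_fam_kumInf (h : s35kb_FamStatement) : s30ki_Statement := by
  intro N _ p hp
  obtain ⟨D, h4, -⟩ := h N p hp
  exact ⟨D, h4⟩

end Fermat.Agent.S35

end
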