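/-
S35, leaf [K-PUSH], the composition [KP-ASM] (owner of this file: helper26).  Prefix `s35kb_`.

`s35_KumPushStatement` (helper16's `S35/NModDefs.lean`, VERBATIM) from ONE analytic input:

* `s35kb_RootPushStatement` ([KP-AN]): the push-forward over `ℂ` along `α` (resp. `β`) of a
  root class of the character `ζ^c` of level `M q` is a root class of the character
  `ζ^(cor_A c)` (resp. `ζ^(cor_B c)`) of level `M`;
* `s35kb_RootKillStatement`: the weaker form which is actually used (`cor c = 0` ⟹ the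
  push-forward is a root class of the trivial character);
* `s35kb_kumPush_of_kill : s35kb_RootKillStatement → s35_KumPushStatement`,
  `s35kb_kumPush_of_push : s35kb_RootPushStatement → s35_KumPushStatement`.

Everything else ([KP-BC], the family with its root classes, uniqueness of root classes) is in
`S35/KpBc.lean`, `S35/KpBcFam.lean`.
-/
import Mathlib
import Fermat.Agent.S35.KpBcFam
import Fermat.Agent.S35.NModDefs

set_option autoImplicit false
set_option linter.style.haveILetI false
set_option linter.unusedSectionVars false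
set_option linter.unusedVariables false

noncomputable section

namespace Fermat.Agent.S35

open UpperHalfPlane CongruenceSubgroup ModularCurve ModularCurve.Period AlgebraicCurve
open scoped MatrixGroups

open Fermat.Agent.S29 Fermat.Agent.S30

/-- **[KP-AN]** the push-forward of a root class of `ζ^c` is a root class of `ζ^(cor c)`, for
both degeneracy maps. -/
def s35kb_RootPushStatement : Prop :=
  ∀ (M q : ℕ) [NeZero M] [NeZero q], q.Prime → ¬ q ∣ M → ∀ (n : ℕ), 0 < n →
    ∀ (ζ : ℂˣ), ζ ^ n = 1 → ∀ (c : ↥(parabolicHoms ℤ (Gamma0 (M * q)) ℤ))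
      (x : Pic0 ℂ ↥(laurentBaseChange ℂ (modularFunctionFieldFull (M * q)))),
      s29k_IsRoot (M * q) n (s29k_chi ζ (c : Additive ↥(Gamma0 (M * q)) →+ ℤ)) x →
        s29k_IsRoot M n (s29k_chi ζ (s35c_corA M q (c : Additive ↥(Gamma0 (M * q)) →+ ℤ)))
          (s35_pushPic (heckeAlphaBar ℂ M q) x) ∧
        s29k_IsRoot M n (s29k_chi ζ (s35c_corB M q (c : Additive ↥(Gamma0 (M * q)) →+ ℤ)))
          (s35_pushPic (heckeBetaBar ℂ M q) x)

/-- The form of [KP-AN] which is used: if the transfer of `c` vanishes, the push-forward of a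
root class of `ζ^c` is a root class of the trivial character. -/
def s35kb_RootKillStatement : Prop :=
  ∀ (M q : ℕ) [NeZero M] [NeZero q], q.Prime → ¬ q ∣ M → ∀ (n : ℕ), 0 < n →
    ∀ (ζ : ℂˣ), ζ ^ n = 1 → ∀ (c : ↥(parabolicHoms ℤ (Gamma0 (M * q)) ℤ))
      (x : Pic0 ℂ ↥(laurentBaseChange ℂ (modularFunctionFieldFull (M * q)))),
      s29k_IsRoot (M * q) n (s29k_chi ζ (c : Additive ↥(Gamma0 (M * q)) →+ ℤ)) x →
        (s35c_corA M q (c : Additive ↥(Gamma0 (M * q)) →+ ℤ) = 0 →
          s29k_IsRoot M n 1 (s35_pushPic (heckeAlphaBar ℂ M q) x)) ∧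
        (s35c_corB M q (c : Additive ↥(Gamma0 (M * q)) →+ ℤ) = 0 →
          s29k_IsRoot M n 1 (s35_pushPic (heckeBetaBar ℂ M q) x))

theorem s35kb_kill_of_push (h : s35kb_RootPushStatement) : s35kb_RootKillStatement := by
  intro M q _ _ hq hqM n hn ζ hζ c x hx
  obtain ⟨hA, hB⟩ := h M q hq hqM n hn ζ hζ c x hx
  refine ⟨fun hc => ?_, fun hc => ?_⟩
  · rw [hc, s29k_chi_zero] at hA
    exact hA
  · rw [hc, s29k_chi_zero] at hB
    exact hB

/-- **[KP-ASM]** `s35_KumPushStatement` from [KP-AN] (weak form). -/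
theorem s35kb_kumPush_of_kill (h : s35kb_RootKillStatement) : s35_KumPushStatement := by
  intro N _ p hp
  obtain ⟨D, ⟨h1, h2, h3, h4⟩, hroot⟩ := s35kb_fam_main N p hp
  refine ⟨D, h1, h2, h3, h4, ?_⟩
  intro M q _ _ hN hq hqM k c
  subst hN
  have hpk : 0 < p ^ k := pow_pos hp.pos k
  obtain ⟨hA, hB⟩ := h M q hq hqM (p ^ k) hpk (s30ki_zeta p k)
    (s30ki_zeta_prim hp k).pow_eq_one c _ (hroot k c)
  refine ⟨fun hc => ?_, fun hc => ?_⟩
  · exact s35kb_pushA_eq_zero M q (p ^ k) hpk (D k c) (hA hc)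
  · exact s35kb_pushB_eq_zero M q (p ^ k) hpk (D k c) (hB hc)

/-- **[KP-ASM]** `s35_KumPushStatement` from [KP-AN]. -/
theorem s35kb_kumPush_of_push (h : s35kb_RootPushStatement) : s35_KumPushStatement :=
  s35kb_kumPush_of_kill (s35kb_kill_of_push h)

end Fermat.Agent.S35

end
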