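/-
S35, leaf [K-PUSH], the divisor bookkeeping of [KP-ROOT] (owner of this file: helper26).
Prefix `s35kb_`.

The push-forward of a root class is a root class, GIVEN the series of the norm:

* `s35kb_div_push`: if `n D = div y` then `n (φ_* D) = div N_φ(y)` (Prelude: norm formula);
* `s35kb_root_push`: root data `(k, f, g, D, y)` of `χ` at the level `M q` and forms `F`, `G` of
  characters `χ'`, `1` at the level `M` with `N_φ(y) = ser (F^n) / ser (G^n)` give the root class
  `φ_* [D]` of `χ'` (any `φ` with `s35_PushInputs`);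
* `s35kb_NormSerStatement`: the purely analytic statement [KP-SER] (the series of the norms
  `s35_normA`, `s35_normB` of a ratio of forms of characters `ζ^c`, `1`);
* `s35kb_rootPush_of_normSer : s35kb_NormSerStatement → s35kb_RootPushStatement`, hence
  `s35kb_kumPush_of_normSer : s35kb_NormSerStatement → s35_KumPushStatement`.
-/
import Mathlib
import Fermat.Agent.S35.KpBcAsm
import Fermat.Agent.S35.NfDefs

set_option autoImplicit false
set_option linter.style.haveILetI false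
set_option linter.unusedSectionVars false
set_option linter.unusedVariables false

noncomputable section

namespace Fermat.Agent.S35

open UpperHalfPlane CongruenceSubgroup ModularCurve ModularCurve.Period AlgebraicCurve
open ModularForm ModularFormClass
open scoped MatrixGroups ModularForm Manifold

open Fermat.Agent.S29 Fermat.Agent.S30

/-! ### Divisors -/

/-- **Divisor bookkeeping**: if `n D = div y` then `n (φ_* D) = div N_φ(y)`. -/
theorem s35kb_div_push {K F F' : Type*} [Field K] [Field F] [Field F'] [Algebra K F]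
    [Algebra K F'] (φ : F →ₐ[K] F') (hφ : φ.toRingHom.IsIntegral) (hfin : FiniteAlong K φ)
    (hN : NormFormulaAlong K φ hfin) (n : ℤ) (D : Divisor K F') (y : F') (hy : y ≠ 0)
    (hD : ∀ P : Place K F', n * D P = P.ord y) (P : Place K F) :
    n * (Divisor.pushforwardAlong φ hφ D) P =
      P.ord (letI := algebraAlong φ; Algebra.norm F y) := by
  have h2 : Divisor.pushforwardAlong φ hφ (n • D) P =
      P.ord (letI := algebraAlong φ; Algebra.norm F y) := by
    letI := algebraAlong φ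
    haveI := isScalarTower_along φ
    haveI := isIntegral_along φ hφ
    haveI : Module.Finite F F' := hfin
    exact hN y hy (n • D) (fun w => by rw [Finsupp.smul_apply, smul_eq_mul]; exact hD w) P
  rw [← h2, map_zsmul, Finsupp.smul_apply, smul_eq_mul]

/-! ### Root classes -/

section Root

variable (M q : ℕ) [NeZero M] [NeZero q]

/-- The series of a non-zero ratio of forms does not vanish. -/
theorem s35kb_ratio_ne_zero (N : ℕ) [NeZero N] (n : ℕ) {k : ℕ} {χ : ↥(Gamma0 N) →* ℂˣ}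
    (hχ : ∀ γ, χ γ ^ n = 1) {f g : ℍ → ℂ} (hf : s29k_IsForm N k χ f)
    (hg : s29k_IsForm N k 1 g) (hf0 : f ≠ 0) (hg0 : g ≠ 0) :
    s29k_ser (f ^ n) / s29k_ser (g ^ n) ≠ 0 := by
  have hχ₁ : ∀ γ : ↥(Gamma0 N), (1 : ↥(Gamma0 N) →* ℂˣ) γ ^ n = 1 := fun γ => by
    rw [MonoidHom.one_apply, one_pow]
  exact div_ne_zero
    (s29ku_ser_ne_zero (s29ku_isNice_pow hf n hχ) (s29ku_pow_ne_zero hf0 n))
    (s29ku_ser_ne_zero (s29ku_isNice_pow hg n hχ₁) (s29ku_pow_ne_zero hg0 n))

/-- **[KP-ROOT]**, generic in the map `φ : F_ℂ(M) → F_ℂ(M q)`: the push-forward of a root class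
of `χ` is a root class of `χ'`, as soon as the norm of a ratio of forms of characters `χ`, `1`
is a ratio of forms of characters `χ'`, `1`. -/
theorem s35kb_root_push
    (φ : ↥(laurentBaseChange ℂ (modularFunctionFieldFull M)) →ₐ[ℂ]
      ↥(laurentBaseChange ℂ (modularFunctionFieldFull (M * q))))
    (hφ : s35_PushInputs φ) (n : ℕ) (χ : ↥(Gamma0 (M * q)) →* ℂˣ) (hχ : ∀ γ, χ γ ^ n = 1)
    (χ' : ↥(Gamma0 M) →* ℂˣ)
    (hser : ∀ (k : ℕ) (f g : ℍ → ℂ), s29k_IsForm (M * q) k χ f → s29k_IsForm (M * q) k 1 g →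
      f ≠ 0 → g ≠ 0 → ∀ y : ↥(laurentBaseChange ℂ (modularFunctionFieldFull (M * q))),
        (y : LaurentSeries ℂ) = s29k_ser (f ^ n) / s29k_ser (g ^ n) →
        ∃ (k' : ℕ) (F G : ℍ → ℂ), s29k_IsForm M k' χ' F ∧ s29k_IsForm M k' 1 G ∧ F ≠ 0 ∧
          G ≠ 0 ∧ (((letI := algebraAlong φ;
            Algebra.norm ↥(laurentBaseChange ℂ (modularFunctionFieldFull M)) y) :
              ↥(laurentBaseChange ℂ (modularFunctionFieldFull M))) : LaurentSeries ℂ) =
            s29k_ser (F ^ n) / s29k_ser (G ^ n))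
    (x : Pic0 ℂ ↥(laurentBaseChange ℂ (modularFunctionFieldFull (M * q))))
    (hx : s29k_IsRoot (M * q) n χ x) : s29k_IsRoot M n χ' (s35_pushPic φ x) := by
  obtain ⟨k, f, g, hf, hg, hf0, hg0, D, y, hxD, hy, hD⟩ := hx
  obtain ⟨h1, h2, h3⟩ := hφ
  obtain ⟨k', F, G, hF, hG, hF0, hG0, hFG⟩ := hser k f g hf hg hf0 hg0 y hy
  have hy0 : y ≠ 0 := by
    intro h0
    have e : (y : LaurentSeries ℂ) = 0 := by rw [h0]; rfl
    rw [hy] at e
    exact s35kb_ratio_ne_zero (M * q) n hχ hf hg hf0 hg0 e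
  refine ⟨k', F, G, hF, hG, hF0, hG0, s35_pushDeg φ h1 D,
    (letI := algebraAlong φ;
      Algebra.norm ↥(laurentBaseChange ℂ (modularFunctionFieldFull M)) y), ?_, hFG, ?_⟩
  · rw [hxD, s35_pushPic_mk φ h1 h2 h3]
  · intro P
    rw [s35_coe_pushDeg]
    exact s35kb_div_push φ h1 h2 h3 (n : ℤ) _ y hy0 hD P

end Root

/-! ### The analytic statement -/

/-- **[KP-SER]** the purely analytic input of [K-PUSH]: for forms `f`, `g` of the level `M q`, of
the same weight and of characters `ζ^c`, `1`, the norms along `α` and `β` of the function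
`y = ser (f^n) / ser (g^n)` are again ratios `ser (F^n) / ser (G^n)` of forms of the level `M`,
of the same weight and of characters `ζ^(cor_A c)`, `1` resp. `ζ^(cor_B c)`, `1`. -/
def s35kb_NormSerStatement : Prop :=
  ∀ (M q : ℕ) [NeZero M] [NeZero q], q.Prime → ¬ q ∣ M → ∀ (n : ℕ), 0 < n →
    ∀ (ζ : ℂˣ), ζ ^ n = 1 → ∀ (c : ↥(parabolicHoms ℤ (Gamma0 (M * q)) ℤ))
      (k : ℕ) (f g : ℍ → ℂ),
      s29k_IsForm (M * q) k (s29k_chi ζ (c : Additive ↥(Gamma0 (M * q)) →+ ℤ)) f →
      s29k_IsForm (M * q) k 1 g → f ≠ 0 → g ≠ 0 →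
      ∀ y : ↥(laurentBaseChange ℂ (modularFunctionFieldFull (M * q))),
        (y : LaurentSeries ℂ) = s29k_ser (f ^ n) / s29k_ser (g ^ n) →
        (∃ (k' : ℕ) (F G : ℍ → ℂ),
          s29k_IsForm M k'
            (s29k_chi ζ (s35c_corA M q (c : Additive ↥(Gamma0 (M * q)) →+ ℤ))) F ∧
          s29k_IsForm M k' 1 G ∧ F ≠ 0 ∧ G ≠ 0 ∧
          ((s35_normA ℂ M q y : ↥(laurentBaseChange ℂ (modularFunctionFieldFull M))) :
            LaurentSeries ℂ) = s29k_ser (F ^ n) / s29k_ser (G ^ n)) ∧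
        (∃ (k' : ℕ) (F G : ℍ → ℂ),
          s29k_IsForm M k'
            (s29k_chi ζ (s35c_corB M q (c : Additive ↥(Gamma0 (M * q)) →+ ℤ))) F ∧
          s29k_IsForm M k' 1 G ∧ F ≠ 0 ∧ G ≠ 0 ∧
          ((s35_normB ℂ M q y : ↥(laurentBaseChange ℂ (modularFunctionFieldFull M))) :
            LaurentSeries ℂ) = s29k_ser (F ^ n) / s29k_ser (G ^ n))

/-- [KP-SER] ⟹ [KP-AN]. -/
theorem s35kb_rootPush_of_normSer (h : s35kb_NormSerStatement) : s35kb_RootPushStatement := by
  intro M q _ _ hq hqM n hn ζ hζ c x hx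
  have hχ : ∀ γ, s29k_chi ζ (c : Additive ↥(Gamma0 (M * q)) →+ ℤ) γ ^ n = 1 :=
    fun γ => s29k_chi_pow hζ _ γ
  refine ⟨?_, ?_⟩
  · refine s35kb_root_push M q (heckeAlphaBar ℂ M q) (s35kb_inputsA_C M q) n _ hχ _ ?_ x hx
    intro k f g hf hg hf0 hg0 y hy
    exact (h M q hq hqM n hn ζ hζ c k f g hf hg hf0 hg0 y hy).1
  · refine s35kb_root_push M q (heckeBetaBar ℂ M q) (s35kb_inputsB_C M q) n _ hχ _ ?_ x hx
    intro k f g hf hg hf0 hg0 y hy
    exact (h M q hq hqM n hn ζ hζ c k f g hf hg hf0 hg0 y hy).2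

/-- **[K-PUSH]** from the purely analytic statement [KP-SER]. -/
theorem s35kb_kumPush_of_normSer (h : s35kb_NormSerStatement) : s35_KumPushStatement :=
  s35kb_kumPush_of_push (s35kb_rootPush_of_normSer h)

end Fermat.Agent.S35

end
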