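/-
S35, leaf [K-PUSH], THE FINAL THEOREMS (owner: helper5).  Prefix `s35kp_`.

* `s35kp_normSerB` : the `β` half of helper26's `s35kb_NormSerStatement`: for forms `f`, `g`
  of the level `M q`, weight `k`, characters `ζ^c`, `1`, and `y = ser (f^n) / ser (g^n)`:
  `N_β y = ser (F^n) / ser (G^n)`, `F = mix q f^w f`, `G = mix q g^w g`, forms of the level `M`,
  weight `(q + 1) k`, characters `ζ^(s35c_corB c)`, `1`;
* `s35kp_main : s35kb_NormSerStatement`          (VERBATIM `S35/KpBcRoot.lean`);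
* `s35kp_kumPush : s35_KumPushStatement`         (VERBATIM `S35/NModDefs.lean`) = **[K-PUSH]**.
-/
import Mathlib
import Fermat.Agent.S35.KPushMainA
import Fermat.Agent.S35.KPushProdB
import Fermat.Agent.S35.KpBcRoot

set_option autoImplicit false
set_option linter.unusedSectionVars false
set_option linter.unusedVariables false
set_option linter.style.haveILetI false

noncomputable section

namespace Fermat.Agent.S35

open UpperHalfPlane ModularFormClass CongruenceSubgroup Matrix.SpecialLinearGroup Function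
open ModularForm Filter Asymptotics ModularCurve ModularCurve.Period AlgebraicCurve
open scoped MatrixGroups ModularForm Manifold Real Topology

open Fermat.Agent.S22 Fermat.Agent.S24 Fermat.Agent.S28 Fermat.Agent.S29 Fermat.Agent.S37

section Main

variable (M q : ℕ) [NeZero M] [NeZero q] (hq : q.Prime) (hqM : ¬ q ∣ M)
  (x y : ℤ) (h : x * q - y * M = 1)

include hq hqM in
/-- The `β` half with explicit `x`, `y`. -/
theorem s35kp_normSerB_xy (n : ℕ) (hn : 0 < n) (ζ : ℂˣ) (hζ : ζ ^ n = 1)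
    (c : Additive ↥(Gamma0 (M * q)) →+ ℤ) (k : ℕ) (f g : ℍ → ℂ)
    (hf : s29k_IsForm (M * q) k (s29k_chi ζ c) f) (hg : s29k_IsForm (M * q) k 1 g)
    (hf0 : f ≠ 0) (hg0 : g ≠ 0)
    (yy : ↥(laurentBaseChange ℂ (modularFunctionFieldFull (M * q))))
    (hy : (yy : LaurentSeries ℂ) = s29k_ser (f ^ n) / s29k_ser (g ^ n)) :
    s29k_IsForm M (((q + 1) * k : ℕ) : ℤ) (s29k_chi ζ (s35c_corB M q c))
        (s35kp_mix q (s35kw_Wf M q x y h k f) f) ∧
      s29k_IsForm M (((q + 1) * k : ℕ) : ℤ) 1 (s35kp_mix q (s35kw_Wf M q x y h k g) g) ∧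
      s35kp_mix q (s35kw_Wf M q x y h k f) f ≠ 0 ∧
      s35kp_mix q (s35kw_Wf M q x y h k g) g ≠ 0 ∧
      ((s35_normB ℂ M q yy : ↥(laurentBaseChange ℂ (modularFunctionFieldFull M))) :
          LaurentSeries ℂ) =
        s29k_ser (s35kp_mix q (s35kw_Wf M q x y h k f) f ^ n) /
          s29k_ser (s35kp_mix q (s35kw_Wf M q x y h k g) g ^ n) := by
  haveI : Fact q.Prime := ⟨hq⟩
  haveI : NeZero (M * q) := ⟨Nat.mul_ne_zero (NeZero.ne M) (NeZero.ne q)⟩
  have hχ : ∀ γ, s29k_chi ζ c γ ^ n = 1 := fun γ => s29k_chi_pow hζ c γ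
  have hone : ∀ γ : ↥(Gamma0 (M * q)), (1 : ↥(Gamma0 (M * q)) →* ℂˣ) γ ^ n = 1 := fun γ => by
    rw [MonoidHom.one_apply, one_pow]
  have hP := s35kp_isMF_pow hf n hχ
  have hQ := s35kp_isMF_pow hg n hone
  have hP0 : f ^ n ≠ 0 := s29ku_pow_ne_zero hf0 n
  have hQ0 : g ^ n ≠ 0 := s29ku_pow_ne_zero hg0 n
  have eF : s35kp_mix q (s35kw_Wf M q x y h k f) f ^ n =
      s35kp_mix q (s35kw_Wf M q x y h ((n * k : ℕ) : ℤ) (f ^ n)) (f ^ n) := by
    rw [s35kp_Wf_pow_nat, s35kp_mix_pow]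
  have eG : s35kp_mix q (s35kw_Wf M q x y h k g) g ^ n =
      s35kp_mix q (s35kw_Wf M q x y h ((n * k : ℕ) : ℤ) (g ^ n)) (g ^ n) := by
    rw [s35kp_Wf_pow_nat, s35kp_mix_pow]
  refine ⟨s35kp_isForm_B M q x y h k ζ c hf, s35kp_isForm_B_one M q x y h k hg, ?_, ?_, ?_⟩
  · intro h0
    have h1 := s35x14_mixB_ne_zero M q x y h (n * k) hP hP0
    rw [← eF, h0, zero_pow hn.ne'] at h1
    exact h1 rfl
  · intro h0
    have h1 := s35x14_mixB_ne_zero M q x y h (n * k) hQ hQ0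
    rw [← eG, h0, zero_pow hn.ne'] at h1
    exact h1 rfl
  · rw [eF, eG]
    exact s35x14_serB M q hq hqM x y h (n * k) hP hQ hQ0 yy hy

include hq hqM in
/-- **[KP-SER], the `β` half** (the second half of `s35kb_NormSerStatement`). -/
theorem s35kp_normSerB (n : ℕ) (hn : 0 < n) (ζ : ℂˣ) (hζ : ζ ^ n = 1)
    (c : Additive ↥(Gamma0 (M * q)) →+ ℤ) (k : ℕ) (f g : ℍ → ℂ)
    (hf : s29k_IsForm (M * q) k (s29k_chi ζ c) f) (hg : s29k_IsForm (M * q) k 1 g)
    (hf0 : f ≠ 0) (hg0 : g ≠ 0)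
    (yy : ↥(laurentBaseChange ℂ (modularFunctionFieldFull (M * q))))
    (hy : (yy : LaurentSeries ℂ) = s29k_ser (f ^ n) / s29k_ser (g ^ n)) :
    ∃ (k' : ℕ) (F G : ℍ → ℂ),
      s29k_IsForm M k' (s29k_chi ζ (s35c_corB M q c)) F ∧ s29k_IsForm M k' 1 G ∧ F ≠ 0 ∧
        G ≠ 0 ∧
        ((s35_normB ℂ M q yy : ↥(laurentBaseChange ℂ (modularFunctionFieldFull M))) :
          LaurentSeries ℂ) = s29k_ser (F ^ n) / s29k_ser (G ^ n) := by
  obtain ⟨x, y, h⟩ := s35kp_bezout hq hqM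
  exact ⟨(q + 1) * k, _, _,
    s35kp_normSerB_xy M q hq hqM x y h n hn ζ hζ c k f g hf hg hf0 hg0 yy hy⟩

end Main

/-- **[KP-SER]**: helper26's `s35kb_NormSerStatement`, VERBATIM. -/
theorem s35kp_main : s35kb_NormSerStatement := by
  intro M q _ _ hq hqM n hn ζ hζ c k f g hf hg hf0 hg0 y hy
  exact ⟨s35kp_normSerA M q hq hqM n hn ζ hζ _ k f g hf hg hf0 hg0 y hy,
    s35kp_normSerB M q hq hqM n hn ζ hζ _ k f g hf hg hf0 hg0 y hy⟩

/-- **[K-PUSH]**: helper16's `s35_KumPushStatement`, VERBATIM, hypothesis-free. -/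
theorem s35kp_kumPush : s35_KumPushStatement :=
  s35kb_kumPush_of_normSer s35kp_main

end Fermat.Agent.S35

end
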