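/-
S35, leaf [N-LAT], abstract part (owner: helper2).  Prefix `s35nl_`.  Mathlib only.

* `s35nl_span` : A COMPLEX SOLUTION OF AN INTEGRAL LINEAR SYSTEM IS A COMPLEX COMBINATION OF
  INTEGRAL SOLUTIONS.  `𝓕` a set of rows `F : I → ℤ` (`I` finite), `c : I → ℂ` with
  `∑ i, c i * F i = 0` for all `F ∈ 𝓕`.  Then there are finitely many `y s : I → ℤ` with
  `∑ i, y s i * F i = 0` for all `F ∈ 𝓕` and `d s : ℂ` with `c i = ∑ s, d s * y s i`.
  (Proof: coordinates of the `c i` in a `ℚ`-basis of `ℂ`, then clear the denominators.)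
* `s35nl_flat` : `ℂ` is flat over `ℤ`; `s35nl_baseChange_injective`.
-/
import Mathlib

set_option autoImplicit false
set_option linter.unusedVariables false
set_option linter.unusedSectionVars false
set_option linter.style.haveILetI false

open scoped TensorProduct

namespace Fermat.Agent.S35

section Span

variable {I : Type*} [Fintype I]

/-- Rational solutions: the coordinates of a complex solution in a `ℚ`-basis of `ℂ`. -/
theorem s35nl_span_rat (𝓕 : Set (I → ℤ)) (c : I → ℂ)
    (hc : ∀ F ∈ 𝓕, ∑ i, c i * (F i : ℂ) = 0) :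
    ∃ (J : Type) (T : Finset J) (x : J → I → ℚ) (β : J → ℂ),
      (∀ s, ∀ F ∈ 𝓕, ∑ i, x s i * (F i : ℚ) = 0) ∧
      ∀ i, c i = ∑ s ∈ T, (x s i : ℂ) * β s := by
  classical
  let B := Module.Basis.ofVectorSpace ℚ ℂ
  let r : I → (Module.Basis.ofVectorSpaceIndex ℚ ℂ →₀ ℚ) := fun i => B.repr (c i)
  refine ⟨Module.Basis.ofVectorSpaceIndex ℚ ℂ, Finset.univ.biUnion fun i => (r i).support,
    fun s i => r i s, fun s => B s, ?_, ?_⟩
  · intro s F hF
    have h1 : ∑ i, (F i : ℚ) • c i = 0 := by
      rw [← hc F hF]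
      refine Finset.sum_congr rfl fun i _ => ?_
      rw [Rat.smul_def, mul_comm]
      push_cast
      rfl
    have h2 := congrArg (fun z => B.repr z s) h1
    simp only [map_sum, map_smul, map_zero, Finsupp.coe_finset_sum, Finsupp.coe_smul,
      Finset.sum_apply, Pi.smul_apply, smul_eq_mul, Finsupp.coe_zero, Pi.zero_apply] at h2
    rw [← h2]
    refine Finset.sum_congr rfl fun i _ => ?_
    exact mul_comm _ _
  · intro i
    have h1 : c i = ∑ s ∈ (r i).support, (r i s) • B s := by
      have := B.linearCombination_repr (c i)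
      rw [Finsupp.linearCombination_apply] at this
      exact this.symm
    rw [h1]
    have hsub : (r i).support ⊆ Finset.univ.biUnion fun i => (r i).support :=
      Finset.subset_biUnion_of_mem (fun i => (r i).support) (Finset.mem_univ i)
    rw [Finset.sum_subset hsub]
    · refine Finset.sum_congr rfl fun s _ => ?_
      rw [Rat.smul_def]
    · intro s _ hs
      rw [Finsupp.notMem_support_iff.mp hs, zero_smul]

/-- **A complex solution of an integral linear system is a complex combination of integral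
solutions.** -/
theorem s35nl_span (𝓕 : Set (I → ℤ)) (c : I → ℂ)
    (hc : ∀ F ∈ 𝓕, ∑ i, c i * (F i : ℂ) = 0) :
    ∃ (J : Type) (T : Finset J) (y : J → I → ℤ) (d : J → ℂ),
      (∀ s, ∀ F ∈ 𝓕, ∑ i, y s i * F i = 0) ∧
      ∀ i, c i = ∑ s ∈ T, d s * (y s i : ℂ) := by
  classical
  obtain ⟨J, T, x, β, hx, hcx⟩ := s35nl_span_rat 𝓕 c hc
  -- clear the denominators
  have hden : ∀ s : J, ∃ (n : ℤ) (y : I → ℤ), n ≠ 0 ∧ ∀ i, (y i : ℚ) = (n : ℚ) * x s i := by
    intro s
    obtain ⟨n, hn⟩ := IsLocalization.exist_integer_multiples (nonZeroDivisors ℤ)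
      (Finset.univ : Finset I) (x s)
    have hy : ∀ i, ∃ z : ℤ, (z : ℚ) = ((n : ℤ) : ℚ) * x s i := by
      intro i
      obtain ⟨z, hz⟩ := hn i (Finset.mem_univ i)
      refine ⟨z, ?_⟩
      have h1 : algebraMap ℤ ℚ z = (n : ℤ) • x s i := hz
      rw [zsmul_eq_mul] at h1
      rw [← h1]
      rfl
    choose y hy using hy
    exact ⟨(n : ℤ), y, nonZeroDivisors.coe_ne_zero n, hy⟩
  choose n y hn hy using hden
  refine ⟨J, T, y, fun s => β s / (n s : ℂ), ?_, ?_⟩
  · intro s F hF
    have h1 := hx s F hF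
    have h2 : ((∑ i, y s i * F i : ℤ) : ℚ) = 0 := by
      push_cast
      have : ∑ i, (y s i : ℚ) * (F i : ℚ) = (n s : ℚ) * ∑ i, x s i * (F i : ℚ) := by
        rw [Finset.mul_sum]
        refine Finset.sum_congr rfl fun i _ => ?_
        rw [hy s i]
        ring
      rw [this, h1, mul_zero]
    exact_mod_cast h2
  · intro i
    rw [hcx i]
    refine Finset.sum_congr rfl fun s _ => ?_
    have hn0 : (n s : ℂ) ≠ 0 := by exact_mod_cast hn s
    have h3 : ((y s i : ℤ) : ℂ) = (n s : ℂ) * (x s i : ℂ) := by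
      have := congrArg (fun t : ℚ => (t : ℂ)) (hy s i)
      simpa using this
    rw [h3]
    field_simp

end Span

section Flat

/-- `ℂ` is flat over `ℤ`. -/
theorem s35nl_flat : Module.Flat ℤ ℂ := by
  rw [Module.Flat.flat_iff_torsion_eq_bot_of_isBezout,
    ← Submodule.isTorsionFree_iff_torsion_eq_bot]
  infer_instance

/-- Base change to `ℂ` preserves injectivity. -/
theorem s35nl_baseChange_injective {L L' : Type*} [AddCommGroup L] [AddCommGroup L']
    (f : L →ₗ[ℤ] L') (hf : Function.Injective f) :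
    Function.Injective (LinearMap.baseChange ℂ f) := by
  haveI := s35nl_flat
  have h := Module.Flat.lTensor_preserves_injective_linearMap (M := ℂ) f hf
  intro a b hab
  apply h
  simpa [LinearMap.baseChange_eq_ltensor] using hab

end Flat

end Fermat.Agent.S35
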