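/-
S35, leaf [COR-HECKE], abstract part (owner: helper11).  Prefix `s35c_`.  Mathlib only.

THE COMMUTATION of the operator of a double coset `ι₁ G₁ * ρ₀ * ι₂ G₂` with two Hecke data `H₁`
(on `G₁`) and `H₂` (on `G₂`) which have the same representatives `h x`:

    op (dc ρ₀) (op H₁ ψ) = op H₂ (op (dc ρ₀) ψ),

under the hypotheses
  (ha)  the cosets `ι₂ G₂ * h x` are pairwise distinct;
  (ha') `ρ₀⁻¹ * ι₁ G₁ * ρ₀ ⊆ ι₂ G₂`;   (he) `ι₁ G₁ ⊆ ι₂ G₂`;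
  (hb)  `h x * ρ₀ ∈ ρ₀ * ι₂ G₂ * h x₀` for some `x₀`;
  (hc)  `h x₁ * ρ₀ * ι₂ s ∈ ι₁ G₁ * h x₂ * ρ₀` only for `s` in the subgroup of the double coset.
Both sides are operators of data with representatives `h x * ρ_c` resp. `ρ_c * h x`, and the
operator depends only on the cosets (`s35c_op_eq_of_inj`).
-/
import Mathlib
import Fermat.Agent.S35.CorAbs

set_option autoImplicit false
set_option linter.unusedSectionVars false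
set_option linter.unusedVariables false
set_option linter.style.haveILetI false

namespace Fermat.Agent.S35

section Comm

variable {𝔾 : Type*} [Group 𝔾] {G₁ G₂ : Type*} [Group G₁] [Group G₂]
  {ι₁ : G₁ →* 𝔾} {ι₂ : G₂ →* 𝔾}

/-- Every `ρ₀ * ι₂ g` lies in one of the cosets `ι₁ G₁ * rep c` of the double coset. -/
theorem s35c_dc_exists (ι₁ : G₁ →* 𝔾) (ι₂ : G₂ →* 𝔾) (ρ₀ : 𝔾) (g : G₂) :
    ∃ (c : G₂ ⧸ s35c_dcSub ι₁ ι₂ ρ₀) (k : G₁), ρ₀ * ι₂ g = ι₁ k * s35c_dcRep ι₁ ι₂ ρ₀ c := by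
  obtain ⟨m, hm⟩ := QuotientGroup.mk_out_eq_mul (s35c_dcSub ι₁ ι₂ ρ₀) g⁻¹
  obtain ⟨h, hh⟩ := (s35c_dcSub ι₁ ι₂ ρ₀).inv_mem m.2
  refine ⟨(QuotientGroup.mk g⁻¹ : G₂ ⧸ s35c_dcSub ι₁ ι₂ ρ₀), h⁻¹, ?_⟩
  unfold s35c_dcRep
  rw [hm]
  have e1 : (g⁻¹ * (m : G₂))⁻¹ = (m : G₂)⁻¹ * g := by group
  have e2 : ρ₀ * ι₂ ((g⁻¹ * (m : G₂))⁻¹) = ι₁ h * (ρ₀ * ι₂ g) := by
    rw [e1, map_mul, ← mul_assoc, hh, mul_assoc]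
  rw [e2, map_inv, inv_mul_cancel_left]

variable (hι₁ : Function.Injective ι₁) (ρ₀ : 𝔾) {X : Type*}
  (H₁ : s35c_Datum ι₁ ι₁ X) (H₂ : s35c_Datum ι₂ ι₂ X)

/-- The cosets of the composite `ρ_c * h x` are pairwise distinct. -/
theorem s35c_comm_inj₂
    (ha : ∀ x y : X, (∃ g : G₂, H₂.rep x * (H₂.rep y)⁻¹ = ι₂ g) → x = y)
    (ha' : ∀ k : G₁, ∃ g : G₂, ι₁ k * ρ₀ = ρ₀ * ι₂ g)
    (p p' : (G₂ ⧸ s35c_dcSub ι₁ ι₂ ρ₀) × X)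
    (h : ∃ k : G₁, ((s35c_dc hι₁ ι₂ ρ₀).comp H₂).rep p *
      (((s35c_dc hι₁ ι₂ ρ₀).comp H₂).rep p')⁻¹ = ι₁ k) : p = p' := by
  obtain ⟨k, hk⟩ := h
  obtain ⟨c, x⟩ := p
  obtain ⟨c', x'⟩ := p'
  rw [s35c_Datum.comp_rep, s35c_Datum.comp_rep] at hk
  simp only [s35c_dc_rep] at hk
  obtain ⟨g, hg⟩ := ha' k
  have hx : x = x' := by
    apply ha
    refine ⟨c.out * g * (c'.out)⁻¹, ?_⟩
    have h1 : H₂.rep x * (H₂.rep x')⁻¹ =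
        (ρ₀ * ι₂ (c.out)⁻¹)⁻¹ * ι₁ k * (ρ₀ * ι₂ (c'.out)⁻¹) := by
      rw [← hk]
      group
    rw [h1, map_mul, map_mul, map_inv, map_inv]
    have h2 : ι₁ k = ρ₀ * ι₂ g * ρ₀⁻¹ := by
      rw [← hg, mul_inv_cancel_right]
    rw [h2]
    group
  subst hx
  have hc : c = c' := by
    apply s35c_dcRep_inj ι₁ ι₂ ρ₀
    refine ⟨k, ?_⟩
    unfold s35c_dcRep
    rw [← hk]
    group
  rw [hc]

/-- The cosets of the composite `h x * ρ_c` are pairwise distinct. -/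
theorem s35c_comm_inj₁ (hrep : ∀ x, H₁.rep x = H₂.rep x)
    (ha : ∀ x y : X, (∃ g : G₂, H₂.rep x * (H₂.rep y)⁻¹ = ι₂ g) → x = y)
    (he : ∀ k : G₁, ∃ g : G₂, ι₁ k = ι₂ g)
    (hc : ∀ (x₁ x₂ : X) (s : G₂) (k : G₁),
      H₂.rep x₁ * ρ₀ * ι₂ s = ι₁ k * H₂.rep x₂ * ρ₀ → s ∈ s35c_dcSub ι₁ ι₂ ρ₀)
    (p p' : X × (G₂ ⧸ s35c_dcSub ι₁ ι₂ ρ₀))
    (h : ∃ k : G₁, (H₁.comp (s35c_dc hι₁ ι₂ ρ₀)).rep p *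
      ((H₁.comp (s35c_dc hι₁ ι₂ ρ₀)).rep p')⁻¹ = ι₁ k) : p = p' := by
  obtain ⟨k, hk⟩ := h
  obtain ⟨x, c⟩ := p
  obtain ⟨x', c'⟩ := p'
  rw [s35c_Datum.comp_rep, s35c_Datum.comp_rep] at hk
  simp only [s35c_dc_rep, hrep] at hk
  have hk' : H₂.rep x * (ρ₀ * ι₂ (c.out)⁻¹) =
      ι₁ k * (H₂.rep x' * (ρ₀ * ι₂ (c'.out)⁻¹)) := mul_inv_eq_iff_eq_mul.mp hk
  have h1 : H₂.rep x * ρ₀ * ι₂ ((c.out)⁻¹ * c'.out) = ι₁ k * H₂.rep x' * ρ₀ := by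
    calc H₂.rep x * ρ₀ * ι₂ ((c.out)⁻¹ * c'.out)
        = H₂.rep x * (ρ₀ * ι₂ (c.out)⁻¹) * ι₂ c'.out := by
          rw [map_mul]
          simp only [mul_assoc]
      _ = ι₁ k * (H₂.rep x' * (ρ₀ * ι₂ (c'.out)⁻¹)) * ι₂ c'.out := by rw [hk']
      _ = ι₁ k * H₂.rep x' * ρ₀ := by
          rw [map_inv]
          simp only [mul_assoc, inv_mul_cancel, mul_one]
  have hs := hc x x' _ k h1
  have hcc : c = c' := by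
    have h2 : (QuotientGroup.mk c.out : G₂ ⧸ s35c_dcSub ι₁ ι₂ ρ₀) = QuotientGroup.mk c'.out :=
      QuotientGroup.eq.mpr hs
    rwa [QuotientGroup.out_eq', QuotientGroup.out_eq'] at h2
  subst hcc
  have hx : x = x' := by
    apply ha
    obtain ⟨g, hg⟩ := he k
    refine ⟨g, ?_⟩
    rw [← hg, ← hk]
    group
  rw [hx]

/-- Every coset `ι₁ G₁ * h x * ρ_c` is a coset `ι₁ G₁ * ρ_c' * h x'`. -/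
theorem s35c_comm_exists (hrep : ∀ x, H₁.rep x = H₂.rep x)
    (hb : ∀ x : X, ∃ (g₀ : G₂) (x₀ : X), H₂.rep x * ρ₀ = ρ₀ * ι₂ g₀ * H₂.rep x₀)
    (p : X × (G₂ ⧸ s35c_dcSub ι₁ ι₂ ρ₀)) :
    ∃ (p' : (G₂ ⧸ s35c_dcSub ι₁ ι₂ ρ₀) × X) (k : G₁),
      ((s35c_dc hι₁ ι₂ ρ₀).comp H₂).rep p' = ι₁ k * (H₁.comp (s35c_dc hι₁ ι₂ ρ₀)).rep p := by
  obtain ⟨x, c⟩ := p
  obtain ⟨g₀, x₀, h0⟩ := hb x
  have hs := H₂.spec (c.out)⁻¹ x₀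
  obtain ⟨c', k, hk⟩ := s35c_dc_exists ι₁ ι₂ ρ₀ (g₀ * H₂.coc (c.out)⁻¹ x₀)
  refine ⟨(c', H₂.act (c.out)⁻¹ x₀), k⁻¹, ?_⟩
  rw [s35c_Datum.comp_rep, s35c_Datum.comp_rep]
  simp only [s35c_dc_rep, hrep]
  have h1 : H₂.rep x * (ρ₀ * ι₂ (c.out)⁻¹) =
      ρ₀ * ι₂ (g₀ * H₂.coc (c.out)⁻¹ x₀) * H₂.rep (H₂.act (c.out)⁻¹ x₀) := by
    rw [← mul_assoc, h0, mul_assoc, hs, map_mul]
    group
  rw [h1, hk]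
  unfold s35c_dcRep
  rw [map_inv (f := ι₁) k]
  simp only [mul_assoc, inv_mul_cancel_left]

/-- **The abstract commutation theorem.** -/
theorem s35c_comm_abs [Fintype X] [Fintype (G₂ ⧸ s35c_dcSub ι₁ ι₂ ρ₀)]
    (hrep : ∀ x, H₁.rep x = H₂.rep x)
    (ha : ∀ x y : X, (∃ g : G₂, H₂.rep x * (H₂.rep y)⁻¹ = ι₂ g) → x = y)
    (ha' : ∀ k : G₁, ∃ g : G₂, ι₁ k * ρ₀ = ρ₀ * ι₂ g)
    (he : ∀ k : G₁, ∃ g : G₂, ι₁ k = ι₂ g)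
    (hb : ∀ x : X, ∃ (g₀ : G₂) (x₀ : X), H₂.rep x * ρ₀ = ρ₀ * ι₂ g₀ * H₂.rep x₀)
    (hc : ∀ (x₁ x₂ : X) (s : G₂) (k : G₁),
      H₂.rep x₁ * ρ₀ * ι₂ s = ι₁ k * H₂.rep x₂ * ρ₀ → s ∈ s35c_dcSub ι₁ ι₂ ρ₀)
    {A : Type*} [AddCommGroup A] (ψ : Additive G₁ →+ A) :
    s35c_op (s35c_dc hι₁ ι₂ ρ₀) (s35c_op H₁ ψ) =
      s35c_op H₂ (s35c_op (s35c_dc hι₁ ι₂ ρ₀) ψ) := by
  rw [← s35c_op_comp, ← s35c_op_comp]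
  have hex := s35c_comm_exists hι₁ ρ₀ H₁ H₂ hrep hb
  choose e u hu using hex
  have hinj : Function.Injective e := by
    intro p p' hpp
    apply s35c_comm_inj₁ hι₁ ρ₀ H₁ H₂ hrep ha he hc
    refine ⟨(u p)⁻¹ * u p', ?_⟩
    have h1 := hu p
    have h2 := hu p'
    rw [hpp] at h1
    have h3 : (H₁.comp (s35c_dc hι₁ ι₂ ρ₀)).rep p =
        (ι₁ (u p))⁻¹ * (ι₁ (u p') * (H₁.comp (s35c_dc hι₁ ι₂ ρ₀)).rep p') := by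
      rw [← h2, h1, inv_mul_cancel_left]
    rw [h3, map_mul, map_inv]
    group
  have hcard : Fintype.card (X × (G₂ ⧸ s35c_dcSub ι₁ ι₂ ρ₀)) =
      Fintype.card ((G₂ ⧸ s35c_dcSub ι₁ ι₂ ρ₀) × X) := by
    rw [Fintype.card_prod, Fintype.card_prod, mul_comm]
  exact (s35c_op_eq_of_inj hι₁ (H₁.comp (s35c_dc hι₁ ι₂ ρ₀)) ((s35c_dc hι₁ ι₂ ρ₀).comp H₂)
    (s35c_comm_inj₂ hι₁ ρ₀ H₂ ha ha') hcard e hinj u hu ψ).symm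

end Comm

end Fermat.Agent.S35
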