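/-
S35, leaf [COR-HECKE] (owner: helper11).  Prefix `s35c_`.

THE TRANSFERS COMMUTE WITH THE HECKE OPERATORS: for a prime `ℓ ∤ M q`,

    s35c_corA M q (s29lat_heckeHom (M * q) ℓ _ ψ) = s29lat_heckeHom M ℓ _ (s35c_corA M q ψ)
    s35c_corB M q (s29lat_heckeHom (M * q) ℓ _ ψ) = s29lat_heckeHom M ℓ _ (s35c_corB M q ψ)

for every homomorphism `ψ : Γ₀(M q) → A` into an abelian group.
-/
import Mathlib
import Fermat.Agent.S35.CorMat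
import Fermat.Agent.S35.CorComm

set_option autoImplicit false
set_option linter.unusedSectionVars false
set_option linter.unusedVariables false
set_option linter.style.haveILetI false

namespace Fermat.Agent.S35

open CongruenceSubgroup Matrix.SpecialLinearGroup ModularCurve.Period
open scoped MatrixGroups
open P2MW.S_ModularForm_heckeT_slash_eq_self_of_mem_Gamma0.ModularForm.HeckeSlashInvariance
open Fermat.Agent.S29 Fermat.Agent.S22ES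

section Common

variable (M q ℓ : ℕ) [Fact ℓ.Prime]

theorem s35c_not_dvd_left (hℓ : ¬ ℓ ∣ M * q) : ¬ ℓ ∣ M :=
  fun h => hℓ (dvd_mul_of_dvd_left h q)

theorem s35c_coprime_mul (hℓ : ¬ ℓ ∣ M * q) : IsCoprime (ℓ : ℤ) ((M * q : ℕ) : ℤ) :=
  Nat.isCoprime_iff_coprime.mpr ((Nat.Prime.coprime_iff_not_dvd Fact.out).mpr hℓ)

theorem s35c_coprime_right (hℓ : ¬ ℓ ∣ M * q) : IsCoprime (ℓ : ℤ) (q : ℤ) :=
  Nat.isCoprime_iff_coprime.mpr ((Nat.Prime.coprime_iff_not_dvd Fact.out).mpr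
    (fun h => hℓ (dvd_mul_of_dvd_right h M)))

/-- (he) `Γ₀(M q) ⊆ Γ₀(M)`. -/
theorem s35c_he (k : Gamma0 (M * q)) : ∃ g : Gamma0 M, s35c_iota (M * q) k = s35c_iota M g :=
  ⟨⟨(k : SL(2, ℤ)), s35c_Gamma0_mul_le M q k.2⟩, rfl⟩

end Common

/-! ### The first transfer -/

section A

variable (M q ℓ : ℕ) [Fact ℓ.Prime]

theorem s35c_haA (k : Gamma0 (M * q)) :
    ∃ g : Gamma0 M, s35c_iota (M * q) k * 1 = 1 * s35c_iota M g :=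
  ⟨⟨(k : SL(2, ℤ)), s35c_Gamma0_mul_le M q k.2⟩, by rw [mul_one, one_mul]; rfl⟩

theorem s35c_hbA (hℓM : ¬ ℓ ∣ M) (x : OnePoint (ZMod ℓ)) :
    ∃ (g₀ : Gamma0 M) (x₀ : OnePoint (ZMod ℓ)),
      (s35c_hecke M ℓ hℓM).rep x * 1 = 1 * s35c_iota M g₀ * (s35c_hecke M ℓ hℓM).rep x₀ :=
  ⟨1, x, by rw [map_one, mul_one, one_mul, one_mul]⟩

theorem s35c_hcA (hℓ : ¬ ℓ ∣ M * q) (hℓM : ¬ ℓ ∣ M) (x₁ x₂ : OnePoint (ZMod ℓ))
    (s : Gamma0 M) (k : Gamma0 (M * q))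
    (h : (s35c_hecke M ℓ hℓM).rep x₁ * 1 * s35c_iota M s =
      s35c_iota (M * q) k * (s35c_hecke M ℓ hℓM).rep x₂ * 1) :
    s ∈ s35c_dcSub (s35c_iota (M * q)) (s35c_iota M) 1 := by
  have hℓ0 : ℓ ≠ 0 := (Fact.out : ℓ.Prime).ne_zero
  rw [s35c_mem_dcSubA]
  apply s35c_mem_Gamma0_of_dvd
  rw [mul_one, mul_one, s35c_hecke_rep, s35c_hecke_rep, s35c_iota_apply, s35c_iota_apply] at h
  have h2 := congrArg (fun m : GL (Fin 2) ℝ => (m : Matrix (Fin 2) (Fin 2) ℝ)) h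
  simp only [Matrix.GeneralLinearGroup.coe_mul] at h2
  rw [s35c_heckeRep_val hℓ0, s35c_heckeRep_val hℓ0, s35c_mapGL_val, s35c_mapGL_val,
    Matrix.mul_fin_two, Matrix.mul_fin_two, s35c_mat2_eq_iff] at h2
  obtain ⟨-, -, e10, -⟩ := h2
  simp only [zero_mul, zero_add, mul_zero, add_zero] at e10
  have i10 : heckeRepD ℓ x₁ * (s : SL(2, ℤ)) 1 0 = (k : SL(2, ℤ)) 1 0 * heckeRepA ℓ x₂ := by
    exact_mod_cast e10
  have hk : ((M * q : ℕ) : ℤ) ∣ (k : SL(2, ℤ)) 1 0 := s35c_dvd_of_mem_Gamma0 k.2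
  have hdvd : ((M * q : ℕ) : ℤ) ∣ heckeRepD ℓ x₁ * (s : SL(2, ℤ)) 1 0 := by
    rw [i10]
    exact Dvd.dvd.mul_right hk _
  exact (s35c_heckeRepD_coprime hℓ0 x₁ (s35c_coprime_mul M q ℓ hℓ)).symm.dvd_of_dvd_mul_left
    hdvd

/-- **The first transfer commutes with `T_ℓ`, `ℓ ∤ M q`.** -/
theorem s35c_corA_hecke [NeZero M] [NeZero q] (hℓ : ¬ ℓ ∣ M * q) (hℓM : ¬ ℓ ∣ M)
    {A : Type*} [AddCommGroup A] (ψ : Additive (Gamma0 (M * q)) →+ A) :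
    s35c_corA M q (s29lat_heckeHom (M * q) ℓ hℓ ψ) =
      s29lat_heckeHom M ℓ hℓM (s35c_corA M q ψ) := by
  haveI := s35c_finite_XA M q
  letI := Fintype.ofFinite (s35c_XA M q)
  rw [s35c_corA_eq, s35c_corA_eq, ← s35c_op_hecke, ← s35c_op_hecke]
  exact s35c_comm_abs (s35c_iota_injective (M * q)) 1 (s35c_hecke (M * q) ℓ hℓ)
    (s35c_hecke M ℓ hℓM) (fun _ => rfl) (s35c_hecke_inj M ℓ hℓM) (s35c_haA M q)
    (s35c_he M q) (s35c_hbA M ℓ hℓM) (s35c_hcA M q ℓ hℓ hℓM) ψ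

end A

/-! ### The second transfer -/

section B

variable (M q ℓ : ℕ) [Fact ℓ.Prime]

/-- The matrix `(a, q b; e, d)` attached to `(a, b; q e, d)`. -/
def s35c_conjB' (q : ℕ) (k : SL(2, ℤ)) (e : ℤ) (he : k 1 0 = q * e) : SL(2, ℤ) :=
  ⟨!![k 0 0, q * k 0 1; e, k 1 1], by
    rw [Matrix.det_fin_two_of]
    have h := Matrix.SpecialLinearGroup.det_coe k
    rw [Matrix.det_fin_two] at h
    calc k 0 0 * k 1 1 - ↑q * k 0 1 * e = k 0 0 * k 1 1 - k 0 1 * (q * e) := by ring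
      _ = k 0 0 * k 1 1 - k 0 1 * k 1 0 := by rw [← he]
      _ = 1 := h⟩

theorem s35c_haB (hq : q ≠ 0) (k : Gamma0 (M * q)) :
    ∃ g : Gamma0 M, s35c_iota (M * q) k * s35c_rhoB q = s35c_rhoB q * s35c_iota M g := by
  obtain ⟨c, hc⟩ := s35c_dvd_of_mem_Gamma0 k.2
  have he : (k : SL(2, ℤ)) 1 0 = q * (M * c) := by
    rw [hc]
    push_cast
    ring
  have hmem : s35c_conjB' q (k : SL(2, ℤ)) (M * c) he ∈ Gamma0 M := by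
    apply s35c_mem_Gamma0_of_dvd
    show (M : ℤ) ∣ (!![(k : SL(2, ℤ)) 0 0, q * (k : SL(2, ℤ)) 0 1; M * c,
      (k : SL(2, ℤ)) 1 1] : Matrix (Fin 2) (Fin 2) ℤ) 1 0
    simp only [Matrix.of_apply, Matrix.cons_val', Matrix.cons_val_zero, Matrix.cons_val_one,
      Matrix.cons_val_fin_one]
    exact Dvd.intro _ rfl
  refine ⟨⟨s35c_conjB' q (k : SL(2, ℤ)) (M * c) he, hmem⟩, ?_⟩
  apply Units.ext
  simp only [Units.val_mul]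
  rw [s35c_iota_apply, s35c_iota_apply]
  show ((mapGL ℝ (k : SL(2, ℤ)) : GL (Fin 2) ℝ) : Matrix (Fin 2) (Fin 2) ℝ) *
      ((s35c_rhoB q : GL (Fin 2) ℝ) : Matrix (Fin 2) (Fin 2) ℝ) =
    ((s35c_rhoB q : GL (Fin 2) ℝ) : Matrix (Fin 2) (Fin 2) ℝ) *
      ((mapGL ℝ (s35c_conjB' q (k : SL(2, ℤ)) (M * c) he) : GL (Fin 2) ℝ) :
        Matrix (Fin 2) (Fin 2) ℝ)
  rw [s35c_rhoB_val hq, s35c_mapGL_val, s35c_mapGL_val, Matrix.mul_fin_two, Matrix.mul_fin_two,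
    s35c_mat2_eq_iff]
  have h10 : (((k : SL(2, ℤ)) 1 0 : ℤ) : ℝ) = (q : ℝ) * ((M : ℝ) * (c : ℝ)) := by
    exact_mod_cast he
  refine ⟨?_, ?_, ?_, ?_⟩ <;> simp [s35c_conjB', h10] <;> ring

theorem s35c_hbB (hq : q ≠ 0) (hℓM : ¬ ℓ ∣ M) (x : OnePoint (ZMod ℓ)) :
    ∃ (g₀ : Gamma0 M) (x₀ : OnePoint (ZMod ℓ)),
      (s35c_hecke M ℓ hℓM).rep x * s35c_rhoB q =
        s35c_rhoB q * s35c_iota M g₀ * (s35c_hecke M ℓ hℓM).rep x₀ := by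
  have hℓ0 : ℓ ≠ 0 := (Fact.out : ℓ.Prime).ne_zero
  induction x using OnePoint.rec with
  | infty =>
    refine ⟨1, OnePoint.infty, ?_⟩
    rw [map_one, mul_one]
    apply Units.ext
    simp only [Units.val_mul, s35c_hecke_rep]
    show ((heckeRep ℓ OnePoint.infty : GL (Fin 2) ℝ) : Matrix (Fin 2) (Fin 2) ℝ) *
        ((s35c_rhoB q : GL (Fin 2) ℝ) : Matrix (Fin 2) (Fin 2) ℝ) =
      ((s35c_rhoB q : GL (Fin 2) ℝ) : Matrix (Fin 2) (Fin 2) ℝ) *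
        ((heckeRep ℓ OnePoint.infty : GL (Fin 2) ℝ) : Matrix (Fin 2) (Fin 2) ℝ)
    rw [s35c_rhoB_val hq, s35c_heckeRep_val hℓ0, Matrix.mul_fin_two, Matrix.mul_fin_two,
      s35c_mat2_eq_iff]
    refine ⟨?_, ?_, ?_, ?_⟩ <;> simp [heckeRepA, heckeRepB, heckeRepD]
  | coe j =>
    set j' : ZMod ℓ := (q : ZMod ℓ) * j with hj'
    obtain ⟨m, hm⟩ : (ℓ : ℤ) ∣ (q : ℤ) * (j.val : ℤ) - (j'.val : ℤ) := by
      rw [← ZMod.intCast_zmod_eq_zero_iff_dvd]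
      push_cast
      rw [ZMod.natCast_zmod_val, ZMod.natCast_zmod_val, hj', sub_self]
    let g₀ : SL(2, ℤ) := ⟨!![1, m; 0, 1], by rw [Matrix.det_fin_two_of]; ring⟩
    have hg₀ : g₀ ∈ Gamma0 M := by
      apply s35c_mem_Gamma0_of_dvd
      show (M : ℤ) ∣ (!![1, m; 0, 1] : Matrix (Fin 2) (Fin 2) ℤ) 1 0
      simp
    refine ⟨⟨g₀, hg₀⟩, (↑j' : OnePoint (ZMod ℓ)), ?_⟩
    apply Units.ext
    simp only [Units.val_mul, s35c_hecke_rep]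
    rw [s35c_iota_apply]
    show ((heckeRep ℓ (↑j : OnePoint (ZMod ℓ)) : GL (Fin 2) ℝ) : Matrix (Fin 2) (Fin 2) ℝ) *
        ((s35c_rhoB q : GL (Fin 2) ℝ) : Matrix (Fin 2) (Fin 2) ℝ) =
      ((s35c_rhoB q : GL (Fin 2) ℝ) : Matrix (Fin 2) (Fin 2) ℝ) *
        ((mapGL ℝ g₀ : GL (Fin 2) ℝ) : Matrix (Fin 2) (Fin 2) ℝ) *
        ((heckeRep ℓ (↑j' : OnePoint (ZMod ℓ)) : GL (Fin 2) ℝ) : Matrix (Fin 2) (Fin 2) ℝ)
    rw [s35c_rhoB_val hq, s35c_heckeRep_val hℓ0, s35c_heckeRep_val hℓ0, s35c_mapGL_val,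
      Matrix.mul_fin_two, Matrix.mul_fin_two, Matrix.mul_fin_two, s35c_mat2_eq_iff]
    have hA : heckeRepA ℓ (↑j : OnePoint (ZMod ℓ)) = 1 := rfl
    have hB : heckeRepB ℓ (↑j : OnePoint (ZMod ℓ)) = (j.val : ℤ) := rfl
    have hD : heckeRepD ℓ (↑j : OnePoint (ZMod ℓ)) = (ℓ : ℤ) := rfl
    have hA' : heckeRepA ℓ (↑j' : OnePoint (ZMod ℓ)) = 1 := rfl
    have hB' : heckeRepB ℓ (↑j' : OnePoint (ZMod ℓ)) = (j'.val : ℤ) := rfl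
    have hD' : heckeRepD ℓ (↑j' : OnePoint (ZMod ℓ)) = (ℓ : ℤ) := rfl
    have hmR : (q : ℝ) * (j.val : ℝ) - (j'.val : ℝ) = (ℓ : ℝ) * (m : ℝ) := by
      exact_mod_cast hm
    rw [hA, hB, hD, hA', hB', hD']
    have e00 : ((g₀ 0 0 : ℤ) : ℝ) = 1 := by simp [g₀]
    have e01 : ((g₀ 0 1 : ℤ) : ℝ) = (m : ℝ) := by simp [g₀]
    have e10 : ((g₀ 1 0 : ℤ) : ℝ) = 0 := by simp [g₀]
    have e11 : ((g₀ 1 1 : ℤ) : ℝ) = 1 := by simp [g₀]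
    rw [e00, e01, e10, e11]
    refine ⟨?_, ?_, ?_, ?_⟩
    · push_cast; ring
    · push_cast; linear_combination hmR
    · push_cast; ring
    · push_cast; ring

theorem s35c_hcB (hq : q ≠ 0) (hℓ : ¬ ℓ ∣ M * q) (hℓM : ¬ ℓ ∣ M) (x₁ x₂ : OnePoint (ZMod ℓ))
    (s : Gamma0 M) (k : Gamma0 (M * q))
    (h : (s35c_hecke M ℓ hℓM).rep x₁ * s35c_rhoB q * s35c_iota M s =
      s35c_iota (M * q) k * (s35c_hecke M ℓ hℓM).rep x₂ * s35c_rhoB q) :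
    s ∈ s35c_dcSub (s35c_iota (M * q)) (s35c_iota M) (s35c_rhoB q) := by
  have hℓ0 : ℓ ≠ 0 := (Fact.out : ℓ.Prime).ne_zero
  rw [s35c_mem_dcSubB M q hq]
  rw [s35c_hecke_rep, s35c_hecke_rep, s35c_iota_apply, s35c_iota_apply] at h
  have h2 := congrArg (fun m : GL (Fin 2) ℝ => (m : Matrix (Fin 2) (Fin 2) ℝ)) h
  simp only [Matrix.GeneralLinearGroup.coe_mul] at h2
  rw [s35c_rhoB_val hq, s35c_heckeRep_val hℓ0, s35c_heckeRep_val hℓ0, s35c_mapGL_val,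
    s35c_mapGL_val, Matrix.mul_fin_two, Matrix.mul_fin_two, Matrix.mul_fin_two,
    Matrix.mul_fin_two, s35c_mat2_eq_iff] at h2
  obtain ⟨-, e01, -, -⟩ := h2
  have i01 : heckeRepA ℓ x₁ * (s : SL(2, ℤ)) 0 1 =
      (q : ℤ) * ((k : SL(2, ℤ)) 0 0 * heckeRepB ℓ x₂ + (k : SL(2, ℤ)) 0 1 * heckeRepD ℓ x₂
        - heckeRepB ℓ x₁ * (s : SL(2, ℤ)) 1 1) := by
    have : ((heckeRepA ℓ x₁ * (s : SL(2, ℤ)) 0 1 : ℤ) : ℝ) =
        (((q : ℤ) * ((k : SL(2, ℤ)) 0 0 * heckeRepB ℓ x₂ + (k : SL(2, ℤ)) 0 1 * heckeRepD ℓ x₂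
          - heckeRepB ℓ x₁ * (s : SL(2, ℤ)) 1 1) : ℤ) : ℝ) := by
      push_cast
      linear_combination e01
    exact_mod_cast this
  have hdvd : (q : ℤ) ∣ heckeRepA ℓ x₁ * (s : SL(2, ℤ)) 0 1 := ⟨_, i01⟩
  exact (s35c_heckeRepA_coprime hℓ0 x₁ (s35c_coprime_right M q ℓ hℓ)).symm.dvd_of_dvd_mul_left
    hdvd

/-- **The second transfer commutes with `T_ℓ`, `ℓ ∤ M q`.** -/
theorem s35c_corB_hecke [NeZero M] [NeZero q] (hℓ : ¬ ℓ ∣ M * q) (hℓM : ¬ ℓ ∣ M)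
    {A : Type*} [AddCommGroup A] (ψ : Additive (Gamma0 (M * q)) →+ A) :
    s35c_corB M q (s29lat_heckeHom (M * q) ℓ hℓ ψ) =
      s29lat_heckeHom M ℓ hℓM (s35c_corB M q ψ) := by
  haveI := s35c_finite_XB M q
  letI := Fintype.ofFinite (s35c_XB M q)
  rw [s35c_corB_eq, s35c_corB_eq, ← s35c_op_hecke, ← s35c_op_hecke]
  exact s35c_comm_abs (s35c_iota_injective (M * q)) (s35c_rhoB q) (s35c_hecke (M * q) ℓ hℓ)
    (s35c_hecke M ℓ hℓM) (fun _ => rfl) (s35c_hecke_inj M ℓ hℓM)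
    (s35c_haB M q (NeZero.ne q)) (s35c_he M q) (s35c_hbB M q ℓ (NeZero.ne q) hℓM)
    (s35c_hcB M q ℓ (NeZero.ne q) hℓ hℓM) ψ

end B

end Fermat.Agent.S35
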