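/-
S35, leaf [N-LAT], the lattice (owner: helper2).  Prefix `s35nl_`.

`Λ = parabolicHoms ℤ Γ₀(M) ℤ`.  THE LATTICE KILLED BY ALL TRANSFERS:

  `s35nl_Killed M ψ` : for every factorisation `M = M' q`, `q ∤ M'` prime, the two transfers
                       `s35c_corA M' q`, `s35c_corB M' q` of `ψ` to the level `M'` vanish;
  `s35nl_ker M`      : the submodule of the `c ∈ Λ` killed by all transfers.

* `s35nl_ker_saturated` : `n • c ∈ Λ'`, `n ≠ 0` ⟹ `c ∈ Λ'`;
* `s35nl_ker_hecke`     : `Λ'` is stable under `s29lat_T M ℓ`, `ℓ ∤ M` ([COR-HECKE], helper11);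
* `s35nl_ker_killed`    : the third clause of `s35_NLatStatement`, by definition.
-/
import Mathlib
import Fermat.Agent.S29.LatDefs
import Fermat.Agent.S29.LatHom
import Fermat.Agent.S35.NModDefs
import Fermat.Agent.S35.CorHecke

set_option autoImplicit false
set_option linter.unusedVariables false
set_option linter.unusedSectionVars false
set_option linter.style.haveILetI false

open ModularCurve ModularCurve.Period CongruenceSubgroup

noncomputable section

namespace Fermat.Agent.S35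

open Fermat.Agent.S29

/-- `ψ` is killed by the two transfers to every level `M'` with `M = M' q`, `q ∤ M'` prime. -/
def s35nl_Killed (M : ℕ) {A : Type*} [AddCommMonoid A] (ψ : Additive (Gamma0 M) →+ A) : Prop :=
  ∀ (M' q : ℕ) [NeZero M'] [NeZero q] (h : M = M' * q), q.Prime → ¬ q ∣ M' →
    s35c_corA M' q (s35_castG h ψ) = 0 ∧ s35c_corB M' q (s35_castG h ψ) = 0

theorem s35nl_killed_zero (M : ℕ) {A : Type*} [AddCommMonoid A] :
    s35nl_Killed M (0 : Additive (Gamma0 M) →+ A) := by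
  intro M' q _ _ h hq hqM
  simp only [map_zero, and_self]

theorem s35nl_killed_add (M : ℕ) {A : Type*} [AddCommMonoid A] {ψ ψ' : Additive (Gamma0 M) →+ A}
    (h1 : s35nl_Killed M ψ) (h2 : s35nl_Killed M ψ') : s35nl_Killed M (ψ + ψ') := by
  intro M' q _ _ h hq hqM
  obtain ⟨a1, b1⟩ := h1 M' q h hq hqM
  obtain ⟨a2, b2⟩ := h2 M' q h hq hqM
  simp only [map_add, a1, a2, b1, b2, add_zero, and_self]

theorem s35nl_killed_zsmul (M : ℕ) {A : Type*} [AddCommGroup A] {ψ : Additive (Gamma0 M) →+ A}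
    (h1 : s35nl_Killed M ψ) (n : ℤ) : s35nl_Killed M (n • ψ) := by
  intro M' q _ _ h hq hqM
  obtain ⟨a1, b1⟩ := h1 M' q h hq hqM
  simp only [map_zsmul, a1, b1, smul_zero, and_self]

theorem s35nl_killed_sum (M : ℕ) {A : Type*} [AddCommMonoid A] {J : Type*} (T : Finset J)
    (ψ : J → Additive (Gamma0 M) →+ A) (h : ∀ s ∈ T, s35nl_Killed M (ψ s)) :
    s35nl_Killed M (∑ s ∈ T, ψ s) := by
  classical
  induction T using Finset.induction_on with
  | empty => simpa using s35nl_killed_zero M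
  | insert a T ha ih =>
    rw [Finset.sum_insert ha]
    exact s35nl_killed_add M (h a (Finset.mem_insert_self a T))
      (ih fun s hs => h s (Finset.mem_insert_of_mem hs))

/-- Integer valued homomorphisms: division by a non-zero integer. -/
theorem s35nl_hom_torsionFree {G : Type*} [AddZeroClass G] (n : ℕ) (hn : n ≠ 0)
    (ψ : G →+ ℤ) (h : n • ψ = 0) : ψ = 0 := by
  refine AddMonoidHom.ext fun γ => ?_
  have h1 := DFunLike.congr_fun h γ
  simp only [AddMonoidHom.coe_smul, Pi.smul_apply, AddMonoidHom.zero_apply,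
    nsmul_eq_mul, mul_eq_zero, Nat.cast_eq_zero] at h1
  rcases h1 with h1 | h1
  · exact absurd h1 hn
  · simpa using h1

theorem s35nl_killed_of_nsmul (M : ℕ) {ψ : Additive (Gamma0 M) →+ ℤ} (n : ℕ) (hn : n ≠ 0)
    (h1 : s35nl_Killed M (n • ψ)) : s35nl_Killed M ψ := by
  intro M' q _ _ h hq hqM
  obtain ⟨a1, b1⟩ := h1 M' q h hq hqM
  rw [map_nsmul, map_nsmul] at a1 b1
  exact ⟨s35nl_hom_torsionFree n hn _ a1, s35nl_hom_torsionFree n hn _ b1⟩

/-- The Hecke operators `T_ℓ`, `ℓ ∤ M`, preserve the homomorphisms killed by all transfers. -/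
theorem s35nl_killed_hecke (M : ℕ) {A : Type*} [AddCommGroup A] (ℓ : ℕ) [Fact ℓ.Prime]
    (hℓM : ¬ ℓ ∣ M) {ψ : Additive (Gamma0 M) →+ A} (h1 : s35nl_Killed M ψ) :
    s35nl_Killed M (s29lat_heckeHom M ℓ hℓM ψ) := by
  intro M' q _ _ h hq hqM
  subst h
  obtain ⟨a1, b1⟩ := h1 M' q rfl hq hqM
  rw [s35_castG_rfl] at a1 b1 ⊢
  have hℓM' : ¬ ℓ ∣ M' := s35c_not_dvd_left M' q ℓ hℓM
  rw [s35c_corA_hecke M' q ℓ hℓM hℓM', s35c_corB_hecke M' q ℓ hℓM hℓM', a1, b1,
    s29lat_heckeHom_zero]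
  exact ⟨rfl, rfl⟩

/-- **The lattice killed by all transfers.** -/
def s35nl_ker (M : ℕ) : Submodule ℤ ↥(parabolicHoms ℤ (Gamma0 M) ℤ) where
  carrier := {c | s35nl_Killed M (c : Additive (Gamma0 M) →+ ℤ)}
  zero_mem' := s35nl_killed_zero M
  add_mem' := fun {a b} ha hb => s35nl_killed_add M ha hb
  smul_mem' := fun n {a} ha => s35nl_killed_zsmul M ha n

theorem s35nl_mem_ker {M : ℕ} (c : ↥(parabolicHoms ℤ (Gamma0 M) ℤ)) :
    c ∈ s35nl_ker M ↔ s35nl_Killed M (c : Additive (Gamma0 M) →+ ℤ) := Iff.rfl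

/-- `Λ'` is saturated. -/
theorem s35nl_ker_saturated (M : ℕ) (n : ℕ) (c : ↥(parabolicHoms ℤ (Gamma0 M) ℤ)) (hn : n ≠ 0)
    (h : n • c ∈ s35nl_ker M) : c ∈ s35nl_ker M := by
  rw [s35nl_mem_ker] at h ⊢
  exact s35nl_killed_of_nsmul M n hn h

/-- `Λ'` is stable under the Hecke operators `T_ℓ`, `ℓ ∤ M`. -/
theorem s35nl_ker_hecke (M : ℕ) (ℓ : ℕ) [Fact ℓ.Prime] (hℓM : ¬ ℓ ∣ M)
    (c : ↥(parabolicHoms ℤ (Gamma0 M) ℤ)) (hc : c ∈ s35nl_ker M) :
    s29lat_T M ℓ hℓM c ∈ s35nl_ker M := by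
  rw [s35nl_mem_ker] at hc ⊢
  rw [s29lat_T_coe]
  exact s35nl_killed_hecke M ℓ hℓM hc

/-- `Λ'` is killed by all transfers (the third clause of `s35_NLatStatement`). -/
theorem s35nl_ker_killed (M : ℕ) (c : ↥(parabolicHoms ℤ (Gamma0 M) ℤ)) (hc : c ∈ s35nl_ker M)
    (M' q : ℕ) [NeZero M'] [NeZero q] (h : M = M' * q) (hq : q.Prime) (hqM : ¬ q ∣ M') :
    s35c_corA M' q (s35_castG h (c : Additive (Gamma0 M) →+ ℤ)) = 0 ∧
      s35c_corB M' q (s35_castG h (c : Additive (Gamma0 M) →+ ℤ)) = 0 :=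
  hc M' q h hq hqM

end Fermat.Agent.S35
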