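/-
S35, leaf [COR], finiteness (owner: helper11).  Prefix `s35c_`.

* `s35c_mem_dcSubA` : `g ∈ Γ₀(M)` lies in the subgroup of the first transfer iff `g ∈ Γ₀(M q)`;
* `s35c_mem_dcSubB` : `g ∈ Γ₀(M)` lies in the subgroup of the second transfer iff `q ∣ g 0 1`;
* `s35c_finite_XA`, `s35c_finite_XB` : the index sets are finite;
* entry calculus for products with upper triangular matrices in `GL₂(ℝ)`.
-/
import Mathlib
import Fermat.Agent.S35.Cor

set_option autoImplicit false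
set_option linter.unusedSectionVars false
set_option linter.unusedVariables false
set_option linter.style.haveILetI false

namespace Fermat.Agent.S35

open CongruenceSubgroup Matrix.SpecialLinearGroup
open scoped MatrixGroups

/-- The entries of `mapGL ℝ g`. -/
theorem s35c_mapGL_apply (g : SL(2, ℤ)) (i j : Fin 2) :
    ((mapGL ℝ g : GL (Fin 2) ℝ) : Matrix (Fin 2) (Fin 2) ℝ) i j = ((g i j : ℤ) : ℝ) := by
  rw [mapGL_coe_matrix]
  rfl

/-- An equation in `GL₂(ℝ)` is an equation of matrices. -/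
theorem s35c_gl_ext_iff (a b : GL (Fin 2) ℝ) :
    a = b ↔ ∀ i j, (a : Matrix (Fin 2) (Fin 2) ℝ) i j = (b : Matrix (Fin 2) (Fin 2) ℝ) i j := by
  constructor
  · rintro rfl i j
    rfl
  · intro h
    exact Units.ext (Matrix.ext h)

theorem s35c_dvd_of_mem_Gamma0 {N : ℕ} {g : SL(2, ℤ)} (hg : g ∈ Gamma0 N) : (N : ℤ) ∣ g 1 0 :=
  (ZMod.intCast_zmod_eq_zero_iff_dvd _ _).mp (Gamma0_mem.mp hg)

theorem s35c_mem_Gamma0_of_dvd {N : ℕ} {g : SL(2, ℤ)} (hg : (N : ℤ) ∣ g 1 0) : g ∈ Gamma0 N :=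
  Gamma0_mem.mpr ((ZMod.intCast_zmod_eq_zero_iff_dvd _ _).mpr hg)

theorem s35c_Gamma0_mul_le (M q : ℕ) : Gamma0 (M * q) ≤ Gamma0 M := by
  intro g hg
  apply s35c_mem_Gamma0_of_dvd
  refine dvd_trans ?_ (s35c_dvd_of_mem_Gamma0 hg)
  exact_mod_cast dvd_mul_right M q

/-- The subgroup of the first transfer is `Γ₀(M q)`. -/
theorem s35c_mem_dcSubA (M q : ℕ) (g : Gamma0 M) :
    g ∈ s35c_dcSub (s35c_iota (M * q)) (s35c_iota M) 1 ↔ (g : SL(2, ℤ)) ∈ Gamma0 (M * q) := by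
  constructor
  · rintro ⟨h, hh⟩
    rw [one_mul, mul_one, s35c_iota_apply, s35c_iota_apply] at hh
    have := mapGL_injective (R := ℤ) (S := ℝ) hh
    rw [this]
    exact h.2
  · intro hg
    refine ⟨⟨(g : SL(2, ℤ)), hg⟩, ?_⟩
    rw [one_mul, mul_one]
    rfl

/-- The matrix `(a, e; q c, d)` attached to `(a, q e; c, d)`. -/
def s35c_conjB (q : ℕ) (g : SL(2, ℤ)) (e : ℤ) (he : g 0 1 = q * e) : SL(2, ℤ) :=
  ⟨!![g 0 0, e; q * g 1 0, g 1 1], by
    rw [Matrix.det_fin_two_of]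
    have h := Matrix.SpecialLinearGroup.det_coe g
    rw [Matrix.det_fin_two] at h
    calc g 0 0 * g 1 1 - e * (↑q * g 1 0) = g 0 0 * g 1 1 - (q * e) * g 1 0 := by ring
      _ = g 0 0 * g 1 1 - g 0 1 * g 1 0 := by rw [← he]
      _ = 1 := h⟩

/-- The subgroup of the second transfer is `Γ₀(M) ∩ Γ⁰(q)`. -/
theorem s35c_mem_dcSubB (M q : ℕ) (hq : q ≠ 0) (g : Gamma0 M) :
    g ∈ s35c_dcSub (s35c_iota (M * q)) (s35c_iota M) (s35c_rhoB q) ↔
      (q : ℤ) ∣ (g : SL(2, ℤ)) 0 1 := by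
  constructor
  · rintro ⟨h, hh⟩
    rw [s35c_gl_ext_iff] at hh
    have h01 := hh 0 1
    rw [Matrix.GeneralLinearGroup.coe_mul, Matrix.GeneralLinearGroup.coe_mul,
      Matrix.mul_apply, Matrix.mul_apply, Fin.sum_univ_two, Fin.sum_univ_two,
      s35c_rhoB_val hq, s35c_iota_apply, s35c_iota_apply, s35c_mapGL_apply, s35c_mapGL_apply,
      s35c_mapGL_apply, s35c_mapGL_apply] at h01
    simp only [Matrix.of_apply, Matrix.cons_val', Matrix.cons_val_zero, Matrix.cons_val_one,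
      Matrix.cons_val_fin_one, one_mul, zero_mul, add_zero, mul_zero, zero_add] at h01
    refine ⟨(h : SL(2, ℤ)) 0 1, ?_⟩
    have h2 : (((g : SL(2, ℤ)) 0 1 : ℤ) : ℝ) = (((q : ℤ) * (h : SL(2, ℤ)) 0 1 : ℤ) : ℝ) := by
      push_cast
      rw [h01]
      ring
    exact_mod_cast h2
  · rintro ⟨e, he⟩
    have hmem : s35c_conjB q (g : SL(2, ℤ)) e he ∈ Gamma0 (M * q) := by
      apply s35c_mem_Gamma0_of_dvd
      show ((M * q : ℕ) : ℤ) ∣ (!![(g : SL(2, ℤ)) 0 0, e; q * (g : SL(2, ℤ)) 1 0,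
        (g : SL(2, ℤ)) 1 1] : Matrix (Fin 2) (Fin 2) ℤ) 1 0
      simp only [Matrix.of_apply, Matrix.cons_val', Matrix.cons_val_zero, Matrix.cons_val_one,
        Matrix.cons_val_fin_one]
      obtain ⟨c, hc⟩ := s35c_dvd_of_mem_Gamma0 g.2
      refine ⟨c, ?_⟩
      rw [hc]
      push_cast
      ring
    refine ⟨⟨s35c_conjB q (g : SL(2, ℤ)) e he, hmem⟩, ?_⟩
    rw [s35c_gl_ext_iff]
    intro i j
    rw [Matrix.GeneralLinearGroup.coe_mul, Matrix.GeneralLinearGroup.coe_mul,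
      Matrix.mul_apply, Matrix.mul_apply, Fin.sum_univ_two, Fin.sum_univ_two,
      s35c_rhoB_val hq, s35c_iota_apply, s35c_iota_apply, s35c_mapGL_apply, s35c_mapGL_apply,
      s35c_mapGL_apply, s35c_mapGL_apply]
    have h01 : (((g : SL(2, ℤ)) 0 1 : ℤ) : ℝ) = (q : ℝ) * (e : ℝ) := by exact_mod_cast he
    fin_cases i <;> fin_cases j <;>
      simp [s35c_conjB, h01] <;> ring

/-- The index set of the first transfer is finite. -/
theorem s35c_finite_XA (M q : ℕ) [NeZero M] [NeZero q] : Finite (s35c_XA M q) := by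
  haveI : NeZero (M * q) := ⟨Nat.mul_ne_zero (NeZero.ne M) (NeZero.ne q)⟩
  have hle : (Gamma0 (M * q)).subgroupOf (Gamma0 M) ≤
      s35c_dcSub (s35c_iota (M * q)) (s35c_iota M) 1 := by
    intro g hg
    exact (s35c_mem_dcSubA M q g).mpr (Subgroup.mem_subgroupOf.mp hg)
  haveI : (s35c_dcSub (s35c_iota (M * q)) (s35c_iota M) 1).FiniteIndex :=
    Subgroup.finiteIndex_of_le hle
  exact Subgroup.finite_quotient_of_finiteIndex

/-- The index set of the second transfer is finite. -/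
theorem s35c_finite_XB (M q : ℕ) [NeZero M] [NeZero q] : Finite (s35c_XB M q) := by
  have hle : (Gamma q).subgroupOf (Gamma0 M) ≤
      s35c_dcSub (s35c_iota (M * q)) (s35c_iota M) (s35c_rhoB q) := by
    intro g hg
    have hg' : (g : SL(2, ℤ)) ∈ Gamma q := Subgroup.mem_subgroupOf.mp hg
    rw [s35c_mem_dcSubB M q (NeZero.ne q)]
    exact (ZMod.intCast_zmod_eq_zero_iff_dvd _ _).mp (Gamma_mem.mp hg').2.1
  haveI : (s35c_dcSub (s35c_iota (M * q)) (s35c_iota M) (s35c_rhoB q)).FiniteIndex :=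
    Subgroup.finiteIndex_of_le hle
  exact Subgroup.finite_quotient_of_finiteIndex

end Fermat.Agent.S35
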