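/-
S35, leaf [COR], parabolic classes (owner: helper11).  Prefix `s35c_`.

The two transfers map the homomorphisms vanishing on the elements of trace `±2` of `Γ₀(M q)` to
homomorphisms vanishing on the elements of trace `±2` of `Γ₀(M)` (values without torsion).
-/
import Mathlib
import Fermat.Agent.S29.LatHom
import Fermat.Agent.S35.CorFin

set_option autoImplicit false
set_option linter.unusedSectionVars false
set_option linter.unusedVariables false
set_option linter.style.haveILetI false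

namespace Fermat.Agent.S35

open CongruenceSubgroup Matrix.SpecialLinearGroup ModularCurve.Period
open scoped MatrixGroups
open Fermat.Agent.S29

/-- The operator of any Hecke datum between two groups `Γ₀` preserves the parabolic
homomorphisms. -/
theorem s35c_op_isParabolic {N₁ N₂ : ℕ} {X : Type*} [Fintype X] {A : Type*} [AddCommGroup A]
    (hA : ∀ (n : ℕ) (a : A), n ≠ 0 → n • a = 0 → a = 0)
    (D : s35c_Datum (s35c_iota N₁) (s35c_iota N₂) X)
    (ψ : Additive (Gamma0 N₁) →+ A) (hψ : IsParabolicHom (Gamma0 N₁) ψ) :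
    IsParabolicHom (Gamma0 N₂) (s35c_op D ψ) := by
  intro γ hγ
  refine s35c_op_par hA D
    (fun g : Gamma0 N₁ => ((g : SL(2, ℤ)) : Matrix (Fin 2) (Fin 2) ℤ).trace ^ 2 = 4)
    (fun g : Gamma0 N₂ => ((g : SL(2, ℤ)) : Matrix (Fin 2) (Fin 2) ℤ).trace ^ 2 = 4)
    ?_ ?_ ψ (fun g hg => hψ g hg) γ hγ
  · intro g n hg
    rw [SubmonoidClass.coe_pow]
    exact s29lat_trace_pow _ hg n
  · intro g g' ρ h hg
    show (((g' : Gamma0 N₁) : SL(2, ℤ)) : Matrix (Fin 2) (Fin 2) ℤ).trace ^ 2 = 4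
    rw [s29lat_trace_eq_of_conj (g : SL(2, ℤ)) (g' : SL(2, ℤ)) ρ h]
    exact hg

/-- **The first transfer preserves the parabolic homomorphisms.** -/
theorem s35c_corA_par (M q : ℕ) [NeZero M] [NeZero q] {A : Type*} [AddCommGroup A]
    (hA : ∀ (n : ℕ) (a : A), n ≠ 0 → n • a = 0 → a = 0)
    (ψ : Additive (Gamma0 (M * q)) →+ A) (hψ : IsParabolicHom (Gamma0 (M * q)) ψ) :
    IsParabolicHom (Gamma0 M) (s35c_corA M q ψ) := by
  haveI := s35c_finite_XA M q
  letI := Fintype.ofFinite (s35c_XA M q)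
  rw [s35c_corA_eq]
  exact s35c_op_isParabolic hA _ ψ hψ

/-- **The second transfer preserves the parabolic homomorphisms.** -/
theorem s35c_corB_par (M q : ℕ) [NeZero M] [NeZero q] {A : Type*} [AddCommGroup A]
    (hA : ∀ (n : ℕ) (a : A), n ≠ 0 → n • a = 0 → a = 0)
    (ψ : Additive (Gamma0 (M * q)) →+ A) (hψ : IsParabolicHom (Gamma0 (M * q)) ψ) :
    IsParabolicHom (Gamma0 M) (s35c_corB M q ψ) := by
  haveI := s35c_finite_XB M q
  letI := Fintype.ofFinite (s35c_XB M q)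
  rw [s35c_corB_eq]
  exact s35c_op_isParabolic hA _ ψ hψ

theorem s35c_torsionFree_int : ∀ (n : ℕ) (a : ℤ), n ≠ 0 → n • a = 0 → a = 0 := by
  intro n a hn h
  rcases smul_eq_zero.mp h with h1 | h1
  · exact absurd h1 hn
  · exact h1

theorem s35c_torsionFree_complex : ∀ (n : ℕ) (a : ℂ), n ≠ 0 → n • a = 0 → a = 0 := by
  intro n a hn h
  rcases smul_eq_zero.mp h with h1 | h1
  · exact absurd h1 hn
  · exact h1

/-- The first transfer on the lattices `Λ(M q) → Λ(M)`. -/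
noncomputable def s35c_corAL (M q : ℕ) [NeZero M] [NeZero q] :
    parabolicHoms ℤ (Gamma0 (M * q)) ℤ →ₗ[ℤ] parabolicHoms ℤ (Gamma0 M) ℤ :=
  AddMonoidHom.toIntLinearMap
    { toFun := fun ψ => ⟨s35c_corA M q (ψ : Additive (Gamma0 (M * q)) →+ ℤ),
        s35c_corA_par M q s35c_torsionFree_int _ ψ.2⟩
      map_zero' := Subtype.ext (map_zero (s35c_corA M q))
      map_add' := fun ψ ψ' => Subtype.ext (map_add (s35c_corA M q) _ _) }

/-- The second transfer on the lattices `Λ(M q) → Λ(M)`. -/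
noncomputable def s35c_corBL (M q : ℕ) [NeZero M] [NeZero q] :
    parabolicHoms ℤ (Gamma0 (M * q)) ℤ →ₗ[ℤ] parabolicHoms ℤ (Gamma0 M) ℤ :=
  AddMonoidHom.toIntLinearMap
    { toFun := fun ψ => ⟨s35c_corB M q (ψ : Additive (Gamma0 (M * q)) →+ ℤ),
        s35c_corB_par M q s35c_torsionFree_int _ ψ.2⟩
      map_zero' := Subtype.ext (map_zero (s35c_corB M q))
      map_add' := fun ψ ψ' => Subtype.ext (map_add (s35c_corB M q) _ _) }

@[simp] theorem s35c_corAL_coe (M q : ℕ) [NeZero M] [NeZero q]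
    (ψ : parabolicHoms ℤ (Gamma0 (M * q)) ℤ) :
    (s35c_corAL M q ψ : Additive (Gamma0 M) →+ ℤ) =
      s35c_corA M q (ψ : Additive (Gamma0 (M * q)) →+ ℤ) := rfl

@[simp] theorem s35c_corBL_coe (M q : ℕ) [NeZero M] [NeZero q]
    (ψ : parabolicHoms ℤ (Gamma0 (M * q)) ℤ) :
    (s35c_corBL M q ψ : Additive (Gamma0 M) →+ ℤ) =
      s35c_corB M q (ψ : Additive (Gamma0 (M * q)) →+ ℤ) := rfl

/-- The first transfer on the complex parabolic homomorphisms. -/
noncomputable def s35c_corAC (M q : ℕ) [NeZero M] [NeZero q] :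
    parabolicHoms ℂ (Gamma0 (M * q)) ℂ →ₗ[ℂ] parabolicHoms ℂ (Gamma0 M) ℂ where
  toFun ψ := ⟨s35c_corA M q (ψ : Additive (Gamma0 (M * q)) →+ ℂ),
    s35c_corA_par M q s35c_torsionFree_complex _ ψ.2⟩
  map_add' ψ ψ' := Subtype.ext (map_add (s35c_corA M q) _ _)
  map_smul' c ψ := by
    refine Subtype.ext ?_
    have h := s35c_corA_comp M q (AddMonoidHom.mulLeft c)
      (ψ : Additive (Gamma0 (M * q)) →+ ℂ)
    exact h

/-- The second transfer on the complex parabolic homomorphisms. -/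
noncomputable def s35c_corBC (M q : ℕ) [NeZero M] [NeZero q] :
    parabolicHoms ℂ (Gamma0 (M * q)) ℂ →ₗ[ℂ] parabolicHoms ℂ (Gamma0 M) ℂ where
  toFun ψ := ⟨s35c_corB M q (ψ : Additive (Gamma0 (M * q)) →+ ℂ),
    s35c_corB_par M q s35c_torsionFree_complex _ ψ.2⟩
  map_add' ψ ψ' := Subtype.ext (map_add (s35c_corB M q) _ _)
  map_smul' c ψ := by
    refine Subtype.ext ?_
    have h := s35c_corB_comp M q (AddMonoidHom.mulLeft c)
      (ψ : Additive (Gamma0 (M * q)) →+ ℂ)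
    exact h

@[simp] theorem s35c_corAC_coe (M q : ℕ) [NeZero M] [NeZero q]
    (ψ : parabolicHoms ℂ (Gamma0 (M * q)) ℂ) :
    (s35c_corAC M q ψ : Additive (Gamma0 M) →+ ℂ) =
      s35c_corA M q (ψ : Additive (Gamma0 (M * q)) →+ ℂ) := rfl

@[simp] theorem s35c_corBC_coe (M q : ℕ) [NeZero M] [NeZero q]
    (ψ : parabolicHoms ℂ (Gamma0 (M * q)) ℂ) :
    (s35c_corBC M q ψ : Additive (Gamma0 M) →+ ℂ) =
      s35c_corB M q (ψ : Additive (Gamma0 (M * q)) →+ ℂ) := rfl

end Fermat.Agent.S35
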