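/-
S35, leaf [N-NEW], part (A) = [NW-EIG] (owner: helper2).  Prefix `s35nw_`.

A non-zero cusp form `h` of weight 2 and level `L` which is an eigenvector of the GOOD Hecke
operators `T_ℓ`, `ℓ ∤ N'` (`L ∣ N'`), with eigenvalues `a ℓ`, gives a NORMALISED EIGENFORM of
level `L` with the same good eigenvalues:

* `s35nw_eig`      : `∃ g', g'.IsNormalizedEigenform ∧ ∀ ℓ prime, ℓ ∤ N' → qCoeff g' ℓ = a ℓ`;
* `s35nw_eig_zero` : if no such normalised eigenform exists, every such `h` is `0`;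
* `s35nw_eig_newform` : for a newform `g` of level `N` and a proper divisor `L` of `N`, a cusp
                     form of level `L` with `T_ℓ h = a_ℓ(g) h` for all primes `ℓ ∤ N` is `0`.

Proof: the joint eigenspace is stable under the (commutative) Hecke algebra of level `L`; a
common eigenvector `w` of all `T_p`, `U_p` in it has `a_1(w) ≠ 0` by the `q`-coefficient
recursion, and `w / a_1(w)` is a normalised eigenform (the formal lemmas of `S49/Formal.lean`).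
-/
import Mathlib
import Fermat.Prelude.Def_CuspForm_Newforms
import Fermat.Agent.S23.Descent
import Fermat.Agent.S49.Main

set_option autoImplicit false
set_option linter.unusedVariables false
set_option linter.unusedSectionVars false
set_option linter.style.haveILetI false

namespace Fermat.Agent.S35

open CuspForm ModularFormClass CongruenceSubgroup UpperHalfPlane
open Fermat.Agent.S49

section Eig

variable {L : ℕ} [NeZero L]

/-- The joint eigenspace of the good Hecke operators. -/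
def s35nw_eigenspace (L : ℕ) [NeZero L] (N' : ℕ) (a : ℕ → ℂ) :
    Submodule ℂ (CuspForm (Gamma0 L) 2) where
  carrier := {v | ∀ (ℓ : ℕ) (hℓ : ℓ.Prime) (hℓL : ¬ ℓ ∣ L), ¬ ℓ ∣ N' →
    CuspForm.heckeTLin 2 hℓ hℓL v = a ℓ • v}
  add_mem' := by
    intro v w hv hw ℓ hℓ hℓL hℓN
    rw [map_add, hv ℓ hℓ hℓL hℓN, hw ℓ hℓ hℓL hℓN, smul_add]
  zero_mem' := by
    intro ℓ hℓ hℓL hℓN
    rw [map_zero, smul_zero]
  smul_mem' := by
    intro c v hv ℓ hℓ hℓL hℓN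
    rw [map_smul, hv ℓ hℓ hℓL hℓN, smul_comm]

theorem s35nw_mem_eigenspace (N' : ℕ) (a : ℕ → ℂ) (v : CuspForm (Gamma0 L) 2) :
    v ∈ s35nw_eigenspace L N' a ↔
      ∀ (ℓ : ℕ) (hℓ : ℓ.Prime) (hℓL : ¬ ℓ ∣ L), ¬ ℓ ∣ N' →
        CuspForm.heckeTLin 2 hℓ hℓL v = a ℓ • v :=
  Iff.rfl

/-- The Hecke operators at the primes, as endomorphisms. -/
def s35nw_ops (L : ℕ) [NeZero L] : Set (Module.End ℂ (CuspForm (Gamma0 L) 2)) :=
  {T | ∃ (p : ℕ) (hp : p.Prime),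
    T = ((heckeOp L p hp : CuspForm.heckeAlgebra L 2 ∅) :
      Module.End ℂ (CuspForm (Gamma0 L) 2))}

theorem s35nw_commute (T : Module.End ℂ (CuspForm (Gamma0 L) 2))
    (hT : T ∈ (CuspForm.heckeAlgebra L 2 ∅))
    (T' : Module.End ℂ (CuspForm (Gamma0 L) 2)) (hT' : T' ∈ (CuspForm.heckeAlgebra L 2 ∅)) :
    Commute T T' := by
  have h := mul_comm (⟨T, hT⟩ : CuspForm.heckeAlgebra L 2 ∅) ⟨T', hT'⟩
  exact congrArg Subtype.val h

theorem s35nw_ops_commute (T : Module.End ℂ (CuspForm (Gamma0 L) 2)) (hT : T ∈ s35nw_ops L)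
    (T' : Module.End ℂ (CuspForm (Gamma0 L) 2)) (hT' : T' ∈ s35nw_ops L) : Commute T T' := by
  obtain ⟨p, hp, rfl⟩ := hT
  obtain ⟨p', hp', rfl⟩ := hT'
  exact s35nw_commute _ (heckeOp L p hp).2 _ (heckeOp L p' hp').2

/-- The joint eigenspace is stable under the Hecke operators of level `L`. -/
theorem s35nw_stable (N' : ℕ) (a : ℕ → ℂ) (T : Module.End ℂ (CuspForm (Gamma0 L) 2))
    (hT : T ∈ s35nw_ops L) (v : CuspForm (Gamma0 L) 2) (hv : v ∈ s35nw_eigenspace L N' a) :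
    T v ∈ s35nw_eigenspace L N' a := by
  obtain ⟨p, hp, rfl⟩ := hT
  intro ℓ hℓ hℓL hℓN
  have hc : Commute (CuspForm.heckeTLin 2 hℓ hℓL)
      ((heckeOp L p hp : CuspForm.heckeAlgebra L 2 ∅) :
        Module.End ℂ (CuspForm (Gamma0 L) 2)) :=
    s35nw_commute _ (CuspForm.heckeTLin_mem_heckeAlgebra hℓ hℓL (Set.notMem_empty ℓ)) _
      (heckeOp L p hp).2
  have h1 := congrArg (fun f : Module.End ℂ (CuspForm (Gamma0 L) 2) => f v) hc.eq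
  simp only [Module.End.mul_apply] at h1
  rw [h1, hv ℓ hℓ hℓL hℓN, map_smul]

/-- `heckeOp` at a prime not dividing the level is `T_ℓ`. -/
theorem s35nw_heckeOp_of_not_dvd {ℓ : ℕ} (hℓ : ℓ.Prime) (hℓL : ¬ ℓ ∣ L) :
    ((heckeOp L ℓ hℓ : CuspForm.heckeAlgebra L 2 ∅) :
      Module.End ℂ (CuspForm (Gamma0 L) 2)) = CuspForm.heckeTLin 2 hℓ hℓL := by
  unfold heckeOp
  rw [dif_neg hℓL]
  rfl

/-- **[NW-EIG]** a non-zero joint eigenvector of the good Hecke operators gives a normalised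
eigenform with the same good eigenvalues. -/
theorem s35nw_eig (N' : ℕ) (a : ℕ → ℂ) (h : CuspForm (Gamma0 L) 2) (hh : h ≠ 0)
    (hT : ∀ (ℓ : ℕ) (hℓ : ℓ.Prime) (hℓL : ¬ ℓ ∣ L), ¬ ℓ ∣ N' →
      CuspForm.heckeTLin 2 hℓ hℓL h = a ℓ • h) :
    ∃ g' : CuspForm (Gamma0 L) 2, g'.IsNormalizedEigenform ∧
      ∀ ℓ : ℕ, ℓ.Prime → ¬ ℓ ∣ L → ¬ ℓ ∣ N' → qCoeff g' ℓ = a ℓ := by
  classical
  haveI : FiniteDimensional ℂ (CuspForm (Gamma0 L) 2) :=
    Fermat.Agent.S23.finiteDimensional_cuspForm L 2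
  have hW : s35nw_eigenspace L N' a ≠ ⊥ := by
    intro h0
    have : h ∈ (⊥ : Submodule ℂ (CuspForm (Gamma0 L) 2)) := h0 ▸ hT
    exact hh ((Submodule.mem_bot ℂ).1 this)
  obtain ⟨w, hwW, hw0, hw⟩ := exists_common_eigenvector (s35nw_ops L) s35nw_ops_commute
    (s35nw_eigenspace L N' a) hW (s35nw_stable N' a)
  have hw' : ∀ (p : ℕ) (hp : p.Prime), ∃ c : ℂ,
      ((heckeOp L p hp : CuspForm.heckeAlgebra L 2 ∅) :
        Module.End ℂ (CuspForm (Gamma0 L) 2)) w = c • w :=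
    fun p hp => hw _ ⟨p, hp, rfl⟩
  let cθ : ℕ → ℂ := fun ℓ => if hℓ : ℓ.Prime then (hw' ℓ hℓ).choose else 0
  have hcθ : ∀ ℓ (hℓ : ℓ.Prime),
      ((heckeOp L ℓ hℓ : CuspForm.heckeAlgebra L 2 ∅) :
        Module.End ℂ (CuspForm (Gamma0 L) 2)) w = cθ ℓ • w := by
    intro ℓ hℓ
    have := (hw' ℓ hℓ).choose_spec
    simp only [cθ, dif_pos hℓ]
    exact this
  have hrelw : ∀ ℓ : ℕ, ℓ.Prime → ∀ n : ℕ,
      qCoeff ⇑w (n * ℓ) + (if ℓ ∣ n then ((eN L ℓ : ℤ) : ℂ) * qCoeff ⇑w (n / ℓ) else 0) =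
        cθ ℓ * qCoeff ⇑w n := by
    intro ℓ hℓ n
    rw [← qCoeff_heckeOp ℓ hℓ w n, hcθ ℓ hℓ, qCoeff_smul]
  have hw1 : qCoeff ⇑w 1 ≠ 0 := by
    intro h1
    apply hw0
    apply eq_zero_of_qCoeff_eq_zero
    intro n
    rcases Nat.eq_zero_or_pos n with rfl | hn
    · exact qCoeff_cusp_zero w
    · exact eq_zero_of_rel_of_one_eq_zero (fun ℓ => ((eN L ℓ : ℤ) : ℂ)) (fun n => qCoeff ⇑w n)
        cθ h1 hrelw n hn
  set f : CuspForm (Gamma0 L) 2 := (qCoeff ⇑w 1)⁻¹ • w with hf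
  have hfq : ∀ n, qCoeff ⇑f n = (qCoeff ⇑w 1)⁻¹ * qCoeff ⇑w n := fun n => qCoeff_smul _ _ _
  have hf1 : qCoeff ⇑f 1 = 1 := by rw [hfq, inv_mul_cancel₀ hw1]
  have hrelf' : ∀ ℓ : ℕ, ℓ.Prime → ∀ n : ℕ,
      qCoeff ⇑f (n * ℓ) + (if ℓ ∣ n then ((eN L ℓ : ℤ) : ℂ) * qCoeff ⇑f (n / ℓ) else 0) =
        cθ ℓ * qCoeff ⇑f n := by
    intro ℓ hℓ n
    have := hrelw ℓ hℓ n
    rw [hfq, hfq, hfq]
    by_cases hd : ℓ ∣ n
    · rw [if_pos hd] at this ⊢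
      linear_combination (qCoeff ⇑w 1)⁻¹ * this
    · rw [if_neg hd] at this ⊢
      linear_combination (qCoeff ⇑w 1)⁻¹ * this
  have hfℓ : ∀ ℓ (hℓ : ℓ.Prime), qCoeff ⇑f ℓ = cθ ℓ := by
    intro ℓ hℓ
    have := hrelf' ℓ hℓ 1
    have hd : ¬ ℓ ∣ 1 := fun hd => hℓ.one_lt.ne' (Nat.dvd_one.1 hd)
    rw [if_neg hd, one_mul, add_zero, hf1, mul_one] at this
    exact this
  have hrelf : ∀ ℓ : ℕ, ℓ.Prime → ∀ n : ℕ,
      qCoeff ⇑f (n * ℓ) + (if ℓ ∣ n then ((eN L ℓ : ℤ) : ℂ) * qCoeff ⇑f (n / ℓ) else 0) =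
        qCoeff ⇑f ℓ * qCoeff ⇑f n := by
    intro ℓ hℓ n
    rw [hfℓ ℓ hℓ]
    exact hrelf' ℓ hℓ n
  have hnorm : f.IsNormalizedEigenform :=
    { qCoeff_one := hf1
      qCoeff_mul_of_coprime := mul_of_coprime_of_rel (fun ℓ => ((eN L ℓ : ℤ) : ℂ))
        (fun n => qCoeff ⇑f n) hf1 hrelf
      qCoeff_prime_pow_of_not_dvd := fun p r hp hpN => by
        have := prime_pow_of_rel (fun ℓ => ((eN L ℓ : ℤ) : ℂ)) (fun n => qCoeff ⇑f n) hrelf p r hp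
        simp only [eN, if_neg hpN, Int.cast_natCast] at this
        exact this
      qCoeff_prime_pow_of_dvd := fun p r hp hpN => by
        have := prime_pow_of_rel (fun ℓ => ((eN L ℓ : ℤ) : ℂ)) (fun n => qCoeff ⇑f n) hrelf p r hp
        simp only [eN, if_pos hpN, Int.cast_zero, zero_mul, sub_zero] at this
        exact this }
  refine ⟨f, hnorm, fun ℓ hℓ hℓL hℓN => ?_⟩
  rw [hfℓ ℓ hℓ]
  -- `T_ℓ w = a ℓ • w = cθ ℓ • w`
  have h1 := hcθ ℓ hℓ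
  rw [s35nw_heckeOp_of_not_dvd hℓ hℓL, hwW ℓ hℓ hℓL hℓN] at h1
  have h2 : (a ℓ - cθ ℓ) • w = 0 := by rw [sub_smul, h1, sub_self]
  rcases smul_eq_zero.1 h2 with h3 | h3
  · exact (sub_eq_zero.1 h3).symm
  · exact absurd h3 hw0

/-- If the eigensystem does not occur at level `L`, the joint eigenspace is `0`. -/
theorem s35nw_eig_zero (N' : ℕ) (hLN : L ∣ N') (a : ℕ → ℂ)
    (hno : ¬ ∃ g' : CuspForm (Gamma0 L) 2, g'.IsNormalizedEigenform ∧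
      ∀ ℓ : ℕ, ℓ.Prime → ¬ ℓ ∣ N' → qCoeff g' ℓ = a ℓ)
    (h : CuspForm (Gamma0 L) 2)
    (hT : ∀ (ℓ : ℕ) (hℓ : ℓ.Prime) (hℓL : ¬ ℓ ∣ L), ¬ ℓ ∣ N' →
      CuspForm.heckeTLin 2 hℓ hℓL h = a ℓ • h) :
    h = 0 := by
  by_contra hh
  obtain ⟨g', hg', hg'a⟩ := s35nw_eig N' a h hh hT
  exact hno ⟨g', hg', fun ℓ hℓ hℓN =>
    hg'a ℓ hℓ (fun hℓL => hℓN (hℓL.trans hLN)) hℓN⟩

/-- **[NW-EIG] for a newform**: a cusp form of a proper divisor level `L` of `N` with the good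
eigenvalues of a newform `g` of level `N` is `0`. -/
theorem s35nw_eig_newform {N : ℕ} {g : CuspForm (Gamma0 N) 2} (hg : g.IsNewform)
    (hLN : L ∣ N) (hne : L ≠ N) (h : CuspForm (Gamma0 L) 2)
    (hT : ∀ (ℓ : ℕ) (hℓ : ℓ.Prime) (hℓL : ¬ ℓ ∣ L), ¬ ℓ ∣ N →
      CuspForm.heckeTLin 2 hℓ hℓL h = qCoeff g ℓ • h) :
    h = 0 :=
  s35nw_eig_zero N hLN (fun ℓ => qCoeff g ℓ) (hg.2 L hLN hne) h hT

end Eig

end Fermat.Agent.S35
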