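/-
S35, leaf [N-NEW], part (B1) (owner: helper2).  Prefix `s35nw_`.

THE COSET HECKE OPERATOR COMMUTES WITH THE INVOLUTION `ι = charInvolution` (conjugation by
`diag(1, -1)`) on homomorphisms `Γ₀(N) → A`:

    s35nw_hecke_inv : T_ℓ (ι ψ) = ι (T_ℓ ψ)          (`T_ℓ = s29lat_heckeHom`, `ℓ ∤ N`).

Proof.  `E σ_x E = u_x σ_(-x)` with `u_x` a translation, `E γ E = j(γ)`, hence
`gam (jγ) (-x) = u_x⁻¹ · j (gam γ x) · u_(γ x)`; the contributions of the `u` cancel in the sum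
over `x ∈ ℙ¹(𝔽_ℓ)`.
-/
import Mathlib
import Fermat.Agent.S29.LatDefs
import Fermat.Agent.S29.LatHom

set_option autoImplicit false
set_option linter.unusedVariables false
set_option linter.unusedSectionVars false
set_option linter.style.haveILetI false

namespace Fermat.Agent.S35

open CongruenceSubgroup ModularCurve ModularCurve.Period Matrix.SpecialLinearGroup
open scoped MatrixGroups
open P2MW.S_ModularForm_heckeT_slash_eq_self_of_mem_Gamma0.ModularForm.HeckeSlashInvariance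
open P2MW.S_ModularForm_heckeT_slash_eq_self_of_mem_Gamma0.ModularForm
open Fermat.Agent.S29

section Matrices

/-- `E = diag(1, -1)` in `GL₂(ℝ)`. -/
noncomputable def s35nw_E : GL (Fin 2) ℝ :=
  Matrix.GeneralLinearGroup.mkOfDetNeZero !![(1 : ℝ), 0; 0, -1] (by simp)

theorem s35nw_E_val :
    ((s35nw_E : GL (Fin 2) ℝ) : Matrix (Fin 2) (Fin 2) ℝ) = !![(1 : ℝ), 0; 0, -1] := rfl

theorem s35nw_E_mul_E : s35nw_E * s35nw_E = 1 := by
  apply Matrix.GeneralLinearGroup.ext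
  intro i j
  rw [Matrix.GeneralLinearGroup.coe_mul, s35nw_E_val]
  fin_cases i <;> fin_cases j <;> simp [Matrix.mul_apply, Fin.sum_univ_two]

/-- `E γ E = j(γ)`. -/
theorem s35nw_conj_mapGL (g : SL(2, ℤ)) :
    s35nw_E * mapGL ℝ g * s35nw_E = mapGL ℝ (jConjSL g) := by
  apply Matrix.GeneralLinearGroup.ext
  intro i j
  rw [Matrix.GeneralLinearGroup.coe_mul, Matrix.GeneralLinearGroup.coe_mul, s35nw_E_val,
    Matrix.mul_apply, Fin.sum_univ_two, Matrix.mul_apply, Matrix.mul_apply, Fin.sum_univ_two,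
    Fin.sum_univ_two]
  have e : ∀ a b : Fin 2, ((mapGL ℝ g : GL (Fin 2) ℝ) : Matrix (Fin 2) (Fin 2) ℝ) a b =
      ((g a b : ℤ) : ℝ) := fun a b => mapGL_apply g a b
  have e' : ∀ a b : Fin 2,
      ((mapGL ℝ (jConjSL g) : GL (Fin 2) ℝ) : Matrix (Fin 2) (Fin 2) ℝ) a b =
      ((jConjMat (g : Matrix (Fin 2) (Fin 2) ℤ) a b : ℤ) : ℝ) := fun a b =>
    mapGL_apply (jConjSL g) a b
  rw [e, e, e']
  fin_cases i <;> fin_cases j <;> simp [jConjMat]

/-- The translation `[[1, n], [0, 1]]`. -/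
def s35nw_trans (n : ℤ) : SL(2, ℤ) :=
  ⟨!![1, n; 0, 1], by rw [Matrix.det_fin_two_of]; ring⟩

theorem s35nw_trans_one_zero (n : ℤ) : (s35nw_trans n) 1 0 = 0 := rfl

variable (ℓ : ℕ) [Fact ℓ.Prime]

/-- `D = diag(-1, 1)` in `GL₂(𝔽_ℓ)`: the map `x ↦ -x` of `ℙ¹(𝔽_ℓ)`. -/
noncomputable def s35nw_neg : GL (Fin 2) (ZMod ℓ) :=
  Matrix.GeneralLinearGroup.mkOfDetNeZero !![(-1 : ZMod ℓ), 0; 0, 1] (by
    rw [Matrix.det_fin_two_of]
    simp)

theorem s35nw_neg_val :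
    ((s35nw_neg ℓ : GL (Fin 2) (ZMod ℓ)) : Matrix (Fin 2) (Fin 2) (ZMod ℓ)) =
      !![(-1 : ZMod ℓ), 0; 0, 1] := rfl

theorem s35nw_neg_infty : s35nw_neg ℓ • (OnePoint.infty : OnePoint (ZMod ℓ)) = OnePoint.infty := by
  rw [OnePoint.smul_infty_eq_ite, if_pos]
  show ((s35nw_neg ℓ : GL (Fin 2) (ZMod ℓ)) : Matrix (Fin 2) (Fin 2) (ZMod ℓ)) 1 0 = 0
  rw [s35nw_neg_val]
  simp

theorem s35nw_neg_coe (j : ZMod ℓ) :
    s35nw_neg ℓ • ((j : ZMod ℓ) : OnePoint (ZMod ℓ)) = ((-j : ZMod ℓ) : OnePoint (ZMod ℓ)) := by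
  rw [OnePoint.smul_some_eq_ite]
  have h10 : (s35nw_neg ℓ : GL (Fin 2) (ZMod ℓ)) 1 0 = 0 := by
    show ((s35nw_neg ℓ : GL (Fin 2) (ZMod ℓ)) : Matrix (Fin 2) (Fin 2) (ZMod ℓ)) 1 0 = 0
    rw [s35nw_neg_val]; simp
  have h11 : (s35nw_neg ℓ : GL (Fin 2) (ZMod ℓ)) 1 1 = 1 := by
    show ((s35nw_neg ℓ : GL (Fin 2) (ZMod ℓ)) : Matrix (Fin 2) (Fin 2) (ZMod ℓ)) 1 1 = 1
    rw [s35nw_neg_val]; simp
  have h00 : (s35nw_neg ℓ : GL (Fin 2) (ZMod ℓ)) 0 0 = -1 := by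
    show ((s35nw_neg ℓ : GL (Fin 2) (ZMod ℓ)) : Matrix (Fin 2) (Fin 2) (ZMod ℓ)) 0 0 = -1
    rw [s35nw_neg_val]; simp
  have h01 : (s35nw_neg ℓ : GL (Fin 2) (ZMod ℓ)) 0 1 = 0 := by
    show ((s35nw_neg ℓ : GL (Fin 2) (ZMod ℓ)) : Matrix (Fin 2) (Fin 2) (ZMod ℓ)) 0 1 = 0
    rw [s35nw_neg_val]; simp
  rw [h10, h11, h00, h01, zero_mul, zero_add, if_neg one_ne_zero, add_zero, div_one, neg_one_mul]

/-- `redMatrix (j γ) · D = D · redMatrix γ`. -/
theorem s35nw_red_conj (g : SL(2, ℤ)) :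
    redMatrix ℓ (jConjSL g) * s35nw_neg ℓ = s35nw_neg ℓ * redMatrix ℓ g := by
  apply Matrix.GeneralLinearGroup.ext
  intro i j
  rw [Matrix.GeneralLinearGroup.coe_mul, Matrix.GeneralLinearGroup.coe_mul, s35nw_neg_val]
  fin_cases i <;> fin_cases j <;>
    simp [Matrix.mul_apply, Fin.sum_univ_two, redMatrix_apply_zero_zero,
      redMatrix_apply_zero_one, redMatrix_apply_one_zero, redMatrix_apply_one_one, jConjMat]

theorem s35nw_red_conj_smul (g : SL(2, ℤ)) (x : OnePoint (ZMod ℓ)) :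
    redMatrix ℓ (jConjSL g) • (s35nw_neg ℓ • x) = s35nw_neg ℓ • (redMatrix ℓ g • x) := by
  rw [← mul_smul, ← mul_smul, s35nw_red_conj]

/-- `E σ_x E = u σ_(-x)` with `u` a translation. -/
theorem s35nw_conj_rep (x : OnePoint (ZMod ℓ)) :
    ∃ n : ℤ, s35nw_E * heckeRep ℓ x * s35nw_E =
      mapGL ℝ (s35nw_trans n) * heckeRep ℓ (s35nw_neg ℓ • x) := by
  have hℓ : ℓ ≠ 0 := (Fact.out : ℓ.Prime).ne_zero
  induction x using OnePoint.rec with
  | infty =>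
    refine ⟨0, ?_⟩
    rw [s35nw_neg_infty, heckeRep_infty]
    apply Matrix.GeneralLinearGroup.ext
    intro i j
    rw [Matrix.GeneralLinearGroup.coe_mul, Matrix.GeneralLinearGroup.coe_mul,
      Matrix.GeneralLinearGroup.coe_mul, s35nw_E_val, ModularForm.val_heckeDiagMatrix hℓ]
    fin_cases i <;> fin_cases j <;>
      simp [Matrix.mul_apply, Fin.sum_univ_two, s35nw_trans]
  | coe j =>
    obtain ⟨k, hk⟩ : (ℓ : ℤ) ∣ ((j.val : ℤ) + ((-j).val : ℤ)) := by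
      rw [← ZMod.intCast_zmod_eq_zero_iff_dvd]
      push_cast
      rw [ZMod.natCast_zmod_val, ZMod.natCast_zmod_val, add_neg_cancel]
    refine ⟨-k, ?_⟩
    rw [s35nw_neg_coe, heckeRep_coe, heckeRep_coe]
    have hk' : ((j.val : ℤ) : ℝ) + (((-j).val : ℤ) : ℝ) = (ℓ : ℝ) * (k : ℝ) := by
      exact_mod_cast hk
    push_cast at hk'
    rw [ZMod.natCast_val, ZMod.natCast_val] at hk'
    apply Matrix.GeneralLinearGroup.ext
    intro i i'
    rw [Matrix.GeneralLinearGroup.coe_mul, Matrix.GeneralLinearGroup.coe_mul,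
      Matrix.GeneralLinearGroup.coe_mul, s35nw_E_val, ModularForm.val_heckeMatrix hℓ, ModularForm.val_heckeMatrix hℓ]
    fin_cases i <;> fin_cases i' <;>
      simp [Matrix.mul_apply, Fin.sum_univ_two, s35nw_trans]
    linear_combination (-1 : ℝ) * hk'

end Matrices

section Commute

variable (N ℓ : ℕ) [Fact ℓ.Prime] (hℓN : ¬ ℓ ∣ N)

/-- The translation `[[1, n], [0, 1]]` as an element of `Γ₀(N)`. -/
def s35nw_transG (n : ℤ) : Gamma0 N :=
  ⟨s35nw_trans n, by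
    rw [Gamma0_mem]
    show (((s35nw_trans n) 1 0 : ℤ) : ZMod N) = 0
    rw [s35nw_trans_one_zero, Int.cast_zero]⟩

theorem s35nw_transG_coe (n : ℤ) : ((s35nw_transG N n : Gamma0 N) : SL(2, ℤ)) = s35nw_trans n :=
  rfl

/-- The cocycle of `j γ` at `-x`. -/
theorem s35nw_gam_conj (γ : Gamma0 N) (x : OnePoint (ZMod ℓ)) (n n' : ℤ)
    (hn : s35nw_E * heckeRep ℓ x * s35nw_E =
      mapGL ℝ (s35nw_trans n) * heckeRep ℓ (s35nw_neg ℓ • x))
    (hn' : s35nw_E * heckeRep ℓ (redMatrix ℓ (γ : SL(2, ℤ)) • x) * s35nw_E =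
      mapGL ℝ (s35nw_trans n') *
        heckeRep ℓ (s35nw_neg ℓ • (redMatrix ℓ (γ : SL(2, ℤ)) • x))) :
    s29lat_gam N ℓ hℓN (jConjGamma0 N γ) (s35nw_neg ℓ • x) =
      (s35nw_transG N n)⁻¹ * jConjGamma0 N (s29lat_gam N ℓ hℓN γ x) * s35nw_transG N n' := by
  apply Subtype.ext
  apply s29lat_gam_unique
  rw [jConjGamma0_coe, s35nw_red_conj_smul, Subgroup.coe_mul, Subgroup.coe_mul,
    Subgroup.coe_inv, jConjGamma0_coe, s35nw_transG_coe, s35nw_transG_coe, map_mul, map_mul,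
    map_inv]
  have hspec := s29lat_gam_spec N ℓ hℓN γ x
  have hEE := s35nw_E_mul_E
  have key : mapGL ℝ (s35nw_trans n) *
      (heckeRep ℓ (s35nw_neg ℓ • x) * mapGL ℝ (jConjSL (γ : SL(2, ℤ)))) =
      mapGL ℝ (jConjSL ((s29lat_gam N ℓ hℓN γ x : Gamma0 N) : SL(2, ℤ))) *
        (mapGL ℝ (s35nw_trans n') *
          heckeRep ℓ (s35nw_neg ℓ • (redMatrix ℓ (γ : SL(2, ℤ)) • x))) := by
    rw [← mul_assoc, ← hn, ← hn', ← s35nw_conj_mapGL, ← s35nw_conj_mapGL]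
    calc s35nw_E * heckeRep ℓ x * s35nw_E * (s35nw_E * mapGL ℝ (γ : SL(2, ℤ)) * s35nw_E)
        = s35nw_E * heckeRep ℓ x * (s35nw_E * s35nw_E) * mapGL ℝ (γ : SL(2, ℤ)) * s35nw_E := by
          simp only [mul_assoc]
      _ = s35nw_E * (heckeRep ℓ x * mapGL ℝ (γ : SL(2, ℤ))) * s35nw_E := by
          rw [hEE, mul_one]
          simp only [mul_assoc]
      _ = s35nw_E * (mapGL ℝ ((s29lat_gam N ℓ hℓN γ x : Gamma0 N) : SL(2, ℤ)) *
            heckeRep ℓ (redMatrix ℓ (γ : SL(2, ℤ)) • x)) * s35nw_E := by rw [hspec]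
      _ = s35nw_E * mapGL ℝ ((s29lat_gam N ℓ hℓN γ x : Gamma0 N) : SL(2, ℤ)) *
            (s35nw_E * s35nw_E) * heckeRep ℓ (redMatrix ℓ (γ : SL(2, ℤ)) • x) * s35nw_E := by
          rw [hEE, mul_one]
          simp only [mul_assoc]
      _ = s35nw_E * mapGL ℝ ((s29lat_gam N ℓ hℓN γ x : Gamma0 N) : SL(2, ℤ)) * s35nw_E *
            (s35nw_E * heckeRep ℓ (redMatrix ℓ (γ : SL(2, ℤ)) • x) * s35nw_E) := by
          simp only [mul_assoc]
  calc heckeRep ℓ (s35nw_neg ℓ • x) * mapGL ℝ (jConjSL (γ : SL(2, ℤ)))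
      = (mapGL ℝ (s35nw_trans n))⁻¹ * (mapGL ℝ (s35nw_trans n) *
          (heckeRep ℓ (s35nw_neg ℓ • x) * mapGL ℝ (jConjSL (γ : SL(2, ℤ))))) := by
        rw [inv_mul_cancel_left]
    _ = _ := by
        rw [key]
        simp only [mul_assoc]

/-- The function form of the commutation. -/
theorem s35nw_heckeFun_inv {A : Type*} [AddCommGroup A] (ψ : Additive (Gamma0 N) →+ A)
    (γ : Gamma0 N) :
    s29lat_heckeFun N ℓ hℓN ψ (jConjGamma0 N γ) =
      s29lat_heckeFun N ℓ hℓN (ψ.comp (MonoidHom.toAdditive (jConjGamma0 N))) γ := by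
  classical
  choose n hn using s35nw_conj_rep ℓ
  rw [s29lat_heckeFun_def, s29lat_heckeFun_def]
  rw [← Equiv.sum_comp (MulAction.toPerm (s35nw_neg ℓ))
    (fun x => ψ (Additive.ofMul (s29lat_gam N ℓ hℓN (jConjGamma0 N γ) x)))]
  have h1 : ∀ x : OnePoint (ZMod ℓ),
      ψ (Additive.ofMul (s29lat_gam N ℓ hℓN (jConjGamma0 N γ)
        (MulAction.toPerm (s35nw_neg ℓ) x))) =
      (ψ.comp (MonoidHom.toAdditive (jConjGamma0 N)))
          (Additive.ofMul (s29lat_gam N ℓ hℓN γ x)) +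
        (ψ (Additive.ofMul (s35nw_transG N (n (redMatrix ℓ (γ : SL(2, ℤ)) • x)))) -
          ψ (Additive.ofMul (s35nw_transG N (n x)))) := by
    intro x
    have h2 := s35nw_gam_conj N ℓ hℓN γ x (n x) (n (redMatrix ℓ (γ : SL(2, ℤ)) • x)) (hn x)
      (hn (redMatrix ℓ (γ : SL(2, ℤ)) • x))
    rw [MulAction.toPerm_apply, h2, ofMul_mul, ofMul_mul, ofMul_inv, map_add, map_add, map_neg]
    show -ψ (Additive.ofMul (s35nw_transG N (n x))) +
        ψ (Additive.ofMul (jConjGamma0 N (s29lat_gam N ℓ hℓN γ x))) +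
        ψ (Additive.ofMul (s35nw_transG N (n (redMatrix ℓ (γ : SL(2, ℤ)) • x)))) =
      ψ (Additive.ofMul (jConjGamma0 N (s29lat_gam N ℓ hℓN γ x))) +
        (ψ (Additive.ofMul (s35nw_transG N (n (redMatrix ℓ (γ : SL(2, ℤ)) • x)))) -
          ψ (Additive.ofMul (s35nw_transG N (n x))))
    abel
  rw [Finset.sum_congr rfl (fun x _ => h1 x), Finset.sum_add_distrib, Finset.sum_sub_distrib]
  have h3 := Equiv.sum_comp (MulAction.toPerm (redMatrix ℓ (γ : SL(2, ℤ))))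
    (fun x => ψ (Additive.ofMul (s35nw_transG N (n x))))
  simp only [MulAction.toPerm_apply] at h3
  rw [h3, sub_self, add_zero]

/-- **The coset Hecke operator commutes with the involution `ι`.** -/
theorem s35nw_hecke_inv (R : Type*) [Semiring R] {A : Type*} [AddCommGroup A] [Module R A]
    (ψ : Additive (Gamma0 N) →+ A) :
    s29lat_heckeHom N ℓ hℓN (charInvolution N R A ψ) =
      charInvolution N R A (s29lat_heckeHom N ℓ hℓN ψ) := by
  refine AddMonoidHom.ext fun γ => ?_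
  show s29lat_heckeFun N ℓ hℓN (charInvolution N R A ψ) (Additive.toMul γ) =
    s29lat_heckeFun N ℓ hℓN ψ (jConjGamma0 N (Additive.toMul γ))
  rw [s35nw_heckeFun_inv]
  rfl

end Commute

end Fermat.Agent.S35
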