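/-
S35, leaf [N-NEW], part (B) = [NW-PER] (owner: helper2).  Prefix `s35nw_`.

THE S21 STEP.  A parabolic class `v : Γ₀(L) → ℂ` which is an eigenvector of the coset Hecke
operators `T_ℓ` (`s29lat_heckeHom`), `ℓ ∤ N'` (`L ∣ N'`), with eigenvalues `a ℓ`, is
`periodHomPair (h₁, h₂)` with `T_ℓ h_i = a ℓ • h_i` (Eichler-Shimura S21 + [LAT-PER] + the
commutation of `T_ℓ` with `charInvolution`); hence:

* `s35nw_hecke_pair`  : `T_ℓ (periodHomPair (f, g)) = periodHomPair (T_ℓ f, T_ℓ g)`;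
* `s35nw_per`         : if the eigensystem `a` does not occur at level `L`, then `v = 0`;
* `s35nw_per_newform` : for a newform `g` of level `N` and a proper divisor `L` of `N`, every
                        parabolic class of level `L` with the good eigenvalues of `g` is `0`.
-/
import Mathlib
import Fermat.Agent.S21
import Fermat.Agent.S29.LatPer
import Fermat.Agent.S35.NNewEig
import Fermat.Agent.S35.NNewInv

set_option autoImplicit false
set_option linter.unusedVariables false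
set_option linter.unusedSectionVars false
set_option linter.style.haveILetI false

namespace Fermat.Agent.S35

open CongruenceSubgroup ModularCurve ModularCurve.Period Matrix.SpecialLinearGroup
open scoped MatrixGroups
open CuspForm ModularFormClass
open Fermat.Agent.S29

section Per

variable (L : ℕ) [NeZero L]

/-- The explicit formula for `periodHomPair`. -/
theorem s35nw_pair_apply (f g : CuspForm (Gamma0 L) 2) :
    periodHomPair L (f, g)
      = (periodMap L f + charInvolution L ℂ ℂ (periodMap L f))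
        + (periodMap L g - charInvolution L ℂ ℂ (periodMap L g)) :=
  Fermat.Agent.S21.final_periodHomPair_apply L
    (Fermat.Agent.S21.lin L (Fermat.Agent.S21.prim L) (Fermat.Agent.S21.periodEq L)) f g

variable (ℓ : ℕ) [Fact ℓ.Prime] (hℓL : ¬ ℓ ∣ L)

/-- The coset Hecke operator as an additive map. -/
noncomputable def s35nw_heckeAdd {A : Type*} [AddCommGroup A] :
    (Additive (Gamma0 L) →+ A) →+ (Additive (Gamma0 L) →+ A) where
  toFun ψ := s29lat_heckeHom L ℓ hℓL ψ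
  map_zero' := s29lat_heckeHom_zero L ℓ hℓL
  map_add' ψ ψ' := s29lat_heckeHom_add L ℓ hℓL ψ ψ'

theorem s35nw_heckeAdd_apply {A : Type*} [AddCommGroup A] (ψ : Additive (Gamma0 L) →+ A) :
    s35nw_heckeAdd L ℓ hℓL ψ = s29lat_heckeHom L ℓ hℓL ψ := rfl

/-- [LAT-PER] in the language of homomorphisms. -/
theorem s35nw_hecke_period (f : CuspForm (Gamma0 L) 2) :
    s29lat_heckeHom L ℓ hℓL (periodMap L f) =
      periodMap L (CuspForm.heckeTLin 2 (Fact.out : ℓ.Prime) hℓL f) := by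
  refine AddMonoidHom.ext fun γ => ?_
  exact (s29lp_main L ℓ hℓL f (Additive.toMul γ)).symm

/-- **The period pairing is Hecke equivariant.** -/
theorem s35nw_hecke_pair (f g : CuspForm (Gamma0 L) 2) :
    s29lat_heckeHom L ℓ hℓL (periodHomPair L (f, g)) =
      periodHomPair L (CuspForm.heckeTLin 2 (Fact.out : ℓ.Prime) hℓL f,
        CuspForm.heckeTLin 2 (Fact.out : ℓ.Prime) hℓL g) := by
  rw [s35nw_pair_apply, s35nw_pair_apply, ← s35nw_heckeAdd_apply, map_add, map_add, map_sub,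
    s35nw_heckeAdd_apply, s35nw_heckeAdd_apply, s35nw_heckeAdd_apply, s35nw_heckeAdd_apply,
    s35nw_hecke_inv, s35nw_hecke_inv, s35nw_hecke_period, s35nw_hecke_period]

end Per

section Main

variable (L : ℕ) [NeZero L]

/-- **[NW-PER]** if the eigensystem `a` does not occur at level `L`, every parabolic class of
level `L` on which the good coset Hecke operators act through `a` is `0`. -/
theorem s35nw_per (N' : ℕ) (hLN : L ∣ N') (a : ℕ → ℂ)
    (hno : ¬ ∃ g' : CuspForm (Gamma0 L) 2, g'.IsNormalizedEigenform ∧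
      ∀ ℓ : ℕ, ℓ.Prime → ¬ ℓ ∣ N' → qCoeff g' ℓ = a ℓ)
    (v : Additive (Gamma0 L) →+ ℂ) (hv : v ∈ parabolicHoms ℂ (Gamma0 L) ℂ)
    (hT : ∀ (ℓ : ℕ) [Fact ℓ.Prime] (hℓL : ¬ ℓ ∣ L), ¬ ℓ ∣ N' →
      s29lat_heckeHom L ℓ hℓL v = a ℓ • v) :
    v = 0 := by
  obtain ⟨hinj, hrange⟩ := Fermat.Agent.S21.result L
  rw [← hrange] at hv
  obtain ⟨⟨h₁, h₂⟩, rfl⟩ := hv
  have key : ∀ (ℓ : ℕ) (hℓ : ℓ.Prime) (hℓL : ¬ ℓ ∣ L), ¬ ℓ ∣ N' →
      CuspForm.heckeTLin 2 hℓ hℓL h₁ = a ℓ • h₁ ∧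
        CuspForm.heckeTLin 2 hℓ hℓL h₂ = a ℓ • h₂ := by
    intro ℓ hℓ hℓL hℓN
    haveI : Fact ℓ.Prime := ⟨hℓ⟩
    have h1 := hT ℓ hℓL hℓN
    rw [s35nw_hecke_pair, ← map_smul] at h1
    have h2 := hinj h1
    rw [Prod.smul_mk, Prod.mk.injEq] at h2
    exact h2
  have e1 : h₁ = 0 := s35nw_eig_zero N' hLN a hno h₁ fun ℓ hℓ hℓL hℓN => (key ℓ hℓ hℓL hℓN).1
  have e2 : h₂ = 0 := s35nw_eig_zero N' hLN a hno h₂ fun ℓ hℓ hℓL hℓN => (key ℓ hℓ hℓL hℓN).2
  rw [e1, e2]
  exact map_zero (periodHomPair L)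

/-- **[NW-PER] for a newform.** -/
theorem s35nw_per_newform {N : ℕ} {g : CuspForm (Gamma0 N) 2} (hg : g.IsNewform)
    (hLN : L ∣ N) (hne : L ≠ N) (v : Additive (Gamma0 L) →+ ℂ)
    (hv : v ∈ parabolicHoms ℂ (Gamma0 L) ℂ)
    (hT : ∀ (ℓ : ℕ) [Fact ℓ.Prime] (hℓL : ¬ ℓ ∣ L), ¬ ℓ ∣ N →
      s29lat_heckeHom L ℓ hℓL v = qCoeff g ℓ • v) :
    v = 0 :=
  s35nw_per L N hLN (fun ℓ => qCoeff g ℓ) (hg.2 L hLN hne) v hv hT

end Main

end Fermat.Agent.S35
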