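/-
S35, leaf [N-NEW], part (C) (owner: helper2).  Prefix `s35nw_`.

THE PERIODS OF A NEWFORM ARE KILLED BY THE TRANSFERS.  `g` a newform of level `M * q`
(`q` prime), `cor : Hom(Γ₀(M q), ℂ) → Hom(Γ₀(M), ℂ)` an additive map which is `ℂ`-homogeneous,
preserves the parabolic classes and commutes with the coset Hecke operators `T_ℓ`,
`ℓ ∤ M q`.  Then `cor (periodMap g) = 0`:

* `s35nw_new_of`   : the parametric statement;
* `s35nw_newA_of`, `s35nw_newB_of` : for helper11's transfers `s35c_corA`, `s35c_corB`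
                     (`S35/Cor.lean`), from their two properties [COR-PAR], [COR-HECKE];
* `s35nw_new_smul` : the same for every multiple `c • periodMap g`.

Proof: `v := cor (periodMap g)` is a parabolic class of level `M` with
`T_ℓ v = cor (T_ℓ (periodMap g)) = cor (periodMap (T_ℓ g)) = a_ℓ(g) • v` for `ℓ ∤ M q`
([LAT-PER], [LAT-EIG]); `M` is a proper divisor of `M q`, so `v = 0` by `s35nw_per_newform`.
-/
import Mathlib
import Fermat.Agent.S29.LatEig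
import Fermat.Agent.S35.Cor
import Fermat.Agent.S35.NNewPer

set_option autoImplicit false
set_option linter.unusedVariables false
set_option linter.unusedSectionVars false
set_option linter.style.haveILetI false

namespace Fermat.Agent.S35

open CongruenceSubgroup ModularCurve ModularCurve.Period Matrix.SpecialLinearGroup
open scoped MatrixGroups
open CuspForm ModularFormClass
open Fermat.Agent.S29

section New

variable (M q : ℕ) [NeZero M]

/-- `M` is a proper divisor of `M * q` for a prime `q`. -/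
theorem s35nw_ne_mul (hq : q.Prime) : M ≠ M * q := by
  intro h
  have h1 : M * 1 = M * q := by rw [mul_one]; exact h
  have h2 := Nat.eq_of_mul_eq_mul_left (Nat.pos_of_ne_zero (NeZero.ne M)) h1
  exact hq.one_lt.ne h2

/-- **[N-NEW], parametric form.** -/
theorem s35nw_new_of (hq : q.Prime) {g : CuspForm (Gamma0 (M * q)) 2} (hg : g.IsNewform)
    (cor : (Additive (Gamma0 (M * q)) →+ ℂ) →+ (Additive (Gamma0 M) →+ ℂ))
    (hsmul : ∀ (c : ℂ) (ψ : Additive (Gamma0 (M * q)) →+ ℂ), cor (c • ψ) = c • cor ψ)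
    (hpar : ∀ ψ ∈ parabolicHoms ℂ (Gamma0 (M * q)) ℂ, cor ψ ∈ parabolicHoms ℂ (Gamma0 M) ℂ)
    (hhecke : ∀ (ℓ : ℕ) [Fact ℓ.Prime] (hℓ : ¬ ℓ ∣ M * q) (hℓM : ¬ ℓ ∣ M)
      (ψ : Additive (Gamma0 (M * q)) →+ ℂ),
      cor (s29lat_heckeHom (M * q) ℓ hℓ ψ) = s29lat_heckeHom M ℓ hℓM (cor ψ)) :
    cor (periodMap (M * q) g) = 0 := by
  haveI : NeZero (M * q) := ⟨Nat.mul_ne_zero (NeZero.ne M) hq.ne_zero⟩
  refine s35nw_per_newform M hg (Dvd.intro q rfl) (s35nw_ne_mul M q hq) _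
    (hpar _ (s29lp_mem g)) ?_
  intro ℓ _ hℓM hℓ
  rw [← hhecke ℓ hℓ hℓM, s35nw_hecke_period, s29le_main hg.1 (Fact.out : ℓ.Prime) hℓ,
    s29lp_smul, hsmul]

/-- The same for every multiple of the period homomorphism. -/
theorem s35nw_new_smul (hq : q.Prime) {g : CuspForm (Gamma0 (M * q)) 2} (hg : g.IsNewform)
    (cor : (Additive (Gamma0 (M * q)) →+ ℂ) →+ (Additive (Gamma0 M) →+ ℂ))
    (hsmul : ∀ (c : ℂ) (ψ : Additive (Gamma0 (M * q)) →+ ℂ), cor (c • ψ) = c • cor ψ)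
    (hpar : ∀ ψ ∈ parabolicHoms ℂ (Gamma0 (M * q)) ℂ, cor ψ ∈ parabolicHoms ℂ (Gamma0 M) ℂ)
    (hhecke : ∀ (ℓ : ℕ) [Fact ℓ.Prime] (hℓ : ¬ ℓ ∣ M * q) (hℓM : ¬ ℓ ∣ M)
      (ψ : Additive (Gamma0 (M * q)) →+ ℂ),
      cor (s29lat_heckeHom (M * q) ℓ hℓ ψ) = s29lat_heckeHom M ℓ hℓM (cor ψ)) (c : ℂ) :
    cor (c • periodMap (M * q) g) = 0 := by
  rw [hsmul, s35nw_new_of M q hq hg cor hsmul hpar hhecke, smul_zero]

/-- Scalar multiplication on homomorphisms as a composition. -/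
theorem s35nw_smul_eq_comp {G : Type*} [AddZeroClass G] (c : ℂ) (ψ : G →+ ℂ) :
    c • ψ = (AddMonoidHom.mulLeft c).comp ψ := by
  refine AddMonoidHom.ext fun γ => ?_
  rfl

/-- The first transfer is `ℂ`-homogeneous. -/
theorem s35nw_corA_smul (c : ℂ) (ψ : Additive (Gamma0 (M * q)) →+ ℂ) :
    s35c_corA M q (c • ψ) = c • s35c_corA M q ψ := by
  rw [s35nw_smul_eq_comp, s35c_corA_comp, ← s35nw_smul_eq_comp]

/-- The second transfer is `ℂ`-homogeneous. -/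
theorem s35nw_corB_smul (c : ℂ) (ψ : Additive (Gamma0 (M * q)) →+ ℂ) :
    s35c_corB M q (c • ψ) = c • s35c_corB M q ψ := by
  rw [s35nw_smul_eq_comp, s35c_corB_comp, ← s35nw_smul_eq_comp]

/-- **[N-NEW] for the first transfer**, from [COR-PAR] and [COR-HECKE]. -/
theorem s35nw_newA_of (hq : q.Prime) {g : CuspForm (Gamma0 (M * q)) 2} (hg : g.IsNewform)
    (hpar : ∀ ψ ∈ parabolicHoms ℂ (Gamma0 (M * q)) ℂ,
      s35c_corA M q ψ ∈ parabolicHoms ℂ (Gamma0 M) ℂ)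
    (hhecke : ∀ (ℓ : ℕ) [Fact ℓ.Prime] (hℓ : ¬ ℓ ∣ M * q) (hℓM : ¬ ℓ ∣ M)
      (ψ : Additive (Gamma0 (M * q)) →+ ℂ),
      s35c_corA M q (s29lat_heckeHom (M * q) ℓ hℓ ψ) =
        s29lat_heckeHom M ℓ hℓM (s35c_corA M q ψ)) :
    s35c_corA M q (periodMap (M * q) g) = 0 :=
  s35nw_new_of M q hq hg (s35c_corA M q) (s35nw_corA_smul M q) hpar hhecke

/-- **[N-NEW] for the second transfer**, from [COR-PAR] and [COR-HECKE]. -/
theorem s35nw_newB_of (hq : q.Prime) {g : CuspForm (Gamma0 (M * q)) 2} (hg : g.IsNewform)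
    (hpar : ∀ ψ ∈ parabolicHoms ℂ (Gamma0 (M * q)) ℂ,
      s35c_corB M q ψ ∈ parabolicHoms ℂ (Gamma0 M) ℂ)
    (hhecke : ∀ (ℓ : ℕ) [Fact ℓ.Prime] (hℓ : ¬ ℓ ∣ M * q) (hℓM : ¬ ℓ ∣ M)
      (ψ : Additive (Gamma0 (M * q)) →+ ℂ),
      s35c_corB M q (s29lat_heckeHom (M * q) ℓ hℓ ψ) =
        s29lat_heckeHom M ℓ hℓM (s35c_corB M q ψ)) :
    s35c_corB M q (periodMap (M * q) g) = 0 :=
  s35nw_new_of M q hq hg (s35c_corB M q) (s35nw_corB_smul M q) hpar hhecke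

end New

end Fermat.Agent.S35
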