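/-
S35, [N-NEW] (helper2): the two transfers of the period homomorphism of a newform of level `M q`,
`q ∤ M`, to the level `M` vanish.  Prefix `s35nw_`.

`s35nw_main : s35_NNewStatement` (VERBATIM `S35/NModDefs.lean`), from
* `s35nw_newA_of` / `s35nw_newB_of` (`S35/NNewCor.lean`: S21 + the joint eigenspace argument),
* [COR-PAR] `s35c_corA_par` / `s35c_corB_par` (`S35/CorPar.lean`, helper11),
* [COR-HECKE] `s35c_corA_hecke` / `s35c_corB_hecke` (`S35/CorHecke.lean`, helper11).
-/
import Mathlib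
import Fermat.Agent.S35.NModDefs
import Fermat.Agent.S35.NNewCor
import Fermat.Agent.S35.CorPar
import Fermat.Agent.S35.CorHecke

set_option autoImplicit false

open ModularCurve ModularCurve.Period CongruenceSubgroup

namespace Fermat.Agent.S35

open Fermat.Agent.S29

/-- **[N-NEW], first transfer.** -/
theorem s35nw_newA (M q : ℕ) [NeZero M] [NeZero q] (hq : q.Prime)
    {g : CuspForm (Gamma0 (M * q)) 2} (hg : g.IsNewform) :
    s35c_corA M q (periodMap (M * q) g) = 0 :=
  s35nw_newA_of M q hq hg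
    (fun ψ hψ => s35c_corA_par M q s35c_torsionFree_complex ψ hψ)
    (fun ℓ _ hℓ hℓM ψ => s35c_corA_hecke M q ℓ hℓ hℓM ψ)

/-- **[N-NEW], second transfer.** -/
theorem s35nw_newB (M q : ℕ) [NeZero M] [NeZero q] (hq : q.Prime)
    {g : CuspForm (Gamma0 (M * q)) 2} (hg : g.IsNewform) :
    s35c_corB M q (periodMap (M * q) g) = 0 :=
  s35nw_newB_of M q hq hg
    (fun ψ hψ => s35c_corB_par M q s35c_torsionFree_complex ψ hψ)
    (fun ℓ _ hℓ hℓM ψ => s35c_corB_hecke M q ℓ hℓ hℓM ψ)

/-- **[N-NEW]** (`s35_NNewStatement`, VERBATIM `S35/NModDefs.lean`). -/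
theorem s35nw_main : s35_NNewStatement := by
  intro M q _ _ hq _ g hg
  exact ⟨s35nw_newA M q hq hg, s35nw_newB M q hq hg⟩

end Fermat.Agent.S35
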