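/-
S35, leaf [N-LAT], the complex eigenvector (owner: helper2).  Prefix `s35nl_`.

`g` a newform of level `M`, `Λ' = s35nl_ker M ⊆ Λ = parabolicHoms ℤ Γ₀(M) ℤ` the lattice killed by
all transfers (`S35/NLatKer.lean`).

* `s35nl_corA_comb` / `s35nl_corB_comb` : the transfers of a complex combination of integral
  homomorphisms;
* `s35nl_period_killed` : the period homomorphism of a newform is killed by all transfers
  ([N-NEW], `s35nw_main`);
* `s35nl_vec` : THERE IS `v' ≠ 0` IN `ℂ ⊗ Λ'` WITH `T_ℓ v' = a_ℓ(g) v'` FOR ALL PRIMES `ℓ ∤ M`.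

Proof of `s35nl_vec`: `v₀ = periodMap g = ∑ c_i λ_i` with `λ_i ∈ Λ` ([LAT-FREE]).  The transfers
of `v₀` vanish: an integral linear system for the `c_i`.  By `s35nl_span` the vector `c` is a
complex combination of integral solutions `y_s`, i.e. `v₀ = ∑ d_s κ_s` with
`κ_s = ∑ y_s(i) λ_i ∈ Λ'`.  `v' := ∑ d_s ⊗ κ_s`; its image in `ℂ ⊗ Λ` evaluates to `v₀`, which is
a non-zero eigenvector ([LAT-PER], [LAT-EIG], S21); `ℂ ⊗ Λ' → ℂ ⊗ Λ → Map(Γ₀(M), ℂ)` is injective.
-/
import Mathlib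
import Fermat.Agent.S29.LatDefs
import Fermat.Agent.S29.LatHom
import Fermat.Agent.S29.LatAsm
import Fermat.Agent.S29.LatPer
import Fermat.Agent.S29.LatFreeMain
import Fermat.Agent.S35.NLatAbs
import Fermat.Agent.S35.NLatKer
import Fermat.Agent.S35.NNewMain

set_option autoImplicit false
set_option linter.unusedVariables false
set_option linter.unusedSectionVars false
set_option linter.style.haveILetI false

open ModularCurve ModularCurve.Period CongruenceSubgroup
open scoped TensorProduct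

noncomputable section

namespace Fermat.Agent.S35

open Fermat.Agent.S29

section Comb

variable (M' q : ℕ) [NeZero M']

/-- A complex combination of integral homomorphisms, as a homomorphism. -/
theorem s35nl_comb_eq {G : Type*} [AddZeroClass G] {n : ℕ} (lam : Fin n → G →+ ℤ)
    (c : Fin n → ℂ) (v₀ : G →+ ℂ)
    (hc : ∀ γ : G, v₀ γ = ∑ i, c i * ((lam i γ : ℤ) : ℂ)) :
    v₀ = ∑ i, c i • (Int.castAddHom ℂ).comp (lam i) := by
  refine AddMonoidHom.ext fun γ => ?_
  rw [hc γ, AddMonoidHom.finset_sum_apply]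
  rfl

/-- The first transfer of a complex combination of integral homomorphisms. -/
theorem s35nl_corA_comb {n : ℕ} (lam : Fin n → Additive (Gamma0 (M' * q)) →+ ℤ)
    (c : Fin n → ℂ) (v₀ : Additive (Gamma0 (M' * q)) →+ ℂ)
    (hc : ∀ γ : Additive (Gamma0 (M' * q)), v₀ γ = ∑ i, c i * ((lam i γ : ℤ) : ℂ))
    (γ' : Additive (Gamma0 M')) :
    s35c_corA M' q v₀ γ' = ∑ i, c i * ((s35c_corA M' q (lam i) γ' : ℤ) : ℂ) := by
  rw [s35nl_comb_eq lam c v₀ hc, map_sum, AddMonoidHom.finset_sum_apply]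
  refine Finset.sum_congr rfl fun i _ => ?_
  rw [s35nw_corA_smul, s35c_corA_comp]
  rfl

/-- The second transfer of a complex combination of integral homomorphisms. -/
theorem s35nl_corB_comb {n : ℕ} (lam : Fin n → Additive (Gamma0 (M' * q)) →+ ℤ)
    (c : Fin n → ℂ) (v₀ : Additive (Gamma0 (M' * q)) →+ ℂ)
    (hc : ∀ γ : Additive (Gamma0 (M' * q)), v₀ γ = ∑ i, c i * ((lam i γ : ℤ) : ℂ))
    (γ' : Additive (Gamma0 M')) :
    s35c_corB M' q v₀ γ' = ∑ i, c i * ((s35c_corB M' q (lam i) γ' : ℤ) : ℂ) := by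
  rw [s35nl_comb_eq lam c v₀ hc, map_sum, AddMonoidHom.finset_sum_apply]
  refine Finset.sum_congr rfl fun i _ => ?_
  rw [s35nw_corB_smul, s35c_corB_comp]
  rfl

end Comb

section Cast

/-- The transfers of a complex combination, through the identification of the levels. -/
theorem s35nl_cast_comb {M : ℕ} (M' q : ℕ) [NeZero M'] (h : M = M' * q) {n : ℕ}
    (lam : Fin n → Additive (Gamma0 M) →+ ℤ)
    (c : Fin n → ℂ) (v₀ : Additive (Gamma0 M) →+ ℂ)
    (hc : ∀ γ : Additive (Gamma0 M), v₀ γ = ∑ i, c i * ((lam i γ : ℤ) : ℂ))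
    (γ' : Additive (Gamma0 M')) :
    s35c_corA M' q (s35_castG h v₀) γ' =
        ∑ i, c i * ((s35c_corA M' q (s35_castG h (lam i)) γ' : ℤ) : ℂ) ∧
      s35c_corB M' q (s35_castG h v₀) γ' =
        ∑ i, c i * ((s35c_corB M' q (s35_castG h (lam i)) γ' : ℤ) : ℂ) := by
  subst h
  simp only [s35_castG_rfl]
  exact ⟨s35nl_corA_comb M' q lam c v₀ hc γ', s35nl_corB_comb M' q lam c v₀ hc γ'⟩

/-- **The period homomorphism of a newform is killed by all transfers** ([N-NEW]). -/
theorem s35nl_period_killed {M : ℕ} {g : CuspForm (Gamma0 M) 2} (hg : g.IsNewform) :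
    s35nl_Killed M (periodMap M g) := by
  intro M' q _ _ h hq hqM
  subst h
  rw [s35_castG_rfl]
  exact ⟨s35nw_newA M' q hq hg, s35nw_newB M' q hq hg⟩

end Cast

section Rows

variable (M : ℕ) {n : ℕ} (lam : Fin n → ↥(parabolicHoms ℤ (Gamma0 M) ℤ))

/-- The rows of the integral linear system "killed by all transfers". -/
def s35nl_rows : Set (Fin n → ℤ) :=
  {F | ∃ (M' q : ℕ) (_ : NeZero M') (_ : NeZero q) (h : M = M' * q) (_ : q.Prime)
      (_ : ¬ q ∣ M') (γ' : Additive (Gamma0 M')),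
      F = (fun i => s35c_corA M' q (s35_castG h (lam i : Additive (Gamma0 M) →+ ℤ)) γ') ∨
      F = (fun i => s35c_corB M' q (s35_castG h (lam i : Additive (Gamma0 M) →+ ℤ)) γ')}

/-- An integral solution of the system gives an element of `Λ'`. -/
theorem s35nl_rows_mem (y : Fin n → ℤ)
    (hy : ∀ F ∈ s35nl_rows M lam, ∑ i, y i * F i = 0) :
    ∑ i, y i • lam i ∈ s35nl_ker M := by
  rw [s35nl_mem_ker]
  intro M' q _ _ h hq hqM
  have hcoe : ((∑ i, y i • lam i : ↥(parabolicHoms ℤ (Gamma0 M) ℤ)) : Additive (Gamma0 M) →+ ℤ) =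
      ∑ i, y i • (lam i : Additive (Gamma0 M) →+ ℤ) := by
    rw [Submodule.coe_sum]
    rfl
  rw [hcoe]
  constructor
  · refine AddMonoidHom.ext fun γ' => ?_
    rw [map_sum, map_sum, AddMonoidHom.finset_sum_apply, AddMonoidHom.zero_apply]
    rw [← hy _ ⟨M', q, inferInstance, inferInstance, h, hq, hqM, γ', Or.inl rfl⟩]
    refine Finset.sum_congr rfl fun i _ => ?_
    rw [map_zsmul, map_zsmul]
    rfl
  · refine AddMonoidHom.ext fun γ' => ?_
    rw [map_sum, map_sum, AddMonoidHom.finset_sum_apply, AddMonoidHom.zero_apply]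
    rw [← hy _ ⟨M', q, inferInstance, inferInstance, h, hq, hqM, γ', Or.inr rfl⟩]
    refine Finset.sum_congr rfl fun i _ => ?_
    rw [map_zsmul, map_zsmul]
    rfl

/-- A complex combination which is killed by all transfers solves the system. -/
theorem s35nl_rows_of_killed [NeZero M] (c : Fin n → ℂ) (v₀ : Additive (Gamma0 M) →+ ℂ)
    (hc : ∀ γ : Additive (Gamma0 M),
      v₀ γ = ∑ i, c i * (((lam i : Additive (Gamma0 M) →+ ℤ) γ : ℤ) : ℂ))
    (hv : s35nl_Killed M v₀) :
    ∀ F ∈ s35nl_rows M lam, ∑ i, c i * (F i : ℂ) = 0 := by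
  rintro F ⟨M', q, i1, i2, h, hq, hqM, γ', hF | hF⟩
  · obtain ⟨h1, -⟩ := s35nl_cast_comb M' q h (fun i => (lam i : Additive (Gamma0 M) →+ ℤ)) c v₀
      hc γ'
    rw [hF, ← h1, (hv M' q h hq hqM).1]
    rfl
  · obtain ⟨-, h1⟩ := s35nl_cast_comb M' q h (fun i => (lam i : Additive (Gamma0 M) →+ ℤ)) c v₀
      hc γ'
    rw [hF, ← h1, (hv M' q h hq hqM).2]
    rfl

end Rows

end Fermat.Agent.S35
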