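/-
S35, leaf [N-LAT], the complex eigenvector in `ℂ ⊗ Λ'` (owner: helper2).  Prefix `s35nl_`.

`g` a newform of level `M`, `Λ' = s35nl_ker M`.

* `s35nl_incl M : ℂ ⊗ Λ' → ℂ ⊗ Λ`, injective (`s35nl_incl_injective`), Hecke equivariant
  (`s35nl_incl_T`);
* `s35nl_vec` : THERE IS `v' ≠ 0` IN `ℂ ⊗ Λ'` WITH `T_ℓ v' = a_ℓ(g) v'` FOR ALL PRIMES `ℓ ∤ M`.
-/
import Mathlib
import Fermat.Agent.S35.NLatVec

set_option autoImplicit false
set_option linter.unusedVariables false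
set_option linter.unusedSectionVars false
set_option linter.style.haveILetI false

open ModularCurve ModularCurve.Period CongruenceSubgroup
open scoped TensorProduct

noncomputable section

namespace Fermat.Agent.S35

open Fermat.Agent.S29

section Vec

variable (M : ℕ)

/-- The inclusion `ℂ ⊗ Λ' → ℂ ⊗ Λ`. -/
def s35nl_incl : ℂ ⊗[ℤ] ↥(s35nl_ker M) →ₗ[ℂ] ℂ ⊗[ℤ] ↥(parabolicHoms ℤ (Gamma0 M) ℤ) :=
  LinearMap.baseChange ℂ (s35nl_ker M).subtype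

theorem s35nl_incl_tmul (c : ℂ) (κ : ↥(s35nl_ker M)) :
    s35nl_incl M (c ⊗ₜ[ℤ] κ) = c ⊗ₜ[ℤ] (κ : ↥(parabolicHoms ℤ (Gamma0 M) ℤ)) := rfl

theorem s35nl_incl_injective : Function.Injective (s35nl_incl M) :=
  s35nl_baseChange_injective _ (Submodule.injective_subtype _)

/-- The restriction of `T_ℓ` to `Λ'`. -/
def s35nl_T (ℓ : ℕ) [Fact ℓ.Prime] (hℓM : ¬ ℓ ∣ M) : Module.End ℤ ↥(s35nl_ker M) :=
  (s29lat_T M ℓ hℓM).restrict (s35nl_ker_hecke M ℓ hℓM)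

theorem s35nl_incl_T (ℓ : ℕ) [Fact ℓ.Prime] (hℓM : ¬ ℓ ∣ M) (x : ℂ ⊗[ℤ] ↥(s35nl_ker M)) :
    s35nl_incl M (LinearMap.baseChange ℂ (s35nl_T M ℓ hℓM) x) =
      LinearMap.baseChange ℂ (s29lat_T M ℓ hℓM) (s35nl_incl M x) := by
  have hcomm : (s35nl_ker M).subtype ∘ₗ s35nl_T M ℓ hℓM =
      s29lat_T M ℓ hℓM ∘ₗ (s35nl_ker M).subtype := LinearMap.ext fun x => rfl
  unfold s35nl_incl
  rw [← LinearMap.comp_apply, ← LinearMap.comp_apply, ← LinearMap.baseChange_comp,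
    ← LinearMap.baseChange_comp, hcomm]

variable [NeZero M]

/-- **The complex eigenvector in `ℂ ⊗ Λ'`.** -/
theorem s35nl_vec {g : CuspForm (Gamma0 M) 2} (hg : g.IsNewform) :
    ∃ v' : ℂ ⊗[ℤ] ↥(s35nl_ker M), v' ≠ 0 ∧
      ∀ (ℓ : ℕ) [Fact ℓ.Prime] (hℓM : ¬ ℓ ∣ M),
        LinearMap.baseChange ℂ (s35nl_T M ℓ hℓM) v' = ModularFormClass.qCoeff g ℓ • v' := by
  classical
  obtain ⟨-, -, -, hspan⟩ := s29lf_main M
  set v₀ : Additive (Gamma0 M) →+ ℂ := periodMap M g with hv₀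
  have hpar : v₀ ∈ parabolicHoms ℂ (Gamma0 M) ℂ := s29lp_mem g
  have hne : v₀ ≠ 0 := s29lp_ne_zero hg.ne_zero
  obtain ⟨n, lam, c, hc⟩ := hspan v₀ hpar
  have hc' : ∀ γ : Additive (Gamma0 M),
      v₀ γ = ∑ i, c i * (((lam i : Additive (Gamma0 M) →+ ℤ) γ : ℤ) : ℂ) :=
    fun γ => hc (Additive.toMul γ)
  have hrows := s35nl_rows_of_killed M lam c v₀ hc' (s35nl_period_killed hg)
  obtain ⟨J, T, y, d, hy, hcd⟩ := s35nl_span (s35nl_rows M lam) c hrows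
  set κ : J → ↥(s35nl_ker M) :=
    fun s => ⟨∑ i, y s i • lam i, s35nl_rows_mem M lam (y s) (hy s)⟩ with hκ
  set v' : ℂ ⊗[ℤ] ↥(s35nl_ker M) := ∑ s ∈ T, d s ⊗ₜ[ℤ] κ s with hv'
  have hκγ : ∀ (s : J) (γ : Gamma0 M),
      (((κ s : ↥(parabolicHoms ℤ (Gamma0 M) ℤ)) : Additive (Gamma0 M) →+ ℤ)
        (Additive.ofMul γ) : ℤ) =
      ∑ i, y s i * (lam i : Additive (Gamma0 M) →+ ℤ) (Additive.ofMul γ) := by
    intro s γ
    have h1 : ((κ s : ↥(parabolicHoms ℤ (Gamma0 M) ℤ)) : Additive (Gamma0 M) →+ ℤ) =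
        ∑ i, y s i • (lam i : Additive (Gamma0 M) →+ ℤ) := by
      show ((∑ i, y s i • lam i : ↥(parabolicHoms ℤ (Gamma0 M) ℤ)) :
        Additive (Gamma0 M) →+ ℤ) = _
      rw [Submodule.coe_sum]
      rfl
    rw [h1, AddMonoidHom.finset_sum_apply]
    rfl
  have hev : s29lat_ev M (s35nl_incl M v') = fun γ => v₀ (Additive.ofMul γ) := by
    funext γ
    rw [hv', map_sum, map_sum, Finset.sum_apply, hc γ]
    have h1 : ∀ s, s29lat_ev M (s35nl_incl M (d s ⊗ₜ[ℤ] κ s)) γ =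
        ∑ i, d s * (y s i : ℂ) *
          (((lam i : Additive (Gamma0 M) →+ ℤ) (Additive.ofMul γ) : ℤ) : ℂ) := by
      intro s
      rw [s35nl_incl_tmul, s29lat_ev_tmul, hκγ, Int.cast_sum, Finset.mul_sum]
      refine Finset.sum_congr rfl fun i _ => ?_
      rw [Int.cast_mul, mul_assoc]
    simp only [h1]
    rw [Finset.sum_comm]
    refine Finset.sum_congr rfl fun i _ => ?_
    rw [hcd i, Finset.sum_mul]
  have hinj := s29lat_ev_injective M s29lf_main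
  have hv'ne : v' ≠ 0 := by
    intro h0
    apply hne
    refine AddMonoidHom.ext fun γ => ?_
    have := congrFun hev (Additive.toMul γ)
    rw [h0, map_zero, map_zero] at this
    exact this.symm
  refine ⟨v', hv'ne, fun ℓ _ hℓM => ?_⟩
  apply s35nl_incl_injective
  rw [s35nl_incl_T, map_smul]
  apply hinj
  rw [s29lat_ev_T, map_smul, hev]
  funext γ
  rw [s29lat_funOp_apply, Pi.smul_apply, smul_eq_mul]
  have h1 := s29lp_eigen hg.1 ℓ hℓM γ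
  rw [s29lat_heckeFun_def] at h1
  exact h1

end Vec

end Fermat.Agent.S35
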