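/-
S35, leaf [N-LAT], THE STATEMENT (owner: helper2).  Prefix `s35nl_`.

`s35nl_main : s35_NLatStatement` (VERBATIM `S35/NModDefs.lean`), hypothesis-free.

`Λ' := s35nl_ker M` (`S35/NLatKer.lean`): saturated, Hecke stable, killed by all transfers.
The eigenvector: `s35nl_vec` (`S35/NLatEig.lean`) gives `v' ≠ 0` in `ℂ ⊗ Λ'` with
`T_ℓ v' = a_ℓ(g) v' = chig(T_ℓ) v'`.  `iota : chig.range → 𝒪` is injective (`chig.range` is
integral over `ℤ`, `𝒪` is a domain of characteristic `0`: `s35nl_injective_of_integral`), so `chig`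
and `iota ∘ chig` have the same kernel, and the eigenvector is transferred to `Frac 𝒪 ⊗ Λ'`
(`s30l_transfer`, S30) and then to `𝒪 ⊗ Λ'` (`s30l_integral`, S30).
-/
import Mathlib
import Fermat.Agent.S22.Main
import Fermat.Agent.S22.HeckeFinite
import Fermat.Agent.S30.Lat30
import Fermat.Agent.S35.NLatEig

set_option autoImplicit false
set_option linter.unusedVariables false
set_option linter.unusedSectionVars false
set_option linter.style.haveILetI false

open ModularCurve ModularCurve.Period CongruenceSubgroup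
open scoped TensorProduct
open Matrix

noncomputable section

namespace Fermat.Agent.S35

open Fermat.Agent.S29 Fermat.Agent.S30

/-- A ring homomorphism from a domain which is integral over `ℤ` to a ring of characteristic
`0` is injective. -/
theorem s35nl_injective_of_integral {R 𝒪 : Type*} [CommRing R] [IsDomain R] [CommRing 𝒪]
    [CharZero 𝒪] (hR : ∀ x : R, IsIntegral ℤ x) (f : R →+* 𝒪) : Function.Injective f := by
  rw [injective_iff_map_eq_zero]
  intro x hx
  by_contra hx0
  have h1 := Ideal.comap_ne_bot_of_integral_mem (R := ℤ) (I := RingHom.ker f) hx0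
    ((RingHom.mem_ker).mpr hx) (hR x)
  apply h1
  rw [eq_bot_iff]
  intro n hn
  rw [Ideal.mem_comap, RingHom.mem_ker] at hn
  have h2 : ((n : ℤ) : 𝒪) = 0 := by
    rw [← hn]
    simp
  rw [Ideal.mem_bot]
  exact_mod_cast h2

/-- The range of a character of the Hecke algebra is integral over `ℤ`. -/
theorem s35nl_range_integral (M : ℕ) [NeZero M] (S : Set ℕ)
    (chig : CuspForm.heckeAlgebra M 2 S →+* ℂ) (x : chig.range) : IsIntegral ℤ x := by
  haveI : Module.Finite ℤ (CuspForm.heckeAlgebra M 2 S) :=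
    Fermat.Agent.S22.moduleFinite_heckeAlgebra_of_hasIntegralStructure M 2 S
      (fun _ => Fermat.Agent.S22.hasIntegralStructure M 2)
  obtain ⟨t, ht⟩ := chig.rangeRestrict_surjective x
  rw [← ht]
  exact map_isIntegral_int chig.rangeRestrict (Algebra.IsIntegral.isIntegral t)

/-- `iota` is injective. -/
theorem s35nl_iota_injective (M : ℕ) [NeZero M] (S : Set ℕ) (𝒪 : Type) [CommRing 𝒪]
    [CharZero 𝒪] (chig : CuspForm.heckeAlgebra M 2 S →+* ℂ) (iota : chig.range →+* 𝒪) :
    Function.Injective iota :=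
  s35nl_injective_of_integral (s35nl_range_integral M S chig) iota

/-- **[N-LAT]** (`s35_NLatStatement`, VERBATIM `S35/NModDefs.lean`). -/
theorem s35nl_main : s35_NLatStatement := by
  intro M _ g hg S 𝒪 _ _ _ chig hchig iota
  classical
  refine ⟨s35nl_ker M, fun ℓ _ hℓM _ => s35nl_ker_hecke M ℓ hℓM,
    fun n c hn h => s35nl_ker_saturated M n c hn h,
    fun c hc M' q _ _ h hq hqM => s35nl_ker_killed M c hc M' q h hq hqM, ?_⟩
  obtain ⟨v', hv'0, hv'⟩ := s35nl_vec M hg
  obtain ⟨hfin, hfree, -, -⟩ := s29lf_main M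
  haveI := hfin
  haveI := hfree
  haveI : Module.Finite ℤ ↥(s35nl_ker M) := inferInstance
  haveI : Module.Free ℤ ↥(s35nl_ker M) := inferInstance
  set b := Module.Free.chooseBasis ℤ ↥(s35nl_ker M) with hb
  haveI : CharZero (FractionRing 𝒪) :=
    charZero_of_injective_algebraMap (IsFractionRing.injective 𝒪 (FractionRing 𝒪))
  have hiota : Function.Injective iota := s35nl_iota_injective M S 𝒪 chig iota
  let ι : Type := {ℓ : ℕ // ℓ.Prime ∧ ¬ ℓ ∣ M ∧ ℓ ∉ S}
  let Mat : ι → Matrix _ _ ℤ := fun i =>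
    haveI : Fact i.1.Prime := ⟨i.2.1⟩
    LinearMap.toMatrix b b (s35nl_T M i.1 i.2.2.1)
  let α : ι → CuspForm.heckeAlgebra M 2 S := fun i =>
    CuspForm.heckeAlgebra.T i.2.1 i.2.2.1 i.2.2.2
  let a : ι → 𝒪 := fun i => (iota.comp chig.rangeRestrict) (α i)
  have hker : ∀ t : CuspForm.heckeAlgebra M 2 S, chig t = 0 ↔
      ((algebraMap 𝒪 (FractionRing 𝒪)).comp (iota.comp chig.rangeRestrict)) t = 0 := by
    intro t
    rw [RingHom.comp_apply, RingHom.comp_apply,
      map_eq_zero_iff _ (IsFractionRing.injective 𝒪 (FractionRing 𝒪)),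
      map_eq_zero_iff _ hiota]
    constructor
    · intro h
      exact Subtype.ext h
    · intro h
      exact congrArg Subtype.val h
  obtain ⟨w, hw0, hw⟩ := s30l_transfer Mat α chig
    ((algebraMap 𝒪 (FractionRing 𝒪)).comp (iota.comp chig.rangeRestrict)) hker
    ((Algebra.TensorProduct.basis ℂ b).equivFun v')
    (fun h0 => hv'0 ((Algebra.TensorProduct.basis ℂ b).equivFun.injective
      (h0.trans (map_zero _).symm)))
    (fun i => by
      haveI : Fact i.1.Prime := ⟨i.2.1⟩
      have h1 := hv' i.1 i.2.2.1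
      rw [← hchig i.1 i.2.1 i.2.2.1 i.2.2.2] at h1
      exact (s30l_matrix_iff ℂ b _ _ v').mp h1)
  obtain ⟨z, hz0, hz⟩ := s30l_integral (K := FractionRing 𝒪) Mat a w hw0 (fun i => hw i)
  refine ⟨(Algebra.TensorProduct.basis 𝒪 b).equivFun.symm z, fun h0 => hz0 ?_,
    fun ℓ inst hℓM hℓS => ?_⟩
  · have h1 := congrArg (Algebra.TensorProduct.basis 𝒪 b).equivFun h0
    rwa [LinearEquiv.apply_symm_apply, map_zero] at h1
  · rw [s30l_matrix_iff 𝒪 b, LinearEquiv.apply_symm_apply]
    exact hz ⟨ℓ, inst.out, hℓM, hℓS⟩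

end Fermat.Agent.S35
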