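/-
S35, [N-MOD], the abstract half (helper16).  Prefix `s35_`.

[TATE-ABS] (`s30m_TateStatement`) on a sublattice: `Λ' ⊆ Λ` saturated and stable under the `t i`,
`J' ⊆ J` the subgroup generated by the conjugates `σ • D k c`, `c ∈ Λ'`.  The quadratic relations
have to be checked on `J'` only.
-/
import Mathlib
import Fermat.Agent.S30.ModDefs

set_option autoImplicit false

open scoped TensorProduct

namespace Fermat.Agent.S35

open Fermat.Agent.S30

/-- The generators of the subgroup `J'`. -/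
def s35_gen {J G Λ : Type} [AddCommGroup J] [Group G] [AddCommGroup Λ]
    (act : G →* AddMonoid.End J) (D : ℕ → Λ →+ J) (Λ' : Submodule ℤ Λ) : Set J :=
  {y | ∃ (σ : G) (k : ℕ), ∃ c ∈ Λ', y = act σ (D k c)}

/-- The subgroup `J'` generated by the conjugates of the classes `D k c`, `c ∈ Λ'`. -/
def s35_sub {J G Λ : Type} [AddCommGroup J] [Group G] [AddCommGroup Λ]
    (act : G →* AddMonoid.End J) (D : ℕ → Λ →+ J) (Λ' : Submodule ℤ Λ) : AddSubgroup J :=
  AddSubgroup.closure (s35_gen act D Λ')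

theorem s35_sub_induction {J G Λ : Type} [AddCommGroup J] [Group G] [AddCommGroup Λ]
    (act : G →* AddMonoid.End J) (D : ℕ → Λ →+ J) (Λ' : Submodule ℤ Λ) (P : J → Prop)
    (h0 : P 0) (hadd : ∀ x y, P x → P y → P (x + y)) (hneg : ∀ x, P x → P (-x))
    (hgen : ∀ (σ : G) (k : ℕ), ∀ c ∈ Λ', P (act σ (D k c))) :
    ∀ x ∈ s35_sub act D Λ', P x := by
  intro x hx
  induction hx using AddSubgroup.closure_induction with
  | mem y hy =>
    obtain ⟨σ, k, c, hc, rfl⟩ := hy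
    exact hgen σ k c hc
  | zero => exact h0
  | add x y _ _ hx hy => exact hadd x y hx hy
  | neg x _ hx => exact hneg x hx

theorem s35_sub_act {J G Λ : Type} [AddCommGroup J] [Group G] [AddCommGroup Λ]
    (act : G →* AddMonoid.End J) (D : ℕ → Λ →+ J) (Λ' : Submodule ℤ Λ) (τ : G) :
    ∀ x ∈ s35_sub act D Λ', act τ x ∈ s35_sub act D Λ' := by
  refine s35_sub_induction act D Λ' _ ?_ ?_ ?_ ?_
  · rw [map_zero]; exact zero_mem _
  · intro x y hx hy; rw [map_add]; exact add_mem hx hy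
  · intro x hx; rw [map_neg]; exact neg_mem hx
  · intro σ k c hc
    refine AddSubgroup.subset_closure ⟨τ * σ, k, c, hc, ?_⟩
    rw [map_mul]
    rfl

theorem s35_sub_theta {J G Λ : Type} [AddCommGroup J] [Group G] [AddCommGroup Λ]
    (act : G →* AddMonoid.End J) (D : ℕ → Λ →+ J) (Λ' : Submodule ℤ Λ)
    (θ : J →+ J) (hθ : ∀ g x, θ (act g x) = act g (θ x)) (t : Λ → Λ)
    (hstab : ∀ c ∈ Λ', t c ∈ Λ') (hDt : ∀ k, ∀ c ∈ Λ', D k (t c) = θ (D k c)) :
    ∀ x ∈ s35_sub act D Λ', θ x ∈ s35_sub act D Λ' := by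
  refine s35_sub_induction act D Λ' _ ?_ ?_ ?_ ?_
  · rw [map_zero]; exact zero_mem _
  · intro x y hx hy; rw [map_add]; exact add_mem hx hy
  · intro x hx; rw [map_neg]; exact neg_mem hx
  · intro σ k c hc
    refine AddSubgroup.subset_closure ⟨σ, k, t c, hstab c hc, ?_⟩
    rw [hθ, hDt k c hc]

theorem s35_sub_D {J G Λ : Type} [AddCommGroup J] [Group G] [AddCommGroup Λ]
    (act : G →* AddMonoid.End J) (D : ℕ → Λ →+ J) (Λ' : Submodule ℤ Λ) (k : ℕ) (c : Λ)
    (hc : c ∈ Λ') : D k c ∈ s35_sub act D Λ' := by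
  refine AddSubgroup.subset_closure ⟨1, k, c, hc, ?_⟩
  rw [map_one]
  rfl

/-- **[TATE-ABS] on a sublattice.** -/
theorem s35_tate_sub (hTate : s30m_TateStatement)
    (p : ℕ) [Fact p.Prime] (𝒪 : Type) [CommRing 𝒪] [IsDomain 𝒪] [IsDiscreteValuationRing 𝒪]
    [IsAdicComplete (IsLocalRing.maximalIdeal 𝒪) 𝒪] [CharZero 𝒪]
    (hp𝒪 : (p : 𝒪) ∈ IsLocalRing.maximalIdeal 𝒪)
    (J : Type) [AddCommGroup J] (hJfin : {x : J | p • x = 0}.Finite)
    (G : Type) [Group G] (act : G →* AddMonoid.End J) (ι : Type) (Θ : ι → J →+ J)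
    (hΘ : ∀ i g x, Θ i (act g x) = act g (Θ i x))
    (Λ : Type) [AddCommGroup Λ] [Module.Finite ℤ Λ] [Module.Free ℤ Λ]
    (t : ι → Module.End ℤ Λ) (D : ℕ → Λ →+ J)
    (hD : ∀ k c, p ^ k • D k c = 0) (hker : ∀ k c, D k c = 0 → ∃ c', c = p ^ k • c')
    (hcompat : ∀ k c, p • D (k + 1) c = D k c)
    (Λ' : Submodule ℤ Λ) (hsat : ∀ (n : ℕ) (c : Λ), n ≠ 0 → n • c ∈ Λ' → c ∈ Λ')
    (hstab : ∀ i, ∀ c ∈ Λ', t i c ∈ Λ')
    (hDt : ∀ k i, ∀ c ∈ Λ', D k (t i c) = Θ i (D k c))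
    (a : ι → 𝒪) (w₀ : 𝒪 ⊗[ℤ] ↥Λ') (hw₀ : w₀ ≠ 0)
    (hw : ∀ i, LinearMap.baseChange 𝒪 ((t i).restrict (hstab i)) w₀ = a i • w₀) :
    ∃ (T : Type) (_ : AddCommGroup T) (_ : Module 𝒪 T) (_ : Module.Free 𝒪 T)
      (_ : Module.Finite 𝒪 T) (_ : Nontrivial T) (r : G →* Module.End 𝒪 T),
      (∀ (n : ℕ) (g : G), (∀ x : J, p ^ n • x = 0 → act g x = x) →
        ∀ v : T, r g v - v ∈ (IsLocalRing.maximalIdeal 𝒪 ^ n) • (⊤ : Submodule 𝒪 T)) ∧
      (∀ (g : G) (i : ι) (c : ℤ),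
        (∀ (k : ℕ) (x : J), x ∈ s35_sub act D Λ' → p ^ k • x = 0 →
          act g (act g x) - Θ i (act g x) + c • x = 0) →
        r g * r g - a i • r g + (c : 𝒪) • (1 : Module.End 𝒪 T) = 0) := by
  classical
  have hp : p.Prime := Fact.out
  set J' : AddSubgroup J := s35_sub act D Λ' with hJ'
  -- the restricted action
  let act' : G →* AddMonoid.End ↥J' :=
    { toFun := fun σ => ((act σ : J →+ J).comp J'.subtype).codRestrict J'
        (fun x => s35_sub_act act D Λ' σ x x.2)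
      map_one' := by
        refine AddMonoidHom.ext fun x => Subtype.ext ?_
        show act 1 (x : J) = x
        rw [map_one]; rfl
      map_mul' := by
        intro σ τ
        refine AddMonoidHom.ext fun x => Subtype.ext ?_
        show act (σ * τ) (x : J) = act σ (act τ (x : J))
        rw [map_mul]; rfl }
  have hact' : ∀ σ (x : ↥J'), ((act' σ x : ↥J') : J) = act σ (x : J) := fun _ _ => rfl
  let Θ' : ι → ↥J' →+ ↥J' := fun i => ((Θ i).comp J'.subtype).codRestrict J'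
    (fun x => s35_sub_theta act D Λ' (Θ i) (hΘ i) (t i) (hstab i) (fun k c hc => hDt k i c hc)
      x x.2)
  have hΘ' : ∀ i (x : ↥J'), ((Θ' i x : ↥J') : J) = Θ i (x : J) := fun _ _ => rfl
  let D' : ℕ → ↥Λ' →+ ↥J' := fun k =>
    ((D k).comp Λ'.subtype.toAddMonoidHom).codRestrict J'
      (fun c => s35_sub_D act D Λ' k c c.2)
  have hD' : ∀ k (c : ↥Λ'), ((D' k c : ↥J') : J) = D k (c : Λ) := fun _ _ => rfl
  have hfin' : {x : ↥J' | p • x = 0}.Finite := by
    refine Set.Finite.of_finite_image (f := fun x : ↥J' => (x : J)) (hJfin.subset ?_)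
      (Subtype.val_injective.injOn)
    rintro _ ⟨x, hx, rfl⟩
    have h1 : p • x = 0 := hx
    show p • (x : J) = 0
    rw [← AddSubgroup.coe_nsmul, h1]
    rfl
  obtain ⟨T, i1, i2, i3, i4, i5, r, hcont, -, hquad⟩ :=
    hTate p 𝒪 hp𝒪 ↥J' hfin' G act' ι Θ'
      (fun i g x => Subtype.ext (by rw [hΘ', hact', hact', hΘ', hΘ]))
      ↥Λ' (fun i => (t i).restrict (hstab i)) D'
      (fun k c => Subtype.ext (by
        rw [AddSubgroup.coe_nsmul, hD', hD]; rfl))
      (fun k c hc => by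
        have h1 : D k (c : Λ) = 0 := by rw [← hD', hc]; rfl
        obtain ⟨c', hc'⟩ := hker k c h1
        have hmem : c' ∈ Λ' := hsat (p ^ k) c' (pow_ne_zero k hp.ne_zero) (hc' ▸ c.2)
        exact ⟨⟨c', hmem⟩, Subtype.ext hc'⟩)
      (fun k c => Subtype.ext (by
        rw [AddSubgroup.coe_nsmul, hD', hD', hcompat]))
      (fun k i c => Subtype.ext (by
        rw [hΘ', hD', hD']
        exact hDt k i c c.2))
      a w₀ hw₀ hw
  refine ⟨T, i1, i2, i3, i4, i5, r, ?_, ?_⟩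
  · intro n g hg v
    refine hcont n g (fun x hx => Subtype.ext ?_) v
    rw [hact']
    refine hg x ?_
    rw [← AddSubgroup.coe_nsmul, hx]
    rfl
  · intro g i c h
    refine hquad g i c (fun k x hx => Subtype.ext ?_)
    have h1 : p ^ k • (x : J) = 0 := by
      rw [← AddSubgroup.coe_nsmul, hx]; rfl
    exact h k (x : J) x.2 h1

end Fermat.Agent.S35
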