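/-
S35 (row 34): the `λ`-adic representation of a weight 2 newform `g` of level `M` and its
Frobenius polynomial `X² ∓ (q+1) X + q` at the primes `q ∥ M`, `q ≠ λ`.  TOP INTERFACE (helper16).
Prefix `s35_`.

ROUTE.  `χ := iota ∘ chig.rangeRestrict`, `𝒪'' := 𝒪'`.  The S30 pipeline ([REL], [ALG], [CYC], [FD],
unchanged) is applied to a NEW quadratic lattice:

  [N-MOD]  (`s35_NModStatement`) a non-zero finite free `𝒪'`-module with an adically continuous
           action `r` of `G_ℚ` such that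
           (i)  `r(σ)² - χ(T_ℓ) r(σ) + ℓ = 0` for the Frobenius lifts at `ℓ ∉ S`;
           (ii) `r(σ²)² - (q²+1) r(σ²) + q² = 0` for the Frobenius lifts at `q ∥ M`, `q ≠ λ`.
  S35 ⇐ [N-MOD] + [CYC] + [REL] + [ALG] + [FD]     (`s35_goal_of`, proved here): if
  `r² = t r - q` then `r⁴ - (q²+1) r² + q² = (t² - (q+1)²) r²`, so `t = ± (q+1)`.
-/
import Mathlib
import Fermat.Prelude.Def_CuspForm_HeckeGaloisRepDatum
import Fermat.Prelude.Def_CuspForm_Newforms
import Fermat.Prelude.Def_GaloisRep_LocalConditions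
import Fermat.Agent.S29.Defs
import Fermat.Agent.S30.Top

set_option autoImplicit false

open Polynomial

namespace Fermat.Agent.S35

open Fermat.Agent.S30

/-- The statement S35, verbatim. -/
def s35_Goal : Prop :=
  ∀ {M : ℕ} [NeZero M] {g : CuspForm (CongruenceSubgroup.Gamma0 M) 2} (_ : g.IsNewform)
    (lam : ℕ) [Fact lam.Prime]
    (S : Finset ℕ)
    (O' : Type) [CommRing O'] [IsDomain O'] [IsDiscreteValuationRing O']
    [IsAdicComplete (IsLocalRing.maximalIdeal O') O'] [Finite (IsLocalRing.ResidueField O')]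
    [CharZero O'] (_ : (lam : O') ∈ IsLocalRing.maximalIdeal O')
    (chig : CuspForm.heckeAlgebra M 2 (↑S : Set ℕ) →+* ℂ)
    (_ : ∀ (ℓ : ℕ) (hℓ : ℓ.Prime) (hℓM : ¬ ℓ ∣ M) (hℓS : ℓ ∉ (↑S : Set ℕ)),
      chig (CuspForm.heckeAlgebra.T hℓ hℓM hℓS) = ModularFormClass.qCoeff g ℓ)
    (iota : chig.range →+* O')
    (_ : lam ∈ S) (_ : ∀ q : ℕ, q.Prime → q ∣ M → q ∈ S),
    ∃ (O'' : Type) (_ : CommRing O'') (_ : IsDomain O'') (_ : IsDiscreteValuationRing O'')
      (_ : IsAdicComplete (IsLocalRing.maximalIdeal O'') O'')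
      (_ : Finite (IsLocalRing.ResidueField O''))
      (_ : CharZero O'') (_ : Algebra O' O'') (_ : Module.Finite O' O'')
      (_ : IsLocalHom (algebraMap O' O'')),
      Function.Injective (algebraMap O' O'') ∧
      ∃ ρ : GaloisRepAdic O'',
        (∀ (ℓ : ℕ) (hℓ : ℓ.Prime) (hℓM : ¬ ℓ ∣ M) (hℓS : ℓ ∉ (↑S : Set ℕ)),
          ∀ A : ValuationSubring (AlgebraicClosure ℚ), A.LiesOverPrime ℓ →
            ∀ σ : AlgebraicClosure ℚ ≃ₐ[ℚ] AlgebraicClosure ℚ, A.IsFrobeniusAt σ ℓ →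
              LinearMap.charpoly (ρ.ρ σ) =
                X ^ 2 - C (algebraMap O' O''
                  ((iota.comp chig.rangeRestrict) (CuspForm.heckeAlgebra.T hℓ hℓM hℓS))) * X
                  + C ((ℓ : O''))) ∧
        (∀ q : ℕ, q.Prime → q ≠ lam → q ∣ M → ¬ q ^ 2 ∣ M →
          ∀ A : ValuationSubring (AlgebraicClosure ℚ), A.LiesOverPrime q →
            ∀ σ : AlgebraicClosure ℚ ≃ₐ[ℚ] AlgebraicClosure ℚ, A.IsFrobeniusAt σ q →
              LinearMap.charpoly (ρ.ρ σ) = X ^ 2 - C ((q : O'') + 1) * X + C ((q : O'')) ∨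
              LinearMap.charpoly (ρ.ρ σ) = X ^ 2 + C ((q : O'') + 1) * X + C ((q : O'')))

/-- **[N-MOD]** the quadratic lattice of a newform: a non-zero finite free `𝒪'`-module with an
adically continuous action of `G_ℚ` on which the Frobenius lifts at `ℓ ∉ S` satisfy
`σ² - χ(T_ℓ) σ + ℓ = 0` and the Frobenius lifts at the primes `q ∥ M`, `q ≠ λ`, satisfy
`(σ²)² - (q² + 1) σ² + q² = 0`. -/
def s35_NModStatement : Prop :=
  ∀ {M : ℕ} [NeZero M] {g : CuspForm (CongruenceSubgroup.Gamma0 M) 2} (_ : g.IsNewform)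
    (lam : ℕ) [Fact lam.Prime]
    (S : Finset ℕ)
    (O' : Type) [CommRing O'] [IsDomain O'] [IsDiscreteValuationRing O']
    [IsAdicComplete (IsLocalRing.maximalIdeal O') O'] [Finite (IsLocalRing.ResidueField O')]
    [CharZero O'] (_ : (lam : O') ∈ IsLocalRing.maximalIdeal O')
    (chig : CuspForm.heckeAlgebra M 2 (↑S : Set ℕ) →+* ℂ)
    (_ : ∀ (ℓ : ℕ) (hℓ : ℓ.Prime) (hℓM : ¬ ℓ ∣ M) (hℓS : ℓ ∉ (↑S : Set ℕ)),
      chig (CuspForm.heckeAlgebra.T hℓ hℓM hℓS) = ModularFormClass.qCoeff g ℓ)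
    (iota : chig.range →+* O')
    (_ : lam ∈ S) (_ : ∀ q : ℕ, q.Prime → q ∣ M → q ∈ S),
    ∃ (W : Type) (_ : AddCommGroup W) (_ : Module O' W) (_ : Module.Free O' W)
      (_ : Module.Finite O' W) (_ : Nontrivial W)
      (r : (AlgebraicClosure ℚ ≃ₐ[ℚ] AlgebraicClosure ℚ) →* Module.End O' W),
      GaloisActionIsAdicContinuous O' r ∧
      (∀ (ℓ : ℕ) (hℓ : ℓ.Prime) (hℓM : ¬ ℓ ∣ M) (hℓS : ℓ ∉ (↑S : Set ℕ)),
        ∀ A : ValuationSubring (AlgebraicClosure ℚ), A.LiesOverPrime ℓ →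
          ∀ σ : AlgebraicClosure ℚ ≃ₐ[ℚ] AlgebraicClosure ℚ, A.IsFrobeniusAt σ ℓ →
            r σ * r σ - (iota.comp chig.rangeRestrict) (CuspForm.heckeAlgebra.T hℓ hℓM hℓS) • r σ +
              (ℓ : O') • (1 : Module.End O' W) = 0) ∧
      (∀ q : ℕ, q.Prime → q ≠ lam → q ∣ M → ¬ q ^ 2 ∣ M →
        ∀ A : ValuationSubring (AlgebraicClosure ℚ), A.LiesOverPrime q →
          ∀ σ : AlgebraicClosure ℚ ≃ₐ[ℚ] AlgebraicClosure ℚ, A.IsFrobeniusAt σ q →
            r (σ * σ) * r (σ * σ) - ((q : O') ^ 2 + 1) • r (σ * σ) +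
              ((q : O') ^ 2) • (1 : Module.End O' W) = 0)

/-- The polynomial identity behind S35: if `x² = t x - q` then
`x⁴ - (q² + 1) x² + q² = (t² - (q + 1)²) x²`. -/
theorem s35_quartic {R E : Type*} [CommRing R] [Ring E] [Algebra R E] (x : E) (t q : R)
    (h : x * x - t • x + q • (1 : E) = 0) :
    (x * x) * (x * x) - (q ^ 2 + 1) • (x * x) + (q ^ 2) • (1 : E) =
      (t ^ 2 - (q + 1) ^ 2) • (x * x) := by
  have ha : x * x = t • x - q • (1 : E) := by
    have h' : x * x - (t • x - q • (1 : E)) = 0 := by rw [← h]; abel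
    exact sub_eq_zero.mp h'
  have key : (x * x) * (x * x) =
      (t ^ 2) • (x * x) - (2 * t * q) • x + (q ^ 2) • (1 : E) := by
    have e : (t • x - q • (1 : E)) * (t • x - q • (1 : E)) =
        (t * t) • (x * x) - (t * q) • x - (q * t) • x + (q * q) • (1 : E) := by
      rw [sub_mul, mul_sub, mul_sub, smul_mul_smul_comm, smul_mul_smul_comm, smul_mul_smul_comm,
        smul_mul_smul_comm, mul_one, one_mul, mul_one]
      abel
    calc (x * x) * (x * x) = (t • x - q • (1 : E)) * (t • x - q • (1 : E)) := by rw [← ha]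
      _ = (t * t) • (x * x) - (t * q) • x - (q * t) • x + (q * q) • (1 : E) := e
      _ = (t ^ 2) • (x * x) - (2 * t * q) • x + (q ^ 2) • (1 : E) := by module
  have h2 : (2 * q) • (x * x - t • x + q • (1 : E)) = 0 := by rw [h, smul_zero]
  have h3 : (x * x) * (x * x) - (q ^ 2 + 1) • (x * x) + (q ^ 2) • (1 : E) =
      (t ^ 2 - (q + 1) ^ 2) • (x * x) + (2 * q) • (x * x - t • x + q • (1 : E)) := by
    rw [key]
    module
  rw [h3, h2, add_zero]

end Fermat.Agent.S35
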