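/-
S35, [N-MOD-ASM] (helper16).  Prefix `s35_`.

`s35_NModStatement` (the quadratic lattice of a newform, `S35/Top.lean`) from
  * [TATE-ABS] `s30m_TateStatement`     (the abstract Tate eigen-lattice, S30),
  * [K-PUSH]   `s35_KumPushStatement`   (Kummer maps and the push-forwards),
  * [J-GAL]    `s35_PushGalStatement`   (the push-forwards are Galois equivariant),
  * [N-LAT]    `s35_NLatStatement`      (the eigenvector in the new sublattice),
  * [FIN-J]    `s30m_FinStatement`,  (Q1) `S37.s37_RhoStatement`,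
  * (NEW-FROB) `s35_NewFrobStatement`   (`(σ² - q²)(σ² - 1) = 0` on the new torsion classes),
through `s35_tate_sub` (`S35/NModAbs.lean`): the index set of [TATE-ABS] is enlarged by the primes
`q ∥ M`, `q ≠ λ`, with `Θ = t = (q² + 1)`, eigenvalue `q² + 1`, `c = q²`, `g = σ * σ`.
-/
import Mathlib
import Fermat.Agent.S35.Top
import Fermat.Agent.S35.NModDefs
import Fermat.Agent.S35.NModAbs
import Fermat.Agent.S35.NfDefs
import Fermat.Agent.S29.Quad
import Fermat.Agent.S29.QuadHG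
import Fermat.Agent.S29.FinLevel
import Fermat.Agent.S29.LatFreeMain

set_option autoImplicit false

open scoped TensorProduct

open ModularCurve ModularCurve.Period CongruenceSubgroup

namespace Fermat.Agent.S35

open Fermat.Agent.S29 Fermat.Agent.S30

/-- The base change of a multiple of the identity. -/
theorem s35_baseChange_smul_one (𝒪 : Type) [CommRing 𝒪] {Λ : Type} [AddCommGroup Λ] (n : ℕ)
    (T : Module.End ℤ Λ) (hT : ∀ c, T c = n • c) (w : 𝒪 ⊗[ℤ] Λ) :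
    LinearMap.baseChange 𝒪 T w = (n : 𝒪) • w := by
  induction w using TensorProduct.induction_on with
  | zero => rw [map_zero, smul_zero]
  | tmul a c =>
    rw [LinearMap.baseChange_tmul, hT, Nat.cast_smul_eq_nsmul]
    exact TensorProduct.tmul_smul n a c
  | add x y hx hy => rw [map_add, hx, hy, smul_add]

/-- A prime different from `p` does not divide a power of `p`. -/
theorem s35_not_dvd_pow {p ℓ : ℕ} (hp : p.Prime) (hℓ : ℓ.Prime) (hne : ℓ ≠ p) (k : ℕ) :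
    ¬ ℓ ∣ p ^ k := fun h =>
  hne ((Nat.prime_dvd_prime_iff_eq hℓ hp).1 (hℓ.dvd_of_dvd_pow h))

/-- (NEW-FROB) at the level `N` for the classes of `J₀(N)` which are new at `q`. -/
theorem s35_newFrob_cast (hNF : s35_NewFrobStatement) {N M q : ℕ} [NeZero N] [NeZero M]
    [NeZero q] (h : N = M * q) (hq : q.Prime) (hqM : ¬ q ∣ M)
    (A : ValuationSubring (AlgebraicClosure ℚ)) (hA : A.LiesOverPrime q)
    (σ : AlgebraicClosure ℚ ≃ₐ[ℚ] AlgebraicClosure ℚ) (hσ : A.IsFrobeniusAt σ q)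
    (n : ℕ) (hn : ¬ q ∣ n) (x : JZero N) (hx : n • x = 0)
    (hA0 : s35_pushA M q (s35_castJ h x) = 0) (hB0 : s35_pushB M q (s35_castJ h x) = 0) :
    (σ * σ) • (σ * σ) • x + (q ^ 2) • x = (q ^ 2 + 1) • (σ * σ) • x := by
  have h1 := hNF M q hq hqM A hA σ hσ n hn (s35_castJ h x)
    (by rw [← map_nsmul, hx, map_zero]) hA0 hB0
  apply s35_castJ_injective h
  rw [map_add, map_nsmul, map_nsmul, s35_castJ_galois, s35_castJ_galois]
  exact h1

/-- **[N-MOD-ASM]** the quadratic lattice of a newform. -/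
theorem s35_nmod_of (hTate : s30m_TateStatement) (hKum : s35_KumPushStatement)
    (hGal : s35_PushGalStatement) (hLat : s35_NLatStatement) (hFin : s30m_FinStatement)
    (hRho : S37.s37_RhoStatement) (hNF : s35_NewFrobStatement) : s35_NModStatement := by
  intro M _ g hg lam _ S O' _ _ _ _ _ _ hlamO' chig hchig iota hlamS hMS
  classical
  have hp : lam.Prime := Fact.out
  obtain ⟨D, hD, hker, hcompat, hDt, hpush⟩ := hKum M lam hp
  obtain ⟨Λ', hstab, hsat, hcor, w₀, hw₀, hw⟩ := hLat hg (↑S) O' chig hchig iota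
  obtain ⟨hΛfin, hΛfree, -, -⟩ := s29lf_main M
  -- the index sets
  let ι₁ : Type := {ℓ : ℕ // ℓ.Prime ∧ ¬ ℓ ∣ M ∧ ℓ ∉ (↑S : Set ℕ)}
  let ι₂ : Type := {q : ℕ // q.Prime ∧ q ≠ lam ∧ q ∣ M ∧ ¬ q ^ 2 ∣ M}
  have hprime : ∀ i : ι₁, i.1 ≠ lam := by
    intro i h
    exact i.2.2.2 (Finset.mem_coe.2 (h ▸ hlamS))
  let act : (AlgebraicClosure ℚ ≃ₐ[ℚ] AlgebraicClosure ℚ) →* AddMonoid.End (JZero M) :=
    DistribMulAction.toAddMonoidEnd (AlgebraicClosure ℚ ≃ₐ[ℚ] AlgebraicClosure ℚ) (JZero M)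
  have hact : ∀ (σ : AlgebraicClosure ℚ ≃ₐ[ℚ] AlgebraicClosure ℚ) (x : JZero M),
      act σ x = σ • x := fun _ _ => rfl
  let Θ : ι₁ ⊕ ι₂ → JZero M →+ JZero M := Sum.elim
    (fun i => (heckeOperatorBar M ⟨i.1, i.2.1⟩).toAddMonoidHom)
    (fun j => (j.1 ^ 2 + 1) • AddMonoidHom.id (JZero M))
  let t : ι₁ ⊕ ι₂ → Module.End ℤ ↥(parabolicHoms ℤ (Gamma0 M) ℤ) := Sum.elim
    (fun i => @s29lat_T M i.1 ⟨i.2.1⟩ i.2.2.1)
    (fun j => (j.1 ^ 2 + 1) • (1 : Module.End ℤ ↥(parabolicHoms ℤ (Gamma0 M) ℤ)))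
  let a : ι₁ ⊕ ι₂ → O' := Sum.elim
    (fun i => (iota.comp chig.rangeRestrict) (CuspForm.heckeAlgebra.T i.2.1 i.2.2.1 i.2.2.2))
    (fun j => (j.1 : O') ^ 2 + 1)
  have hstab' : ∀ i, ∀ c ∈ Λ', t i c ∈ Λ' := by
    rintro (i | j) c hc
    · exact @hstab i.1 ⟨i.2.1⟩ i.2.2.1 i.2.2.2 c hc
    · show (j.1 ^ 2 + 1) • c ∈ Λ'
      exact Λ'.smul_of_tower_mem (j.1 ^ 2 + 1) hc
  have hΘ : ∀ i (σ : AlgebraicClosure ℚ ≃ₐ[ℚ] AlgebraicClosure ℚ) x,
      Θ i (act σ x) = act σ (Θ i x) := by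
    rintro (i | j) σ x
    · exact s29q_hecke_smul M ⟨i.1, i.2.1⟩ σ x
    · show (j.1 ^ 2 + 1) • (σ • x) = σ • ((j.1 ^ 2 + 1) • x)
      rw [smul_comm]
  have hDt' : ∀ k i, ∀ c ∈ Λ', D k (t i c) = Θ i (D k c) := by
    rintro k (i | j) c -
    · exact @hDt k i.1 ⟨i.2.1⟩ i.2.2.1 (hprime i) c
    · show D k ((j.1 ^ 2 + 1) • c) = (j.1 ^ 2 + 1) • D k c
      rw [map_nsmul]
  have hw' : ∀ i, LinearMap.baseChange O' ((t i).restrict (hstab' i)) w₀ = a i • w₀ := by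
    rintro (i | j)
    · exact @hw i.1 ⟨i.2.1⟩ i.2.2.1 i.2.2.2
    · have h1 := s35_baseChange_smul_one O' (j.1 ^ 2 + 1)
        ((t (Sum.inr j)).restrict (hstab' (Sum.inr j))) (fun c => Subtype.ext rfl) w₀
      rw [h1]
      show ((j.1 ^ 2 + 1 : ℕ) : O') • w₀ = ((j.1 : O') ^ 2 + 1) • w₀
      rw [Nat.cast_add, Nat.cast_pow, Nat.cast_one]
  -- every class of `J'` is new at the primes `q ∥ M`
  have hnew : ∀ (M' q : ℕ) [NeZero M'] [NeZero q] (h : M = M' * q), q.Prime → ¬ q ∣ M' →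
      ∀ x ∈ s35_sub act D Λ',
        s35_pushA M' q (s35_castJ h x) = 0 ∧ s35_pushB M' q (s35_castJ h x) = 0 := by
    intro M' q _ _ h hq hqM'
    refine s35_sub_induction act D Λ' _ ?_ ?_ ?_ ?_
    · rw [map_zero, map_zero, map_zero]
      exact ⟨rfl, rfl⟩
    · intro x y hx hy
      rw [map_add, map_add, map_add, hx.1, hx.2, hy.1, hy.2, add_zero]
      exact ⟨rfl, rfl⟩
    · intro x hx
      rw [map_neg, map_neg, map_neg, hx.1, hx.2, neg_zero]
      exact ⟨rfl, rfl⟩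
    · intro σ k c hc
      have h1 := hpush M' q h hq hqM' k c
      have h2 := hcor c hc M' q h hq hqM'
      have h3 := hGal M' q hq hqM' σ (s35_castJ h (D k c))
      rw [hact, s35_castJ_galois, h3.1, h3.2, h1.1 h2.1, h1.2 h2.2]
      exact ⟨smul_zero (A := JZero M') σ, smul_zero (A := JZero M') σ⟩
  obtain ⟨T, i1, i2, i3, i4, i5, r, hcont, hquad⟩ :=
    s35_tate_sub hTate lam O' hlamO' (JZero M) (hFin M lam hp.pos)
      (AlgebraicClosure ℚ ≃ₐ[ℚ] AlgebraicClosure ℚ) act (ι₁ ⊕ ι₂) Θ hΘ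
      ↥(parabolicHoms ℤ (Gamma0 M) ℤ) t D hD hker hcompat Λ' hsat hstab' hDt' a w₀ hw₀ hw'
  refine ⟨T, i1, i2, i3, i4, i5, r, ?_, ?_, ?_⟩
  · -- adic continuity
    intro n
    obtain ⟨L, hL, h⟩ := s29fl_finset M (hFin M (lam ^ n) (pow_pos hp.pos n)).toFinset
    refine ⟨L, hL, fun σ hσ v => hcont n σ (fun x hx => ?_) v⟩
    exact h σ hσ x ((Set.Finite.mem_toFinset _).2 hx)
  · -- Frobenius at the good primes
    intro ℓ hℓ hℓM hℓS A hA σ hσ
    have hne : ℓ ≠ lam := hprime ⟨ℓ, hℓ, hℓM, hℓS⟩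
    have h1 := hquad σ (Sum.inl ⟨ℓ, hℓ, hℓM, hℓS⟩) (ℓ : ℤ) (fun k x _ hx => by
      have h2 := s29q_frob hRho M hℓ hℓM A hA (s35_not_dvd_pow hp hℓ hne k) hσ x hx
      rw [natCast_zsmul]
      exact h2)
    rw [Int.cast_natCast] at h1
    exact h1
  · -- the squares of the Frobenius lifts at the primes `q ∥ M`
    intro q hq hqlam hqM hq2 A hA σ hσ
    have hM0 : M ≠ 0 := NeZero.ne M
    have h : M = M / q * q := (Nat.div_mul_cancel hqM).symm
    haveI : NeZero (M / q) := ⟨fun h0 => hM0 (by rw [h, h0, zero_mul])⟩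
    haveI : NeZero q := ⟨hq.ne_zero⟩
    have hqM' : ¬ q ∣ M / q := by
      rintro ⟨e, he⟩
      refine hq2 ⟨e, ?_⟩
      rw [h, he]
      ring
    have h1 := hquad (σ * σ) (Sum.inr ⟨q, hq, hqlam, hqM, hq2⟩) ((q ^ 2 : ℕ) : ℤ)
      (fun k x hxJ hx => by
        have h2 := hnew (M / q) q h hq hqM' x hxJ
        have h3 := s35_newFrob_cast hNF h hq hqM' A hA σ hσ (lam ^ k)
          (s35_not_dvd_pow hp hq hqlam k) x hx h2.1 h2.2
        rw [natCast_zsmul]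
        show (σ * σ) • (σ * σ) • x - (q ^ 2 + 1) • ((σ * σ) • x) + (q ^ 2) • x = 0
        rw [← h3]
        abel)
    rw [Int.cast_natCast, Nat.cast_pow] at h1
    exact h1

end Fermat.Agent.S35
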