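/-
S35 / [NF-DOWN] (helper12), part 1: BASE CHANGE OF THE NORMS ALONG `α` AND `β`.
Prefix `s35dn_`.

For levels `N ∣ M` and a prime `ℓ ∤ M` the two squares

    F̄_N  --α / β-->  F̄_{Nℓ}
     |                  |
    F̄_M  --α / β-->  F̄_{Mℓ}

(vertical maps: the inclusions) are compatible with the norms:
`N_{α_M}(x) = N_{α_N}(x)` is S37 `s37bc_mod_norm`; the same for `β` follows because
`β = W ∘ α` for the Atkin-Lehner involution `W`, which is compatible with the inclusions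
(S37 `s37bc_W_compat`):  `N_β(x) = N_α(W x)`.
-/
import Mathlib
import Fermat.Agent.S37.DescBCMod
import Fermat.Agent.S37.AtkinLehnerInv

set_option autoImplicit false

open ModularCurve AlgebraicCurve Fermat.Agent.S24 Fermat.Agent.S37

noncomputable section

namespace Fermat.Agent.S35

section Abs

variable {K F F' : Type*} [Field K] [Field F] [Field F'] [Algebra K F] [Algebra K F']

/-- The norm along `ψ = W ∘ φ`, `W` an automorphism of the upper field. -/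
theorem s35dn_normAlong_equiv (φ ψ : F →ₐ[K] F') (W : F' ≃ₐ[K] F')
    (h : ∀ f, W (φ f) = ψ f) (x : F') :
    s37bc_normAlong ψ (W x) = s37bc_normAlong φ x := by
  unfold s37bc_normAlong
  have he : RingHom.comp (@algebraMap F F' _ _ (algebraAlong ψ)) ((RingEquiv.refl F : F ≃+* F) : F →+* F) =
      RingHom.comp ((W.toRingEquiv : F' ≃+* F') : F' →+* F')
        (@algebraMap F F' _ _ (algebraAlong φ)) := by
    ext f
    exact (h f).symm
  have key := @Algebra.norm_eq_of_equiv_equiv F F' F F' _ _ _ _ (algebraAlong φ)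
    (algebraAlong ψ) (RingEquiv.refl F) W.toRingEquiv he x
  exact key.symm

end Abs

section Norm

variable {N M : ℕ} [NeZero N] [NeZero M] (ℓ : ℕ) [NeZero ℓ] (h : N ∣ M)

/-- `N_β (W x) = N_α x` at one level. -/
theorem s35dn_norm_beta_W (W : FunField (N * ℓ) ≃ₐ[QBar] FunField (N * ℓ))
    (hWα : ∀ f : FunField N, W (heckeAlphaBar QBar N ℓ f) = heckeBetaBar QBar N ℓ f)
    (x : FunField (N * ℓ)) :
    s37bc_normAlong (heckeBetaBar QBar N ℓ) (W x) =
      s37bc_normAlong (heckeAlphaBar QBar N ℓ) x :=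
  s35dn_normAlong_equiv (heckeAlphaBar QBar N ℓ) (heckeBetaBar QBar N ℓ) W hWα x

/-- **Base change of the norm along `β`**: `N_{β_M}(x) = N_{β_N}(x)` for `x ∈ F̄_{Nℓ}`,
`N ∣ M`, `ℓ ∤ M`. -/
theorem s35dn_mod_norm_beta (hℓ : ℓ.Prime) (hℓM : ¬ ℓ ∣ M) (x : FunField (N * ℓ)) :
    s37bc_normAlong (heckeBetaBar QBar M ℓ) (s37bc_inclL ℓ h x) =
      s37dg_incl QBar h (s37bc_normAlong (heckeBetaBar QBar N ℓ) x) := by
  have hℓN : ¬ ℓ ∣ N := fun hN => hℓM (hN.trans h)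
  have hcN : Nat.Coprime N ℓ := ((Nat.Prime.coprime_iff_not_dvd hℓ).2 hℓN).symm
  have hcM : Nat.Coprime M ℓ := ((Nat.Prime.coprime_iff_not_dvd hℓ).2 hℓM).symm
  obtain ⟨WN, hWNW, hWNα, hWNβ⟩ := s37al_W_equiv N ℓ hcN
  obtain ⟨WM, hWMW, hWMα, hWMβ⟩ := s37al_W_equiv M ℓ hcM
  have hcompat : ∀ y : FunField (N * ℓ), WM (s37bc_inclL ℓ h y) = s37bc_inclL ℓ h (WN y) :=
    fun y => s37bc_W_compat ℓ h hℓ (WN : FunField (N * ℓ) →ₐ[QBar] FunField (N * ℓ))
      hWNα hWNβ (WM : FunField (M * ℓ) →ₐ[QBar] FunField (M * ℓ)) hWMα hWMβ y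
  have e1 : s37bc_normAlong (heckeBetaBar QBar M ℓ) (s37bc_inclL ℓ h x) =
      s37bc_normAlong (heckeAlphaBar QBar M ℓ) (s37bc_inclL ℓ h (WN x)) := by
    rw [← s35dn_norm_beta_W ℓ WM hWMα, hcompat, hWNW]
  have e2 : s37bc_normAlong (heckeBetaBar QBar N ℓ) x =
      s37bc_normAlong (heckeAlphaBar QBar N ℓ) (WN x) := by
    rw [← s35dn_norm_beta_W ℓ WN hWNα, hWNW]
  rw [e1, e2]
  exact s37bc_mod_norm ℓ h hℓ hℓM (WN x)

end Norm

section Divisors

variable {N M : ℕ} [NeZero N] [NeZero M] (ℓ : ℕ) [NeZero ℓ] (h : N ∣ M)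

/-- **Push-pull base change along `α`** on divisors: `i^* ∘ (α_N)_* = (α_M)_* ∘ i'^*`. -/
theorem s35dn_div_alpha (hℓ : ℓ.Prime) (hℓM : ¬ ℓ ∣ M)
    [HasPrincipalDivisors QBar (FunField (N * ℓ))] [HasPrincipalDivisors QBar (FunField M)]
    [HasPrincipalDivisors QBar (FunField (M * ℓ))]
    (hi : (s37dg_incl QBar h).toRingHom.IsIntegral)
    (hi' : (s37bc_inclL ℓ h).toRingHom.IsIntegral)
    (hαN : HeckeAlphaBarIntegral QBar N ℓ) (hαM : HeckeAlphaBarIntegral QBar M ℓ)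
    (D : Divisor QBar (FunField (N * ℓ))) :
    Divisor.pullbackAlong (s37dg_incl QBar h) hi
        (Divisor.pushforwardAlong (heckeAlphaBar QBar N ℓ) hαN D) =
      Divisor.pushforwardAlong (heckeAlphaBar QBar M ℓ) hαM
        (Divisor.pullbackAlong (s37bc_inclL ℓ h) hi' D) :=
  s37bc_main' (final_jCoordinate (N * ℓ)) (heckeAlphaBar QBar N ℓ) (s37dg_incl QBar h)
    (heckeAlphaBar QBar M ℓ) (s37bc_inclL ℓ h) hαN hi hαM hi' (s37bc_sq_alpha ℓ h)
    (s37hi_alpha_finite N ℓ) (s37hi_alpha_finite M ℓ)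
    (s37hi_alpha_normFormula N ℓ _) (s37hi_alpha_normFormula M ℓ _)
    (s37bc_mod_norm ℓ h hℓ hℓM) D

/-- **Push-pull base change along `β`** on divisors: `i^* ∘ (β_N)_* = (β_M)_* ∘ i'^*`. -/
theorem s35dn_div_beta (hℓ : ℓ.Prime) (hℓM : ¬ ℓ ∣ M)
    [HasPrincipalDivisors QBar (FunField (N * ℓ))] [HasPrincipalDivisors QBar (FunField M)]
    [HasPrincipalDivisors QBar (FunField (M * ℓ))]
    (hi : (s37dg_incl QBar h).toRingHom.IsIntegral)
    (hi' : (s37bc_inclL ℓ h).toRingHom.IsIntegral)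
    (hβN : HeckeBetaBarIntegral QBar N ℓ) (hβM : HeckeBetaBarIntegral QBar M ℓ)
    (D : Divisor QBar (FunField (N * ℓ))) :
    Divisor.pullbackAlong (s37dg_incl QBar h) hi
        (Divisor.pushforwardAlong (heckeBetaBar QBar N ℓ) hβN D) =
      Divisor.pushforwardAlong (heckeBetaBar QBar M ℓ) hβM
        (Divisor.pullbackAlong (s37bc_inclL ℓ h) hi' D) :=
  s37bc_main' (final_jCoordinate (N * ℓ)) (heckeBetaBar QBar N ℓ) (s37dg_incl QBar h)
    (heckeBetaBar QBar M ℓ) (s37bc_inclL ℓ h) hβN hi hβM hi' (s37bc_sq_beta ℓ h)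
    (s37hi_beta_finite N ℓ) (s37hi_beta_finite M ℓ)
    (s37hi_beta_normFormula N ℓ _) (s37hi_beta_normFormula M ℓ _)
    (s35dn_mod_norm_beta ℓ h hℓ hℓM) D

end Divisors

end Fermat.Agent.S35
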