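/-
S35 / [NF-DOWN] (helper12), part 2: THE PASSAGE TO THE LEVELS WITH `4 ∣ M` OR `9 ∣ M`.
Prefix `s35dn_`.

`s35dn_main : s35_DownStatement` (VERBATIM `S35/NfDefs.lean`): (NEW-FROB) at the levels `M q`
with `4 ∣ M` or `9 ∣ M` implies (NEW-FROB) at all levels `M q`, `q ∤ M`.

ROUTE.  `M' := s18_level M q`, `c : J₀(M q) → J₀(M' q)` and `c₀ : J₀(M) → J₀(M')` the conorms.
  * `s35dn_pushA_conorm`, `s35dn_pushB_conorm`: push-pull base change
        `(α_{M'})_* ∘ c = c₀ ∘ (α_M)_*`,  `(β_{M'})_* ∘ c = c₀ ∘ (β_M)_*`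
    (divisor level: `s35dn_div_alpha`, `s35dn_div_beta` of `S35/NfDownNorm.lean`);
  * `c` is Galois equivariant (S37 `s37d_gal`);
  * `s35dn_inj`: `c` is injective on torsion (S37 `s37da_inj` at the level `M q`, transported
    along `s18_level (M q) q = s18_level M q * q`, `s35dn_level_mul`).
-/
import Mathlib
import Fermat.Agent.S35.NfDefs
import Fermat.Agent.S35.NfDownNorm
import Fermat.Agent.S37.DescendDefs
import Fermat.Agent.S37.DescAsm

set_option autoImplicit false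

open ModularCurve AlgebraicCurve Fermat.Agent.S24 Fermat.Agent.S37

noncomputable section

namespace Fermat.Agent.S35

/-! ### The level -/

/-- `lcm (M q) k = lcm M k * q` for `q` prime to `k`. -/
theorem s35dn_lcm_mul (M q k : ℕ) (hk : k ≠ 0) (hqk : Nat.Coprime q k) :
    Nat.lcm (M * q) k = Nat.lcm M k * q := by
  have hg : Nat.gcd (M * q) k = Nat.gcd M k := Nat.Coprime.gcd_mul_right_cancel M hqk
  have h1 : Nat.gcd (M * q) k * Nat.lcm (M * q) k = M * q * k := Nat.gcd_mul_lcm (M * q) k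
  have h2 : Nat.gcd M k * Nat.lcm M k = M * k := Nat.gcd_mul_lcm M k
  have hpos : 0 < Nat.gcd M k := Nat.gcd_pos_of_pos_right M (Nat.pos_of_ne_zero hk)
  rw [hg] at h1
  apply Nat.eq_of_mul_eq_mul_left hpos
  rw [h1, ← mul_assoc, h2]
  ring

/-- The auxiliary level of `M q` is `q` times the auxiliary level of `M`. -/
theorem s35dn_level_mul (M q : ℕ) (hq : q.Prime) :
    S18.s18_level (M * q) q = S18.s18_level M q * q := by
  unfold S18.s18_level
  split_ifs with h2
  · subst h2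
    exact s35dn_lcm_mul M 2 9 (by norm_num) (by norm_num)
  · have hc : Nat.Coprime q 2 := (Nat.coprime_primes hq Nat.prime_two).2 h2
    have h4 : Nat.Coprime q (2 ^ 2) := Nat.Coprime.pow_right 2 hc
    exact s35dn_lcm_mul M q 4 (by norm_num) (by simpa using h4)

/-! ### Push-pull base change on `Pic⁰` -/

section PushPull

variable {N M : ℕ} [NeZero N] [NeZero M] (ℓ : ℕ) [NeZero ℓ] (h : N ∣ M)

/-- **Push-pull base change along `α`**: `(α_M)_* ∘ c = c₀ ∘ (α_N)_*` for `N ∣ M`, `ℓ ∤ M`. -/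
theorem s35dn_pushA_conorm (hℓ : ℓ.Prime) (hℓM : ¬ ℓ ∣ M) (y : JZero (N * ℓ)) :
    s35_pushA M ℓ (s37d_c (Nat.mul_dvd_mul_right h ℓ) y) = s37d_c h (s35_pushA N ℓ y) := by
  haveI := s37hi_principalBar (N * ℓ)
  haveI := s37hi_principalBar M
  haveI := s37hi_principalBar (M * ℓ)
  obtain ⟨D, rfl⟩ := Pic0.mk_surjective y
  have hi := s37d_incl_integral h
  have hi' := s37d_incl_integral (Nat.mul_dvd_mul_right h ℓ)
  have hD' : Divisor.pullbackAlong (s37dg_incl QBar (Nat.mul_dvd_mul_right h ℓ)) hi'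
      (D : Divisor QBar (FunField (N * ℓ))) ∈
      Divisor.degZero (K := QBar) (F := FunField (M * ℓ)) :=
    Divisor.pullbackAlong_mem_degZero _ hi' (s37d_incl_fundamental _ hi') D.2
  have hD : Divisor.pullbackAlong (s37dg_incl QBar h) hi
      ((s35_pushDeg (heckeAlphaBar QBar N ℓ) (s37hi_alpha_integral N ℓ) D :
        Divisor.degZero (K := QBar) (F := FunField N)) : Divisor QBar (FunField N)) ∈
      Divisor.degZero (K := QBar) (F := FunField M) :=
    Divisor.pullbackAlong_mem_degZero _ hi (s37d_incl_fundamental _ hi) (Subtype.property _)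
  rw [s37d_c_mk (Nat.mul_dvd_mul_right h ℓ) hi' D hD']
  unfold s35_pushA
  rw [s35_pushPic_mk _ (s37hi_alpha_integral M ℓ) (s37hi_alpha_finite M ℓ)
      (s37hi_alpha_normFormula M ℓ _),
    s35_pushPic_mk _ (s37hi_alpha_integral N ℓ) (s37hi_alpha_finite N ℓ)
      (s37hi_alpha_normFormula N ℓ _),
    s37d_c_mk h hi _ hD]
  refine congrArg Pic0.mk (Subtype.ext ?_)
  exact (s35dn_div_alpha ℓ h hℓ hℓM hi hi' (s37hi_alpha_integral N ℓ)
    (s37hi_alpha_integral M ℓ) (D : Divisor QBar (FunField (N * ℓ)))).symm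

/-- **Push-pull base change along `β`**: `(β_M)_* ∘ c = c₀ ∘ (β_N)_*` for `N ∣ M`, `ℓ ∤ M`. -/
theorem s35dn_pushB_conorm (hℓ : ℓ.Prime) (hℓM : ¬ ℓ ∣ M) (y : JZero (N * ℓ)) :
    s35_pushB M ℓ (s37d_c (Nat.mul_dvd_mul_right h ℓ) y) = s37d_c h (s35_pushB N ℓ y) := by
  haveI := s37hi_principalBar (N * ℓ)
  haveI := s37hi_principalBar M
  haveI := s37hi_principalBar (M * ℓ)
  obtain ⟨D, rfl⟩ := Pic0.mk_surjective y
  have hi := s37d_incl_integral h
  have hi' := s37d_incl_integral (Nat.mul_dvd_mul_right h ℓ)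
  have hD' : Divisor.pullbackAlong (s37dg_incl QBar (Nat.mul_dvd_mul_right h ℓ)) hi'
      (D : Divisor QBar (FunField (N * ℓ))) ∈
      Divisor.degZero (K := QBar) (F := FunField (M * ℓ)) :=
    Divisor.pullbackAlong_mem_degZero _ hi' (s37d_incl_fundamental _ hi') D.2
  have hD : Divisor.pullbackAlong (s37dg_incl QBar h) hi
      ((s35_pushDeg (heckeBetaBar QBar N ℓ) (s37hi_beta_integral N ℓ) D :
        Divisor.degZero (K := QBar) (F := FunField N)) : Divisor QBar (FunField N)) ∈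
      Divisor.degZero (K := QBar) (F := FunField M) :=
    Divisor.pullbackAlong_mem_degZero _ hi (s37d_incl_fundamental _ hi) (Subtype.property _)
  rw [s37d_c_mk (Nat.mul_dvd_mul_right h ℓ) hi' D hD']
  unfold s35_pushB
  rw [s35_pushPic_mk _ (s37hi_beta_integral M ℓ) (s37hi_beta_finite M ℓ)
      (s37hi_beta_normFormula M ℓ _),
    s35_pushPic_mk _ (s37hi_beta_integral N ℓ) (s37hi_beta_finite N ℓ)
      (s37hi_beta_normFormula N ℓ _),
    s37d_c_mk h hi _ hD]
  refine congrArg Pic0.mk (Subtype.ext ?_)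
  exact (s35dn_div_beta ℓ h hℓ hℓM hi hi' (s37hi_beta_integral N ℓ)
    (s37hi_beta_integral M ℓ) (D : Divisor QBar (FunField (N * ℓ)))).symm

end PushPull

/-! ### Injectivity of the conorm `J₀(M q) → J₀(M' q)` on torsion -/

/-- The conorm to a level EQUAL to the auxiliary level is injective on torsion. -/
theorem s35dn_inj_of_eq (N ℓ : ℕ) [NeZero N] (L : ℕ) [NeZero L] (e : S18.s18_level N ℓ = L)
    (h : N ∣ L) (m : ℕ) (hm : m ≠ 0) (x : JZero N) (hmx : m • x = 0)
    (hcx : s37d_c h x = 0) : x = 0 := by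
  subst e
  exact s37da_inj N ℓ m hm x hmx hcx

/-- The conorm `J₀(M q) → J₀(s18_level M q * q)` is injective on torsion. -/
theorem s35dn_inj (M q : ℕ) [NeZero M] [NeZero q] (hq : q.Prime) [NeZero (S18.s18_level M q)]
    (h : M * q ∣ S18.s18_level M q * q) (m : ℕ) (hm : m ≠ 0) (x : JZero (M * q))
    (hmx : m • x = 0) (hcx : s37d_c h x = 0) : x = 0 :=
  s35dn_inj_of_eq (M * q) q (S18.s18_level M q * q) (s35dn_level_mul M q hq) h m hm x hmx hcx

/-! ### [NF-DOWN] -/

/-- (NEW-FROB) at the level `s18_level M q * q` implies (NEW-FROB) at the level `M q`. -/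
theorem s35dn_down (M q : ℕ) [NeZero M] [NeZero q] (hq : q.Prime) (hqM : ¬ q ∣ M)
    [NeZero (S18.s18_level M q)] (H : s35_NewFrobAt (S18.s18_level M q) q) :
    s35_NewFrobAt M q := by
  intro A hA σ hσ n hn y hy hAy hBy
  haveI : Fact q.Prime := ⟨hq⟩
  have h0 : M ∣ S18.s18_level M q := s37d_dvd_level M q
  have hqM' : ¬ q ∣ S18.s18_level M q := S18.s18_level_not_dvd M q hqM
  have hn0 : n ≠ 0 := by
    rintro rfl
    exact hn (dvd_zero q)
  have hcA : s35_pushA (S18.s18_level M q) q (s37d_c (Nat.mul_dvd_mul_right h0 q) y) = 0 := by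
    rw [s35dn_pushA_conorm q h0 hq hqM', hAy, map_zero]
  have hcB : s35_pushB (S18.s18_level M q) q (s37d_c (Nat.mul_dvd_mul_right h0 q) y) = 0 := by
    rw [s35dn_pushB_conorm q h0 hq hqM', hBy, map_zero]
  have hcn : n • s37d_c (Nat.mul_dvd_mul_right h0 q) y = 0 := by
    rw [← map_nsmul, hy, map_zero]
  have key := H A hA σ hσ n hn (s37d_c (Nat.mul_dvd_mul_right h0 q) y) hcn hcA hcB
  have hz : s37d_c (Nat.mul_dvd_mul_right h0 q)
      ((σ * σ) • (σ * σ) • y + (q ^ 2) • y - (q ^ 2 + 1) • (σ * σ) • y) = 0 := by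
    rw [map_sub, map_add, map_nsmul, map_nsmul, s37d_gal, s37d_gal, key, sub_self]
  have e1 : n • ((σ * σ) • y) = 0 := S34.s34_smul_torsion (σ * σ) hy
  have e2 : n • ((σ * σ) • (σ * σ) • y) = 0 := S34.s34_smul_torsion (σ * σ) e1
  have htor : n • ((σ * σ) • (σ * σ) • y + (q ^ 2) • y - (q ^ 2 + 1) • (σ * σ) • y) = 0 := by
    rw [nsmul_sub, nsmul_add, e2, nsmul_left_comm, hy, nsmul_left_comm, e1]
    simp
  exact sub_eq_zero.mp (s35dn_inj M q hq (Nat.mul_dvd_mul_right h0 q) n hn0 _ htor hz)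

/-- **[NF-DOWN]**: (NEW-FROB) at the levels `M q` with `4 ∣ M` or `9 ∣ M` implies (NEW-FROB)
at all levels `M q`, `q ∤ M`. -/
theorem s35dn_main : s35_DownStatement := by
  intro hM M q _ _ hq hqM
  haveI : Fact q.Prime := ⟨hq⟩
  haveI : NeZero (S18.s18_level M q) := ⟨S18.s18_level_ne_zero M q⟩
  exact s35dn_down M q hq hqM
    (hM (S18.s18_level M q) q hq (S18.s18_level_not_dvd M q hqM) (S18.s18_level_dvd M q))

end Fermat.Agent.S35
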