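/-
S35, (NF-K), THE WIRING (owner: helper29).  Prefix `s35k_`.

  `s35k_ustarK_of : s34l_Lift2Statement → s35k_DataStatement → s35_UStarKStatement`.

`s35k_DataStatement` is what the S34 MODEL and the LOCAL ANALYSIS of the Frobenius difference
deliver together, in the vocabulary of `S34/LiftDefs.lean`: at the level `M * q` over the discrete
valuation ring `O` of the number field `K0`, for every Frobenius lift `σ0`, every exponent `n`
prime to `q` and every `f ≠ 0` with all orders divisible by `n`, all zeros and poles of degree `1`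
and `N_α f`, `N_β f` `n`-th powers:

  * a coordinate `J`, a uniformizer `ϖ` of `O`, a subring `W` with `s34l_IsW O J ϖ W`;
  * a function `V ≠ 0` such that `u' = s35_fd f / V ^ n` is `≡ 1` modulo `π W` and has normalised
    local generators (`s34l_LocGen`) at all closed points of the special fibre of both charts.
-/
import Mathlib
import Fermat.Agent.S34.LiftDefs
import Fermat.Agent.S34.KOf
import Fermat.Agent.S35.NfDefs

set_option autoImplicit false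
set_option linter.style.haveILetI false

open AlgebraicCurve ModularCurve IntermediateField
open scoped TensorProduct

noncomputable section

namespace Fermat.Agent.S35

open Fermat.Agent.S18 Fermat.Agent.S34

/-- **(NF-K-DATA)** the model at level `M * q` with the normalised local generators of the
corrected Frobenius difference. -/
def s35k_DataStatement : Prop :=
  ∀ (M q : ℕ) [NeZero M] [NeZero q], q.Prime → ¬ q ∣ M → (4 ∣ M ∨ 9 ∣ M) →
    ∀ A : ValuationSubring (AlgebraicClosure ℚ), A.LiesOverPrime q →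
    ∀ (K0 : IntermediateField ℚ (AlgebraicClosure ℚ)), FiniteDimensional ℚ ↥K0 →
    ∀ (O : ValuationSubring ↥K0) [IsDiscreteValuationRing ↥O],
      (∀ x : ↥K0, x ∈ O ↔ (x : AlgebraicClosure ℚ) ∈ A) →
    ∀ σ0 : ↥K0 ≃ₐ[ℚ] ↥K0,
      (∀ x : ↥O, ∃ y : ↥O, y ∈ IsLocalRing.maximalIdeal ↥O ∧
        (y : ↥K0) = σ0 (x : ↥K0) - (x : ↥K0) ^ q) →
    ∀ n : ℕ, ¬ q ∣ n → ∀ f : ↥(s18_F ↥K0 (M * q)), f ≠ 0 →
      (∀ P : Place ↥K0 ↥(s18_F ↥K0 (M * q)), (n : ℤ) ∣ P.ord f) →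
      (∀ P : Place ↥K0 ↥(s18_F ↥K0 (M * q)), P.ord f ≠ 0 → P.deg = 1) →
      (∃ g : ↥(s18_F ↥K0 M), g ^ n = s35_normA ↥K0 M q f) →
      (∃ g : ↥(s18_F ↥K0 M), g ^ n = s35_normB ↥K0 M q f) →
      letI := s18_algOF ↥O ↥K0 (M * q)
      ∃ (J : ↥(s18_F ↥K0 (M * q))) (ϖ : ↥O) (W : Subring ↥(s18_F ↥K0 (M * q)))
        (V : ↥(s18_F ↥K0 (M * q))),
        Irreducible ϖ ∧ Transcendental ↥K0 J ∧
        FiniteDimensional ↥(↥K0)⟮J⟯ ↥(s18_F ↥K0 (M * q)) ∧
        s34l_IsW ↥O J ϖ W ∧ V ≠ 0 ∧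
        s35_fd (M * q) q (σ0 * σ0) f / V ^ n - 1 ∈ s34l_gauss ↥O ϖ W 1 ∧
        s34l_LocGen ↥O J ϖ W (s35_fd (M * q) q (σ0 * σ0) f / V ^ n) n ∧
        s34l_LocGen ↥O J⁻¹ ϖ W (s35_fd (M * q) q (σ0 * σ0) f / V ^ n) n

/-- The residue characteristic: `q ∈ 𝔪_O` for `O = A ∩ K0`, `A` over `q`. -/
theorem s35k_q_mem {q : ℕ} {A : ValuationSubring (AlgebraicClosure ℚ)} (hA : A.LiesOverPrime q)
    (K0 : IntermediateField ℚ (AlgebraicClosure ℚ)) (O : ValuationSubring ↥K0)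
    (hO : ∀ x : ↥K0, x ∈ O ↔ (x : AlgebraicClosure ℚ) ∈ A) :
    (q : ↥O) ∈ IsLocalRing.maximalIdeal ↥O := by
  have hqA : (q : AlgebraicClosure ℚ) ∈ A.nonunits := hA
  rw [IsLocalRing.mem_maximalIdeal, mem_nonunits_iff]
  intro hu
  have hq0 : (q : ↥K0) ≠ 0 := by
    intro h
    have h1 : ((q : ↥O) : ↥K0) = 0 := by simpa using h
    have h2 : (q : ↥O) = 0 := Subtype.ext h1
    rw [h2] at hu
    exact not_isUnit_zero hu
  obtain ⟨v, hv⟩ := hu
  have h1 : ((v⁻¹ : (↥O)ˣ) : ↥O) * (q : ↥O) = 1 := by rw [← hv]; exact v.inv_mul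
  have h2 : (((v⁻¹ : (↥O)ˣ) : ↥O) : ↥K0) * (q : ↥K0) = 1 := by
    have := congrArg (fun z : ↥O => (z : ↥K0)) h1
    simpa using this
  have h3 : (((v⁻¹ : (↥O)ˣ) : ↥O) : ↥K0) = (q : ↥K0)⁻¹ := eq_inv_of_mul_eq_one_left h2
  have h4 : ((q : ↥K0)⁻¹ : ↥K0) ∈ O := h3 ▸ ((v⁻¹ : (↥O)ˣ) : ↥O).2
  have h5 : (((q : ↥K0)⁻¹ : ↥K0) : AlgebraicClosure ℚ) ∈ A := (hO _).1 h4
  have h6 : ((q : AlgebraicClosure ℚ))⁻¹ ∈ A := by simpa using h5
  have hq0' : (q : AlgebraicClosure ℚ) ≠ 0 := by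
    intro h
    apply hq0
    have : ((q : ↥K0) : AlgebraicClosure ℚ) = 0 := by simpa using h
    exact_mod_cast this
  have h7 : A.valuation (q : AlgebraicClosure ℚ) < 1 := (A.mem_nonunits_iff).1 hqA |> fun h => by
    simpa using h
  have h8 : A.valuation ((q : AlgebraicClosure ℚ))⁻¹ ≤ 1 := (A.valuation_le_one_iff _).2 h6
  rw [map_inv₀] at h8
  have h9 : A.valuation (q : AlgebraicClosure ℚ) ≠ 0 := fun h => hq0' ((A.valuation.zero_iff).1 h)
  have h10 : 1 ≤ A.valuation (q : AlgebraicClosure ℚ) :=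
    (inv_le_one₀ (zero_lt_iff.mpr h9)).1 h8
  exact absurd h7 (not_lt.mpr h10)

/-- The Frobenius difference of a non-zero function is non-zero. -/
theorem s35k_fd_ne_zero {L : Type*} [Field L] [Algebra ℚ L] (N q : ℕ) (s : L ≃ₐ[ℚ] L)
    {f : ↥(laurentBaseChange L (modularFunctionFieldFull N))} (hf : f ≠ 0) :
    s35_fd N q s f ≠ 0 := by
  have h1 : arithmeticGalois (modularFunctionFieldFull N) s • f ≠ 0 := by
    intro h
    apply hf
    have := congrArg (fun x => (arithmeticGalois (modularFunctionFieldFull N) s)⁻¹ • x) h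
    simpa using this
  have h2 : arithmeticGalois (modularFunctionFieldFull N) s •
      (arithmeticGalois (modularFunctionFieldFull N) s • f) ≠ 0 := by
    intro h
    apply h1
    have := congrArg (fun x => (arithmeticGalois (modularFunctionFieldFull N) s)⁻¹ • x) h
    simpa using this
  unfold s35_fd
  exact div_ne_zero (mul_ne_zero h2 (pow_ne_zero _ hf)) (pow_ne_zero _ h1)

/-- **The wiring**: (NF-K) from [LIFT2] and (NF-K-DATA). -/
theorem s35k_ustarK_of (hL : s34l_Lift2Statement) (hD : s35k_DataStatement) :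
    s35_UStarKStatement := by
  intro M q _ _ hq hqM h49 A hA K0 hK0 O _ hO σ0 hσ0 n hn f hf hord hdeg hNA hNB C _ _ _
  letI := s18_algOF ↥O ↥K0 (M * q)
  haveI := s18_towerOF ↥O ↥K0 (M * q)
  have hqO : (q : ↥O) ∈ IsLocalRing.maximalIdeal ↥O := s35k_q_mem hA K0 O hO
  obtain ⟨J, ϖ, W, V, hϖ, hJ, hfin, hW, hV0, h1, h2, h3⟩ :=
    hD M q hq hqM h49 A hA K0 hK0 O hO σ0 hσ0 n hn f hf hord hdeg hNA hNB
  have hu0 : s35_fd (M * q) q (σ0 * σ0) f / V ^ n ≠ 0 :=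
    div_ne_zero (s35k_fd_ne_zero (M * q) q (σ0 * σ0) hf) (pow_ne_zero _ hV0)
  obtain ⟨y, hy⟩ := hL ↥O ↥K0 ↥(s18_F ↥K0 (M * q)) J hJ hfin ϖ hϖ W hW n
    (s34_isUnit_of_not_dvd hq hqO hn) (s35_fd (M * q) q (σ0 * σ0) f / V ^ n) hu0 h1 h2 h3 C
  refine ⟨y * ((1 : C) ⊗ₜ[↥K0] V), ?_⟩
  rw [mul_pow, hy, Algebra.TensorProduct.tmul_pow, one_pow,
    Algebra.TensorProduct.tmul_mul_tmul, one_mul, div_mul_cancel₀ _ (pow_ne_zero _ hV0)]

end Fermat.Agent.S35
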