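/-
S35, leaf [NF-FROB] = (E1), the abstract half (helper3).  Prefix `s35fr_`.

`O` a discrete valuation ring, `K = Frac O`, `κ` its residue field, `σ` an automorphism of `K`
which maps `O` into `O` and induces the endomorphism `φ` of `κ`:

  `hσ : ∀ x : O, ∃ x' : O, algebraMap O K x' = σ (algebraMap O K x) ∧
          residue O x' = φ (residue O x)`

(`φ = id`: the inertia clause of S34; `φ = frobenius κ q`: a Frobenius lift).  Then

  * `s35fr_symm_mem`   : `σ⁻¹ O ⊆ O` (so `σ O = O`; no finiteness of `K / ℚ` is used);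
  * `s35fr_pi`         : `σ ϖ = η ϖ` with `η ∈ Oˣ` for a uniformizer `ϖ`;
  * `s35fr_comp`       : the clause for a composition `σ₁ ∘ σ₂` with `φ₁ ∘ φ₂`;
  * `s35fr_of_frob`    : the clause with `φ = frobenius κ q` from `σ x - x ^ q ∈ 𝔪_O`;
  * `s35fr_of_inertia` : the clause with `φ = id` from `σ x - x ∈ 𝔪_O`.
-/
import Mathlib

set_option autoImplicit false
set_option linter.unusedSectionVars false

noncomputable section

namespace Fermat.Agent.S35

section Clause

variable {O K : Type*} [CommRing O] [IsDomain O] [IsDiscreteValuationRing O] [Field K]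
  [Algebra O K] [IsFractionRing O K]

/-- `σ` maps `O` into `O` and induces `φ` on the residue field. -/
def s35fr_Induces (σ : K →+* K) (φ : IsLocalRing.ResidueField O →+* IsLocalRing.ResidueField O) :
    Prop :=
  ∀ x : O, ∃ x' : O, algebraMap O K x' = σ (algebraMap O K x) ∧
    IsLocalRing.residue O x' = φ (IsLocalRing.residue O x)

variable {σ : K →+* K} {φ : IsLocalRing.ResidueField O →+* IsLocalRing.ResidueField O}

/-- `σ O ⊆ O`, and `σ x ∈ 𝔪 ↔ x ∈ 𝔪`. -/
theorem s35fr_map_mem (hσ : s35fr_Induces (O := O) σ φ) (x : O) :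
    ∃ x' : O, σ (algebraMap O K x) = algebraMap O K x' ∧
      (x' ∈ IsLocalRing.maximalIdeal O ↔ x ∈ IsLocalRing.maximalIdeal O) := by
  obtain ⟨x', h1, h2⟩ := hσ x
  refine ⟨x', h1.symm, ?_⟩
  rw [← IsLocalRing.residue_eq_zero_iff, ← IsLocalRing.residue_eq_zero_iff, h2]
  exact map_eq_zero φ

/-- The clause for a composition. -/
theorem s35fr_comp {σ₁ σ₂ : K →+* K}
    {φ₁ φ₂ : IsLocalRing.ResidueField O →+* IsLocalRing.ResidueField O}
    (h₁ : s35fr_Induces (O := O) σ₁ φ₁) (h₂ : s35fr_Induces (O := O) σ₂ φ₂) :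
    s35fr_Induces (O := O) (σ₁.comp σ₂) (φ₁.comp φ₂) := by
  intro x
  obtain ⟨y, hy1, hy2⟩ := h₂ x
  obtain ⟨z, hz1, hz2⟩ := h₁ y
  refine ⟨z, ?_, ?_⟩
  · rw [hz1, hy1]
    rfl
  · rw [hz2, hy2]
    rfl

/-- The inertia clause of S34. -/
theorem s35fr_of_inertia (σ : K →+* K)
    (hσ : ∀ x : O, ∃ y : O, y ∈ IsLocalRing.maximalIdeal O ∧
      algebraMap O K y = σ (algebraMap O K x) - algebraMap O K x) :
    s35fr_Induces (O := O) σ (RingHom.id _) := by
  intro x
  obtain ⟨y, hy, h⟩ := hσ x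
  refine ⟨x + y, ?_, ?_⟩
  · rw [map_add, h]
    ring
  · rw [map_add, (IsLocalRing.residue_eq_zero_iff _).2 hy, add_zero]
    rfl

/-- The Frobenius clause: `σ x ≡ x ^ q` modulo `𝔪_O`. -/
theorem s35fr_of_frob (σ : K →+* K) (q : ℕ) [Fact q.Prime]
    [CharP (IsLocalRing.ResidueField O) q]
    (hσ : ∀ x : O, ∃ y : O, y ∈ IsLocalRing.maximalIdeal O ∧
      algebraMap O K y = σ (algebraMap O K x) - algebraMap O K x ^ q) :
    s35fr_Induces (O := O) σ (frobenius (IsLocalRing.ResidueField O) q) := by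
  intro x
  obtain ⟨y, hy, h⟩ := hσ x
  refine ⟨x ^ q + y, ?_, ?_⟩
  · rw [map_add, map_pow, h]
    ring
  · rw [map_add, (IsLocalRing.residue_eq_zero_iff _).2 hy, add_zero, map_pow]
    rfl

end Clause

section Equiv

variable {O K : Type*} [CommRing O] [IsDomain O] [IsDiscreteValuationRing O] [Field K]
  [Algebra O K] [IsFractionRing O K] {σ : K ≃+* K}
  {φ : IsLocalRing.ResidueField O →+* IsLocalRing.ResidueField O}

/-- `σ⁻¹ O ⊆ O`. -/
theorem s35fr_symm_mem (hσ : s35fr_Induces (O := O) (σ : K →+* K) φ) (x : O) :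
    ∃ z : O, σ.symm (algebraMap O K x) = algebraMap O K z := by
  have hinj : Function.Injective (algebraMap O K) := IsFractionRing.injective O K
  rcases ValuationRing.isInteger_or_isInteger O (σ.symm (algebraMap O K x)) with h | h
  · obtain ⟨z, hz⟩ := h
    exact ⟨z, hz.symm⟩
  · obtain ⟨z, hz⟩ := h
    by_cases hx : x = 0
    · refine ⟨0, ?_⟩
      simp [hx]
    obtain ⟨z', hz', hzm⟩ := s35fr_map_mem hσ z
    have hz'' : σ (algebraMap O K z) = algebraMap O K z' := hz'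
    have hx0 : algebraMap O K x ≠ 0 := fun h0 => hx (hinj (h0.trans (map_zero _).symm))
    have h1 : algebraMap O K z' = (algebraMap O K x)⁻¹ := by
      rw [← hz'', hz, map_inv₀, RingEquiv.apply_symm_apply]
    have h2 : z' * x = 1 := by
      apply hinj
      rw [map_mul, h1, map_one, inv_mul_cancel₀ hx0]
    have hz'u : IsUnit z' := IsUnit.of_mul_eq_one x h2
    have hzu : IsUnit z := by
      by_contra hzn
      have : z ∈ IsLocalRing.maximalIdeal O := (IsLocalRing.mem_maximalIdeal _).2 hzn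
      exact (IsLocalRing.mem_maximalIdeal _).1 (hzm.2 this) hz'u
    obtain ⟨u, rfl⟩ := hzu
    refine ⟨((u⁻¹ : Oˣ) : O), ?_⟩
    have h3 : algebraMap O K (u : O) * algebraMap O K ((u⁻¹ : Oˣ) : O) = 1 := by
      rw [← map_mul, Units.mul_inv, map_one]
    have h4 : algebraMap O K (u : O) ≠ 0 := left_ne_zero_of_mul_eq_one h3
    rw [hz] at h3
    have h5 : (σ.symm (algebraMap O K x))⁻¹ ≠ 0 := by rw [← hz]; exact h4
    have h6 : σ.symm (algebraMap O K x) ≠ 0 := fun h0 => h5 (by rw [h0, inv_zero])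
    field_simp at h3
    exact h3.symm

/-- `σ⁻¹ O ⊆ O`, and `σ⁻¹ x ∈ 𝔪 ↔ x ∈ 𝔪`. -/
theorem s35fr_symm_map_mem (hσ : s35fr_Induces (O := O) (σ : K →+* K) φ) (x : O) :
    ∃ z : O, σ.symm (algebraMap O K x) = algebraMap O K z ∧
      (z ∈ IsLocalRing.maximalIdeal O ↔ x ∈ IsLocalRing.maximalIdeal O) := by
  have hinj : Function.Injective (algebraMap O K) := IsFractionRing.injective O K
  obtain ⟨z, hz⟩ := s35fr_symm_mem hσ x
  refine ⟨z, hz, ?_⟩
  obtain ⟨z', hz', hzm⟩ := s35fr_map_mem hσ z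
  have hz'' : σ (algebraMap O K z) = algebraMap O K z' := hz'
  have : z' = x := by
    apply hinj
    rw [← hz'', ← hz, RingEquiv.apply_symm_apply]
  rw [this] at hzm
  exact hzm.symm

/-- `σ ϖ = η ϖ` with `η` a unit of `O`. -/
theorem s35fr_pi (hσ : s35fr_Induces (O := O) (σ : K →+* K) φ) {ϖ : O} (hϖ : Irreducible ϖ) :
    ∃ η : O, IsUnit η ∧ σ (algebraMap O K ϖ) = algebraMap O K η * algebraMap O K ϖ := by
  have hinj : Function.Injective (algebraMap O K) := IsFractionRing.injective O K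
  have hmem : ∀ a : O, a ∈ IsLocalRing.maximalIdeal O ↔ ∃ c : O, a = c * ϖ := by
    intro a
    rw [hϖ.maximalIdeal_eq, Ideal.mem_span_singleton']
    exact ⟨fun ⟨c, hc⟩ => ⟨c, hc.symm⟩, fun ⟨c, hc⟩ => ⟨c, hc.symm⟩⟩
  have hϖm : ϖ ∈ IsLocalRing.maximalIdeal O := (hmem ϖ).2 ⟨1, (one_mul ϖ).symm⟩
  obtain ⟨p, hp, hpm⟩ := s35fr_map_mem hσ ϖ
  have hp' : σ (algebraMap O K ϖ) = algebraMap O K p := hp
  obtain ⟨η, hη⟩ := (hmem p).1 (hpm.2 hϖm)
  obtain ⟨p', hp'', hpm'⟩ := s35fr_symm_map_mem hσ ϖ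
  obtain ⟨η', hη'⟩ := (hmem p').1 (hpm'.2 hϖm)
  obtain ⟨η'', hη'', -⟩ := s35fr_map_mem hσ η'
  have hη3 : σ (algebraMap O K η') = algebraMap O K η'' := hη''
  refine ⟨η, ?_, ?_⟩
  · have h1 : algebraMap O K ϖ = algebraMap O K (η'' * (η * ϖ)) := by
      have : σ (σ.symm (algebraMap O K ϖ)) = algebraMap O K ϖ := σ.apply_symm_apply _
      rw [hp'', hη', map_mul, map_mul, hη3, hp', hη] at this
      rw [map_mul]
      exact this.symm
    have h2 : ϖ = η'' * (η * ϖ) := hinj h1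
    have h3 : (η'' * η) * ϖ = 1 * ϖ := by rw [one_mul, mul_assoc]; exact h2.symm
    have h4 : η'' * η = 1 := mul_right_cancel₀ hϖ.ne_zero h3
    exact IsUnit.of_mul_eq_one η'' (by rw [mul_comm]; exact h4)
  · rw [hp', hη, map_mul]

end Equiv

end Fermat.Agent.S35
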