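/-
S35, leaf [NF-FROB] = (E1) (helper3).  Prefix `s35fr_`.

SEMILINEAR REDUCTION ON THE TWO GAUSS BRANCHES.

`O` a discrete valuation ring of characteristic zero, `K = Frac O`, `κ` its residue field,
`σ : K ≃ₐ[ℚ] K` with `σ O ⊆ O` inducing the endomorphism `φ` of `κ` (`s35fr_Induces σ φ`;
`φ = frobenius κ q` for a Frobenius lift, `φ = id` for the inertia group).  `σ` acts on
`F = F_K(N)` through the coefficients of the `q`-expansion (`arithmeticGalois`), `Φ = coeffMap φ`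
on `κ((q))`.  For every level `N` and every `K`-automorphism `W` of `F` commuting with `σ`:

  `s35fr_tau_mem_iff`  : `σ • y ∈ V_∞ ↔ y ∈ V_∞`,        `s35fr_rho_tau`  : `ρ_∞ (σ • y) = Φ (ρ_∞ y)`,
  `s35fr_tau_mem_iff0` : `σ • y ∈ V_0 ↔ y ∈ V_0`,        `s35fr_rho0_tau` : `ρ_0 (σ • y) = Φ (ρ_0 y)`,
  `s35fr_W2_tau_mem_iff` : `σ • y ∈ V_∞ ⊓ V_0 ↔ y ∈ V_∞ ⊓ V_0`.
-/
import Mathlib
import Fermat.Prelude.Def_ModularCurve_ArithmeticGalois
import Fermat.Agent.S34.SsGaussV0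
import Fermat.Agent.S35.NfFrobAbs

set_option autoImplicit false
set_option linter.unusedSectionVars false
set_option linter.unusedVariables false
set_option linter.style.haveILetI false

open AlgebraicCurve ModularCurve IntermediateField
open Fermat.Agent.S18 Fermat.Agent.S34

noncomputable section

namespace Fermat.Agent.S35

/-! ### The action on `R` -/

section R

variable {O K : Type} [CommRing O] [IsDomain O] [IsDiscreteValuationRing O] [Field K]
  [Algebra O K] [IsFractionRing O K] (σ : K →+* K)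
  (φ : IsLocalRing.ResidueField O →+* IsLocalRing.ResidueField O)
  (hσ : s35fr_Induces (O := O) σ φ)

theorem s35fr_sigmaO_aux (x : O) :
    algebraMap O K (Classical.choose (hσ x)) = σ (algebraMap O K x) :=
  (Classical.choose_spec (hσ x)).1

/-- The restriction of `σ` to `O`. -/
def s35fr_sigmaO : O →+* O where
  toFun x := Classical.choose (hσ x)
  map_one' := by
    apply IsFractionRing.injective O K
    rw [s35fr_sigmaO_aux σ φ hσ, map_one, map_one]
  map_mul' a b := by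
    apply IsFractionRing.injective O K
    rw [s35fr_sigmaO_aux σ φ hσ, map_mul, map_mul, map_mul, s35fr_sigmaO_aux σ φ hσ,
      s35fr_sigmaO_aux σ φ hσ]
  map_zero' := by
    apply IsFractionRing.injective O K
    rw [s35fr_sigmaO_aux σ φ hσ, map_zero, map_zero]
  map_add' a b := by
    apply IsFractionRing.injective O K
    rw [s35fr_sigmaO_aux σ φ hσ, map_add, map_add, map_add, s35fr_sigmaO_aux σ φ hσ,
      s35fr_sigmaO_aux σ φ hσ]

theorem s35fr_algebraMap_sigmaO (x : O) :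
    algebraMap O K (s35fr_sigmaO σ φ hσ x) = σ (algebraMap O K x) :=
  s35fr_sigmaO_aux σ φ hσ x

theorem s35fr_residue_sigmaO (x : O) :
    IsLocalRing.residue O (s35fr_sigmaO σ φ hσ x) = φ (IsLocalRing.residue O x) :=
  (Classical.choose_spec (hσ x)).2

theorem s35fr_iota_sigmaO (a : LaurentSeries O) :
    coeffMap (algebraMap O K) (coeffMap (s35fr_sigmaO σ φ hσ) a) =
      coeffMap σ (coeffMap (algebraMap O K) a) := by
  rw [coeffMap_coeffMap, coeffMap_coeffMap]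
  exact coeffMap_congr (RingHom.ext fun x => s35fr_algebraMap_sigmaO σ φ hσ x) a

theorem s35fr_red_sigmaO (a : LaurentSeries O) :
    coeffMap (IsLocalRing.residue O) (coeffMap (s35fr_sigmaO σ φ hσ) a) =
      coeffMap φ (coeffMap (IsLocalRing.residue O) a) := by
  rw [coeffMap_coeffMap, coeffMap_coeffMap]
  exact coeffMap_congr (RingHom.ext fun x => s35fr_residue_sigmaO σ φ hσ x) a

theorem s35fr_coeffMap_ne_zero {z : LaurentSeries (IsLocalRing.ResidueField O)} (hz : z ≠ 0) :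
    coeffMap φ z ≠ 0 := by
  intro h
  exact hz ((coeffMap φ).injective (h.trans (map_zero _).symm))

include hσ in
/-- `σ R ⊆ R`. -/
theorem s35fr_R_map (x : LaurentSeries K) (hx : x ∈ s18ga_R O K) :
    coeffMap σ x ∈ s18ga_R O K := by
  obtain ⟨a, s, hs, h⟩ := hx
  refine ⟨coeffMap (s35fr_sigmaO σ φ hσ) a, coeffMap (s35fr_sigmaO σ φ hσ) s, ?_, ?_⟩
  · rw [s35fr_red_sigmaO]
    exact s35fr_coeffMap_ne_zero φ hs
  · rw [s35fr_iota_sigmaO, s35fr_iota_sigmaO, ← map_mul, h]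

/-- `ρ ∘ σ = Φ ∘ ρ` on `R`. -/
theorem s35fr_rho_R_map (x : ↥(s18ga_R O K)) :
    s18ga_rho O K ⟨coeffMap σ (x : LaurentSeries K), s35fr_R_map σ φ hσ _ x.2⟩ =
      coeffMap φ (s18ga_rho O K x) := by
  obtain ⟨a, s, hs, h⟩ := x.2
  have hs' : coeffMap (IsLocalRing.residue O) (coeffMap (s35fr_sigmaO σ φ hσ) s) ≠ 0 := by
    rw [s35fr_red_sigmaO]
    exact s35fr_coeffMap_ne_zero φ hs
  rw [s18ga_rho_eq x a s hs h,
    s18ga_rho_eq ⟨coeffMap σ (x : LaurentSeries K), s35fr_R_map σ φ hσ _ x.2⟩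
      (coeffMap (s35fr_sigmaO σ φ hσ) a) (coeffMap (s35fr_sigmaO σ φ hσ) s) hs'
      (by
        show coeffMap σ (x : LaurentSeries K) * _ = _
        rw [s35fr_iota_sigmaO, s35fr_iota_sigmaO, ← map_mul, h]),
    s35fr_red_sigmaO, s35fr_red_sigmaO, map_div₀]

end R

/-! ### The action on the Gauss branch at `∞` -/

section Tau

variable {O K : Type} [CommRing O] [IsDomain O] [IsDiscreteValuationRing O] [Field K]
  [CharZero K] [Algebra O K] [IsFractionRing O K] {N : ℕ} [NeZero N] (σ : K ≃ₐ[ℚ] K)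
  (φ : IsLocalRing.ResidueField O →+* IsLocalRing.ResidueField O)
  (hσ : s35fr_Induces (O := O) (σ : K →+* K) φ)

include hσ in
/-- `σ V_∞ ⊆ V_∞`. -/
theorem s35fr_tau_mem (y : ↥(s18_F K N)) (hy : y ∈ s34g_V O K N) :
    arithmeticGalois (modularFunctionFieldFull N) σ • y ∈ s34g_V O K N :=
  s35fr_R_map (σ : K →+* K) φ hσ _ hy

/-- **`ρ_∞ ∘ σ = Φ ∘ ρ_∞`.** -/
theorem s35fr_rho_tau (y : ↥(s34g_V O K N)) :
    s34g_rho O K N ⟨arithmeticGalois (modularFunctionFieldFull N) σ • (y : ↥(s18_F K N)),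
      s35fr_tau_mem σ φ hσ _ y.2⟩ = coeffMap φ (s34g_rho O K N y) :=
  s35fr_rho_R_map (σ : K →+* K) φ hσ ⟨_, y.2⟩

include hσ in
/-- **`σ V_∞ = V_∞`.** -/
theorem s35fr_tau_mem_iff (y : ↥(s18_F K N)) :
    arithmeticGalois (modularFunctionFieldFull N) σ • y ∈ s34g_V O K N ↔
      y ∈ s34g_V O K N := by
  refine ⟨fun h => ?_, s35fr_tau_mem σ φ hσ y⟩
  by_contra hy
  have hinv : y⁻¹ ∈ s34g_V O K N := ((s34g_V O K N).mem_or_inv_mem y).resolve_left hy
  have hy0 : y ≠ 0 := by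
    rintro rfl
    exact hy (zero_mem _)
  have hnu : s34g_rho O K N ⟨y⁻¹, hinv⟩ = 0 := by
    by_contra h0
    have := s34g_inv_mem ⟨y⁻¹, hinv⟩ h0
    rw [inv_inv] at this
    exact hy this
  have h1 := s35fr_rho_tau σ φ hσ ⟨y⁻¹, hinv⟩
  rw [hnu, map_zero] at h1
  have h2 : (⟨arithmeticGalois (modularFunctionFieldFull N) σ • y, h⟩ : ↥(s34g_V O K N)) *
      ⟨arithmeticGalois (modularFunctionFieldFull N) σ • y⁻¹,
        s35fr_tau_mem σ φ hσ _ hinv⟩ = 1 := by
    apply Subtype.ext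
    show arithmeticGalois (modularFunctionFieldFull N) σ • y *
      arithmeticGalois (modularFunctionFieldFull N) σ • y⁻¹ = 1
    rw [← smul_mul', mul_inv_cancel₀ hy0, smul_one]
  have h3 := congrArg (s34g_rho O K N) h2
  rw [map_mul, h1, mul_zero, map_one] at h3
  exact zero_ne_one h3

/-! ### The second branch -/

variable (W : ↥(s18_F K N) ≃ₐ[K] ↥(s18_F K N))
  (hWσ : ∀ y : ↥(s18_F K N), W (arithmeticGalois (modularFunctionFieldFull N) σ • y) =
    arithmeticGalois (modularFunctionFieldFull N) σ • W y)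

include hσ hWσ in
/-- **`σ V_0 = V_0`.** -/
theorem s35fr_tau_mem_iff0 (y : ↥(s18_F K N)) :
    arithmeticGalois (modularFunctionFieldFull N) σ • y ∈ s34g_V0 O W ↔
      y ∈ s34g_V0 O W := by
  rw [s34g_mem_V0_iff, s34g_mem_V0_iff, hWσ]
  exact s35fr_tau_mem_iff σ φ hσ (W y)

include hσ hWσ in
theorem s35fr_tau_mem0 (y : ↥(s18_F K N)) (hy : y ∈ s34g_V0 O W) :
    arithmeticGalois (modularFunctionFieldFull N) σ • y ∈ s34g_V0 O W :=
  (s35fr_tau_mem_iff0 σ φ hσ W hWσ y).2 hy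

/-- **`ρ_0 ∘ σ = Φ ∘ ρ_0`.** -/
theorem s35fr_rho0_tau (y : ↥(s34g_V0 O W)) :
    s34g_rho0 O W ⟨arithmeticGalois (modularFunctionFieldFull N) σ • (y : ↥(s18_F K N)),
      s35fr_tau_mem0 σ φ hσ W hWσ _ y.2⟩ = coeffMap φ (s34g_rho0 O W y) := by
  rw [s34g_rho0_apply, s34g_rho0_apply,
    ← s35fr_rho_tau σ φ hσ ⟨W (y : ↥(s18_F K N)), y.2⟩]
  congr 1
  exact Subtype.ext (hWσ _)

include hσ hWσ in
/-- **`σ (V_∞ ⊓ V_0) = V_∞ ⊓ V_0`.** -/
theorem s35fr_W2_tau_mem_iff (y : ↥(s18_F K N)) :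
    arithmeticGalois (modularFunctionFieldFull N) σ • y ∈ s34g_W2 O W ↔ y ∈ s34g_W2 O W := by
  rw [s34g_mem_W2_iff, s34g_mem_W2_iff, hWσ, s35fr_tau_mem_iff σ φ hσ,
    s35fr_tau_mem_iff σ φ hσ]

end Tau

end Fermat.Agent.S35
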