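/-
S35, leaf [NF-FROB] = (E1), complements (helper3).  Prefix `s35fr_`.

  * iterates: `s35fr_induces_mul` (the clause for `σ₁ * σ₂` with `φ₁ ∘ φ₂`), `s35fr_smul_mul`;
  * the Frobenius: `s35fr_charP`, `s35fr_induces_frob` (the clause `σ x ≡ x ^ q` modulo `𝔪_O`
    in the spelling of `s34_UStarKStatement`), `s35fr_rho_tau_pow` / `s35fr_rho0_tau_pow`
    (`(ρ_w (σ • y))(t^q) = (ρ_w y) ^ q`), `s35fr_frob_sq` (`z ^ (q²) = (Ψ z)(t^(q²))`);
  * the charts: `s35fr_tau_chart`, `s35fr_tau_symm_chart` (`σ B = B` for the chart `B` of a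
    `σ`-fixed function), `s35fr_tau_pi` (`σ π = η π`, `η ∈ Oˣ`).
-/
import Mathlib
import Fermat.Agent.S37.EsCong
import Fermat.Agent.S34.KTauAbs
import Fermat.Agent.S35.NfFrob

set_option autoImplicit false
set_option linter.unusedSectionVars false
set_option linter.unusedVariables false
set_option linter.style.haveILetI false

open AlgebraicCurve ModularCurve IntermediateField
open Fermat.Agent.S18 Fermat.Agent.S34 Fermat.Agent.S37

noncomputable section

namespace Fermat.Agent.S35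

/-! ### Iterates -/

section Mul

variable {O K : Type} [CommRing O] [IsDomain O] [IsDiscreteValuationRing O] [Field K]
  [CharZero K] [Algebra O K] [IsFractionRing O K] {N : ℕ} [NeZero N]

theorem s35fr_induces_mul {σ₁ σ₂ : K ≃ₐ[ℚ] K}
    {φ₁ φ₂ : IsLocalRing.ResidueField O →+* IsLocalRing.ResidueField O}
    (h₁ : s35fr_Induces (O := O) (σ₁ : K →+* K) φ₁)
    (h₂ : s35fr_Induces (O := O) (σ₂ : K →+* K) φ₂) :
    s35fr_Induces (O := O) ((σ₁ * σ₂ : K ≃ₐ[ℚ] K) : K →+* K) (φ₁.comp φ₂) :=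
  s35fr_comp h₁ h₂

theorem s35fr_smul_mul (σ₁ σ₂ : K ≃ₐ[ℚ] K) (y : ↥(s18_F K N)) :
    arithmeticGalois (modularFunctionFieldFull N) (σ₁ * σ₂) • y =
      arithmeticGalois (modularFunctionFieldFull N) σ₁ •
        arithmeticGalois (modularFunctionFieldFull N) σ₂ • y := by
  rw [map_mul, mul_smul]

theorem s35fr_coeffMap_comp {κ : Type*} [CommRing κ] (φ₁ φ₂ : κ →+* κ) (z : LaurentSeries κ) :
    coeffMap (φ₁.comp φ₂) z = coeffMap φ₁ (coeffMap φ₂ z) :=
  (coeffMap_coeffMap φ₁ φ₂ z).symm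

end Mul

/-! ### The Frobenius -/

section Frob

variable {O K : Type} [CommRing O] [IsDomain O] [IsDiscreteValuationRing O] [Field K]
  [CharZero K] [Algebra O K] [IsFractionRing O K] {N : ℕ} [NeZero N]

/-- The residue field has characteristic `q`. -/
theorem s35fr_charP {q : ℕ} (hq : q.Prime) (hqO : (q : O) ∈ IsLocalRing.maximalIdeal O) :
    CharP (IsLocalRing.ResidueField O) q := by
  have h0 : ((q : ℕ) : IsLocalRing.ResidueField O) = 0 := by
    have := (IsLocalRing.residue_eq_zero_iff (q : O)).2 hqO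
    rwa [map_natCast] at this
  exact (CharP.charP_iff_prime_eq_zero hq).2 h0

/-- The Frobenius clause. -/
theorem s35fr_induces_frob (σ : K ≃ₐ[ℚ] K) (q : ℕ) [Fact q.Prime]
    [CharP (IsLocalRing.ResidueField O) q]
    (hσ : ∀ x : O, ∃ y : O, y ∈ IsLocalRing.maximalIdeal O ∧
      algebraMap O K y = σ (algebraMap O K x) - algebraMap O K x ^ q) :
    s35fr_Induces (O := O) (σ : K →+* K) (frobenius (IsLocalRing.ResidueField O) q) :=
  s35fr_of_frob (σ : K →+* K) q hσ

/-- The inertia clause. -/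
theorem s35fr_induces_inertia (σ : K ≃ₐ[ℚ] K)
    (hσ : ∀ x : O, ∃ y : O, y ∈ IsLocalRing.maximalIdeal O ∧
      algebraMap O K y = σ (algebraMap O K x) - algebraMap O K x) :
    s35fr_Induces (O := O) (σ : K →+* K) (RingHom.id _) :=
  s35fr_of_inertia (σ : K →+* K) hσ

variable (σ : K ≃ₐ[ℚ] K) (q : ℕ) [NeZero q] [Fact q.Prime]
  [CharP (IsLocalRing.ResidueField O) q]
  (hσ : s35fr_Induces (O := O) (σ : K →+* K) (frobenius (IsLocalRing.ResidueField O) q))

/-- `(ρ_∞ (σ • y))(t^q) = (ρ_∞ y) ^ q` for a Frobenius lift `σ`. -/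
theorem s35fr_rho_tau_pow (y : ↥(s34g_V O K N)) :
    qExpand (IsLocalRing.ResidueField O) q
      (s34g_rho O K N ⟨arithmeticGalois (modularFunctionFieldFull N) σ • (y : ↥(s18_F K N)),
        s35fr_tau_mem σ _ hσ _ y.2⟩) = s34g_rho O K N y ^ q := by
  rw [s35fr_rho_tau σ _ hσ y, ← s37cg_frob q]

/-- `(ρ_0 (σ • y))(t^q) = (ρ_0 y) ^ q` for a Frobenius lift `σ`. -/
theorem s35fr_rho0_tau_pow (W : ↥(s18_F K N) ≃ₐ[K] ↥(s18_F K N))
    (hWσ : ∀ y : ↥(s18_F K N), W (arithmeticGalois (modularFunctionFieldFull N) σ • y) =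
      arithmeticGalois (modularFunctionFieldFull N) σ • W y) (y : ↥(s34g_V0 O W)) :
    qExpand (IsLocalRing.ResidueField O) q
      (s34g_rho0 O W ⟨arithmeticGalois (modularFunctionFieldFull N) σ • (y : ↥(s18_F K N)),
        s35fr_tau_mem0 σ _ hσ W hWσ _ y.2⟩) = s34g_rho0 O W y ^ q := by
  rw [s35fr_rho0_tau σ _ hσ W hWσ y, ← s37cg_frob q]

end Frob

section FrobSq

variable {κ : Type*} [CommRing κ] (q : ℕ) [NeZero q] [Fact q.Prime] [CharP κ q]

/-- `Ψ = Φ²` on constants. -/
theorem s35fr_frob_sq_apply (a : κ) :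
    ((frobenius κ q).comp (frobenius κ q)) a = a ^ (q ^ 2) := by
  show (a ^ q) ^ q = a ^ (q ^ 2)
  rw [← pow_mul, pow_two]

/-- `z ^ (q²) = (Ψ z)(t^q)(t^q)`. -/
theorem s35fr_frob_sq (z : LaurentSeries κ) :
    z ^ (q ^ 2) = qExpand κ q (qExpand κ q
      (coeffMap ((frobenius κ q).comp (frobenius κ q)) z)) := by
  rw [pow_two, pow_mul, s37cg_frob q z, s37cg_frob q, coeffMap_qExpand,
    s35fr_coeffMap_comp]

end FrobSq

/-! ### The charts -/

section Chart

variable {O K : Type} [CommRing O] [IsDomain O] [IsDiscreteValuationRing O] [Field K]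
  [CharZero K] [Algebra O K] [IsFractionRing O K] {N : ℕ} [NeZero N] (σ : K ≃ₐ[ℚ] K)
  (φ : IsLocalRing.ResidueField O →+* IsLocalRing.ResidueField O)
  (hσ : s35fr_Induces (O := O) (σ : K →+* K) φ)

include hσ in
theorem s35fr_tau_const (a : O) :
    letI := s18_algOF O K N
    ∃ a' : O, arithmeticRingAut (modularFunctionFieldFull N) σ
      (algebraMap O ↥(s18_F K N) a) = algebraMap O ↥(s18_F K N) a' := by
  letI := s18_algOF O K N
  obtain ⟨a', ha', -⟩ := s35fr_map_mem hσ a
  refine ⟨a', ?_⟩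
  show arithmeticRingAut (modularFunctionFieldFull N) σ
    (algebraMap K ↥(s18_F K N) (algebraMap O K a)) =
      algebraMap K ↥(s18_F K N) (algebraMap O K a')
  rw [arithmeticRingAut_algebraMap]
  exact congrArg (algebraMap K ↥(s18_F K N)) ha'

include hσ in
theorem s35fr_tau_symm_const (a : O) :
    letI := s18_algOF O K N
    ∃ a' : O, arithmeticRingAut (modularFunctionFieldFull N) σ.symm
      (algebraMap O ↥(s18_F K N) a) = algebraMap O ↥(s18_F K N) a' := by
  letI := s18_algOF O K N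
  obtain ⟨a', ha'⟩ := s35fr_symm_mem (σ := (σ : K ≃+* K)) hσ a
  refine ⟨a', ?_⟩
  show arithmeticRingAut (modularFunctionFieldFull N) σ.symm
    (algebraMap K ↥(s18_F K N) (algebraMap O K a)) =
      algebraMap K ↥(s18_F K N) (algebraMap O K a')
  rw [arithmeticRingAut_algebraMap]
  exact congrArg (algebraMap K ↥(s18_F K N)) ha'

include hσ in
/-- `σ π = η π` with `η` a unit of `O`. -/
theorem s35fr_tau_pi {ϖ : O} (hϖ : Irreducible ϖ) :
    letI := s18_algOF O K N
    ∃ η : O, IsUnit η ∧ arithmeticRingAut (modularFunctionFieldFull N) σ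
      (algebraMap O ↥(s18_F K N) ϖ) =
        algebraMap O ↥(s18_F K N) η * algebraMap O ↥(s18_F K N) ϖ := by
  letI := s18_algOF O K N
  obtain ⟨η, hη, h⟩ := s35fr_pi (σ := (σ : K ≃+* K)) hσ hϖ
  refine ⟨η, hη, ?_⟩
  show arithmeticRingAut (modularFunctionFieldFull N) σ
    (algebraMap K ↥(s18_F K N) (algebraMap O K ϖ)) =
      algebraMap K ↥(s18_F K N) (algebraMap O K η) *
        algebraMap K ↥(s18_F K N) (algebraMap O K ϖ)
  rw [arithmeticRingAut_algebraMap, ← map_mul]
  exact congrArg (algebraMap K ↥(s18_F K N)) h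

include hσ in
/-- `σ B ⊆ B` for the chart of a `σ`-fixed function. -/
theorem s35fr_tau_chart (t : ↥(s18_F K N))
    (ht : arithmeticGalois (modularFunctionFieldFull N) σ • t = t) (b : ↥(s18_F K N))
    (hb : letI := s18_algOF O K N
      b ∈ s18_chart O ({t} : Set ↥(s18_F K N))) :
    letI := s18_algOF O K N
    arithmeticRingAut (modularFunctionFieldFull N) σ b ∈
      s18_chart O ({t} : Set ↥(s18_F K N)) := by
  letI := s18_algOF O K N
  exact s34kt_chart_map_singleton
    ((arithmeticRingAut (modularFunctionFieldFull N) σ : ↥(s18_F K N) ≃+* ↥(s18_F K N)) :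
      ↥(s18_F K N) →+* ↥(s18_F K N))
    (fun a => s35fr_tau_const σ φ hσ a) t ht b hb

include hσ in
/-- `σ⁻¹ B ⊆ B` for the chart of a `σ`-fixed function. -/
theorem s35fr_tau_symm_chart (t : ↥(s18_F K N))
    (ht : arithmeticGalois (modularFunctionFieldFull N) σ • t = t) (b : ↥(s18_F K N))
    (hb : letI := s18_algOF O K N
      b ∈ s18_chart O ({t} : Set ↥(s18_F K N))) :
    letI := s18_algOF O K N
    (arithmeticRingAut (modularFunctionFieldFull N) σ).symm b ∈
      s18_chart O ({t} : Set ↥(s18_F K N)) := by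
  letI := s18_algOF O K N
  have ht' : arithmeticRingAut (modularFunctionFieldFull N) σ.symm t = t := by
    have h1 : (arithmeticRingAut (modularFunctionFieldFull N) σ).symm
        (arithmeticRingAut (modularFunctionFieldFull N) σ t) = t :=
      RingEquiv.symm_apply_apply _ t
    have h2 : arithmeticRingAut (modularFunctionFieldFull N) σ t = t := ht
    rw [h2] at h1
    exact h1
  exact s34kt_chart_map_singleton
    ((arithmeticRingAut (modularFunctionFieldFull N) σ.symm :
      ↥(s18_F K N) ≃+* ↥(s18_F K N)) : ↥(s18_F K N) →+* ↥(s18_F K N))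
    (fun a => s35fr_tau_symm_const σ φ hσ a) t ht' b hb

end Chart

end Fermat.Agent.S35
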