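/-
S35, leaf [NF-FROB] = (E1), the model instance (helper3).  Prefix `s35fr_`.

THE MODEL of S34 at the level `M * q` over `(K0, O)`: `J = j · j_q` (`s34km_J`), `W_q` the
Atkin-Lehner involution (`s34w_W`), `𝒱 = {V_∞, V_0}` (`s34km_Vset`).  For an automorphism `σ0` of
`K0` with `σ0 O ⊆ O` inducing `φ` on the residue field (`s35fr_Induces`; in particular for a
Frobenius lift `σ0` and for its square `s = σ0 * σ0`), `τ = arithmeticRingAut σ0`:

  `s35fr_IsFrobTau O t ϖ τ 𝒱` : `τ B = B` for the chart `B` of `t`, `τ π = η π` with `η ∈ Oˣ`,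
                               `τ V = V` and `τ 𝔪_V = 𝔪_V` for `V ∈ 𝒱`;
  `s35fr_model`               : `s35fr_IsFrobTau` for `t = J` and `t = J⁻¹`;
  `s35fr_model_frob`, `s35fr_model_frob_sq` : the same from the Frobenius clause of (NF-K), for
                               `σ0` and for `s = σ0 * σ0`.
-/
import Mathlib
import Fermat.Agent.S34.KMainDefs
import Fermat.Agent.S34.KTau
import Fermat.Agent.S35.NfFrobChart

set_option autoImplicit false
set_option linter.unusedSectionVars false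
set_option linter.unusedVariables false
set_option linter.style.haveILetI false

open AlgebraicCurve ModularCurve IntermediateField
open Fermat.Agent.S18 Fermat.Agent.S34

noncomputable section

namespace Fermat.Agent.S35

/-! ### Valuation subrings stable under an automorphism -/

section Val

variable {F : Type*} [Field F]

theorem s35fr_mem_nonunits_iff (V : ValuationSubring F) {x : F} (hx : x ≠ 0) :
    x ∈ V.nonunits ↔ x⁻¹ ∉ V := by
  rw [ValuationSubring.mem_nonunits_iff, ← ValuationSubring.valuation_le_one_iff, map_inv₀,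
    not_le]
  have h0 : V.valuation x ≠ 0 := fun h => hx ((V.valuation.zero_iff).mp h)
  constructor
  · intro h
    exact (one_lt_inv₀ (zero_lt_iff.mpr h0)).mpr h
  · intro h
    exact (one_lt_inv₀ (zero_lt_iff.mpr h0)).mp h

/-- A `τ`-stable valuation subring has a `τ`-stable maximal ideal. -/
theorem s35fr_nonunits_iff (V : ValuationSubring F) (τ : F ≃+* F)
    (h : ∀ x : F, τ x ∈ V ↔ x ∈ V) (x : F) : τ x ∈ V.nonunits ↔ x ∈ V.nonunits := by
  by_cases hx : x = 0
  · rw [hx, map_zero]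
  · have hτx : τ x ≠ 0 := (map_ne_zero τ).mpr hx
    rw [s35fr_mem_nonunits_iff V hτx, s35fr_mem_nonunits_iff V hx, ← map_inv₀, h]

end Val

/-! ### The structure -/

section Str

variable (O : Type) {F : Type} [CommRing O] [Field F] [Algebra O F]

/-- **(E1)** as it is consumed: `τ` stabilises the chart of `t`, multiplies the uniformizer by a
unit of `O` and stabilises the valuation rings of `𝒱` and their maximal ideals. -/
structure s35fr_IsFrobTau (t : F) (ϖ : O) (τ : F ≃+* F) (𝒱 : Set (ValuationSubring F)) :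
    Prop where
  mem : ∀ b ∈ s18_chart O ({t} : Set F), τ b ∈ s18_chart O ({t} : Set F)
  symm_mem : ∀ b ∈ s18_chart O ({t} : Set F), τ.symm b ∈ s18_chart O ({t} : Set F)
  pi : ∃ η : O, IsUnit η ∧ τ (algebraMap O F ϖ) = algebraMap O F η * algebraMap O F ϖ
  val : ∀ V ∈ 𝒱, ∀ x : F, τ x ∈ V ↔ x ∈ V
  nonunits : ∀ V ∈ 𝒱, ∀ x : F, τ x ∈ V.nonunits ↔ x ∈ V.nonunits

end Str

/-! ### The parametric form -/

section Par

variable {O K : Type} [CommRing O] [IsDomain O] [IsDiscreteValuationRing O] [Field K]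
  [CharZero K] [Algebra O K] [IsFractionRing O K] {N : ℕ} [NeZero N] (σ : K ≃ₐ[ℚ] K)
  (φ : IsLocalRing.ResidueField O →+* IsLocalRing.ResidueField O)
  (hσ : s35fr_Induces (O := O) (σ : K →+* K) φ)
  (W : ↥(s18_F K N) ≃ₐ[K] ↥(s18_F K N))
  (hWσ : ∀ y : ↥(s18_F K N), W (arithmeticGalois (modularFunctionFieldFull N) σ • y) =
    arithmeticGalois (modularFunctionFieldFull N) σ • W y)

include hσ hWσ in
/-- **(E1)** for one chart, parametric in `W` and in the `σ`-fixed coordinate `t`. -/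
theorem s35fr_isFrobTau {ϖ : O} (hϖ : Irreducible ϖ) (t : ↥(s18_F K N))
    (ht : arithmeticGalois (modularFunctionFieldFull N) σ • t = t) :
    letI := s18_algOF O K N
    s35fr_IsFrobTau O t ϖ (arithmeticRingAut (modularFunctionFieldFull N) σ)
      {s34g_V O K N, s34g_V0 O W} := by
  letI := s18_algOF O K N
  have hval : ∀ V ∈ ({s34g_V O K N, s34g_V0 O W} : Set (ValuationSubring ↥(s18_F K N))),
      ∀ x : ↥(s18_F K N), arithmeticRingAut (modularFunctionFieldFull N) σ x ∈ V ↔ x ∈ V := by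
    intro V hV x
    rcases hV with rfl | hV
    · exact s35fr_tau_mem_iff σ φ hσ x
    · rw [Set.mem_singleton_iff.1 hV]
      exact s35fr_tau_mem_iff0 σ φ hσ W hWσ x
  exact ⟨fun b hb => s35fr_tau_chart σ φ hσ t ht b hb,
    fun b hb => s35fr_tau_symm_chart σ φ hσ t ht b hb, s35fr_tau_pi σ φ hσ hϖ, hval,
    fun V hV x => s35fr_nonunits_iff V _ (hval V hV) x⟩

end Par

/-! ### The model -/

section Model

variable (M q : ℕ) [NeZero M] [NeZero q] [NeZero (M * q)] (hq : q.Prime) (hqM : ¬ q ∣ M)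
  (K0 : IntermediateField ℚ (AlgebraicClosure ℚ)) (O : ValuationSubring ↥K0)
  [IsDiscreteValuationRing ↥O]

/-- **(E1) at the model**, both charts, for any `σ0` with `σ0 O ⊆ O` inducing `φ`. -/
theorem s35fr_model (σ0 : ↥K0 ≃ₐ[ℚ] ↥K0)
    (φ : IsLocalRing.ResidueField ↥O →+* IsLocalRing.ResidueField ↥O)
    (hσ : s35fr_Induces (O := ↥O) (σ0 : ↥K0 →+* ↥K0) φ) {ϖ : ↥O} (hϖ : Irreducible ϖ) :
    letI := s18_algOF ↥O ↥K0 (M * q)
    s35fr_IsFrobTau ↥O (s34km_J M q K0) ϖ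
        (arithmeticRingAut (modularFunctionFieldFull (M * q)) σ0)
        (s34km_Vset M q K0 hq hqM O) ∧
      s35fr_IsFrobTau ↥O (s34km_J M q K0)⁻¹ ϖ
        (arithmeticRingAut (modularFunctionFieldFull (M * q)) σ0)
        (s34km_Vset M q K0 hq hqM O) := by
  letI := s18_algOF ↥O ↥K0 (M * q)
  have hJ : arithmeticGalois (modularFunctionFieldFull (M * q)) σ0 • s34km_J M q K0 =
      s34km_J M q K0 := s34kt_tau_J σ0 q (dvd_mul_left q M)
  have hWσ := s34w_W_galois (K0 := K0) hq hqM σ0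
  exact ⟨s35fr_isFrobTau σ0 φ hσ (s34w_W M q K0 hq hqM) hWσ hϖ (s34km_J M q K0) hJ,
    s35fr_isFrobTau σ0 φ hσ (s34w_W M q K0 hq hqM) hWσ hϖ (s34km_J M q K0)⁻¹
      (s34kt_tau_inv σ0 _ hJ)⟩

variable {M q K0 O}

/-- The Frobenius clause of (NF-K) in the form `s35fr_Induces`. -/
theorem s35fr_model_induces (hqO : (q : ↥O) ∈ IsLocalRing.maximalIdeal ↥O)
    (σ0 : ↥K0 ≃ₐ[ℚ] ↥K0)
    (hσ0 : ∀ x : ↥O, ∃ y : ↥O, y ∈ IsLocalRing.maximalIdeal ↥O ∧
      (y : ↥K0) = σ0 (x : ↥K0) - (x : ↥K0) ^ q) :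
    haveI : Fact q.Prime := ⟨hq⟩
    haveI := s35fr_charP (O := ↥O) hq hqO
    s35fr_Induces (O := ↥O) (σ0 : ↥K0 →+* ↥K0)
      (frobenius (IsLocalRing.ResidueField ↥O) q) := by
  haveI : Fact q.Prime := ⟨hq⟩
  haveI := s35fr_charP (O := ↥O) hq hqO
  exact s35fr_induces_frob σ0 q hσ0

/-- The Frobenius clause for the square `s = σ0 * σ0`. -/
theorem s35fr_model_induces_sq (hqO : (q : ↥O) ∈ IsLocalRing.maximalIdeal ↥O)
    (σ0 : ↥K0 ≃ₐ[ℚ] ↥K0)
    (hσ0 : ∀ x : ↥O, ∃ y : ↥O, y ∈ IsLocalRing.maximalIdeal ↥O ∧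
      (y : ↥K0) = σ0 (x : ↥K0) - (x : ↥K0) ^ q) :
    haveI : Fact q.Prime := ⟨hq⟩
    haveI := s35fr_charP (O := ↥O) hq hqO
    s35fr_Induces (O := ↥O) ((σ0 * σ0 : ↥K0 ≃ₐ[ℚ] ↥K0) : ↥K0 →+* ↥K0)
      ((frobenius (IsLocalRing.ResidueField ↥O) q).comp
        (frobenius (IsLocalRing.ResidueField ↥O) q)) := by
  haveI : Fact q.Prime := ⟨hq⟩
  haveI := s35fr_charP (O := ↥O) hq hqO
  exact s35fr_induces_mul (s35fr_induces_frob σ0 q hσ0) (s35fr_induces_frob σ0 q hσ0)

end Model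

/-- **[NF-FROB] at the model**: for a Frobenius lift `σ0` (the clause of (NF-K)) the
automorphisms `τ = arithmeticRingAut σ0` and `τ² = arithmeticRingAut (σ0 * σ0)` stabilise both
charts, both valuation rings `V_∞`, `V_0` and their maximal ideals, and multiply the uniformizer
by a unit of `O`. -/
def s35fr_ModelStatement : Prop :=
  ∀ (M q : ℕ) [NeZero M] [NeZero q] [NeZero (M * q)] (hq : q.Prime) (hqM : ¬ q ∣ M)
    (K0 : IntermediateField ℚ (AlgebraicClosure ℚ))
    (O : ValuationSubring ↥K0) [IsDiscreteValuationRing ↥O],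
      (q : ↥O) ∈ IsLocalRing.maximalIdeal ↥O → ∀ ϖ : ↥O, Irreducible ϖ →
    ∀ σ0 : ↥K0 ≃ₐ[ℚ] ↥K0,
      (∀ x : ↥O, ∃ y : ↥O, y ∈ IsLocalRing.maximalIdeal ↥O ∧
        (y : ↥K0) = σ0 (x : ↥K0) - (x : ↥K0) ^ q) →
      letI := s18_algOF ↥O ↥K0 (M * q)
      (s35fr_IsFrobTau ↥O (s34km_J M q K0) ϖ
          (arithmeticRingAut (modularFunctionFieldFull (M * q)) (σ0 * σ0))
          (s34km_Vset M q K0 hq hqM O) ∧
        s35fr_IsFrobTau ↥O (s34km_J M q K0)⁻¹ ϖ
          (arithmeticRingAut (modularFunctionFieldFull (M * q)) (σ0 * σ0))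
          (s34km_Vset M q K0 hq hqM O)) ∧
      (s35fr_IsFrobTau ↥O (s34km_J M q K0) ϖ
          (arithmeticRingAut (modularFunctionFieldFull (M * q)) σ0)
          (s34km_Vset M q K0 hq hqM O) ∧
        s35fr_IsFrobTau ↥O (s34km_J M q K0)⁻¹ ϖ
          (arithmeticRingAut (modularFunctionFieldFull (M * q)) σ0)
          (s34km_Vset M q K0 hq hqM O))

theorem s35fr_model_main : s35fr_ModelStatement := by
  intro M q _ _ _ hq hqM K0 O _ hqO ϖ hϖ σ0 hσ0
  exact ⟨s35fr_model M q hq hqM K0 O (σ0 * σ0) _ (s35fr_model_induces_sq hq hqO σ0 hσ0) hϖ,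
    s35fr_model M q hq hqM K0 O σ0 _ (s35fr_model_induces hq hqO σ0 hσ0) hϖ⟩

end Fermat.Agent.S35
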