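/-
S35, (NF-K), the setting of the local analysis on one chart (owner: helper29).  Prefix `s35k_`.

`O` a discrete valuation ring with uniformizer `ϖ`, `K = Frac O` of characteristic `0`, `F / K(j)`
finite, `B = s18_chart O {j}`, `𝒱` the set of the valuation rings of the generic points of the
special fibre (`s34l1_IsVert`).  The facts which `S34/Loc1Chart.lean` proves inline, as lemmas:

* `s35k_centres`: the set of the centres on `B` of the `V ∈ 𝒱`; they are prime (`s35k_centres_prime`),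
  contain `π` (`s35k_centres_pi`), `π` is a uniformizer of `B` localised at them (`s35k_centres_dvr`),
  and every prime of height one containing `π` is one of them (`s35k_centres_all`);
* `s35k_hW`: a function which is a fraction with denominator outside the centre, for every centre,
  lies in `W`; `s35k_gauss`: `x ∈ 1 + π B_p` for all centres gives `x - 1 ∈ π W`;
* `s35k_hK`, `s35k_hU`, `s35k_pi_ne_zero`: the hypotheses `hK`, `hU`, `hπ0` of `s34l1_place_main`;
* `s35k_sigma`: the restriction to `B` of an automorphism `τ` of `F` with `τ B = B`.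
-/
import Mathlib
import Fermat.Agent.S34.Loc1Chart

set_option autoImplicit false
set_option linter.unusedSectionVars false
set_option linter.style.haveILetI false

open AlgebraicCurve IntermediateField

noncomputable section

namespace Fermat.Agent.S35

open Fermat.Agent.S18 Fermat.Agent.S34

section setup

variable {O K : Type} {F : Type} [CommRing O] [IsDomain O] [IsDiscreteValuationRing O]
  [Field K] [CharZero K] [Algebra O K] [IsFractionRing O K] [Field F] [Algebra K F]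
  [Algebra O F] [IsScalarTower O K F]
  {j : F} {ϖ : O} {W : Subring F} {𝒱 : Set (ValuationSubring F)}

/-- The centres on `B` of the valuation rings `V ∈ 𝒱`. -/
def s35k_centres (hV : s34l1_IsVert O j ϖ W 𝒱) : Set (Ideal ↥(s18_chart O ({j} : Set F))) :=
  {q | ∃ (V : ValuationSubring F) (hVm : V ∈ 𝒱),
    q = s34l1_centre V (fun b : ↥(s18_chart O ({j} : Set F)) => hV.chart_le V hVm b b.2)}

theorem s35k_centre_mem (hV : s34l1_IsVert O j ϖ W 𝒱) {V : ValuationSubring F} (hVm : V ∈ 𝒱) :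
    s34l1_centre V (fun b : ↥(s18_chart O ({j} : Set F)) => hV.chart_le V hVm b b.2) ∈
      s35k_centres hV :=
  ⟨V, hVm, rfl⟩

theorem s35k_centres_prime (hV : s34l1_IsVert O j ϖ W 𝒱) :
    ∀ q ∈ s35k_centres hV, q.IsPrime := by
  rintro q ⟨V, hVm, rfl⟩
  exact s34l1_centre_isPrime V _

theorem s35k_centres_pi (hV : s34l1_IsVert O j ϖ W 𝒱) :
    ∀ q ∈ s35k_centres hV, algebraMap O ↥(s18_chart O ({j} : Set F)) ϖ ∈ q := by
  rintro q ⟨V, hVm, rfl⟩
  rw [s34l1_mem_centre]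
  exact hV.pi V hVm

theorem s35k_centres_dvr (hV : s34l1_IsVert O j ϖ W 𝒱) :
    ∀ q ∈ s35k_centres hV, ∀ h : F, h ≠ 0 → ∃ (c : ℤ) (h' : F), s34l1_IsUnitAt q h' ∧
      h = algebraMap ↥(s18_chart O ({j} : Set F)) F
        (algebraMap O ↥(s18_chart O ({j} : Set F)) ϖ) ^ c * h' := by
  rintro q ⟨V, hVm, rfl⟩ h hh
  obtain ⟨c, h', h1, h2, h3⟩ := hV.unif V hVm h hh
  have hh'0 : h' ≠ 0 := by
    rintro rfl
    rw [mul_zero] at h3
    exact hh h3
  exact ⟨c, h', s34l1_isUnitAt_centre V _ hh'0 h1 h2 (hV.loc V hVm h' h1), h3⟩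

theorem s35k_centres_all (hV : s34l1_IsVert O j ϖ W 𝒱) :
    ∀ q : Ideal ↥(s18_chart O ({j} : Set F)), q.IsPrime →
      algebraMap O ↥(s18_chart O ({j} : Set F)) ϖ ∈ q → s34l1_IsHt1 q → q ∈ s35k_centres hV := by
  intro q hq hπq hht
  obtain ⟨V, hVm, hVq⟩ := hV.all q hq hπq hht
  refine ⟨V, hVm, ?_⟩
  ext b
  rw [s34l1_mem_centre]
  exact hVq b

/-- A function which is, for every centre, a fraction with denominator outside the centre lies
in `W`. -/
theorem s35k_hW (hV : s34l1_IsVert O j ϖ W 𝒱) (x : F)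
    (hx : ∀ q ∈ s35k_centres hV, ∃ c d : ↥(s18_chart O ({j} : Set F)), d ∉ q ∧
      x * algebraMap ↥(s18_chart O ({j} : Set F)) F d =
        algebraMap ↥(s18_chart O ({j} : Set F)) F c) : x ∈ W := by
  refine hV.inf_le x (fun V hVm => ?_)
  obtain ⟨c, d, hd, hcd⟩ := hx _ (s35k_centre_mem hV hVm)
  exact s34l1_mem_of_frac V _ hd hcd

theorem s35k_pi_ne_zero' (K : Type) [Field K] [Algebra O K] [IsFractionRing O K] [Algebra K F]
    [IsScalarTower O K F] (hϖ : Irreducible ϖ) : algebraMap O F ϖ ≠ 0 := by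
  intro h
  rw [IsScalarTower.algebraMap_apply O K F, map_eq_zero] at h
  exact hϖ.ne_zero ((IsFractionRing.injective O K) (h.trans (map_zero _).symm))

theorem s35k_pi_ne_zero (K : Type) [Field K] [Algebra O K] [IsFractionRing O K] [Algebra K F]
    [IsScalarTower O K F] (hϖ : Irreducible ϖ) (j : F) :
    algebraMap O ↥(s18_chart O ({j} : Set F)) ϖ ≠ 0 := by
  intro h
  exact s35k_pi_ne_zero' K hϖ (congrArg Subtype.val h)

/-- `x ∈ 1 + π B_p` at all centres gives `x - 1 ∈ π W`. -/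
theorem s35k_gauss (K : Type) [Field K] [Algebra O K] [IsFractionRing O K] [Algebra K F]
    [IsScalarTower O K F] (hϖ : Irreducible ϖ) (hV : s34l1_IsVert O j ϖ W 𝒱) (x : F)
    (hx : ∀ q ∈ s35k_centres hV,
      s34l1_OneMod (algebraMap O ↥(s18_chart O ({j} : Set F)) ϖ) q x) :
    x - 1 ∈ s34l_gauss O ϖ W 1 := by
  have hπF : algebraMap O F ϖ ≠ 0 := s35k_pi_ne_zero' K hϖ
  refine ⟨(x - 1) / algebraMap O F ϖ, s35k_hW hV _ (fun q hq => ?_), ?_⟩
  · obtain ⟨c, d, hd, hcd⟩ := hx q hq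
    refine ⟨c, d, hd, ?_⟩
    have h1 : (x - 1) * algebraMap ↥(s18_chart O ({j} : Set F)) F d =
        algebraMap O F ϖ * algebraMap ↥(s18_chart O ({j} : Set F)) F c := by
      rw [hcd, map_mul]
      rfl
    rw [div_mul_eq_mul_div, h1, mul_div_assoc, mul_div_cancel₀ _ hπF]
  · rw [pow_one, mul_div_cancel₀ _ hπF]

/-- The hypothesis `hK` of `s34l1_place_main`. -/
theorem s35k_hK (hϖ : Irreducible ϖ) (j : F) (c : K) :
    ∃ x y : ↥(s18_chart O ({j} : Set F)), ∃ k : ℕ,
      y ∣ algebraMap O ↥(s18_chart O ({j} : Set F)) ϖ ^ k ∧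
      algebraMap K F c * algebraMap ↥(s18_chart O ({j} : Set F)) F y =
        algebraMap ↥(s18_chart O ({j} : Set F)) F x := by
  obtain ⟨a, b, hb', hab⟩ := IsFractionRing.div_surjective (A := O) c
  have hb0 : b ≠ 0 := nonZeroDivisors.ne_zero hb'
  have hb0' : algebraMap O K b ≠ 0 := fun h =>
    hb0 (IsFractionRing.injective O K (h.trans (map_zero _).symm))
  obtain ⟨k, ε, hε⟩ := IsDiscreteValuationRing.eq_unit_mul_pow_irreducible hb0 hϖ
  refine ⟨algebraMap O _ a, algebraMap O _ b, k, ?_, ?_⟩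
  · have h1 : b ∣ ϖ ^ k := ⟨((ε⁻¹ : Oˣ) : O), by
      rw [hε, mul_comm (ε : O), mul_assoc, Units.mul_inv, mul_one]⟩
    have h2 := map_dvd (algebraMap O ↥(s18_chart O ({j} : Set F))) h1
    rwa [map_pow] at h2
  · show algebraMap K F c * algebraMap O F b = algebraMap O F a
    rw [IsScalarTower.algebraMap_apply O K F, IsScalarTower.algebraMap_apply O K F, ← map_mul,
      ← hab, div_mul_cancel₀ _ hb0']

/-- `B` is noetherian, `F` is its fraction field, `B` is integrally closed. -/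
theorem s35k_noeth (htr : Transcendental K j) (hfin : FiniteDimensional ↥K⟮j⟯ F) :
    IsNoetherianRing ↥(s18_chart O ({j} : Set F)) := s18b_noeth (O := O) htr hfin

theorem s35k_frac (htr : Transcendental K j) (hfin : FiniteDimensional ↥K⟮j⟯ F) :
    IsFractionRing ↥(s18_chart O ({j} : Set F)) F := by
  refine IsFractionRing.of_field _ F (fun z => ?_)
  obtain ⟨x, y, hy, hxy⟩ := s18b_frac (O := O) htr hfin z
  refine ⟨x, y, ?_⟩
  have hy' : (y : F) ≠ 0 := fun h => hy (Subtype.ext h)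
  exact (eq_div_iff hy').2 hxy

/-- The hypothesis `hU` of `s34l1_place_main` ([LOC-UNIT]). -/
theorem s35k_hU (htr : Transcendental K j) (hfin : FiniteDimensional ↥K⟮j⟯ F)
    (hϖ : Irreducible ϖ) (n : Ideal ↥(s18_chart O ({j} : Set F))) [hn : n.IsPrime]
    (hπn : algebraMap O ↥(s18_chart O ({j} : Set F)) ϖ ∈ n) (e : F)
    (he : ∀ 𝔮 : Ideal ↥(s18_chart O ({j} : Set F)), 𝔮.IsPrime → 𝔮 ≤ n → 𝔮 ≠ ⊥ →
        (∀ 𝔮' : Ideal ↥(s18_chart O ({j} : Set F)), 𝔮'.IsPrime → 𝔮' ≤ 𝔮 → 𝔮' = ⊥ ∨ 𝔮' = 𝔮) →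
        ∃ y z : ↥(s18_chart O ({j} : Set F)), y ∉ 𝔮 ∧ z ∉ 𝔮 ∧
          e * algebraMap ↥(s18_chart O ({j} : Set F)) F z =
            algebraMap ↥(s18_chart O ({j} : Set F)) F y) :
    ∃ y z : ↥(s18_chart O ({j} : Set F)), y ∉ n ∧ z ∉ n ∧
      e * algebraMap ↥(s18_chart O ({j} : Set F)) F z =
        algebraMap ↥(s18_chart O ({j} : Set F)) F y := by
  haveI hnoeth : IsNoetherianRing ↥(s18_chart O ({j} : Set F)) := s35k_noeth htr hfin
  haveI hfrac : IsFractionRing ↥(s18_chart O ({j} : Set F)) F := s35k_frac htr hfin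
  haveI hic : IsIntegrallyClosed ↥(s18_chart O ({j} : Set F)) :=
    s34l1_chart_isIntegrallyClosed j hfrac
  have hϖ0 : algebraMap O ↥(s18_chart O ({j} : Set F)) ϖ ≠ 0 := s35k_pi_ne_zero K hϖ j
  have he0 : e ≠ 0 := by
    rintro rfl
    obtain ⟨p, hp, hpn⟩ := Ideal.exists_minimalPrimes_le
      (show Ideal.span {algebraMap O ↥(s18_chart O ({j} : Set F)) ϖ} ≤ n from
        (Ideal.span_singleton_le_iff_mem n).mpr hπn)
    have hp1 := (s34lu_htOne_iff_minimalPrimes _ hϖ0 p).mpr hp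
    obtain ⟨y, z, hy, -, hyz⟩ := he p hp1.1.1 hpn hp1.1.2.1 hp1.1.2.2
    rw [zero_mul] at hyz
    have : y = 0 := IsFractionRing.injective ↥(s18_chart O ({j} : Set F)) F
      (hyz.symm.trans (map_zero _).symm)
    exact hy (this ▸ p.zero_mem)
  exact s34lu_unit n e he0 (fun q hq => he q hq.1.1 hq.2 hq.1.2.1 hq.1.2.2)

/-- The restriction to `B` of an automorphism of `F` which preserves `B`. -/
def s35k_sigma (τ : F ≃+* F) (hmem : ∀ b ∈ s18_chart O ({j} : Set F), τ b ∈ s18_chart O ({j} : Set F))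
    (hsymm : ∀ b ∈ s18_chart O ({j} : Set F), τ.symm b ∈ s18_chart O ({j} : Set F)) :
    ↥(s18_chart O ({j} : Set F)) ≃+* ↥(s18_chart O ({j} : Set F)) where
  toFun b := ⟨τ b, hmem b b.2⟩
  invFun b := ⟨τ.symm b, hsymm b b.2⟩
  left_inv b := Subtype.ext (τ.symm_apply_apply b)
  right_inv b := Subtype.ext (τ.apply_symm_apply b)
  map_mul' a b := Subtype.ext (map_mul τ (a : F) b)
  map_add' a b := Subtype.ext (map_add τ (a : F) b)

theorem s35k_sigma_coe (τ : F ≃+* F)
    (hmem : ∀ b ∈ s18_chart O ({j} : Set F), τ b ∈ s18_chart O ({j} : Set F))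
    (hsymm : ∀ b ∈ s18_chart O ({j} : Set F), τ.symm b ∈ s18_chart O ({j} : Set F))
    (b : ↥(s18_chart O ({j} : Set F))) :
    τ (algebraMap ↥(s18_chart O ({j} : Set F)) F b) =
      algebraMap ↥(s18_chart O ({j} : Set F)) F (s35k_sigma τ hmem hsymm b) := rfl

/-- An automorphism which preserves `V` preserves its centre. -/
theorem s35k_sigma_centre (hV : s34l1_IsVert O j ϖ W 𝒱) (τ : F ≃+* F)
    (hmem : ∀ b ∈ s18_chart O ({j} : Set F), τ b ∈ s18_chart O ({j} : Set F))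
    (hsymm : ∀ b ∈ s18_chart O ({j} : Set F), τ.symm b ∈ s18_chart O ({j} : Set F))
    (hnu : ∀ V ∈ 𝒱, ∀ x, τ x ∈ V.nonunits ↔ x ∈ V.nonunits) :
    ∀ q ∈ s35k_centres hV, ∀ b : ↥(s18_chart O ({j} : Set F)),
      s35k_sigma τ hmem hsymm b ∈ q ↔ b ∈ q := by
  rintro q ⟨V, hVm, rfl⟩ b
  rw [s34l1_mem_centre, s34l1_mem_centre]
  exact hnu V hVm _

end setup

end Fermat.Agent.S35
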