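/-
S35, (NF-K), THE STATEMENTS of the last two cuts of `s35k_DataStatement` (owner: helper29).
Prefix `s35k_`.  Props only.

* `s35k_IsBr p n`    : the branch `p` is a discrete valuation ring at the point `n` (the output
  [BR] of `s35nb_br_inf` / `s35nb_br_zero`, WITHOUT `t ∉ p`);
* `s35k_IsDich σ Q p₁ p₂ n` : the refined dichotomy at the point `n` (the output of `s35nb_dich`
  in the vocabulary of ideals): NODE (both branches through `n`, `[FROB-n]`, `[GLUE]`, both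
  branches discrete valuation rings at `n`), or a point of `p₁` only, or a point of `p₂` only;
* `s35k_ChartStatement` : THE CHART THEOREM.  On one chart `B = chart(j)` with exactly two
  vertical valuation rings `V₁`, `V₂`, an automorphism `τ` with `s35fr_IsFrobTau`, the refined
  dichotomy at every closed point of the special fibre and the data of [NF-RED]
  (`τ f / f = c_i X_i ^ m (1 + π y_i)`, `V₀ ≡ τ X_i / X_i ^ Q`, `u / V₀ ^ m ≡ 1` at `V_i`):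
  `u / V₀ ^ m` has normalised local generators, `u = τ (τ f) f ^ Q / (τ f) ^ (Q + 1)`;
* `s35k_DichStatement` : THE REFINED DICHOTOMY AT THE MODEL, both charts `t = J`, `t = J⁻¹`.
-/
import Mathlib
import Fermat.Agent.S34.LiftDefs
import Fermat.Agent.S34.Loc1Chart
import Fermat.Agent.S34.KMainDefs
import Fermat.Agent.S35.NfKSetup
import Fermat.Agent.S35.NfFrobModel

set_option autoImplicit false
set_option linter.style.haveILetI false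
set_option linter.unusedVariables false

open AlgebraicCurve ModularCurve IntermediateField

noncomputable section

namespace Fermat.Agent.S35

open Fermat.Agent.S18 Fermat.Agent.S34

section abs

variable {B : Type*} [CommRing B]

/-- **[BR]** the branch `p` is a discrete valuation ring at `n`, with uniformizer `t ∈ n`. -/
def s35k_IsBr (p n : Ideal B) : Prop :=
  ∃ t : B, t ∈ n ∧ ∀ a : B, a ∉ p →
    ∃ (k : ℕ) (s c : B), s ∉ n ∧ c ∉ n ∧ s * a - c * t ^ k ∈ p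

/-- **The refined dichotomy at the point `n`.** -/
def s35k_IsDich (σ : B ≃+* B) (Q : ℕ) (p₁ p₂ n : Ideal B) : Prop :=
  (p₁ ≤ n ∧ p₂ ≤ n ∧ (∃ x : B, x ∈ p₂ ∧ x ∉ p₁) ∧ (∃ y : B, y ∈ p₁ ∧ y ∉ p₂) ∧
      (∀ z ∈ n, ∃ s : B, s ∉ n ∧ s * z ∈ p₁ ⊔ p₂) ∧ (∀ b : B, σ b - b ^ Q ∈ n) ∧
      s35k_IsBr p₁ n ∧ s35k_IsBr p₂ n) ∨
    (p₁ ≤ n ∧ (∃ θ : B, θ ∈ p₂ ∧ θ - 1 ∈ n) ∧ s35k_IsBr p₁ n) ∨
    (p₂ ≤ n ∧ (∃ θ : B, θ ∈ p₁ ∧ θ - 1 ∈ n) ∧ s35k_IsBr p₂ n)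

end abs

/-- **THE CHART THEOREM** (statement). -/
def s35k_ChartStatement : Prop :=
  ∀ (O K F : Type) [CommRing O] [IsDomain O] [IsDiscreteValuationRing O]
    [Field K] [CharZero K] [Algebra O K] [IsFractionRing O K] [Field F] [Algebra K F]
    [Algebra O F] [IsScalarTower O K F]
    (j : F), Transcendental K j → FiniteDimensional ↥K⟮j⟯ F →
    ∀ ϖ : O, Irreducible ϖ → ∀ (W : Subring F) (V₁ V₂ : ValuationSubring F)
      (hV : s34l1_IsVert O j ϖ W {V₁, V₂}),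
      s34l1_LocStatementAt O K j ϖ →
    ∀ (τ : F ≃+* F) (hτ : s35fr_IsFrobTau O j ϖ τ {V₁, V₂}) (Q : ℕ), Q ≠ 0 →
      (∀ n : Ideal ↥(s18_chart O ({j} : Set F)), n.IsMaximal →
        algebraMap O ↥(s18_chart O ({j} : Set F)) ϖ ∈ n →
        s35k_IsDich (s35k_sigma τ hτ.mem hτ.symm_mem) Q
          (s34l1_centre V₁ (fun b : ↥(s18_chart O ({j} : Set F)) =>
            hV.chart_le V₁ (Set.mem_insert V₁ {V₂}) b b.2))
          (s34l1_centre V₂ (fun b : ↥(s18_chart O ({j} : Set F)) =>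
            hV.chart_le V₂ (Set.mem_insert_of_mem V₁ (Set.mem_singleton V₂)) b b.2)) n) →
    ∀ m : ℕ, m ≠ 0 → ∀ f : F, f ≠ 0 →
      (∀ P : Place K F, (m : ℤ) ∣ P.ord f) →
      (∀ P : Place K F, P.ord f ≠ 0 → P.deg = 1) →
      (∀ P : Place K F, (m : ℤ) ∣ P.ord (τ (τ f) * f ^ Q / τ f ^ (Q + 1))) →
      (∀ P : Place K F, P.ord (τ (τ f) * f ^ Q / τ f ^ (Q + 1)) ≠ 0 → P.deg = 1) →
    ∀ (η₁ η₂ : O) (a₁ a₂ : ℤ) (X₁ X₂ y₁ y₂ V₀ : F), IsUnit η₁ → IsUnit η₂ →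
      X₁ ∈ V₁ → X₁⁻¹ ∈ V₁ → X₂ ∈ V₂ → X₂⁻¹ ∈ V₂ → y₁ ∈ V₁ → y₂ ∈ V₂ →
      V₀ ≠ 0 → V₀ ∈ V₁ → V₀ ∈ V₂ →
      τ f / f = algebraMap O F η₁ ^ a₁ * X₁ ^ m * (1 + algebraMap O F ϖ * y₁) →
      τ f / f = algebraMap O F η₂ ^ a₂ * X₂ ^ m * (1 + algebraMap O F ϖ * y₂) →
      V₀ - τ X₁ / X₁ ^ Q ∈ V₁.nonunits →
      V₀ - τ X₂ / X₂ ^ Q ∈ V₂.nonunits →
      τ (τ f) * f ^ Q / τ f ^ (Q + 1) / V₀ ^ m - 1 ∈ V₁.nonunits →
      τ (τ f) * f ^ Q / τ f ^ (Q + 1) / V₀ ^ m - 1 ∈ V₂.nonunits →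
      s34l_LocGen O j ϖ W (τ (τ f) * f ^ Q / τ f ^ (Q + 1) / V₀ ^ m) m

/-- **THE REFINED DICHOTOMY AT THE MODEL** (statement): at the level `M q` over the discrete
valuation ring `O` of the number field `K0`, on the chart of `t = J` and of `t = J⁻¹`, for the
centres `p₁` of `V_∞`, `p₂` of `V_0` and the restriction `σ` of `τ = arithmeticRingAut (σ0 σ0)`,
`σ0` a Frobenius lift, every closed point of the special fibre satisfies `s35k_IsDich` with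
`Q = q ^ 2`. -/
def s35k_DichStatement : Prop :=
  ∀ (M q : ℕ) [NeZero M] [NeZero q] [NeZero (M * q)] (hq : q.Prime) (hqM : ¬ q ∣ M),
    (4 ∣ M ∨ 9 ∣ M) →
    ∀ (K0 : IntermediateField ℚ (AlgebraicClosure ℚ)), FiniteDimensional ℚ ↥K0 →
    ∀ (O : ValuationSubring ↥K0) [IsDiscreteValuationRing ↥O],
      (q : ↥O) ∈ IsLocalRing.maximalIdeal ↥O → ∀ ϖ : ↥O, Irreducible ϖ →
    ∀ σ0 : ↥K0 ≃ₐ[ℚ] ↥K0,
      (∀ x : ↥O, ∃ y : ↥O, y ∈ IsLocalRing.maximalIdeal ↥O ∧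
        (y : ↥K0) = σ0 (x : ↥K0) - (x : ↥K0) ^ q) →
      letI := s18_algOF ↥O ↥K0 (M * q)
      ∀ t : ↥(s18_F ↥K0 (M * q)), t = s34km_J M q K0 ∨ t = (s34km_J M q K0)⁻¹ →
      ∀ (p₁ p₂ : Ideal ↥(s18_chart ↥O ({t} : Set ↥(s18_F ↥K0 (M * q)))))
        (σ : ↥(s18_chart ↥O ({t} : Set ↥(s18_F ↥K0 (M * q)))) ≃+*
          ↥(s18_chart ↥O ({t} : Set ↥(s18_F ↥K0 (M * q))))),
        (∀ b : ↥(s18_chart ↥O ({t} : Set ↥(s18_F ↥K0 (M * q)))),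
          b ∈ p₁ ↔ (b : ↥(s18_F ↥K0 (M * q))) ∈ (s34g_V ↥O ↥K0 (M * q)).nonunits) →
        (∀ b : ↥(s18_chart ↥O ({t} : Set ↥(s18_F ↥K0 (M * q)))),
          b ∈ p₂ ↔
            (b : ↥(s18_F ↥K0 (M * q))) ∈ (s34g_V0 ↥O (s34w_W M q K0 hq hqM)).nonunits) →
        (∀ b : ↥(s18_chart ↥O ({t} : Set ↥(s18_F ↥K0 (M * q)))),
          ((σ b : ↥(s18_chart ↥O ({t} : Set ↥(s18_F ↥K0 (M * q))))) : ↥(s18_F ↥K0 (M * q))) =
            arithmeticRingAut (modularFunctionFieldFull (M * q)) (σ0 * σ0)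
              (b : ↥(s18_F ↥K0 (M * q)))) →
        ∀ n : Ideal ↥(s18_chart ↥O ({t} : Set ↥(s18_F ↥K0 (M * q)))), n.IsMaximal →
          algebraMap ↥O ↥(s18_chart ↥O ({t} : Set ↥(s18_F ↥K0 (M * q)))) ϖ ∈ n →
          s35k_IsDich σ (q ^ 2) p₁ p₂ n

end Fermat.Agent.S35
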