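/-
S35, leaf [NF-LOC-ABS] (helper18), part 1: the calculus of the local predicates.  Prefix `s35lo_`.

`B` a domain with field of fractions `F`, `π ∈ B`, `p ⊆ n` prime ideals of `B`, `π ∈ p`
(`p` a vertical prime = a branch of the special fibre, `n` a closed point on it).  With the
predicates of `S34/Loc1Abs.lean` (`s34l1_IsUnitAt n x`: `x ∈ B_nˣ`; `s34l1_OneMod π p x`:
`x ∈ 1 + π B_p`) we define

* `s35lo_IsOne n e`        : `e ∈ 1 + n B_n`  (a unit at `n` with value `1`);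
* `s35lo_IsBrUnit π p n x` : `x ∈ B_nˣ · (1 + π B_p)`  (the reduction of `x` on the branch `p` is
                             a unit at the point `n`);
* `s35lo_IsOneAt π p n x`  : `x ∈ (1 + n B_n) · (1 + π B_p)`  (… with value `1`).
-/
import Mathlib
import Fermat.Agent.S34.Loc1Abs

set_option autoImplicit false
set_option linter.unusedSectionVars false

namespace Fermat.Agent.S35

open Fermat.Agent.S34

variable {B F : Type*} [CommRing B] [IsDomain B] [Field F] [Algebra B F] [IsFractionRing B F]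

/-- `e ∈ 1 + n B_n`. -/
def s35lo_IsOne (n : Ideal B) (e : F) : Prop :=
  ∃ a b : B, a ∉ n ∧ a - b ∈ n ∧ e * algebraMap B F b = algebraMap B F a

/-- `x ∈ B_nˣ · (1 + π B_p)`. -/
def s35lo_IsBrUnit (π : B) (p n : Ideal B) (x : F) : Prop :=
  ∃ e : F, s34l1_IsUnitAt n e ∧ s34l1_OneMod π p (x / e)

/-- `x ∈ (1 + n B_n) · (1 + π B_p)`. -/
def s35lo_IsOneAt (π : B) (p n : Ideal B) (x : F) : Prop :=
  ∃ e : F, s35lo_IsOne n e ∧ s34l1_OneMod π p (x / e)

section one

variable (n : Ideal B) [hn : n.IsPrime]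

omit [IsDomain B] [IsFractionRing B F] hn in
theorem s35lo_isOne_notMem {a b : B} (ha : a ∉ n) (hab : a - b ∈ n) : b ∉ n := by
  intro hb
  apply ha
  have : a = (a - b) + b := by ring
  rw [this]
  exact n.add_mem hab hb

omit [IsDomain B] [IsFractionRing B F] hn in
theorem s35lo_isOne_isUnitAt {e : F} (he : s35lo_IsOne n e) : s34l1_IsUnitAt n e := by
  obtain ⟨a, b, ha, hab, h⟩ := he
  exact ⟨a, b, ha, s35lo_isOne_notMem n ha hab, h⟩

omit [IsDomain B] [IsFractionRing B F] in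
theorem s35lo_isOne_one : s35lo_IsOne n (1 : F) :=
  ⟨1, 1, fun h => hn.ne_top ((Ideal.eq_top_iff_one n).mpr h), by rw [sub_self]; exact n.zero_mem,
    by rw [one_mul]⟩

omit [IsDomain B] [IsFractionRing B F] in
theorem s35lo_isOne_mul {x y : F} (hx : s35lo_IsOne n x) (hy : s35lo_IsOne n y) :
    s35lo_IsOne n (x * y) := by
  obtain ⟨a, b, ha, hab, h⟩ := hx
  obtain ⟨a', b', ha', hab', h'⟩ := hy
  refine ⟨a * a', b * b', fun hh => (hn.mem_or_mem hh).elim ha ha', ?_, ?_⟩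
  · have : a * a' - b * b' = (a - b) * a' + b * (a' - b') := by ring
    rw [this]
    exact n.add_mem (n.mul_mem_right _ hab) (n.mul_mem_left _ hab')
  · rw [map_mul, map_mul, ← h, ← h']
    ring

omit [IsDomain B] hn in
theorem s35lo_isOne_inv {x : F} (hx : s35lo_IsOne n x) : s35lo_IsOne n x⁻¹ := by
  have hx0 := s34l1_isUnitAt_ne_zero n (s35lo_isOne_isUnitAt n hx)
  obtain ⟨a, b, ha, hab, h⟩ := hx
  refine ⟨b, a, s35lo_isOne_notMem n ha hab, ?_, ?_⟩
  · have : b - a = -(a - b) := by ring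
    rw [this]
    exact n.neg_mem hab
  · rw [← h]
    field_simp

omit [IsDomain B] in
theorem s35lo_isOne_div {x y : F} (hx : s35lo_IsOne n x) (hy : s35lo_IsOne n y) :
    s35lo_IsOne n (x / y) := by
  rw [div_eq_mul_inv]
  exact s35lo_isOne_mul n hx (s35lo_isOne_inv n hy)

omit [IsDomain B] [IsFractionRing B F] in
theorem s35lo_isOne_pow {x : F} (hx : s35lo_IsOne n x) (k : ℕ) : s35lo_IsOne n (x ^ k) := by
  induction k with
  | zero => rw [pow_zero]; exact s35lo_isOne_one n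
  | succ k ih => rw [pow_succ]; exact s35lo_isOne_mul n ih hx

end one

section brunit

variable (π : B) (p n : Ideal B) [hp : p.IsPrime] [hn : n.IsPrime]

omit [IsDomain B] [IsFractionRing B F] hp hn in
theorem s35lo_isOneAt_isBrUnit {x : F} (hx : s35lo_IsOneAt π p n x) : s35lo_IsBrUnit π p n x := by
  obtain ⟨e, he, h⟩ := hx
  exact ⟨e, s35lo_isOne_isUnitAt n he, h⟩

omit [IsDomain B] hn in
theorem s35lo_isBrUnit_isUnitAt (hpn : p ≤ n) (hπ : π ∈ p) {x : F}
    (hx : s35lo_IsBrUnit π p n x) : s34l1_IsUnitAt p x := by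
  obtain ⟨e, he, h⟩ := hx
  have he0 := s34l1_isUnitAt_ne_zero n he
  have h1 := s34l1_isUnitAt_mul p (s34l1_oneMod_isUnitAt p hπ h) (s34l1_isUnitAt_mono p hpn he)
  rwa [div_mul_cancel₀ _ he0] at h1

omit [IsDomain B] hp hn in
theorem s35lo_isBrUnit_ne_zero (hπ : π ∈ p) {x : F} (hx : s35lo_IsBrUnit π p n x) : x ≠ 0 := by
  obtain ⟨e, he, h⟩ := hx
  have he0 := s34l1_isUnitAt_ne_zero n he
  have h1 := s34l1_isUnitAt_ne_zero p (s34l1_oneMod_isUnitAt p hπ h)
  intro h0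
  apply h1
  rw [h0, zero_div]

omit [IsDomain B] [IsFractionRing B F] in
theorem s35lo_isBrUnit_of_isUnitAt {x : F} (hx : s34l1_IsUnitAt n x) (hx0 : x ≠ 0) :
    s35lo_IsBrUnit π p n x :=
  ⟨x, hx, by rw [div_self hx0]; exact s34l1_oneMod_one p⟩

omit [IsDomain B] [IsFractionRing B F] in
theorem s35lo_isBrUnit_of_oneMod {x : F} (hx : s34l1_OneMod π p x) :
    s35lo_IsBrUnit π p n x :=
  ⟨1, s34l1_isUnitAt_one n, by rwa [div_one]⟩

omit [IsDomain B] [IsFractionRing B F] in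
theorem s35lo_isOneAt_of_isOne {x : F} (hx : s35lo_IsOne n x) (hx0 : x ≠ 0) :
    s35lo_IsOneAt π p n x :=
  ⟨x, hx, by rw [div_self hx0]; exact s34l1_oneMod_one p⟩

omit [IsDomain B] [IsFractionRing B F] in
theorem s35lo_isOneAt_of_oneMod {x : F} (hx : s34l1_OneMod π p x) :
    s35lo_IsOneAt π p n x :=
  ⟨1, s35lo_isOne_one n, by rwa [div_one]⟩

omit [IsDomain B] [IsFractionRing B F] in
theorem s35lo_isBrUnit_one : s35lo_IsBrUnit π p n (1 : F) :=
  s35lo_isBrUnit_of_oneMod π p n (s34l1_oneMod_one p)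

omit [IsDomain B] [IsFractionRing B F] in
theorem s35lo_isOneAt_one : s35lo_IsOneAt π p n (1 : F) :=
  s35lo_isOneAt_of_oneMod π p n (s34l1_oneMod_one p)

omit [IsDomain B] [IsFractionRing B F] in
theorem s35lo_isBrUnit_mul {x y : F} (hx : s35lo_IsBrUnit π p n x)
    (hy : s35lo_IsBrUnit π p n y) : s35lo_IsBrUnit π p n (x * y) := by
  obtain ⟨e, he, h⟩ := hx
  obtain ⟨e', he', h'⟩ := hy
  refine ⟨e * e', s34l1_isUnitAt_mul n he he', ?_⟩
  have : x * y / (e * e') = (x / e) * (y / e') := by rw [mul_div_mul_comm]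
  rw [this]
  exact s34l1_oneMod_mul p h h'

omit [IsDomain B] [IsFractionRing B F] in
theorem s35lo_isOneAt_mul {x y : F} (hx : s35lo_IsOneAt π p n x)
    (hy : s35lo_IsOneAt π p n y) : s35lo_IsOneAt π p n (x * y) := by
  obtain ⟨e, he, h⟩ := hx
  obtain ⟨e', he', h'⟩ := hy
  refine ⟨e * e', s35lo_isOne_mul n he he', ?_⟩
  have : x * y / (e * e') = (x / e) * (y / e') := by rw [mul_div_mul_comm]
  rw [this]
  exact s34l1_oneMod_mul p h h'

omit [IsDomain B] hn in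
theorem s35lo_isBrUnit_inv (hπ : π ∈ p) {x : F} (hx : s35lo_IsBrUnit π p n x) :
    s35lo_IsBrUnit π p n x⁻¹ := by
  obtain ⟨e, he, h⟩ := hx
  refine ⟨e⁻¹, s34l1_isUnitAt_inv n he, ?_⟩
  have : x⁻¹ / e⁻¹ = (x / e)⁻¹ := by rw [inv_div_inv, inv_div]
  rw [this]
  exact s34l1_oneMod_inv p hπ h

omit [IsDomain B] hn in
theorem s35lo_isOneAt_inv (hπ : π ∈ p) {x : F} (hx : s35lo_IsOneAt π p n x) :
    s35lo_IsOneAt π p n x⁻¹ := by
  obtain ⟨e, he, h⟩ := hx
  refine ⟨e⁻¹, s35lo_isOne_inv n he, ?_⟩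
  have : x⁻¹ / e⁻¹ = (x / e)⁻¹ := by rw [inv_div_inv, inv_div]
  rw [this]
  exact s34l1_oneMod_inv p hπ h

omit [IsDomain B] in
theorem s35lo_isBrUnit_div (hπ : π ∈ p) {x y : F} (hx : s35lo_IsBrUnit π p n x)
    (hy : s35lo_IsBrUnit π p n y) : s35lo_IsBrUnit π p n (x / y) := by
  rw [div_eq_mul_inv]
  exact s35lo_isBrUnit_mul π p n hx (s35lo_isBrUnit_inv π p n hπ hy)

omit [IsDomain B] in
theorem s35lo_isOneAt_div (hπ : π ∈ p) {x y : F} (hx : s35lo_IsOneAt π p n x)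
    (hy : s35lo_IsOneAt π p n y) : s35lo_IsOneAt π p n (x / y) := by
  rw [div_eq_mul_inv]
  exact s35lo_isOneAt_mul π p n hx (s35lo_isOneAt_inv π p n hπ hy)

omit [IsDomain B] [IsFractionRing B F] in
theorem s35lo_isBrUnit_pow {x : F} (hx : s35lo_IsBrUnit π p n x) (k : ℕ) :
    s35lo_IsBrUnit π p n (x ^ k) := by
  induction k with
  | zero => rw [pow_zero]; exact s35lo_isBrUnit_one π p n
  | succ k ih => rw [pow_succ]; exact s35lo_isBrUnit_mul π p n ih hx

omit [IsDomain B] [IsFractionRing B F] in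
theorem s35lo_isOneAt_pow {x : F} (hx : s35lo_IsOneAt π p n x) (k : ℕ) :
    s35lo_IsOneAt π p n (x ^ k) := by
  induction k with
  | zero => rw [pow_zero]; exact s35lo_isOneAt_one π p n
  | succ k ih => rw [pow_succ]; exact s35lo_isOneAt_mul π p n ih hx

omit [IsDomain B] in
theorem s35lo_isBrUnit_zpow (hπ : π ∈ p) {x : F} (hx : s35lo_IsBrUnit π p n x) (k : ℤ) :
    s35lo_IsBrUnit π p n (x ^ k) := by
  cases k with
  | ofNat k => rw [Int.ofNat_eq_natCast, zpow_natCast]; exact s35lo_isBrUnit_pow π p n hx k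
  | negSucc k =>
    rw [zpow_negSucc]
    exact s35lo_isBrUnit_inv π p n hπ (s35lo_isBrUnit_pow π p n hx _)

omit [IsDomain B] in
theorem s35lo_isOneAt_zpow (hπ : π ∈ p) {x : F} (hx : s35lo_IsOneAt π p n x) (k : ℤ) :
    s35lo_IsOneAt π p n (x ^ k) := by
  cases k with
  | ofNat k => rw [Int.ofNat_eq_natCast, zpow_natCast]; exact s35lo_isOneAt_pow π p n hx k
  | negSucc k =>
    rw [zpow_negSucc]
    exact s35lo_isOneAt_inv π p n hπ (s35lo_isOneAt_pow π p n hx _)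

omit [IsDomain B] in
/-- `(1 + n B_n)(1 + π B_p) ⊆ 1 + π B_p`-units: an element with value one is a unit at `p`
and `OneMod` is recovered after division. -/
theorem s35lo_isOneAt_isUnitAt (hpn : p ≤ n) (hπ : π ∈ p) {x : F}
    (hx : s35lo_IsOneAt π p n x) : s34l1_IsUnitAt p x :=
  s35lo_isBrUnit_isUnitAt π p n hpn hπ (s35lo_isOneAt_isBrUnit π p n hx)

end brunit

end Fermat.Agent.S35
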