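/-
S35, leaf [NF-LOC-ABS] (helper18), part 2: a branch at a closed point.  Prefix `s35lo_`.

`B` a domain with field of fractions `F`, `π ∈ B`, `p ∋ π` a prime ideal such that `B_p` is a
discrete valuation ring with uniformizer `π` (`hDVR`), `n ⊇ p` a prime ideal and `t ∈ n ∖ p` a
uniformizer of the branch `p` at `n` (`s35lo_IsBranch`: every `a ∉ p` is `unit · t ^ k` modulo
`p`, locally at `n`).

* `s35lo_isBrUnit_root`   : `x ^ m ∈ B_nˣ (1 + π B_p)`, `m ≠ 0`  ⟹  `x ∈ B_nˣ (1 + π B_p)`;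
* `s35lo_isBrUnit_tau_div`: for an automorphism `τ` of `F` inducing `σ` on `B` with `σ n = n`,
  `σ p = p`, `σ π = η π`:  `τ x / x ∈ B_nˣ (1 + π B_p)` for every unit `x` of `B_p`;
* `s35lo_isOneAt_fd`      : if moreover `σ b ≡ b ^ Q` modulo `n` for all `b ∈ B`, then
  `τ (τ h / h) / (τ h / h) ^ Q ∈ (1 + n B_n)(1 + π B_p)` for EVERY `h ∈ Fˣ`.
-/
import Mathlib
import Fermat.Agent.S35.NfLocAbs

set_option autoImplicit false
set_option linter.unusedSectionVars false

namespace Fermat.Agent.S35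

open Fermat.Agent.S34

variable {B F : Type*} [CommRing B] [IsDomain B] [Field F] [Algebra B F] [IsFractionRing B F]

/-- `t` is a uniformizer of the branch `p` at the point `n`. -/
structure s35lo_IsBranch (p n : Ideal B) (t : B) : Prop where
  le : p ≤ n
  mem : t ∈ n
  notMem : t ∉ p
  unif : ∀ a : B, a ∉ p → ∃ (k : ℕ) (s a' : B), s ∉ n ∧ a' ∉ n ∧ s * a - a' * t ^ k ∈ p

section dvr

variable (π : B) (p : Ideal B) [hp : p.IsPrime]

theorem s35lo_algebraMap_ne_zero {b : B} (hb : b ≠ 0) : algebraMap B F b ≠ 0 := fun h =>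
  hb (IsFractionRing.injective B F (h.trans (map_zero _).symm))

/-- `π ^ k` is not a unit at `p` for `k ≠ 0`. -/
theorem s35lo_pi_zpow_not_unit (hπ : π ∈ p) {k : ℤ} (hk : k ≠ 0) :
    ¬ s34l1_IsUnitAt p ((algebraMap B F π) ^ k) := by
  have key : ∀ j : ℕ, ¬ s34l1_IsUnitAt p ((algebraMap B F π) ^ (j + 1)) := by
    rintro j ⟨a, b, ha, -, hab⟩
    apply ha
    have e : π ^ (j + 1) * b = a := by
      apply IsFractionRing.injective B F
      rw [map_mul, map_pow, hab]
    rw [← e, pow_succ, mul_assoc]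
    exact p.mul_mem_left _ (p.mul_mem_right _ hπ)
  intro h
  rcases lt_or_gt_of_ne hk with hlt | hgt
  · obtain ⟨j, hj⟩ : ∃ j : ℕ, -k = ((j + 1 : ℕ) : ℤ) :=
      ⟨(-k).toNat - 1, by omega⟩
    have h' := s34l1_isUnitAt_inv p h
    rw [← zpow_neg, hj, zpow_natCast] at h'
    exact key j h'
  · obtain ⟨j, hj⟩ : ∃ j : ℕ, k = ((j + 1 : ℕ) : ℤ) := ⟨k.toNat - 1, by omega⟩
    rw [hj, zpow_natCast] at h
    exact key j h

variable (hDVR : ∀ h : F, h ≠ 0 → ∃ (c : ℤ) (h' : F), s34l1_IsUnitAt p h' ∧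
      h = algebraMap B F π ^ c * h')

include hDVR in
/-- `p B_p = π B_p`. -/
theorem s35lo_mem_dvd {y : B} (hy : y ∈ p) :
    ∃ c d : B, d ∉ p ∧ y * d = π * c := by
  by_cases hy0 : y = 0
  · exact ⟨0, 1, fun h => hp.ne_top ((Ideal.eq_top_iff_one p).mpr h), by rw [hy0]; ring⟩
  obtain ⟨c, h', ⟨a, b, ha, hb, hab⟩, he⟩ := hDVR (algebraMap B F y) (s35lo_algebraMap_ne_zero hy0)
  have hπ0 : algebraMap B F π ≠ 0 := by
    intro h0
    rw [h0] at he
    rcases eq_or_ne c 0 with hc | hc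
    · rw [hc, zpow_zero, one_mul] at he
      apply ha
      have : y * b = a := by
        apply IsFractionRing.injective B F
        rw [map_mul, he, hab]
      rw [← this]
      exact p.mul_mem_right _ hy
    · rw [zero_zpow c hc, zero_mul] at he
      exact s35lo_algebraMap_ne_zero hy0 he
  rcases le_or_gt c 0 with hc | hc
  · exfalso
    obtain ⟨j, hj⟩ : ∃ j : ℕ, c = -(j : ℤ) := ⟨(-c).toNat, by omega⟩
    apply ha
    have : y * π ^ j * b = a := by
      apply IsFractionRing.injective B F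
      rw [map_mul, map_mul, map_pow, he, hj, zpow_neg, zpow_natCast, ← hab]
      field_simp
    rw [← this, mul_assoc]
    exact p.mul_mem_right _ hy
  · obtain ⟨j, hj⟩ : ∃ j : ℕ, c = ((j + 1 : ℕ) : ℤ) := ⟨c.toNat - 1, by omega⟩
    refine ⟨π ^ j * a, b, hb, ?_⟩
    apply IsFractionRing.injective B F
    rw [map_mul, map_mul, map_mul, map_pow, he, hj, zpow_natCast, ← hab]
    ring

include hDVR in
/-- `1 + y / d ∈ 1 + π B_p` for `y ∈ p`, `d ∉ p`. -/
theorem s35lo_oneMod_of_mem {y d : B} (hy : y ∈ p) (hd : d ∉ p) {x : F}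
    (hx : x * algebraMap B F d = algebraMap B F d + algebraMap B F y) :
    s34l1_OneMod π p x := by
  obtain ⟨c', d', hd', h⟩ := s35lo_mem_dvd π p hDVR hy
  refine ⟨c', d * d', fun hh => (hp.mem_or_mem hh).elim hd hd', ?_⟩
  rw [← h, map_mul, map_mul]
  have : (x - 1) * (algebraMap B F d * algebraMap B F d') =
      (x * algebraMap B F d - algebraMap B F d) * algebraMap B F d' := by ring
  rw [this, hx]
  ring

include hDVR in
/-- Roots of units of `B_p` are units. -/
theorem s35lo_isUnitAt_root (hπ : π ∈ p) {x : F} (hx0 : x ≠ 0) {m : ℕ} (hm : m ≠ 0)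
    (hx : s34l1_IsUnitAt p (x ^ m)) : s34l1_IsUnitAt p x := by
  obtain ⟨c, h', hh', he⟩ := hDVR x hx0
  have h1 : s34l1_IsUnitAt p ((algebraMap B F π) ^ (c * m)) := by
    have h'0 := s34l1_isUnitAt_ne_zero p hh'
    have e : (algebraMap B F π) ^ (c * m) = x ^ m / h' ^ m := by
      rw [he, mul_pow, zpow_mul, zpow_natCast]
      field_simp
    rw [e]
    exact s34l1_isUnitAt_div p hx (s34l1_isUnitAt_pow p hh' m)
  have hc : c = 0 := by
    by_contra hc
    exact s35lo_pi_zpow_not_unit π p hπ (mul_ne_zero hc (by exact_mod_cast hm)) h1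
  rw [he, hc, zpow_zero, one_mul]
  exact hh'

end dvr

section branch

variable (π : B) (p n : Ideal B) [hp : p.IsPrime] [hn : n.IsPrime]
  (hDVR : ∀ h : F, h ≠ 0 → ∃ (c : ℤ) (h' : F), s34l1_IsUnitAt p h' ∧
      h = algebraMap B F π ^ c * h')
  (hπ : π ∈ p) {t : B} (ht : s35lo_IsBranch p n t)

include hDVR hπ ht in
/-- Every `a ∉ p` is `t ^ k` times a unit of the branch at `n`. -/
theorem s35lo_branch_decomp {a : B} (ha : a ∉ p) :
    ∃ k : ℕ, s35lo_IsBrUnit π p n (algebraMap B F a / algebraMap B F t ^ k) := by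
  obtain ⟨k, s, a', hs, ha', h⟩ := ht.unif a ha
  refine ⟨k, algebraMap B F a' / algebraMap B F s, ⟨a', s, ha', hs, ?_⟩, ?_⟩
  · have hs0 : algebraMap B F s ≠ 0 := s34l1_map_ne_zero n hs
    field_simp
  · have hs0 : algebraMap B F s ≠ 0 := s34l1_map_ne_zero n hs
    have ha'0 : algebraMap B F a' ≠ 0 := s34l1_map_ne_zero n ha'
    have ht0 : algebraMap B F t ≠ 0 := s34l1_map_ne_zero p ht.notMem
    have hd : a' * t ^ k ∉ p := fun hh =>
      (hp.mem_or_mem hh).elim (fun h1 => ha' (ht.le h1)) (fun h1 => ht.notMem (hp.mem_of_pow_mem k h1))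
    refine s35lo_oneMod_of_mem π p hDVR h hd ?_
    rw [← map_add, map_mul, map_pow]
    have : a' * t ^ k + (s * a - a' * t ^ k) = s * a := by ring
    rw [this, map_mul]
    field_simp

include hπ ht in
/-- `t ^ k` is a unit of the branch at `n` only for `k = 0`. -/
theorem s35lo_branch_zpow {k : ℤ} (h : s35lo_IsBrUnit π p n ((algebraMap B F t) ^ k)) :
    k = 0 := by
  have key : ∀ j : ℕ, ¬ s35lo_IsBrUnit π p n ((algebraMap B F t) ^ (j + 1)) := by
    rintro j ⟨e, ⟨a₁, b₁, ha₁, hb₁, he⟩, c, d, hd, hcd⟩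
    have ha₁0 : algebraMap B F a₁ ≠ 0 := s34l1_map_ne_zero n ha₁
    have hb₁0 : algebraMap B F b₁ ≠ 0 := s34l1_map_ne_zero n hb₁
    have he0 : e ≠ 0 := by
      rintro rfl
      rw [zero_mul] at he
      exact ha₁0 he.symm
    have e1 : d * (t ^ (j + 1) * b₁ - a₁) = π * c * a₁ := by
      apply IsFractionRing.injective B F
      simp only [map_mul, map_sub, map_pow]
      rw [map_mul] at hcd
      have he' : e = algebraMap B F a₁ / algebraMap B F b₁ := by
        rw [eq_div_iff hb₁0, he]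
      rw [he'] at hcd
      have h2 : (algebraMap B F t ^ (j + 1) / (algebraMap B F a₁ / algebraMap B F b₁) - 1) *
          algebraMap B F d * algebraMap B F a₁ =
          algebraMap B F d * (algebraMap B F t ^ (j + 1) * algebraMap B F b₁ -
            algebraMap B F a₁) := by
        field_simp
      rw [← h2, hcd]
    have h3 : t ^ (j + 1) * b₁ - a₁ ∈ p := by
      have h4 : d * (t ^ (j + 1) * b₁ - a₁) ∈ p := by
        rw [e1, mul_assoc]
        exact p.mul_mem_right _ hπ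
      exact (hp.mem_or_mem h4).resolve_left hd
    apply ha₁
    have h5 : a₁ = t ^ (j + 1) * b₁ - (t ^ (j + 1) * b₁ - a₁) := by ring
    rw [h5]
    refine n.sub_mem ?_ (ht.le h3)
    rw [pow_succ, mul_assoc]
    exact n.mul_mem_left _ (n.mul_mem_right _ ht.mem)
  by_contra hk
  rcases lt_or_gt_of_ne hk with hlt | hgt
  · obtain ⟨j, hj⟩ : ∃ j : ℕ, -k = ((j + 1 : ℕ) : ℤ) := ⟨(-k).toNat - 1, by omega⟩
    have h' := s35lo_isBrUnit_inv π p n hπ h
    rw [← zpow_neg, hj, zpow_natCast] at h'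
    exact key j h'
  · obtain ⟨j, hj⟩ : ∃ j : ℕ, k = ((j + 1 : ℕ) : ℤ) := ⟨k.toNat - 1, by omega⟩
    rw [hj, zpow_natCast] at h
    exact key j h

include hDVR hπ ht in
/-- A unit of `B_p` is `t ^ k` times a unit of the branch at `n`. -/
theorem s35lo_branch_decomp' {x : F} (hx : s34l1_IsUnitAt p x) :
    ∃ k : ℤ, s35lo_IsBrUnit π p n (x / algebraMap B F t ^ k) := by
  obtain ⟨a, b, ha, hb, hab⟩ := hx
  obtain ⟨i, hi⟩ := s35lo_branch_decomp π p n hDVR hπ ht ha
  obtain ⟨j, hj⟩ := s35lo_branch_decomp π p n hDVR hπ ht hb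
  refine ⟨(i : ℤ) - j, ?_⟩
  have hb0 : algebraMap B F b ≠ 0 := s34l1_map_ne_zero p hb
  have ht0 : algebraMap B F t ≠ 0 := s34l1_map_ne_zero p ht.notMem
  have e : x / algebraMap B F t ^ ((i : ℤ) - j) =
      (algebraMap B F a / algebraMap B F t ^ i) / (algebraMap B F b / algebraMap B F t ^ j) := by
    rw [zpow_sub₀ ht0, zpow_natCast, zpow_natCast, ← hab]
    field_simp
  rw [e]
  exact s35lo_isBrUnit_div π p n hπ hi hj

include hDVR hπ ht in
/-- Roots of units of the branch at `n` are units of the branch at `n`. -/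
theorem s35lo_isBrUnit_root {x : F} (hx0 : x ≠ 0) {m : ℕ} (hm : m ≠ 0)
    (hx : s35lo_IsBrUnit π p n (x ^ m)) : s35lo_IsBrUnit π p n x := by
  have h1 : s34l1_IsUnitAt p x :=
    s35lo_isUnitAt_root π p hDVR hπ hx0 hm (s35lo_isBrUnit_isUnitAt π p n ht.le hπ hx)
  obtain ⟨k, hk⟩ := s35lo_branch_decomp' π p n hDVR hπ ht h1
  have ht0 : algebraMap B F t ≠ 0 := s34l1_map_ne_zero p ht.notMem
  have h2 : s35lo_IsBrUnit π p n ((algebraMap B F t) ^ (k * m)) := by
    have e : (algebraMap B F t) ^ (k * m) = x ^ m / (x / algebraMap B F t ^ k) ^ m := by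
      rw [zpow_mul, zpow_natCast, div_pow]
      field_simp
    rw [e]
    exact s35lo_isBrUnit_div π p n hπ hx (s35lo_isBrUnit_pow π p n hk m)
  have h3 := s35lo_branch_zpow π p n hπ ht h2
  have hk0 : k = 0 := by
    rcases mul_eq_zero.mp h3 with h | h
    · exact h
    · exact absurd (by exact_mod_cast h) hm
  rw [hk0, zpow_zero, div_one] at hk
  exact hk

end branch

end Fermat.Agent.S35
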