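/-
S35, leaf [NF-LOC-ABS] (helper18): the three STATEMENTS of the abstract local core, as `Prop`s.
Prefix `s35lo_`.  Mathlib + the definitions of `S34/Loc1Abs.lean` (`s34l1_IsUnitAt`,
`s34l1_OneMod`) and of `S35/NfLocBr.lean` (`s35lo_IsBranch`).

Setting: `B` a domain with field of fractions `F`, `π ∈ B`, `τ` an automorphism of `F` inducing
`σ` on `B`, `σ π = η π`, `η ∈ Bˣ`; `n ∋ π` a prime ideal (a closed point of the special fibre),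
`p₁, p₂ ∋ π` the vertical primes (`B_{p_i}` a discrete valuation ring with uniformizer `π`:
`hDVR`), `Q = q²`, `m` the exponent.  Notation `D₁ x = τ x / x`, `D_Q x = τ x / x ^ Q`,
`u = D_Q (D₁ f) = τ (τ f) * f ^ Q / τ f ^ (Q + 1)`.

* `[RED_i]`  : `(τ f / f) / (c_i * X_i ^ m) ∈ 1 + π B_{p_i}`;
* `[APPR_i]` : `V / (τ X_i / X_i ^ Q) ∈ 1 + π B_{p_i}`;
* `[FROB-n]` : `σ b - b ^ Q ∈ n` for all `b ∈ B`;
* `[BR_i]`   : `s35lo_IsBranch p_i n t_i`;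
* `[GLUE]`   : `∀ z ∈ n, ∃ s ∉ n, s * z ∈ p₁ ⊔ p₂`.

The conclusions of `s35lo_NodeStatement` / `s35lo_SmoothStatement` are the hypothesis of
`s35lo_locGen_of_oneMod` for `u / V ^ m` at the point `n`.
-/
import Mathlib
import Fermat.Agent.S34.Loc1Abs
import Fermat.Agent.S35.NfLocBr

set_option autoImplicit false

namespace Fermat.Agent.S35

open Fermat.Agent.S34

/-- **[NF-LOC-ABS], reduction.**  `[RED]` + `[APPR]` at a vertical prime `p` give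
`u / V ^ m ∈ 1 + π B_p`. -/
def s35lo_RedStatement : Prop :=
  ∀ (B F : Type) [CommRing B] [IsDomain B] [Field F] [Algebra B F] [IsFractionRing B F]
    (π : B) (τ : F ≃+* F) (σ : B ≃+* B) (η : B),
    (∀ b : B, τ (algebraMap B F b) = algebraMap B F (σ b)) → σ π = η * π →
    ∀ (p : Ideal B) [p.IsPrime], π ∈ p → (∀ b : B, σ b ∈ p ↔ b ∈ p) →
    ∀ (Q m : ℕ) (f c X V : F),
      s34l1_OneMod π p ((τ f / f) / (c * X ^ m)) →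
      s34l1_OneMod π p (τ c / c ^ Q) →
      s34l1_OneMod π p (V / (τ X / X ^ Q)) →
      s34l1_OneMod π p (τ (τ f) * f ^ Q / τ f ^ (Q + 1) / V ^ m)

/-- **[NF-LOC-ABS], the node.**  `n` lies on both branches `p₁`, `p₂`. -/
def s35lo_NodeStatement : Prop :=
  ∀ (B F : Type) [CommRing B] [IsDomain B] [Field F] [Algebra B F] [IsFractionRing B F]
    (π : B) (τ : F ≃+* F) (σ : B ≃+* B) (η : B),
    (∀ b : B, τ (algebraMap B F b) = algebraMap B F (σ b)) → IsUnit η → σ π = η * π → π ≠ 0 →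
    ∀ (n p₁ p₂ : Ideal B) [n.IsPrime] [p₁.IsPrime] [p₂.IsPrime],
    π ∈ p₁ → π ∈ p₂ →
    (∀ h : F, h ≠ 0 → ∃ (c : ℤ) (h' : F), s34l1_IsUnitAt p₁ h' ∧ h = algebraMap B F π ^ c * h') →
    (∀ h : F, h ≠ 0 → ∃ (c : ℤ) (h' : F), s34l1_IsUnitAt p₂ h' ∧ h = algebraMap B F π ^ c * h') →
    (∀ b : B, σ b ∈ p₁ ↔ b ∈ p₁) → (∀ b : B, σ b ∈ p₂ ↔ b ∈ p₂) →
    ∀ Q : ℕ, Q ≠ 0 → (∀ b : B, σ b - b ^ Q ∈ n) →
    ∀ t₁ t₂ : B, s35lo_IsBranch p₁ n t₁ → s35lo_IsBranch p₂ n t₂ →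
    (∀ z ∈ n, ∃ s, s ∉ n ∧ s * z ∈ p₁ ⊔ p₂) →
    ∀ 𝒬 : Set (Ideal B), (∀ q ∈ 𝒬, q.IsPrime) → (∀ q ∈ 𝒬, q.comap (σ : B →+* B) ∈ 𝒬) →
    (∀ x : F, x ≠ 0 → s34l1_IsUnitAt p₁ x → s34l1_IsUnitAt p₂ x →
      (∀ q ∈ 𝒬, s34l1_IsUnitAt q x) → s34l1_IsUnitAt n x) →
    ∀ m : ℕ, m ≠ 0 → ∀ f G : F, f ≠ 0 → G ≠ 0 → (∀ q ∈ 𝒬, s34l1_IsUnitAt q (f / G ^ m)) →
    ∀ c₁ c₂ X₁ X₂ V : F, s34l1_IsUnitAt n c₁ → s34l1_IsUnitAt n c₂ →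
      s34l1_OneMod π p₁ ((τ f / f) / (c₁ * X₁ ^ m)) →
      s34l1_OneMod π p₂ ((τ f / f) / (c₂ * X₂ ^ m)) →
      s34l1_OneMod π p₁ (V / (τ X₁ / X₁ ^ Q)) →
      s34l1_OneMod π p₂ (V / (τ X₂ / X₂ ^ Q)) →
      ∃ g : F, g ≠ 0 ∧ s34l1_OneMod π p₁ g ∧ s34l1_OneMod π p₂ g ∧
        ∃ c d : B, c ∉ n ∧ d ∉ n ∧
          g ^ m * algebraMap B F c =
            (τ (τ f) * f ^ Q / τ f ^ (Q + 1) / V ^ m) * algebraMap B F d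

/-- **[NF-LOC-ABS], a smooth point.**  `n` lies on the branch `p₁` and NOT on `p₂`
(`θ ∈ p₂`, `θ - 1 ∈ n`).  No automorphism: `u` is any function with `u / V ^ m ∈ 1 + π B_{p_i}`
whose horizontal divisor through `n` is `m` times that of `G`. -/
def s35lo_SmoothStatement : Prop :=
  ∀ (B F : Type) [CommRing B] [IsDomain B] [Field F] [Algebra B F] [IsFractionRing B F]
    (π : B), π ≠ 0 →
    ∀ (n p₁ p₂ : Ideal B) [n.IsPrime] [p₁.IsPrime] [p₂.IsPrime],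
    π ∈ p₁ → π ∈ p₂ →
    (∀ h : F, h ≠ 0 → ∃ (c : ℤ) (h' : F), s34l1_IsUnitAt p₁ h' ∧ h = algebraMap B F π ^ c * h') →
    (∀ h : F, h ≠ 0 → ∃ (c : ℤ) (h' : F), s34l1_IsUnitAt p₂ h' ∧ h = algebraMap B F π ^ c * h') →
    ∀ t₁ : B, s35lo_IsBranch p₁ n t₁ →
    ∀ θ : B, θ ∈ p₂ → θ - 1 ∈ n →
    ∀ 𝒬 : Set (Ideal B), (∀ q ∈ 𝒬, q.IsPrime) → (∀ q ∈ 𝒬, π ∉ q) →
    (∀ x : F, x ≠ 0 → s34l1_IsUnitAt p₁ x → (∀ q ∈ 𝒬, s34l1_IsUnitAt q x) →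
      s34l1_IsUnitAt n x) →
    ∀ m : ℕ, m ≠ 0 → ∀ u V G : F, G ≠ 0 → (∀ q ∈ 𝒬, s34l1_IsUnitAt q (u / G ^ m)) →
      s34l1_IsUnitAt p₁ V →
      s34l1_OneMod π p₁ (u / V ^ m) → s34l1_OneMod π p₂ (u / V ^ m) →
      ∃ g : F, g ≠ 0 ∧ s34l1_OneMod π p₁ g ∧ s34l1_OneMod π p₂ g ∧
        ∃ c d : B, c ∉ n ∧ d ∉ n ∧
          g ^ m * algebraMap B F c = (u / V ^ m) * algebraMap B F d

end Fermat.Agent.S35
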