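/-
S35, leaf [NF-LOC-ABS] (helper18), part 4: the two corrections.  Prefix `s35lo_`.

* `s35lo_glue` (NODE, `n ⊇ p₁ + p₂`, `n ⊆ p₁ + p₂` locally at `n`): an element with value `1`
  at `n` on both branches is `E · (1 + π B_{p_i})` for ONE `E ∈ 1 + n B_n` (the fibre product
  `B_n / (p₁ ∩ p₂) = B_n / p₁ ×_{B / n} B_n / p₂`);
* `s35lo_corr` (SMOOTH POINT, `n ⊇ p₁`, `p₂ + n = B`): for `e₁ ∈ B_nˣ` and ANY `x ∈ Fˣ` there is
  `E ∈ B_nˣ` with `E ∈ e₁ (1 + π B_{p₁})` and `E ∈ x (1 + π B_{p₂})`.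
-/
import Mathlib
import Fermat.Agent.S35.NfLocBr

set_option autoImplicit false
set_option linter.unusedSectionVars false

namespace Fermat.Agent.S35

open Fermat.Agent.S34

variable {B F : Type*} [CommRing B] [IsDomain B] [Field F] [Algebra B F] [IsFractionRing B F]

section glue

variable (π : B) (p₁ p₂ n : Ideal B) [hp₁ : p₁.IsPrime] [hp₂ : p₂.IsPrime] [hn : n.IsPrime]
  (hDVR₁ : ∀ h : F, h ≠ 0 → ∃ (c : ℤ) (h' : F), s34l1_IsUnitAt p₁ h' ∧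
      h = algebraMap B F π ^ c * h')
  (hDVR₂ : ∀ h : F, h ≠ 0 → ∃ (c : ℤ) (h' : F), s34l1_IsUnitAt p₂ h' ∧
      h = algebraMap B F π ^ c * h')

include hDVR₁ hDVR₂ in
/-- **The gluing at a node.** -/
theorem s35lo_glue (hp₁n : p₁ ≤ n) (hp₂n : p₂ ≤ n)
    (hglue : ∀ z ∈ n, ∃ s : B, s ∉ n ∧ s * z ∈ p₁ ⊔ p₂) {x : F}
    (h₁ : s35lo_IsOneAt π p₁ n x) (h₂ : s35lo_IsOneAt π p₂ n x) :
    ∃ E : F, s35lo_IsOne n E ∧ s34l1_OneMod π p₁ (x / E) ∧ s34l1_OneMod π p₂ (x / E) := by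
  obtain ⟨e₁, ⟨a₁, b₁, ha₁, hab₁, he₁⟩, hx₁⟩ := h₁
  obtain ⟨e₂, ⟨a₂, b₂, ha₂, hab₂, he₂⟩, hx₂⟩ := h₂
  have hb₁ : b₁ ∉ n := s35lo_isOne_notMem n ha₁ hab₁
  have hb₂ : b₂ ∉ n := s35lo_isOne_notMem n ha₂ hab₂
  have hz : a₁ * b₂ - a₂ * b₁ ∈ n := by
    have : a₁ * b₂ - a₂ * b₁ = (a₁ - b₁) * b₂ - (a₂ - b₂) * b₁ := by ring
    rw [this]
    exact n.sub_mem (n.mul_mem_right _ hab₁) (n.mul_mem_right _ hab₂)
  obtain ⟨s, hs, hsz⟩ := hglue _ hz
  obtain ⟨α₁, hα₁, α₂, hα₂, hα⟩ := Submodule.mem_sup.mp hsz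
  -- numerator and denominator of `E`
  have hN : a₁ * b₂ * s - α₁ ∉ n := by
    intro h
    have h1 : a₁ * b₂ * s ∈ n := by
      have : a₁ * b₂ * s = (a₁ * b₂ * s - α₁) + α₁ := by ring
      rw [this]
      exact n.add_mem h (hp₁n hα₁)
    rcases hn.mem_or_mem h1 with h2 | h2
    · rcases hn.mem_or_mem h2 with h3 | h3
      · exact ha₁ h3
      · exact hb₂ h3
    · exact hs h2
  have hD : s * b₁ * b₂ ∉ n := by
    intro h
    rcases hn.mem_or_mem h with h2 | h2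
    · rcases hn.mem_or_mem h2 with h3 | h3
      · exact hs h3
      · exact hb₁ h3
    · exact hb₂ h2
  have hN' : a₁ * b₂ * s - α₁ = a₂ * b₁ * s + α₂ := by
    have : α₁ + α₂ = s * (a₁ * b₂ - a₂ * b₁) := hα
    linear_combination -this
  have hN0 : algebraMap B F (a₁ * b₂ * s - α₁) ≠ 0 := s34l1_map_ne_zero n hN
  have hD0 : algebraMap B F (s * b₁ * b₂) ≠ 0 := s34l1_map_ne_zero n hD
  have hb₁0 : algebraMap B F b₁ ≠ 0 := s34l1_map_ne_zero n hb₁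
  have hb₂0 : algebraMap B F b₂ ≠ 0 := s34l1_map_ne_zero n hb₂
  have ha₁0 : algebraMap B F a₁ ≠ 0 := s34l1_map_ne_zero n ha₁
  have ha₂0 : algebraMap B F a₂ ≠ 0 := s34l1_map_ne_zero n ha₂
  have he₁' : e₁ = algebraMap B F a₁ / algebraMap B F b₁ := by rw [eq_div_iff hb₁0, he₁]
  have he₂' : e₂ = algebraMap B F a₂ / algebraMap B F b₂ := by rw [eq_div_iff hb₂0, he₂]
  have he₁0 : e₁ ≠ 0 := by rw [he₁']; exact div_ne_zero ha₁0 hb₁0
  have he₂0 : e₂ ≠ 0 := by rw [he₂']; exact div_ne_zero ha₂0 hb₂0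
  set E : F := algebraMap B F (a₁ * b₂ * s - α₁) / algebraMap B F (s * b₁ * b₂) with hE
  have hE0 : E ≠ 0 := div_ne_zero hN0 hD0
  refine ⟨E, ⟨a₁ * b₂ * s - α₁, s * b₁ * b₂, hN, ?_, ?_⟩, ?_, ?_⟩
  · have : a₁ * b₂ * s - α₁ - s * b₁ * b₂ = (a₁ - b₁) * (b₂ * s) - α₁ := by ring
    rw [this]
    exact n.sub_mem (n.mul_mem_right _ hab₁) (hp₁n hα₁)
  · rw [hE, div_mul_cancel₀ _ hD0]
  · -- at `p₁`
    have h1 : s34l1_OneMod π p₁ (e₁ / E) := by
      refine s35lo_oneMod_of_mem π p₁ hDVR₁ (y := α₁) (d := a₁ * b₂ * s - α₁) hα₁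
        (fun h => hN (hp₁n h)) ?_
      rw [← map_add, he₁', hE]
      have : a₁ * b₂ * s - α₁ + α₁ = a₁ * (s * b₂) := by ring
      rw [this, div_div_eq_mul_div, div_mul_cancel₀ _ hN0, map_mul, map_mul, map_mul, map_mul]
      field_simp
    have e : x / E = (x / e₁) * (e₁ / E) := by field_simp
    rw [e]
    exact s34l1_oneMod_mul p₁ hx₁ h1
  · -- at `p₂`
    have h1 : s34l1_OneMod π p₂ (e₂ / E) := by
      refine s35lo_oneMod_of_mem π p₂ hDVR₂ (y := -α₂) (d := a₁ * b₂ * s - α₁)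
        (p₂.neg_mem hα₂) (fun h => hN (hp₂n h)) ?_
      rw [← map_add, he₂', hE]
      have : a₁ * b₂ * s - α₁ + -α₂ = a₂ * (s * b₁) := by rw [hN']; ring
      rw [this, div_div_eq_mul_div, div_mul_cancel₀ _ hN0, map_mul, map_mul, map_mul, map_mul]
      field_simp
    have e : x / E = (x / e₂) * (e₂ / E) := by field_simp
    rw [e]
    exact s34l1_oneMod_mul p₂ hx₂ h1

end glue

section corr

variable (π : B) (p₁ p₂ n : Ideal B) [hp₁ : p₁.IsPrime] [hp₂ : p₂.IsPrime] [hn : n.IsPrime]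
  (hDVR₂ : ∀ h : F, h ≠ 0 → ∃ (c : ℤ) (h' : F), s34l1_IsUnitAt p₂ h' ∧
      h = algebraMap B F π ^ c * h')

include hDVR₂ in
/-- **The correction at a smooth point.** -/
theorem s35lo_corr (hπ0 : π ≠ 0) (hπ₂ : π ∈ p₂) (hπn : π ∈ n) (hp₁n : p₁ ≤ n)
    {θ : B} (hθ : θ ∈ p₂) (hθn : θ - 1 ∈ n)
    {e₁ : F} (he₁ : s34l1_IsUnitAt n e₁) {x : F} (hx : x ≠ 0) :
    ∃ E : F, s34l1_IsUnitAt n E ∧ s34l1_OneMod π p₁ (E / e₁) ∧ s34l1_OneMod π p₂ (E / x) := by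
  have he₁0 := s34l1_isUnitAt_ne_zero n he₁
  obtain ⟨a, b, ha, hb, hab⟩ := he₁
  -- `x = a₂ / b₂`
  obtain ⟨a₂, b₂, hb₂, hx₂⟩ : ∃ a₂ b₂ : B, b₂ ≠ 0 ∧ x * algebraMap B F b₂ = algebraMap B F a₂ := by
    obtain ⟨a₂, ⟨b₂, hb₂⟩, h⟩ := IsLocalization.exists_mk'_eq (nonZeroDivisors B) x
    refine ⟨a₂, b₂, nonZeroDivisors.ne_zero hb₂, ?_⟩
    rw [← h]
    exact IsLocalization.mk'_spec F a₂ ⟨b₂, hb₂⟩
  have hb₂0 : algebraMap B F b₂ ≠ 0 := s35lo_algebraMap_ne_zero hb₂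
  have ha₂ : a₂ ≠ 0 := by
    rintro rfl
    rw [map_zero] at hx₂
    rcases mul_eq_zero.mp hx₂ with h | h
    · exact hx h
    · exact hb₂0 h
  have ha₂0 : algebraMap B F a₂ ≠ 0 := s35lo_algebraMap_ne_zero ha₂
  have hP0 : algebraMap B F π ≠ 0 := s35lo_algebraMap_ne_zero hπ0
  -- the order of `a₂ b₂` at `p₂`
  obtain ⟨k, h', ⟨w, v, hw, hv, hwv⟩, hk⟩ :=
    hDVR₂ (algebraMap B F (a₂ * b₂)) (s35lo_algebraMap_ne_zero (mul_ne_zero ha₂ hb₂))
  have hv0 : algebraMap B F v ≠ 0 := s34l1_map_ne_zero p₂ hv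
  have hk0 : 0 ≤ k := by
    by_contra hneg
    obtain ⟨j, hj⟩ : ∃ j : ℕ, k = -((j + 1 : ℕ) : ℤ) := ⟨(-k).toNat - 1, by omega⟩
    apply hw
    have : π ^ (j + 1) * (a₂ * b₂) * v = w := by
      apply IsFractionRing.injective B F
      rw [map_mul, map_mul, map_pow, hk, hj, zpow_neg, zpow_natCast, ← hwv]
      field_simp
    rw [← this, pow_succ, mul_assoc, mul_assoc]
    exact p₂.mul_mem_left _ (p₂.mul_mem_right _ hπ₂)
  obtain ⟨j, hj⟩ : ∃ j : ℕ, k = (j : ℤ) := ⟨k.toNat, by omega⟩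
  have hB1 : a₂ * b₂ * v = π ^ j * w := by
    apply IsFractionRing.injective B F
    rw [map_mul (algebraMap B F) (a₂ * b₂) v, hk, hj, zpow_natCast,
      map_mul (algebraMap B F) (π ^ j) w, map_pow, ← hwv]
    ring
  -- `θ = π · (c_θ / d_θ)`
  obtain ⟨cθ, dθ, hdθ, hθ'⟩ := s35lo_mem_dvd π p₂ hDVR₂ hθ
  have hdθ0 : algebraMap B F dθ ≠ 0 := s34l1_map_ne_zero p₂ hdθ
  -- the correction
  set N : ℕ := j + 2 with hNdef
  have hθN : θ ^ N - 1 ∈ n := by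
    have h1 : θ ^ N - 1 = (θ - 1) * ∑ i ∈ Finset.range N, θ ^ i := by
      rw [mul_comm]
      exact (geom_sum_mul θ N).symm
    rw [h1]
    exact n.mul_mem_right _ hθn
  have hd : a * θ ^ N + π * a₂ ∉ n := by
    intro h
    apply ha
    have : a = (a * θ ^ N + π * a₂) - a * (θ ^ N - 1) - π * a₂ := by ring
    rw [this]
    exact n.sub_mem (n.sub_mem h (n.mul_mem_left _ hθN)) (n.mul_mem_right _ hπn)
  have hc : b * θ ^ N + π * b₂ ∉ n := by
    intro h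
    apply hb
    have : b = (b * θ ^ N + π * b₂) - b * (θ ^ N - 1) - π * b₂ := by ring
    rw [this]
    exact n.sub_mem (n.sub_mem h (n.mul_mem_left _ hθN)) (n.mul_mem_right _ hπn)
  have hd0 : algebraMap B F (a * θ ^ N + π * a₂) ≠ 0 := s34l1_map_ne_zero n hd
  have hc0 : algebraMap B F (b * θ ^ N + π * b₂) ≠ 0 := s34l1_map_ne_zero n hc
  have ha0 : algebraMap B F a ≠ 0 := s34l1_map_ne_zero n ha
  have hb0 : algebraMap B F b ≠ 0 := s34l1_map_ne_zero n hb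
  have he₁' : e₁ = algebraMap B F a / algebraMap B F b := by rw [eq_div_iff hb0, hab]
  have hx' : x = algebraMap B F a₂ / algebraMap B F b₂ := by rw [eq_div_iff hb₂0, hx₂]
  set E : F := algebraMap B F (a * θ ^ N + π * a₂) / algebraMap B F (b * θ ^ N + π * b₂) with hE
  refine ⟨E, ⟨a * θ ^ N + π * a₂, b * θ ^ N + π * b₂, hd, hc, ?_⟩, ?_, ?_⟩
  · rw [hE, div_mul_cancel₀ _ hc0]
  · -- at `p₁`
    refine ⟨a₂ * b - b₂ * a, (b * θ ^ N + π * b₂) * a, ?_, ?_⟩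
    · intro h
      rcases hp₁.mem_or_mem h with h1 | h1
      · exact hc (hp₁n h1)
      · exact ha (hp₁n h1)
    · rw [hE, he₁']
      have h1 : algebraMap B F (π * (a₂ * b - b₂ * a)) =
          algebraMap B F (a * θ ^ N + π * a₂) * algebraMap B F b -
            algebraMap B F (b * θ ^ N + π * b₂) * algebraMap B F a := by
        rw [← map_mul, ← map_mul, ← map_sub]
        congr 1
        ring
      rw [h1, map_mul]
      field_simp
  · -- at `p₂`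
    have hU : cθ ^ N * (b * a₂ * v) * π + w * dθ ^ N ∉ p₂ := by
      intro h
      have h1 : w * dθ ^ N ∈ p₂ := by
        have : w * dθ ^ N = (cθ ^ N * (b * a₂ * v) * π + w * dθ ^ N) - cθ ^ N * (b * a₂ * v) * π := by
          ring
        rw [this]
        exact p₂.sub_mem h (p₂.mul_mem_left _ hπ₂)
      rcases hp₂.mem_or_mem h1 with h2 | h2
      · exact hw h2
      · exact hdθ (hp₂.mem_of_pow_mem N h2)
    refine ⟨cθ ^ N * (a * b₂ - b * a₂) * v, cθ ^ N * (b * a₂ * v) * π + w * dθ ^ N, hU, ?_⟩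
    -- the identity, after multiplication by `π ^ (j + 1)`
    have hθN' : θ ^ N * dθ ^ N = π ^ N * cθ ^ N := by
      rw [← mul_pow, hθ', mul_pow]
    have key1 : (b * θ ^ N + π * b₂) * a₂ * (v * dθ ^ N) =
        π ^ (j + 1) * (cθ ^ N * (b * a₂ * v) * π + w * dθ ^ N) := by
      have h1 : (b * θ ^ N + π * b₂) * a₂ * (v * dθ ^ N) =
          b * a₂ * v * (θ ^ N * dθ ^ N) + π * (a₂ * b₂ * v) * dθ ^ N := by ring
      rw [h1, hθN', hB1, hNdef]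
      ring
    have key2 : θ ^ N * (a * b₂ - b * a₂) * (v * dθ ^ N) =
        π ^ (j + 1) * (π * (cθ ^ N * (a * b₂ - b * a₂) * v)) := by
      have h1 : θ ^ N * (a * b₂ - b * a₂) * (v * dθ ^ N) =
          (θ ^ N * dθ ^ N) * ((a * b₂ - b * a₂) * v) := by ring
      rw [h1, hθN', hNdef]
      ring
    have key3 : (E / x - 1) * algebraMap B F ((b * θ ^ N + π * b₂) * a₂) =
        algebraMap B F (θ ^ N * (a * b₂ - b * a₂)) := by
      rw [hE, hx']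
      have h1 : algebraMap B F (θ ^ N * (a * b₂ - b * a₂)) =
          algebraMap B F (a * θ ^ N + π * a₂) * algebraMap B F b₂ -
            algebraMap B F (b * θ ^ N + π * b₂) * algebraMap B F a₂ := by
        rw [← map_mul, ← map_mul, ← map_sub]
        congr 1
        ring
      rw [h1, map_mul]
      field_simp
    have hPj : algebraMap B F (π ^ (j + 1)) ≠ 0 := by
      rw [map_pow]
      exact pow_ne_zero _ hP0
    have hvd : algebraMap B F (v * dθ ^ N) ≠ 0 := by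
      rw [map_mul, map_pow]
      exact mul_ne_zero hv0 (pow_ne_zero _ hdθ0)
    apply mul_left_cancel₀ hPj
    have e1 : algebraMap B F (π ^ (j + 1)) *
        ((E / x - 1) * algebraMap B F (cθ ^ N * (b * a₂ * v) * π + w * dθ ^ N)) =
        (E / x - 1) * algebraMap B F ((b * θ ^ N + π * b₂) * a₂) * algebraMap B F (v * dθ ^ N) := by
      rw [mul_assoc (E / x - 1), ← map_mul ((algebraMap B F)) ((b * θ ^ N + π * b₂) * a₂), key1,
        map_mul]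
      ring
    rw [e1, key3, ← map_mul, ← map_mul, key2]

end corr

end Fermat.Agent.S35
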