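/-
S35, leaf [NF-LOC-ABS] (helper18), part 5: the reduction and the node.  Prefix `s35lo_`.
Mathlib + `S34/Loc1Abs.lean` + `S35/NfLoc{Abs,Br,Tau,Glue,Defs}.lean`.

* `s35lo_red`  / `s35lo_red_main  : s35lo_RedStatement`;
* `s35lo_node` / `s35lo_node_main : s35lo_NodeStatement`.

Notation: `D₁ x = τ x / x`, `D_Q x = τ x / x ^ Q`, `u = D_Q (D₁ f)`.

The node: `U₀ := D_Q D₁ (f / G ^ m)` is a unit at the horizontal primes (`𝒬` is `σ`-stable), at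
the two branches (`s35lo_isOneAt_fd`), hence at `n`; `G_E := D_Q D₁ G` is in
`(1 + n B_n)(1 + π B_{p_i})` (`s35lo_isOneAt_fd`); `X_i` is in `B_nˣ (1 + π B_{p_i})` by the root
lemma, so `V ≡ D_Q X_i` is in `(1 + n B_n)(1 + π B_{p_i})`; the two decompositions of `G_E / V`
glue to ONE `E ∈ 1 + n B_n` (`s35lo_glue`), and `g := G_E / (V E)`.
-/
import Mathlib
import Fermat.Agent.S35.NfLocDefs
import Fermat.Agent.S35.NfLocTau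
import Fermat.Agent.S35.NfLocGlue

set_option autoImplicit false
set_option linter.unusedSectionVars false
set_option linter.unusedVariables false

namespace Fermat.Agent.S35

open Fermat.Agent.S34

variable {B F : Type*} [CommRing B] [IsDomain B] [Field F] [Algebra B F] [IsFractionRing B F]

/-- **[NF-LOC-ABS], reduction.** -/
theorem s35lo_red (π : B) (τ : F ≃+* F) (σ : B ≃+* B) (η : B)
    (hστ : ∀ b : B, τ (algebraMap B F b) = algebraMap B F (σ b)) (hσπ : σ π = η * π)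
    (p : Ideal B) [hp : p.IsPrime] (hπ : π ∈ p) (hσp : ∀ b : B, σ b ∈ p ↔ b ∈ p)
    (Q m : ℕ) {f c X V : F}
    (hred : s34l1_OneMod π p ((τ f / f) / (c * X ^ m)))
    (hc : s34l1_OneMod π p (τ c / c ^ Q))
    (happr : s34l1_OneMod π p (V / (τ X / X ^ Q))) :
    s34l1_OneMod π p (τ (τ f) * f ^ Q / τ f ^ (Q + 1) / V ^ m) := by
  have h1 : (τ f / f) / (c * X ^ m) ≠ 0 :=
    s34l1_isUnitAt_ne_zero p (s34l1_oneMod_isUnitAt p hπ hred)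
  have h2 : V / (τ X / X ^ Q) ≠ 0 :=
    s34l1_isUnitAt_ne_zero p (s34l1_oneMod_isUnitAt p hπ happr)
  have h3 : τ f / f ≠ 0 := fun h => h1 (by rw [h, zero_div])
  have h4 : c * X ^ m ≠ 0 := fun h => h1 (by rw [h, div_zero])
  have hτf : τ f ≠ 0 := fun h => h3 (by rw [h, zero_div])
  have hf : f ≠ 0 := fun h => h3 (by rw [h, div_zero])
  have hc0 : c ≠ 0 := left_ne_zero_of_mul h4
  have hV : V ≠ 0 := fun h => h2 (by rw [h, zero_div])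
  have h5 : τ X / X ^ Q ≠ 0 := fun h => h2 (by rw [h, div_zero])
  have hτX : τ X ≠ 0 := fun h => h5 (by rw [h, zero_div])
  have hX : X ≠ 0 := fun h => hτX (by rw [h, map_zero])
  have hττf : τ (τ f) ≠ 0 := (map_ne_zero τ).mpr hτf
  have hτc : τ c ≠ 0 := (map_ne_zero τ).mpr hc0
  have hw := s35lo_oneMod_frob π p τ σ η hστ Q hπ hσπ hσp hred
  have hA : s34l1_OneMod π p ((τ X / X ^ Q) / V) := by
    have := s34l1_oneMod_inv p hπ happr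
    rwa [inv_div] at this
  have key : τ (τ f) * f ^ Q / τ f ^ (Q + 1) / V ^ m =
      (τ c / c ^ Q) * ((τ X / X ^ Q) / V) ^ m *
        (τ ((τ f / f) / (c * X ^ m)) / ((τ f / f) / (c * X ^ m)) ^ Q) := by
    simp only [map_div₀, map_mul, map_pow, div_pow, mul_pow]
    field_simp
    ring
  rw [key]
  exact s34l1_oneMod_mul p (s34l1_oneMod_mul p hc (s34l1_oneMod_pow p hA m)) hw

/-- `s35lo_red` in the form of `S35/NfLocDefs.lean`. -/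
theorem s35lo_red_main : s35lo_RedStatement := by
  intro B F _ _ _ _ _ π τ σ η hστ hσπ p _ hπ hσp Q m f c X V hred hc happr
  exact s35lo_red π τ σ η hστ hσπ p hπ hσp Q m hred hc happr

section node

variable (π : B) (p n : Ideal B) [hp : p.IsPrime] [hn : n.IsPrime]
  (τ : F ≃+* F) (σ : B ≃+* B) (η : B)
  (hστ : ∀ b : B, τ (algebraMap B F b) = algebraMap B F (σ b))
  (Q : ℕ) (hF : ∀ b : B, σ b - b ^ Q ∈ n)
  (hDVR : ∀ h : F, h ≠ 0 → ∃ (c : ℤ) (h' : F), s34l1_IsUnitAt p h' ∧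
      h = algebraMap B F π ^ c * h')

include hστ hF hDVR in
/-- On a branch through `n`: `[RED]` makes `X` a unit at `n` on the branch, so `[APPR]` puts `V`
into `(1 + n B_n)(1 + π B_p)`. -/
theorem s35lo_isOneAt_appr {t : B} (hBr : s35lo_IsBranch p n t) (hQ : Q ≠ 0) (hπ0 : π ≠ 0)
    (hπ : π ∈ p) (hσπ : σ π = η * π) (hη : IsUnit η) (hσp : ∀ b : B, σ b ∈ p ↔ b ∈ p)
    {m : ℕ} (hm : m ≠ 0) {f c X V : F} (hf : f ≠ 0) (hc : s34l1_IsUnitAt n c)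
    (hred : s34l1_OneMod π p ((τ f / f) / (c * X ^ m)))
    (happr : s34l1_OneMod π p (V / (τ X / X ^ Q))) :
    s35lo_IsOneAt π p n V := by
  have h1 : (τ f / f) / (c * X ^ m) ≠ 0 :=
    s34l1_isUnitAt_ne_zero p (s34l1_oneMod_isUnitAt p hπ hred)
  have h2 : V / (τ X / X ^ Q) ≠ 0 :=
    s34l1_isUnitAt_ne_zero p (s34l1_oneMod_isUnitAt p hπ happr)
  have h3 : τ f / f ≠ 0 := fun h => h1 (by rw [h, zero_div])
  have h4 : c * X ^ m ≠ 0 := fun h => h1 (by rw [h, div_zero])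
  have hc0 : c ≠ 0 := left_ne_zero_of_mul h4
  have h5 : τ X / X ^ Q ≠ 0 := fun h => h2 (by rw [h, div_zero])
  have hτX : τ X ≠ 0 := fun h => h5 (by rw [h, zero_div])
  have hX : X ≠ 0 := fun h => hτX (by rw [h, map_zero])
  have hXm : X ^ m ≠ 0 := pow_ne_zero m hX
  -- `X ^ m` is a unit at `n` on the branch
  have hd1 : s35lo_IsBrUnit π p n (τ f / f) :=
    s35lo_isBrUnit_d1 π p n τ σ η hστ Q hF hDVR hBr hQ hπ0 hπ hσπ hη hσp hf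
  have hcB : s35lo_IsBrUnit π p n c := s35lo_isBrUnit_of_isUnitAt π p n hc hc0
  have hwB : s35lo_IsBrUnit π p n ((τ f / f) / (c * X ^ m)) :=
    s35lo_isBrUnit_of_oneMod π p n hred
  have hXmB : s35lo_IsBrUnit π p n (X ^ m) := by
    have hτf : τ f ≠ 0 := fun h => h3 (by rw [h, zero_div])
    have e : X ^ m = (τ f / f) / (c * ((τ f / f) / (c * X ^ m))) := by
      field_simp
    rw [e]
    exact s35lo_isBrUnit_div π p n hπ hd1 (s35lo_isBrUnit_mul π p n hcB hwB)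
  have hXB : s35lo_IsBrUnit π p n X := s35lo_isBrUnit_root π p n hDVR hπ hBr hX hm hXmB
  have hfrob : s35lo_IsOneAt π p n (τ X / X ^ Q) :=
    s35lo_isOneAt_frob π p n τ σ η hστ Q hF hQ hπ hσπ hσp hXB
  have e : V = (V / (τ X / X ^ Q)) * (τ X / X ^ Q) := by
    rw [div_mul_cancel₀ _ h5]
  rw [e]
  exact s35lo_isOneAt_mul π p n (s35lo_isOneAt_of_oneMod π p n happr) hfrob

end node

/-- **[NF-LOC-ABS], the node.** -/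
theorem s35lo_node (π : B) (τ : F ≃+* F) (σ : B ≃+* B) (η : B)
    (hστ : ∀ b : B, τ (algebraMap B F b) = algebraMap B F (σ b)) (hη : IsUnit η)
    (hσπ : σ π = η * π) (hπ0 : π ≠ 0)
    (n p₁ p₂ : Ideal B) [hn : n.IsPrime] [hp₁ : p₁.IsPrime] [hp₂ : p₂.IsPrime]
    (hπ₁ : π ∈ p₁) (hπ₂ : π ∈ p₂)
    (hDVR₁ : ∀ h : F, h ≠ 0 → ∃ (c : ℤ) (h' : F), s34l1_IsUnitAt p₁ h' ∧
      h = algebraMap B F π ^ c * h')
    (hDVR₂ : ∀ h : F, h ≠ 0 → ∃ (c : ℤ) (h' : F), s34l1_IsUnitAt p₂ h' ∧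
      h = algebraMap B F π ^ c * h')
    (hσp₁ : ∀ b : B, σ b ∈ p₁ ↔ b ∈ p₁) (hσp₂ : ∀ b : B, σ b ∈ p₂ ↔ b ∈ p₂)
    (Q : ℕ) (hQ : Q ≠ 0) (hF : ∀ b : B, σ b - b ^ Q ∈ n)
    (t₁ t₂ : B) (hBr₁ : s35lo_IsBranch p₁ n t₁) (hBr₂ : s35lo_IsBranch p₂ n t₂)
    (hglue : ∀ z ∈ n, ∃ s, s ∉ n ∧ s * z ∈ p₁ ⊔ p₂)
    (𝒬 : Set (Ideal B)) (h𝒬p : ∀ q ∈ 𝒬, q.IsPrime)
    (h𝒬σ : ∀ q ∈ 𝒬, q.comap (σ : B →+* B) ∈ 𝒬)
    (hUnit : ∀ x : F, x ≠ 0 → s34l1_IsUnitAt p₁ x → s34l1_IsUnitAt p₂ x →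
      (∀ q ∈ 𝒬, s34l1_IsUnitAt q x) → s34l1_IsUnitAt n x)
    (m : ℕ) (hm : m ≠ 0) (f G : F) (hf : f ≠ 0) (hG : G ≠ 0)
    (hhor : ∀ q ∈ 𝒬, s34l1_IsUnitAt q (f / G ^ m))
    (c₁ c₂ X₁ X₂ V : F) (hc₁ : s34l1_IsUnitAt n c₁) (hc₂ : s34l1_IsUnitAt n c₂)
    (hred₁ : s34l1_OneMod π p₁ ((τ f / f) / (c₁ * X₁ ^ m)))
    (hred₂ : s34l1_OneMod π p₂ ((τ f / f) / (c₂ * X₂ ^ m)))
    (happr₁ : s34l1_OneMod π p₁ (V / (τ X₁ / X₁ ^ Q)))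
    (happr₂ : s34l1_OneMod π p₂ (V / (τ X₂ / X₂ ^ Q))) :
    ∃ g : F, g ≠ 0 ∧ s34l1_OneMod π p₁ g ∧ s34l1_OneMod π p₂ g ∧
      ∃ c d : B, c ∉ n ∧ d ∉ n ∧
        g ^ m * algebraMap B F c =
          (τ (τ f) * f ^ Q / τ f ^ (Q + 1) / V ^ m) * algebraMap B F d := by
  -- `V` on the two branches
  have hV₁ : s35lo_IsOneAt π p₁ n V :=
    s35lo_isOneAt_appr π p₁ n τ σ η hστ Q hF hDVR₁ hBr₁ hQ hπ0 hπ₁ hσπ hη hσp₁ hm hf hc₁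
      hred₁ happr₁
  have hV₂ : s35lo_IsOneAt π p₂ n V :=
    s35lo_isOneAt_appr π p₂ n τ σ η hστ Q hF hDVR₂ hBr₂ hQ hπ0 hπ₂ hσπ hη hσp₂ hm hf hc₂
      hred₂ happr₂
  have hV0 : V ≠ 0 :=
    s34l1_isUnitAt_ne_zero p₁ (s35lo_isOneAt_isUnitAt π p₁ n hBr₁.le hπ₁ hV₁)
  -- `G_E = D_Q D₁ G`
  have hGE₁ : s35lo_IsOneAt π p₁ n (τ (τ G / G) / (τ G / G) ^ Q) :=
    s35lo_isOneAt_fd π p₁ n τ σ η hστ Q hF hDVR₁ hBr₁ hQ hπ0 hπ₁ hσπ hη hσp₁ hG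
  have hGE₂ : s35lo_IsOneAt π p₂ n (τ (τ G / G) / (τ G / G) ^ Q) :=
    s35lo_isOneAt_fd π p₂ n τ σ η hστ Q hF hDVR₂ hBr₂ hQ hπ0 hπ₂ hσπ hη hσp₂ hG
  -- the gluing
  have hx₁ := s35lo_isOneAt_div π p₁ n hπ₁ hGE₁ hV₁
  have hx₂ := s35lo_isOneAt_div π p₂ n hπ₂ hGE₂ hV₂
  obtain ⟨E, hE, hg₁, hg₂⟩ :=
    s35lo_glue π p₁ p₂ n hDVR₁ hDVR₂ hBr₁.le hBr₂.le hglue hx₁ hx₂
  have hEn : s34l1_IsUnitAt n E := s35lo_isOne_isUnitAt n hE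
  have hE0 : E ≠ 0 := s34l1_isUnitAt_ne_zero n hEn
  -- `U₀ = D_Q D₁ (f / G ^ m)` is a unit at `n`
  have hh0 : f / G ^ m ≠ 0 := div_ne_zero hf (pow_ne_zero m hG)
  have hτq : ∀ q ∈ 𝒬, s34l1_IsUnitAt q (τ (f / G ^ m)) := fun q hq =>
    s34l1_isUnitAt_tau τ σ hστ q (hhor _ (h𝒬σ q hq))
  have hττq : ∀ q ∈ 𝒬, s34l1_IsUnitAt q (τ (τ (f / G ^ m))) := fun q hq =>
    s34l1_isUnitAt_tau τ σ hστ q (hτq _ (h𝒬σ q hq))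
  have hU₀q : ∀ q ∈ 𝒬, s34l1_IsUnitAt q
      (τ (τ (f / G ^ m) / (f / G ^ m)) / (τ (f / G ^ m) / (f / G ^ m)) ^ Q) := by
    intro q hq
    have := h𝒬p q hq
    rw [map_div₀]
    exact s34l1_isUnitAt_div q (s34l1_isUnitAt_div q (hττq q hq) (hτq q hq))
      (s34l1_isUnitAt_pow q (s34l1_isUnitAt_div q (hτq q hq) (hhor q hq)) Q)
  have hU₀₁ := s35lo_isOneAt_isUnitAt π p₁ n hBr₁.le hπ₁
    (s35lo_isOneAt_fd π p₁ n τ σ η hστ Q hF hDVR₁ hBr₁ hQ hπ0 hπ₁ hσπ hη hσp₁ hh0)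
  have hU₀₂ := s35lo_isOneAt_isUnitAt π p₂ n hBr₂.le hπ₂
    (s35lo_isOneAt_fd π p₂ n τ σ η hστ Q hF hDVR₂ hBr₂ hQ hπ0 hπ₂ hσπ hη hσp₂ hh0)
  have hU₀n := hUnit _ (s34l1_isUnitAt_ne_zero p₁ hU₀₁) hU₀₁ hU₀₂ hU₀q
  -- the unit `1 / (U₀ E ^ m)`
  have hunit : s34l1_IsUnitAt n
      ((τ (τ (f / G ^ m) / (f / G ^ m)) / (τ (f / G ^ m) / (f / G ^ m)) ^ Q * E ^ m)⁻¹) :=
    s34l1_isUnitAt_inv n (s34l1_isUnitAt_mul n hU₀n (s34l1_isUnitAt_pow n hEn m))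
  obtain ⟨a, b, ha, hb, hab⟩ := hunit
  have hx0 : τ (τ G / G) / (τ G / G) ^ Q / V ≠ 0 :=
    s34l1_isUnitAt_ne_zero p₁ (s35lo_isOneAt_isUnitAt π p₁ n hBr₁.le hπ₁ hx₁)
  refine ⟨τ (τ G / G) / (τ G / G) ^ Q / V / E, div_ne_zero hx0 hE0, hg₁, hg₂, b, a, hb, ha, ?_⟩
  have hτf : τ f ≠ 0 := (map_ne_zero τ).mpr hf
  have hττf : τ (τ f) ≠ 0 := (map_ne_zero τ).mpr hτf
  have hτG : τ G ≠ 0 := (map_ne_zero τ).mpr hG
  have hττG : τ (τ G) ≠ 0 := (map_ne_zero τ).mpr hτG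
  have key : (τ (τ G / G) / (τ G / G) ^ Q / V / E) ^ m =
      (τ (τ f) * f ^ Q / τ f ^ (Q + 1) / V ^ m) *
        (τ (τ (f / G ^ m) / (f / G ^ m)) / (τ (f / G ^ m) / (f / G ^ m)) ^ Q * E ^ m)⁻¹ := by
    simp only [map_div₀, map_pow, div_pow, mul_inv]
    field_simp
    ring
  rw [key, mul_assoc, hab]

/-- `s35lo_node` in the form of `S35/NfLocDefs.lean`. -/
theorem s35lo_node_main : s35lo_NodeStatement := by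
  intro B F _ _ _ _ _ π τ σ η hστ hη hσπ hπ0 n p₁ p₂ _ _ _ hπ₁ hπ₂ hDVR₁ hDVR₂ hσp₁ hσp₂ Q hQ hF
    t₁ t₂ hBr₁ hBr₂ hglue 𝒬 h𝒬p h𝒬σ hUnit m hm f G hf hG hhor c₁ c₂ X₁ X₂ V hc₁ hc₂
    hred₁ hred₂ happr₁ happr₂
  exact s35lo_node π τ σ η hστ hη hσπ hπ0 n p₁ p₂ hπ₁ hπ₂ hDVR₁ hDVR₂ hσp₁ hσp₂ Q hQ hF
    t₁ t₂ hBr₁ hBr₂ hglue 𝒬 h𝒬p h𝒬σ hUnit m hm f G hf hG hhor c₁ c₂ X₁ X₂ V hc₁ hc₂
    hred₁ hred₂ happr₁ happr₂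

end Fermat.Agent.S35
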