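/-
S35, leaf [NF-LOC-ABS] (helper18), part 6: a smooth point.  Prefix `s35lo_`.
Mathlib + `S34/Loc1Abs.lean` + `S35/NfLoc{Abs,Br,Glue,Defs}.lean`.

* `s35lo_smooth` / `s35lo_smooth_main : s35lo_SmoothStatement`.

`n` lies on the branch `p₁` only.  `G = π ^ k G'` with `G'` a unit at `p₁`; `e₀ := G' ^ m / u` is
a unit at `p₁` and at the horizontal primes, hence at `n`; `x := G' / V` has
`x ^ m = e₀ (u / V ^ m) ∈ B_nˣ (1 + π B_{p₁})`, so `x = e₁ w₁` by the root lemma; the correction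
`E` of `s35lo_corr` (`E ≡ e₁` at `p₁`, `E ≡ x` at `p₂`) gives `g := x / E`.
-/
import Mathlib
import Fermat.Agent.S35.NfLocDefs
import Fermat.Agent.S35.NfLocGlue

set_option autoImplicit false
set_option linter.unusedSectionVars false
set_option linter.unusedVariables false

namespace Fermat.Agent.S35

open Fermat.Agent.S34

variable {B F : Type*} [CommRing B] [IsDomain B] [Field F] [Algebra B F] [IsFractionRing B F]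

/-- **[NF-LOC-ABS], a smooth point.** -/
theorem s35lo_smooth (π : B) (hπ0 : π ≠ 0)
    (n p₁ p₂ : Ideal B) [hn : n.IsPrime] [hp₁ : p₁.IsPrime] [hp₂ : p₂.IsPrime]
    (hπ₁ : π ∈ p₁) (hπ₂ : π ∈ p₂)
    (hDVR₁ : ∀ h : F, h ≠ 0 → ∃ (c : ℤ) (h' : F), s34l1_IsUnitAt p₁ h' ∧
      h = algebraMap B F π ^ c * h')
    (hDVR₂ : ∀ h : F, h ≠ 0 → ∃ (c : ℤ) (h' : F), s34l1_IsUnitAt p₂ h' ∧
      h = algebraMap B F π ^ c * h')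
    (t₁ : B) (hBr₁ : s35lo_IsBranch p₁ n t₁)
    (θ : B) (hθ : θ ∈ p₂) (hθn : θ - 1 ∈ n)
    (𝒬 : Set (Ideal B)) (h𝒬p : ∀ q ∈ 𝒬, q.IsPrime) (h𝒬π : ∀ q ∈ 𝒬, π ∉ q)
    (hUnit : ∀ x : F, x ≠ 0 → s34l1_IsUnitAt p₁ x → (∀ q ∈ 𝒬, s34l1_IsUnitAt q x) →
      s34l1_IsUnitAt n x)
    (m : ℕ) (hm : m ≠ 0) (u V G : F) (hG : G ≠ 0)
    (hhor : ∀ q ∈ 𝒬, s34l1_IsUnitAt q (u / G ^ m))
    (hV : s34l1_IsUnitAt p₁ V)
    (hu₁ : s34l1_OneMod π p₁ (u / V ^ m)) (hu₂ : s34l1_OneMod π p₂ (u / V ^ m)) :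
    ∃ g : F, g ≠ 0 ∧ s34l1_OneMod π p₁ g ∧ s34l1_OneMod π p₂ g ∧
      ∃ c d : B, c ∉ n ∧ d ∉ n ∧
        g ^ m * algebraMap B F c = (u / V ^ m) * algebraMap B F d := by
  have hπn : π ∈ n := hBr₁.le hπ₁
  have hV0 : V ≠ 0 := s34l1_isUnitAt_ne_zero p₁ hV
  have hVm0 : V ^ m ≠ 0 := pow_ne_zero m hV0
  have huV : s34l1_IsUnitAt p₁ (u / V ^ m) := s34l1_oneMod_isUnitAt p₁ hπ₁ hu₁
  have huV0 : u / V ^ m ≠ 0 := s34l1_isUnitAt_ne_zero p₁ huV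
  have hu0 : u ≠ 0 := fun h => huV0 (by rw [h, zero_div])
  have hu : s34l1_IsUnitAt p₁ u := by
    have e : u = (u / V ^ m) * V ^ m := by rw [div_mul_cancel₀ _ hVm0]
    rw [e]
    exact s34l1_isUnitAt_mul p₁ huV (s34l1_isUnitAt_pow p₁ hV m)
  obtain ⟨k, G', hG', hGk⟩ := hDVR₁ G hG
  have hG'0 : G' ≠ 0 := s34l1_isUnitAt_ne_zero p₁ hG'
  have hP0 : algebraMap B F π ≠ 0 := s35lo_algebraMap_ne_zero hπ0
  have hPk0 : algebraMap B F π ^ k ≠ 0 := zpow_ne_zero k hP0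
  -- the unit `e₀ = G' ^ m / u`
  have he₀₁ : s34l1_IsUnitAt p₁ (G' ^ m / u) :=
    s34l1_isUnitAt_div p₁ (s34l1_isUnitAt_pow p₁ hG' m) hu
  have hπq : ∀ q ∈ 𝒬, s34l1_IsUnitAt q (algebraMap B F π) := fun q hq => by
    have := h𝒬p q hq
    exact ⟨π, 1, h𝒬π q hq, fun h => this.ne_top ((Ideal.eq_top_iff_one q).mpr h),
      by rw [map_one, mul_one]⟩
  have he₀q : ∀ q ∈ 𝒬, s34l1_IsUnitAt q (G' ^ m / u) := by
    intro q hq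
    have := h𝒬p q hq
    have e : G' ^ m / u = (u / G ^ m)⁻¹ * ((algebraMap B F π ^ k) ^ m)⁻¹ := by
      rw [hGk, mul_pow]
      field_simp
    rw [e]
    exact s34l1_isUnitAt_mul q (s34l1_isUnitAt_inv q (hhor q hq))
      (s34l1_isUnitAt_inv q (s34l1_isUnitAt_pow q (s34l1_isUnitAt_zpow q (hπq q hq) k) m))
  have he₀n : s34l1_IsUnitAt n (G' ^ m / u) :=
    hUnit _ (div_ne_zero (pow_ne_zero m hG'0) hu0) he₀₁ he₀q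
  -- `x = G' / V`
  have hx0 : G' / V ≠ 0 := div_ne_zero hG'0 hV0
  have hxm : s35lo_IsBrUnit π p₁ n ((G' / V) ^ m) := by
    refine ⟨G' ^ m / u, he₀n, ?_⟩
    have e : (G' / V) ^ m / (G' ^ m / u) = u / V ^ m := by
      rw [div_pow]
      field_simp
    rw [e]
    exact hu₁
  obtain ⟨e₁, he₁, hxe₁⟩ := s35lo_isBrUnit_root π p₁ n hDVR₁ hπ₁ hBr₁ hx0 hm hxm
  obtain ⟨E, hE, hE₁, hE₂⟩ :=
    s35lo_corr π p₁ p₂ n hDVR₂ hπ0 hπ₂ hπn hBr₁.le hθ hθn he₁ hx0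
  have hE0 : E ≠ 0 := s34l1_isUnitAt_ne_zero n hE
  have he₁0 : e₁ ≠ 0 := s34l1_isUnitAt_ne_zero n he₁
  refine ⟨G' / V / E, div_ne_zero hx0 hE0, ?_, ?_, ?_⟩
  · have e : G' / V / E = (G' / V / e₁) / (E / e₁) := by field_simp
    rw [e]
    exact s34l1_oneMod_div p₁ hπ₁ hxe₁ hE₁
  · have e : G' / V / E = (E / (G' / V))⁻¹ := by rw [inv_div]
    rw [e]
    exact s34l1_oneMod_inv p₂ hπ₂ hE₂
  · obtain ⟨a, b, ha, hb, hab⟩ := s34l1_isUnitAt_div n he₀n (s34l1_isUnitAt_pow n hE m)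
    refine ⟨b, a, hb, ha, ?_⟩
    have key : (G' / V / E) ^ m = (u / V ^ m) * (G' ^ m / u / E ^ m) := by
      rw [div_pow, div_pow]
      field_simp
    rw [key, mul_assoc, hab]

/-- `s35lo_smooth` in the form of `S35/NfLocDefs.lean`. -/
theorem s35lo_smooth_main : s35lo_SmoothStatement := by
  intro B F _ _ _ _ _ π hπ0 n p₁ p₂ _ _ _ hπ₁ hπ₂ hDVR₁ hDVR₂ t₁ hBr₁ θ hθ hθn 𝒬 h𝒬p h𝒬π hUnit
    m hm u V G hG hhor hV hu₁ hu₂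
  exact s35lo_smooth π hπ0 n p₁ p₂ hπ₁ hπ₂ hDVR₁ hDVR₂ t₁ hBr₁ θ hθ hθn 𝒬 h𝒬p h𝒬π hUnit
    m hm u V G hG hhor hV hu₁ hu₂

end Fermat.Agent.S35
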