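/-
S35, leaf [NF-LOC-ABS] (helper18), part 7: the adapters to the OUTPUT of the refined dichotomy
(`s35nb_dich` of helper10, `S35/NfNodeBr.lean`).  Prefix `s35lo_`.
Mathlib + `S34/SsNodeLoc.lean` (the node datum `s34nd_IsNode`) + `S35/NfLoc{Main,Sm}.lean`.

The dichotomy gives the branches in the RAW form
`∃ t ∈ n, ∀ a ∉ p, ∃ k s c, s ∉ n ∧ c ∉ n ∧ s * a - c * t ^ k ∈ p`  (without `t ∉ p`)
and the node datum `s34nd_IsNode π p₁ p₂ n x y`.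

* `s35lo_isBranch_or_le` : the raw form gives `s35lo_IsBranch p n t` or `n ≤ p`;
* `s35lo_glue_of_isNode` : the node datum gives [GLUE];
* `s35lo_node'`          : `s35lo_node` with the raw inputs;
* `s35lo_smooth'`        : `s35lo_smooth` with the raw input (if `n ≤ p₁` then `g = 1` works);
* `s35lo_isUnitAt_d1`, `s35lo_isUnitAt_appr` : `τ h / h` and `V` are units at a `σ`-stable
  vertical prime;
* `s35lo_point`          : the case split: at EVERY point `n` of the dichotomy the function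
  `u / V ^ m` has a normalised local generator.
-/
import Mathlib
import Fermat.Agent.S34.SsNodeLoc
import Fermat.Agent.S35.NfLocMain
import Fermat.Agent.S35.NfLocSm

set_option autoImplicit false
set_option linter.unusedSectionVars false
set_option linter.unusedVariables false

namespace Fermat.Agent.S35

open Fermat.Agent.S34

variable {B F : Type*} [CommRing B] [IsDomain B] [Field F] [Algebra B F] [IsFractionRing B F]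

omit [IsDomain B] in
/-- The raw form of [BR] gives `s35lo_IsBranch` unless `n = p`. -/
theorem s35lo_isBranch_or_le (p n : Ideal B) [hp : p.IsPrime] (hle : p ≤ n) {t : B} (ht : t ∈ n)
    (hunif : ∀ a : B, a ∉ p → ∃ (k : ℕ) (s c : B), s ∉ n ∧ c ∉ n ∧ s * a - c * t ^ k ∈ p) :
    s35lo_IsBranch p n t ∨ n ≤ p := by
  by_cases htp : t ∈ p
  · right
    intro a han
    by_contra hap
    obtain ⟨k, s, c, hs, hc, h⟩ := hunif a hap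
    rcases Nat.eq_zero_or_pos k with rfl | hk
    · rw [pow_zero, mul_one] at h
      apply hc
      have : c = s * a - (s * a - c) := by ring
      rw [this]
      exact n.sub_mem (n.mul_mem_left s han) (hle h)
    · have h1 : c * t ^ k ∈ p := p.mul_mem_left c (Ideal.pow_mem_of_mem p htp k hk)
      have h2 : s * a ∈ p := by
        have : s * a = (s * a - c * t ^ k) + c * t ^ k := by ring
        rw [this]
        exact p.add_mem h h1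
      rcases hp.mem_or_mem h2 with h3 | h3
      · exact hs (hle h3)
      · exact hap h3
  · left
    exact ⟨hle, ht, htp, hunif⟩

omit [IsDomain B] in
/-- The node datum gives [GLUE]. -/
theorem s35lo_glue_of_isNode {π x y : B} {p₁ p₂ n : Ideal B}
    (h : s34nd_IsNode π p₁ p₂ n x y) (hπ : π ∈ p₁) :
    ∀ z ∈ n, ∃ s, s ∉ n ∧ s * z ∈ p₁ ⊔ p₂ := by
  intro z hz
  obtain ⟨s, hs, hsz⟩ := h.n_le z hz
  refine ⟨s, hs, ?_⟩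
  have hle : Ideal.span {π, x, y} ≤ p₁ ⊔ p₂ := by
    rw [Ideal.span_le]
    intro w hw
    simp only [Set.mem_insert_iff, Set.mem_singleton_iff] at hw
    rcases hw with rfl | rfl | rfl
    · exact Ideal.mem_sup_left hπ
    · exact Ideal.mem_sup_right h.x_mem
    · exact Ideal.mem_sup_left h.y_mem
  exact hle hsz

/-- **The node**, with the raw inputs of the dichotomy. -/
theorem s35lo_node' (π : B) (τ : F ≃+* F) (σ : B ≃+* B) (η : B)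
    (hστ : ∀ b : B, τ (algebraMap B F b) = algebraMap B F (σ b)) (hη : IsUnit η)
    (hσπ : σ π = η * π) (hπ0 : π ≠ 0)
    (n p₁ p₂ : Ideal B) [hn : n.IsPrime] [hp₁ : p₁.IsPrime] [hp₂ : p₂.IsPrime]
    (hπ₁ : π ∈ p₁) (hπ₂ : π ∈ p₂)
    (hDVR₁ : ∀ h : F, h ≠ 0 → ∃ (c : ℤ) (h' : F), s34l1_IsUnitAt p₁ h' ∧
      h = algebraMap B F π ^ c * h')
    (hDVR₂ : ∀ h : F, h ≠ 0 → ∃ (c : ℤ) (h' : F), s34l1_IsUnitAt p₂ h' ∧
      h = algebraMap B F π ^ c * h')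
    (hσp₁ : ∀ b : B, σ b ∈ p₁ ↔ b ∈ p₁) (hσp₂ : ∀ b : B, σ b ∈ p₂ ↔ b ∈ p₂)
    (Q : ℕ) (hQ : Q ≠ 0) (hF : ∀ b : B, σ b - b ^ Q ∈ n)
    (hnode : ∃ x y : B, s34nd_IsNode π p₁ p₂ n x y)
    (hBr₁ : ∃ t : B, t ∈ n ∧ ∀ a : B, a ∉ p₁ →
      ∃ (k : ℕ) (s c : B), s ∉ n ∧ c ∉ n ∧ s * a - c * t ^ k ∈ p₁)
    (hBr₂ : ∃ t : B, t ∈ n ∧ ∀ a : B, a ∉ p₂ →
      ∃ (k : ℕ) (s c : B), s ∉ n ∧ c ∉ n ∧ s * a - c * t ^ k ∈ p₂)
    (𝒬 : Set (Ideal B)) (h𝒬p : ∀ q ∈ 𝒬, q.IsPrime)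
    (h𝒬σ : ∀ q ∈ 𝒬, q.comap (σ : B →+* B) ∈ 𝒬)
    (hUnit : ∀ x : F, x ≠ 0 → s34l1_IsUnitAt p₁ x → s34l1_IsUnitAt p₂ x →
      (∀ q ∈ 𝒬, s34l1_IsUnitAt q x) → s34l1_IsUnitAt n x)
    (m : ℕ) (hm : m ≠ 0) (f G : F) (hf : f ≠ 0) (hG : G ≠ 0)
    (hhor : ∀ q ∈ 𝒬, s34l1_IsUnitAt q (f / G ^ m))
    (c₁ c₂ X₁ X₂ V : F) (hc₁ : s34l1_IsUnitAt n c₁) (hc₂ : s34l1_IsUnitAt n c₂)
    (hred₁ : s34l1_OneMod π p₁ ((τ f / f) / (c₁ * X₁ ^ m)))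
    (hred₂ : s34l1_OneMod π p₂ ((τ f / f) / (c₂ * X₂ ^ m)))
    (happr₁ : s34l1_OneMod π p₁ (V / (τ X₁ / X₁ ^ Q)))
    (happr₂ : s34l1_OneMod π p₂ (V / (τ X₂ / X₂ ^ Q))) :
    ∃ g : F, g ≠ 0 ∧ s34l1_OneMod π p₁ g ∧ s34l1_OneMod π p₂ g ∧
      ∃ c d : B, c ∉ n ∧ d ∉ n ∧
        g ^ m * algebraMap B F c =
          (τ (τ f) * f ^ Q / τ f ^ (Q + 1) / V ^ m) * algebraMap B F d := by
  obtain ⟨x, y, hxy⟩ := hnode
  obtain ⟨t₁, ht₁, hu₁⟩ := hBr₁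
  obtain ⟨t₂, ht₂, hu₂⟩ := hBr₂
  have hB₁ : s35lo_IsBranch p₁ n t₁ := by
    rcases s35lo_isBranch_or_le p₁ n hxy.pinf_le_n ht₁ hu₁ with h | h
    · exact h
    · exact absurd (h (hxy.p0_le_n hxy.x_mem)) hxy.x_not_mem
  have hB₂ : s35lo_IsBranch p₂ n t₂ := by
    rcases s35lo_isBranch_or_le p₂ n hxy.p0_le_n ht₂ hu₂ with h | h
    · exact h
    · exact absurd (h (hxy.pinf_le_n hxy.y_mem)) hxy.y_not_mem
  exact s35lo_node π τ σ η hστ hη hσπ hπ0 n p₁ p₂ hπ₁ hπ₂ hDVR₁ hDVR₂ hσp₁ hσp₂ Q hQ hF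
    t₁ t₂ hB₁ hB₂ (s35lo_glue_of_isNode hxy hπ₁) 𝒬 h𝒬p h𝒬σ hUnit m hm f G hf hG hhor
    c₁ c₂ X₁ X₂ V hc₁ hc₂ hred₁ hred₂ happr₁ happr₂

/-- **A smooth point**, with the raw input of the dichotomy. -/
theorem s35lo_smooth' (π : B) (hπ0 : π ≠ 0)
    (n p₁ p₂ : Ideal B) [hn : n.IsPrime] [hp₁ : p₁.IsPrime] [hp₂ : p₂.IsPrime]
    (hπ₁ : π ∈ p₁) (hπ₂ : π ∈ p₂)
    (hDVR₁ : ∀ h : F, h ≠ 0 → ∃ (c : ℤ) (h' : F), s34l1_IsUnitAt p₁ h' ∧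
      h = algebraMap B F π ^ c * h')
    (hDVR₂ : ∀ h : F, h ≠ 0 → ∃ (c : ℤ) (h' : F), s34l1_IsUnitAt p₂ h' ∧
      h = algebraMap B F π ^ c * h')
    (hle : p₁ ≤ n)
    (hBr₁ : ∃ t : B, t ∈ n ∧ ∀ a : B, a ∉ p₁ →
      ∃ (k : ℕ) (s c : B), s ∉ n ∧ c ∉ n ∧ s * a - c * t ^ k ∈ p₁)
    (hθ : ∃ θ : B, θ ∈ p₂ ∧ θ - 1 ∈ n)
    (𝒬 : Set (Ideal B)) (h𝒬p : ∀ q ∈ 𝒬, q.IsPrime) (h𝒬π : ∀ q ∈ 𝒬, π ∉ q)
    (hUnit : ∀ x : F, x ≠ 0 → s34l1_IsUnitAt p₁ x → (∀ q ∈ 𝒬, s34l1_IsUnitAt q x) →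
      s34l1_IsUnitAt n x)
    (m : ℕ) (hm : m ≠ 0) (u V G : F) (hG : G ≠ 0)
    (hhor : ∀ q ∈ 𝒬, s34l1_IsUnitAt q (u / G ^ m))
    (hV : s34l1_IsUnitAt p₁ V)
    (hu₁ : s34l1_OneMod π p₁ (u / V ^ m)) (hu₂ : s34l1_OneMod π p₂ (u / V ^ m)) :
    ∃ g : F, g ≠ 0 ∧ s34l1_OneMod π p₁ g ∧ s34l1_OneMod π p₂ g ∧
      ∃ c d : B, c ∉ n ∧ d ∉ n ∧
        g ^ m * algebraMap B F c = (u / V ^ m) * algebraMap B F d := by
  obtain ⟨t₁, ht₁, hunif⟩ := hBr₁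
  obtain ⟨θ, hθ, hθn⟩ := hθ
  rcases s35lo_isBranch_or_le p₁ n hle ht₁ hunif with h | h
  · exact s35lo_smooth π hπ0 n p₁ p₂ hπ₁ hπ₂ hDVR₁ hDVR₂ t₁ h θ hθ hθn 𝒬 h𝒬p h𝒬π hUnit
      m hm u V G hG hhor hV hu₁ hu₂
  · -- `n = p₁`: `u / V ^ m` is a unit at `n`
    obtain ⟨a, b, ha, hb, hab⟩ := s34l1_oneMod_isUnitAt p₁ hπ₁ hu₁
    refine ⟨1, one_ne_zero, s34l1_oneMod_one p₁, s34l1_oneMod_one p₂, a, b,
      fun h' => ha (h h'), fun h' => hb (h h'), ?_⟩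
    rw [one_pow, one_mul, hab]

end Fermat.Agent.S35
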