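/-
S35, leaf [NF-LOC-ABS] (helper18), part 3: the automorphism.  Prefix `s35lo_`.

`τ` an automorphism of `F` inducing `σ` on `B`, `σ π = η π`, `σ n = n`, `σ p = p`
(in the application `τ = s = σ0²` acting on the coefficients, `σ0` a Frobenius lift).

* `s35lo_isBrUnit_tau`     : `τ` preserves `B_nˣ (1 + π B_p)`;
* `s35lo_branch_sigma`     : `σ t / t` is a unit of the branch at `n`;
* `s35lo_isBrUnit_tau_div` : `τ x / x ∈ B_nˣ (1 + π B_p)` for every unit `x` of `B_p`;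
* `s35lo_isOne_frob`       : `τ e / e ^ Q ∈ 1 + n B_n` for `e ∈ B_nˣ`, if `σ b ≡ b ^ Q` mod `n`;
* `s35lo_isOneAt_frob`     : `τ x / x ^ Q ∈ (1 + n B_n)(1 + π B_p)` for `x ∈ B_nˣ (1 + π B_p)`;
* `s35lo_isOneAt_fd`       : `τ (τ h / h) / (τ h / h) ^ Q ∈ (1 + n B_n)(1 + π B_p)` for every
                             `h ∈ Fˣ` ("the Frobenius difference has value `1` at `n`").
-/
import Mathlib
import Fermat.Agent.S35.NfLocBr

set_option autoImplicit false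
set_option linter.unusedSectionVars false

namespace Fermat.Agent.S35

open Fermat.Agent.S34

variable {B F : Type*} [CommRing B] [IsDomain B] [Field F] [Algebra B F] [IsFractionRing B F]

section stable

variable (π : B) (τ : F ≃+* F) (σ : B ≃+* B) (η : B)
  (hστ : ∀ b : B, τ (algebraMap B F b) = algebraMap B F (σ b))

include hστ in
theorem s35lo_isUnitAt_tau (q : Ideal B) (hσq : ∀ b : B, σ b ∈ q ↔ b ∈ q) {x : F}
    (hx : s34l1_IsUnitAt q x) : s34l1_IsUnitAt q (τ x) := by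
  obtain ⟨a, b, ha, hb, hab⟩ := hx
  refine ⟨σ a, σ b, fun h => ha ((hσq a).mp h), fun h => hb ((hσq b).mp h), ?_⟩
  rw [← hστ, ← hστ, ← map_mul, hab]

include hστ in
theorem s35lo_oneMod_tau (hσπ : σ π = η * π) (p : Ideal B) (hσp : ∀ b : B, σ b ∈ p ↔ b ∈ p)
    {x : F} (hx : s34l1_OneMod π p x) : s34l1_OneMod π p (τ x) := by
  obtain ⟨c, d, hd, hcd⟩ := hx
  refine ⟨η * σ c, σ d, fun h => hd ((hσp d).mp h), ?_⟩
  have e : π * (η * σ c) = σ (π * c) := by rw [map_mul, hσπ]; ring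
  rw [e, ← hστ, ← hστ, ← hcd, map_mul, map_sub, map_one]

include hστ in
theorem s35lo_isBrUnit_tau (hσπ : σ π = η * π) (p n : Ideal B)
    (hσn : ∀ b : B, σ b ∈ n ↔ b ∈ n) (hσp : ∀ b : B, σ b ∈ p ↔ b ∈ p)
    {x : F} (hx : s35lo_IsBrUnit π p n x) : s35lo_IsBrUnit π p n (τ x) := by
  obtain ⟨e, he, h⟩ := hx
  refine ⟨τ e, s35lo_isUnitAt_tau τ σ hστ n hσn he, ?_⟩
  rw [← map_div₀]
  exact s35lo_oneMod_tau π τ σ η hστ hσπ p hσp h

include hστ in
/-- The inverse automorphism. -/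
theorem s35lo_symm_map (b : B) : τ.symm (algebraMap B F b) = algebraMap B F (σ.symm b) := by
  apply τ.injective
  rw [RingEquiv.apply_symm_apply, hστ, RingEquiv.apply_symm_apply]

theorem s35lo_symm_pi (hσπ : σ π = η * π) (hη : IsUnit η) :
    ∃ η' : B, σ.symm π = η' * π := by
  obtain ⟨u, rfl⟩ := hη
  refine ⟨σ.symm ((u⁻¹ : Bˣ) : B), ?_⟩
  have e : π = ((u⁻¹ : Bˣ) : B) * σ π := by
    rw [hσπ, ← mul_assoc, Units.inv_mul, one_mul]
  conv_lhs => rw [e]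
  rw [map_mul, RingEquiv.symm_apply_apply]

theorem s35lo_symm_mem (q : Ideal B) (hσq : ∀ b : B, σ b ∈ q ↔ b ∈ q) (b : B) :
    σ.symm b ∈ q ↔ b ∈ q := by
  rw [← hσq (σ.symm b), RingEquiv.apply_symm_apply]

end stable

section branch

variable (π : B) (p n : Ideal B) [hp : p.IsPrime] [hn : n.IsPrime]
  (hDVR : ∀ h : F, h ≠ 0 → ∃ (c : ℤ) (h' : F), s34l1_IsUnitAt p h' ∧
      h = algebraMap B F π ^ c * h')
  (hπ : π ∈ p) {t : B} (ht : s35lo_IsBranch p n t)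
  (τ : F ≃+* F) (σ : B ≃+* B) (η : B)
  (hστ : ∀ b : B, τ (algebraMap B F b) = algebraMap B F (σ b))
  (hσπ : σ π = η * π) (hη : IsUnit η)
  (hσn : ∀ b : B, σ b ∈ n ↔ b ∈ n) (hσp : ∀ b : B, σ b ∈ p ↔ b ∈ p)

include hDVR hπ ht hστ hσπ hη hσn hσp in
/-- `σ t / t` is a unit of the branch at `n`. -/
theorem s35lo_branch_sigma :
    s35lo_IsBrUnit π p n (algebraMap B F (σ t) / algebraMap B F t) := by
  have ht0 : algebraMap B F t ≠ 0 := s34l1_map_ne_zero p ht.notMem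
  have hσt : σ t ∉ p := fun h => ht.notMem ((hσp t).mp h)
  have hσt0 : algebraMap B F (σ t) ≠ 0 := s34l1_map_ne_zero p hσt
  have hst : σ.symm t ∉ p := fun h => ht.notMem ((s35lo_symm_mem σ p hσp t).mp h)
  obtain ⟨k, hk⟩ := s35lo_branch_decomp π p n hDVR hπ ht hσt
  obtain ⟨k', hk'⟩ := s35lo_branch_decomp π p n hDVR hπ ht hst
  -- apply `τ` to the second decomposition
  have h1 := s35lo_isBrUnit_tau π τ σ η hστ hσπ p n hσn hσp hk'
  rw [map_div₀, map_pow, hστ, hστ, RingEquiv.apply_symm_apply] at h1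
  -- `t ^ (1 - k k')` is a unit of the branch
  have h2 : s35lo_IsBrUnit π p n ((algebraMap B F t) ^ ((1 : ℤ) - k * k')) := by
    have e : (algebraMap B F t) ^ ((1 : ℤ) - k * k') =
        (algebraMap B F t / algebraMap B F (σ t) ^ k') *
          (algebraMap B F (σ t) / algebraMap B F t ^ k) ^ k' := by
      rw [zpow_sub₀ ht0, zpow_one, zpow_mul, zpow_natCast, zpow_natCast, div_pow, ← pow_mul]
      field_simp
    rw [e]
    exact s35lo_isBrUnit_mul π p n h1 (s35lo_isBrUnit_pow π p n hk k')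
  have h3 := s35lo_branch_zpow π p n hπ ht h2
  have hk1 : k = 1 := by
    have h4 : (k : ℤ) * k' = 1 := by omega
    have h5 : k * k' = 1 := by exact_mod_cast h4
    exact Nat.eq_one_of_mul_eq_one_right h5
  rw [hk1, pow_one] at hk
  exact hk

include hDVR hπ ht hστ hσπ hη hσn hσp in
/-- `τ x / x` is a unit of the branch at `n` for every unit `x` of `B_p`. -/
theorem s35lo_isBrUnit_tau_div {x : F} (hx : s34l1_IsUnitAt p x) :
    s35lo_IsBrUnit π p n (τ x / x) := by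
  have hx0 := s34l1_isUnitAt_ne_zero p hx
  have ht0 : algebraMap B F t ≠ 0 := s34l1_map_ne_zero p ht.notMem
  have hσt : σ t ∉ p := fun h => ht.notMem ((hσp t).mp h)
  have hσt0 : algebraMap B F (σ t) ≠ 0 := s34l1_map_ne_zero p hσt
  obtain ⟨k, hk⟩ := s35lo_branch_decomp' π p n hDVR hπ ht hx
  have hk0 := s35lo_isBrUnit_ne_zero π p n hπ hk
  have h1 := s35lo_isBrUnit_tau π τ σ η hστ hσπ p n hσn hσp hk
  have h2 := s35lo_branch_sigma π p n hDVR hπ ht τ σ η hστ hσπ hη hσn hσp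
  have e : τ x / x = (τ (x / algebraMap B F t ^ k) / (x / algebraMap B F t ^ k)) *
      (algebraMap B F (σ t) / algebraMap B F t) ^ k := by
    rw [map_div₀, map_zpow₀, hστ, div_zpow]
    have h3 : algebraMap B F t ^ k ≠ 0 := zpow_ne_zero k ht0
    have h4 : algebraMap B F (σ t) ^ k ≠ 0 := zpow_ne_zero k hσt0
    field_simp
  rw [e]
  exact s35lo_isBrUnit_mul π p n (s35lo_isBrUnit_div π p n hπ h1 hk)
    (s35lo_isBrUnit_zpow π p n hπ h2 k)

end branch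

section frob

variable (π : B) (p n : Ideal B) [hp : p.IsPrime] [hn : n.IsPrime]
  (τ : F ≃+* F) (σ : B ≃+* B) (η : B)
  (hστ : ∀ b : B, τ (algebraMap B F b) = algebraMap B F (σ b))
  (Q : ℕ) (hF : ∀ b : B, σ b - b ^ Q ∈ n)

include hF in
/-- The Frobenius congruence makes `n` stable. -/
theorem s35lo_sigma_mem_of_frob (hQ : Q ≠ 0) (b : B) : σ b ∈ n ↔ b ∈ n := by
  constructor
  · intro h
    have h1 : b ^ Q ∈ n := by
      have : b ^ Q = σ b - (σ b - b ^ Q) := by ring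
      rw [this]
      exact n.sub_mem h (hF b)
    exact hn.mem_of_pow_mem Q h1
  · intro h
    have : σ b = (σ b - b ^ Q) + b ^ Q := by ring
    rw [this]
    exact n.add_mem (hF b) (n.pow_mem_of_mem h Q (Nat.pos_of_ne_zero hQ))

include hστ hF in
/-- `τ e / e ^ Q ∈ 1 + n B_n` for `e ∈ B_nˣ`. -/
theorem s35lo_isOne_frob (hQ : Q ≠ 0) {e : F} (he : s34l1_IsUnitAt n e) :
    s35lo_IsOne n (τ e / e ^ Q) := by
  have he0 := s34l1_isUnitAt_ne_zero n he
  obtain ⟨a, b, ha, hb, hab⟩ := he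
  have hσ := s35lo_sigma_mem_of_frob n σ Q hF hQ
  have hσa : σ a ∉ n := fun h => ha ((hσ a).mp h)
  have hσb : σ b ∉ n := fun h => hb ((hσ b).mp h)
  have hbQ : b ^ Q ∉ n := fun h => hb (hn.mem_of_pow_mem Q h)
  have haQ : a ^ Q ∉ n := fun h => ha (hn.mem_of_pow_mem Q h)
  refine ⟨σ a * b ^ Q, σ b * a ^ Q, fun h => (hn.mem_or_mem h).elim hσa hbQ, ?_, ?_⟩
  · have : σ a * b ^ Q - σ b * a ^ Q = (σ a - a ^ Q) * b ^ Q - (σ b - b ^ Q) * a ^ Q := by ring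
    rw [this]
    exact n.sub_mem (n.mul_mem_right _ (hF a)) (n.mul_mem_right _ (hF b))
  · have hb0 : algebraMap B F b ≠ 0 := s34l1_map_ne_zero n hb
    have hσb0 : algebraMap B F (σ b) ≠ 0 := s34l1_map_ne_zero n hσb
    have hτ : τ e * algebraMap B F (σ b) = algebraMap B F (σ a) := by
      rw [← hστ, ← hστ, ← map_mul, hab]
    simp only [map_mul, map_pow]
    rw [← hτ, ← hab]
    field_simp
    ring

include hστ in
/-- `τ x / x ^ Q ∈ 1 + π B_p` for `x ∈ 1 + π B_p`. -/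
theorem s35lo_oneMod_frob (hπ : π ∈ p) (hσπ : σ π = η * π) (hσp : ∀ b : B, σ b ∈ p ↔ b ∈ p)
    {x : F} (hx : s34l1_OneMod π p x) : s34l1_OneMod π p (τ x / x ^ Q) :=
  s34l1_oneMod_div p hπ (s35lo_oneMod_tau π τ σ η hστ hσπ p hσp hx) (s34l1_oneMod_pow p hx Q)

include hστ hF in
/-- `τ x / x ^ Q` has value `1` at `n` for every unit `x` of the branch at `n`. -/
theorem s35lo_isOneAt_frob (hQ : Q ≠ 0) (hπ : π ∈ p) (hσπ : σ π = η * π)
    (hσp : ∀ b : B, σ b ∈ p ↔ b ∈ p) {x : F} (hx : s35lo_IsBrUnit π p n x) :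
    s35lo_IsOneAt π p n (τ x / x ^ Q) := by
  obtain ⟨e, he, h⟩ := hx
  have he0 := s34l1_isUnitAt_ne_zero n he
  refine ⟨τ e / e ^ Q, s35lo_isOne_frob n τ σ hστ Q hF hQ he, ?_⟩
  have h1 := s35lo_oneMod_frob π p τ σ η hστ Q hπ hσπ hσp h
  have e1 : τ x / x ^ Q / (τ e / e ^ Q) = τ (x / e) / (x / e) ^ Q := by
    rw [map_div₀, div_pow]
    have h2 : τ e ≠ 0 := (map_ne_zero τ).mpr he0
    field_simp
  rw [e1]
  exact h1

variable (hDVR : ∀ h : F, h ≠ 0 → ∃ (c : ℤ) (h' : F), s34l1_IsUnitAt p h' ∧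
      h = algebraMap B F π ^ c * h')
  {t : B} (ht : s35lo_IsBranch p n t)

include hDVR ht hστ hF in
/-- `τ h / h` is a unit of the branch at `n` for EVERY `h ∈ Fˣ`. -/
theorem s35lo_isBrUnit_d1 (hQ : Q ≠ 0) (hπ0 : π ≠ 0) (hπ : π ∈ p) (hσπ : σ π = η * π)
    (hη : IsUnit η) (hσp : ∀ b : B, σ b ∈ p ↔ b ∈ p) {h : F} (hh : h ≠ 0) :
    s35lo_IsBrUnit π p n (τ h / h) := by
  have hσn := s35lo_sigma_mem_of_frob n σ Q hF hQ
  obtain ⟨c, h', hh', rfl⟩ := hDVR h hh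
  have hP0 : algebraMap B F π ≠ 0 := s35lo_algebraMap_ne_zero hπ0
  have hh'0 := s34l1_isUnitAt_ne_zero p hh'
  have hE : s34l1_IsUnitAt n (algebraMap B F η) := s34l1_isUnitAt_of_isUnit n hη
  have hE0 : algebraMap B F η ≠ 0 := s34l1_isUnitAt_ne_zero n hE
  have hτP : τ (algebraMap B F π) = algebraMap B F η * algebraMap B F π := by
    rw [hστ, hσπ, map_mul]
  have e : τ (algebraMap B F π ^ c * h') / (algebraMap B F π ^ c * h') =
      algebraMap B F η ^ c * (τ h' / h') := by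
    rw [map_mul, map_zpow₀, hτP, mul_zpow]
    have hX0 : algebraMap B F π ^ c ≠ 0 := zpow_ne_zero c hP0
    field_simp
  rw [e]
  exact s35lo_isBrUnit_mul π p n
    (s35lo_isBrUnit_zpow π p n hπ (s35lo_isBrUnit_of_isUnitAt π p n hE hE0) c)
    (s35lo_isBrUnit_tau_div π p n hDVR hπ ht τ σ η hστ hσπ hη hσn hσp hh')

include hDVR ht hστ hF in
/-- **The Frobenius difference has value `1` at `n`**:
`τ (τ h / h) / (τ h / h) ^ Q ∈ (1 + n B_n)(1 + π B_p)` for every `h ∈ Fˣ`. -/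
theorem s35lo_isOneAt_fd (hQ : Q ≠ 0) (hπ0 : π ≠ 0) (hπ : π ∈ p) (hσπ : σ π = η * π)
    (hη : IsUnit η) (hσp : ∀ b : B, σ b ∈ p ↔ b ∈ p) {h : F} (hh : h ≠ 0) :
    s35lo_IsOneAt π p n (τ (τ h / h) / (τ h / h) ^ Q) :=
  s35lo_isOneAt_frob π p n τ σ η hστ Q hF hQ hπ hσπ hσp
    (s35lo_isBrUnit_d1 π p n τ σ η hστ Q hF hDVR ht hQ hπ0 hπ hσπ hη hσp hh)

end frob

end Fermat.Agent.S35
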