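/-
S35, leaf [NF-LOC-ABS] (helper18), part 8: from the vocabulary of a valuation ring `V` to the
vocabulary `s34l1_OneMod π p` at its centre `p` on `B`.  Prefix `s35lo_`.
Mathlib + `S34/Loc1Chart.lean` (`s34l1_centre`).

`B ⊆ V`, `π ∈ B` a uniformizer of `V` (`hunif` = `s34l1_IsVert.unif`), `V = B_p`
(`hloc` = `s34l1_IsVert.loc`), `p = s34l1_centre V hVB`:

* `s35lo_oneMod_of_nonunits` : `x - 1 ∈ 𝔪_V`  ⟹  `x ∈ 1 + π B_p`;
* `s35lo_red_of_val`         : `D = c X ^ m (1 + π y)`, `y ∈ V`  ⟹  [RED] `D / (c X ^ m) ∈ 1 + π B_p`;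
* `s35lo_appr_of_val`        : `V₀ - E ∈ 𝔪_V`, `E ∈ Vˣ`  ⟹  [APPR] `V₀ / E ∈ 1 + π B_p`;
* `s35lo_isUnitAt_of_val`    : `x ∈ Vˣ`  ⟹  `x` is a unit at `p`.
-/
import Mathlib
import Fermat.Agent.S34.Loc1Chart

set_option autoImplicit false
set_option linter.unusedSectionVars false
set_option linter.unusedVariables false

namespace Fermat.Agent.S35

open Fermat.Agent.S34

variable {B F : Type*} [CommRing B] [Field F] [Algebra B F]
  (V : ValuationSubring F) (hVB : ∀ b : B, algebraMap B F b ∈ V) (π : B)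
  (hπV : algebraMap B F π ∈ V.nonunits)
  (hunif : ∀ h : F, h ≠ 0 → ∃ (c : ℤ) (h' : F), h' ∈ V ∧ h'⁻¹ ∈ V ∧
    h = algebraMap B F π ^ c * h')
  (hloc : ∀ x ∈ V, ∃ a b : B, algebraMap B F b ∉ V.nonunits ∧
    x * algebraMap B F b = algebraMap B F a)

include hVB hπV hunif in
/-- `𝔪_V = π V`. -/
theorem s35lo_nonunits_div {x : F} (hx : x ∈ V.nonunits) :
    ∃ y ∈ V, x = algebraMap B F π * y := by
  by_cases hx0 : x = 0
  · exact ⟨0, V.zero_mem, by rw [hx0, mul_zero]⟩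
  obtain ⟨c, h', hh', hh'i, hc⟩ := hunif x hx0
  have hP : V.valuation (algebraMap B F π) < 1 := (V.mem_nonunits_iff).mp hπV
  have hP0 : algebraMap B F π ≠ 0 := by
    intro h0
    rw [h0] at hc
    rcases eq_or_ne c 0 with rfl | hc0
    · rw [zpow_zero, one_mul] at hc
      rw [hc] at hx
      have h1 : V.valuation h' < 1 := (V.mem_nonunits_iff).mp hx
      have h2 : V.valuation h'⁻¹ ≤ 1 := (V.valuation_le_one_iff _).mpr hh'i
      have h'0 : h' ≠ 0 := by rw [← hc]; exact hx0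
      rw [map_inv₀] at h2
      have h3 : V.valuation h' ≠ 0 := fun h => h'0 ((V.valuation.zero_iff).mp h)
      have h4 := (inv_le_one₀ (zero_lt_iff.mpr h3)).mp h2
      exact absurd h1 (not_lt.mpr h4)
    · rw [zero_zpow c hc0, zero_mul] at hc
      exact hx0 hc
  have h'0 : h' ≠ 0 := by
    rintro rfl
    rw [mul_zero] at hc
    exact hx0 hc
  have hv' : V.valuation h' = 1 := by
    have h1 : V.valuation h' ≤ 1 := (V.valuation_le_one_iff _).mpr hh'
    have h2 : V.valuation h'⁻¹ ≤ 1 := (V.valuation_le_one_iff _).mpr hh'i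
    rw [map_inv₀] at h2
    have h3 : V.valuation h' ≠ 0 := fun h => h'0 ((V.valuation.zero_iff).mp h)
    exact le_antisymm h1 ((inv_le_one₀ (zero_lt_iff.mpr h3)).mp h2)
  have hvx : V.valuation x < 1 := (V.mem_nonunits_iff).mp hx
  have hvP0 : V.valuation (algebraMap B F π) ≠ 0 := fun h => hP0 ((V.valuation.zero_iff).mp h)
  -- `c ≥ 1`
  have hc1 : 1 ≤ c := by
    by_contra hneg
    have hc' : c ≤ 0 := by omega
    obtain ⟨k, hk⟩ : ∃ k : ℕ, c = -(k : ℤ) := ⟨(-c).toNat, by omega⟩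
    rw [hc, map_mul, hv', mul_one, hk, zpow_neg, zpow_natCast, map_inv₀, map_pow] at hvx
    have h1 : V.valuation (algebraMap B F π) ^ k ≤ 1 := pow_le_one₀ zero_le hP.le
    have h2 : V.valuation (algebraMap B F π) ^ k ≠ 0 := pow_ne_zero k hvP0
    have h3 := (one_le_inv₀ (zero_lt_iff.mpr h2)).mpr h1
    exact absurd hvx (not_lt.mpr h3)
  obtain ⟨k, hk⟩ : ∃ k : ℕ, c = (k : ℤ) + 1 := ⟨(c - 1).toNat, by omega⟩
  refine ⟨algebraMap B F π ^ k * h', V.mul_mem _ _ (pow_mem (hVB π) k) hh', ?_⟩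
  rw [hc, hk, zpow_add₀ hP0, zpow_one, zpow_natCast]
  ring

include hπV hunif hloc in
/-- `x - 1 ∈ 𝔪_V` gives `x ∈ 1 + π B_p` at the centre `p` of `V`. -/
theorem s35lo_oneMod_of_nonunits {x : F} (hx : x - 1 ∈ V.nonunits) :
    s34l1_OneMod π (s34l1_centre V hVB) x := by
  obtain ⟨y, hy, hxy⟩ := s35lo_nonunits_div V hVB π hπV hunif hx
  obtain ⟨a, b, hb, hab⟩ := hloc y hy
  refine ⟨a, b, fun h => hb ((s34l1_mem_centre V hVB b).mp h), ?_⟩
  rw [hxy, mul_assoc, hab, map_mul]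

include hπV hunif hloc in
/-- **[RED]** in the vocabulary of the centre. -/
theorem s35lo_red_of_val {D c X y : F} {m : ℕ} (hc : c ≠ 0) (hX : X ≠ 0) (hy : y ∈ V)
    (hD : D = c * X ^ m * (1 + algebraMap B F π * y)) :
    s34l1_OneMod π (s34l1_centre V hVB) (D / (c * X ^ m)) := by
  apply s35lo_oneMod_of_nonunits V hVB π hπV hunif hloc
  have hcX : c * X ^ m ≠ 0 := mul_ne_zero hc (pow_ne_zero m hX)
  have e : D / (c * X ^ m) - 1 = algebraMap B F π * y := by
    rw [hD, mul_div_cancel_left₀ _ hcX]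
    ring
  rw [e, V.mem_nonunits_iff, map_mul]
  have h1 : V.valuation (algebraMap B F π) < 1 := (V.mem_nonunits_iff).mp hπV
  have h2 : V.valuation y ≤ 1 := (V.valuation_le_one_iff _).mpr hy
  calc V.valuation (algebraMap B F π) * V.valuation y
      ≤ V.valuation (algebraMap B F π) * 1 := mul_le_mul' le_rfl h2
    _ = V.valuation (algebraMap B F π) := mul_one _
    _ < 1 := h1

include hπV hunif hloc in
/-- **[APPR]** in the vocabulary of the centre. -/
theorem s35lo_appr_of_val {V₀ E : F} (hE0 : E ≠ 0) (hEi : E⁻¹ ∈ V)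
    (h : V₀ - E ∈ V.nonunits) :
    s34l1_OneMod π (s34l1_centre V hVB) (V₀ / E) := by
  apply s35lo_oneMod_of_nonunits V hVB π hπV hunif hloc
  have e : V₀ / E - 1 = (V₀ - E) * E⁻¹ := by
    field_simp
  rw [e, V.mem_nonunits_iff, map_mul]
  have h1 : V.valuation (V₀ - E) < 1 := (V.mem_nonunits_iff).mp h
  have h2 : V.valuation E⁻¹ ≤ 1 := (V.valuation_le_one_iff _).mpr hEi
  calc V.valuation (V₀ - E) * V.valuation E⁻¹
      ≤ V.valuation (V₀ - E) * 1 := mul_le_mul' le_rfl h2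
    _ = V.valuation (V₀ - E) := mul_one _
    _ < 1 := h1

include hloc in
/-- A unit of `V` is a unit at the centre. -/
theorem s35lo_isUnitAt_of_val {x : F} (hx0 : x ≠ 0) (hx : x ∈ V) (hxi : x⁻¹ ∈ V) :
    s34l1_IsUnitAt (s34l1_centre V hVB) x :=
  s34l1_isUnitAt_centre V hVB hx0 hx hxi (hloc x hx)

end Fermat.Agent.S35
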