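/-
S35, (NF-K), cut (K2): THE CHART THEOREM (helper29).  Prefix `s35kh_`.

    theorem s35kh_chart_main : s35k_ChartStatement

On one chart `B = chart(j)` with the two vertical valuation rings `V₁`, `V₂`: at every closed
point `n` of the special fibre the refined dichotomy (`s35k_IsDich`) gives

* a NODE: helper18's `s35lo_node` with `𝒬` the horizontal primes through `n`
  (`s35kh_isHor_comap`: they are permuted by `σ`), `G` the product of the local generators of the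
  horizontal divisor of `f` (`s35kh_exists_G`), the reductions `[RED_i]`, `[APPR_i]` from the
  valuation spelling (`S35/NfLocVal.lean`);
* a point of one branch: helper18's `s35lo_smooth'` with `G` for `u`.
-/
import Mathlib
import Fermat.Agent.S34.Loc1Chart
import Fermat.Agent.S34.ChartInst
import Fermat.Agent.S35.NfKChartDefs
import Fermat.Agent.S35.NfLocAdapt
import Fermat.Agent.S35.NfLocVal
import Fermat.Agent.S35.NfLocTau

set_option autoImplicit false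
set_option linter.style.haveILetI false
set_option linter.unusedVariables false
set_option linter.unusedSectionVars false
set_option maxHeartbeats 1000000

open AlgebraicCurve IntermediateField

noncomputable section

namespace Fermat.Agent.S35

open Fermat.Agent.S18 Fermat.Agent.S34

section hor

variable {B : Type} [CommRing B]

/-- The horizontal primes through `n` are permuted by an automorphism `σ` with `σ n = n`,
`σ π = η π`. -/
theorem s35kh_isHor_comap (π : B) (σ : B ≃+* B) (η : B) (hη : IsUnit η) (hσπ : σ π = η * π)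
    (n : Ideal B) (hσn : ∀ b : B, σ b ∈ n ↔ b ∈ n) {q : Ideal B} (h : s34l1_IsHor π n q) :
    s34l1_IsHor π n (q.comap (σ : B →+* B)) := by
  have hqp := h.prime
  refine ⟨Ideal.comap_isPrime _ q, ?_, ?_, ?_, ?_⟩
  · intro b hb
    have hb' : σ b ∈ n := h.le (Ideal.mem_comap.mp hb)
    exact (hσn b).mp hb'
  · intro h0
    obtain ⟨x, hx, hx0⟩ := Submodule.exists_mem_ne_zero_of_ne_bot h.ne_bot
    have h1 : σ.symm x ∈ q.comap (σ : B →+* B) := by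
      rw [Ideal.mem_comap]
      simpa using hx
    rw [h0, Ideal.mem_bot] at h1
    apply hx0
    have := congrArg σ h1
    simpa using this
  · intro hπ
    have h1 : σ π ∈ q := Ideal.mem_comap.mp hπ
    rw [hσπ] at h1
    rcases hqp.mem_or_mem h1 with h2 | h2
    · exact hqp.ne_top (Ideal.eq_top_of_isUnit_mem q h2 hη)
    · exact h.notMem h2
  · intro q' hq' hle
    have hq'' : (q'.comap (σ.symm : B →+* B)).IsPrime := Ideal.comap_isPrime _ q'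
    have hle' : q'.comap (σ.symm : B →+* B) ≤ q := by
      intro b hb
      have h1 : σ.symm b ∈ q' := Ideal.mem_comap.mp hb
      have h2 := Ideal.mem_comap.mp (hle h1)
      simpa using h2
    rcases h.ht _ hq'' hle' with h1 | h1
    · left
      rw [eq_bot_iff]
      intro b hb
      have h2 : σ b ∈ q'.comap (σ.symm : B →+* B) := by
        rw [Ideal.mem_comap]
        simpa using hb
      rw [h1, Ideal.mem_bot] at h2
      rw [Ideal.mem_bot]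
      have := congrArg σ.symm h2
      simpa using this
    · right
      ext b
      rw [Ideal.mem_comap, ← h1, Ideal.mem_comap]
      simp

end hor

section prod

variable {K F B : Type} [Field K] [CharZero K] [Field F] [Algebra K F] [CommRing B] [IsDomain B]
  [IsNoetherianRing B] [IsIntegrallyClosed B] [Algebra B F] [IsFractionRing B F]

/-- **The product of the local generators**: a function whose horizontal divisor through `n` is
`m` times a divisor with local generators is `G ^ m` up to a unit at all horizontal primes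
through `n`. -/
theorem s35kh_exists_G (t : B) (ht : Transcendental K (algebraMap B F t))
    (hfin : FiniteDimensional K⟮algebraMap B F t⟯ F) (π : B)
    (hK : ∀ c : K, ∃ x y : B, ∃ k : ℕ, y ∣ π ^ k ∧
      algebraMap K F c * algebraMap B F y = algebraMap B F x)
    (n : Ideal B) (m : ℕ) (f : F) (hf : f ≠ 0) (hdiv : ∀ P : Place K F, (m : ℤ) ∣ P.ord f)
    (hLG : ∀ q : Ideal B, s34l1_IsHor π n q → ∀ Q : Place K F, s34l1_IsPlaceOf q Q →
      Q.ord f ≠ 0 → ∃ g : F, s34l1_IsLocGen π n q g) :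
    ∃ G : F, G ≠ 0 ∧ ∀ q : Ideal B, s34l1_IsHor π n q → s34l1_IsUnitAt q (f / G ^ m) := by
  classical
  have hinj : Function.Injective (algebraMap B F) := IsFractionRing.injective B F
  have hpl : ∀ i : {q : Ideal B // s34l1_IsHor π n q}, ∃ Q : Place K F,
      s34l1_IsPlaceOf i.1 Q := fun i =>
    s34l1_exists_place K F B t ht hfin π hK i.1 i.2.prime i.2.ne_bot i.2.notMem
  choose Q hQ using hpl
  obtain ⟨G, hG0, hG⟩ := s34l1_prod (ι := {q : Ideal B // s34l1_IsHor π n q})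
    (fun i x => (Q i).ord x) (fun i x y hx hy => (Q i).ord_mul hx hy) m f hf
    (fun i => hdiv (Q i))
    (by
      have hfin' := s34l1_hor_finite π n f hf
      have hsub : {i : {q : Ideal B // s34l1_IsHor π n q} | (Q i).ord f ≠ 0} ⊆
          Subtype.val ⁻¹' {q : Ideal B | s34l1_IsHor π n q ∧ ¬ s34l1_IsUnitAt q f} := by
        intro i hi
        refine ⟨i.2, fun hu => hi ?_⟩
        exact s34l1_ord_of_isUnitAt hinj (hQ i) hu
      exact (hfin'.preimage Subtype.val_injective.injOn).subset hsub)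
    (by
      intro i hi
      obtain ⟨g, hg⟩ := hLG i.1 i.2 (Q i) (hQ i) hi
      refine ⟨g, hg.1, s34l1_locGen_ord hinj (hQ i) i.2.le i.2.notMem hg, ?_⟩
      intro j hj
      exact s34l1_locGen_ord' hinj i.2.ne_bot hg (hQ j) j.2.le j.2.notMem j.2.ht i.2.prime
        (fun h => hj (Subtype.ext h)))
  exact ⟨G, hG0, fun q hq => s34l1_isUnitAt_of_ord hinj (hQ ⟨q, hq⟩)
    (div_ne_zero hf (pow_ne_zero m hG0)) (hG ⟨q, hq⟩)⟩

end prod

section val

variable {F : Type*} [Field F] (V : ValuationSubring F)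

/-- An element congruent to a unit modulo the maximal ideal is a unit. -/
theorem s35kh_inv_mem_of_sub {x E : F} (hE : E ∈ V) (hEi : E⁻¹ ∈ V) (hE0 : E ≠ 0)
    (h : x - E ∈ V.nonunits) : x⁻¹ ∈ V := by
  have h1 : V.valuation (x - E) < 1 := (V.mem_nonunits_iff).mp h
  have hvE : V.valuation E = 1 := by
    have h2 : V.valuation E ≤ 1 := (V.valuation_le_one_iff _).mpr hE
    have h3 : V.valuation E⁻¹ ≤ 1 := (V.valuation_le_one_iff _).mpr hEi
    rw [map_inv₀] at h3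
    have h4 : V.valuation E ≠ 0 := fun h => hE0 ((V.valuation.zero_iff).mp h)
    exact le_antisymm h2 ((inv_le_one₀ (zero_lt_iff.mpr h4)).mp h3)
  have hvx : V.valuation x = 1 := by
    have h5 : V.valuation ((x - E) + E) = V.valuation E :=
      Valuation.map_add_eq_of_lt_right _ (by rw [hvE]; exact h1)
    rw [sub_add_cancel, hvE] at h5
    exact h5
  rw [← V.valuation_le_one_iff, map_inv₀, hvx, inv_one]

end val

/-- **THE CHART THEOREM.** -/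
theorem s35kh_chart_main : s35k_ChartStatement := by
  intro O K F _ _ _ _ _ _ _ _ _ _ _ j htr hfin ϖ hϖ W V₁ V₂ hV hLG τ hτ Q hQ hdich m hm f hf
    hdiv hdeg hdivu hdegu η₁ η₂ a₁ a₂ X₁ X₂ y₁ y₂ V₀ hη₁ hη₂ hX₁ hX₁i hX₂ hX₂i hy₁ hy₂ hV₀0
    hV₀1 hV₀2 hD₁ hD₂ hA₁ hA₂ hone₁ hone₂
  classical
  haveI hnoeth : IsNoetherianRing ↥(s18_chart O ({j} : Set F)) := s35k_noeth htr hfin
  haveI hfrac : IsFractionRing ↥(s18_chart O ({j} : Set F)) F := s35k_frac htr hfin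
  haveI hic : IsIntegrallyClosed ↥(s18_chart O ({j} : Set F)) :=
    s34l1_chart_isIntegrallyClosed j hfrac
  have hϖ0 : algebraMap O ↥(s18_chart O ({j} : Set F)) ϖ ≠ 0 := s35k_pi_ne_zero K hϖ j
  have hπF : algebraMap O F ϖ ≠ 0 := s35k_pi_ne_zero' K hϖ
  have hστ : ∀ b : ↥(s18_chart O ({j} : Set F)),
      τ (algebraMap ↥(s18_chart O ({j} : Set F)) F b) =
        algebraMap ↥(s18_chart O ({j} : Set F)) F (s35k_sigma τ hτ.mem hτ.symm_mem b) :=
    fun b => rfl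
  obtain ⟨η, hη, hτπ⟩ := hτ.pi
  have hσπ : s35k_sigma τ hτ.mem hτ.symm_mem (algebraMap O ↥(s18_chart O ({j} : Set F)) ϖ) =
      algebraMap O ↥(s18_chart O ({j} : Set F)) η *
        algebraMap O ↥(s18_chart O ({j} : Set F)) ϖ := Subtype.ext hτπ
  have hηB : IsUnit (algebraMap O ↥(s18_chart O ({j} : Set F)) η) := hη.map _
  -- the centres
  have hm₁ : V₁ ∈ ({V₁, V₂} : Set (ValuationSubring F)) := Set.mem_insert V₁ {V₂}
  have hm₂ : V₂ ∈ ({V₁, V₂} : Set (ValuationSubring F)) :=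
    Set.mem_insert_of_mem V₁ (Set.mem_singleton V₂)
  have hVB₁ : ∀ b : ↥(s18_chart O ({j} : Set F)),
      algebraMap ↥(s18_chart O ({j} : Set F)) F b ∈ V₁ := fun b => hV.chart_le V₁ hm₁ b b.2
  have hVB₂ : ∀ b : ↥(s18_chart O ({j} : Set F)),
      algebraMap ↥(s18_chart O ({j} : Set F)) F b ∈ V₂ := fun b => hV.chart_le V₂ hm₂ b b.2
  have hp₁c : s34l1_centre V₁ hVB₁ ∈ s35k_centres hV := s35k_centre_mem hV hm₁
  have hp₂c : s34l1_centre V₂ hVB₂ ∈ s35k_centres hV := s35k_centre_mem hV hm₂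
  haveI hp₁ : (s34l1_centre V₁ hVB₁).IsPrime := s34l1_centre_isPrime V₁ _
  haveI hp₂ : (s34l1_centre V₂ hVB₂).IsPrime := s34l1_centre_isPrime V₂ _
  have hπ₁ := s35k_centres_pi hV _ hp₁c
  have hπ₂ := s35k_centres_pi hV _ hp₂c
  have hDVR₁ := s35k_centres_dvr hV _ hp₁c
  have hDVR₂ := s35k_centres_dvr hV _ hp₂c
  have hσp₁ := s35k_sigma_centre hV τ hτ.mem hτ.symm_mem hτ.nonunits _ hp₁c
  have hσp₂ := s35k_sigma_centre hV τ hτ.mem hτ.symm_mem hτ.nonunits _ hp₂c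
  have hcen : ∀ q ∈ s35k_centres hV, q = s34l1_centre V₁ hVB₁ ∨ q = s34l1_centre V₂ hVB₂ := by
    rintro q ⟨V, hVm, rfl⟩
    rcases hVm with rfl | hVm
    · exact Or.inl rfl
    · rw [Set.mem_singleton_iff] at hVm
      subst hVm
      exact Or.inr rfl
  -- non-vanishing
  have hτf : τ f ≠ 0 := (map_ne_zero τ).mpr hf
  have hττf : τ (τ f) ≠ 0 := (map_ne_zero τ).mpr hτf
  have hu0 : τ (τ f) * f ^ Q / τ f ^ (Q + 1) ≠ 0 :=
    div_ne_zero (mul_ne_zero hττf (pow_ne_zero _ hf)) (pow_ne_zero _ hτf)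
  have hX₁0 : X₁ ≠ 0 := fun h => by
    rw [h, zero_pow hm, mul_zero, zero_mul] at hD₁
    exact div_ne_zero hτf hf hD₁
  have hX₂0 : X₂ ≠ 0 := fun h => by
    rw [h, zero_pow hm, mul_zero, zero_mul] at hD₂
    exact div_ne_zero hτf hf hD₂
  have hc₁0 : algebraMap O F η₁ ^ a₁ ≠ 0 := fun h => by
    rw [h, zero_mul, zero_mul] at hD₁
    exact div_ne_zero hτf hf hD₁
  have hc₂0 : algebraMap O F η₂ ^ a₂ ≠ 0 := fun h => by
    rw [h, zero_mul, zero_mul] at hD₂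
    exact div_ne_zero hτf hf hD₂
  have hτX₁0 : τ X₁ ≠ 0 := (map_ne_zero τ).mpr hX₁0
  have hτX₂0 : τ X₂ ≠ 0 := (map_ne_zero τ).mpr hX₂0
  have hE₁0 : τ X₁ / X₁ ^ Q ≠ 0 := div_ne_zero hτX₁0 (pow_ne_zero _ hX₁0)
  have hE₂0 : τ X₂ / X₂ ^ Q ≠ 0 := div_ne_zero hτX₂0 (pow_ne_zero _ hX₂0)
  -- the units `E_i = τ X_i / X_i ^ Q`
  have hE₁ : τ X₁ / X₁ ^ Q ∈ V₁ := by
    rw [div_eq_mul_inv, ← inv_pow]
    exact V₁.mul_mem _ _ ((hτ.val V₁ hm₁ X₁).mpr hX₁) (pow_mem hX₁i Q)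
  have hE₂ : τ X₂ / X₂ ^ Q ∈ V₂ := by
    rw [div_eq_mul_inv, ← inv_pow]
    exact V₂.mul_mem _ _ ((hτ.val V₂ hm₂ X₂).mpr hX₂) (pow_mem hX₂i Q)
  have hE₁i : (τ X₁ / X₁ ^ Q)⁻¹ ∈ V₁ := by
    rw [inv_div, div_eq_mul_inv, ← map_inv₀]
    exact V₁.mul_mem _ _ (pow_mem hX₁ Q) ((hτ.val V₁ hm₁ X₁⁻¹).mpr hX₁i)
  have hE₂i : (τ X₂ / X₂ ^ Q)⁻¹ ∈ V₂ := by
    rw [inv_div, div_eq_mul_inv, ← map_inv₀]
    exact V₂.mul_mem _ _ (pow_mem hX₂ Q) ((hτ.val V₂ hm₂ X₂⁻¹).mpr hX₂i)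
  -- the reductions at the centres
  have hred₁ : s34l1_OneMod (algebraMap O ↥(s18_chart O ({j} : Set F)) ϖ)
      (s34l1_centre V₁ hVB₁) ((τ f / f) / (algebraMap O F η₁ ^ a₁ * X₁ ^ m)) :=
    s35lo_red_of_val V₁ hVB₁ _ (hV.pi V₁ hm₁) (hV.unif V₁ hm₁) (hV.loc V₁ hm₁) hc₁0 hX₁0 hy₁
      hD₁
  have hred₂ : s34l1_OneMod (algebraMap O ↥(s18_chart O ({j} : Set F)) ϖ)
      (s34l1_centre V₂ hVB₂) ((τ f / f) / (algebraMap O F η₂ ^ a₂ * X₂ ^ m)) :=
    s35lo_red_of_val V₂ hVB₂ _ (hV.pi V₂ hm₂) (hV.unif V₂ hm₂) (hV.loc V₂ hm₂) hc₂0 hX₂0 hy₂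
      hD₂
  have happr₁ : s34l1_OneMod (algebraMap O ↥(s18_chart O ({j} : Set F)) ϖ)
      (s34l1_centre V₁ hVB₁) (V₀ / (τ X₁ / X₁ ^ Q)) :=
    s35lo_appr_of_val V₁ hVB₁ _ (hV.pi V₁ hm₁) (hV.unif V₁ hm₁) (hV.loc V₁ hm₁) hE₁0 hE₁i hA₁
  have happr₂ : s34l1_OneMod (algebraMap O ↥(s18_chart O ({j} : Set F)) ϖ)
      (s34l1_centre V₂ hVB₂) (V₀ / (τ X₂ / X₂ ^ Q)) :=
    s35lo_appr_of_val V₂ hVB₂ _ (hV.pi V₂ hm₂) (hV.unif V₂ hm₂) (hV.loc V₂ hm₂) hE₂0 hE₂i hA₂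
  have hOne₁ : s34l1_OneMod (algebraMap O ↥(s18_chart O ({j} : Set F)) ϖ)
      (s34l1_centre V₁ hVB₁) (τ (τ f) * f ^ Q / τ f ^ (Q + 1) / V₀ ^ m) :=
    s35lo_oneMod_of_nonunits V₁ hVB₁ _ (hV.pi V₁ hm₁) (hV.unif V₁ hm₁) (hV.loc V₁ hm₁) hone₁
  have hOne₂ : s34l1_OneMod (algebraMap O ↥(s18_chart O ({j} : Set F)) ϖ)
      (s34l1_centre V₂ hVB₂) (τ (τ f) * f ^ Q / τ f ^ (Q + 1) / V₀ ^ m) :=
    s35lo_oneMod_of_nonunits V₂ hVB₂ _ (hV.pi V₂ hm₂) (hV.unif V₂ hm₂) (hV.loc V₂ hm₂) hone₂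
  have hV₀u₁ : s34l1_IsUnitAt (s34l1_centre V₁ hVB₁) V₀ :=
    s35lo_isUnitAt_of_val V₁ hVB₁ (hV.loc V₁ hm₁) hV₀0 hV₀1
      (s35kh_inv_mem_of_sub V₁ hE₁ hE₁i hE₁0 hA₁)
  have hV₀u₂ : s34l1_IsUnitAt (s34l1_centre V₂ hVB₂) V₀ :=
    s35lo_isUnitAt_of_val V₂ hVB₂ (hV.loc V₂ hm₂) hV₀0 hV₀2
      (s35kh_inv_mem_of_sub V₂ hE₂ hE₂i hE₂0 hA₂)
  -- the point
  intro n hn hle
  haveI hnp : n.IsPrime := hn.isPrime
  have hπn : algebraMap O ↥(s18_chart O ({j} : Set F)) ϖ ∈ n := s34ci_pi_mem _ hϖ n hle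
  have hU := s35k_hU htr hfin hϖ n hπn
  have hj : j ∈ s18_chart O ({j} : Set F) := s18p_j_mem O j
  have hc₁ : s34l1_IsUnitAt n (algebraMap O F η₁ ^ a₁) :=
    s34l1_isUnitAt_zpow n (s34l1_isUnitAt_of_isUnit n
      (hη₁.map (algebraMap O ↥(s18_chart O ({j} : Set F))))) a₁
  have hc₂ : s34l1_IsUnitAt n (algebraMap O F η₂ ^ a₂) :=
    s34l1_isUnitAt_zpow n (s34l1_isUnitAt_of_isUnit n
      (hη₂.map (algebraMap O ↥(s18_chart O ({j} : Set F))))) a₂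
  have hGf := s35kh_exists_G (K := K) (⟨j, hj⟩ : ↥(s18_chart O ({j} : Set F))) htr hfin
    (algebraMap O ↥(s18_chart O ({j} : Set F)) ϖ) (s35k_hK hϖ j) n m f hf hdiv
    (fun q hq P hP hPf => hLG n hn hπn q hq P hP (hdeg P hPf))
  have hGu := s35kh_exists_G (K := K) (⟨j, hj⟩ : ↥(s18_chart O ({j} : Set F))) htr hfin
    (algebraMap O ↥(s18_chart O ({j} : Set F)) ϖ) (s35k_hK hϖ j) n m
    (τ (τ f) * f ^ Q / τ f ^ (Q + 1)) hu0 hdivu
    (fun q hq P hP hPf => hLG n hn hπn q hq P hP (hdegu P hPf))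
  have key : ∃ g : F, g ≠ 0 ∧
      s34l1_OneMod (algebraMap O ↥(s18_chart O ({j} : Set F)) ϖ) (s34l1_centre V₁ hVB₁) g ∧
      s34l1_OneMod (algebraMap O ↥(s18_chart O ({j} : Set F)) ϖ) (s34l1_centre V₂ hVB₂) g ∧
      ∃ c d : ↥(s18_chart O ({j} : Set F)), c ∉ n ∧ d ∉ n ∧
        g ^ m * algebraMap ↥(s18_chart O ({j} : Set F)) F c =
          (τ (τ f) * f ^ Q / τ f ^ (Q + 1) / V₀ ^ m) *
            algebraMap ↥(s18_chart O ({j} : Set F)) F d := by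
    rcases hdich n hn hπn with
      ⟨h1, h2, ⟨x, hx2, hx1⟩, ⟨y, hy1, hy2⟩, hglue, hfrob, ⟨t₁, ht₁, hu₁⟩, ⟨t₂, ht₂, hu₂⟩⟩ |
      ⟨h1, hθ, hBr⟩ | ⟨h2, hθ, hBr⟩
    · -- a node
      have hB₁ : s35lo_IsBranch (s34l1_centre V₁ hVB₁) n t₁ :=
        (s35lo_isBranch_or_le _ n h1 ht₁ hu₁).resolve_right (fun h => hx1 (h (h2 hx2)))
      have hB₂ : s35lo_IsBranch (s34l1_centre V₂ hVB₂) n t₂ :=
        (s35lo_isBranch_or_le _ n h2 ht₂ hu₂).resolve_right (fun h => hy2 (h (h1 hy1)))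
      have hσn : ∀ b : ↥(s18_chart O ({j} : Set F)),
          s35k_sigma τ hτ.mem hτ.symm_mem b ∈ n ↔ b ∈ n :=
        fun b => s35lo_sigma_mem_of_frob n (s35k_sigma τ hτ.mem hτ.symm_mem) Q hfrob hQ b
      obtain ⟨G, hG0, hG⟩ := hGf
      refine s35lo_node _ τ (s35k_sigma τ hτ.mem hτ.symm_mem) _ hστ hηB hσπ hϖ0 n _ _ hπ₁ hπ₂
        hDVR₁ hDVR₂ hσp₁ hσp₂ Q hQ hfrob t₁ t₂ hB₁ hB₂ hglue
        {q | s34l1_IsHor (algebraMap O ↥(s18_chart O ({j} : Set F)) ϖ) n q}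
        (fun q hq => hq.prime)
        (fun q hq => s35kh_isHor_comap _ _ _ hηB hσπ n hσn hq) ?_ m hm f G hf hG0
        (fun q hq => hG q hq) _ _ X₁ X₂ V₀ hc₁ hc₂ hred₁ hred₂ happr₁ happr₂
      intro x hx hx1' hx2' hxq
      obtain ⟨y', z', hy', hz', h⟩ := hU x (fun 𝔮 h𝔮 hle' h0 hht => by
        by_cases hπ𝔮 : algebraMap O ↥(s18_chart O ({j} : Set F)) ϖ ∈ 𝔮
        · rcases hcen 𝔮 (s35k_centres_all hV 𝔮 h𝔮 hπ𝔮 hht) with rfl | rfl
          · exact hx1'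
          · exact hx2'
        · exact hxq 𝔮 ⟨h𝔮, hle', h0, hπ𝔮, hht⟩)
      exact ⟨y', z', hy', hz', h⟩
    · -- a point of the first branch only
      obtain ⟨G, hG0, hG⟩ := hGu
      refine s35lo_smooth' _ hϖ0 n _ _ hπ₁ hπ₂ hDVR₁ hDVR₂ h1 hBr hθ
        {q | s34l1_IsHor (algebraMap O ↥(s18_chart O ({j} : Set F)) ϖ) n q}
        (fun q hq => hq.prime) (fun q hq => hq.notMem) ?_ m hm _ V₀ G hG0
        (fun q hq => hG q hq) hV₀u₁ hOne₁ hOne₂
      obtain ⟨θ, hθ2, hθn⟩ := hθ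
      intro x hx hx1' hxq
      obtain ⟨y', z', hy', hz', h⟩ := hU x (fun 𝔮 h𝔮 hle' h0 hht => by
        by_cases hπ𝔮 : algebraMap O ↥(s18_chart O ({j} : Set F)) ϖ ∈ 𝔮
        · rcases hcen 𝔮 (s35k_centres_all hV 𝔮 h𝔮 hπ𝔮 hht) with rfl | rfl
          · exact hx1'
          · exfalso
            apply hnp.ne_top
            rw [Ideal.eq_top_iff_one]
            have e : (1 : ↥(s18_chart O ({j} : Set F))) = θ - (θ - 1) := by ring
            rw [e]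
            exact n.sub_mem (hle' hθ2) hθn
        · exact hxq 𝔮 ⟨h𝔮, hle', h0, hπ𝔮, hht⟩)
      exact ⟨y', z', hy', hz', h⟩
    · -- a point of the second branch only
      obtain ⟨G, hG0, hG⟩ := hGu
      have := s35lo_smooth' _ hϖ0 n _ _ hπ₂ hπ₁ hDVR₂ hDVR₁ h2 hBr hθ
        {q | s34l1_IsHor (algebraMap O ↥(s18_chart O ({j} : Set F)) ϖ) n q}
        (fun q hq => hq.prime) (fun q hq => hq.notMem) ?_ m hm _ V₀ G hG0
        (fun q hq => hG q hq) hV₀u₂ hOne₂ hOne₁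
      · obtain ⟨g, hg0, hg2, hg1, hcd⟩ := this
        exact ⟨g, hg0, hg1, hg2, hcd⟩
      obtain ⟨θ, hθ1, hθn⟩ := hθ
      intro x hx hx2' hxq
      obtain ⟨y', z', hy', hz', h⟩ := hU x (fun 𝔮 h𝔮 hle' h0 hht => by
        by_cases hπ𝔮 : algebraMap O ↥(s18_chart O ({j} : Set F)) ϖ ∈ 𝔮
        · rcases hcen 𝔮 (s35k_centres_all hV 𝔮 h𝔮 hπ𝔮 hht) with rfl | rfl
          · exfalso
            apply hnp.ne_top
            rw [Ideal.eq_top_iff_one]
            have e : (1 : ↥(s18_chart O ({j} : Set F))) = θ - (θ - 1) := by ring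
            rw [e]
            exact n.sub_mem (hle' hθ1) hθn
          · exact hx2'
        · exact hxq 𝔮 ⟨h𝔮, hle', h0, hπ𝔮, hht⟩)
      exact ⟨y', z', hy', hz', h⟩
  obtain ⟨g, hg0, hg1, hg2, c, d, hc, hd, hcd⟩ := key
  refine ⟨g, hg0, s35k_gauss K hϖ hV g (fun q hq => ?_), c, d, hc, hd, hcd⟩
  rcases hcen q hq with rfl | rfl
  · exact hg1
  · exact hg2

end Fermat.Agent.S35
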