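/-
S35, (NF-K), the divisor of the Frobenius difference (owner: helper29).  Prefix `s35k_`.

For a semilinear automorphism `g` of `F / K` and `f ≠ 0`:

  `u = g(g f) · f^b / (g f)^a`

has `P.ord u = (g⁻¹ g⁻¹ P).ord f + b · P.ord f - a · (g⁻¹ P).ord f`; hence every order of `u` is
divisible by `m` if every order of `f` is, and all zeros and poles of `u` have degree `1` if all
zeros and poles of `f` have.
-/
import Mathlib
import Fermat.Prelude.Def_AlgebraicCurve_BaseChangeGalois
import Fermat.Agent.S35.NfDefs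

set_option autoImplicit false

open AlgebraicCurve ModularCurve

noncomputable section

namespace Fermat.Agent.S35

section abs

variable {K F : Type*} [Field K] [Field F] [Algebra K F]

/-- `P.ord (g f) = (g⁻¹ P).ord f`. -/
theorem s35k_ord_smul (g : SemilinearAut K F) (P : Place K F) (f : F) :
    P.ord (g • f) = (g⁻¹ • P).ord f := by
  have h := SemilinearAut.ord_smul g (g⁻¹ • P) f
  rwa [smul_inv_smul] at h

theorem s35k_smul_ne_zero (g : SemilinearAut K F) {f : F} (hf : f ≠ 0) : g • f ≠ 0 := by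
  intro h
  apply hf
  have := congrArg (fun x => g⁻¹ • x) h
  simpa using this

/-- The orders of `u = g(g f) · f^b / (g f)^a`. -/
theorem s35k_ord_fd (g : SemilinearAut K F) (a b : ℕ) {f : F} (hf : f ≠ 0) (P : Place K F) :
    P.ord ((g • (g • f)) * f ^ b / (g • f) ^ a) =
      (g⁻¹ • (g⁻¹ • P)).ord f + b * P.ord f - a * (g⁻¹ • P).ord f := by
  have h1 : g • f ≠ 0 := s35k_smul_ne_zero g hf
  have h2 : g • (g • f) ≠ 0 := s35k_smul_ne_zero g h1
  have hpow : ∀ (x : F) (k : ℕ), P.ord (x ^ k) = k * P.ord x := fun x k => by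
    rw [← zpow_natCast, P.ord_zpow]
  rw [div_eq_mul_inv, P.ord_mul (mul_ne_zero h2 (pow_ne_zero _ hf))
    (inv_ne_zero (pow_ne_zero _ h1)), P.ord_mul h2 (pow_ne_zero _ hf), P.ord_inv, hpow,
    hpow, s35k_ord_smul, s35k_ord_smul, s35k_ord_smul]
  ring

/-- Divisibility of the orders. -/
theorem s35k_dvd_ord_fd (g : SemilinearAut K F) (a b : ℕ) {f : F} (hf : f ≠ 0) (m : ℕ)
    (hdiv : ∀ P : Place K F, (m : ℤ) ∣ P.ord f) (P : Place K F) :
    (m : ℤ) ∣ P.ord ((g • (g • f)) * f ^ b / (g • f) ^ a) := by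
  rw [s35k_ord_fd g a b hf P]
  exact dvd_sub (dvd_add (hdiv _) (Dvd.dvd.mul_left (hdiv _) _)) (Dvd.dvd.mul_left (hdiv _) _)

/-- The zeros and poles have degree one. -/
theorem s35k_deg_fd (g : SemilinearAut K F) (a b : ℕ) {f : F} (hf : f ≠ 0)
    (hdeg : ∀ P : Place K F, P.ord f ≠ 0 → P.deg = 1) (P : Place K F)
    (hP : P.ord ((g • (g • f)) * f ^ b / (g • f) ^ a) ≠ 0) : P.deg = 1 := by
  rw [s35k_ord_fd g a b hf P] at hP
  by_cases h0 : P.ord f = 0
  · by_cases h1 : (g⁻¹ • P).ord f = 0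
    · by_cases h2 : (g⁻¹ • (g⁻¹ • P)).ord f = 0
      · rw [h0, h1, h2] at hP
        simp at hP
      · have := hdeg _ h2
        rwa [SemilinearAut.deg_smul, SemilinearAut.deg_smul] at this
    · have := hdeg _ h1
      rwa [SemilinearAut.deg_smul] at this
  · exact hdeg P h0

end abs

section model

variable {L : Type*} [Field L] [Algebra ℚ L]

/-- The orders of the Frobenius difference are divisible by `m`. -/
theorem s35k_fd_dvd (N q : ℕ) (s : L ≃ₐ[ℚ] L)
    {f : ↥(laurentBaseChange L (modularFunctionFieldFull N))} (hf : f ≠ 0) (m : ℕ)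
    (hdiv : ∀ P : Place L ↥(laurentBaseChange L (modularFunctionFieldFull N)),
      (m : ℤ) ∣ P.ord f)
    (P : Place L ↥(laurentBaseChange L (modularFunctionFieldFull N))) :
    (m : ℤ) ∣ P.ord (s35_fd N q s f) :=
  s35k_dvd_ord_fd (arithmeticGalois (modularFunctionFieldFull N) s) (q ^ 2 + 1) (q ^ 2) hf m
    hdiv P

/-- The zeros and poles of the Frobenius difference have degree one. -/
theorem s35k_fd_deg (N q : ℕ) (s : L ≃ₐ[ℚ] L)
    {f : ↥(laurentBaseChange L (modularFunctionFieldFull N))} (hf : f ≠ 0)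
    (hdeg : ∀ P : Place L ↥(laurentBaseChange L (modularFunctionFieldFull N)),
      P.ord f ≠ 0 → P.deg = 1)
    (P : Place L ↥(laurentBaseChange L (modularFunctionFieldFull N)))
    (hP : P.ord (s35_fd N q s f) ≠ 0) : P.deg = 1 :=
  s35k_deg_fd (arithmeticGalois (modularFunctionFieldFull N) s) (q ^ 2 + 1) (q ^ 2) hf hdeg P hP

end model

end Fermat.Agent.S35
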