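/-
S35, leaf [NF-NORM] = (E2), part 2 (owner: helper7).  Prefix `s35nn_`.

THE TWO-SERIES NORM CONGRUENCE (formal series only).  `O` a local ring with residue field `κ` of
characteristic `q`, `K ⊇ O`, `L ⊇ K` a field with a valuation subring `A` dominating `O` and
`ζ ∈ L`, `ζ^q = 1`.  If `n, x, y ∈ K((t))` satisfy, in `L((t))`,

  `n(t^q) = x(t^q) · ∏_{i<q} y(ζ^i t)`

and `x = ϖ^a a₁/s₁`, `y = ϖ^b a₂/s₂`, `n = ϖ^e c/d` with integral series `a₁, s₁, a₂, s₂, c, d`
of nonzero reduction, then

  `e = a + q b`   and   `c̄(t^q) s̄₁(t^q) s̄₂^q = ā₁(t^q) ā₂^q d̄(t^q)`   in `κ((t))`.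
-/
import Mathlib
import Fermat.Prelude.Def_ModularCurve_X0ModL
import Fermat.Agent.S37.EsTwist
import Fermat.Agent.S37.EsNormCong

set_option autoImplicit false
set_option linter.style.haveILetI false
set_option linter.unusedSectionVars false

open ModularCurve IsLocalRing
open Fermat.Agent.S37

noncomputable section

namespace Fermat.Agent.S35

section Series

variable {R : Type*} [CommRing R]

theorem s35nn_tw_C (c : Rˣ) (r : R) : s37es_tw c (HahnSeries.C r : LaurentSeries R) =
    HahnSeries.C r := by
  rw [HahnSeries.C_apply, s37es_tw_single, zpow_zero, Units.val_one, one_mul]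

theorem s35nn_coeffMap_C {S : Type*} [CommRing S] (f : R →+* S) (r : R) :
    coeffMap f (HahnSeries.C r : LaurentSeries R) = HahnSeries.C (f r) := by
  rw [HahnSeries.C_apply, HahnSeries.C_apply, coeffMap_single]

theorem s35nn_coeffMap_injective {S : Type*} [CommRing S] (f : R →+* S)
    (hf : Function.Injective f) : Function.Injective (coeffMap f) := by
  intro x y h
  ext n
  apply hf
  have := congrArg (fun z : LaurentSeries S => z.coeff n) h
  simpa using this

end Series

section Key

variable {L : Type*} [Field L] (A : ValuationSubring L)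

/-- If `π^k P = Q` with integral series `P`, `Q`, `π` a non-unit and `Q̄ ≠ 0`, then `k = 0`. -/
theorem s35nn_key (π : A) (hπ : π ∈ maximalIdeal A) (k : ℕ) (P Q : LaurentSeries A)
    (hQ : coeffMap (residue A) Q ≠ 0)
    (h : (HahnSeries.C ((π : A) : L) : LaurentSeries L) ^ k * coeffMap A.subtype P =
      coeffMap A.subtype Q) : k = 0 := by
  by_contra hk
  have h1 : coeffMap A.subtype ((HahnSeries.C π : LaurentSeries A) ^ k * P) =
      coeffMap A.subtype Q := by
    rw [map_mul, map_pow, s35nn_coeffMap_C]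
    exact h
  have h2 : (HahnSeries.C π : LaurentSeries A) ^ k * P = Q :=
    s35nn_coeffMap_injective A.subtype Subtype.val_injective h1
  apply hQ
  rw [← h2, map_mul, map_pow, s35nn_coeffMap_C, (residue_eq_zero_iff _).mpr hπ]
  rw [map_zero, zero_pow hk, zero_mul]

/-- The exponents and the series agree. -/
theorem s35nn_key2 (π : A) (hπ : π ∈ maximalIdeal A) (hπ0 : ((π : A) : L) ≠ 0) (e e' : ℤ)
    (P Q : LaurentSeries A)
    (hP : coeffMap (residue A) P ≠ 0) (hQ : coeffMap (residue A) Q ≠ 0)
    (h : (HahnSeries.C ((π : A) : L) : LaurentSeries L) ^ e * coeffMap A.subtype P =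
      (HahnSeries.C ((π : A) : L) : LaurentSeries L) ^ e' * coeffMap A.subtype Q) :
    e = e' ∧ P = Q := by
  have hC0 : (HahnSeries.C ((π : A) : L) : LaurentSeries L) ≠ 0 := by
    intro h0
    apply hπ0
    have := congrArg (fun z : LaurentSeries L => z.coeff 0) h0
    simpa using this
  have hee : e = e' := by
    rcases le_total e' e with hle | hle
    · obtain ⟨k, hk⟩ := Int.le.dest hle
      have h1 : (HahnSeries.C ((π : A) : L) : LaurentSeries L) ^ k * coeffMap A.subtype P =
          coeffMap A.subtype Q := by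
        apply mul_left_cancel₀ (zpow_ne_zero e' hC0)
        rw [← h, ← mul_assoc, ← zpow_natCast, ← zpow_add₀ hC0, hk]
      have := s35nn_key A π hπ k P Q hQ h1
      subst this
      simpa using hk.symm
    · obtain ⟨k, hk⟩ := Int.le.dest hle
      have h1 : (HahnSeries.C ((π : A) : L) : LaurentSeries L) ^ k * coeffMap A.subtype Q =
          coeffMap A.subtype P := by
        apply mul_left_cancel₀ (zpow_ne_zero e hC0)
        rw [h, ← mul_assoc, ← zpow_natCast, ← zpow_add₀ hC0, hk]
      have := s35nn_key A π hπ k Q P hP h1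
      subst this
      simpa using hk
  refine ⟨hee, ?_⟩
  subst hee
  exact s35nn_coeffMap_injective A.subtype Subtype.val_injective
    (mul_left_cancel₀ (zpow_ne_zero e hC0) h)

end Key

section Cong

variable {O K L : Type*} [CommRing O] [IsLocalRing O] [Field K] [Field L] [Algebra O K]
  [Algebra K L] [Algebra O L] [IsScalarTower O K L]

/-- **[NF-NORM], the two-series congruence.** -/
theorem s35nn_cong (A : ValuationSubring L) (hOA : ∀ a : O, algebraMap O L a ∈ A)
    (hloc : ∀ a : O, a ∈ maximalIdeal O →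
      (⟨algebraMap O L a, hOA a⟩ : A) ∈ maximalIdeal A)
    (q : ℕ) [NeZero q] (hq : q.Prime) (hqO : (q : O) ∈ maximalIdeal O)
    (ζ : Lˣ) (hζ : ζ ^ q = 1)
    (ϖ : O) (hϖ : ϖ ∈ maximalIdeal O) (hϖ0 : algebraMap O L ϖ ≠ 0)
    (n x y : LaurentSeries K)
    (hn : qExpand L q (coeffMap (algebraMap K L) n) =
      qExpand L q (coeffMap (algebraMap K L) x) *
        ∏ i ∈ Finset.range q, s37es_tw (ζ ^ i) (coeffMap (algebraMap K L) y))
    (a b e : ℤ) (a₁ s₁ a₂ s₂ c d : LaurentSeries O)
    (ha₁ : coeffMap (residue O) a₁ ≠ 0) (hs₁ : coeffMap (residue O) s₁ ≠ 0)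
    (ha₂ : coeffMap (residue O) a₂ ≠ 0) (hs₂ : coeffMap (residue O) s₂ ≠ 0)
    (hc : coeffMap (residue O) c ≠ 0) (hd : coeffMap (residue O) d ≠ 0)
    (hx : x * coeffMap (algebraMap O K) s₁ =
      (HahnSeries.C (algebraMap O K ϖ) : LaurentSeries K) ^ a * coeffMap (algebraMap O K) a₁)
    (hy : y * coeffMap (algebraMap O K) s₂ =
      (HahnSeries.C (algebraMap O K ϖ) : LaurentSeries K) ^ b * coeffMap (algebraMap O K) a₂)
    (hnn : n * coeffMap (algebraMap O K) d =
      (HahnSeries.C (algebraMap O K ϖ) : LaurentSeries K) ^ e * coeffMap (algebraMap O K) c) :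
    e = a + q * b ∧
      qExpand (ResidueField O) q (coeffMap (residue O) c) *
          qExpand (ResidueField O) q (coeffMap (residue O) s₁) * coeffMap (residue O) s₂ ^ q =
        qExpand (ResidueField O) q (coeffMap (residue O) a₁) * coeffMap (residue O) a₂ ^ q *
          qExpand (ResidueField O) q (coeffMap (residue O) d) := by
  classical
  -- the local homomorphism `O → A`
  let φ : O →+* A := (algebraMap O L).codRestrict A.toSubring hOA
  have hφ : (A.subtype : A →+* L).comp φ = algebraMap O L := RingHom.ext fun _ => rfl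
  haveI hφloc : IsLocalHom φ := by
    refine ⟨fun r hr => ?_⟩
    by_contra hr'
    have h1 : r ∈ maximalIdeal O := (mem_maximalIdeal _).mpr hr'
    exact (mem_maximalIdeal _).mp (hloc r h1) hr
  let ι : ResidueField O →+* ResidueField A := ResidueField.map φ
  have hι : ι.comp (residue O) = (residue A).comp φ := RingHom.ext fun _ => rfl
  have hιinj : Function.Injective ι := ι.injective
  have hqA : (q : A) ∈ maximalIdeal A := by
    have := hloc (q : O) hqO
    have h2 : (⟨algebraMap O L (q : O), hOA _⟩ : A) = (q : A) := Subtype.ext (by simp)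
    rwa [h2] at this
  -- the root of unity as a unit of `A`
  have hζL : (ζ : L) ^ q = 1 := by rw [← Units.val_pow_eq_pow_val, hζ, Units.val_one]
  have hζA : (ζ : L) ∈ A := s37ec_mem_of_pow_eq_one A q hζL
  have hζA1 : (⟨(ζ : L), hζA⟩ : A) ^ q = 1 := Subtype.ext hζL
  let u : Aˣ := Units.ofPowEqOne (⟨(ζ : L), hζA⟩ : A) q hζA1 (NeZero.ne q)
  have huL : Units.map (A.subtype : A →* L) u = ζ := Units.ext rfl
  have hures : ∀ i : ℕ, residue A ((u ^ i : Aˣ) : A) = 1 := by
    intro i
    rw [Units.val_pow_eq_pow_val, map_pow]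
    have : residue A (u : A) = 1 := s37ec_residue_eq_one A q hq hqA _ hζA1
    rw [this, one_pow]
  -- changes of coefficients
  have hcL : ∀ s : LaurentSeries O, coeffMap (algebraMap K L) (coeffMap (algebraMap O K) s) =
      coeffMap A.subtype (coeffMap φ s) := by
    intro s
    rw [coeffMap_coeffMap, coeffMap_coeffMap, hφ, ← IsScalarTower.algebraMap_eq]
  have hred : ∀ s : LaurentSeries O, coeffMap (residue A) (coeffMap φ s) =
      coeffMap ι (coeffMap (residue O) s) := by
    intro s
    rw [coeffMap_coeffMap, coeffMap_coeffMap, hι]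
  have hCL : coeffMap (algebraMap K L) (HahnSeries.C (algebraMap O K ϖ) : LaurentSeries K) =
      HahnSeries.C (algebraMap O L ϖ) := by
    rw [s35nn_coeffMap_C, ← IsScalarTower.algebraMap_apply]
  set P : LaurentSeries L := HahnSeries.C (algebraMap O L ϖ) with hPdef
  -- the three relations in `L((t))`
  have hx' : coeffMap (algebraMap K L) x * coeffMap A.subtype (coeffMap φ s₁) =
      P ^ a * coeffMap A.subtype (coeffMap φ a₁) := by
    rw [← hcL, ← hcL, ← map_mul, hx, map_mul, map_zpow₀, hCL]
  have hy' : coeffMap (algebraMap K L) y * coeffMap A.subtype (coeffMap φ s₂) =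
      P ^ b * coeffMap A.subtype (coeffMap φ a₂) := by
    rw [← hcL, ← hcL, ← map_mul, hy, map_mul, map_zpow₀, hCL]
  have hn' : coeffMap (algebraMap K L) n * coeffMap A.subtype (coeffMap φ d) =
      P ^ e * coeffMap A.subtype (coeffMap φ c) := by
    rw [← hcL, ← hcL, ← map_mul, hnn, map_mul, map_zpow₀, hCL]
  have hqP : qExpand L q P = P := by rw [hPdef, qExpand_C]
  have htwP : ∀ i : ℕ, s37es_tw (ζ ^ i) P = P := fun i => by rw [hPdef, s35nn_tw_C]
  -- the integral series
  set XA : LaurentSeries A := qExpand A q (coeffMap φ c) * qExpand A q (coeffMap φ s₁) *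
    ∏ i ∈ Finset.range q, s37es_tw (u ^ i) (coeffMap φ s₂) with hXA
  set YA : LaurentSeries A := qExpand A q (coeffMap φ a₁) *
    (∏ i ∈ Finset.range q, s37es_tw (u ^ i) (coeffMap φ a₂)) * qExpand A q (coeffMap φ d) with hYA
  have htwsub : ∀ (i : ℕ) (s : LaurentSeries A),
      coeffMap A.subtype (s37es_tw (u ^ i) s) = s37es_tw (ζ ^ i) (coeffMap A.subtype s) := by
    intro i s
    rw [s37es_tw_coeffMap, map_pow, huL]
  have hsubX : coeffMap A.subtype XA =
      qExpand L q (coeffMap A.subtype (coeffMap φ c)) *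
        qExpand L q (coeffMap A.subtype (coeffMap φ s₁)) *
        ∏ i ∈ Finset.range q, s37es_tw (ζ ^ i) (coeffMap A.subtype (coeffMap φ s₂)) := by
    rw [hXA, map_mul, map_mul, coeffMap_qExpand, coeffMap_qExpand, map_prod]
    congr 1
    exact Finset.prod_congr rfl fun i _ => htwsub i _
  have hsubY : coeffMap A.subtype YA =
      qExpand L q (coeffMap A.subtype (coeffMap φ a₁)) *
        (∏ i ∈ Finset.range q, s37es_tw (ζ ^ i) (coeffMap A.subtype (coeffMap φ a₂))) *
        qExpand L q (coeffMap A.subtype (coeffMap φ d)) := by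
    rw [hYA, map_mul, map_mul, coeffMap_qExpand, coeffMap_qExpand, map_prod]
    congr 2
    exact Finset.prod_congr rfl fun i _ => htwsub i _
  have htwred : ∀ (i : ℕ) (s : LaurentSeries A),
      coeffMap (residue A) (s37es_tw (u ^ i) s) = coeffMap (residue A) s := fun i s =>
    s37es_tw_coeffMap_of_eq_one (residue A) (u ^ i) (hures i) s
  have hredX : coeffMap (residue A) XA =
      coeffMap ι (qExpand (ResidueField O) q (coeffMap (residue O) c) *
        qExpand (ResidueField O) q (coeffMap (residue O) s₁) * coeffMap (residue O) s₂ ^ q) := by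
    rw [hXA, map_mul, map_mul, coeffMap_qExpand, coeffMap_qExpand, map_prod,
      Finset.prod_congr rfl (fun i _ => htwred i (coeffMap φ s₂)), Finset.prod_const,
      Finset.card_range, hred, hred, hred, map_mul, map_mul, map_pow, coeffMap_qExpand,
      coeffMap_qExpand]
  have hredY : coeffMap (residue A) YA =
      coeffMap ι (qExpand (ResidueField O) q (coeffMap (residue O) a₁) *
        coeffMap (residue O) a₂ ^ q * qExpand (ResidueField O) q (coeffMap (residue O) d)) := by
    rw [hYA, map_mul, map_mul, coeffMap_qExpand, coeffMap_qExpand, map_prod,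
      Finset.prod_congr rfl (fun i _ => htwred i (coeffMap φ a₂)), Finset.prod_const,
      Finset.card_range, hred, hred, hred, map_mul, map_mul, map_pow, coeffMap_qExpand,
      coeffMap_qExpand]
  have hιinj' := s35nn_coeffMap_injective ι hιinj
  have hqinj := qExpand_injective (R := ResidueField O) q
  have hne : ∀ s : LaurentSeries O, coeffMap (residue O) s ≠ 0 →
      qExpand (ResidueField O) q (coeffMap (residue O) s) ≠ 0 := by
    intro s hs h0
    exact hs (hqinj (h0.trans (map_zero _).symm))
  have hX0 : coeffMap (residue A) XA ≠ 0 := by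
    rw [hredX]
    intro h0
    have := hιinj' (h0.trans (map_zero _).symm)
    exact mul_ne_zero (mul_ne_zero (hne c hc) (hne s₁ hs₁)) (pow_ne_zero q hs₂) this
  have hY0 : coeffMap (residue A) YA ≠ 0 := by
    rw [hredY]
    intro h0
    have := hιinj' (h0.trans (map_zero _).symm)
    exact mul_ne_zero (mul_ne_zero (hne a₁ ha₁) (pow_ne_zero q ha₂)) (hne d hd) this
  -- the identity `P^e X = P^(a + q b) Y`
  have hprod : (∏ i ∈ Finset.range q, s37es_tw (ζ ^ i) (coeffMap (algebraMap K L) y)) *
      ∏ i ∈ Finset.range q, s37es_tw (ζ ^ i) (coeffMap A.subtype (coeffMap φ s₂)) =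
      P ^ ((q : ℤ) * b) *
        ∏ i ∈ Finset.range q, s37es_tw (ζ ^ i) (coeffMap A.subtype (coeffMap φ a₂)) := by
    rw [← Finset.prod_mul_distrib]
    have : ∀ i ∈ Finset.range q, s37es_tw (ζ ^ i) (coeffMap (algebraMap K L) y) *
        s37es_tw (ζ ^ i) (coeffMap A.subtype (coeffMap φ s₂)) =
        P ^ b * s37es_tw (ζ ^ i) (coeffMap A.subtype (coeffMap φ a₂)) := by
      intro i _
      rw [← map_mul, hy', map_mul, map_zpow₀, htwP]
    rw [Finset.prod_congr rfl this, Finset.prod_mul_distrib, Finset.prod_const,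
      Finset.card_range, ← zpow_natCast, ← zpow_mul, mul_comm b]
  have hxq : qExpand L q (coeffMap (algebraMap K L) x) *
      qExpand L q (coeffMap A.subtype (coeffMap φ s₁)) =
      P ^ a * qExpand L q (coeffMap A.subtype (coeffMap φ a₁)) := by
    rw [← map_mul, hx', map_mul, map_zpow₀, hqP]
  have hnq : qExpand L q (coeffMap (algebraMap K L) n) *
      qExpand L q (coeffMap A.subtype (coeffMap φ d)) =
      P ^ e * qExpand L q (coeffMap A.subtype (coeffMap φ c)) := by
    rw [← map_mul, hn', map_mul, map_zpow₀, hqP]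
  have hP0 : P ≠ 0 := by
    rw [hPdef]
    intro h0
    apply hϖ0
    have := congrArg (fun z : LaurentSeries L => z.coeff 0) h0
    simpa using this
  have hmain : P ^ e * coeffMap A.subtype XA = P ^ (a + (q : ℤ) * b) * coeffMap A.subtype YA := by
    rw [hsubX, hsubY, zpow_add₀ hP0]
    calc P ^ e * (qExpand L q (coeffMap A.subtype (coeffMap φ c)) *
          qExpand L q (coeffMap A.subtype (coeffMap φ s₁)) *
          ∏ i ∈ Finset.range q, s37es_tw (ζ ^ i) (coeffMap A.subtype (coeffMap φ s₂)))
        = (P ^ e * qExpand L q (coeffMap A.subtype (coeffMap φ c))) *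
          qExpand L q (coeffMap A.subtype (coeffMap φ s₁)) *
          ∏ i ∈ Finset.range q, s37es_tw (ζ ^ i) (coeffMap A.subtype (coeffMap φ s₂)) := by
          ring
      _ = (qExpand L q (coeffMap (algebraMap K L) x) *
            qExpand L q (coeffMap A.subtype (coeffMap φ s₁))) *
          ((∏ i ∈ Finset.range q, s37es_tw (ζ ^ i) (coeffMap (algebraMap K L) y)) *
            ∏ i ∈ Finset.range q, s37es_tw (ζ ^ i) (coeffMap A.subtype (coeffMap φ s₂))) *
          qExpand L q (coeffMap A.subtype (coeffMap φ d)) := by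
          rw [← hnq, hn]
          ring
      _ = P ^ a * P ^ ((q : ℤ) * b) *
          (qExpand L q (coeffMap A.subtype (coeffMap φ a₁)) *
            (∏ i ∈ Finset.range q, s37es_tw (ζ ^ i) (coeffMap A.subtype (coeffMap φ a₂))) *
            qExpand L q (coeffMap A.subtype (coeffMap φ d))) := by
          rw [hxq, hprod]
          ring
  have hπA : φ ϖ ∈ maximalIdeal A := hloc ϖ hϖ
  obtain ⟨h1, h2⟩ := s35nn_key2 A (φ ϖ) hπA hϖ0 e (a + (q : ℤ) * b) XA YA hX0 hY0 hmain
  refine ⟨h1, ?_⟩
  apply hιinj'
  rw [← hredX, ← hredY, h2]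

end Cong

end Fermat.Agent.S35
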