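/-
S35, leaf [NF-NORM] = (E2), part 1 (owner: helper7).  Prefix `s35nn_`.

THE NORM FORMULA OVER AN ARBITRARY FIELD `K` OF CHARACTERISTIC `0`.  `F = F_K(M)`,
`F' = F_K(M q)`, `α = heckeAlphaBar` (inclusion), `β = heckeBetaBar` (`t ↦ t^q`), `q ∤ M` prime,
`W` an endomorphism of `F'` with `W ∘ α = β`, `W ∘ β = α`, `L ⊇ K` a field with a primitive
`q`-th root of unity `ζ`.  Then in `L((t))`

  `N_α(x)(t^q) = x(t^q) · ∏_{i<q} (W x)(ζ^i t)`      (`s35nn_norm`).

This is S37 `s37es_nm_norm` (over `Q̄`) with the coefficient field `K` and the target `L((t))`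
separated; the degree `[F' : α F] = q + 1` is S34 [DEG-K] (`s34dk_finrank`).
-/
import Mathlib
import Fermat.Prelude.Def_ModularCurve_HeckeOperator
import Fermat.Prelude.Def_ModularCurve_X0ModL
import Fermat.Agent.S37.EsNorm
import Fermat.Agent.S34.DegK

set_option autoImplicit false
set_option linter.style.haveILetI false
set_option linter.unusedSectionVars false

open ModularCurve AlgebraicCurve IntermediateField
open Fermat.Agent.S18 Fermat.Agent.S24 Fermat.Agent.S37 Fermat.Agent.S34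

noncomputable section

namespace Fermat.Agent.S35

section Degree

variable (K : Type) [Field K] [CharZero K] (M q : ℕ) [NeZero M] [NeZero q]

theorem s35nn_alpha_j [NeZero (M * q)] : heckeAlphaBar K M q (s18_j K M) = s18_j K (M * q) :=
  Subtype.ext rfl

/-- `[F_K(M q) : α F_K(M)] = q + 1`. -/
theorem s35nn_finrank (hq : q.Prime) (hqM : ¬ q ∣ M) :
    (letI := algebraAlong (heckeAlphaBar K M q);
      Module.finrank ↥(s18_F K M) ↥(s18_F K (M * q))) = q + 1 := by
  haveI : NeZero (M * q) := ⟨Nat.mul_ne_zero (NeZero.ne M) (NeZero.ne q)⟩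
  letI : Algebra ↥(s18_F K M) ↥(s18_F K (M * q)) := algebraAlong (heckeAlphaBar K M q)
  have hmap : (K⟮s18_j K M⟯).map (heckeAlphaBar K M q) = K⟮s18_j K (M * q)⟯ := by
    rw [IntermediateField.adjoin_map, Set.image_singleton, s35nn_alpha_j]
  letI : Algebra ↥K⟮s18_j K M⟯ ↥(s18_F K (M * q)) :=
    ((heckeAlphaBar K M q).toRingHom.comp (algebraMap ↥K⟮s18_j K M⟯ ↥(s18_F K M))).toAlgebra
  haveI : IsScalarTower ↥K⟮s18_j K M⟯ ↥(s18_F K M) ↥(s18_F K (M * q)) :=
    IsScalarTower.of_algebraMap_eq fun _ => rfl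
  have h1 := Module.finrank_mul_finrank ↥K⟮s18_j K M⟯ ↥(s18_F K M) ↥(s18_F K (M * q))
  have h2 : Module.finrank ↥K⟮s18_j K M⟯ ↥(s18_F K (M * q)) =
      Module.finrank ↥K⟮s18_j K (M * q)⟯ ↥(s18_F K (M * q)) :=
    Algebra.finrank_eq_of_equiv_equiv
      (((K⟮s18_j K M⟯).equivMap (heckeAlphaBar K M q)).toRingEquiv.trans
        (IntermediateField.equivOfEq hmap).toRingEquiv) (RingEquiv.refl _)
      (by ext x; rfl)
  rw [h2, s34dk_finrank, s34dk_finrank,
    Comb.dedekindPsi_mul ((Nat.Prime.coprime_iff_not_dvd hq).2 hqM).symm] at h1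
  have h3 : ModularCurve.dedekindPsi q = q + 1 := by
    have := Comb.dedekindPsi_prime_pow hq 0
    simpa using this
  rw [h3] at h1
  have hpos := Fermat.Agent.S18.s18d_psi_pos M
  exact Nat.eq_of_mul_eq_mul_left hpos h1

end Degree

section Embeddings

variable (K L : Type) [Field K] [CharZero K] [Field L] [Algebra K L]
  (M q : ℕ) [NeZero M] [NeZero q]

/-- The embedding `F_K(N) → L((t))` (change of coefficients). -/
def s35nn_emb (N : ℕ) : ↥(s18_F K N) →+* LaurentSeries L :=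
  (coeffMap (algebraMap K L)).comp (s18_F K N).val.toRingHom

theorem s35nn_emb_apply (N : ℕ) (y : ↥(s18_F K N)) :
    s35nn_emb K L N y = coeffMap (algebraMap K L) (y : LaurentSeries K) := rfl

/-- The embedding `F_K(M) → L((t))`, `y ↦ y(t^q)`. -/
def s35nn_iota : ↥(s18_F K M) →+* LaurentSeries L :=
  (qExpand L q).comp (s35nn_emb K L M)

theorem s35nn_iota_apply (y : ↥(s18_F K M)) :
    s35nn_iota K L M q y = qExpand L q (coeffMap (algebraMap K L) (y : LaurentSeries K)) := rfl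

/-- The `q + 1` embeddings of `F_K(M q)` into `L((t))`. -/
def s35nn_sigma (W : ↥(s18_F K (M * q)) →ₐ[K] ↥(s18_F K (M * q))) (ζ : Lˣ) :
    Option (Fin q) → (↥(s18_F K (M * q)) →+* LaurentSeries L)
  | none => (qExpand L q).comp (s35nn_emb K L (M * q))
  | some i => ((s37es_tw (ζ ^ (i : ℕ))).toRingHom.comp (s35nn_emb K L (M * q))).comp W.toRingHom

theorem s35nn_sigma_none (W : ↥(s18_F K (M * q)) →ₐ[K] ↥(s18_F K (M * q))) (ζ : Lˣ)
    (x : ↥(s18_F K (M * q))) :
    s35nn_sigma K L M q W ζ none x =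
      qExpand L q (coeffMap (algebraMap K L) (x : LaurentSeries K)) := rfl

theorem s35nn_sigma_some (W : ↥(s18_F K (M * q)) →ₐ[K] ↥(s18_F K (M * q))) (ζ : Lˣ)
    (i : Fin q) (x : ↥(s18_F K (M * q))) :
    s35nn_sigma K L M q W ζ (some i) x =
      s37es_tw (ζ ^ (i : ℕ))
        (coeffMap (algebraMap K L) ((W x : ↥(s18_F K (M * q))) : LaurentSeries K)) := rfl

theorem s35nn_sigma_commutes (W : ↥(s18_F K (M * q)) →ₐ[K] ↥(s18_F K (M * q)))
    (hWα : ∀ f : ↥(s18_F K M), W (heckeAlphaBar K M q f) = heckeBetaBar K M q f)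
    (ζ : Lˣ) (hζ : ζ ^ q = 1) (o : Option (Fin q)) (y : ↥(s18_F K M)) :
    s35nn_sigma K L M q W ζ o (heckeAlphaBar K M q y) = s35nn_iota K L M q y := by
  cases o with
  | none =>
    rw [s35nn_sigma_none, coe_heckeAlphaBar, s35nn_iota_apply]
  | some i =>
    rw [s35nn_sigma_some, hWα, coe_heckeBetaBar, s35nn_iota_apply, coeffMap_qExpand]
    refine s37es_tw_qExpand _ q ?_ _
    rw [← pow_mul, mul_comm, pow_mul, hζ, one_pow]

theorem s35nn_coeff_j : (coeffMap (algebraMap K L) ((s18_j K M : ↥(s18_F K M)) :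
    LaurentSeries K)).coeff (-1) = 1 := by
  have h : ((s18_j K M : ↥(s18_F K M)) : LaurentSeries K) = coeffEmb K jq := rfl
  rw [h, coeffMap_coeff, coeffEmb_coeff, coeff_jq_neg_one, map_one, map_one]

theorem s35nn_sigma_injective (hq : q.Prime)
    (W : ↥(s18_F K (M * q)) →ₐ[K] ↥(s18_F K (M * q)))
    (hWβ : ∀ f : ↥(s18_F K M), W (heckeBetaBar K M q f) = heckeAlphaBar K M q f)
    (ζ : Lˣ) (hζ : IsPrimitiveRoot ζ q) :
    Function.Injective (s35nn_sigma K L M q W ζ) := by
  -- evaluate at `β j` and compare the coefficients of `t⁻¹`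
  have hnone : (s35nn_sigma K L M q W ζ none (heckeBetaBar K M q (s18_j K M))).coeff (-1) = 0 := by
    rw [s35nn_sigma_none]
    refine qExpand_coeff_of_not_dvd q _ ?_
    intro h
    have h1 : ((q : ℤ)) ∣ 1 := (dvd_neg.1 h)
    have h2 : (q : ℤ) = 1 := Int.eq_one_of_dvd_one (by positivity) h1
    have h3 : q = 1 := by exact_mod_cast h2
    exact hq.one_lt.ne' h3
  have hsome : ∀ i : Fin q,
      (s35nn_sigma K L M q W ζ (some i) (heckeBetaBar K M q (s18_j K M))).coeff (-1) =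
        (((ζ ^ (i : ℕ)) ^ (-1 : ℤ) : Lˣ) : L) := by
    intro i
    rw [s35nn_sigma_some, hWβ, coe_heckeAlphaBar, s37es_tw_coeff, s35nn_coeff_j, mul_one]
  intro o o' h
  have hc : (s35nn_sigma K L M q W ζ o (heckeBetaBar K M q (s18_j K M))).coeff (-1) =
      (s35nn_sigma K L M q W ζ o' (heckeBetaBar K M q (s18_j K M))).coeff (-1) := by rw [h]
  cases o with
  | none =>
    cases o' with
    | none => rfl
    | some k =>
      rw [hnone, hsome] at hc
      exact absurd hc.symm (Units.ne_zero _)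
  | some i =>
    cases o' with
    | none =>
      rw [hnone, hsome] at hc
      exact absurd hc (Units.ne_zero _)
    | some k =>
      rw [hsome, hsome] at hc
      have h1 : (ζ ^ (i : ℕ)) ^ (-1 : ℤ) = (ζ ^ (k : ℕ)) ^ (-1 : ℤ) := Units.ext hc
      rw [zpow_neg_one, zpow_neg_one, inv_inj] at h1
      have h2 := hζ.pow_inj i.2 k.2 h1
      exact congrArg some (Fin.ext h2)

/-- **[NF-NORM], the norm formula over `K`**:
`N_α(x)(t^q) = x(t^q) · ∏_{i<q} (W x)(ζ^i t)` in `L((t))`. -/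
theorem s35nn_norm (hq : q.Prime) (hqM : ¬ q ∣ M)
    (W : ↥(s18_F K (M * q)) →ₐ[K] ↥(s18_F K (M * q)))
    (hWα : ∀ f : ↥(s18_F K M), W (heckeAlphaBar K M q f) = heckeBetaBar K M q f)
    (hWβ : ∀ f : ↥(s18_F K M), W (heckeBetaBar K M q f) = heckeAlphaBar K M q f)
    (ζ : Lˣ) (hζ : IsPrimitiveRoot ζ q) (x : ↥(s18_F K (M * q))) :
    qExpand L q (coeffMap (algebraMap K L)
      (((letI := algebraAlong (heckeAlphaBar K M q); Algebra.norm ↥(s18_F K M) x :
        ↥(s18_F K M))) : LaurentSeries K)) =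
      qExpand L q (coeffMap (algebraMap K L) (x : LaurentSeries K)) *
        ∏ i ∈ Finset.range q,
          s37es_tw (ζ ^ i)
            (coeffMap (algebraMap K L) ((W x : ↥(s18_F K (M * q))) : LaurentSeries K)) := by
  letI : Algebra ↥(s18_F K M) ↥(s18_F K (M * q)) := algebraAlong (heckeAlphaBar K M q)
  have hfr : Module.finrank ↥(s18_F K M) ↥(s18_F K (M * q)) = q + 1 :=
    s35nn_finrank K M q hq hqM
  haveI : FiniteDimensional ↥(s18_F K M) ↥(s18_F K (M * q)) :=
    Module.finite_of_finrank_pos (by rw [hfr]; omega)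
  haveI : Algebra.IsSeparable ↥(s18_F K M) ↥(s18_F K (M * q)) := inferInstance
  have h := s37es_nm_abs (s35nn_iota K L M q) (s35nn_sigma K L M q W ζ)
    (s35nn_sigma_injective K L M q hq W hWβ ζ hζ)
    (fun o y => s35nn_sigma_commutes K L M q W hWα ζ hζ.pow_eq_one o y)
    (by rw [Fintype.card_option, Fintype.card_fin, hfr]) x
  rw [Fintype.prod_option, s35nn_sigma_none] at h
  rw [s35nn_iota_apply] at h
  rw [h, ← Fin.prod_univ_eq_prod_range
    (fun i => s37es_tw (ζ ^ i)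
      (coeffMap (algebraMap K L) ((W x : ↥(s18_F K (M * q))) : LaurentSeries K))) q]
  rfl

end Embeddings

end Fermat.Agent.S35
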