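/-
S35, leaf [NF-NORM] = (E2), part 3: THE NORM CONGRUENCE IN THE S34 MODEL (owner: helper7).
Prefix `s35nn_`.

`O` a discrete valuation ring with uniformizer `ϖ`, fraction field `K` of characteristic `0`,
residue field `κ` of characteristic `q`, `q ∤ M`.  `V' = s34g_V O K (M q)`, `ρ' = s34g_rho` the
Gauss valuation ring at `∞` of `F' = F_K(M q)` and its reduction, `V`, `ρ` the same at level `M`,
`N = N_α : F' → F` the norm along `α = heckeAlphaBar K M q`, `W` an endomorphism of `F'` with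
`W α = β`, `W β = α`.

  `s35nn_main` :  `x = ϖ^a x₁`, `W x = ϖ^b x₂`, `x₁, x₂` units of `V'`   ⟹
                  `N x = ϖ^(a + q b) n₁`, `n₁` a unit of `V`,
                  `(ρ n₁)(t^q) = (ρ' x₁)(t^q) · (ρ' x₂)^q`   in `κ((t))`.
-/
import Mathlib
import Fermat.Agent.S34.SsGaussA
import Fermat.Agent.S35.NfNormForm
import Fermat.Agent.S35.NfNormCong

set_option autoImplicit false
set_option linter.style.haveILetI false
set_option linter.unusedSectionVars false

open ModularCurve AlgebraicCurve IntermediateField IsLocalRing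
open Fermat.Agent.S18 Fermat.Agent.S24 Fermat.Agent.S37 Fermat.Agent.S34

noncomputable section

namespace Fermat.Agent.S35

section Model

variable {O K : Type} [CommRing O] [IsDomain O] [IsDiscreteValuationRing O] [Field K]
  [CharZero K] [Algebra O K] [IsFractionRing O K]

/-- A fraction representation of a unit of `V_∞`. -/
theorem s35nn_frac (N : ℕ) [NeZero N] (y : ↥(s34g_V O K N)) (hy : s34g_rho O K N y ≠ 0) :
    ∃ a s : LaurentSeries O, coeffMap (residue O) a ≠ 0 ∧ coeffMap (residue O) s ≠ 0 ∧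
      ((y : ↥(s18_F K N)) : LaurentSeries K) * coeffMap (algebraMap O K) s =
        coeffMap (algebraMap O K) a ∧
      s34g_rho O K N y = coeffMap (residue O) a / coeffMap (residue O) s := by
  obtain ⟨a, s, hs, h⟩ := (s34g_mem_V_iff (y : ↥(s18_F K N))).mp y.2
  have hρ := s34g_rho_eq y a s hs h
  refine ⟨a, s, ?_, hs, h, hρ⟩
  intro ha
  apply hy
  rw [hρ, ha, zero_div]

/-- The coercion of `ϖ ^ e`. -/
theorem s35nn_coe_zpow (N : ℕ) [NeZero N] (ϖ : O) (e : ℤ) :
    letI := s18_algOF O K N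
    (((algebraMap O ↥(s18_F K N) ϖ) ^ e : ↥(s18_F K N)) : LaurentSeries K) =
      (HahnSeries.C (algebraMap O K ϖ) : LaurentSeries K) ^ e := by
  letI := s18_algOF O K N
  rw [← s34g_coe_algebraMap (O := O) (K := K) (N := N) ϖ]
  exact map_zpow₀ (s18_F K N).val _ e

/-- A primitive `q`-th root of unity of the algebraic closure, as a unit. -/
theorem s35nn_exists_zeta (q : ℕ) [NeZero q] :
    ∃ ζ : (AlgebraicClosure K)ˣ, IsPrimitiveRoot ζ q := by
  obtain ⟨z, hz⟩ := HasEnoughRootsOfUnity.exists_primitiveRoot (AlgebraicClosure K) q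
  refine ⟨(hz.isUnit (NeZero.ne q)).unit, ?_⟩
  rw [← IsPrimitiveRoot.coe_units_iff]
  exact hz

/-- **[NF-NORM] = (E2)**, the norm congruence along `α`. -/
theorem s35nn_main (M q : ℕ) [NeZero M] [NeZero q] [NeZero (M * q)] (hq : q.Prime)
    (hqM : ¬ q ∣ M) (hqO : (q : O) ∈ maximalIdeal O) {ϖ : O} (hϖ : Irreducible ϖ)
    (W : ↥(s18_F K (M * q)) →ₐ[K] ↥(s18_F K (M * q)))
    (hWα : ∀ f : ↥(s18_F K M), W (heckeAlphaBar K M q f) = heckeBetaBar K M q f)
    (hWβ : ∀ f : ↥(s18_F K M), W (heckeBetaBar K M q f) = heckeAlphaBar K M q f)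
    (x : ↥(s18_F K (M * q))) (a b : ℤ) (x₁ x₂ : ↥(s34g_V O K (M * q)))
    (hx₁ : s34g_rho O K (M * q) x₁ ≠ 0) (hx₂ : s34g_rho O K (M * q) x₂ ≠ 0)
    (hx : letI := s18_algOF O K (M * q)
      x = algebraMap O ↥(s18_F K (M * q)) ϖ ^ a * (x₁ : ↥(s18_F K (M * q))))
    (hWx : letI := s18_algOF O K (M * q)
      W x = algebraMap O ↥(s18_F K (M * q)) ϖ ^ b * (x₂ : ↥(s18_F K (M * q)))) :
    ∃ n₁ : ↥(s34g_V O K M), s34g_rho O K M n₁ ≠ 0 ∧
      (letI := s18_algOF O K M;
        (letI := algebraAlong (heckeAlphaBar K M q); Algebra.norm ↥(s18_F K M) x) =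
          algebraMap O ↥(s18_F K M) ϖ ^ (a + q * b) * (n₁ : ↥(s18_F K M))) ∧
      qExpand (ResidueField O) q (s34g_rho O K M n₁) =
        qExpand (ResidueField O) q (s34g_rho O K (M * q) x₁) *
          s34g_rho O K (M * q) x₂ ^ q := by
  classical
  letI algM := s18_algOF O K M
  letI algMq := s18_algOF O K (M * q)
  letI algA : Algebra ↥(s18_F K M) ↥(s18_F K (M * q)) := algebraAlong (heckeAlphaBar K M q)
  have hfr : Module.finrank ↥(s18_F K M) ↥(s18_F K (M * q)) = q + 1 :=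
    s35nn_finrank K M q hq hqM
  haveI : FiniteDimensional ↥(s18_F K M) ↥(s18_F K (M * q)) :=
    Module.finite_of_finrank_pos (by rw [hfr]; omega)
  -- `x ≠ 0`, `N x ≠ 0`
  have hinjOK : Function.Injective (algebraMap O K) := IsFractionRing.injective O K
  have hπ0 : algebraMap O ↥(s18_F K (M * q)) ϖ ≠ 0 := by
    intro h
    have h1 : algebraMap K ↥(s18_F K (M * q)) (algebraMap O K ϖ) = 0 := h
    have h2 := (algebraMap K ↥(s18_F K (M * q))).injective (h1.trans (map_zero _).symm)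
    exact hϖ.ne_zero (hinjOK (h2.trans (map_zero _).symm))
  have hx₁0 : (x₁ : ↥(s18_F K (M * q))) ≠ 0 := by
    intro h
    apply hx₁
    have : x₁ = 0 := Subtype.ext h
    rw [this, map_zero]
  have hx0 : x ≠ 0 := by
    rw [hx]
    exact mul_ne_zero (zpow_ne_zero a hπ0) hx₁0
  have hn0 : Algebra.norm ↥(s18_F K M) x ≠ 0 := (Algebra.norm_ne_zero_iff).mpr hx0
  -- the unit part of the norm
  obtain ⟨e, u, hu, hnu⟩ := s34g_exists_pow (O := O) (K := K) (N := M) hϖ
    (Algebra.norm ↥(s18_F K M) x) hn0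
  -- fraction representations
  obtain ⟨a₁, s₁, ha₁, hs₁, hf₁, hρ₁⟩ := s35nn_frac (M * q) x₁ hx₁
  obtain ⟨a₂, s₂, ha₂, hs₂, hf₂, hρ₂⟩ := s35nn_frac (M * q) x₂ hx₂
  obtain ⟨c, d, hc, hd, hf, hρ⟩ := s35nn_frac M u hu
  -- the field `L`, the root of unity, the valuation ring
  let L := AlgebraicClosure K
  haveI : IsScalarTower O K L := inferInstance
  obtain ⟨ζ, hζ⟩ := s35nn_exists_zeta (K := K) q
  obtain ⟨A, hOA, hAloc⟩ := IsLocalRing.exists_factor_valuationRing (algebraMap O L)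
  have hloc : ∀ r : O, r ∈ maximalIdeal O →
      (⟨algebraMap O L r, hOA r⟩ : A) ∈ maximalIdeal A := by
    intro r hr
    rw [mem_maximalIdeal, mem_nonunits_iff] at hr ⊢
    intro h
    exact hr (hAloc.map_nonunit r h)
  have hϖL : algebraMap O L ϖ ≠ 0 := by
    intro h
    rw [IsScalarTower.algebraMap_apply O K L] at h
    have h2 := (algebraMap K L).injective (h.trans (map_zero _).symm)
    exact hϖ.ne_zero (hinjOK (h2.trans (map_zero _).symm))
  -- the series
  have hxs : (x : LaurentSeries K) * coeffMap (algebraMap O K) s₁ =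
      (HahnSeries.C (algebraMap O K ϖ) : LaurentSeries K) ^ a * coeffMap (algebraMap O K) a₁ := by
    rw [hx, IntermediateField.coe_mul, s35nn_coe_zpow (O := O) (K := K) (M * q) ϖ a, mul_assoc, hf₁]
  have hys : ((W x : ↥(s18_F K (M * q))) : LaurentSeries K) * coeffMap (algebraMap O K) s₂ =
      (HahnSeries.C (algebraMap O K ϖ) : LaurentSeries K) ^ b * coeffMap (algebraMap O K) a₂ := by
    rw [hWx, IntermediateField.coe_mul, s35nn_coe_zpow (O := O) (K := K) (M * q) ϖ b, mul_assoc,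
      hf₂]
  have hns : ((Algebra.norm ↥(s18_F K M) x : ↥(s18_F K M)) : LaurentSeries K) *
      coeffMap (algebraMap O K) d =
      (HahnSeries.C (algebraMap O K ϖ) : LaurentSeries K) ^ e * coeffMap (algebraMap O K) c := by
    rw [hnu, IntermediateField.coe_mul, s35nn_coe_zpow (O := O) (K := K) M ϖ e, mul_assoc, hf]
  have hform := s35nn_norm K L M q hq hqM W hWα hWβ ζ hζ x
  obtain ⟨he, hid⟩ := s35nn_cong A hOA hloc q hq hqO ζ hζ.pow_eq_one ϖ
    ((mem_maximalIdeal _).mpr hϖ.not_isUnit) hϖL _ _ _ hform a b e a₁ s₁ a₂ s₂ c d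
    ha₁ hs₁ ha₂ hs₂ hc hd hxs hys hns
  refine ⟨u, hu, ?_, ?_⟩
  · rw [hnu, he]
  · rw [hρ, hρ₁, hρ₂, map_div₀, map_div₀, div_pow]
    have hqinj := qExpand_injective (R := ResidueField O) q
    have hd' : qExpand (ResidueField O) q (coeffMap (residue O) d) ≠ 0 := fun h0 =>
      hd (hqinj (h0.trans (map_zero _).symm))
    have hs₁' : qExpand (ResidueField O) q (coeffMap (residue O) s₁) ≠ 0 := fun h0 =>
      hs₁ (hqinj (h0.trans (map_zero _).symm))
    have hs₂' : coeffMap (residue O) s₂ ^ q ≠ 0 := pow_ne_zero q hs₂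
    rw [div_mul_div_comm, div_eq_div_iff hd' (mul_ne_zero hs₁' hs₂')]
    calc qExpand (ResidueField O) q (coeffMap (residue O) c) *
          (qExpand (ResidueField O) q (coeffMap (residue O) s₁) * coeffMap (residue O) s₂ ^ q)
        = qExpand (ResidueField O) q (coeffMap (residue O) c) *
          qExpand (ResidueField O) q (coeffMap (residue O) s₁) * coeffMap (residue O) s₂ ^ q := by
          ring
      _ = qExpand (ResidueField O) q (coeffMap (residue O) a₁) * coeffMap (residue O) a₂ ^ q *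
          qExpand (ResidueField O) q (coeffMap (residue O) d) := hid

/-- The residue field of `O` has characteristic `q`. -/
theorem s35nn_charP (q : ℕ) (hq : q.Prime) (hqO : (q : O) ∈ maximalIdeal O) :
    CharP (ResidueField O) q := by
  rw [CharP.charP_iff_prime_eq_zero hq]
  have h1 : residue O (q : O) = 0 := (residue_eq_zero_iff _).mpr hqO
  rwa [map_natCast] at h1

/-- **[NF-NORM] = (E2)**, Frobenius form: `ρ n₁ = ρ' x₁ · Frob (ρ' x₂)`, `Frob` the coefficientwise
Frobenius of `κ((t))`. -/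
theorem s35nn_main_frob (M q : ℕ) [NeZero M] [NeZero q] [NeZero (M * q)] (hq : q.Prime)
    (hqM : ¬ q ∣ M) (hqO : (q : O) ∈ maximalIdeal O) {ϖ : O} (hϖ : Irreducible ϖ)
    (W : ↥(s18_F K (M * q)) →ₐ[K] ↥(s18_F K (M * q)))
    (hWα : ∀ f : ↥(s18_F K M), W (heckeAlphaBar K M q f) = heckeBetaBar K M q f)
    (hWβ : ∀ f : ↥(s18_F K M), W (heckeBetaBar K M q f) = heckeAlphaBar K M q f)
    (x : ↥(s18_F K (M * q))) (a b : ℤ) (x₁ x₂ : ↥(s34g_V O K (M * q)))
    (hx₁ : s34g_rho O K (M * q) x₁ ≠ 0) (hx₂ : s34g_rho O K (M * q) x₂ ≠ 0)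
    (hx : letI := s18_algOF O K (M * q)
      x = algebraMap O ↥(s18_F K (M * q)) ϖ ^ a * (x₁ : ↥(s18_F K (M * q))))
    (hWx : letI := s18_algOF O K (M * q)
      W x = algebraMap O ↥(s18_F K (M * q)) ϖ ^ b * (x₂ : ↥(s18_F K (M * q)))) :
    haveI := s35nn_charP (O := O) q hq hqO
    haveI : Fact q.Prime := ⟨hq⟩
    ∃ n₁ : ↥(s34g_V O K M), s34g_rho O K M n₁ ≠ 0 ∧
      (letI := s18_algOF O K M;
        (letI := algebraAlong (heckeAlphaBar K M q); Algebra.norm ↥(s18_F K M) x) =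
          algebraMap O ↥(s18_F K M) ϖ ^ (a + q * b) * (n₁ : ↥(s18_F K M))) ∧
      s34g_rho O K M n₁ =
        s34g_rho O K (M * q) x₁ *
          coeffMap (frobenius (ResidueField O) q) (s34g_rho O K (M * q) x₂) := by
  haveI := s35nn_charP (O := O) q hq hqO
  haveI : Fact q.Prime := ⟨hq⟩
  obtain ⟨n₁, h1, h2, h3⟩ := s35nn_main M q hq hqM hqO hϖ W hWα hWβ x a b x₁ x₂ hx₁ hx₂ hx hWx
  refine ⟨n₁, h1, h2, ?_⟩
  apply qExpand_injective (R := ResidueField O) q
  rw [h3, map_mul, s37ec_frob (ResidueField O) q]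

/-- `N_β x = N_α (W x)`. -/
theorem s35nn_normB_eq (M q : ℕ) [NeZero M] [NeZero q]
    (W : ↥(s18_F K (M * q)) ≃ₐ[K] ↥(s18_F K (M * q)))
    (hWβ : ∀ f : ↥(s18_F K M), W (heckeBetaBar K M q f) = heckeAlphaBar K M q f)
    (x : ↥(s18_F K (M * q))) :
    (letI := algebraAlong (heckeBetaBar K M q); Algebra.norm ↥(s18_F K M) x) =
      (letI := algebraAlong (heckeAlphaBar K M q); Algebra.norm ↥(s18_F K M) (W x)) := by
  have h := @Algebra.norm_eq_of_equiv_equiv ↥(s18_F K M) ↥(s18_F K (M * q)) ↥(s18_F K M)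
    ↥(s18_F K (M * q)) _ _ _ _ (algebraAlong (heckeBetaBar K M q))
    (algebraAlong (heckeAlphaBar K M q)) (RingEquiv.refl _) W.toRingEquiv
    (RingHom.ext fun y => (hWβ y).symm) x
  exact h

end Model

end Fermat.Agent.S35
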