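/-
S35, leaf [NF-NORM] = (E2), part 4: BOTH NORMS, in the vocabulary of `S35/NfDefs.lean`
(owner: helper7).  Prefix `s35nn_`.

`x ∈ F_K(M q)ˣ`, `x = ϖ^a x₁`, `W x = ϖ^b x₂` with `x₁, x₂` units of `V_∞` (i.e. `a = w_∞(x)`,
`b = w_0(x)`, `ρ' x₁ = ρ_∞`-residue, `ρ' x₂ = ρ_0`-residue of `x`).  Then

  `s35nn_normA` : `s35_normA K M q x = ϖ^(a + q b) n`, `n` a unit of `V_∞(M)`,
                  `ρ n = ρ' x₁ · Frob (ρ' x₂)`;
  `s35nn_normB` : `s35_normB K M q x = ϖ^(b + q a) n'`, `n'` a unit of `V_∞(M)`,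
                  `ρ n' = ρ' x₂ · Frob (ρ' x₁)`

(`Frob` the coefficientwise Frobenius of `κ((t))`; the forms without `Frob`, valid as identities
of `(ρ n)(t^q)`, are `s35nn_normA'`, `s35nn_normB'`).
-/
import Mathlib
import Fermat.Agent.S35.NfDefs
import Fermat.Agent.S35.NfNorm

set_option autoImplicit false
set_option linter.style.haveILetI false
set_option linter.unusedSectionVars false

open ModularCurve AlgebraicCurve IntermediateField IsLocalRing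
open Fermat.Agent.S18 Fermat.Agent.S24 Fermat.Agent.S37 Fermat.Agent.S34

noncomputable section

namespace Fermat.Agent.S35

section AB

variable {O K : Type} [CommRing O] [IsDomain O] [IsDiscreteValuationRing O] [Field K]
  [CharZero K] [Algebra O K] [IsFractionRing O K]
  (M q : ℕ) [NeZero M] [NeZero q] [NeZero (M * q)] (hq : q.Prime)
  (hqM : ¬ q ∣ M) (hqO : (q : O) ∈ maximalIdeal O) {ϖ : O} (hϖ : Irreducible ϖ)
  (W : ↥(s18_F K (M * q)) ≃ₐ[K] ↥(s18_F K (M * q)))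
  (hWα : ∀ f : ↥(s18_F K M), W (heckeAlphaBar K M q f) = heckeBetaBar K M q f)
  (hWβ : ∀ f : ↥(s18_F K M), W (heckeBetaBar K M q f) = heckeAlphaBar K M q f)
  (hWW : ∀ f : ↥(s18_F K (M * q)), W (W f) = f)

include hq hqM hqO hϖ hWα hWβ in
/-- **(E2) for `N_α`**, series form. -/
theorem s35nn_normA' (x : ↥(s18_F K (M * q))) (a b : ℤ) (x₁ x₂ : ↥(s34g_V O K (M * q)))
    (hx₁ : s34g_rho O K (M * q) x₁ ≠ 0) (hx₂ : s34g_rho O K (M * q) x₂ ≠ 0)
    (hx : letI := s18_algOF O K (M * q)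
      x = algebraMap O ↥(s18_F K (M * q)) ϖ ^ a * (x₁ : ↥(s18_F K (M * q))))
    (hWx : letI := s18_algOF O K (M * q)
      W x = algebraMap O ↥(s18_F K (M * q)) ϖ ^ b * (x₂ : ↥(s18_F K (M * q)))) :
    ∃ n₁ : ↥(s34g_V O K M), s34g_rho O K M n₁ ≠ 0 ∧
      (letI := s18_algOF O K M;
        s35_normA K M q x =
          algebraMap O ↥(s18_F K M) ϖ ^ (a + q * b) * (n₁ : ↥(s18_F K M))) ∧
      qExpand (ResidueField O) q (s34g_rho O K M n₁) =
        qExpand (ResidueField O) q (s34g_rho O K (M * q) x₁) *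
          s34g_rho O K (M * q) x₂ ^ q :=
  s35nn_main M q hq hqM hqO hϖ W.toAlgHom hWα hWβ x a b x₁ x₂ hx₁ hx₂ hx hWx

include hq hqM hqO hϖ hWα hWβ hWW in
/-- **(E2) for `N_β`**, series form. -/
theorem s35nn_normB' (x : ↥(s18_F K (M * q))) (a b : ℤ) (x₁ x₂ : ↥(s34g_V O K (M * q)))
    (hx₁ : s34g_rho O K (M * q) x₁ ≠ 0) (hx₂ : s34g_rho O K (M * q) x₂ ≠ 0)
    (hx : letI := s18_algOF O K (M * q)
      x = algebraMap O ↥(s18_F K (M * q)) ϖ ^ a * (x₁ : ↥(s18_F K (M * q))))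
    (hWx : letI := s18_algOF O K (M * q)
      W x = algebraMap O ↥(s18_F K (M * q)) ϖ ^ b * (x₂ : ↥(s18_F K (M * q)))) :
    ∃ n₁ : ↥(s34g_V O K M), s34g_rho O K M n₁ ≠ 0 ∧
      (letI := s18_algOF O K M;
        s35_normB K M q x =
          algebraMap O ↥(s18_F K M) ϖ ^ (b + q * a) * (n₁ : ↥(s18_F K M))) ∧
      qExpand (ResidueField O) q (s34g_rho O K M n₁) =
        qExpand (ResidueField O) q (s34g_rho O K (M * q) x₂) *
          s34g_rho O K (M * q) x₁ ^ q := by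
  have hx' : letI := s18_algOF O K (M * q)
      W (W x) = algebraMap O ↥(s18_F K (M * q)) ϖ ^ a * (x₁ : ↥(s18_F K (M * q))) := by
    rw [hWW]
    exact hx
  obtain ⟨n₁, h1, h2, h3⟩ := s35nn_main M q hq hqM hqO hϖ W.toAlgHom hWα hWβ (W x) b a x₂ x₁
    hx₂ hx₁ hWx hx'
  refine ⟨n₁, h1, ?_, h3⟩
  rw [← h2]
  exact s35nn_normB_eq M q W hWβ x

include hq hqM hqO hϖ hWα hWβ in
/-- **(E2) for `N_α`**, Frobenius form. -/
theorem s35nn_normA (x : ↥(s18_F K (M * q))) (a b : ℤ) (x₁ x₂ : ↥(s34g_V O K (M * q)))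
    (hx₁ : s34g_rho O K (M * q) x₁ ≠ 0) (hx₂ : s34g_rho O K (M * q) x₂ ≠ 0)
    (hx : letI := s18_algOF O K (M * q)
      x = algebraMap O ↥(s18_F K (M * q)) ϖ ^ a * (x₁ : ↥(s18_F K (M * q))))
    (hWx : letI := s18_algOF O K (M * q)
      W x = algebraMap O ↥(s18_F K (M * q)) ϖ ^ b * (x₂ : ↥(s18_F K (M * q)))) :
    haveI := s35nn_charP (O := O) q hq hqO
    haveI : Fact q.Prime := ⟨hq⟩
    ∃ n₁ : ↥(s34g_V O K M), s34g_rho O K M n₁ ≠ 0 ∧
      (letI := s18_algOF O K M;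
        s35_normA K M q x =
          algebraMap O ↥(s18_F K M) ϖ ^ (a + q * b) * (n₁ : ↥(s18_F K M))) ∧
      s34g_rho O K M n₁ =
        s34g_rho O K (M * q) x₁ *
          coeffMap (frobenius (ResidueField O) q) (s34g_rho O K (M * q) x₂) :=
  s35nn_main_frob M q hq hqM hqO hϖ W.toAlgHom hWα hWβ x a b x₁ x₂ hx₁ hx₂ hx hWx

include hq hqM hqO hϖ hWα hWβ hWW in
/-- **(E2) for `N_β`**, Frobenius form. -/
theorem s35nn_normB (x : ↥(s18_F K (M * q))) (a b : ℤ) (x₁ x₂ : ↥(s34g_V O K (M * q)))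
    (hx₁ : s34g_rho O K (M * q) x₁ ≠ 0) (hx₂ : s34g_rho O K (M * q) x₂ ≠ 0)
    (hx : letI := s18_algOF O K (M * q)
      x = algebraMap O ↥(s18_F K (M * q)) ϖ ^ a * (x₁ : ↥(s18_F K (M * q))))
    (hWx : letI := s18_algOF O K (M * q)
      W x = algebraMap O ↥(s18_F K (M * q)) ϖ ^ b * (x₂ : ↥(s18_F K (M * q)))) :
    haveI := s35nn_charP (O := O) q hq hqO
    haveI : Fact q.Prime := ⟨hq⟩
    ∃ n₁ : ↥(s34g_V O K M), s34g_rho O K M n₁ ≠ 0 ∧
      (letI := s18_algOF O K M;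
        s35_normB K M q x =
          algebraMap O ↥(s18_F K M) ϖ ^ (b + q * a) * (n₁ : ↥(s18_F K M))) ∧
      s34g_rho O K M n₁ =
        s34g_rho O K (M * q) x₂ *
          coeffMap (frobenius (ResidueField O) q) (s34g_rho O K (M * q) x₁) := by
  haveI := s35nn_charP (O := O) q hq hqO
  haveI : Fact q.Prime := ⟨hq⟩
  obtain ⟨n₁, h1, h2, h3⟩ := s35nn_normB' M q hq hqM hqO hϖ W hWα hWβ hWW x a b x₁ x₂
    hx₁ hx₂ hx hWx
  refine ⟨n₁, h1, h2, ?_⟩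
  apply qExpand_injective (R := ResidueField O) q
  rw [h3, map_mul, s37ec_frob (ResidueField O) q]

end AB

end Fermat.Agent.S35
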