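/-
S35, leaf [NF-RED] = (E3) of the cut, ABSTRACT PART (helper28).  Prefix `s35rd_`.  Mathlib only.

* `s35rd_ratio`   : in a field `L` with an endomorphism `Φ`: `Gⁿ = A · Φ B`, `G'ⁿ = B · Φ A`
                    ⟹ `Φ (Φ A) = A · (Φ G' / G)ⁿ`;
* `s35rd_unique`  : `π ^ k · u = u'` with `u`, `u'` units of a valuation ring in which `π` is a
                    non-unit ⟹ `k = 0`;
* `s35rd_abs`     : `V` a valuation ring of `F` with a reduction `ρ : V → L` whose kernel is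
                    `π V`, `τ` an endomorphism of `F` with `ρ ∘ τ = Ψ ∘ ρ` on `V`, `τ π = c₀ π`;
                    if `f = π ^ a · f₁` with `ρ f₁ ≠ 0` and `Ψ (ρ f₁) = ρ f₁ · (ρ X)ⁿ`, then
                    `τ f / f = c₀ ^ a · Xⁿ · (1 + π y)` with `y ∈ V`.
-/
import Mathlib

set_option autoImplicit false

namespace Fermat.Agent.S35

/-- The ratio computation of (E3). -/
theorem s35rd_ratio {L : Type*} [Field L] (Φ : L →+* L) (n : ℕ) (A B G G' : L) (hA : A ≠ 0)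
    (hB : B ≠ 0) (h1 : G ^ n = A * Φ B) (h2 : G' ^ n = B * Φ A) :
    Φ (Φ A) = A * (Φ G' / G) ^ n := by
  have hΦB : Φ B ≠ 0 := (map_ne_zero Φ).2 hB
  have hGn : G ^ n ≠ 0 := by
    rw [h1]
    exact mul_ne_zero hA hΦB
  have h3 : Φ G' ^ n = Φ B * Φ (Φ A) := by
    rw [← map_pow, h2, map_mul]
  rw [div_pow, h3, h1]
  field_simp

section Val

variable {F : Type*} [Field F]

/-- A unit of a valuation ring has valuation one. -/
theorem s35rd_val_unit (V : ValuationSubring F) {u : F} (h0 : u ≠ 0) (hu : u ∈ V)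
    (hu' : u⁻¹ ∈ V) : V.valuation u = 1 := by
  have h1 : V.valuation u ≤ 1 := (V.valuation_le_one_iff u).2 hu
  have h2 : V.valuation u⁻¹ ≤ 1 := (V.valuation_le_one_iff _).2 hu'
  have h3 : V.valuation u * V.valuation u⁻¹ = 1 := by
    rw [← map_mul, mul_inv_cancel₀ h0, map_one]
  refine le_antisymm h1 ?_
  calc (1 : _) = V.valuation u * V.valuation u⁻¹ := h3.symm
    _ ≤ V.valuation u * 1 := mul_le_mul' le_rfl h2
    _ = V.valuation u := mul_one _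

/-- The exponent of `π` in `π ^ k · u`, `u` a unit, is unique. -/
theorem s35rd_unique (V : ValuationSubring F) {π : F} (hπ : π ∈ V.nonunits) {k : ℤ}
    {u u' : F} (h0 : u ≠ 0) (hu : u ∈ V) (hu' : u⁻¹ ∈ V) (h0' : u' ≠ 0) (hv : u' ∈ V)
    (hv' : u'⁻¹ ∈ V) (h : π ^ k * u = u') : k = 0 := by
  have hval : V.valuation π < 1 := (ValuationSubring.mem_nonunits_iff V).1 hπ
  have h1 := congrArg V.valuation h
  rw [map_mul, map_zpow₀, s35rd_val_unit V h0 hu hu', s35rd_val_unit V h0' hv hv',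
    mul_one] at h1
  exact (zpow_eq_one_iff_right₀ zero_le hval.ne).1 h1

/-- **The abstract reduction step of (E3).** -/
theorem s35rd_abs {L : Type*} [Field L] (V : ValuationSubring F) (ρ : ↥V →+* L) (π : F)
    (hπ : π ≠ 0)
    (hker : ∀ y : ↥V, ρ y = 0 → (y : F) / π ∈ V)
    (hinv : ∀ y : ↥V, ρ y ≠ 0 → (y : F)⁻¹ ∈ V)
    (τ : F →+* F) (Ψ : L →+* L)
    (hτ : ∀ y : ↥V, ∃ h : τ y ∈ V, ρ ⟨τ y, h⟩ = Ψ (ρ y))
    (c₀ : F) (hc₀ : τ π = c₀ * π)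
    (n : ℕ) (a : ℤ) (f₁ X : ↥V) (hf₁ : ρ f₁ ≠ 0) (hX : ρ X ≠ 0)
    (h : Ψ (ρ f₁) = ρ f₁ * ρ X ^ n) :
    ∃ y ∈ V, τ (π ^ a * (f₁ : F)) / (π ^ a * (f₁ : F)) =
      c₀ ^ a * (X : F) ^ n * (1 + π * y) := by
  have hf₁0 : (f₁ : F) ≠ 0 := by
    intro h0
    apply hf₁
    have : f₁ = 0 := Subtype.ext h0
    rw [this, map_zero]
  have hX0 : (X : F) ≠ 0 := by
    intro h0
    apply hX
    have : X = 0 := Subtype.ext h0
    rw [this, map_zero]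
  obtain ⟨hτf, hρτf⟩ := hτ f₁
  -- the ratio `r = τ f₁ / (f₁ Xⁿ)` lies in `V` and reduces to `1`
  have hf₁inv : (f₁ : F)⁻¹ ∈ V := hinv f₁ hf₁
  have hXinv : (X : F)⁻¹ ∈ V := hinv X hX
  let f₁i : ↥V := ⟨(f₁ : F)⁻¹, hf₁inv⟩
  let Xi : ↥V := ⟨(X : F)⁻¹, hXinv⟩
  have hf₁i : f₁ * f₁i = 1 := Subtype.ext (mul_inv_cancel₀ hf₁0)
  have hXi : X * Xi = 1 := Subtype.ext (mul_inv_cancel₀ hX0)
  have hρf₁i : ρ f₁ * ρ f₁i = 1 := by rw [← map_mul, hf₁i, map_one]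
  have hρXi : ρ X * ρ Xi = 1 := by rw [← map_mul, hXi, map_one]
  let r : ↥V := ⟨τ f₁, hτf⟩ * f₁i * Xi ^ n
  have hρr : ρ (r - 1) = 0 := by
    show ρ (⟨τ f₁, hτf⟩ * f₁i * Xi ^ n - 1) = 0
    rw [map_sub, map_mul, map_mul, map_pow, map_one, hρτf, h]
    have e : ρ f₁ * ρ X ^ n * ρ f₁i * ρ Xi ^ n = (ρ f₁ * ρ f₁i) * (ρ X * ρ Xi) ^ n := by ring
    rw [e, hρf₁i, hρXi, one_pow, mul_one, sub_self]
  refine ⟨((r - 1 : ↥V) : F) / π, hker _ hρr, ?_⟩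
  have hr : ((r - 1 : ↥V) : F) = τ f₁ * (f₁ : F)⁻¹ * ((X : F)⁻¹) ^ n - 1 := rfl
  have hπa : π ^ a ≠ 0 := zpow_ne_zero a hπ
  have hc₀0 : c₀ ≠ 0 := by
    intro h0
    rw [h0, zero_mul] at hc₀
    exact hπ ((map_eq_zero τ).1 hc₀)
  rw [map_mul, map_zpow₀, hc₀, mul_zpow, hr, mul_div_cancel₀ _ hπ, inv_pow]
  have hXn : (X : F) ^ n ≠ 0 := pow_ne_zero n hX0
  field_simp
  ring

end Val

end Fermat.Agent.S35
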