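/-
S35, leaf [NF-RED] = (E3) of the cut, THE TWO BRANCHES (helper28).  Prefix `s35rd_`.

`O` a discrete valuation ring of characteristic zero, `K = Frac O`, `κ` its residue field, `N` a
level, `F = F_K(N)`, `V_∞ = s34g_V`, `V_0 = s34g_V0 O W`, `s : K ≃ₐ[ℚ] K` with `s O ⊆ O` inducing
`ψ` on `κ` (helper3's `s35fr_Induces`), `τ = arithmeticGalois s`.

* `s35rd_inf_core`  : `f = π ^ a · f₁`, `f₁` a unit of `V_∞`, `X` a unit of `V_∞` with
                      `Ψ (ρ_∞ f₁) = ρ_∞ f₁ · (ρ_∞ X)ⁿ`  ⟹  `τ f / f = c · Xⁿ · (1 + π y)`,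
                      `c = ηᵃ` (`τ π = η π`, `η ∈ Oˣ`), `y ∈ V_∞`;
* `s35rd_zero_core` : the same at `V_0`.
-/
import Mathlib
import Fermat.Agent.S35.NfRedAbs
import Fermat.Agent.S35.NfFrobChart

set_option autoImplicit false
set_option linter.unusedSectionVars false
set_option linter.unusedVariables false
set_option linter.style.haveILetI false

open AlgebraicCurve ModularCurve IntermediateField
open Fermat.Agent.S18 Fermat.Agent.S34

noncomputable section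

namespace Fermat.Agent.S35

section Core

variable {O K : Type} [CommRing O] [IsDomain O] [IsDiscreteValuationRing O] [Field K]
  [CharZero K] [Algebra O K] [IsFractionRing O K] {N : ℕ} [NeZero N] (s : K ≃ₐ[ℚ] K)
  (ψ : IsLocalRing.ResidueField O →+* IsLocalRing.ResidueField O)
  (hs : s35fr_Induces (O := O) (s : K →+* K) ψ)

/-- The constant `π` of `F_K(N)`. -/
def s35rd_pi (K : Type) [Field K] [CharZero K] [Algebra O K] (N : ℕ) [NeZero N] (ϖ : O) :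
    ↥(s18_F K N) :=
  algebraMap K ↥(s18_F K N) (algebraMap O K ϖ)

theorem s35rd_pi_ne_zero {ϖ : O} (hϖ : Irreducible ϖ) : s35rd_pi K N ϖ ≠ 0 := by
  unfold s35rd_pi
  rw [Ne, map_eq_zero_iff _ (algebraMap K ↥(s18_F K N)).injective,
    map_eq_zero_iff _ (IsFractionRing.injective O K)]
  exact hϖ.ne_zero

include hs in
/-- **(E3) on the branch at `∞`**, from the relation of the reductions. -/
theorem s35rd_inf_core {ϖ : O} (hϖ : Irreducible ϖ) (n : ℕ) (a : ℤ)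
    (f₁ X : ↥(s34g_V O K N)) (hf₁ : s34g_rho O K N f₁ ≠ 0) (hX : s34g_rho O K N X ≠ 0)
    (h : coeffMap ψ (s34g_rho O K N f₁) = s34g_rho O K N f₁ * s34g_rho O K N X ^ n) :
    ∃ (η : O) (y : ↥(s18_F K N)), IsUnit η ∧ y ∈ s34g_V O K N ∧
      arithmeticGalois (modularFunctionFieldFull N) s •
          (s35rd_pi K N ϖ ^ a * (f₁ : ↥(s18_F K N))) /
        (s35rd_pi K N ϖ ^ a * (f₁ : ↥(s18_F K N))) =
      algebraMap K ↥(s18_F K N) (algebraMap O K η) ^ a * (X : ↥(s18_F K N)) ^ n *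
        (1 + s35rd_pi K N ϖ * y) := by
  obtain ⟨η, hη, hηπ⟩ := s35fr_tau_pi (N := N) s ψ hs hϖ
  obtain ⟨y, hy, hfy⟩ := s35rd_abs (s34g_V O K N) (s34g_rho O K N) (s35rd_pi K N ϖ)
    (s35rd_pi_ne_zero hϖ) (fun y hy => s34g_rho_eq_zero hϖ y hy)
    (fun y hy => s34g_inv_mem y hy)
    ((arithmeticRingAut (modularFunctionFieldFull N) s : ↥(s18_F K N) ≃+* ↥(s18_F K N)) :
      ↥(s18_F K N) →+* ↥(s18_F K N))
    (coeffMap ψ)
    (fun y => ⟨s35fr_tau_mem s ψ hs _ y.2, s35fr_rho_tau s ψ hs y⟩)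
    (algebraMap K ↥(s18_F K N) (algebraMap O K η)) hηπ n a f₁ X hf₁ hX h
  exact ⟨η, y, hη, hy, hfy⟩

variable (W : ↥(s18_F K N) ≃ₐ[K] ↥(s18_F K N))
  (hWs : ∀ y : ↥(s18_F K N), W (arithmeticGalois (modularFunctionFieldFull N) s • y) =
    arithmeticGalois (modularFunctionFieldFull N) s • W y)

include hs hWs in
/-- **(E3) on the branch at `0`**, from the relation of the reductions. -/
theorem s35rd_zero_core {ϖ : O} (hϖ : Irreducible ϖ) (n : ℕ) (a : ℤ)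
    (f₁ X : ↥(s34g_V0 O W)) (hf₁ : s34g_rho0 O W f₁ ≠ 0) (hX : s34g_rho0 O W X ≠ 0)
    (h : coeffMap ψ (s34g_rho0 O W f₁) = s34g_rho0 O W f₁ * s34g_rho0 O W X ^ n) :
    ∃ (η : O) (y : ↥(s18_F K N)), IsUnit η ∧ y ∈ s34g_V0 O W ∧
      arithmeticGalois (modularFunctionFieldFull N) s •
          (s35rd_pi K N ϖ ^ a * (f₁ : ↥(s18_F K N))) /
        (s35rd_pi K N ϖ ^ a * (f₁ : ↥(s18_F K N))) =
      algebraMap K ↥(s18_F K N) (algebraMap O K η) ^ a * (X : ↥(s18_F K N)) ^ n *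
        (1 + s35rd_pi K N ϖ * y) := by
  obtain ⟨η, hη, hηπ⟩ := s35fr_tau_pi (N := N) s ψ hs hϖ
  obtain ⟨y, hy, hfy⟩ := s35rd_abs (s34g_V0 O W) (s34g_rho0 O W) (s35rd_pi K N ϖ)
    (s35rd_pi_ne_zero hϖ) (fun y hy => s34g_rho0_eq_zero hϖ y hy)
    (fun y hy => s34g_inv_mem0 y hy)
    ((arithmeticRingAut (modularFunctionFieldFull N) s : ↥(s18_F K N) ≃+* ↥(s18_F K N)) :
      ↥(s18_F K N) →+* ↥(s18_F K N))
    (coeffMap ψ)
    (fun y => ⟨s35fr_tau_mem0 s ψ hs W hWs _ y.2, s35fr_rho0_tau s ψ hs W hWs y⟩)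
    (algebraMap K ↥(s18_F K N) (algebraMap O K η)) hηπ n a f₁ X hf₁ hX h
  exact ⟨η, y, hη, hy, hfy⟩

end Core

end Fermat.Agent.S35
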