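/-
S35, leaf [NF-RED] = (E3) of the cut, AT THE MODEL (helper28).  Prefix `s35rd_`.

Level `M q`, `q ∤ M` prime of residue characteristic of `O`; `W` the Atkin-Lehner involution of
`F = F_K(M q)`; `σ` a Frobenius lift (`s35fr_Induces σ (frobenius κ q)`), `s = σ * σ`;
`f ∈ Fˣ` with `N_α f = gⁿ`, `N_β f = g'ⁿ`, `g, g' ∈ F_K(M)`.

INPUT (helper7's [NF-NORM] = (E2)), as a `Prop`:

  `s35rd_NormCong` : for `x = π ^ a · x₁`, `W x = π ^ b · x₂` (`x₁`, `x₂` units of `V_∞`):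
                     `N_α x = π ^ (a + q b) · n₁` with `n₁ ∈ V_∞(M)` and
                     `(ρ_M n₁)(T^q) = (ρ_∞ x₁)(T^q) · (ρ_∞ x₂)^q`.

OUTPUT:

  `s35rd_inf`  : `s f / f = c · Xⁿ · (1 + π y)`, `c ∈ Oˣ`-power, `X` a unit of `V_∞`, `y ∈ V_∞`;
  `s35rd_zero` : the same at `V_0`.
-/
import Mathlib
import Fermat.Agent.S34.SsGaussAB
import Fermat.Agent.S35.NfRed
import Fermat.Agent.S35.NfDefs

set_option autoImplicit false
set_option linter.unusedSectionVars false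
set_option linter.unusedVariables false
set_option linter.style.haveILetI false

open AlgebraicCurve ModularCurve IntermediateField
open Fermat.Agent.S18 Fermat.Agent.S34 Fermat.Agent.S37

noncomputable section

namespace Fermat.Agent.S35

section Pow

variable {O K : Type} [CommRing O] [IsDomain O] [IsDiscreteValuationRing O] [Field K]
  [CharZero K] [Algebra O K] [IsFractionRing O K] {N : ℕ} [NeZero N]

/-- Every nonzero function is `π ^ e` times a unit of `V_∞`. -/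
theorem s35rd_exists_pow {ϖ : O} (hϖ : Irreducible ϖ) (y : ↥(s18_F K N)) (hy : y ≠ 0) :
    ∃ (e : ℤ) (u : ↥(s34g_V O K N)), s34g_rho O K N u ≠ 0 ∧
      y = s35rd_pi K N ϖ ^ e * (u : ↥(s18_F K N)) :=
  s34g_exists_pow hϖ y hy

/-- `π` is a non-unit of `V_∞`. -/
theorem s35rd_pi_nonunit {ϖ : O} (hϖ : Irreducible ϖ) :
    s35rd_pi K N ϖ ∈ (s34g_V O K N).nonunits := by
  letI := s18_algOF O K N
  have h : (⟨algebraMap O ↥(s18_F K N) ϖ, s34g_algebraMap_mem (K := K) (N := N) ϖ⟩ :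
      ↥(s34g_V O K N)) ∈ IsLocalRing.maximalIdeal ↥(s34g_V O K N) := by
    rw [s34g_mem_maximalIdeal_iff]
    exact s34g_rho_pi hϖ _ rfl
  exact ValuationSubring.coe_mem_nonunits_iff.mpr h

theorem s35rd_unit_ne_zero (u : ↥(s34g_V O K N)) (hu : s34g_rho O K N u ≠ 0) :
    (u : ↥(s18_F K N)) ≠ 0 := by
  intro h0
  apply hu
  have : u = 0 := Subtype.ext h0
  rw [this, map_zero]

end Pow

section Model

variable {O K : Type} [CommRing O] [IsDomain O] [IsDiscreteValuationRing O] [Field K]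
  [CharZero K] [Algebra O K] [IsFractionRing O K] (M q : ℕ) [NeZero M] [NeZero q]
  [NeZero (M * q)] (W : ↥(s18_F K (M * q)) ≃ₐ[K] ↥(s18_F K (M * q)))

/-- **(E2)**, the norm congruence of [NF-NORM], in the shape consumed by (E3). -/
def s35rd_NormCong (ϖ : O) : Prop :=
  ∀ (x : ↥(s18_F K (M * q))) (a b : ℤ) (x₁ x₂ : ↥(s34g_V O K (M * q))),
    s34g_rho O K (M * q) x₁ ≠ 0 → s34g_rho O K (M * q) x₂ ≠ 0 →
    x = s35rd_pi K (M * q) ϖ ^ a * (x₁ : ↥(s18_F K (M * q))) →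
    W x = s35rd_pi K (M * q) ϖ ^ b * (x₂ : ↥(s18_F K (M * q))) →
    ∃ n₁ : ↥(s34g_V O K M),
      s35_normA K M q x = s35rd_pi K M ϖ ^ (a + q * b) * (n₁ : ↥(s18_F K M)) ∧
      qExpand (IsLocalRing.ResidueField O) q (s34g_rho O K M n₁) =
        qExpand (IsLocalRing.ResidueField O) q (s34g_rho O K (M * q) x₁) *
          s34g_rho O K (M * q) x₂ ^ q

variable {M q W}
variable [Fact q.Prime] [CharP (IsLocalRing.ResidueField O) q]

/-- The `n`-th root of the norm: its unit part and the relation of the reductions. -/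
theorem s35rd_root {ϖ : O} (hϖ : Irreducible ϖ) (hE2 : s35rd_NormCong M q W ϖ) (n : ℕ)
    (hn : n ≠ 0) (x : ↥(s18_F K (M * q))) (a b : ℤ) (x₁ x₂ : ↥(s34g_V O K (M * q)))
    (hx₁ : s34g_rho O K (M * q) x₁ ≠ 0) (hx₂ : s34g_rho O K (M * q) x₂ ≠ 0)
    (hx : x = s35rd_pi K (M * q) ϖ ^ a * (x₁ : ↥(s18_F K (M * q))))
    (hWx : W x = s35rd_pi K (M * q) ϖ ^ b * (x₂ : ↥(s18_F K (M * q))))
    (g : ↥(s18_F K M)) (hg : g ^ n = s35_normA K M q x) :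
    ∃ g₁ : ↥(s34g_V O K M), s34g_rho O K M g₁ ≠ 0 ∧
      s34g_rho O K M g₁ ^ n = s34g_rho O K (M * q) x₁ *
        coeffMap (frobenius (IsLocalRing.ResidueField O) q) (s34g_rho O K (M * q) x₂) := by
  obtain ⟨n₁, hn₁, hρ⟩ := hE2 x a b x₁ x₂ hx₁ hx₂ hx hWx
  -- the relation without `qExpand`
  have hρ' : s34g_rho O K M n₁ = s34g_rho O K (M * q) x₁ *
      coeffMap (frobenius (IsLocalRing.ResidueField O) q) (s34g_rho O K (M * q) x₂) := by
    apply qExpand_injective (R := IsLocalRing.ResidueField O) (N := q)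
    rw [hρ, map_mul, ← s37cg_frob q]
  have hΦ : coeffMap (frobenius (IsLocalRing.ResidueField O) q)
      (s34g_rho O K (M * q) x₂) ≠ 0 := s35fr_coeffMap_ne_zero _ hx₂
  have hn₁0 : s34g_rho O K M n₁ ≠ 0 := by
    rw [hρ']
    exact mul_ne_zero hx₁ hΦ
  have hn₁F : (n₁ : ↥(s18_F K M)) ≠ 0 := s35rd_unit_ne_zero n₁ hn₁0
  have hπM : s35rd_pi K M ϖ ≠ 0 := s35rd_pi_ne_zero hϖ
  have hg0 : g ≠ 0 := by
    rintro rfl
    rw [zero_pow hn, hn₁] at hg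
    exact mul_ne_zero (zpow_ne_zero _ hπM) hn₁F hg.symm
  obtain ⟨m, g₁, hg₁, hgg⟩ := s35rd_exists_pow hϖ g hg0
  have hg₁F : (g₁ : ↥(s18_F K M)) ≠ 0 := s35rd_unit_ne_zero g₁ hg₁
  -- compare the two decompositions of the norm
  have hpow : s34g_rho O K M (g₁ ^ n) ≠ 0 := by
    rw [map_pow]
    exact pow_ne_zero n hg₁
  have hkey : s35rd_pi K M ϖ ^ ((n : ℤ) * m - (a + q * b)) *
      ((g₁ ^ n : ↥(s34g_V O K M)) : ↥(s18_F K M)) = (n₁ : ↥(s18_F K M)) := by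
    have h1 : s35rd_pi K M ϖ ^ ((n : ℤ) * m) * (g₁ : ↥(s18_F K M)) ^ n =
        s35rd_pi K M ϖ ^ (a + q * b) * (n₁ : ↥(s18_F K M)) := by
      have e : s35rd_pi K M ϖ ^ ((n : ℤ) * m) = (s35rd_pi K M ϖ ^ m) ^ n := by
        rw [mul_comm, zpow_mul, zpow_natCast]
      rw [← hn₁, ← hg, hgg, mul_pow, e]
    rw [zpow_sub₀ hπM, div_mul_eq_mul_div, div_eq_iff (zpow_ne_zero _ hπM), mul_comm _
      (s35rd_pi K M ϖ ^ (a + q * b))]
    exact h1
  have hk0 := s35rd_unique (s34g_V O K M) (s35rd_pi_nonunit hϖ)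
    (s35rd_unit_ne_zero _ hpow) (g₁ ^ n).2 (s34g_inv_mem _ hpow) hn₁F n₁.2
    (s34g_inv_mem _ hn₁0) hkey
  rw [hk0, zpow_zero, one_mul] at hkey
  refine ⟨g₁, hg₁, ?_⟩
  rw [← hρ', ← map_pow]
  exact congrArg _ (Subtype.ext hkey)

variable (hWW : ∀ y, W (W y) = y) (σ : K ≃ₐ[ℚ] K)
  (hσ : s35fr_Induces (O := O) (σ : K →+* K) (frobenius (IsLocalRing.ResidueField O) q))
  (hWσ : ∀ y : ↥(s18_F K (M * q)),
    W (arithmeticGalois (modularFunctionFieldFull (M * q)) (σ * σ) • y) =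
      arithmeticGalois (modularFunctionFieldFull (M * q)) (σ * σ) • W y)

include hσ in
/-- The unit `Z = σ g' / g` of `V_∞(M)` and its reduction `Φ (ρ g') / ρ g`. -/
theorem s35rd_Z (g₁ g₁' : ↥(s34g_V O K M)) (hg₁ : s34g_rho O K M g₁ ≠ 0) :
    ∃ Z : ↥(s34g_V O K M), s34g_rho O K M Z =
      coeffMap (frobenius (IsLocalRing.ResidueField O) q) (s34g_rho O K M g₁') /
        s34g_rho O K M g₁ := by
  let gi : ↥(s34g_V O K M) := ⟨(g₁ : ↥(s18_F K M))⁻¹, s34g_inv_mem g₁ hg₁⟩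
  have hgi : g₁ * gi = 1 := Subtype.ext (mul_inv_cancel₀ (s35rd_unit_ne_zero g₁ hg₁))
  have hρgi : s34g_rho O K M g₁ * s34g_rho O K M gi = 1 := by
    rw [← map_mul, hgi, map_one]
  refine ⟨⟨arithmeticGalois (modularFunctionFieldFull M) σ • (g₁' : ↥(s18_F K M)),
    s35fr_tau_mem σ _ hσ _ g₁'.2⟩ * gi, ?_⟩
  rw [map_mul, s35fr_rho_tau σ _ hσ g₁', eq_div_iff hg₁, mul_assoc, mul_comm (s34g_rho O K M gi),
    hρgi, mul_one]

include hσ hWW in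
/-- **[NF-RED] on the branch at `∞`**: `s f / f = c · Xⁿ · (1 + π y)`. -/
theorem s35rd_inf {ϖ : O} (hϖ : Irreducible ϖ) (hE2 : s35rd_NormCong M q W ϖ)
    (hNB : ∀ x : ↥(s18_F K (M * q)), s35_normB K M q x = s35_normA K M q (W x))
    (n : ℕ) (hn : n ≠ 0) (f : ↥(s18_F K (M * q))) (hf : f ≠ 0)
    (g g' : ↥(s18_F K M)) (hg : g ^ n = s35_normA K M q f) (hg' : g' ^ n = s35_normB K M q f) :
    ∃ (η : O) (a : ℤ) (X : ↥(s34g_V O K (M * q))) (y : ↥(s18_F K (M * q))),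
      IsUnit η ∧ s34g_rho O K (M * q) X ≠ 0 ∧ y ∈ s34g_V O K (M * q) ∧
      arithmeticGalois (modularFunctionFieldFull (M * q)) (σ * σ) • f / f =
        algebraMap K ↥(s18_F K (M * q)) (algebraMap O K η) ^ a *
          (X : ↥(s18_F K (M * q))) ^ n * (1 + s35rd_pi K (M * q) ϖ * y) := by
  have hWf : W f ≠ 0 := (map_ne_zero W).2 hf
  obtain ⟨a, f₁, hf₁, hff⟩ := s35rd_exists_pow hϖ f hf
  obtain ⟨b, f₂, hf₂, hWff⟩ := s35rd_exists_pow hϖ (W f) hWf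
  obtain ⟨g₁, hg₁, hG⟩ := s35rd_root hϖ hE2 n hn f a b f₁ f₂ hf₁ hf₂ hff hWff g hg
  have hWW' : W (W f) = s35rd_pi K (M * q) ϖ ^ a * (f₁ : ↥(s18_F K (M * q))) := by
    rw [hWW, ← hff]
  rw [hNB] at hg'
  obtain ⟨g₁', hg₁', hG'⟩ := s35rd_root hϖ hE2 n hn (W f) b a f₂ f₁ hf₂ hf₁ hWff hWW' g' hg'
  obtain ⟨Z, hZ⟩ := s35rd_Z σ hσ g₁ g₁' hg₁
  have hratio := s35rd_ratio (coeffMap (frobenius (IsLocalRing.ResidueField O) q)) n
    (s34g_rho O K (M * q) f₁) (s34g_rho O K (M * q) f₂) (s34g_rho O K M g₁)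
    (s34g_rho O K M g₁') hf₁ hf₂ hG hG'
  let X : ↥(s34g_V O K (M * q)) := ⟨heckeAlphaBar K M q (Z : ↥(s18_F K M)),
    (s34g_alpha_mem_iff M q _).2 Z.2⟩
  have hρX : s34g_rho O K (M * q) X =
      coeffMap (frobenius (IsLocalRing.ResidueField O) q) (s34g_rho O K M g₁') /
        s34g_rho O K M g₁ := by
    rw [← hZ]
    exact s34g_rho_alpha M q Z
  have hX0 : s34g_rho O K (M * q) X ≠ 0 := by
    rw [hρX]
    exact div_ne_zero (s35fr_coeffMap_ne_zero _ hg₁') hg₁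
  have hrel : coeffMap ((frobenius (IsLocalRing.ResidueField O) q).comp
      (frobenius (IsLocalRing.ResidueField O) q)) (s34g_rho O K (M * q) f₁) =
      s34g_rho O K (M * q) f₁ * s34g_rho O K (M * q) X ^ n := by
    rw [s35fr_coeffMap_comp, hρX]
    exact hratio
  obtain ⟨η, y, hη, hy, hfy⟩ := s35rd_inf_core (N := M * q) (σ * σ) _
    (s35fr_induces_mul hσ hσ) hϖ n a f₁ X hf₁ hX0 hrel
  refine ⟨η, a, X, y, hη, hX0, hy, ?_⟩
  rw [hff]
  exact hfy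

include hσ hWW hWσ in
/-- **[NF-RED] on the branch at `0`**: `s f / f = c · Xⁿ · (1 + π y)`. -/
theorem s35rd_zero {ϖ : O} (hϖ : Irreducible ϖ) (hE2 : s35rd_NormCong M q W ϖ)
    (hNB : ∀ x : ↥(s18_F K (M * q)), s35_normB K M q x = s35_normA K M q (W x))
    (n : ℕ) (hn : n ≠ 0) (f : ↥(s18_F K (M * q))) (hf : f ≠ 0)
    (g g' : ↥(s18_F K M)) (hg : g ^ n = s35_normA K M q f) (hg' : g' ^ n = s35_normB K M q f) :
    ∃ (η : O) (b : ℤ) (X : ↥(s34g_V0 O W)) (y : ↥(s18_F K (M * q))),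
      IsUnit η ∧ s34g_rho0 O W X ≠ 0 ∧ y ∈ s34g_V0 O W ∧
      arithmeticGalois (modularFunctionFieldFull (M * q)) (σ * σ) • f / f =
        algebraMap K ↥(s18_F K (M * q)) (algebraMap O K η) ^ b *
          (X : ↥(s18_F K (M * q))) ^ n * (1 + s35rd_pi K (M * q) ϖ * y) := by
  have hWf : W f ≠ 0 := (map_ne_zero W).2 hf
  obtain ⟨a, f₁, hf₁, hff⟩ := s35rd_exists_pow hϖ f hf
  obtain ⟨b, f₂, hf₂, hWff⟩ := s35rd_exists_pow hϖ (W f) hWf
  obtain ⟨g₁, hg₁, hG⟩ := s35rd_root hϖ hE2 n hn f a b f₁ f₂ hf₁ hf₂ hff hWff g hg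
  have hWW' : W (W f) = s35rd_pi K (M * q) ϖ ^ a * (f₁ : ↥(s18_F K (M * q))) := by
    rw [hWW, ← hff]
  rw [hNB] at hg'
  obtain ⟨g₁', hg₁', hG'⟩ := s35rd_root hϖ hE2 n hn (W f) b a f₂ f₁ hf₂ hf₁ hWff hWW' g' hg'
  obtain ⟨Z, hZ⟩ := s35rd_Z σ hσ g₁' g₁ hg₁'
  have hratio := s35rd_ratio (coeffMap (frobenius (IsLocalRing.ResidueField O) q)) n
    (s34g_rho O K (M * q) f₂) (s34g_rho O K (M * q) f₁) (s34g_rho O K M g₁')
    (s34g_rho O K M g₁) hf₂ hf₁ hG' hG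
  -- the data on the branch at `0`
  let Xα : ↥(s34g_V O K (M * q)) := ⟨heckeAlphaBar K M q (Z : ↥(s18_F K M)),
    (s34g_alpha_mem_iff M q _).2 Z.2⟩
  have hρXα : s34g_rho O K (M * q) Xα =
      coeffMap (frobenius (IsLocalRing.ResidueField O) q) (s34g_rho O K M g₁) /
        s34g_rho O K M g₁' := by
    rw [← hZ]
    exact s34g_rho_alpha M q Z
  let X : ↥(s34g_V0 O W) := ⟨W (Xα : ↥(s18_F K (M * q))), (s34g_W_mem_V0_iff hWW _).2 Xα.2⟩
  have hρX : s34g_rho0 O W X =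
      coeffMap (frobenius (IsLocalRing.ResidueField O) q) (s34g_rho O K M g₁) /
        s34g_rho O K M g₁' := by
    rw [← hρXα]
    exact s34g_rho0_W hWW Xα
  have hX0 : s34g_rho0 O W X ≠ 0 := by
    rw [hρX]
    exact div_ne_zero (s35fr_coeffMap_ne_zero _ hg₁) hg₁'
  let F₂ : ↥(s34g_V0 O W) := ⟨W (f₂ : ↥(s18_F K (M * q))), (s34g_W_mem_V0_iff hWW _).2 f₂.2⟩
  have hρF₂ : s34g_rho0 O W F₂ = s34g_rho O K (M * q) f₂ := s34g_rho0_W hWW f₂
  have hF₂0 : s34g_rho0 O W F₂ ≠ 0 := by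
    rw [hρF₂]
    exact hf₂
  have hrel : coeffMap ((frobenius (IsLocalRing.ResidueField O) q).comp
      (frobenius (IsLocalRing.ResidueField O) q)) (s34g_rho0 O W F₂) =
      s34g_rho0 O W F₂ * s34g_rho0 O W X ^ n := by
    rw [s35fr_coeffMap_comp, hρX, hρF₂]
    exact hratio
  obtain ⟨η, y, hη, hy, hfy⟩ := s35rd_zero_core (N := M * q) (σ * σ) _
    (s35fr_induces_mul hσ hσ) W hWσ hϖ n b F₂ X hF₂0 hX0 hrel
  refine ⟨η, b, X, y, hη, hX0, hy, ?_⟩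
  have hfW : f = s35rd_pi K (M * q) ϖ ^ b * (F₂ : ↥(s18_F K (M * q))) := by
    have h1 : f = W (W f) := (hWW f).symm
    rw [hWff, map_mul, map_zpow₀] at h1
    have h2 : W (s35rd_pi K (M * q) ϖ) = s35rd_pi K (M * q) ϖ := W.commutes _
    rw [h2] at h1
    exact h1
  rw [hfW]
  exact hfy

end Model

end Fermat.Agent.S35
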