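/-
S35, leaf [NF-RED] = (E3) of the cut, the principal units (helper28).  Prefix `s35rd_`.
Mathlib only.

`V` a valuation subring of a field `F`; `s35rd_One V x` means `x ∈ 1 + 𝔪_V`.

* `s35rd_one_mul / _inv / _div / _pow / _zpow` : `1 + 𝔪_V` is a group;
* `s35rd_one_map`    : it is stable under an endomorphism `τ` of `F` with `τ 𝔪_V ⊆ 𝔪_V`;
* `s35rd_global_abs` : if `D = c · Xⁿ · (1 + π y)` with `τ c / c^Q ∈ 1 + 𝔪_V`, `X` a unit of `V`,
                       `π ∈ 𝔪_V`, `y ∈ V`, and `V₀ ≡ τ X / X^Q` modulo `𝔪_V`, then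
                       `(τ D / D^Q) / V₀ⁿ ∈ 1 + 𝔪_V`.
-/
import Mathlib

set_option autoImplicit false

namespace Fermat.Agent.S35

section One

variable {F : Type*} [Field F] (V : ValuationSubring F)

/-- `x ∈ 1 + 𝔪_V`. -/
def s35rd_One (x : F) : Prop := x - 1 ∈ V.nonunits

variable {V}

theorem s35rd_nu_mem {x : F} (hx : x ∈ V.nonunits) : x ∈ V := V.nonunits_subset hx

theorem s35rd_nu_add {x y : F} (hx : x ∈ V.nonunits) (hy : y ∈ V.nonunits) :
    x + y ∈ V.nonunits := by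
  rw [ValuationSubring.mem_nonunits_iff] at hx hy ⊢
  exact lt_of_le_of_lt (V.valuation.map_add x y) (max_lt hx hy)

theorem s35rd_nu_neg {x : F} (hx : x ∈ V.nonunits) : -x ∈ V.nonunits := by
  rw [ValuationSubring.mem_nonunits_iff] at hx ⊢
  rwa [Valuation.map_neg]

theorem s35rd_nu_mul {x y : F} (hx : x ∈ V) (hy : y ∈ V.nonunits) : x * y ∈ V.nonunits := by
  rw [ValuationSubring.mem_nonunits_iff] at hy ⊢
  have h1 : V.valuation x ≤ 1 := (V.valuation_le_one_iff x).2 hx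
  rw [map_mul]
  calc V.valuation x * V.valuation y ≤ 1 * V.valuation y := mul_le_mul' h1 le_rfl
    _ = V.valuation y := one_mul _
    _ < 1 := hy

theorem s35rd_one_one : s35rd_One V (1 : F) := by
  show (1 : F) - 1 ∈ V.nonunits
  rw [sub_self, ValuationSubring.mem_nonunits_iff, map_zero]
  exact zero_lt_one

theorem s35rd_one_mem {x : F} (hx : s35rd_One V x) : x ∈ V := by
  have h : x = (x - 1) + 1 := by ring
  rw [h]
  exact V.add_mem _ _ (s35rd_nu_mem hx) V.one_mem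

theorem s35rd_one_val {x : F} (hx : s35rd_One V x) : V.valuation x = 1 := by
  have h1 : V.valuation (x - 1) < 1 := (ValuationSubring.mem_nonunits_iff V).1 hx
  have h2 : V.valuation (1 : F) = 1 := map_one _
  have h : x = 1 + (x - 1) := by ring
  rw [h, Valuation.map_add_eq_of_lt_left _ (by rw [h2]; exact h1), h2]

theorem s35rd_one_ne_zero {x : F} (hx : s35rd_One V x) : x ≠ 0 := by
  rintro rfl
  have := s35rd_one_val hx
  rw [map_zero] at this
  exact zero_ne_one this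

theorem s35rd_one_inv_mem {x : F} (hx : s35rd_One V x) : x⁻¹ ∈ V := by
  rw [← V.valuation_le_one_iff, map_inv₀, s35rd_one_val hx, inv_one]

theorem s35rd_one_mul {x y : F} (hx : s35rd_One V x) (hy : s35rd_One V y) :
    s35rd_One V (x * y) := by
  show x * y - 1 ∈ V.nonunits
  have h : x * y - 1 = x * (y - 1) + (x - 1) := by ring
  rw [h]
  exact s35rd_nu_add (s35rd_nu_mul (s35rd_one_mem hx) hy) hx

theorem s35rd_one_inv {x : F} (hx : s35rd_One V x) : s35rd_One V x⁻¹ := by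
  show x⁻¹ - 1 ∈ V.nonunits
  have hx0 := s35rd_one_ne_zero hx
  have h : x⁻¹ - 1 = x⁻¹ * (-(x - 1)) := by
    field_simp
    ring
  rw [h]
  exact s35rd_nu_mul (s35rd_one_inv_mem hx) (s35rd_nu_neg hx)

theorem s35rd_one_div {x y : F} (hx : s35rd_One V x) (hy : s35rd_One V y) :
    s35rd_One V (x / y) := by
  rw [div_eq_mul_inv]
  exact s35rd_one_mul hx (s35rd_one_inv hy)

theorem s35rd_one_pow {x : F} (hx : s35rd_One V x) (n : ℕ) : s35rd_One V (x ^ n) := by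
  induction n with
  | zero => rw [pow_zero]; exact s35rd_one_one
  | succ k ih => rw [pow_succ]; exact s35rd_one_mul ih hx

theorem s35rd_one_zpow {x : F} (hx : s35rd_One V x) (n : ℤ) : s35rd_One V (x ^ n) := by
  obtain ⟨k, rfl | rfl⟩ := Int.eq_nat_or_neg n
  · rw [zpow_natCast]
    exact s35rd_one_pow hx k
  · rw [zpow_neg, zpow_natCast]
    exact s35rd_one_inv (s35rd_one_pow hx k)

theorem s35rd_one_map (τ : F →+* F) (hτ : ∀ x ∈ V.nonunits, τ x ∈ V.nonunits) {x : F}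
    (hx : s35rd_One V x) : s35rd_One V (τ x) := by
  show τ x - 1 ∈ V.nonunits
  have h : τ x - 1 = τ (x - 1) := by rw [map_sub, map_one]
  rw [h]
  exact hτ _ hx

theorem s35rd_one_add {m : F} (hm : m ∈ V.nonunits) : s35rd_One V (1 + m) := by
  show 1 + m - 1 ∈ V.nonunits
  rwa [add_sub_cancel_left]

/-- `V₀ ≡ E` modulo `𝔪_V`, `E` a unit of `V` ⟹ `V₀ / E ∈ 1 + 𝔪_V`. -/
theorem s35rd_one_of_sub {V₀ E : F} (hE0 : E ≠ 0) (hEi : E⁻¹ ∈ V)
    (h : V₀ - E ∈ V.nonunits) : s35rd_One V (V₀ / E) := by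
  show V₀ / E - 1 ∈ V.nonunits
  have e : V₀ / E - 1 = E⁻¹ * (V₀ - E) := by
    field_simp
  rw [e]
  exact s35rd_nu_mul hEi h

/-- **The global step of (E3)**: the corrected Frobenius difference is a principal unit. -/
theorem s35rd_global_abs (τ : F →+* F) (hτV : ∀ x ∈ V, τ x ∈ V)
    (hτnu : ∀ x ∈ V.nonunits, τ x ∈ V.nonunits) (Q n : ℕ) (D c X y π V₀ : F)
    (hπ : π ∈ V.nonunits) (hy : y ∈ V) (hX0 : X ≠ 0) (hX : X ∈ V) (hXi : X⁻¹ ∈ V)
    (hc0 : c ≠ 0) (hc : s35rd_One V (τ c / c ^ Q))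
    (hD : D = c * X ^ n * (1 + π * y))
    (hV₀ : V₀ - τ X / X ^ Q ∈ V.nonunits) :
    s35rd_One V (τ D / D ^ Q / V₀ ^ n) := by
  have h1 : s35rd_One V (1 + π * y) := s35rd_one_add (by
    rw [mul_comm]
    exact s35rd_nu_mul hy hπ)
  have h1' : (1 + π * y) ≠ 0 := s35rd_one_ne_zero h1
  have hE0 : τ X / X ^ Q ≠ 0 := div_ne_zero ((map_ne_zero τ).2 hX0) (pow_ne_zero Q hX0)
  have hEi : (τ X / X ^ Q)⁻¹ ∈ V := by
    rw [inv_div, div_eq_mul_inv, ← map_inv₀]
    exact V.mul_mem _ _ (pow_mem hX Q) (hτV _ hXi)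
  have h2 : s35rd_One V (V₀ / (τ X / X ^ Q)) := s35rd_one_of_sub hE0 hEi hV₀
  have hV₀0 : V₀ ≠ 0 := by
    intro h0
    rw [h0, zero_div] at h2
    exact s35rd_one_ne_zero h2 rfl
  have h3 : s35rd_One V (τ (1 + π * y) / (1 + π * y) ^ Q) :=
    s35rd_one_div (s35rd_one_map τ hτnu h1) (s35rd_one_pow h1 Q)
  have h4 : s35rd_One V (τ c / c ^ Q * ((V₀ / (τ X / X ^ Q)) ^ n)⁻¹ *
      (τ (1 + π * y) / (1 + π * y) ^ Q)) :=
    s35rd_one_mul (s35rd_one_mul hc (s35rd_one_inv (s35rd_one_pow h2 n))) h3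
  have e : τ D / D ^ Q / V₀ ^ n = τ c / c ^ Q * ((V₀ / (τ X / X ^ Q)) ^ n)⁻¹ *
      (τ (1 + π * y) / (1 + π * y) ^ Q) := by
    have hτX : τ X ≠ 0 := (map_ne_zero τ).2 hX0
    rw [hD, map_mul, map_mul, map_pow]
    generalize τ c = A
    generalize τ (1 + π * y) = C
    generalize (1 + π * y) = z at h1' ⊢
    generalize τ X = B at hτX ⊢
    have hXQ : X ^ Q ≠ 0 := pow_ne_zero Q hX0
    have hBn : B ^ n ≠ 0 := pow_ne_zero n hτX
    have hXn : X ^ n ≠ 0 := pow_ne_zero n hX0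
    have hVn : V₀ ^ n ≠ 0 := pow_ne_zero n hV₀0
    have hcQ : c ^ Q ≠ 0 := pow_ne_zero Q hc0
    have hzQ : z ^ Q ≠ 0 := pow_ne_zero Q h1'
    rw [div_pow, div_pow, mul_pow, mul_pow, inv_div, ← pow_mul, ← pow_mul, mul_comm n Q]
    field_simp
  rw [e]
  exact h4

end One

end Fermat.Agent.S35
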