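/-
S35, leaf [NF-RED] = (E3) of the cut, THE MAIN THEOREM (helper28).  Prefix `s35rd_`.

Level `M q`, `q ∤ M`; `O` a discrete valuation ring of residue characteristic `q`, `K = Frac O`;
`W` the Atkin-Lehner involution of `F = F_K(M q)`, `V_∞ = s34g_V`, `V_0 = s34g_V0 O W`;
`σ` a Frobenius lift, `s = σ * σ`, `Q = q²`; `f ∈ Fˣ` with `N_α f = gⁿ`, `N_β f = g'ⁿ`;
`u = s35_fd f = s (s f) · f^Q / (s f)^(Q + 1)`.

    theorem s35rd_main : ∃ V₀ ≠ 0, … ∧ u / V₀ ^ n - 1 ∈ π · (V_∞ ⊓ V_0)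

together with the data of the two branches: `s f / f = c_w · X_wⁿ · (1 + π y_w)` ([RED_w]) and
`V₀ ≡ s X_w / X_w^Q` modulo `𝔪_w` ([APPR_w]).

Inputs, all on main: helper7's [NF-NORM] (`s35nn_normA'`, `s35nn_normB_eq`), helper3's
[NF-FROB] (`s35fr_*`), helper21's [NF-APPR] (`s35ap_approx`), helper27's Gauss branches.
-/
import Mathlib
import Fermat.Agent.S34.LiftDefs
import Fermat.Agent.S35.NfRedModel
import Fermat.Agent.S35.NfRedOne
import Fermat.Agent.S35.NfApprVal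
import Fermat.Agent.S35.NfNormAB
import Fermat.Agent.S35.NfFrobModel

set_option autoImplicit false
set_option linter.unusedSectionVars false
set_option linter.unusedVariables false
set_option linter.style.haveILetI false
set_option maxHeartbeats 400000

open AlgebraicCurve ModularCurve IntermediateField
open Fermat.Agent.S18 Fermat.Agent.S34 Fermat.Agent.S37

noncomputable section

namespace Fermat.Agent.S35

section Branch

variable {O K : Type} [CommRing O] [IsDomain O] [IsDiscreteValuationRing O] [Field K]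
  [CharZero K] [Algebra O K] [IsFractionRing O K] {N : ℕ} [NeZero N]

/-- The constants of `F_K(N)`. -/
def s35rd_const (O : Type) [CommRing O] (K : Type) [Field K] [CharZero K] [Algebra O K] (N : ℕ)
    [NeZero N] (a : O) : ↥(s18_F K N) :=
  algebraMap K ↥(s18_F K N) (algebraMap O K a)

theorem s35rd_const_mem (a : O) : s35rd_const O K N a ∈ s34g_V O K N :=
  s34g_algebraMap_mem a

theorem s35rd_const_mem0 (W : ↥(s18_F K N) ≃ₐ[K] ↥(s18_F K N)) (a : O) :
    s35rd_const O K N a ∈ s34g_V0 O W :=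
  s34g_algebraMap_mem0 a

/-- The non-units of `V_∞` are the elements of `V_∞` with reduction zero. -/
theorem s35rd_nu_iff (y : ↥(s18_F K N)) (hy : y ∈ s34g_V O K N) :
    y ∈ (s34g_V O K N).nonunits ↔ s34g_rho O K N ⟨y, hy⟩ = 0 := by
  rw [ValuationSubring.mem_nonunits_iff_exists_mem_maximalIdeal]
  constructor
  · rintro ⟨h, hm⟩
    exact (s34g_mem_maximalIdeal_iff _).1 hm
  · intro h
    exact ⟨hy, (s34g_mem_maximalIdeal_iff _).2 h⟩

/-- `𝔪_∞ = π V_∞`. -/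
theorem s35rd_nu_div {ϖ : O} (hϖ : Irreducible ϖ) (y : ↥(s18_F K N))
    (hy : y ∈ (s34g_V O K N).nonunits) : y / s35rd_pi K N ϖ ∈ s34g_V O K N := by
  have hyV : y ∈ s34g_V O K N := (s34g_V O K N).nonunits_subset hy
  exact s34g_rho_eq_zero hϖ ⟨y, hyV⟩ ((s35rd_nu_iff y hyV).1 hy)

theorem s35rd_nu_iff0 (W : ↥(s18_F K N) ≃ₐ[K] ↥(s18_F K N)) (y : ↥(s18_F K N)) :
    y ∈ (s34g_V0 O W).nonunits ↔ W y ∈ (s34g_V O K N).nonunits := by
  rw [ValuationSubring.mem_nonunits_iff_or, ValuationSubring.mem_nonunits_iff_or,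
    s34g_mem_V0_iff, map_inv₀, map_eq_zero_iff W W.injective]

/-- `𝔪_0 = π V_0`. -/
theorem s35rd_nu_div0 (W : ↥(s18_F K N) ≃ₐ[K] ↥(s18_F K N)) {ϖ : O} (hϖ : Irreducible ϖ)
    (y : ↥(s18_F K N)) (hy : y ∈ (s34g_V0 O W).nonunits) :
    y / s35rd_pi K N ϖ ∈ s34g_V0 O W := by
  rw [s34g_mem_V0_iff, map_div₀]
  have h2 : W (s35rd_pi K N ϖ) = s35rd_pi K N ϖ := W.commutes _
  rw [h2]
  exact s35rd_nu_div hϖ _ ((s35rd_nu_iff0 W y).1 hy)

theorem s35rd_pi_nonunit0 (W : ↥(s18_F K N) ≃ₐ[K] ↥(s18_F K N)) {ϖ : O}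
    (hϖ : Irreducible ϖ) : s35rd_pi K N ϖ ∈ (s34g_V0 O W).nonunits := by
  rw [s35rd_nu_iff0]
  have h2 : W (s35rd_pi K N ϖ) = s35rd_pi K N ϖ := W.commutes _
  rw [h2]
  exact s35rd_pi_nonunit hϖ

/-- The constants of `𝔪_O` are non-units of `V_∞`. -/
theorem s35rd_const_nu {a : O} (ha : a ∈ IsLocalRing.maximalIdeal O) :
    s35rd_const O K N a ∈ (s34g_V O K N).nonunits := by
  obtain ⟨ϖ, hϖ⟩ := IsDiscreteValuationRing.exists_irreducible O
  rw [hϖ.maximalIdeal_eq, Ideal.mem_span_singleton'] at ha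
  obtain ⟨b, rfl⟩ := ha
  have e : s35rd_const O K N (b * ϖ) = s35rd_const O K N b * s35rd_pi K N ϖ := by
    unfold s35rd_const s35rd_pi
    rw [map_mul, map_mul]
  rw [e]
  exact s35rd_nu_mul (s35rd_const_mem b) (s35rd_pi_nonunit hϖ)

theorem s35rd_const_nu0 (W : ↥(s18_F K N) ≃ₐ[K] ↥(s18_F K N)) {a : O}
    (ha : a ∈ IsLocalRing.maximalIdeal O) :
    s35rd_const O K N a ∈ (s34g_V0 O W).nonunits := by
  rw [s35rd_nu_iff0]
  have h2 : W (s35rd_const O K N a) = s35rd_const O K N a := W.commutes _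
  rw [h2]
  exact s35rd_const_nu ha

end Branch

section Const

variable {O K : Type} [CommRing O] [IsDomain O] [IsDiscreteValuationRing O] [Field K]
  [CharZero K] [Algebra O K] [IsFractionRing O K] {N : ℕ} [NeZero N]
  (q : ℕ) [NeZero q] [Fact q.Prime] [CharP (IsLocalRing.ResidueField O) q]
  (s : K ≃ₐ[ℚ] K)
  (hs : s35fr_Induces (O := O) (s : K →+* K)
    ((frobenius (IsLocalRing.ResidueField O) q).comp (frobenius (IsLocalRing.ResidueField O) q)))

include hs in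
/-- `s c / c ^ (q²) ∈ 1 + 𝔪` for the constants `c = η ^ a`, `η ∈ Oˣ`. -/
theorem s35rd_const_one (V : ValuationSubring ↥(s18_F K N))
    (hO : ∀ a : O, s35rd_const O K N a ∈ V)
    (hm : ∀ a : O, a ∈ IsLocalRing.maximalIdeal O → s35rd_const O K N a ∈ V.nonunits)
    (η : O) (hη : IsUnit η) (a : ℤ) :
    s35rd_One V (arithmeticGalois (modularFunctionFieldFull N) s • (s35rd_const O K N η ^ a) /
      (s35rd_const O K N η ^ a) ^ (q ^ 2)) := by
  obtain ⟨x', hx', hres⟩ := hs η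
  rw [s35fr_frob_sq_apply q, ← map_pow] at hres
  have hmem : x' - η ^ (q ^ 2) ∈ IsLocalRing.maximalIdeal O := by
    rw [← IsLocalRing.residue_eq_zero_iff, map_sub, hres, sub_self]
  have hη0 : s35rd_const O K N η ≠ 0 := by
    unfold s35rd_const
    rw [Ne, map_eq_zero_iff _ (algebraMap K ↥(s18_F K N)).injective,
      map_eq_zero_iff _ (IsFractionRing.injective O K)]
    exact hη.ne_zero
  have hτ : arithmeticGalois (modularFunctionFieldFull N) s • s35rd_const O K N η =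
      s35rd_const O K N x' := by
    show arithmeticRingAut (modularFunctionFieldFull N) s
      (algebraMap K ↥(s18_F K N) (algebraMap O K η)) = _
    rw [arithmeticRingAut_algebraMap]
    exact congrArg (algebraMap K ↥(s18_F K N)) hx'.symm
  obtain ⟨e, he⟩ := (hη.pow (q ^ 2)).exists_right_inv
  have hinv : (s35rd_const O K N η ^ (q ^ 2))⁻¹ = s35rd_const O K N e := by
    symm
    apply eq_inv_of_mul_eq_one_right
    have : s35rd_const O K N η ^ (q ^ 2) * s35rd_const O K N e =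
        s35rd_const O K N (η ^ (q ^ 2) * e) := by
      unfold s35rd_const
      rw [map_mul, map_mul, map_pow, map_pow]
    rw [this, he]
    unfold s35rd_const
    rw [map_one, map_one]
  have h1 : s35rd_One V (arithmeticGalois (modularFunctionFieldFull N) s • s35rd_const O K N η /
      s35rd_const O K N η ^ (q ^ 2)) := by
    show _ - 1 ∈ V.nonunits
    have e1 : arithmeticGalois (modularFunctionFieldFull N) s • s35rd_const O K N η /
        s35rd_const O K N η ^ (q ^ 2) - 1 =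
        s35rd_const O K N e * s35rd_const O K N (x' - η ^ (q ^ 2)) := by
      rw [hτ, div_eq_mul_inv, hinv]
      have e2 : s35rd_const O K N (x' - η ^ (q ^ 2)) =
          s35rd_const O K N x' - s35rd_const O K N η ^ (q ^ 2) := by
        unfold s35rd_const
        rw [map_sub, map_sub, map_pow, map_pow]
      have e3 : s35rd_const O K N η ^ (q ^ 2) * s35rd_const O K N e = 1 := by
        rw [← hinv]
        exact mul_inv_cancel₀ (pow_ne_zero _ hη0)
      rw [e2, mul_sub, mul_comm (s35rd_const O K N e) (s35rd_const O K N η ^ (q ^ 2)), e3, mul_comm]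
    rw [e1]
    exact s35rd_nu_mul (hO e) (hm _ hmem)
  have e4 : arithmeticGalois (modularFunctionFieldFull N) s • (s35rd_const O K N η ^ a) /
      (s35rd_const O K N η ^ a) ^ (q ^ 2) =
      (arithmeticGalois (modularFunctionFieldFull N) s • s35rd_const O K N η /
        s35rd_const O K N η ^ (q ^ 2)) ^ a := by
    have e5 : arithmeticGalois (modularFunctionFieldFull N) s • (s35rd_const O K N η ^ a) =
        (arithmeticGalois (modularFunctionFieldFull N) s • s35rd_const O K N η) ^ a :=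
      map_zpow₀ (arithmeticRingAut (modularFunctionFieldFull N) s) _ a
    rw [e5, div_zpow, ← zpow_natCast, ← zpow_natCast, ← zpow_mul, ← zpow_mul, mul_comm a]
  rw [e4]
  exact s35rd_one_zpow h1 a

end Const

section Main

variable {O K : Type} [CommRing O] [IsDomain O] [IsDiscreteValuationRing O] [Field K]
  [CharZero K] [Algebra O K] [IsFractionRing O K]
  (M q : ℕ) [NeZero M] [NeZero q] [NeZero (M * q)] (hq : q.Prime)
  (hqM : ¬ q ∣ M) (hqO : (q : O) ∈ IsLocalRing.maximalIdeal O) {ϖ : O} (hϖ : Irreducible ϖ)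
  (W : ↥(s18_F K (M * q)) ≃ₐ[K] ↥(s18_F K (M * q)))
  (hWα : ∀ f : ↥(s18_F K M), W (heckeAlphaBar K M q f) = heckeBetaBar K M q f)
  (hWβ : ∀ f : ↥(s18_F K M), W (heckeBetaBar K M q f) = heckeAlphaBar K M q f)
  (hWW : ∀ f : ↥(s18_F K (M * q)), W (W f) = f)
  (hne : s34g_V O K (M * q) ≠ s34g_V0 O W)
  (σ : K ≃ₐ[ℚ] K)
  (hσ : ∀ x : O, ∃ y : O, y ∈ IsLocalRing.maximalIdeal O ∧
    algebraMap O K y = σ (algebraMap O K x) - algebraMap O K x ^ q)
  (hWσ : ∀ y : ↥(s18_F K (M * q)),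
    W (arithmeticGalois (modularFunctionFieldFull (M * q)) (σ * σ) • y) =
      arithmeticGalois (modularFunctionFieldFull (M * q)) (σ * σ) • W y)

/-- The Frobenius difference in terms of `D = s f / f`. -/
theorem s35rd_fd_eq (N : ℕ) [NeZero N] (s : K ≃ₐ[ℚ] K) (f : ↥(s18_F K N)) (hf : f ≠ 0) :
    s35_fd N q s f =
      arithmeticGalois (modularFunctionFieldFull N) s •
          (arithmeticGalois (modularFunctionFieldFull N) s • f / f) /
        (arithmeticGalois (modularFunctionFieldFull N) s • f / f) ^ (q ^ 2) := by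
  have hsf : arithmeticGalois (modularFunctionFieldFull N) s • f ≠ 0 :=
    (map_ne_zero (arithmeticRingAut (modularFunctionFieldFull N) s)).2 hf
  have e : arithmeticGalois (modularFunctionFieldFull N) s •
      (arithmeticGalois (modularFunctionFieldFull N) s • f / f) =
      arithmeticGalois (modularFunctionFieldFull N) s •
        (arithmeticGalois (modularFunctionFieldFull N) s • f) /
        arithmeticGalois (modularFunctionFieldFull N) s • f :=
    map_div₀ (arithmeticRingAut (modularFunctionFieldFull N) s) _ _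
  rw [e]
  unfold s35_fd
  generalize arithmeticGalois (modularFunctionFieldFull N) s •
    (arithmeticGalois (modularFunctionFieldFull N) s • f) = A
  generalize arithmeticGalois (modularFunctionFieldFull N) s • f = B at hsf ⊢
  rw [div_pow]
  field_simp
  ring

include hq hqM hqO hϖ hWα hWβ hWW hne hσ hWσ in
/-- **[NF-RED]** the data of the two branches, the approximating element `V₀` and the global
statement `u / V₀ ^ n ∈ 1 + π (V_∞ ⊓ V_0)`. -/
theorem s35rd_main (n : ℕ) (hn : n ≠ 0) (f : ↥(s18_F K (M * q))) (hf : f ≠ 0)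
    (g g' : ↥(s18_F K M)) (hg : g ^ n = s35_normA K M q f) (hg' : g' ^ n = s35_normB K M q f) :
    ∃ (V₀ : ↥(s18_F K (M * q))) (η₁ η₂ : O) (a b : ℤ) (X₁ : ↥(s34g_V O K (M * q)))
      (X₂ : ↥(s34g_V0 O W)) (y₁ y₂ : ↥(s18_F K (M * q))),
      V₀ ≠ 0 ∧ V₀ ∈ s34g_V O K (M * q) ∧ V₀ ∈ s34g_V0 O W ∧
      IsUnit η₁ ∧ IsUnit η₂ ∧ s34g_rho O K (M * q) X₁ ≠ 0 ∧ s34g_rho0 O W X₂ ≠ 0 ∧
      y₁ ∈ s34g_V O K (M * q) ∧ y₂ ∈ s34g_V0 O W ∧
      arithmeticGalois (modularFunctionFieldFull (M * q)) (σ * σ) • f / f =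
        s35rd_const O K (M * q) η₁ ^ a * (X₁ : ↥(s18_F K (M * q))) ^ n *
          (1 + s35rd_pi K (M * q) ϖ * y₁) ∧
      arithmeticGalois (modularFunctionFieldFull (M * q)) (σ * σ) • f / f =
        s35rd_const O K (M * q) η₂ ^ b * (X₂ : ↥(s18_F K (M * q))) ^ n *
          (1 + s35rd_pi K (M * q) ϖ * y₂) ∧
      V₀ - arithmeticGalois (modularFunctionFieldFull (M * q)) (σ * σ) •
          (X₁ : ↥(s18_F K (M * q))) / (X₁ : ↥(s18_F K (M * q))) ^ (q ^ 2) ∈
        (s34g_V O K (M * q)).nonunits ∧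
      V₀ - arithmeticGalois (modularFunctionFieldFull (M * q)) (σ * σ) •
          (X₂ : ↥(s18_F K (M * q))) / (X₂ : ↥(s18_F K (M * q))) ^ (q ^ 2) ∈
        (s34g_V0 O W).nonunits ∧
      s35rd_One (s34g_V O K (M * q)) (s35_fd (M * q) q (σ * σ) f / V₀ ^ n) ∧
      s35rd_One (s34g_V0 O W) (s35_fd (M * q) q (σ * σ) f / V₀ ^ n) ∧
      (letI := s18_algOF O K (M * q);
        s35_fd (M * q) q (σ * σ) f / V₀ ^ n - 1 ∈ s34l_gauss O ϖ (s34g_W2 O W) 1) := by
  haveI : Fact q.Prime := ⟨hq⟩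
  haveI := s35fr_charP (O := O) hq hqO
  have hσ' : s35fr_Induces (O := O) (σ : K →+* K)
      (frobenius (IsLocalRing.ResidueField O) q) := s35fr_induces_frob σ q hσ
  have hs := s35fr_induces_mul hσ' hσ'
  have hE2 : s35rd_NormCong M q W ϖ := fun x a b x₁ x₂ hx₁ hx₂ hx hWx => by
    obtain ⟨n₁, h1, h2, h3⟩ :=
      s35nn_normA' M q hq hqM hqO hϖ W hWα hWβ x a b x₁ x₂ hx₁ hx₂ hx hWx
    exact ⟨n₁, h2, h3⟩
  have hNB : ∀ x : ↥(s18_F K (M * q)), s35_normB K M q x = s35_normA K M q (W x) :=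
    fun x => s35nn_normB_eq M q W hWβ x
  obtain ⟨η₁, a, X₁, y₁, hη₁, hX₁, hy₁, hD₁⟩ :=
    s35rd_inf hWW σ hσ' hϖ hE2 hNB n hn f hf g g' hg hg'
  obtain ⟨η₂, b, X₂, y₂, hη₂, hX₂, hy₂, hD₂⟩ :=
    s35rd_zero hWW σ hσ' hWσ hϖ hE2 hNB n hn f hf g g' hg hg'
  -- the two units `E_w = s X_w / X_w ^ Q`
  have hX₁0 : (X₁ : ↥(s18_F K (M * q))) ≠ 0 := s35rd_unit_ne_zero X₁ hX₁
  have hX₂0 : (X₂ : ↥(s18_F K (M * q))) ≠ 0 := by
    intro h0
    apply hX₂
    have : X₂ = 0 := Subtype.ext h0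
    rw [this, map_zero]
  have hX₁i : (X₁ : ↥(s18_F K (M * q)))⁻¹ ∈ s34g_V O K (M * q) := s34g_inv_mem X₁ hX₁
  have hX₂i : (X₂ : ↥(s18_F K (M * q)))⁻¹ ∈ s34g_V0 O W := s34g_inv_mem0 X₂ hX₂
  have hτV₁ : ∀ x ∈ s34g_V O K (M * q),
      arithmeticGalois (modularFunctionFieldFull (M * q)) (σ * σ) • x ∈ s34g_V O K (M * q) :=
    fun x hx => s35fr_tau_mem (σ * σ) _ hs x hx
  have hτV₂ : ∀ x ∈ s34g_V0 O W,
      arithmeticGalois (modularFunctionFieldFull (M * q)) (σ * σ) • x ∈ s34g_V0 O W :=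
    fun x hx => s35fr_tau_mem0 (σ * σ) _ hs W hWσ x hx
  have hE₁ : arithmeticGalois (modularFunctionFieldFull (M * q)) (σ * σ) •
      (X₁ : ↥(s18_F K (M * q))) / (X₁ : ↥(s18_F K (M * q))) ^ (q ^ 2) ∈
      s34g_V O K (M * q) := by
    rw [div_eq_mul_inv, ← inv_pow]
    exact (s34g_V O K (M * q)).mul_mem _ _ (hτV₁ _ X₁.2) (pow_mem hX₁i _)
  have hE₂ : arithmeticGalois (modularFunctionFieldFull (M * q)) (σ * σ) •
      (X₂ : ↥(s18_F K (M * q))) / (X₂ : ↥(s18_F K (M * q))) ^ (q ^ 2) ∈ s34g_V0 O W := by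
    rw [div_eq_mul_inv, ← inv_pow]
    exact (s34g_V0 O W).mul_mem _ _ (hτV₂ _ X₂.2) (pow_mem hX₂i _)
  -- approximation
  have hπ0 : s35rd_pi K (M * q) ϖ ≠ 0 := s35rd_pi_ne_zero hϖ
  have hu₁ : ∀ h : ↥(s18_F K (M * q)), h ≠ 0 → ∃ (c : ℤ) (h' : ↥(s18_F K (M * q))),
      h' ∈ s34g_V O K (M * q) ∧ h'⁻¹ ∈ s34g_V O K (M * q) ∧
        h = s35rd_pi K (M * q) ϖ ^ c * h' := by
    intro h hh
    obtain ⟨e, u, hu, rfl⟩ := s34g_exists_pow (O := O) hϖ h hh
    exact ⟨e, u, u.2, s34g_inv_mem u hu, rfl⟩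
  have hu₂ : ∀ h : ↥(s18_F K (M * q)), h ≠ 0 → ∃ (c : ℤ) (h' : ↥(s18_F K (M * q))),
      h' ∈ s34g_V0 O W ∧ h'⁻¹ ∈ s34g_V0 O W ∧ h = s35rd_pi K (M * q) ϖ ^ c * h' := by
    intro h hh
    obtain ⟨e, u, hu, rfl⟩ := s34g_exists_pow0 (O := O) (W := W) hϖ h hh
    exact ⟨e, u, u.2, s34g_inv_mem0 u hu, rfl⟩
  obtain ⟨V₀, hV₁, hV₂, hV₁', hV₂'⟩ := s35ap_approx (s34g_V O K (M * q)) (s34g_V0 O W) hne
    (s35rd_pi K (M * q) ϖ) (s35rd_pi K (M * q) ϖ) (s35rd_pi_nonunit hϖ) hπ0 hu₁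
    (s35rd_pi_nonunit0 W hϖ) hπ0 hu₂ _ _ hE₁ hE₂
  -- the global step on both branches
  have hτnu₁ : ∀ x ∈ (s34g_V O K (M * q)).nonunits,
      arithmeticGalois (modularFunctionFieldFull (M * q)) (σ * σ) • x ∈
        (s34g_V O K (M * q)).nonunits := fun x hx =>
    (s35fr_nonunits_iff (s34g_V O K (M * q))
      (arithmeticRingAut (modularFunctionFieldFull (M * q)) (σ * σ))
      (fun y => s35fr_tau_mem_iff (σ * σ) _ hs y) x).2 hx
  have hτnu₂ : ∀ x ∈ (s34g_V0 O W).nonunits,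
      arithmeticGalois (modularFunctionFieldFull (M * q)) (σ * σ) • x ∈
        (s34g_V0 O W).nonunits := fun x hx =>
    (s35fr_nonunits_iff (s34g_V0 O W)
      (arithmeticRingAut (modularFunctionFieldFull (M * q)) (σ * σ))
      (fun y => s35fr_tau_mem_iff0 (σ * σ) _ hs W hWσ y) x).2 hx
  have hη₁0 : s35rd_const O K (M * q) η₁ ^ a ≠ 0 := by
    apply zpow_ne_zero
    unfold s35rd_const
    rw [Ne, map_eq_zero_iff _ (algebraMap K ↥(s18_F K (M * q))).injective,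
      map_eq_zero_iff _ (IsFractionRing.injective O K)]
    exact hη₁.ne_zero
  have hη₂0 : s35rd_const O K (M * q) η₂ ^ b ≠ 0 := by
    apply zpow_ne_zero
    unfold s35rd_const
    rw [Ne, map_eq_zero_iff _ (algebraMap K ↥(s18_F K (M * q))).injective,
      map_eq_zero_iff _ (IsFractionRing.injective O K)]
    exact hη₂.ne_zero
  have hone₁ : s35rd_One (s34g_V O K (M * q)) (s35_fd (M * q) q (σ * σ) f / V₀ ^ n) := by
    rw [s35rd_fd_eq (q := q) (M * q) (σ * σ) f hf]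
    exact s35rd_global_abs
      ((arithmeticRingAut (modularFunctionFieldFull (M * q)) (σ * σ) :
        ↥(s18_F K (M * q)) ≃+* ↥(s18_F K (M * q))) : ↥(s18_F K (M * q)) →+* ↥(s18_F K (M * q)))
      hτV₁ hτnu₁ (q ^ 2) n _ (s35rd_const O K (M * q) η₁ ^ a) (X₁ : ↥(s18_F K (M * q))) y₁
      (s35rd_pi K (M * q) ϖ) V₀ (s35rd_pi_nonunit hϖ) hy₁ hX₁0 X₁.2 hX₁i hη₁0
      (s35rd_const_one q (σ * σ) hs (s34g_V O K (M * q)) (fun c => s35rd_const_mem c)
        (fun c hc => s35rd_const_nu hc) η₁ hη₁ a) hD₁ hV₁'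
  have hone₂ : s35rd_One (s34g_V0 O W) (s35_fd (M * q) q (σ * σ) f / V₀ ^ n) := by
    rw [s35rd_fd_eq (q := q) (M * q) (σ * σ) f hf]
    exact s35rd_global_abs
      ((arithmeticRingAut (modularFunctionFieldFull (M * q)) (σ * σ) :
        ↥(s18_F K (M * q)) ≃+* ↥(s18_F K (M * q))) : ↥(s18_F K (M * q)) →+* ↥(s18_F K (M * q)))
      hτV₂ hτnu₂ (q ^ 2) n _ (s35rd_const O K (M * q) η₂ ^ b) (X₂ : ↥(s18_F K (M * q))) y₂
      (s35rd_pi K (M * q) ϖ) V₀ (s35rd_pi_nonunit0 W hϖ) hy₂ hX₂0 X₂.2 hX₂i hη₂0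
      (s35rd_const_one q (σ * σ) hs (s34g_V0 O W) (fun c => s35rd_const_mem0 W c)
        (fun c hc => s35rd_const_nu0 W hc) η₂ hη₂ b) hD₂ hV₂'
  have hV₀0 : V₀ ≠ 0 := by
    intro h0
    have h1 := s35rd_one_ne_zero hone₁
    rw [h0, zero_pow hn, div_zero] at h1
    exact h1 rfl
  refine ⟨V₀, η₁, η₂, a, b, X₁, X₂, y₁, y₂, hV₀0, hV₁, hV₂, hη₁, hη₂, hX₁, hX₂, hy₁, hy₂,
    hD₁, hD₂, hV₁', hV₂', hone₁, hone₂, ?_⟩
  letI := s18_algOF O K (M * q)
  refine ⟨(s35_fd (M * q) q (σ * σ) f / V₀ ^ n - 1) / s35rd_pi K (M * q) ϖ,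
    (s34g_mem_W2_iff _).2 ⟨s35rd_nu_div hϖ _ hone₁, s35rd_nu_div0 W hϖ _ hone₂⟩, ?_⟩
  rw [pow_one]
  exact (mul_div_cancel₀ _ hπ0).symm

end Main

end Fermat.Agent.S35
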