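/-
S35, (NF-K), THE MODEL ASSEMBLY (owner: helper29).  Prefix `s35k_`.

    theorem s35k_data_of : s35k_ChartStatement → s35k_DichStatement → s35k_DataStatement

The chart theorem (`s35k_ChartStatement`) applied to both charts `chart(J)`, `chart(J⁻¹)` of the
model at level `M q`, with

* [K-COORD] `s34km_coord_main`, [K-ISW] `s34iw_kmain`, [K-VERT] `s34kvi_main`, [K-LOC]
  `s34lg_kloc_of s34km_coord_main s34nd_dich_main` (the S34 model);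
* [NF-FROB] `s35fr_model_main` (the square of the Frobenius lift stabilises the charts and the
  two valuation rings);
* [NF-RED] `s35rd_main` (the data of the two branches and the approximating function `V₀`);
* the refined dichotomy at the model (`s35k_DichStatement`);
* the divisor of the Frobenius difference (`s35k_fd_dvd`, `s35k_fd_deg`).
-/
import Mathlib
import Fermat.Agent.S34.KMainOf
import Fermat.Agent.S34.KVertFinal
import Fermat.Agent.S34.SsNodeK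
import Fermat.Agent.S34.IsWKInt
import Fermat.Agent.S34.SsGaussNe
import Fermat.Agent.S34.KData
import Fermat.Agent.S35.NfKDefs
import Fermat.Agent.S35.NfKOrd
import Fermat.Agent.S35.NfKChartDefs
import Fermat.Agent.S35.NfRedMain

set_option autoImplicit false
set_option linter.style.haveILetI false
set_option linter.unusedVariables false
set_option synthInstance.maxHeartbeats 400000
set_option maxHeartbeats 1000000

open AlgebraicCurve ModularCurve IntermediateField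

noncomputable section

namespace Fermat.Agent.S35

open Fermat.Agent.S18 Fermat.Agent.S34

/-- **(NF-K-DATA)** from the chart theorem and the refined dichotomy at the model. -/
theorem s35k_data_of (hC : s35k_ChartStatement) (hD : s35k_DichStatement) :
    s35k_DataStatement := by
  intro M q _ _ hq hqM h49 A hA K0 hK0 O _ hO σ0 hσ0 n hn f hf hord hdeg hNA hNB
  haveI : NeZero (M * q) := ⟨Nat.mul_ne_zero (NeZero.ne M) hq.ne_zero⟩
  haveI : Fact q.Prime := ⟨hq⟩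
  letI := s18_algOF ↥O ↥K0 (M * q)
  haveI := s18_towerOF ↥O ↥K0 (M * q)
  have hqO : (q : ↥O) ∈ IsLocalRing.maximalIdeal ↥O := s35k_q_mem hA K0 O hO
  obtain ⟨ϖ, hϖ⟩ := IsDiscreteValuationRing.exists_irreducible ↥O
  have hn0 : n ≠ 0 := by
    rintro rfl
    exact hn (dvd_zero q)
  obtain ⟨htr, hfin⟩ := s34km_coord_main M q hq hqM K0
  obtain ⟨htr', hfin'⟩ := s34l1_inv_coord (s34km_J M q K0) htr hfin
  have hW := s34iw_kmain M q hq hqM h49 K0 hK0 O hqO ϖ hϖ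
  obtain ⟨hV1, hV2⟩ := s34kvi_main M q hq hqM h49 K0 hK0 O hqO ϖ hϖ
  obtain ⟨hL1, hL2⟩ :=
    s34lg_kloc_of s34km_coord_main s34nd_dich_main M q hq hqM h49 K0 hK0 O hqO ϖ hϖ
  obtain ⟨⟨hτ1, hτ2⟩, -⟩ := s35fr_model_main M q hq hqM K0 O hqO ϖ hϖ σ0 hσ0
  obtain ⟨g, hg⟩ := hNA
  obtain ⟨g', hg'⟩ := hNB
  obtain ⟨V₀, η₁, η₂, a, b, X₁, X₂, y₁, y₂, hV₀0, hV₀1, hV₀2, hη₁, hη₂, hX₁, hX₂, hy₁, hy₂,
      hD₁, hD₂, hA₁, hA₂, hone₁, hone₂, hgauss⟩ :=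
    s35rd_main (O := ↥O) (K := ↥K0) M q hq hqM hqO hϖ (s34w_W M q K0 hq hqM)
      (s34w_W_alpha hq hqM) (s34w_W_beta hq hqM) (s34w_W_W hq hqM)
      (s34g_V_ne_V0 q (dvd_mul_left q M) hqO _ (s34w_W_j hq hqM) (s34w_W_jq hq hqM)) σ0 hσ0
      (s34w_W_galois hq hqM (σ0 * σ0)) n hn0 f hf g g' hg hg'
  have hdich := hD M q hq hqM h49 K0 hK0 O hqO ϖ hϖ σ0 hσ0
  refine ⟨s34km_J M q K0, ϖ, s34g_W2 ↥O (s34w_W M q K0 hq hqM), V₀, hϖ, htr, hfin, hW, hV₀0,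
    hgauss, ?_, ?_⟩
  · exact hC ↥O ↥K0 _ (s34km_J M q K0) htr hfin ϖ hϖ _ _ _ hV1 hL1 _ hτ1 (q ^ 2)
      (pow_ne_zero 2 hq.ne_zero)
      (fun 𝔫 h𝔫 hπ𝔫 => hdich _ (Or.inl rfl) _ _ _ (fun b => s34l1_mem_centre _ _ b)
        (fun b => s34l1_mem_centre _ _ b) (fun b => rfl) 𝔫 h𝔫 hπ𝔫)
      n hn0 f hf hord hdeg (fun P => s35k_fd_dvd (M * q) q (σ0 * σ0) hf n hord P)
      (fun P hP => s35k_fd_deg (M * q) q (σ0 * σ0) hf hdeg P hP)
      η₁ η₂ a b X₁ X₂ y₁ y₂ V₀ hη₁ hη₂ X₁.2 (s34g_inv_mem X₁ hX₁) X₂.2 (s34g_inv_mem0 X₂ hX₂)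
      hy₁ hy₂ hV₀0 hV₀1 hV₀2 hD₁ hD₂ hA₁ hA₂ hone₁ hone₂
  · exact hC ↥O ↥K0 _ (s34km_J M q K0)⁻¹ htr' hfin' ϖ hϖ _ _ _ hV2 hL2 _ hτ2 (q ^ 2)
      (pow_ne_zero 2 hq.ne_zero)
      (fun 𝔫 h𝔫 hπ𝔫 => hdich _ (Or.inr rfl) _ _ _ (fun b => s34l1_mem_centre _ _ b)
        (fun b => s34l1_mem_centre _ _ b) (fun b => rfl) 𝔫 h𝔫 hπ𝔫)
      n hn0 f hf hord hdeg (fun P => s35k_fd_dvd (M * q) q (σ0 * σ0) hf n hord P)
      (fun P hP => s35k_fd_deg (M * q) q (σ0 * σ0) hf hdeg P hP)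
      η₁ η₂ a b X₁ X₂ y₁ y₂ V₀ hη₁ hη₂ X₁.2 (s34g_inv_mem X₁ hX₁) X₂.2 (s34g_inv_mem0 X₂ hX₂)
      hy₁ hy₂ hV₀0 hV₀1 hV₀2 hD₁ hD₂ hA₁ hA₂ hone₁ hone₂

end Fermat.Agent.S35
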