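/-
S35, (NF-K-DATA), THE LAST LINE (owner: helper29).  Prefix `s35k_`.

    theorem s35k_data_main : s35k_DataStatement          (HYPOTHESIS-FREE)

= the model assembly `s35k_data_of` (`S35/NfKModel.lean`) applied to the chart theorem
`s35kh_chart_main` (`S35/NfKChartH.lean`) and to the refined dichotomy at the model
`s35k_dich_main` (helper22, `S35/NfKDich.lean`).  With it

    hK : s35_UStarKStatement := s35k_ustarK_of s34l_lift2_main s35k_data_main.
-/
import Mathlib
import Fermat.Agent.S35.NfKModel
import Fermat.Agent.S35.NfKChartH
import Fermat.Agent.S35.NfKDich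

set_option autoImplicit false

noncomputable section

namespace Fermat.Agent.S35

/-- **(NF-K-DATA)**, hypothesis-free. -/
theorem s35k_data_main : s35k_DataStatement :=
  s35k_data_of s35kh_chart_main s35k_dich_main

end Fermat.Agent.S35
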