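/-
S35, leaf [NF-RAT] of `S35/NfDefs.lean`, VERBATIM (owner: helper25).  Prefix `s35nr_`.

    theorem s35nr_main_of : s35nr_NormBCStatement → s35_RatStatement
                                       (s35_RatStatement = s35_UStarKStatement → s35_UStarMStatement)

`s35nr_NormBCStatement` = the norms along `α`, `β` commute with the extension of constants
`K1 → Q̄` (`ι (N_α f) = N_α (ι f)`).

ROUTE (the one of `S34/URat.lean`).  `f ∈ F̄_{Mq}ˣ`, `n ∣ ord_P f`, `g_A^n = N_α f`,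
`g_B^n = N_β f`, `σ` a Frobenius lift at `A`.
 (R1) `K0`: the support of `div f` restricts to rational places and `f`, `g_A`, `g_B` descend,
      over every `K1 ⊇ K0`; `K1 :=` the normal closure of `K0`, `σ0 := σ.restrictNormal K1`,
      `O := A ∩ K1` a discrete valuation ring, `σ0 x - x^q ∈ 𝔪_O` on `O`.
 (R2) [CFE]: `n ∣ ord_Q f1`, and `ord_Q f1 ≠ 0 ⟹ deg Q = 1`.
 (R3) `g_{A,1}^n = N_α f1`: apply the injective `ι` and [NORM-BC].
 (R4) (NF-K) with `C = Q̄`, pushed forward by `S18.s18rq_push`.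
-/
import Mathlib
import Fermat.Agent.S35.NfDefs
import Fermat.Agent.S34.URat

set_option autoImplicit false
set_option synthInstance.maxHeartbeats 400000
set_option maxHeartbeats 1000000
set_option linter.style.haveILetI false

open AlgebraicCurve ModularCurve IntermediateField
open scoped TensorProduct

noncomputable section

namespace Fermat.Agent.S35

open Fermat.Agent.S18 Fermat.Agent.S24 Fermat.Agent.S34

/-- **[NORM-BC]** the norms along the two degeneracy maps commute with the extension of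
constants from a subfield `K1` of `Q̄` to `Q̄`. -/
def s35nr_NormBCStatement : Prop :=
  ∀ (M q : ℕ) [NeZero M] [NeZero q], q.Prime → ¬ q ∣ M →
    ∀ (K1 : IntermediateField ℚ (AlgebraicClosure ℚ)) (f : ↥(s18_F ↥K1 (M * q))),
      S37.s37rl_iota M K1 (s35_normA ↥K1 M q f) =
        s35_normA (AlgebraicClosure ℚ) M q (S37.s37rl_iota (M * q) K1 f) ∧
      S37.s37rl_iota M K1 (s35_normB ↥K1 M q f) =
        s35_normB (AlgebraicClosure ℚ) M q (S37.s37rl_iota (M * q) K1 f)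

/-! ### Frobenius lifts -/

/-- A Frobenius lift at `A` moves the elements of `A` to their `q`-th powers modulo the maximal
ideal. -/
theorem s35nr_frob_sub (A : ValuationSubring (AlgebraicClosure ℚ))
    (σ : AlgebraicClosure ℚ ≃ₐ[ℚ] AlgebraicClosure ℚ) (q : ℕ) (hσ : A.IsFrobeniusAt σ q)
    (a : AlgebraicClosure ℚ) (ha : a ∈ A) : σ a - a ^ q ∈ A.nonunits := by
  obtain ⟨hmem, hx⟩ := hσ
  have h2 := hx (IsLocalRing.residue A ⟨a, ha⟩)
  rw [← IsLocalRing.ResidueField.residue_smul, ← map_pow] at h2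
  have h3 : IsLocalRing.residue A
      ((⟨σ, hmem⟩ : A.decompositionSubgroup ℚ) • (⟨a, ha⟩ : A) - (⟨a, ha⟩ : A) ^ q) = 0 := by
    rw [map_sub, h2, sub_self]
  have h4 := (IsLocalRing.residue_eq_zero_iff _).1 h3
  have h5 := (A.valuation_lt_one_iff _).1 h4
  exact (ValuationSubring.mem_nonunits_iff A).2 h5

section Restr

variable (N : ℕ) (K1 : IntermediateField ℚ (AlgebraicClosure ℚ)) [Normal ℚ ↥K1]

theorem s35nr_restrict_mul (σ : AlgebraicClosure ℚ ≃ₐ[ℚ] AlgebraicClosure ℚ) :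
    (σ * σ).restrictNormal ↥K1 = σ.restrictNormal ↥K1 * σ.restrictNormal ↥K1 :=
  map_mul (AlgEquiv.restrictNormalHom ↥K1) σ σ

omit [Normal ℚ ↥K1] in
/-- A ring homomorphism intertwining two maps commutes with the Frobenius difference. -/
theorem s35nr_fd_map {F F' : Type*} [Field F] [Field F'] (ι : F →+* F') (a : F → F)
    (a' : F' → F') (h : ∀ x, ι (a x) = a' (ι x)) (g : F) (k l : ℕ) :
    ι (a (a g) * g ^ k / (a g) ^ l) = a' (a' (ι g)) * (ι g) ^ k / (a' (ι g)) ^ l := by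
  rw [map_div₀, map_mul, map_pow, map_pow, h, h]

/-- The coefficientwise embedding commutes with the Frobenius difference. -/
theorem s35nr_iota_fd' (q : ℕ) (σ : AlgebraicClosure ℚ ≃ₐ[ℚ] AlgebraicClosure ℚ)
    (g : ↥(s18_F ↥K1 N)) :
    S37.s37rl_iota N K1 (s35_fd N q ((σ * σ).restrictNormal ↥K1) g) =
      s35_fd N q (σ * σ) (S37.s37rl_iota N K1 g) :=
  s35nr_fd_map (S37.s37rl_iota N K1)
    (fun x => arithmeticGalois (modularFunctionFieldFull N) ((σ * σ).restrictNormal ↥K1) • x)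
    (fun x => arithmeticGalois (modularFunctionFieldFull N) (σ * σ) • x)
    (fun h => s34ur_iota_smul N K1 (σ * σ) h) g (q ^ 2) (q ^ 2 + 1)

/-- The coefficientwise embedding commutes with the Frobenius difference. -/
theorem s35nr_iota_fd (q : ℕ) (σ : AlgebraicClosure ℚ ≃ₐ[ℚ] AlgebraicClosure ℚ)
    (g : ↥(s18_F ↥K1 N)) :
    S37.s37rl_iota N K1 (s35_fd N q (σ.restrictNormal ↥K1 * σ.restrictNormal ↥K1) g) =
      s35_fd N q (σ * σ) (S37.s37rl_iota N K1 g) := by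
  have h := s35nr_iota_fd' N K1 q σ g
  rw [s35nr_restrict_mul] at h
  exact h

/-- The restriction of a Frobenius lift at `A` is a Frobenius lift at `A ∩ K1`. -/
theorem s35nr_frob (A : ValuationSubring (AlgebraicClosure ℚ))
    (σ : AlgebraicClosure ℚ ≃ₐ[ℚ] AlgebraicClosure ℚ) (q : ℕ) (hσ : A.IsFrobeniusAt σ q)
    (x : ↥(A.comap (algebraMap ↥K1 (AlgebraicClosure ℚ)))) :
    ∃ y : ↥(A.comap (algebraMap ↥K1 (AlgebraicClosure ℚ))),
      y ∈ IsLocalRing.maximalIdeal ↥(A.comap (algebraMap ↥K1 (AlgebraicClosure ℚ))) ∧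
      (y : ↥K1) = (σ.restrictNormal ↥K1) (x : ↥K1) - (x : ↥K1) ^ q := by
  have hxA : algebraMap ↥K1 (AlgebraicClosure ℚ) (x : ↥K1) ∈ A := x.2
  have h2 : algebraMap ↥K1 (AlgebraicClosure ℚ)
      ((σ.restrictNormal ↥K1) (x : ↥K1) - (x : ↥K1) ^ q) ∈ A.nonunits := by
    rw [map_sub, AlgEquiv.restrictNormal_commutes, map_pow]
    exact s35nr_frob_sub A σ q hσ _ hxA
  have h3 : (σ.restrictNormal ↥K1) (x : ↥K1) - (x : ↥K1) ^ q ∈
      (A.comap (algebraMap ↥K1 (AlgebraicClosure ℚ))).nonunits :=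
    s18rq_nonunits_comap _ A h2
  have h4 : (σ.restrictNormal ↥K1) (x : ↥K1) - (x : ↥K1) ^ q ∈
      A.comap (algebraMap ↥K1 (AlgebraicClosure ℚ)) :=
    ValuationSubring.nonunits_subset h3
  refine ⟨⟨_, h4⟩, ?_, rfl⟩
  rw [← ValuationSubring.coe_mem_nonunits_iff]
  exact h3

end Restr

/-! ### [NF-RAT] -/

/-- **[NF-RAT]** from [NORM-BC]. -/
theorem s35nr_main_of (hBC : s35nr_NormBCStatement) : s35_RatStatement := by
  intro hK M q _ _ hq hqM h49 A hA σ hσ n hn f hf hord hgA hgB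
  obtain ⟨gA, hgA⟩ := hgA
  obtain ⟨gB, hgB⟩ := hgB
  classical
  haveI : NeZero (M * q) := ⟨Nat.mul_ne_zero (NeZero.ne M) hq.ne_zero⟩
  haveI : Fact q.Prime := ⟨hq⟩
  -- (R1) the fields
  obtain ⟨D, hD, -⟩ := (S37.s37fin_hasPD (M * q)).exists_divisor f hf
  obtain ⟨K0, hK0, h0⟩ := S37.s37rl_main_finset (M * q) D.support {f}
  obtain ⟨K0', hK0', h0'⟩ := S37.s37rl_descent_finset M {gA, gB}
  haveI := hK0
  haveI := hK0'
  haveI hclos : IsAlgClosure ℚ (AlgebraicClosure ℚ) := AlgebraicClosure.instIsAlgClosure ℚ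
  haveI : Normal ℚ (AlgebraicClosure ℚ) := IsAlgClosure.normal ℚ (AlgebraicClosure ℚ)
  obtain ⟨K1, hK01, hK1, hnorm⟩ : ∃ K1 : IntermediateField ℚ (AlgebraicClosure ℚ),
      K0 ⊔ K0' ≤ K1 ∧ FiniteDimensional ℚ ↥K1 ∧ Normal ℚ ↥K1 :=
    ⟨IntermediateField.normalClosure ℚ ↥(K0 ⊔ K0') (AlgebraicClosure ℚ),
      IntermediateField.le_normalClosure (K0 ⊔ K0'),
      normalClosure.is_finiteDimensional ℚ ↥(K0 ⊔ K0') _, normalClosure.normal ℚ ↥(K0 ⊔ K0') _⟩
  haveI := hnorm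
  obtain ⟨h1, h2⟩ := h0 K1 (le_trans le_sup_left hK01)
  obtain ⟨f1, hf1⟩ := h1 f (Finset.mem_singleton_self f)
  obtain ⟨gA1, hgA1⟩ := h0' K1 (le_trans le_sup_right hK01) gA
    (Finset.mem_insert_self _ _)
  obtain ⟨gB1, hgB1⟩ := h0' K1 (le_trans le_sup_right hK01) gB
    (Finset.mem_insert_of_mem (Finset.mem_singleton_self _))
  have hf10 : f1 ≠ 0 := by
    rintro rfl
    apply hf
    rw [← hf1, map_zero]
  have hqO : (q : ↥K1) ∈ (A.comap (algebraMap ↥K1 (AlgebraicClosure ℚ))).nonunits := by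
    apply s18rq_nonunits_comap
    rw [map_natCast]
    exact hA
  have hdvr : IsDiscreteValuationRing ↥(A.comap (algebraMap ↥K1 (AlgebraicClosure ℚ))) := by
    apply s18disc_main ℚ ↥K1
    apply s18rq_dvrQ _ q
    apply s18rq_nonunits_comap
    rw [map_natCast]
    exact hqO
  -- (R2) [CFE]
  have hcfe : ∀ Q : Place ↥K1 ↥(s18_F ↥K1 (M * q)),
      ∃ Q' : Place (AlgebraicClosure ℚ) ↥(modularFunctionFieldBar (M * q)),
        ∀ g : ↥(s18_F ↥K1 (M * q)), Q'.ord (S37.s37rl_iota (M * q) K1 g) = Q.ord g := by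
    intro Q
    obtain ⟨Q', hQ'⟩ := s18cfe_main (M * q) K1 hK1 Q
    exact ⟨Q', fun g => hQ' g _ rfl⟩
  have hord1 : ∀ Q : Place ↥K1 ↥(s18_F ↥K1 (M * q)), (n : ℤ) ∣ Q.ord f1 := by
    intro Q
    obtain ⟨Q', hQ'⟩ := hcfe Q
    rw [← hQ' f1, hf1]
    exact hord Q'
  have hdeg1 : ∀ Q : Place ↥K1 ↥(s18_F ↥K1 (M * q)), Q.ord f1 ≠ 0 → Q.deg = 1 := by
    intro Q hQ
    obtain ⟨Q', hQ'⟩ := hcfe Q
    have hmem : Q' ∈ D.support := by
      rw [Finsupp.mem_support_iff, hD Q', ← hf1, hQ' f1]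
      exact hQ
    obtain ⟨P0, hP0⟩ := h2 Q' hmem
    have hPQ : P0 = Q := s34ur_place_ext fun g => by rw [← hP0.1 g, hQ' g]
    rw [← hPQ]
    exact s34ur_deg_eq_one P0 hP0.2.2.2
  -- (R3) the norms
  obtain ⟨hbcA, hbcB⟩ := hBC M q hq hqM K1 f1
  have hinj : Function.Injective (S37.s37rl_iota M K1) := (S37.s37rl_iota M K1).injective
  have hA1 : gA1 ^ n = s35_normA ↥K1 M q f1 := by
    apply hinj
    rw [map_pow, hgA1, hbcA, hf1]
    exact hgA
  have hB1 : gB1 ^ n = s35_normB ↥K1 M q f1 := by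
    apply hinj
    rw [map_pow, hgB1, hbcB, hf1]
    exact hgB
  -- (R4) (NF-K) and the push-forward
  obtain ⟨y, hy⟩ := @hK M q _ _ hq hqM h49 A hA K1 hK1
    (A.comap (algebraMap ↥K1 (AlgebraicClosure ℚ))) hdvr (fun x => Iff.rfl)
    (σ.restrictNormal ↥K1) (s35nr_frob K1 A σ q hσ) n hn f1 hf10 hord1 hdeg1
    ⟨gA1, hA1⟩ ⟨gB1, hB1⟩ (AlgebraicClosure ℚ) _ _ _
  obtain ⟨Φ, hΦ1, hΦmem⟩ := s18rq_push (M * q) K1
  refine ⟨⟨Φ y, hΦmem y⟩, ?_⟩
  apply Subtype.ext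
  show (Φ y) ^ n = _
  rw [← map_pow, hy, hΦ1, ← hf1, ← s35nr_iota_fd]
  rfl

end Fermat.Agent.S35
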