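/-
S35, leaf [NF-RAT], the abstract base change of the norm (helper25).  Prefix `s35nr_`.
Mathlib only.

`E ⊆ E'`, `Ē ⊆ Ē'` finite extensions of fields of the same degree, `ι : E → Ē`, `ι' : E' → Ē'`
compatible ring homomorphisms such that `Ē'` is spanned over `Ē` by the image of `ι'`.  Then
`ι (N_{E'/E} x) = N_{Ē'/Ē} (ι' x)`.
-/
import Mathlib

set_option autoImplicit false

noncomputable section

namespace Fermat.Agent.S35

section NormBC

variable {E E' Eb Eb' : Type*} [Field E] [Field E'] [Field Eb] [Field Eb']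
  [Algebra E E'] [Algebra Eb Eb']

/-- The image of a basis of `E'` over `E` spans `Ē'` over `Ē`. -/
theorem s35nr_span_basis {I : Type*} [Fintype I] (b : Module.Basis I E E') (ι : E →+* Eb)
    (ι' : E' →+* Eb') (hcomm : ∀ x, ι' (algebraMap E E' x) = algebraMap Eb Eb' (ι x))
    (hspan : Submodule.span Eb (Set.range ι') = ⊤) :
    ⊤ ≤ Submodule.span Eb (Set.range fun i => ι' (b i)) := by
  rw [← hspan]
  apply Submodule.span_le.2
  rintro _ ⟨y, rfl⟩
  have hy : y = ∑ i, b.repr y i • b i := (b.sum_repr y).symm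
  have h1 : ι' y = ∑ i, ι (b.repr y i) • ι' (b i) := by
    conv_lhs => rw [hy]
    rw [map_sum]
    refine Finset.sum_congr rfl fun i _ => ?_
    rw [Algebra.smul_def, map_mul, hcomm, Algebra.smul_def]
  rw [h1]
  exact Submodule.sum_mem _ fun i _ =>
    Submodule.smul_mem _ _ (Submodule.subset_span ⟨i, rfl⟩)

/-- **[NORM-BC-ABS]** base change of the norm. -/
theorem s35nr_norm_bc_abs [FiniteDimensional E E'] [FiniteDimensional Eb Eb'] (ι : E →+* Eb)
    (ι' : E' →+* Eb') (hcomm : ∀ x, ι' (algebraMap E E' x) = algebraMap Eb Eb' (ι x))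
    (hdeg : Module.finrank Eb Eb' = Module.finrank E E')
    (hspan : Submodule.span Eb (Set.range ι') = ⊤) (x : E') :
    ι (Algebra.norm E x) = Algebra.norm Eb (ι' x) := by
  classical
  let b := Module.finBasis E E'
  have hcard : Fintype.card (Fin (Module.finrank E E')) = Module.finrank Eb Eb' := by
    rw [Fintype.card_fin, hdeg]
  let b' : Module.Basis (Fin (Module.finrank E E')) Eb Eb' :=
    basisOfTopLeSpanOfCardEqFinrank (fun i => ι' (b i)) (s35nr_span_basis b ι ι' hcomm hspan)
      hcard
  have hb' : ∀ i, b' i = ι' (b i) := fun i => by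
    show basisOfTopLeSpanOfCardEqFinrank (fun i => ι' (b i)) _ _ i = _
    rw [coe_basisOfTopLeSpanOfCardEqFinrank]
  have hmat : Algebra.leftMulMatrix b' (ι' x) = (Algebra.leftMulMatrix b x).map ι := by
    ext i j
    rw [Matrix.map_apply, Algebra.leftMulMatrix_eq_repr_mul, Algebra.leftMulMatrix_eq_repr_mul]
    have h1 : ι' x * b' j = ∑ k, ι (b.repr (x * b j) k) • b' k := by
      rw [hb', ← map_mul]
      conv_lhs => rw [← b.sum_repr (x * b j)]
      rw [map_sum]
      refine Finset.sum_congr rfl fun k _ => ?_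
      rw [Algebra.smul_def, map_mul, hcomm, Algebra.smul_def, hb']
    rw [h1, map_sum, Finsupp.coe_finsetSum, Finset.sum_apply]
    simp only [map_smul, Module.Basis.repr_self, Finsupp.smul_apply, Finsupp.single_apply,
      smul_eq_mul, mul_ite, mul_one, mul_zero, Finset.sum_ite_eq', Finset.mem_univ, if_true]
  rw [Algebra.norm_eq_matrix_det b x, Algebra.norm_eq_matrix_det b' (ι' x), hmat,
    RingHom.map_det]
  rfl

end NormBC

end Fermat.Agent.S35
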