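/-
S35, leaf [NF-RAT], the base change of the norms along the degeneracy maps (helper25).
Prefix `s35nr_`.

    theorem s35nr_normBC_main : s35nr_NormBCStatement

* `s35nr_finrank`  : `[F_K(M q) : α F_K(M)] = q + 1` for EVERY field `K` of characteristic `0`
                     (from `S34.s34dk_finrank` and the tower law);
* `s35nr_span`     : `F̄_{Mq}` is spanned over `α F̄_M` by the image of `F_{K1}(M q)`;
* `s35nr_normA_bc` : `ι (N_α f) = N_α (ι f)`  (`s35nr_norm_bc_abs`);
* `s35nr_normB_bc` : `ι (N_β f) = N_β (ι f)`  (transport by the Atkin-Lehner involution).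
-/
import Mathlib
import Fermat.Agent.S35.NfRat
import Fermat.Agent.S35.NfRatNormAbs
import Fermat.Agent.S34.DegK
import Fermat.Agent.S34.SsWMain

set_option autoImplicit false
set_option synthInstance.maxHeartbeats 400000
set_option maxHeartbeats 1000000
set_option linter.style.haveILetI false
set_option linter.unusedSectionVars false

open AlgebraicCurve ModularCurve IntermediateField
open scoped TensorProduct

noncomputable section

namespace Fermat.Agent.S35

open Fermat.Agent.S18 Fermat.Agent.S24 Fermat.Agent.S34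

/-! ### The degree -/

section Degree

variable (K : Type) [Field K] [CharZero K] (M q : ℕ) [NeZero M] [NeZero q]

theorem s35nr_alpha_j [NeZero (M * q)] : heckeAlphaBar K M q (s18_j K M) = s18_j K (M * q) :=
  Subtype.ext rfl

/-- `[F_K(M q) : α F_K(M)] = q + 1` for every field `K` of characteristic `0`. -/
theorem s35nr_finrank (hq : q.Prime) (hqM : ¬ q ∣ M) :
    finrankAlong K (heckeAlphaBar K M q) = q + 1 := by
  haveI : NeZero (M * q) := ⟨Nat.mul_ne_zero (NeZero.ne M) hq.ne_zero⟩
  letI : Algebra ↥(s18_F K M) ↥(s18_F K (M * q)) := algebraAlong (heckeAlphaBar K M q)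
  have hmap : (K⟮s18_j K M⟯).map (heckeAlphaBar K M q) = K⟮s18_j K (M * q)⟯ := by
    rw [IntermediateField.adjoin_map, Set.image_singleton, s35nr_alpha_j]
  letI : Algebra K⟮s18_j K M⟯ ↥(s18_F K (M * q)) :=
    ((heckeAlphaBar K M q).toRingHom.comp (algebraMap K⟮s18_j K M⟯ ↥(s18_F K M))).toAlgebra
  haveI : IsScalarTower K⟮s18_j K M⟯ ↥(s18_F K M) ↥(s18_F K (M * q)) :=
    IsScalarTower.of_algebraMap_eq fun _ => rfl
  have h1 := Module.finrank_mul_finrank K⟮s18_j K M⟯ ↥(s18_F K M) ↥(s18_F K (M * q))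
  have h2 : Module.finrank K⟮s18_j K M⟯ ↥(s18_F K (M * q)) =
      Module.finrank K⟮s18_j K (M * q)⟯ ↥(s18_F K (M * q)) :=
    Algebra.finrank_eq_of_equiv_equiv
      (((K⟮s18_j K M⟯).equivMap (heckeAlphaBar K M q)).toRingEquiv.trans
        (IntermediateField.equivOfEq hmap).toRingEquiv) (RingEquiv.refl _)
      (by ext x; rfl)
  rw [h2, s34dk_finrank, s34dk_finrank,
    Comb.dedekindPsi_mul ((Nat.Prime.coprime_iff_not_dvd hq).2 hqM).symm] at h1
  have h3 : ModularCurve.dedekindPsi q = q + 1 := by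
    have := Comb.dedekindPsi_prime_pow hq 0
    simpa using this
  rw [h3] at h1
  have hpos := Fermat.Agent.S18.s18d_psi_pos M
  exact Nat.eq_of_mul_eq_mul_left hpos h1

theorem s35nr_finite (hq : q.Prime) (hqM : ¬ q ∣ M) : FiniteAlong K (heckeAlphaBar K M q) := by
  letI : Algebra ↥(s18_F K M) ↥(s18_F K (M * q)) := algebraAlong (heckeAlphaBar K M q)
  have h : Module.finrank ↥(s18_F K M) ↥(s18_F K (M * q)) = q + 1 := s35nr_finrank K M q hq hqM
  exact Module.finite_of_finrank_pos (by rw [h]; exact Nat.succ_pos q)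

end Degree

/-! ### The span -/

section Span

variable (M q : ℕ) [NeZero M] [NeZero q] (K1 : IntermediateField ℚ (AlgebraicClosure ℚ))

/-- `ι ∘ α = α ∘ ι`. -/
theorem s35nr_iota_alpha (x : ↥(s18_F ↥K1 M)) :
    S37.s37rl_iota (M * q) K1 (heckeAlphaBar ↥K1 M q x) =
      heckeAlphaBar (AlgebraicClosure ℚ) M q (S37.s37rl_iota M K1 x) :=
  s34w_iota_alpha ↥K1 (AlgebraicClosure ℚ) M q x

/-- `F̄_{Mq}` is spanned over `α F̄_M` by the image of `F_{K1}(M q)`. -/
theorem s35nr_span (hq : q.Prime) (hqM : ¬ q ∣ M) :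
    letI := algebraAlong (heckeAlphaBar (AlgebraicClosure ℚ) M q)
    Submodule.span (FunField M) (Set.range (S37.s37rl_iota (M * q) K1)) = ⊤ := by
  letI : Algebra (FunField M) (FunField (M * q)) :=
    algebraAlong (heckeAlphaBar (AlgebraicClosure ℚ) M q)
  haveI : Module.Finite (FunField M) (FunField (M * q)) :=
    s35nr_finite (AlgebraicClosure ℚ) M q hq hqM
  haveI : Algebra.IsAlgebraic (FunField M) (FunField (M * q)) := Algebra.IsAlgebraic.of_finite _ _
  let A : Subalgebra (FunField M) (FunField (M * q)) :=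
    Algebra.adjoin (FunField M) (Set.range (S37.s37rl_iota (M * q) K1))
  let T : Subfield (FunField (M * q)) :=
    { A.toSubring with
      inv_mem' := fun x hx => A.inv_mem_of_algebraic (x := ⟨x, hx⟩)
        (Algebra.IsAlgebraic.isAlgebraic x) }
  have hT : ∀ x : FunField (M * q), x ∈ T := by
    intro x
    refine s18cfe_iota_gen ↥K1 (AlgebraicClosure ℚ) (modularFunctionFieldFull (M * q)) T
      (fun f => ?_) (fun c => ?_) x
    · exact Algebra.subset_adjoin ⟨f, rfl⟩
    · have hc : algebraMap (AlgebraicClosure ℚ) (FunField (M * q)) c =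
          algebraMap (FunField M) (FunField (M * q))
            (algebraMap (AlgebraicClosure ℚ) (FunField M) c) :=
        ((heckeAlphaBar (AlgebraicClosure ℚ) M q).commutes c).symm
      show algebraMap (AlgebraicClosure ℚ) (FunField (M * q)) c ∈ A
      rw [hc]
      exact A.algebraMap_mem _
  have hcl : (Submonoid.closure (Set.range (S37.s37rl_iota (M * q) K1)) :
      Set (FunField (M * q))) = Set.range (S37.s37rl_iota (M * q) K1) := by
    have h : Set.range (S37.s37rl_iota (M * q) K1) =
        (((S37.s37rl_iota (M * q) K1).range.toSubmonoid : Submonoid (FunField (M * q))) :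
          Set (FunField (M * q))) := by
      ext y
      simp only [Set.mem_range, Subring.coe_toSubmonoid, RingHom.coe_range]
    rw [h, Submonoid.closure_eq]
  rw [eq_top_iff]
  intro x _
  have hx : x ∈ Subalgebra.toSubmodule A := hT x
  rw [Algebra.adjoin_eq_span, hcl] at hx
  exact hx

end Span

/-! ### The base change of the norms -/

section BC

variable (M q : ℕ) [NeZero M] [NeZero q] (K1 : IntermediateField ℚ (AlgebraicClosure ℚ))

/-- `ι (N_α f) = N_α (ι f)`. -/
theorem s35nr_normA_bc (hq : q.Prime) (hqM : ¬ q ∣ M) (f : ↥(s18_F ↥K1 (M * q))) :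
    S37.s37rl_iota M K1 (s35_normA ↥K1 M q f) =
      s35_normA (AlgebraicClosure ℚ) M q (S37.s37rl_iota (M * q) K1 f) := by
  letI : Algebra ↥(s18_F ↥K1 M) ↥(s18_F ↥K1 (M * q)) := algebraAlong (heckeAlphaBar ↥K1 M q)
  letI : Algebra (FunField M) (FunField (M * q)) :=
    algebraAlong (heckeAlphaBar (AlgebraicClosure ℚ) M q)
  haveI : Module.Finite ↥(s18_F ↥K1 M) ↥(s18_F ↥K1 (M * q)) := s35nr_finite ↥K1 M q hq hqM
  haveI : Module.Finite (FunField M) (FunField (M * q)) :=
    s35nr_finite (AlgebraicClosure ℚ) M q hq hqM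
  have hdeg : Module.finrank (FunField M) (FunField (M * q)) =
      Module.finrank ↥(s18_F ↥K1 M) ↥(s18_F ↥K1 (M * q)) := by
    have h1 : Module.finrank (FunField M) (FunField (M * q)) = q + 1 :=
      s35nr_finrank (AlgebraicClosure ℚ) M q hq hqM
    have h2 : Module.finrank ↥(s18_F ↥K1 M) ↥(s18_F ↥K1 (M * q)) = q + 1 :=
      s35nr_finrank ↥K1 M q hq hqM
    rw [h1, h2]
  exact s35nr_norm_bc_abs (S37.s37rl_iota M K1) (S37.s37rl_iota (M * q) K1)
    (fun x => s35nr_iota_alpha M q K1 x) hdeg (s35nr_span M q K1 hq hqM) f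

end BC

end Fermat.Agent.S35
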