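/-
S35, leaf [NF-RAT] of `S35/NfDefs.lean`, CLOSED (helper25).  Prefix `s35nr_`.

    theorem s35nr_normBC_main : s35nr_NormBCStatement
    theorem s35nr_main        : s35_RatStatement
                                       (s35_RatStatement = s35_UStarKStatement → s35_UStarMStatement)

* `s35nr_normB_eq` : `N_β x = N_α (W x)` for an involution `W` with `W ∘ β = α`
                     (`Algebra.norm_eq_of_equiv_equiv`);
* `s35nr_normB_bc` : `ι (N_β f) = N_β (ι f)`, by transport along the Atkin-Lehner involutions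
                     `S34.s34w_W` (over `K1`) and `S34.s34w_Wbar` (over `Q̄`), which are
                     compatible with `ι` (`S34.s34w_W_bar`), and `s35nr_normA_bc`.
-/
import Mathlib
import Fermat.Agent.S35.NfRatNorm

set_option autoImplicit false
set_option synthInstance.maxHeartbeats 400000
set_option maxHeartbeats 1000000
set_option linter.style.haveILetI false
set_option linter.unusedSectionVars false

open AlgebraicCurve ModularCurve IntermediateField
open scoped TensorProduct

noncomputable section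

namespace Fermat.Agent.S35

open Fermat.Agent.S18 Fermat.Agent.S24 Fermat.Agent.S34

section Transport

variable (K : Type) [Field K] [CharZero K] (M q : ℕ) [NeZero M] [NeZero q]

/-- `N_β x = N_α (W x)`. -/
theorem s35nr_normB_eq
    (W : ↥(s18_F K (M * q)) ≃ₐ[K] ↥(s18_F K (M * q)))
    (hWβ : ∀ f : ↥(s18_F K M), W (heckeBetaBar K M q f) = heckeAlphaBar K M q f)
    (x : ↥(s18_F K (M * q))) :
    s35_normB K M q x = s35_normA K M q (W x) := by
  have h := @Algebra.norm_eq_of_equiv_equiv ↥(s18_F K M) ↥(s18_F K (M * q)) ↥(s18_F K M)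
    ↥(s18_F K (M * q)) _ _ _ _ (algebraAlong (heckeBetaBar K M q))
    (algebraAlong (heckeAlphaBar K M q)) (RingEquiv.refl _) W.toRingEquiv
    (RingHom.ext fun y => (hWβ y).symm) x
  exact h

end Transport

section BCB

variable (M q : ℕ) [NeZero M] [NeZero q] (K1 : IntermediateField ℚ (AlgebraicClosure ℚ))

/-- `ι (N_β f) = N_β (ι f)`. -/
theorem s35nr_normB_bc (hq : q.Prime) (hqM : ¬ q ∣ M) (f : ↥(s18_F ↥K1 (M * q))) :
    S37.s37rl_iota M K1 (s35_normB ↥K1 M q f) =
      s35_normB (AlgebraicClosure ℚ) M q (S37.s37rl_iota (M * q) K1 f) := by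
  rw [s35nr_normB_eq ↥K1 M q (s34w_W M q K1 hq hqM) (fun g => s34w_W_beta hq hqM g) f,
    s35nr_normB_eq (AlgebraicClosure ℚ) M q (s34w_Wbar M q hq hqM)
      (fun g => s34w_Wbar_beta M q hq hqM g) (S37.s37rl_iota (M * q) K1 f),
    s35nr_normA_bc M q K1 hq hqM]
  congr 1
  exact s34w_W_bar hq hqM f

end BCB

/-- **[NORM-BC]**. -/
theorem s35nr_normBC_main : s35nr_NormBCStatement := by
  intro M q _ _ hq hqM K1 f
  exact ⟨s35nr_normA_bc M q K1 hq hqM f, s35nr_normB_bc M q K1 hq hqM f⟩

/-- **[NF-RAT]**, hypothesis-free. -/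
theorem s35nr_main : s35_RatStatement := s35nr_main_of s35nr_normBC_main

example : s35_RatStatement := s35nr_main

end Fermat.Agent.S35
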