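/-
S35, leaf [NF-WIRE], ABSTRACT PART (helper9).  Prefix `s35wi_`.  Mathlib + Prelude + `S35/Push`.

* `s35wi_abs_gen`, `s35wi_abs`: the Kummer dictionary for a quadratic operator `g² - a g + b`
  (`a, b : ℕ`) of a semilinear automorphism `g` of a function field `F / K`: if `m D = div f`
  and `g²f · f^b / (g f)^a` is an `m`-th power in `F`, then `(g² - a g + b) [D] = 0` in `Pic⁰`
  (for `a = 2`, `b = 1` this is `s34uw_abs` of `S34/UWireAbs.lean`);
* `s35wi_norm_of_push`: if `m D' = div f'` and the push-forward of `[D']` along `φ : F → F'`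
  vanishes, then the norm of `f'` is an `m`-th power in `F` (`K` algebraically closed; functions
  without zeros and poles are constants).
-/
import Mathlib
import Fermat.Prelude.Def_AlgebraicCurve_BaseChangeGalois
import Fermat.Agent.S35.Push

set_option autoImplicit false
set_option linter.style.haveILetI false

open AlgebraicCurve

noncomputable section

namespace Fermat.Agent.S35

section Wire

variable {K F : Type*} [Field K] [Field F] [Algebra K F]

theorem s35wi_ord_smul_eq (g : SemilinearAut K F) (f : F) (w : Place K F) :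
    w.ord (g • f) = (g⁻¹ • w).ord f := by
  have h := SemilinearAut.ord_smul g (g⁻¹ • w) f
  rwa [smul_inv_smul] at h

theorem s35wi_smul_ne_zero (g : SemilinearAut K F) {f : F} (hf : f ≠ 0) : g • f ≠ 0 := by
  rwa [Ne, smul_eq_zero_iff_eq]

/-- A Kummer generator of an `m`-torsion class. -/
theorem s35wi_exists_gen (m : ℕ) (D : Divisor.degZero (K := K) (F := F))
    (hx : m • Pic0.mk D = 0) :
    ∃ f : F, f ≠ 0 ∧ ∀ v : Place K F, (m : ℤ) * (D : Divisor K F) v = v.ord f := by
  have hmD : ((m • D : Divisor.degZero (K := K) (F := F)) : Divisor K F) ∈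
      Divisor.principal (K := K) (F := F) := by
    have h1 : Pic0.mk (m • D) = 0 := by
      rw [← hx]; rfl
    have h2 := (QuotientAddGroup.eq_zero_iff (m • D)).1 h1
    exact AddSubgroup.mem_addSubgroupOf.1 h2
  obtain ⟨f, hf, hfD⟩ := hmD
  refine ⟨f, hf, fun v => ?_⟩
  rw [← hfD v]
  simp [Finsupp.smul_apply]

/-- **[NF-WIRE], abstract form, one generator.** -/
theorem s35wi_abs_gen (g : SemilinearAut K F) (m : ℕ) (hm : m ≠ 0) (a b : ℕ)
    (D : Divisor.degZero (K := K) (F := F)) (f : F) (hf : f ≠ 0)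
    (hfD : ∀ v : Place K F, (m : ℤ) * (D : Divisor K F) v = v.ord f)
    (v : F) (hv : v ^ m * (g • f) ^ a = (g • (g • f)) * f ^ b) :
    g • (g • Pic0.mk D) + b • Pic0.mk D = a • (g • Pic0.mk D) := by
  have hgf : g • f ≠ 0 := s35wi_smul_ne_zero g hf
  have hggf : g • (g • f) ≠ 0 := s35wi_smul_ne_zero g hgf
  have hv0 : v ≠ 0 := by
    rintro rfl
    rw [zero_pow hm, zero_mul] at hv
    exact mul_ne_zero hggf (pow_ne_zero b hf) hv.symm
  -- the divisor of `v`
  have hord : ∀ w : Place K F,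
      w.ord v = (g • (g • (D : Divisor K F))) w + (b : ℤ) * (D : Divisor K F) w
        - (a : ℤ) * (g • (D : Divisor K F)) w := by
    intro w
    have h1 : w.ord (v ^ m * (g • f) ^ a) = w.ord ((g • (g • f)) * f ^ b) := by rw [hv]
    rw [w.ord_mul (pow_ne_zero _ hv0) (pow_ne_zero _ hgf),
      w.ord_mul hggf (pow_ne_zero _ hf),
      ← zpow_natCast v m, w.ord_zpow, ← zpow_natCast (g • f) a, w.ord_zpow,
      ← zpow_natCast f b, w.ord_zpow,
      s35wi_ord_smul_eq g (g • f) w, s35wi_ord_smul_eq g f (g⁻¹ • w), s35wi_ord_smul_eq g f w,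
      ← hfD (g⁻¹ • g⁻¹ • w), ← hfD w, ← hfD (g⁻¹ • w)] at h1
    rw [SemilinearAut.divisor_smul_apply, SemilinearAut.divisor_smul_apply,
      SemilinearAut.divisor_smul_apply]
    have hm' : (m : ℤ) ≠ 0 := by exact_mod_cast hm
    apply mul_left_cancel₀ hm'
    linear_combination h1
  -- conclusion
  rw [SemilinearAut.pic0_smul_mk, SemilinearAut.pic0_smul_mk]
  have h2 : (a : ℕ) • Pic0.mk (SemilinearAut.degZeroSMulHom g D) =
      Pic0.mk ((a : ℕ) • SemilinearAut.degZeroSMulHom g D) := rfl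
  have h3 : (b : ℕ) • Pic0.mk D = Pic0.mk ((b : ℕ) • D) := rfl
  rw [h2, h3, ← Pic0.mk_add]
  refine (QuotientAddGroup.eq_iff_sub_mem).2 ?_
  rw [AddSubgroup.mem_addSubgroupOf]
  refine ⟨v, hv0, fun w => ?_⟩
  rw [hord w]
  simp only [AddSubgroup.coe_sub, AddSubgroup.coe_add, AddSubgroup.coe_nsmul,
    SemilinearAut.coe_degZeroSMulHom, Finsupp.sub_apply, Finsupp.add_apply, Finsupp.smul_apply]
  ring

/-- **[NF-WIRE], abstract form.**  `H` is any property of the Kummer generators (in the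
application: the two norms are `m`-th powers) which holds for the generators of the class `x`. -/
theorem s35wi_abs (g : SemilinearAut K F) (m : ℕ) (hm : m ≠ 0) (a b : ℕ)
    (H : F → Prop)
    (hU : ∀ f : F, f ≠ 0 → (∀ P : Place K F, (m : ℤ) ∣ P.ord f) → H f →
      ∃ v : F, v ^ m * (g • f) ^ a = (g • (g • f)) * f ^ b)
    (x : Pic0 K F) (hx : m • x = 0)
    (hH : ∀ (D : Divisor.degZero (K := K) (F := F)) (f : F), Pic0.mk D = x → f ≠ 0 →
      (∀ v : Place K F, (m : ℤ) * (D : Divisor K F) v = v.ord f) → H f) :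
    g • (g • x) + b • x = a • (g • x) := by
  obtain ⟨D, rfl⟩ := Pic0.mk_surjective x
  obtain ⟨f, hf, hfD⟩ := s35wi_exists_gen m D hx
  obtain ⟨v, hv⟩ := hU f hf (fun P => ⟨_, (hfD P).symm⟩) (hH D f rfl hf hfD)
  exact s35wi_abs_gen g m hm a b D f hf hfD v hv

end Wire

section Norm

variable {K F F' : Type*} [Field K] [Field F] [Field F'] [Algebra K F] [Algebra K F']

/-- **The norm of a Kummer generator of a class killed by the push-forward is an `m`-th
power.** -/
theorem s35wi_norm_of_push [IsAlgClosed K] (φ : F →ₐ[K] F') (hφ : φ.toRingHom.IsIntegral)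
    (hfin : FiniteAlong K φ) (hN : NormFormulaAlong K φ hfin)
    (hconst : ∀ g : F, g ≠ 0 → (∀ w : Place K F, w.ord g = 0) → ∃ c : K, g = algebraMap K F c)
    (m : ℕ) (hm : m ≠ 0) (D : Divisor.degZero (K := K) (F := F')) (f : F') (hf : f ≠ 0)
    (hfD : ∀ v : Place K F', (m : ℤ) * (D : Divisor K F') v = v.ord f)
    (hpush : s35_pushPic φ (Pic0.mk D) = 0) :
    ∃ g : F, g ^ m = (letI := algebraAlong φ; Algebra.norm F f) := by
  letI := algebraAlong φ
  haveI := isScalarTower_along φ
  haveI := isIntegral_along φ hφ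
  haveI : Module.Finite F F' := hfin
  have hN' : Divisor.PushforwardNormFormula K F F' := hN
  -- the push-forward of `D` is principal
  rw [s35_pushPic_mk φ hφ hfin hN] at hpush
  have h2 := (QuotientAddGroup.eq_zero_iff (s35_pushDeg φ hφ D)).1 hpush
  have h3 : ((s35_pushDeg φ hφ D : Divisor.degZero (K := K) (F := F)) : Divisor K F) ∈
      Divisor.principal (K := K) (F := F) := AddSubgroup.mem_addSubgroupOf.1 h2
  obtain ⟨g₀, hg₀, hg₀D⟩ := h3
  rw [s35_coe_pushDeg] at hg₀D
  -- the divisor of the norm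
  have hE : ∀ w : Place K F', ((m : ℤ) • (D : Divisor K F')) w = w.ord f := by
    intro w
    rw [Finsupp.smul_apply, smul_eq_mul]
    exact hfD w
  have hnorm : ∀ v : Place K F, v.ord (Algebra.norm F f) = (m : ℤ) * v.ord g₀ := by
    intro v
    have h4 := hN' f hf ((m : ℤ) • (D : Divisor K F')) hE v
    rw [← h4, ← hg₀D v]
    have h5 : Divisor.pushforward F ((m : ℤ) • (D : Divisor K F')) =
        (m : ℤ) • Divisor.pushforwardAlong φ hφ (D : Divisor K F') :=
      map_zsmul (Divisor.pushforwardAlong φ hφ) (m : ℤ) (D : Divisor K F')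
    rw [h5, Finsupp.smul_apply, smul_eq_mul]
  have hnf : Algebra.norm F f ≠ 0 := Algebra.norm_ne_zero_iff.mpr hf
  -- the quotient is a constant
  have hq0 : Algebra.norm F f / g₀ ^ m ≠ 0 := div_ne_zero hnf (pow_ne_zero m hg₀)
  obtain ⟨c, hc⟩ := hconst (Algebra.norm F f / g₀ ^ m) hq0 (fun w => by
    rw [div_eq_mul_inv, w.ord_mul hnf (inv_ne_zero (pow_ne_zero m hg₀)), w.ord_inv,
      ← zpow_natCast g₀ m, w.ord_zpow, hnorm w]
    ring)
  obtain ⟨b, hb⟩ := IsAlgClosed.exists_pow_nat_eq c (Nat.pos_of_ne_zero hm)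
  refine ⟨algebraMap K F b * g₀, ?_⟩
  rw [mul_pow, ← map_pow, hb, ← hc, div_mul_cancel₀ _ (pow_ne_zero m hg₀)]

end Norm

end Fermat.Agent.S35

end
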