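/-
S35, leaf [NF-WIRE] (helper9).  Prefix `s35wi_`.

`s35wi_main : s35_WireStatement` (VERBATIM `S35/NfDefs.lean`): the Kummer dictionary -
(NF-USTAR) at the level `M q` (the Frobenius difference `s(s f) · f^(q²) / (s f)^(q²+1)` of every
Kummer generator whose two norms are `n`-th powers is an `n`-th power) implies (NEW-FROB) at the
level `M q` (`s • s • y + q² • y = (q² + 1) • s • y` on the classes of order `n` killed by the
two push-forwards), `s = σ * σ`.
The abstract forms are `s35wi_abs`, `s35wi_norm_of_push` (`S35/NfWireAbs.lean`); the inputs of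
the push-forwards are S37 [HECKE-INPUTS] (`s37hi_gen`), the coordinate `j` (S24
`final_jCoordinate`) and 'no zeros and poles ⟹ constant' (S29 `s29kt_const`).
-/
import Mathlib
import Fermat.Agent.S24.Final
import Fermat.Agent.S29.KumTrivConst
import Fermat.Agent.S37.HeckeInputs
import Fermat.Agent.S35.NfDefs
import Fermat.Agent.S35.NfWireAbs

set_option autoImplicit false
set_option linter.style.haveILetI false

open AlgebraicCurve ModularCurve

noncomputable section

namespace Fermat.Agent.S35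

open Fermat.Agent.S24

/-- Functions of level `N` without zeros and poles are constants. -/
theorem s35wi_const (N : ℕ) [NeZero N] (g : ↥(modularFunctionFieldBar N)) (_hg : g ≠ 0)
    (h : ∀ w : Place (AlgebraicClosure ℚ) ↥(modularFunctionFieldBar N), w.ord g = 0) :
    ∃ c : AlgebraicClosure ℚ, g = algebraMap (AlgebraicClosure ℚ) ↥(modularFunctionFieldBar N) c := by
  obtain ⟨c, hc⟩ := Fermat.Agent.S29.s29kt_const (K := QBar) (F := FunField N)
    (u := jF N) (final_jCoordinate N) (y := g) h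
  exact ⟨c, hc.symm⟩

/-- The norm of a Kummer generator of a class killed by the push-forward along ANY embedding
`φ : F̄_M → F̄_{Mq}` is an `n`-th power. -/
theorem s35wi_norm_of_pushPic (M q : ℕ) [NeZero M] [NeZero q]
    (φ : ↥(modularFunctionFieldBar M) →ₐ[AlgebraicClosure ℚ] ↥(modularFunctionFieldBar (M * q)))
    (n : ℕ) (hn : n ≠ 0)
    (D : Divisor.degZero (K := AlgebraicClosure ℚ) (F := ↥(modularFunctionFieldBar (M * q))))
    (f : ↥(modularFunctionFieldBar (M * q))) (hf : f ≠ 0)
    (hfD : ∀ v : Place (AlgebraicClosure ℚ) ↥(modularFunctionFieldBar (M * q)),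
      (n : ℤ) * (D : Divisor (AlgebraicClosure ℚ) ↥(modularFunctionFieldBar (M * q))) v =
        v.ord f)
    (hpush : s35_pushPic φ (Pic0.mk D) = 0) :
    ∃ g : ↥(modularFunctionFieldBar M),
      g ^ n = (letI := algebraAlong φ; Algebra.norm ↥(modularFunctionFieldBar M) f) := by
  obtain ⟨hφ, -, hfin, -, hN⟩ := Fermat.Agent.S37.s37hi_gen QBar (FunField M)
    (FunField (M * q)) (jF M) (jF (M * q)) (final_jCoordinate M) (final_jCoordinate (M * q)) φ
  exact s35wi_norm_of_push φ hφ hfin hN (s35wi_const M) n hn D f hf hfD hpush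

/-- (NF-USTAR) gives the abstract shape of `NfWireAbs.lean`. -/
theorem s35wi_abs_of_uStar (M q : ℕ) [NeZero M] [NeZero q] (n : ℕ)
    (s : AlgebraicClosure ℚ ≃ₐ[ℚ] AlgebraicClosure ℚ) (h : s35_UStar M q n s)
    (f : ↥(modularFunctionFieldBar (M * q))) (hf : f ≠ 0)
    (hP : ∀ P : Place (AlgebraicClosure ℚ) ↥(modularFunctionFieldBar (M * q)),
      (n : ℤ) ∣ P.ord f)
    (hA : ∃ g : ↥(modularFunctionFieldBar M), g ^ n = s35_normA (AlgebraicClosure ℚ) M q f)
    (hB : ∃ g : ↥(modularFunctionFieldBar M), g ^ n = s35_normB (AlgebraicClosure ℚ) M q f) :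
    ∃ v : ↥(modularFunctionFieldBar (M * q)),
      v ^ n * (arithmeticGalois (modularFunctionFieldFull (M * q)) s • f) ^ (q ^ 2 + 1) =
        (arithmeticGalois (modularFunctionFieldFull (M * q)) s •
          (arithmeticGalois (modularFunctionFieldFull (M * q)) s • f)) * f ^ (q ^ 2) := by
  obtain ⟨v, hv⟩ := h f hf hP hA hB
  refine ⟨v, ?_⟩
  have hgf : arithmeticGalois (modularFunctionFieldFull (M * q)) s • f ≠ 0 :=
    s35wi_smul_ne_zero _ hf
  rw [hv, s35_fd, div_mul_cancel₀ _ (pow_ne_zero (q ^ 2 + 1) hgf)]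

/-- (NF-USTAR) at the level `M q` for `n ≠ 0` and `s` gives `(s - q²)(s - 1) = 0` on the classes
of order `n` killed by the two push-forwards. -/
theorem s35wi_newFrob_of_uStar (M q : ℕ) [NeZero M] [NeZero q] (n : ℕ) (hn : n ≠ 0)
    (s : AlgebraicClosure ℚ ≃ₐ[ℚ] AlgebraicClosure ℚ) (h : s35_UStar M q n s)
    (y : JZero (M * q)) (hy : n • y = 0) (hA : s35_pushA M q y = 0)
    (hB : s35_pushB M q y = 0) :
    s • s • y + (q ^ 2) • y = (q ^ 2 + 1) • s • y := by
  refine s35wi_abs (arithmeticGalois (modularFunctionFieldFull (M * q)) s) n hn (q ^ 2 + 1)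
    (q ^ 2)
    (fun f => (∃ g : ↥(modularFunctionFieldBar M),
        g ^ n = s35_normA (AlgebraicClosure ℚ) M q f) ∧
      (∃ g : ↥(modularFunctionFieldBar M), g ^ n = s35_normB (AlgebraicClosure ℚ) M q f))
    (fun f hf hP hH => s35wi_abs_of_uStar M q n s h f hf hP hH.1 hH.2) y hy ?_
  rintro D f rfl hf hfD
  exact ⟨s35wi_norm_of_pushPic M q (heckeAlphaBar (AlgebraicClosure ℚ) M q) n hn D f hf hfD hA,
    s35wi_norm_of_pushPic M q (heckeBetaBar (AlgebraicClosure ℚ) M q) n hn D f hf hfD hB⟩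

/-- **[NF-WIRE]** the Kummer dictionary. -/
theorem s35wi_main : s35_WireStatement := by
  intro M q _ _ hq _ h A hA σ hσ n hn y hy hpA hpB
  have hn0 : n ≠ 0 := by
    rintro rfl
    exact hn (dvd_zero q)
  exact s35wi_newFrob_of_uStar M q n hn0 (σ * σ) (h A hA σ hσ n hn) y hy hpA hpB

end Fermat.Agent.S35

end
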