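/-
S35: the composition  [N-MOD] + [CYC] + [REL] + [ALG] + [FD] ⟹ S35  (helper16).  Prefix `s35_`.
The leaves [CYC], [REL], [ALG], [FD] are those of S30 (`S30/Top.lean`, `S29/Defs.lean`), verbatim.
-/
import Mathlib
import Fermat.Agent.S35.Top

set_option autoImplicit false

open Polynomial

namespace Fermat.Agent.S35

open Fermat.Agent.S30

/-- A scalar which kills an invertible endomorphism of a non-zero free module over a domain is
zero. -/
theorem s35_scalar_eq_zero {R W : Type*} [CommRing R] [IsDomain R] [AddCommGroup W] [Module R W]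
    [Module.Free R W] [Nontrivial W] (a : R) (x y : Module.End R W) (hxy : x * y = 1)
    (h : a • x = 0) : a = 0 := by
  obtain ⟨w, hw⟩ := exists_ne (0 : W)
  have h1 : a • (1 : Module.End R W) = 0 := by
    rw [← hxy, ← smul_mul_assoc, h, zero_mul]
  have h2 : a • w = 0 := by
    have := congrArg (fun f : Module.End R W => f w) h1
    simpa using this
  rcases smul_eq_zero.mp h2 with h3 | h3
  · exact h3
  · exact absurd h3 hw

/-- The composition: S35 from [N-MOD], the leaves of S30 and Frobenius' density theorem.  The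
coefficient ring of the representation is `𝒪'` itself. -/
theorem s35_goal_of (hFD : Fermat.Agent.S29.s29_FDStatement) (hMod : s35_NModStatement)
    (hCyc : s30top_CycStatement) (hRel : s30top_RelStatement) (hAlg : s30top_AlgStatement) :
    s35_Goal := by
  intro M _ g hg lam _ S 𝒪 _ _ _ _ _ _ hp𝒪 chig hchig iota hpS hNS
  have hp : lam.Prime := Fact.out
  obtain ⟨W, _, _, _, _, _, r, hcont, hfrob, hnew⟩ :=
    hMod hg lam S 𝒪 hp𝒪 chig hchig iota hpS hNS
  obtain ⟨ε, hεcont, hεin, hεfrob, c, hc, hεc⟩ := hCyc lam hp 𝒪 hp𝒪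
  have hS : ∀ ℓ : ℕ, ℓ.Prime → ℓ ∉ S → ¬ ℓ ∣ M ∧ ℓ ≠ lam := by
    intro ℓ hℓ hℓS
    exact ⟨fun h => hℓS (hNS ℓ hℓ h), fun h => hℓS (h ▸ hpS)⟩
  have hrel : ∀ g : AlgebraicClosure ℚ ≃ₐ[ℚ] AlgebraicClosure ℚ,
      ∃ t : 𝒪, r g * r g - t • r g + ε g • (1 : Module.End 𝒪 W) = 0 := by
    refine hRel hFD 𝒪 W r ε S hcont hεcont ?_
    intro ℓ hℓ hℓS A hA σ hσ
    refine ⟨(iota.comp chig.rangeRestrict)
      (CuspForm.heckeAlgebra.T hℓ (hS ℓ hℓ hℓS).1 (by exact_mod_cast hℓS)), ?_⟩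
    rw [hεfrob ℓ hℓ (hS ℓ hℓ hℓS).2 A hA σ hσ]
    exact hfrob ℓ hℓ (hS ℓ hℓ hℓS).1 (by exact_mod_cast hℓS) A hA σ hσ
  obtain ⟨V, _, _, _, _, ρ, hrank, hchar, hcong⟩ := hAlg 𝒪 _ W r ε c hc hεc hrel
  refine ⟨𝒪, inferInstance, inferInstance, inferInstance, inferInstance, inferInstance,
    inferInstance, Algebra.id 𝒪, ?_, ?_, Function.injective_id, ?_⟩
  · exact Module.Finite.self 𝒪
  · exact ⟨fun _ h => h⟩
  · refine ⟨{ V := V, finrank_eq := hrank, ρ := ρ, isAdicContinuous := ?_ }, ?_, ?_⟩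
    · intro n
      obtain ⟨L₁, hL₁, h₁⟩ := hcont n
      obtain ⟨L₂, hL₂, h₂⟩ := hεcont n
      have := hL₁
      have := hL₂
      refine ⟨L₁ ⊔ L₂, inferInstance, fun σ hσ v => ?_⟩
      exact hcong _ σ (h₁ σ fun x hx => hσ x ((le_sup_left : L₁ ≤ L₁ ⊔ L₂) hx))
        (h₂ σ fun x hx => hσ x ((le_sup_right : L₂ ≤ L₁ ⊔ L₂) hx)) v
    · intro ℓ hℓ hℓN hℓS A hA σ hσ
      have h := hchar σ _ (by
        have := hfrob ℓ hℓ hℓN hℓS A hA σ hσ
        rwa [← hεfrob ℓ hℓ (fun h => hℓS (by exact_mod_cast h ▸ hpS)) A hA σ hσ] at this)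
      rw [h, hεfrob ℓ hℓ (fun h => hℓS (by exact_mod_cast h ▸ hpS)) A hA σ hσ]
      rfl
    · intro q hq hqp hqM hq2 A hA σ hσ
      obtain ⟨t, ht⟩ := hrel σ
      have hε : ε σ = (q : 𝒪) := hεfrob q hq hqp A hA σ hσ
      rw [hε] at ht
      have h4 := hnew q hq hqp hqM hq2 A hA σ hσ
      rw [map_mul] at h4
      have h5 := s35_quartic (r σ) t (q : 𝒪) ht
      rw [h4] at h5
      have hinv : (r σ * r σ) * (r σ⁻¹ * r σ⁻¹) = 1 := by
        rw [← map_mul, ← map_mul, ← map_mul]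
        have : σ * σ * (σ⁻¹ * σ⁻¹) = 1 := by group
        rw [this, map_one]
      have h6 : t ^ 2 - ((q : 𝒪) + 1) ^ 2 = 0 :=
        s35_scalar_eq_zero _ (r σ * r σ) (r σ⁻¹ * r σ⁻¹) hinv h5.symm
      have h7 : (t - ((q : 𝒪) + 1)) * (t + ((q : 𝒪) + 1)) = 0 := by
        rw [← h6]
        ring
      have hc' := hchar σ t (by rw [hε]; exact ht)
      rw [hε] at hc'
      rcases mul_eq_zero.mp h7 with h8 | h8
      · left
        have : t = (q : 𝒪) + 1 := sub_eq_zero.mp h8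
        rw [hc', this]
      · right
        have : t = -((q : 𝒪) + 1) := eq_neg_of_add_eq_zero_left h8
        rw [hc', this, map_neg, neg_mul, sub_neg_eq_add]

end Fermat.Agent.S35
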