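/-
S35, leaf [COR], explicit representatives (owner: helper11).  Prefix `s35c_`.  Mathlib only.

`s35c_op_eq_dc`: a Hecke datum `D₀` with pairwise distinct cosets, all of whose representatives
lie in the double coset `ι₁ G₁ * ρ₀ * ι₂ G₂`, has the operator of that double coset:

    s35c_op D₀ ψ = s35c_op (s35c_dc hι₁ ι₂ ρ₀) ψ        (= s35c_dcOp hι₁ ι₂ ρ₀ ψ).

No cardinality is needed: the stability of the cosets of `D₀` under right multiplication by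
`ι₂ G₂` (part of the datum) makes the comparison map onto.
-/
import Mathlib
import Fermat.Agent.S35.CorAbs

set_option autoImplicit false
set_option linter.unusedSectionVars false
set_option linter.unusedVariables false
set_option linter.style.haveILetI false

namespace Fermat.Agent.S35

section Exp

variable {𝔾 : Type*} [Group 𝔾] {G₁ G₂ : Type*} [Group G₁] [Group G₂]
  {ι₁ : G₁ →* 𝔾} {ι₂ : G₂ →* 𝔾} {X : Type*}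

/-- In a datum with pairwise distinct cosets, `rep x * ι₂ γ ∈ ι₁ G₁ * rep y` forces
`y = act γ x`. -/
theorem s35c_Datum.act_eq_of (hι₁ : Function.Injective ι₁) (D₀ : s35c_Datum ι₁ ι₂ X)
    (hinj : ∀ x y : X, (∃ g : G₁, D₀.rep x * (D₀.rep y)⁻¹ = ι₁ g) → x = y)
    {γ : G₂} {x y : X} {g : G₁} (h : D₀.rep x * ι₂ γ = ι₁ g * D₀.rep y) :
    D₀.act γ x = y ∧ D₀.coc γ x = g :=
  s35c_unique hι₁ D₀.rep hinj (D₀.spec γ x) h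

/-- **A datum inside a double coset has the operator of the double coset.** -/
theorem s35c_op_eq_dc (hι₁ : Function.Injective ι₁) (ρ₀ : 𝔾)
    [Fintype (G₂ ⧸ s35c_dcSub ι₁ ι₂ ρ₀)] [Fintype X] (D₀ : s35c_Datum ι₁ ι₂ X)
    (hinj : ∀ x y : X, (∃ g : G₁, D₀.rep x * (D₀.rep y)⁻¹ = ι₁ g) → x = y)
    (hdc : ∀ x : X, ∃ (k : G₁) (g : G₂), D₀.rep x = ι₁ k * ρ₀ * ι₂ g)
    (x₀ : X) {A : Type*} [AddCommGroup A] (ψ : Additive G₁ →+ A) :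
    s35c_op D₀ ψ = s35c_op (s35c_dc hι₁ ι₂ ρ₀) ψ := by
  -- a representative of the coset of `ρ₀` itself
  obtain ⟨k₀, g₀, h₀⟩ := hdc x₀
  set x₁ : X := D₀.act g₀⁻¹ x₀ with hx₁
  have hρ : D₀.rep x₁ = ι₁ ((D₀.coc g₀⁻¹ x₀)⁻¹ * k₀) * ρ₀ := by
    have hs := D₀.spec g₀⁻¹ x₀
    rw [h₀, map_inv, mul_assoc, mul_inv_cancel, mul_one] at hs
    rw [map_mul, map_inv, mul_assoc, hs, inv_mul_cancel_left]
  set k₁ : G₁ := (D₀.coc g₀⁻¹ x₀)⁻¹ * k₀ with hk₁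
  -- the comparison
  have hex : ∀ c : G₂ ⧸ s35c_dcSub ι₁ ι₂ ρ₀, D₀.rep (D₀.act (c.out)⁻¹ x₁) =
      ι₁ ((D₀.coc (c.out)⁻¹ x₁)⁻¹ * k₁) * (s35c_dc hι₁ ι₂ ρ₀).rep c := by
    intro c
    have hs := D₀.spec (c.out)⁻¹ x₁
    rw [s35c_dc_rep, map_mul, map_inv ι₁, mul_assoc, ← mul_assoc (ι₁ k₁), ← hρ, hs,
      inv_mul_cancel_left]
  have hinj_e : Function.Injective
      (fun c : G₂ ⧸ s35c_dcSub ι₁ ι₂ ρ₀ => D₀.act (c.out)⁻¹ x₁) := by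
    intro c c' hcc
    simp only at hcc
    apply s35c_dcRep_inj ι₁ ι₂ ρ₀
    have h1 := hex c
    have h2 := hex c'
    rw [hcc] at h1
    rw [s35c_dc_rep] at h1 h2
    refine ⟨((D₀.coc (c.out)⁻¹ x₁)⁻¹ * k₁)⁻¹ * ((D₀.coc (c'.out)⁻¹ x₁)⁻¹ * k₁), ?_⟩
    unfold s35c_dcRep
    have h3 : ρ₀ * ι₂ (c.out)⁻¹ = (ι₁ ((D₀.coc (c.out)⁻¹ x₁)⁻¹ * k₁))⁻¹ *
        (ι₁ ((D₀.coc (c'.out)⁻¹ x₁)⁻¹ * k₁) * (ρ₀ * ι₂ (c'.out)⁻¹)) := by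
      rw [← h2, h1, inv_mul_cancel_left]
    generalize ((D₀.coc (c.out)⁻¹ x₁)⁻¹ * k₁) = a at h3 ⊢
    generalize ((D₀.coc (c'.out)⁻¹ x₁)⁻¹ * k₁) = b at h3 ⊢
    rw [h3]
    simp only [map_mul, map_inv]
    group
  have hsurj_e : Function.Surjective
      (fun c : G₂ ⧸ s35c_dcSub ι₁ ι₂ ρ₀ => D₀.act (c.out)⁻¹ x₁) := by
    intro x
    obtain ⟨k, g, hx⟩ := hdc x
    -- `rep x₁ * ι₂ g = ι₁ (k₁ * k⁻¹) * rep x`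
    have h1 : D₀.rep x₁ * ι₂ g = ι₁ (k₁ * k⁻¹) * D₀.rep x := by
      rw [hρ, hx]
      simp only [map_mul, map_inv, mul_assoc, inv_mul_cancel_left]
    have h2 := (D₀.act_eq_of hι₁ hinj h1).1
    obtain ⟨m, hm⟩ := QuotientGroup.mk_out_eq_mul (s35c_dcSub ι₁ ι₂ ρ₀) g⁻¹
    obtain ⟨h, hh⟩ := (s35c_dcSub ι₁ ι₂ ρ₀).inv_mem m.2
    refine ⟨(QuotientGroup.mk g⁻¹ : G₂ ⧸ s35c_dcSub ι₁ ι₂ ρ₀), ?_⟩
    show D₀.act ((QuotientGroup.mk g⁻¹ : G₂ ⧸ s35c_dcSub ι₁ ι₂ ρ₀).out)⁻¹ x₁ = x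
    rw [hm]
    have e1 : (g⁻¹ * (m : G₂))⁻¹ = (m : G₂)⁻¹ * g := by group
    rw [e1, D₀.act_mul]
    have h3 : D₀.rep x₁ * ι₂ (m : G₂)⁻¹ = ι₁ (k₁ * h * k₁⁻¹) * D₀.rep x₁ := by
      rw [hρ, mul_assoc, hh]
      simp only [map_mul, map_inv, mul_assoc, inv_mul_cancel_left]
    rw [(D₀.act_eq_of hι₁ hinj h3).1]
    exact h2
  exact s35c_op_eq_of_equiv hι₁ (s35c_dc hι₁ ι₂ ρ₀) D₀ hinj
    (Equiv.ofBijective _ ⟨hinj_e, hsurj_e⟩) (fun c => (D₀.coc (c.out)⁻¹ x₁)⁻¹ * k₁)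
    (fun c => hex c) ψ

/-- The same with the total operator `s35c_dcOp`. -/
theorem s35c_op_eq_dcOp (hι₁ : Function.Injective ι₁) (ρ₀ : 𝔾)
    [Finite (G₂ ⧸ s35c_dcSub ι₁ ι₂ ρ₀)] [Fintype X] (D₀ : s35c_Datum ι₁ ι₂ X)
    (hinj : ∀ x y : X, (∃ g : G₁, D₀.rep x * (D₀.rep y)⁻¹ = ι₁ g) → x = y)
    (hdc : ∀ x : X, ∃ (k : G₁) (g : G₂), D₀.rep x = ι₁ k * ρ₀ * ι₂ g)
    (x₀ : X) {A : Type*} [AddCommGroup A] (ψ : Additive G₁ →+ A) :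
    s35c_op D₀ ψ = s35c_dcOp hι₁ ι₂ ρ₀ ψ := by
  letI := Fintype.ofFinite (G₂ ⧸ s35c_dcSub ι₁ ι₂ ρ₀)
  rw [s35c_dcOp_eq]
  exact s35c_op_eq_dc hι₁ ρ₀ D₀ hinj hdc x₀ ψ

end Exp

end Fermat.Agent.S35
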