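/-
S35, leaf [COR], explicit representatives for the two transfers (owner: helper11).
Prefix `s35c_`.

A Hecke datum `D₀` from `Γ₀(M q)` to `Γ₀(M)` with pairwise distinct cosets whose representatives
lie in `Γ₀(M)` (resp. in `Γ₀(M q) · (1 0; 0 q) · Γ₀(M)`) has the operator `s35c_corA M q`
(resp. `s35c_corB M q`).
-/
import Mathlib
import Fermat.Agent.S35.CorFin
import Fermat.Agent.S35.CorExp

set_option autoImplicit false
set_option linter.unusedSectionVars false
set_option linter.unusedVariables false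
set_option linter.style.haveILetI false

namespace Fermat.Agent.S35

open CongruenceSubgroup Matrix.SpecialLinearGroup
open scoped MatrixGroups

/-- **Explicit representatives for the first transfer.** -/
theorem s35c_op_eq_corA (M q : ℕ) [NeZero M] [NeZero q] {X : Type*} [Fintype X]
    (D₀ : s35c_Datum (s35c_iota (M * q)) (s35c_iota M) X)
    (hinj : ∀ x y : X,
      (∃ g : Gamma0 (M * q), D₀.rep x * (D₀.rep y)⁻¹ = s35c_iota (M * q) g) → x = y)
    (hdc : ∀ x : X, ∃ g : Gamma0 M, D₀.rep x = s35c_iota M g)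
    (x₀ : X) {A : Type*} [AddCommGroup A] (ψ : Additive (Gamma0 (M * q)) →+ A) :
    s35c_op D₀ ψ = s35c_corA M q ψ := by
  haveI := s35c_finite_XA M q
  refine s35c_op_eq_dcOp (s35c_iota_injective (M * q)) 1 D₀ hinj (fun x => ?_) x₀ ψ
  obtain ⟨g, hg⟩ := hdc x
  exact ⟨1, g, by rw [map_one, one_mul, one_mul, hg]⟩

/-- **Explicit representatives for the second transfer.** -/
theorem s35c_op_eq_corB (M q : ℕ) [NeZero M] [NeZero q] {X : Type*} [Fintype X]
    (D₀ : s35c_Datum (s35c_iota (M * q)) (s35c_iota M) X)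
    (hinj : ∀ x y : X,
      (∃ g : Gamma0 (M * q), D₀.rep x * (D₀.rep y)⁻¹ = s35c_iota (M * q) g) → x = y)
    (hdc : ∀ x : X, ∃ (k : Gamma0 (M * q)) (g : Gamma0 M),
      D₀.rep x = s35c_iota (M * q) k * s35c_rhoB q * s35c_iota M g)
    (x₀ : X) {A : Type*} [AddCommGroup A] (ψ : Additive (Gamma0 (M * q)) →+ A) :
    s35c_op D₀ ψ = s35c_corB M q ψ := by
  haveI := s35c_finite_XB M q
  exact s35c_op_eq_dcOp (s35c_iota_injective (M * q)) (s35c_rhoB q) D₀ hinj hdc x₀ ψ

end Fermat.Agent.S35
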