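/-
S35, leaf [COR-HECKE], matrix calculus (owner: helper11).  Prefix `s35c_`.

The entries of the representatives `heckeRep ℓ x`, of `mapGL ℝ g` and of `(1 0; 0 q)` as real
`2 × 2` matrices, the Hecke datum `s35c_hecke N ℓ` (representatives `heckeRep ℓ x`, cocycle
`s29lat_gam`, operator `s29lat_heckeHom`), and the fact that the cosets `SL₂(ℤ) · heckeRep ℓ x`
are pairwise distinct.
-/
import Mathlib
import Fermat.Agent.S22ES.HeckeCoset
import Fermat.Agent.S29.LatHom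
import Fermat.Agent.S35.CorFin

set_option autoImplicit false
set_option linter.unusedSectionVars false
set_option linter.unusedVariables false
set_option linter.style.haveILetI false

namespace Fermat.Agent.S35

open CongruenceSubgroup Matrix.SpecialLinearGroup ModularCurve.Period
open scoped MatrixGroups
open P2MW.S_ModularForm_heckeT_slash_eq_self_of_mem_Gamma0.ModularForm.HeckeSlashInvariance
open Fermat.Agent.S29 Fermat.Agent.S22ES

/-- Equality of two real `2 × 2` matrices in the notation `!![a, b; c, d]`. -/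
theorem s35c_mat2_eq_iff {a b c d a' b' c' d' : ℝ} :
    (!![a, b; c, d] : Matrix (Fin 2) (Fin 2) ℝ) = !![a', b'; c', d'] ↔
      a = a' ∧ b = b' ∧ c = c' ∧ d = d' := by
  constructor
  · intro h
    refine ⟨?_, ?_, ?_, ?_⟩
    · simpa using congrFun (congrFun h 0) 0
    · simpa using congrFun (congrFun h 0) 1
    · simpa using congrFun (congrFun h 1) 0
    · simpa using congrFun (congrFun h 1) 1
  · rintro ⟨rfl, rfl, rfl, rfl⟩
    rfl

/-- The matrix of `mapGL ℝ g`. -/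
theorem s35c_mapGL_val (g : SL(2, ℤ)) :
    ((mapGL ℝ g : GL (Fin 2) ℝ) : Matrix (Fin 2) (Fin 2) ℝ) =
      !![((g 0 0 : ℤ) : ℝ), ((g 0 1 : ℤ) : ℝ); ((g 1 0 : ℤ) : ℝ), ((g 1 1 : ℤ) : ℝ)] := by
  ext i j
  rw [s35c_mapGL_apply]
  fin_cases i <;> fin_cases j <;> rfl

/-- The matrix of `heckeRep ℓ x`. -/
theorem s35c_heckeRep_val {ℓ : ℕ} (hℓ : ℓ ≠ 0) (x : OnePoint (ZMod ℓ)) :
    ((heckeRep ℓ x : GL (Fin 2) ℝ) : Matrix (Fin 2) (Fin 2) ℝ) =
      !![((heckeRepA ℓ x : ℤ) : ℝ), ((heckeRepB ℓ x : ℤ) : ℝ); 0, ((heckeRepD ℓ x : ℤ) : ℝ)] := by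
  rw [(heckeRep_entries hℓ x).2.1]
  simp

theorem s35c_heckeRepA_mul_D {ℓ : ℕ} (hℓ : ℓ ≠ 0) (x : OnePoint (ZMod ℓ)) :
    heckeRepA ℓ x * heckeRepD ℓ x = ℓ := (heckeRep_entries hℓ x).2.2

theorem s35c_heckeRepA_pos {ℓ : ℕ} (hℓ : ℓ ≠ 0) (x : OnePoint (ZMod ℓ)) :
    0 < heckeRepA ℓ x := by
  have hℓ' : (0 : ℤ) < ℓ := by exact_mod_cast Nat.pos_of_ne_zero hℓ
  induction x using OnePoint.rec with
  | infty => simpa [heckeRepA] using hℓ'
  | coe j => simp [heckeRepA]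

theorem s35c_heckeRepD_pos {ℓ : ℕ} (hℓ : ℓ ≠ 0) (x : OnePoint (ZMod ℓ)) :
    0 < heckeRepD ℓ x := by
  have hℓ' : (0 : ℤ) < ℓ := by exact_mod_cast Nat.pos_of_ne_zero hℓ
  induction x using OnePoint.rec with
  | infty => simp [heckeRepD]
  | coe j => simpa [heckeRepD] using hℓ'

/-- The entries `a`, `d` of `heckeRep ℓ x` are prime to every integer prime to `ℓ`. -/
theorem s35c_heckeRepA_coprime {ℓ : ℕ} (hℓ : ℓ ≠ 0) (x : OnePoint (ZMod ℓ)) {n : ℤ}
    (hn : IsCoprime (ℓ : ℤ) n) : IsCoprime (heckeRepA ℓ x) n := by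
  have h := s35c_heckeRepA_mul_D hℓ x
  rw [← h] at hn
  exact (IsCoprime.mul_left_iff.mp hn).1

theorem s35c_heckeRepD_coprime {ℓ : ℕ} (hℓ : ℓ ≠ 0) (x : OnePoint (ZMod ℓ)) {n : ℤ}
    (hn : IsCoprime (ℓ : ℤ) n) : IsCoprime (heckeRepD ℓ x) n := by
  have h := s35c_heckeRepA_mul_D hℓ x
  rw [← h] at hn
  exact (IsCoprime.mul_left_iff.mp hn).2

/-- **The cosets `SL₂(ℤ) · heckeRep ℓ x` are pairwise distinct.** -/
theorem s35c_heckeRep_inj {ℓ : ℕ} [Fact ℓ.Prime] (x y : OnePoint (ZMod ℓ)) (g : SL(2, ℤ))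
    (h : heckeRep ℓ x * (heckeRep ℓ y)⁻¹ = mapGL ℝ g) : x = y := by
  have hℓ : ℓ ≠ 0 := (Fact.out : ℓ.Prime).ne_zero
  have hℓ1 : (1 : ℤ) < ℓ := by exact_mod_cast (Fact.out : ℓ.Prime).one_lt
  have h1 : heckeRep ℓ x = mapGL ℝ g * heckeRep ℓ y := mul_inv_eq_iff_eq_mul.mp h
  have h2 := congrArg (fun m : GL (Fin 2) ℝ => (m : Matrix (Fin 2) (Fin 2) ℝ)) h1
  simp only [Matrix.GeneralLinearGroup.coe_mul] at h2
  rw [s35c_heckeRep_val hℓ, s35c_heckeRep_val hℓ, s35c_mapGL_val, Matrix.mul_fin_two,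
    s35c_mat2_eq_iff] at h2
  obtain ⟨e00, e01, e10, e11⟩ := h2
  simp only [mul_zero, add_zero] at e00 e10
  have i00 : heckeRepA ℓ x = g 0 0 * heckeRepA ℓ y := by exact_mod_cast e00
  have i01 : heckeRepB ℓ x = g 0 0 * heckeRepB ℓ y + g 0 1 * heckeRepD ℓ y := by
    exact_mod_cast e01
  have i10 : (0 : ℤ) = g 1 0 * heckeRepA ℓ y := by exact_mod_cast e10
  have i11 : heckeRepD ℓ x = g 1 0 * heckeRepB ℓ y + g 1 1 * heckeRepD ℓ y := by
    exact_mod_cast e11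
  have hAy := s35c_heckeRepA_pos hℓ y
  have hAx := s35c_heckeRepA_pos hℓ x
  have hg10 : g 1 0 = 0 := by
    rcases mul_eq_zero.mp i10.symm with h0 | h0
    · exact h0
    · exact absurd h0 hAy.ne'
  have hdet := Matrix.SpecialLinearGroup.det_coe g
  rw [Matrix.det_fin_two, hg10, mul_zero, sub_zero] at hdet
  have hg00 : g 0 0 = 1 := by
    rcases Int.isUnit_iff.mp (IsUnit.of_mul_eq_one _ hdet) with h0 | h0
    · exact h0
    · rw [h0] at i00
      linarith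
  have hg11 : g 1 1 = 1 := by rw [hg00, one_mul] at hdet; exact hdet
  rw [hg00, one_mul] at i00 i01
  rw [hg10, zero_mul, zero_add, hg11, one_mul] at i11
  induction x using OnePoint.rec with
  | infty =>
    induction y using OnePoint.rec with
    | infty => rfl
    | coe j' =>
      exfalso
      simp [heckeRepA] at i00
      omega
  | coe j =>
    induction y using OnePoint.rec with
    | infty =>
      exfalso
      simp [heckeRepA] at i00
      omega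
    | coe j' =>
      have hB : heckeRepB ℓ (↑j : OnePoint (ZMod ℓ)) = (j.val : ℤ) := rfl
      have hB' : heckeRepB ℓ (↑j' : OnePoint (ZMod ℓ)) = (j'.val : ℤ) := rfl
      have hD' : heckeRepD ℓ (↑j' : OnePoint (ZMod ℓ)) = (ℓ : ℤ) := rfl
      rw [hB, hB', hD'] at i01
      congr 1
      have h3 := congrArg (Int.cast : ℤ → ZMod ℓ) i01
      rw [Int.cast_add, Int.cast_mul, Int.cast_natCast, Int.cast_natCast, Int.cast_natCast,
        ZMod.natCast_self, mul_zero, add_zero, ZMod.natCast_zmod_val,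
        ZMod.natCast_zmod_val] at h3
      exact h3

/-! ### The Hecke datum -/

/-- The Hecke datum of `T_ℓ` at the level `N`. -/
noncomputable def s35c_hecke (N ℓ : ℕ) [Fact ℓ.Prime] (hℓN : ¬ ℓ ∣ N) :
    s35c_Datum (s35c_iota N) (s35c_iota N) (OnePoint (ZMod ℓ)) where
  rep := heckeRep ℓ
  act γ x := redMatrix ℓ (γ : SL(2, ℤ)) • x
  coc γ x := s29lat_gam N ℓ hℓN γ x
  spec γ x := s29lat_gam_spec N ℓ hℓN γ x
  act_one x := by rw [OneMemClass.coe_one, s29lat_red_one, one_smul]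
  act_mul γ δ x := by rw [Subgroup.coe_mul, s29lat_red_smul_mul]
  coc_mul γ δ x := s29lat_gam_mul N ℓ hℓN γ δ x

@[simp] theorem s35c_hecke_rep (N ℓ : ℕ) [Fact ℓ.Prime] (hℓN : ¬ ℓ ∣ N)
    (x : OnePoint (ZMod ℓ)) : (s35c_hecke N ℓ hℓN).rep x = heckeRep ℓ x := rfl

/-- The operator of the Hecke datum is `s29lat_heckeHom`. -/
theorem s35c_op_hecke (N ℓ : ℕ) [Fact ℓ.Prime] (hℓN : ¬ ℓ ∣ N) {A : Type*} [AddCommMonoid A]
    (ψ : Additive (Gamma0 N) →+ A) :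
    s35c_op (s35c_hecke N ℓ hℓN) ψ = s29lat_heckeHom N ℓ hℓN ψ :=
  AddMonoidHom.ext fun _ => rfl

/-- The cosets `Γ₀(N) · heckeRep ℓ x` are pairwise distinct. -/
theorem s35c_hecke_inj (N ℓ : ℕ) [Fact ℓ.Prime] (hℓN : ¬ ℓ ∣ N) (x y : OnePoint (ZMod ℓ))
    (h : ∃ g : Gamma0 N, (s35c_hecke N ℓ hℓN).rep x * ((s35c_hecke N ℓ hℓN).rep y)⁻¹ =
      s35c_iota N g) : x = y := by
  obtain ⟨g, hg⟩ := h
  exact s35c_heckeRep_inj x y (g : SL(2, ℤ)) hg

end Fermat.Agent.S35
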