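/-
S35, a tool for [NF-NORM] / [NF-RAT] (owner: helper26).  Prefix `s35dg_`.

**The degree of the degeneracy map `α` over an ARBITRARY field `K` of characteristic `0`.**
For a prime `q ∤ M`:

* `s35dg_alpha_j`        : `α (j_M) = j_{M q}`;
* `s35dg_finrank_alpha`  : `[F_K(M q) : α F_K(M)] = q + 1`  (`finrankAlong`);
* `s35dg_finite_alpha`   : `FiniteAlong K (heckeAlphaBar K M q)`;
* `s35dg_finrank_alpha'` : the same degree spelled with `letI := algebraAlong ..`.

From S34 [DEG-K] (`s34dk_finrank`: `[F_K(N) : K(j)] = ψ(N)` for every `K`) and the tower law.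
-/
import Mathlib
import Fermat.Prelude.Def_ModularCurve_HeckeOperator
import Fermat.Prelude.Def_AlgebraicCurve_Correspondence
import Fermat.Agent.S34.DegK

set_option autoImplicit false
set_option linter.unusedSectionVars false
set_option linter.unusedVariables false
set_option linter.style.haveILetI false

open AlgebraicCurve ModularCurve IntermediateField

noncomputable section

namespace Fermat.Agent.S35

open Fermat.Agent.S18 Fermat.Agent.S34

section Deg

variable (K : Type) [Field K] [CharZero K] (M q : ℕ) [NeZero M] [NeZero q]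

/-- `α j = j`. -/
theorem s35dg_alpha_j : heckeAlphaBar K M q (s18_j K M) = s18_j K (M * q) := by
  apply Subtype.ext
  rw [coe_heckeAlphaBar]
  rfl

/-- `ψ(N) > 0`. -/
theorem s35dg_psi_pos : 0 < ModularCurve.dedekindPsi M := Fermat.Agent.S18.s18d_psi_pos M

/-- **`[F_K(M q) : α F_K(M)] = q + 1`** for every field `K` of characteristic `0`. -/
theorem s35dg_finrank_alpha' (hq : q.Prime) (hqM : ¬ q ∣ M) :
    letI := algebraAlong (heckeAlphaBar K M q)
    Module.finrank ↥(s18_F K M) ↥(s18_F K (M * q)) = q + 1 := by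
  letI : Algebra ↥(s18_F K M) ↥(s18_F K (M * q)) := algebraAlong (heckeAlphaBar K M q)
  have hmap : (K⟮s18_j K M⟯).map (heckeAlphaBar K M q) = K⟮s18_j K (M * q)⟯ := by
    rw [IntermediateField.adjoin_map, Set.image_singleton, s35dg_alpha_j]
  letI : Algebra ↥(K⟮s18_j K M⟯) ↥(s18_F K (M * q)) :=
    ((heckeAlphaBar K M q).toRingHom.comp (algebraMap ↥(K⟮s18_j K M⟯) ↥(s18_F K M))).toAlgebra
  haveI : IsScalarTower ↥(K⟮s18_j K M⟯) ↥(s18_F K M) ↥(s18_F K (M * q)) :=
    IsScalarTower.of_algebraMap_eq fun _ => rfl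
  have h1 := Module.finrank_mul_finrank ↥(K⟮s18_j K M⟯) ↥(s18_F K M) ↥(s18_F K (M * q))
  have h2 : Module.finrank ↥(K⟮s18_j K M⟯) ↥(s18_F K (M * q)) =
      Module.finrank ↥(K⟮s18_j K (M * q)⟯) ↥(s18_F K (M * q)) :=
    Algebra.finrank_eq_of_equiv_equiv
      (((K⟮s18_j K M⟯).equivMap (heckeAlphaBar K M q)).toRingEquiv.trans
        (IntermediateField.equivOfEq hmap).toRingEquiv) (RingEquiv.refl _)
      (by ext x; rfl)
  rw [h2, s34dk_finrank K M, s34dk_finrank K (M * q),
    Fermat.Agent.S24.Comb.dedekindPsi_mul ((Nat.Prime.coprime_iff_not_dvd hq).2 hqM).symm] at h1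
  have h3 : ModularCurve.dedekindPsi q = q + 1 := by
    have := Fermat.Agent.S24.Comb.dedekindPsi_prime_pow hq 0
    simpa using this
  rw [h3] at h1
  exact Nat.eq_of_mul_eq_mul_left (s35dg_psi_pos M) h1

/-- **`[F_K(M q) : α F_K(M)] = q + 1`**, spelled with `finrankAlong`. -/
theorem s35dg_finrank_alpha (hq : q.Prime) (hqM : ¬ q ∣ M) :
    finrankAlong K (heckeAlphaBar K M q) = q + 1 :=
  s35dg_finrank_alpha' K M q hq hqM

/-- `F_K(M q)` is finite over `α F_K(M)`. -/
theorem s35dg_finite_alpha (hq : q.Prime) (hqM : ¬ q ∣ M) :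
    FiniteAlong K (heckeAlphaBar K M q) := by
  letI : Algebra ↥(s18_F K M) ↥(s18_F K (M * q)) := algebraAlong (heckeAlphaBar K M q)
  have h : Module.finrank ↥(s18_F K M) ↥(s18_F K (M * q)) = q + 1 :=
    s35dg_finrank_alpha' K M q hq hqM
  exact Module.finite_of_finrank_pos (by rw [h]; omega)

/-- The degree over `K` equals the degree over any other field of characteristic `0`. -/
theorem s35dg_finrank_alpha_eq (L : Type) [Field L] [CharZero L] (hq : q.Prime)
    (hqM : ¬ q ∣ M) :
    finrankAlong K (heckeAlphaBar K M q) = finrankAlong L (heckeAlphaBar L M q) := by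
  rw [s35dg_finrank_alpha K M q hq hqM, s35dg_finrank_alpha L M q hq hqM]

end Deg

end Fermat.Agent.S35

end
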