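/-
S35, leaf [J-PUSH], THE DICTIONARY at the levels `M q → M` (helper19).  Prefix `s35jp_`.

If `n • D = div f`, `n ≠ 0`, then
  `s35_pushA M q [D] = 0 ⟺ ∃ g, g ^ n = s35_normA Q̄ M q f`   (`s35jp_pushA_eq_zero_iff`),
  `s35_pushB M q [D] = 0 ⟺ ∃ g, g ^ n = s35_normB Q̄ M q f`   (`s35jp_pushB_eq_zero_iff`).
(The direction `⟹` is also helper9's `s35wi_norm_of_pushPic`; the direction `⟸` is new.)
-/
import Mathlib
import Fermat.Agent.S35.JPushAbs
import Fermat.Agent.S35.NfDefs
import Fermat.Agent.S35.KpBc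
import Fermat.Agent.S35.NfWire

set_option autoImplicit false
set_option linter.unusedSectionVars false
set_option linter.style.haveILetI false

open AlgebraicCurve ModularCurve

noncomputable section

namespace Fermat.Agent.S35

variable (M q : ℕ) [NeZero M] [NeZero q]

/-! ### The dictionary -/

/-- `s35_normA` is the norm along `heckeAlphaBar`. -/
theorem s35jp_normA_eq (f : ↥(modularFunctionFieldBar (M * q))) :
    s35_normA (AlgebraicClosure ℚ) M q f =
      s35jp_normAlong (heckeAlphaBar (AlgebraicClosure ℚ) M q) f := rfl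

/-- `s35_normB` is the norm along `heckeBetaBar`. -/
theorem s35jp_normB_eq (f : ↥(modularFunctionFieldBar (M * q))) :
    s35_normB (AlgebraicClosure ℚ) M q f =
      s35jp_normAlong (heckeBetaBar (AlgebraicClosure ℚ) M q) f := rfl

/-- **The dictionary for `α`**: if `n • D = div f` then
`α_* [D] = 0 ⟺ N_α f` is an `n`-th power. -/
theorem s35jp_pushA_eq_zero_iff (n : ℕ) (hn : n ≠ 0)
    (D : Divisor.degZero (K := AlgebraicClosure ℚ) (F := modularFunctionFieldBar (M * q)))
    (f : ↥(modularFunctionFieldBar (M * q))) (hf : f ≠ 0)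
    (hfD : ∀ w : Place (AlgebraicClosure ℚ) ↥(modularFunctionFieldBar (M * q)),
      (n : ℤ) * (D : Divisor (AlgebraicClosure ℚ) ↥(modularFunctionFieldBar (M * q))) w =
        w.ord f) :
    s35_pushA M q (Pic0.mk D) = 0 ↔
      ∃ g : ↥(modularFunctionFieldBar M), g ^ n = s35_normA (AlgebraicClosure ℚ) M q f := by
  obtain ⟨hφ, hfin, hN⟩ := s35kb_inputsA_bar M q
  exact s35jp_push_eq_zero_iff_pow (heckeAlphaBar (AlgebraicClosure ℚ) M q) hφ hfin hN
    (fun y hy h => s35wi_const M y hy h) n hn D f hf hfD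

/-- **The dictionary for `β`**: if `n • D = div f` then
`β_* [D] = 0 ⟺ N_β f` is an `n`-th power. -/
theorem s35jp_pushB_eq_zero_iff (n : ℕ) (hn : n ≠ 0)
    (D : Divisor.degZero (K := AlgebraicClosure ℚ) (F := modularFunctionFieldBar (M * q)))
    (f : ↥(modularFunctionFieldBar (M * q))) (hf : f ≠ 0)
    (hfD : ∀ w : Place (AlgebraicClosure ℚ) ↥(modularFunctionFieldBar (M * q)),
      (n : ℤ) * (D : Divisor (AlgebraicClosure ℚ) ↥(modularFunctionFieldBar (M * q))) w =
        w.ord f) :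
    s35_pushB M q (Pic0.mk D) = 0 ↔
      ∃ g : ↥(modularFunctionFieldBar M), g ^ n = s35_normB (AlgebraicClosure ℚ) M q f := by
  obtain ⟨hφ, hfin, hN⟩ := s35kb_inputsB_bar M q
  exact s35jp_push_eq_zero_iff_pow (heckeBetaBar (AlgebraicClosure ℚ) M q) hφ hfin hN
    (fun y hy h => s35wi_const M y hy h) n hn D f hf hfD

end Fermat.Agent.S35
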