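/-
S35, leaf [K-PUSH] (owner of this file: helper26).  Prefix `s35kb_`.

The Prop [KP-ROOT] in the shape fixed by helper5 (ALL homomorphisms `c`, no parabolicity), and
the composition `s35kb_kumPush_of_pushAll : s35kb_RootPushAllStatement → s35_KumPushStatement`;
`s35kb_push_ord` (the divisor bookkeeping under the name asked for by the consumer).
-/
import Mathlib
import Fermat.Agent.S35.KpBcRoot

set_option autoImplicit false
set_option linter.style.haveILetI false
set_option linter.unusedSectionVars false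
set_option linter.unusedVariables false

noncomputable section

namespace Fermat.Agent.S35

open UpperHalfPlane CongruenceSubgroup ModularCurve ModularCurve.Period AlgebraicCurve
open scoped MatrixGroups

open Fermat.Agent.S29 Fermat.Agent.S30

/-- **[KP-ROOT]**, for ALL homomorphisms `c : Γ₀(M q) → ℤ`: the push-forward of a root class of
`ζ^c` is a root class of `ζ^(cor c)`, for both degeneracy maps. -/
def s35kb_RootPushAllStatement : Prop :=
  ∀ (M q : ℕ) [NeZero M] [NeZero q], q.Prime → ¬ q ∣ M → ∀ (n : ℕ), 0 < n →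
    ∀ ζ : ℂˣ, ζ ^ n = 1 → ∀ (c : Additive ↥(Gamma0 (M * q)) →+ ℤ)
      (x : Pic0 ℂ ↥(laurentBaseChange ℂ (modularFunctionFieldFull (M * q)))),
      s29k_IsRoot (M * q) n (s29k_chi ζ c) x →
        s29k_IsRoot M n (s29k_chi ζ (s35c_corA M q c)) (s35_pushPic (heckeAlphaBar ℂ M q) x) ∧
        s29k_IsRoot M n (s29k_chi ζ (s35c_corB M q c)) (s35_pushPic (heckeBetaBar ℂ M q) x)

theorem s35kb_rootPush_of_all (h : s35kb_RootPushAllStatement) : s35kb_RootPushStatement :=
  fun M q _ _ hq hqM n hn ζ hζ c x hx => h M q hq hqM n hn ζ hζ _ x hx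

/-- **[K-PUSH]** from [KP-ROOT] (all `c`). -/
theorem s35kb_kumPush_of_pushAll (h : s35kb_RootPushAllStatement) : s35_KumPushStatement :=
  s35kb_kumPush_of_push (s35kb_rootPush_of_all h)

/-- The two halves separately. -/
theorem s35kb_rootPushAll_of
    (hA : ∀ (M q : ℕ) [NeZero M] [NeZero q], q.Prime → ¬ q ∣ M → ∀ (n : ℕ), 0 < n →
      ∀ ζ : ℂˣ, ζ ^ n = 1 → ∀ (c : Additive ↥(Gamma0 (M * q)) →+ ℤ)
        (x : Pic0 ℂ ↥(laurentBaseChange ℂ (modularFunctionFieldFull (M * q)))),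
        s29k_IsRoot (M * q) n (s29k_chi ζ c) x →
          s29k_IsRoot M n (s29k_chi ζ (s35c_corA M q c)) (s35_pushPic (heckeAlphaBar ℂ M q) x))
    (hB : ∀ (M q : ℕ) [NeZero M] [NeZero q], q.Prime → ¬ q ∣ M → ∀ (n : ℕ), 0 < n →
      ∀ ζ : ℂˣ, ζ ^ n = 1 → ∀ (c : Additive ↥(Gamma0 (M * q)) →+ ℤ)
        (x : Pic0 ℂ ↥(laurentBaseChange ℂ (modularFunctionFieldFull (M * q)))),
        s29k_IsRoot (M * q) n (s29k_chi ζ c) x →
          s29k_IsRoot M n (s29k_chi ζ (s35c_corB M q c)) (s35_pushPic (heckeBetaBar ℂ M q) x)) :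
    s35kb_RootPushAllStatement :=
  fun M q _ _ hq hqM n hn ζ hζ c x hx =>
    ⟨hA M q hq hqM n hn ζ hζ c x hx, hB M q hq hqM n hn ζ hζ c x hx⟩

/-- **Divisor bookkeeping** (the name of the consumer): if `n D = div y` then
`n (φ_* D) = div N_φ(y)`. -/
theorem s35kb_push_ord {K F F' : Type*} [Field K] [Field F] [Field F'] [Algebra K F]
    [Algebra K F'] (φ : F →ₐ[K] F') (hφ : φ.toRingHom.IsIntegral) (hfin : FiniteAlong K φ)
    (hN : NormFormulaAlong K φ hfin) (n : ℤ) (D : Divisor K F') (y : F') (hy : y ≠ 0)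
    (hD : ∀ w : Place K F', n * D w = w.ord y) (v : Place K F) :
    n * Divisor.pushforwardAlong φ hφ D v =
      v.ord (letI := algebraAlong φ; Algebra.norm F y) :=
  s35kb_div_push φ hφ hfin hN n D y hy hD v

end Fermat.Agent.S35

end
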