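/-
S35, leaf [K-PUSH], cut (c) of helper5's post #1816 (owner of this file: helper26).
Prefix `s35kb_`.

THE B-PRODUCT.  For the explicit Hecke datum `s35kp_datB M q x y h` of the second transfer
(representatives `ρ γ' = γ₁ · diag (q, 1)` and `ρ T^j = heckeMatrix q j`, `γ₁ = [[x, y], [M, q]]`),

    ∏_c f ∣[k] rep c = (q^(k-1) · (q⁻¹)^q) • mix q (f^w) f,      f^w = s35kw_Wf M q x y h k f,

together with the hypotheses `hdet`, `hb` of `s35kf_isForm_datum` for this datum and the resulting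
statement: `mix q (f^w) f` is a form of level `M`, weight `(q + 1) k` and character
`ζ^(s35c_corB M q c)` when `f` is a form of level `M q`, weight `k` and character `ζ^c`.
-/
import Mathlib
import Fermat.Agent.S35.KPushSer
import Fermat.Agent.S35.KPushCoset
import Fermat.Agent.S35.KpWNice
import Fermat.Agent.S35.KpFormDatum
import Fermat.Agent.S35.KpFormAB
import Fermat.Agent.S35.KpFormReps

set_option autoImplicit false
set_option linter.unusedSectionVars false
set_option linter.unusedVariables false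

noncomputable section

namespace Fermat.Agent.S35

open UpperHalfPlane ModularFormClass CongruenceSubgroup Matrix.SpecialLinearGroup Function
open ModularForm Filter Asymptotics
open scoped MatrixGroups ModularForm Manifold Real Topology

open Fermat.Agent.S22 Fermat.Agent.S24 Fermat.Agent.S28 Fermat.Agent.S29 Fermat.Agent.S37

variable (M q : ℕ) (x y : ℤ) (h : x * q - y * M = 1)

/-- The representative at `∞` of the datum B is `γ₁ · diag (q, 1)`. -/
theorem s35kb_datB_rep_infty [Fact q.Prime] :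
    (s35kp_datB M q x y h).rep (OnePoint.infty : OnePoint (ZMod q)) =
      mapGL ℝ (s37al_mat x y M q h) * heckeDiagMatrix q := by
  have hq : q ≠ 0 := (Fact.out : q.Prime).ne_zero
  rw [s35kp_datB_rep]
  apply s35kp_glext
  all_goals
    rw [s35kp_rho_mul_apply hq, Units.val_mul, val_heckeDiagMatrix hq, mapGL_coe_matrix]
    simp [s35kp_rB, s35kp_gamB, Matrix.mul_apply, Fin.sum_univ_two]
  all_goals ring

/-- The representative at `j` of the datum B is `heckeMatrix q j`. -/
theorem s35kb_datB_rep_coe [Fact q.Prime] (j : ZMod q) :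
    (s35kp_datB M q x y h).rep ((j : ZMod q) : OnePoint (ZMod q)) = heckeMatrix q j.val := by
  have hq : q ≠ 0 := (Fact.out : q.Prime).ne_zero
  rw [s35kp_datB_rep]
  apply s35kp_glext
  all_goals
    rw [s35kp_rho_mul_apply hq, val_heckeMatrix hq]
    simp [s35kp_rB, s35kp_tr]

/-- `f ∣[k] rep ∞` for the datum B. -/
theorem s35kb_slash_rep_infty [Fact q.Prime] (k : ℤ) (f : ℍ → ℂ) (z : ℍ) :
    (f ∣[k] (s35kp_datB M q x y h).rep (OnePoint.infty : OnePoint (ZMod q))) z =
      (q : ℂ) ^ (k - 1) * s35kw_Wf M q x y h k f z := by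
  have hq : q ≠ 0 := (Fact.out : q.Prime).ne_zero
  rw [s35kb_datB_rep_infty, SlashAction.slash_mul, slash_heckeDiagMatrix_apply k hq]
  rfl

/-- `f ∣[k] rep j` for the datum B. -/
theorem s35kb_slash_rep_coe [Fact q.Prime] (k : ℤ) (f : ℍ → ℂ) (j : ZMod q) (z : ℍ) :
    (f ∣[k] (s35kp_datB M q x y h).rep ((j : ZMod q) : OnePoint (ZMod q))) z =
      (q : ℂ)⁻¹ * f (heckeMatrix q j.val • z) := by
  have hq : q ≠ 0 := (Fact.out : q.Prime).ne_zero
  rw [s35kb_datB_rep_coe, slash_heckeMatrix_apply k hq]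

/-- **[K-PUSH] (c), THE B-PRODUCT**: the product of the explicit datum of the second transfer is
a constant multiple of the mixed Hecke product `mix q (f^w) f`. -/
theorem s35kb_prodB [NeZero q] [Fact q.Prime] (k : ℤ) (f : ℍ → ℂ) :
    s35kf_dprod (s35kp_datB M q x y h) k f =
      ((q : ℂ) ^ (k - 1) * ((q : ℂ)⁻¹) ^ q) • s35kp_mix q (s35kw_Wf M q x y h k f) f := by
  funext z
  rw [s35kf_dprod_apply, Pi.smul_apply, smul_eq_mul, s35kp_mix_apply,
    s29hka_prod_range_eq_prod_zmod (fun j => f (heckeMatrix q j • z))]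
  have h1 := Fintype.prod_option
    (fun c : OnePoint (ZMod q) => (f ∣[k] (s35kp_datB M q x y h).rep c) z)
  have h2 : (∏ c : OnePoint (ZMod q), (f ∣[k] (s35kp_datB M q x y h).rep c) z) =
      (f ∣[k] (s35kp_datB M q x y h).rep (OnePoint.infty : OnePoint (ZMod q))) z *
        ∏ j : ZMod q, (f ∣[k] (s35kp_datB M q x y h).rep ((j : ZMod q) : OnePoint (ZMod q))) z :=
    h1
  rw [h2, s35kb_slash_rep_infty]
  simp only [s35kb_slash_rep_coe]
  rw [Finset.prod_mul_distrib, Finset.prod_const, Finset.card_univ, ZMod.card]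
  ring

/-- The constant of `s35kb_prodB` is not zero. -/
theorem s35kb_prodB_const_ne_zero [NeZero q] (k : ℤ) :
    ((q : ℂ) ^ (k - 1) * ((q : ℂ)⁻¹) ^ q) ≠ 0 := by
  have hq : (q : ℂ) ≠ 0 := by exact_mod_cast NeZero.ne q
  exact mul_ne_zero (zpow_ne_zero _ hq) (pow_ne_zero _ (inv_ne_zero hq))

/-- The mixed product in terms of the product of the datum. -/
theorem s35kb_mixB_eq [NeZero q] [Fact q.Prime] (k : ℤ) (f : ℍ → ℂ) :
    s35kp_mix q (s35kw_Wf M q x y h k f) f =
      ((q : ℂ) ^ (k - 1) * ((q : ℂ)⁻¹) ^ q)⁻¹ • s35kf_dprod (s35kp_datB M q x y h) k f := by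
  rw [s35kb_prodB, smul_smul, inv_mul_cancel₀ (s35kb_prodB_const_ne_zero q k), one_smul]

/-! ### The hypotheses `hdet`, `hb` of `s35kf_isForm_datum` -/

theorem s35kb_datB_det [Fact q.Prime] (c : OnePoint (ZMod q)) :
    0 < (Matrix.GeneralLinearGroup.det ((s35kp_datB M q x y h).rep c)).val := by
  rw [s35kp_datB_rep, map_mul]
  have h1 : 0 < ((Matrix.GeneralLinearGroup.det (s35c_rhoB q)).val : ℝ) :=
    ModularForm.det_heckeMatrix_pos q 0
  simpa using h1

theorem s35kb_datB_bdd [Fact q.Prime] (k : ℤ) {f : ℍ → ℂ}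
    (hb : ∀ δ : SL(2, ℤ), IsBoundedAtImInfty (f ∣[k] δ)) (c : OnePoint (ZMod q))
    (δ : SL(2, ℤ)) :
    IsBoundedAtImInfty (f ∣[k] ((s35kp_datB M q x y h).rep c * mapGL ℝ δ)) := by
  rw [s35kp_datB_rep, mul_assoc, ← map_mul]
  exact s35kf_rhoB_bdd k hb _

/-! ### The product is a form of character `ζ^(s35c_corB M q c)` -/

/-- The product of the explicit datum B is a form of level `M` and character
`ζ^(s35c_corB M q c)`. -/
theorem s35kb_isForm_dprodB [NeZero q] [Fact q.Prime] (k : ℕ) (ζ : ℂˣ)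
    (c : Additive ↥(Gamma0 (M * q)) →+ ℤ) {f : ℍ → ℂ}
    (hf : s29k_IsForm (M * q) k (s29k_chi ζ c) f) :
    s29k_IsForm M ((Fintype.card (OnePoint (ZMod q)) * k : ℕ) : ℤ)
      (s29k_chi ζ (s35c_corB M q c)) (s35kf_dprod (s35kp_datB M q x y h) (k : ℤ) f) := by
  rw [s35kp_corB_eq M q x y h]
  exact s35kf_isForm_datum (s35kp_datB M q x y h) (s35kb_datB_det M q x y h) k ζ c hf
    (s35kb_datB_bdd M q x y h (k : ℤ) hf.2.2)

/-- **The mixed product `mix q (f^w) f` is a form** of level `M`, weight `|ℙ¹(𝔽_q)| k` and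
character `ζ^(s35c_corB M q c)`. -/
theorem s35kb_isForm_mixB [NeZero q] [Fact q.Prime] (k : ℕ) (ζ : ℂˣ)
    (c : Additive ↥(Gamma0 (M * q)) →+ ℤ) {f : ℍ → ℂ}
    (hf : s29k_IsForm (M * q) k (s29k_chi ζ c) f) :
    s29k_IsForm M ((Fintype.card (OnePoint (ZMod q)) * k : ℕ) : ℤ)
      (s29k_chi ζ (s35c_corB M q c)) (s35kp_mix q (s35kw_Wf M q x y h (k : ℤ) f) f) := by
  rw [s35kb_mixB_eq]
  exact s35kf_isForm_smul (s35kb_isForm_dprodB M q x y h k ζ c hf) _

theorem s35kb_card_onePoint [NeZero q] : Fintype.card (OnePoint (ZMod q)) = q + 1 := by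
  have e : Fintype.card (OnePoint (ZMod q)) = Fintype.card (Option (ZMod q)) := rfl
  rw [e, Fintype.card_option, ZMod.card]

/-- The same with the weight `(q + 1) k`. -/
theorem s35kb_isForm_mixB' [NeZero q] [Fact q.Prime] (k : ℕ) (ζ : ℂˣ)
    (c : Additive ↥(Gamma0 (M * q)) →+ ℤ) {f : ℍ → ℂ}
    (hf : s29k_IsForm (M * q) k (s29k_chi ζ c) f) :
    s29k_IsForm M (((q + 1) * k : ℕ) : ℤ)
      (s29k_chi ζ (s35c_corB M q c)) (s35kp_mix q (s35kw_Wf M q x y h (k : ℤ) f) f) := by
  have h1 := s35kb_isForm_mixB M q x y h k ζ c hf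
  rwa [s35kb_card_onePoint] at h1

end Fermat.Agent.S35

end
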