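/-
S35, leaf [K-PUSH], sub-leaf [KP-FORM] (owner: helper1), part 1.  Prefix `s35kf_`.  Mathlib only.

THE TRANSFER IN TERMS OF AN ARBITRARY SYSTEM OF REPRESENTATIVES.  `H ≤ G` of finite index,
`t : G ⧸ H → G` with `⟦t x⟧ = x`, `ϕ : H →* A`, `A` commutative.  Then

    transfer ϕ g = ∏_{y : G ⧸ H} ϕ ((t (g • y))⁻¹ * g * t y).
-/
import Mathlib

set_option autoImplicit false

open Subgroup MulAction

namespace Fermat.Agent.S35

variable {G : Type*} [Group G] {H : Subgroup G} {A : Type*} [CommGroup A]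

/-- `(t (g • y))⁻¹ * g * t y ∈ H` for a system of representatives `t`. -/
theorem s35kf_mem (t : G ⧸ H → G) (ht : ∀ x, (t x : G ⧸ H) = x) (g : G) (y : G ⧸ H) :
    (t (g • y))⁻¹ * g * t y ∈ H := by
  have h1 : ((g * t y : G) : G ⧸ H) = g • y := by
    conv_rhs => rw [← ht y]
    rfl
  have h2 : ((t (g • y) : G) : G ⧸ H) = ((g * t y : G) : G ⧸ H) := by rw [ht, h1]
  have h3 := QuotientGroup.eq.mp h2
  rwa [mul_assoc]

/-- **The transfer in terms of a system of representatives.** -/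
theorem s35kf_transfer_eq [H.FiniteIndex] [Fintype (G ⧸ H)] (ϕ : H →* A) (t : G ⧸ H → G)
    (ht : ∀ x, (t x : G ⧸ H) = x) (g : G) :
    MonoidHom.transfer ϕ g = ∏ y : G ⧸ H, ϕ ⟨(t (g • y))⁻¹ * g * t y, s35kf_mem t ht g y⟩ := by
  classical
  rw [MonoidHom.transfer_def ϕ ⟨Set.range t, isComplement_range_left ht⟩ g]
  unfold Subgroup.leftTransversals.diff
  simp only
  have e : ∀ q : G ⧸ H,
      ϕ ⟨(((isComplement_range_left ht).leftQuotientEquiv q : G))⁻¹ *
          ((g • (⟨Set.range t, isComplement_range_left ht⟩ : H.LeftTransversal)).2.leftQuotientEquiv q : G),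
        QuotientGroup.leftRel_apply.mp <|
          Quotient.exact' (((isComplement_range_left ht).leftQuotientEquiv.symm_apply_apply q).trans
            ((g • (⟨Set.range t, isComplement_range_left ht⟩ :
              H.LeftTransversal)).2.leftQuotientEquiv.symm_apply_apply q).symm)⟩ =
      ϕ ⟨(t (g • (g⁻¹ • q)))⁻¹ * g * t (g⁻¹ • q), s35kf_mem t ht g (g⁻¹ • q)⟩ := by
    intro q
    congr 1
    apply Subtype.ext
    simp only
    rw [smul_apply_eq_smul_apply_inv_smul]
    rw [IsComplement.leftQuotientEquiv_apply ht, IsComplement.leftQuotientEquiv_apply ht,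
      smul_inv_smul, smul_eq_mul, mul_assoc]
  calc _ = ∏ q : G ⧸ H,
        ϕ ⟨(t (g • (g⁻¹ • q)))⁻¹ * g * t (g⁻¹ • q), s35kf_mem t ht g (g⁻¹ • q)⟩ := by
        refine Finset.prod_congr ?_ fun q _ => e q
        ext
        simp
    _ = _ := by
        exact Fintype.prod_equiv (MulAction.toPerm g⁻¹) _ _ fun q => rfl

end Fermat.Agent.S35
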