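/-
S35, leaf [K-PUSH], sub-leaf [KP-FORM] (owner: helper1), part 2.  Prefix `s35kf_`.

THE TRANSFER PRODUCT, form (F1).  `H ≤ G = Γ₀(M)` ANY subgroup of finite index, `χ : H →* ℂˣ`,
`t : G ⧸ H → G` ANY system of representatives, `f : ℍ → ℂ` with `f ∣[k] h = χ h • f`, `h ∈ H`.
The transfer product

    s35kf_prod k t f = ∏_{x : G ⧸ H} f ∣[k] (t x)⁻¹

satisfies `(s35kf_prod k t f) ∣[[G : H] k] γ = transfer χ γ • s35kf_prod k t f`, `γ ∈ Γ₀(M)`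
(Mathlib's `MonoidHom.transfer`), it is holomorphic when `f` is, and all its
`SL(2, ℤ)`-translates are bounded at `i∞` when those of `f` are.

The case `H = Γ₀(M q)`: `s35kf_H`, `s35kf_ver`, `s35kf_isForm_level`.
-/
import Mathlib
import Fermat.Agent.S29.KumDefs
import Fermat.Agent.S29.HkAnChar
import Fermat.Agent.S35.KpFormAbs

set_option autoImplicit false

noncomputable section

namespace Fermat.Agent.S35

open UpperHalfPlane ModularFormClass CongruenceSubgroup Matrix.SpecialLinearGroup Function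
open ModularForm Filter Asymptotics
open scoped MatrixGroups ModularForm Manifold Real Topology

open Fermat.Agent.S29

/-! ### The transfer product for an arbitrary subgroup of finite index of `Γ₀(M)` -/

section General

variable {M : ℕ} {H : Subgroup ↥(Gamma0 M)}

/-- **The transfer product** `∏ₓ f ∣[k] (t x)⁻¹`. -/
def s35kf_prod [Fintype (↥(Gamma0 M) ⧸ H)] (k : ℤ) (t : ↥(Gamma0 M) ⧸ H → ↥(Gamma0 M))
    (f : ℍ → ℂ) : ℍ → ℂ :=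
  ∏ x : ↥(Gamma0 M) ⧸ H, f ∣[k] ((((t x)⁻¹ : ↥(Gamma0 M)) : SL(2, ℤ)))

variable [Fintype (↥(Gamma0 M) ⧸ H)]

theorem s35kf_prod_apply (k : ℤ) (t : ↥(Gamma0 M) ⧸ H → ↥(Gamma0 M)) (f : ℍ → ℂ) (z : ℍ) :
    s35kf_prod k t f z =
      ∏ x : ↥(Gamma0 M) ⧸ H, (f ∣[k] ((((t x)⁻¹ : ↥(Gamma0 M)) : SL(2, ℤ)))) z := by
  rw [s35kf_prod, Finset.prod_apply]

/-- The translates of the transfer product. -/
theorem s35kf_prod_slash (k : ℤ) (t : ↥(Gamma0 M) ⧸ H → ↥(Gamma0 M)) (f : ℍ → ℂ)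
    (δ : SL(2, ℤ)) :
    s35kf_prod k t f ∣[(Fintype.card (↥(Gamma0 M) ⧸ H) : ℤ) * k] δ =
      ∏ x : ↥(Gamma0 M) ⧸ H, f ∣[k] ((((t x)⁻¹ : ↥(Gamma0 M)) : SL(2, ℤ)) * δ) := by
  rw [s35kf_prod, ← Finset.card_univ, s29hka_finprod_slash]
  refine Finset.prod_congr rfl fun x _ => ?_
  rw [SlashAction.slash_mul]

/-- **The character of the transfer product** is the transfer of `χ`. -/
theorem s35kf_prod_char [H.FiniteIndex] (k : ℤ) (t : ↥(Gamma0 M) ⧸ H → ↥(Gamma0 M))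
    (ht : ∀ x, ((t x : ↥(Gamma0 M)) : ↥(Gamma0 M) ⧸ H) = x)
    (χ : ↥H →* ℂˣ) (f : ℍ → ℂ)
    (hχ : ∀ h : ↥H, f ∣[k] (((h : ↥(Gamma0 M)) : SL(2, ℤ))) = ((χ h : ℂˣ) : ℂ) • f)
    (γ : ↥(Gamma0 M)) :
    s35kf_prod k t f ∣[(Fintype.card (↥(Gamma0 M) ⧸ H) : ℤ) * k] (γ : SL(2, ℤ)) =
      ((MonoidHom.transfer χ γ : ℂˣ) : ℂ) • s35kf_prod k t f := by
  rw [s35kf_prod_slash]
  -- reindex by `x = γ • y`
  have h1 : ∏ x : ↥(Gamma0 M) ⧸ H,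
        f ∣[k] ((((t x)⁻¹ : ↥(Gamma0 M)) : SL(2, ℤ)) * (γ : SL(2, ℤ))) =
      ∏ y : ↥(Gamma0 M) ⧸ H,
        f ∣[k] ((((t (γ • y))⁻¹ : ↥(Gamma0 M)) : SL(2, ℤ)) * (γ : SL(2, ℤ))) :=
    (Fintype.prod_equiv (MulAction.toPerm γ) _ _ fun y => rfl).symm
  rw [h1]
  have h2 : ∀ y : ↥(Gamma0 M) ⧸ H,
      f ∣[k] ((((t (γ • y))⁻¹ : ↥(Gamma0 M)) : SL(2, ℤ)) * (γ : SL(2, ℤ))) =
        ((χ ⟨(t (γ • y))⁻¹ * γ * t y, s35kf_mem t ht γ y⟩ : ℂˣ) : ℂ) •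
          (f ∣[k] ((((t y)⁻¹ : ↥(Gamma0 M)) : SL(2, ℤ)))) := by
    intro y
    have e : ((((t (γ • y))⁻¹ : ↥(Gamma0 M)) : SL(2, ℤ)) * (γ : SL(2, ℤ))) =
        ((((⟨(t (γ • y))⁻¹ * γ * t y, s35kf_mem t ht γ y⟩ : ↥H) : ↥(Gamma0 M)) : SL(2, ℤ))) *
          ((((t y)⁻¹ : ↥(Gamma0 M)) : SL(2, ℤ))) := by
      simp only [Subgroup.coe_mul, Subgroup.coe_inv]
      rw [mul_assoc, mul_assoc, mul_inv_cancel, mul_one]
    rw [e, SlashAction.slash_mul, hχ, ModularForm.SL_smul_slash]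
  simp only [h2]
  rw [Finset.prod_smul]
  congr 1
  rw [s35kf_transfer_eq χ t ht γ]
  push_cast
  rfl

/-- The transfer product is holomorphic. -/
theorem s35kf_prod_mdiff (k : ℤ) (t : ↥(Gamma0 M) ⧸ H → ↥(Gamma0 M)) {f : ℍ → ℂ}
    (hf : MDiff f) : MDiff (s35kf_prod k t f) := by
  have e : s35kf_prod k t f = fun z => ∏ x : ↥(Gamma0 M) ⧸ H,
      (f ∣[k] ((((t x)⁻¹ : ↥(Gamma0 M)) : SL(2, ℤ)))) z := by
    funext z
    rw [s35kf_prod_apply]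
  rw [e]
  exact s29hka_mdiff_finprod Finset.univ _ fun x _ => hf.slash k _

/-- All `SL(2, ℤ)`-translates of the transfer product are bounded at `i∞`. -/
theorem s35kf_prod_bdd (k : ℤ) (t : ↥(Gamma0 M) ⧸ H → ↥(Gamma0 M)) (f : ℍ → ℂ)
    (hb : ∀ δ : SL(2, ℤ), IsBoundedAtImInfty (f ∣[k] δ)) (δ : SL(2, ℤ)) :
    IsBoundedAtImInfty
      (s35kf_prod k t f ∣[(Fintype.card (↥(Gamma0 M) ⧸ H) : ℤ) * k] δ) := by
  rw [s35kf_prod_slash]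
  have e : (∏ x : ↥(Gamma0 M) ⧸ H,
        f ∣[k] ((((t x)⁻¹ : ↥(Gamma0 M)) : SL(2, ℤ)) * δ)) =
      fun z => ∏ x : ↥(Gamma0 M) ⧸ H,
        (f ∣[k] ((((t x)⁻¹ : ↥(Gamma0 M)) : SL(2, ℤ)) * δ)) z := by
    funext z
    rw [Finset.prod_apply]
  rw [e]
  exact s29hka_bdd_finprod Finset.univ _ fun x _ => hb _

/-- **[KP-FORM], (F1)**: the transfer product of a holomorphic function of weight `k` and
character `χ` on a subgroup `H` of finite index of `Γ₀(M)`, all of whose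
`SL(2, ℤ)`-translates are bounded at `i∞`, is a form of weight `[Γ₀(M) : H] k` and character
`transfer χ` on `Γ₀(M)`. -/
theorem s35kf_isForm [H.FiniteIndex] (k : ℕ) (t : ↥(Gamma0 M) ⧸ H → ↥(Gamma0 M))
    (ht : ∀ x, ((t x : ↥(Gamma0 M)) : ↥(Gamma0 M) ⧸ H) = x)
    (χ : ↥H →* ℂˣ) {f : ℍ → ℂ} (hmd : MDiff f)
    (hχ : ∀ h : ↥H, f ∣[(k : ℤ)] (((h : ↥(Gamma0 M)) : SL(2, ℤ))) = ((χ h : ℂˣ) : ℂ) • f)
    (hb : ∀ δ : SL(2, ℤ), IsBoundedAtImInfty (f ∣[(k : ℤ)] δ))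
    (χ' : ↥(Gamma0 M) →* ℂˣ) (hχ' : ∀ γ, χ' γ = MonoidHom.transfer χ γ) :
    s29k_IsForm M ((Fintype.card (↥(Gamma0 M) ⧸ H) * k : ℕ) : ℤ) χ'
      (s35kf_prod (k : ℤ) t f) := by
  have hw : (((Fintype.card (↥(Gamma0 M) ⧸ H) * k : ℕ) : ℤ)) =
      (Fintype.card (↥(Gamma0 M) ⧸ H) : ℤ) * (k : ℤ) := by push_cast; ring
  refine ⟨s35kf_prod_mdiff k t hmd, ?_, ?_⟩
  · intro γ
    rw [hw, s35kf_prod_char k t ht χ f hχ γ, hχ']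
  · intro δ
    rw [hw]
    exact s35kf_prod_bdd k t f hb δ

end General

/-! ### The subgroup `Γ₀(M q)` of `Γ₀(M)` -/

theorem s35kf_le (M q : ℕ) : Gamma0 (M * q) ≤ Gamma0 M := by
  intro γ hγ
  rw [Gamma0_mem] at hγ ⊢
  have h := congrArg (ZMod.castHom (dvd_mul_right M q) (ZMod M)) hγ
  simpa using h

/-- `Γ₀(M q)` as a subgroup of `Γ₀(M)`. -/
def s35kf_H (M q : ℕ) : Subgroup ↥(Gamma0 M) := (Gamma0 (M * q)).subgroupOf (Gamma0 M)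

instance s35kf_finiteIndex (M q : ℕ) [NeZero (M * q)] : (s35kf_H M q).FiniteIndex := by
  unfold s35kf_H
  infer_instance

/-- The inclusion `H → Γ₀(M q)`. -/
def s35kf_incl (M q : ℕ) : ↥(s35kf_H M q) →* ↥(Gamma0 (M * q)) where
  toFun h := ⟨((h : ↥(Gamma0 M)) : SL(2, ℤ)), h.2⟩
  map_one' := rfl
  map_mul' _ _ := rfl

@[simp] theorem s35kf_incl_coe (M q : ℕ) (h : ↥(s35kf_H M q)) :
    ((s35kf_incl M q h : ↥(Gamma0 (M * q))) : SL(2, ℤ)) = ((h : ↥(Gamma0 M)) : SL(2, ℤ)) := rfl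

/-- The transfer character of a character of `Γ₀(M q)`: a character of `Γ₀(M)`. -/
def s35kf_ver (M q : ℕ) [NeZero (M * q)] (χ : ↥(Gamma0 (M * q)) →* ℂˣ) : ↥(Gamma0 M) →* ℂˣ :=
  MonoidHom.transfer (χ.comp (s35kf_incl M q))

/-- **[KP-FORM]** at the levels `M q → M`: the transfer product of a form of weight `k` and
character `χ` on `Γ₀(M q)` is a form of weight `[Γ₀(M) : Γ₀(M q)] k` and character
`transfer χ` on `Γ₀(M)`. -/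
theorem s35kf_isForm_level {M q : ℕ} [NeZero (M * q)] [Fintype (↥(Gamma0 M) ⧸ s35kf_H M q)]
    (k : ℕ) (t : ↥(Gamma0 M) ⧸ s35kf_H M q → ↥(Gamma0 M))
    (ht : ∀ x, ((t x : ↥(Gamma0 M)) : ↥(Gamma0 M) ⧸ s35kf_H M q) = x)
    (χ : ↥(Gamma0 (M * q)) →* ℂˣ) {f : ℍ → ℂ} (hf : s29k_IsForm (M * q) k χ f)
    (χ' : ↥(Gamma0 M) →* ℂˣ) (hχ' : ∀ γ, χ' γ = s35kf_ver M q χ γ) :
    s29k_IsForm M ((Fintype.card (↥(Gamma0 M) ⧸ s35kf_H M q) * k : ℕ) : ℤ) χ'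
      (s35kf_prod (k : ℤ) t f) :=
  s35kf_isForm k t ht (χ.comp (s35kf_incl M q)) hf.1
    (fun h => hf.2.1 (s35kf_incl M q h)) hf.2.2 χ' hχ'

end Fermat.Agent.S35

end
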