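/-
S35 / [K-PUSH], piece (3) [KP-W] (owner: helper4), part 7.  Prefix `s35kw_`.

The two norm-ratio theorems of `KpWSer.lean` in the spelling of helper5's mixed product
`s35kp_mix` (`KPushSer.lean`); the two mixed products agree by `rfl`.
-/
import Mathlib
import Fermat.Agent.S35.KpWSer
import Fermat.Agent.S35.KPushSer

set_option autoImplicit false
set_option linter.style.haveILetI false
set_option linter.unusedSectionVars false
set_option linter.unusedVariables false

noncomputable section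

namespace Fermat.Agent.S35

open UpperHalfPlane ModularFormClass CongruenceSubgroup Matrix.SpecialLinearGroup Function
open ModularForm Filter Asymptotics ModularCurve AlgebraicCurve
open scoped MatrixGroups ModularForm Manifold Real Topology

open Fermat.Agent.S20 Fermat.Agent.S22 Fermat.Agent.S24 Fermat.Agent.S28 Fermat.Agent.S29
open Fermat.Agent.S37 Fermat.Agent.S18

/-- The two mixed products agree. -/
theorem s35kw_mix_eq_kp (q : ℕ) (P₁ P₂ : ℍ → ℂ) : s35kw_mix q P₁ P₂ = s35kp_mix q P₁ P₂ := rfl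

section Ratio

variable (M q : ℕ) [NeZero M] [NeZero q] (hq : q.Prime) (hqM : ¬ q ∣ M)
  (x y : ℤ) (h : x * q - y * M = 1) (K : ℕ) {P Q : ℍ → ℂ}

include hq hqM

/-- **(a), `α`-half**: `N_α (ser P / ser Q) = ser (mix q P P^w) / ser (mix q Q Q^w)`. -/
theorem s35kw_serA (hP : IsMF (G0 (M * q)) K P) (hQ : IsMF (G0 (M * q)) K Q)
    (hQ0 : Q ≠ 0) (yy : s35kw_FC (M * q))
    (hy : (yy : LaurentSeries ℂ) = s29k_ser P / s29k_ser Q) :
    ((s35_normA ℂ M q yy : s35kw_FC M) : LaurentSeries ℂ) =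
      s29k_ser (s35kp_mix q P (s35kw_Wf M q x y h K P)) /
        s29k_ser (s35kp_mix q Q (s35kw_Wf M q x y h K Q)) :=
  s35kw_normA_ratio M q hq hqM x y h K hP hQ hQ0 yy hy

/-- **(a), `β`-half**: `N_β (ser P / ser Q) = ser (mix q P^w P) / ser (mix q Q^w Q)`. -/
theorem s35kw_serB (hP : IsMF (G0 (M * q)) K P) (hQ : IsMF (G0 (M * q)) K Q)
    (hQ0 : Q ≠ 0) (yy : s35kw_FC (M * q))
    (hy : (yy : LaurentSeries ℂ) = s29k_ser P / s29k_ser Q) :
    ((s35_normB ℂ M q yy : s35kw_FC M) : LaurentSeries ℂ) =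
      s29k_ser (s35kp_mix q (s35kw_Wf M q x y h K P) P) /
        s29k_ser (s35kp_mix q (s35kw_Wf M q x y h K Q) Q) :=
  s35kw_normB_ratio M q hq hqM x y h K hP hQ hQ0 yy hy

end Ratio

end Fermat.Agent.S35
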