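import Mathlib

/-!
# S35 [N-LAT], the flatness cut (helper15, second seat of helper2).  Prefix `s35lf_`.
Mathlib only.

`K` a flat `R`-algebra (for `R = ℤ`: any torsion-free ring, e.g. `ℂ` or a domain of characteristic
zero), `Φ : Λ → Λ₂` an `R`-linear map.  A solution `v ∈ K ⊗ Λ` of the base-changed system
`(K ⊗ Φ) v = 0` comes from `K ⊗ ker Φ`; the same for a finite family of maps and the intersection
of their kernels; the inclusion `K ⊗ Λ' → K ⊗ Λ` of a submodule is injective, so eigen-equations
in `K ⊗ Λ` for an operator stabilising `Λ'` descend to `K ⊗ Λ'`.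
-/

set_option autoImplicit false

open scoped TensorProduct

namespace Fermat.Agent.S35

section Flat

variable {R : Type*} [CommRing R] (K : Type*) [CommRing K] [Algebra R K] [Module.Flat R K]
  {Λ Λ₂ : Type*} [AddCommGroup Λ] [Module R Λ] [AddCommGroup Λ₂] [Module R Λ₂]

/-- **A solution of a base-changed linear system comes from the kernel.** -/
theorem s35lf_mem_range_ker (Φ : Λ →ₗ[R] Λ₂) (v : K ⊗[R] Λ)
    (hv : Φ.baseChange K v = 0) :
    v ∈ LinearMap.range ((LinearMap.ker Φ).subtype.baseChange K) := by
  have hex : Function.Exact (LinearMap.ker Φ).subtype Φ := LinearMap.exact_subtype_ker_map Φ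
  have h := Module.Flat.lTensor_exact K hex
  have hv' : (Φ.lTensor K) v = 0 := hv
  obtain ⟨w, hw⟩ := (h v).mp hv'
  exact ⟨w, hw⟩

/-- The inclusion of a submodule stays injective after a flat base change. -/
theorem s35lf_subtype_injective (Λ' : Submodule R Λ) :
    Function.Injective (Λ'.subtype.baseChange K) := by
  have h := Module.Flat.lTensor_preserves_injective_linearMap (M := K) Λ'.subtype
    Λ'.injective_subtype
  exact h

/-- Eigen-equations descend to the base change of a stable submodule. -/
theorem s35lf_restrict_eigen (Λ' : Submodule R Λ) (T : Λ →ₗ[R] Λ)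
    (hT : ∀ c ∈ Λ', T c ∈ Λ') (w : K ⊗[R] ↥Λ') (a : K)
    (h : T.baseChange K (Λ'.subtype.baseChange K w) = a • Λ'.subtype.baseChange K w) :
    (T.restrict hT).baseChange K w = a • w := by
  apply s35lf_subtype_injective K Λ'
  rw [map_smul, ← h]
  have hcomp : Λ'.subtype ∘ₗ (T.restrict hT) = T ∘ₗ Λ'.subtype := by
    ext c
    rfl
  have h2 := congrArg (fun f : ↥Λ' →ₗ[R] Λ => f.baseChange K w) hcomp
  simp only [LinearMap.baseChange_comp, LinearMap.comp_apply] at h2
  exact h2

omit [Module.Flat R K] in
/-- A non-zero vector of `K ⊗ Λ` in the image of `K ⊗ Λ'` has a non-zero preimage. -/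
theorem s35lf_ne_zero (Λ' : Submodule R Λ) (w : K ⊗[R] ↥Λ')
    (h : Λ'.subtype.baseChange K w ≠ 0) : w ≠ 0 := by
  rintro rfl
  exact h (map_zero _)

end Flat

section Family

variable {R : Type*} [CommRing R] (K : Type*) [CommRing K] [Algebra R K] [Module.Flat R K]
  {Λ : Type*} [AddCommGroup Λ] [Module R Λ]
  {ι : Type*} [Finite ι] {Λ₂ : ι → Type*} [∀ i, AddCommGroup (Λ₂ i)] [∀ i, Module R (Λ₂ i)]

/-- **A solution of a finite family of base-changed linear systems comes from the intersection
of the kernels.** -/
theorem s35lf_mem_range_iInf (Φ : ∀ i, Λ →ₗ[R] Λ₂ i) (v : K ⊗[R] Λ)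
    (hv : ∀ i, (Φ i).baseChange K v = 0) :
    v ∈ LinearMap.range ((⨅ i, LinearMap.ker (Φ i)).subtype.baseChange K) := by
  classical
  haveI : Fintype ι := Fintype.ofFinite ι
  have hpi : (LinearMap.pi Φ).baseChange K v = 0 := by
    apply (TensorProduct.piRight R K K Λ₂).injective
    rw [map_zero]
    funext i
    have key : ∀ x : K ⊗[R] Λ,
        TensorProduct.piRight R K K Λ₂ ((LinearMap.pi Φ).baseChange K x) i =
          (Φ i).baseChange K x := by
      intro x
      induction x using TensorProduct.induction_on with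
      | zero => simp
      | tmul a c => simp
      | add x y hx hy =>
        rw [map_add, map_add, Pi.add_apply, hx, hy, map_add]
    rw [key v, hv i]
    rfl
  have h := s35lf_mem_range_ker K (LinearMap.pi Φ) v hpi
  have hker : LinearMap.ker (LinearMap.pi Φ) = ⨅ i, LinearMap.ker (Φ i) := LinearMap.ker_pi Φ
  rw [hker] at h
  exact h

end Family

section Int

/-- A commutative ring without `ℤ`-torsion (e.g. a domain of characteristic zero) is flat over
`ℤ`. -/
theorem s35lf_flat_int (K : Type*) [CommRing K] [IsDomain K] [CharZero K] : Module.Flat ℤ K := by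
  infer_instance

end Int

end Fermat.Agent.S35
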