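import Mathlib
import Fermat.Agent.S30.Lat30
import Fermat.Agent.S35.NLatFlat

/-!
# S35 [N-LAT], the tail (helper15, second seat of helper2).  Prefix `s35lf_`.

`Λ` a finite free `ℤ`-module, `Λ' ≤ Λ` a submodule stable under a family of operators `T i`,
`ψ : A → ℂ` and `χ : A → 𝒪` two ring homomorphisms with the same kernel (`𝒪` a domain of
characteristic zero).  A non-zero simultaneous eigenvector `v ∈ ℂ ⊗ Λ` of the `T i` with
eigenvalues `ψ (α i)` which comes from `ℂ ⊗ Λ'` gives a non-zero simultaneous eigenvector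
`w ∈ 𝒪 ⊗ Λ'` of the restricted operators with eigenvalues `χ (α i)`.
-/

set_option autoImplicit false
set_option linter.unusedVariables false
set_option linter.unusedSectionVars false

open scoped TensorProduct

namespace Fermat.Agent.S35

open Fermat.Agent.S30

/-- **The tail of [N-LAT]**: transfer of the eigenvector from `ℂ ⊗ Λ'` to `𝒪 ⊗ Λ'`. -/
theorem s35lf_tail {Λ : Type} [AddCommGroup Λ] [Module.Finite ℤ Λ] [Module.Free ℤ Λ]
    (Λ' : Submodule ℤ Λ) {ι : Type} (T : ι → Module.End ℤ Λ)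
    (hstab : ∀ i, ∀ c ∈ Λ', T i c ∈ Λ') {A : Type} [CommRing A] (α : ι → A)
    (ψ : A →+* ℂ) (𝒪 : Type) [CommRing 𝒪] [IsDomain 𝒪] [CharZero 𝒪] (χ : A →+* 𝒪)
    (hker : ∀ a, ψ a = 0 ↔ χ a = 0) (v : ℂ ⊗[ℤ] Λ) (hv0 : v ≠ 0)
    (hvΛ' : v ∈ LinearMap.range (Λ'.subtype.baseChange ℂ))
    (hv : ∀ i, (T i).baseChange ℂ v = ψ (α i) • v) :
    ∃ w : 𝒪 ⊗[ℤ] ↥Λ', w ≠ 0 ∧
      ∀ i, ((T i).restrict (hstab i)).baseChange 𝒪 w = χ (α i) • w := by
  classical
  obtain ⟨w₀, hw₀⟩ := hvΛ'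
  have hw₀0 : w₀ ≠ 0 := s35lf_ne_zero ℂ Λ' w₀ (by rw [hw₀]; exact hv0)
  have hw₀e : ∀ i, ((T i).restrict (hstab i)).baseChange ℂ w₀ = ψ (α i) • w₀ := fun i =>
    s35lf_restrict_eigen ℂ Λ' (T i) (hstab i) w₀ (ψ (α i)) (by rw [hw₀]; exact hv i)
  haveI : Module.Finite ℤ ↥Λ' := inferInstance
  haveI : Module.Free ℤ ↥Λ' := inferInstance
  set b := Module.Free.chooseBasis ℤ ↥Λ' with hb
  let M : ι → Matrix _ _ ℤ := fun i => LinearMap.toMatrix b b ((T i).restrict (hstab i))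
  haveI : CharZero (FractionRing 𝒪) :=
    charZero_of_injective_algebraMap (IsFractionRing.injective 𝒪 (FractionRing 𝒪))
  have hker' : ∀ a, ψ a = 0 ↔ ((algebraMap 𝒪 (FractionRing 𝒪)).comp χ) a = 0 := by
    intro a
    rw [hker a, RingHom.comp_apply, map_eq_zero_iff _ (IsFractionRing.injective 𝒪 _)]
  obtain ⟨c, hc0, hc⟩ := s30l_transfer M α ψ ((algebraMap 𝒪 (FractionRing 𝒪)).comp χ) hker'
    ((Algebra.TensorProduct.basis ℂ b).equivFun w₀)
    (fun h0 => hw₀0 ((Algebra.TensorProduct.basis ℂ b).equivFun.injective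
      (h0.trans (map_zero _).symm)))
    (fun i => (s30l_matrix_iff ℂ b _ _ w₀).mp (hw₀e i))
  obtain ⟨z, hz0, hz⟩ := s30l_integral (K := FractionRing 𝒪) M (fun i => χ (α i)) c hc0
    (fun i => hc i)
  refine ⟨(Algebra.TensorProduct.basis 𝒪 b).equivFun.symm z, fun h0 => hz0 ?_, fun i => ?_⟩
  · have h1 := congrArg (Algebra.TensorProduct.basis 𝒪 b).equivFun h0
    rwa [LinearEquiv.apply_symm_apply, map_zero] at h1
  · rw [s30l_matrix_iff 𝒪 b, LinearEquiv.apply_symm_apply]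
    exact hz i

end Fermat.Agent.S35
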