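/-
S35 [NF-APPR] / [NF-APPR2] (helper21), part 2: gluing units along the two branches.
Prefix `s35ap_`.  Mathlib only.

`B` a commutative ring, `n` a prime ideal (a closed point), `p₁`, `p₂` two primes (the two
components of the special fibre).

* `s35ap_node`: at a NODE (`p₁, p₂ ≤ n`, `n ≤ p₁ + p₂` locally at `n`) two fractions
  `d₁ / c₁`, `d₂ / c₂` (`c_i, d_i ∉ n`) with the same value `1` at `n` are the restrictions to
  the two branches of ONE fraction `d / c`, `c, d ∉ n`.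
* `s35ap_smooth`: at a point of ONE component (`p₁ ≤ n`, `¬ p₂ ≤ n`) a fraction `d₁ / c₁`
  (`c₁, d₁ ∉ n`) on the branch through `n` and an ARBITRARY fraction `d₂ / c₂` (`c₂, d₂ ∉ p₂`)
  on the other branch are the restrictions of one fraction `d / c`, `c, d ∉ n ∪ p₂`.
* `s35ap_node_val`, `s35ap_smooth_val`: the same for an element `h` of a field `F ⊇ B` and two
  valuation subrings `V₁`, `V₂` with centres `p₁`, `p₂`.

`d / c ≡ d' / c'` modulo `p` is spelled `d * c' - d' * c ∈ p`.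
-/
import Mathlib

set_option autoImplicit false
set_option linter.unusedSectionVars false

namespace Fermat.Agent.S35

section ring

variable {B : Type*} [CommRing B]

/-- **Node.** -/
theorem s35ap_node (n p₁ p₂ : Ideal B) [hn' : n.IsPrime] (hp₁ : p₁ ≤ n)
    (hn : ∀ z ∈ n, ∃ s : B, s ∉ n ∧ s * z ∈ p₁ ⊔ p₂)
    (c₁ d₁ c₂ d₂ : B) (hc₁ : c₁ ∉ n) (hd₁ : d₁ ∉ n) (hc₂ : c₂ ∉ n)
    (h₁ : d₁ - c₁ ∈ n) (h₂ : d₂ - c₂ ∈ n) :
    ∃ c d : B, c ∉ n ∧ d ∉ n ∧ d - c ∈ n ∧ d * c₁ - d₁ * c ∈ p₁ ∧ d * c₂ - d₂ * c ∈ p₂ := by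
  have he : d₁ * c₂ - d₂ * c₁ ∈ n := by
    have : d₁ * c₂ - d₂ * c₁ = (d₁ - c₁) * c₂ - (d₂ - c₂) * c₁ := by ring
    rw [this]
    exact n.sub_mem (n.mul_mem_right _ h₁) (n.mul_mem_right _ h₂)
  obtain ⟨s, hs, hse⟩ := hn _ he
  obtain ⟨i, hi, j, hj, hij⟩ := Submodule.mem_sup.mp hse
  have hscc : s * c₁ * c₂ ∉ n := fun h => by
    rcases hn'.mem_or_mem h with h' | h'
    · rcases hn'.mem_or_mem h' with h'' | h''
      · exact hs h''
      · exact hc₁ h''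
    · exact hc₂ h'
  have hsdc : s * d₁ * c₂ ∉ n := fun h => by
    rcases hn'.mem_or_mem h with h' | h'
    · rcases hn'.mem_or_mem h' with h'' | h''
      · exact hs h''
      · exact hd₁ h''
    · exact hc₂ h'
  refine ⟨s * c₁ * c₂, s * d₁ * c₂ - i, hscc, ?_, ?_, ?_, ?_⟩
  · intro h
    apply hsdc
    have := n.add_mem h (hp₁ hi)
    rwa [sub_add_cancel] at this
  · have : s * d₁ * c₂ - i - s * c₁ * c₂ = s * c₂ * (d₁ - c₁) - i := by ring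
    rw [this]
    exact n.sub_mem (n.mul_mem_left _ h₁) (hp₁ hi)
  · have : (s * d₁ * c₂ - i) * c₁ - d₁ * (s * c₁ * c₂) = -(c₁ * i) := by ring
    rw [this]
    exact p₁.neg_mem (p₁.mul_mem_left _ hi)
  · have : (s * d₁ * c₂ - i) * c₂ - d₂ * (s * c₁ * c₂) = c₂ * j := by
      linear_combination (-c₂) * hij
    rw [this]
    exact p₂.mul_mem_left _ hj

/-- The node hypothesis from three generators `π ∈ p₁ ⊓ p₂`, `x ∈ p₂`, `y ∈ p₁`. -/
theorem s35ap_node_hn (n p₁ p₂ : Ideal B) (π x y : B) (hπ : π ∈ p₁) (hx : x ∈ p₂) (hy : y ∈ p₁)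
    (hn : ∀ z ∈ n, ∃ s : B, s ∉ n ∧ s * z ∈ Ideal.span {π, x, y}) :
    ∀ z ∈ n, ∃ s : B, s ∉ n ∧ s * z ∈ p₁ ⊔ p₂ := by
  intro z hz
  obtain ⟨s, hs, h⟩ := hn z hz
  refine ⟨s, hs, ?_⟩
  have hle : Ideal.span {π, x, y} ≤ p₁ ⊔ p₂ := by
    rw [Ideal.span_le]
    rintro w (rfl | rfl | rfl)
    · exact Ideal.mem_sup_left hπ
    · exact Ideal.mem_sup_right hx
    · exact Ideal.mem_sup_left hy
  exact hle h

/-- **Smooth point** (one branch through `n`). -/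
theorem s35ap_smooth (n p₁ p₂ : Ideal B) [hn' : n.IsPrime] [hp₂' : p₂.IsPrime]
    (hp₁ : p₁ ≤ n) (hp₂ : ¬ p₂ ≤ n) (h12 : ¬ p₁ ≤ p₂)
    (c₁ d₁ c₂ d₂ : B) (hc₁ : c₁ ∉ n) (hd₁ : d₁ ∉ n) (hc₂ : c₂ ∉ p₂) (hd₂ : d₂ ∉ p₂) :
    ∃ c d : B, c ∉ n ∧ d ∉ n ∧ c ∉ p₂ ∧ d ∉ p₂ ∧
      d * c₁ - d₁ * c ∈ p₁ ∧ d * c₂ - d₂ * c ∈ p₂ := by
  obtain ⟨τ, hτ₁, hτ₂⟩ : ∃ τ, τ ∈ p₁ ∧ τ ∉ p₂ := by
    by_contra h
    push Not at h
    exact h12 h
  obtain ⟨ω, hω₂, hωn⟩ : ∃ ω, ω ∈ p₂ ∧ ω ∉ n := by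
    by_contra h
    push Not at h
    exact hp₂ h
  -- move `c₁`, `d₁` out of `p₂` without changing them modulo `p₁`
  have adj : ∀ a : B, a ∉ n → ∃ a' : B, a' - a ∈ p₁ ∧ a' ∉ p₂ ∧ a' ∉ n := by
    intro a ha
    by_cases hap : a ∈ p₂
    · refine ⟨a + τ, by simpa using hτ₁, ?_, ?_⟩
      · intro h
        apply hτ₂
        have := p₂.sub_mem h hap
        simpa using this
      · intro h
        apply ha
        have := n.sub_mem h (hp₁ hτ₁)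
        simpa using this
    · exact ⟨a, by simp, hap, ha⟩
  obtain ⟨c₁', hc₁', hc₁'p, hc₁'n⟩ := adj c₁ hc₁
  obtain ⟨d₁', hd₁', hd₁'p, hd₁'n⟩ := adj d₁ hd₁
  -- the correction on the second branch
  have hC : c₂ * d₁' ∉ p₂ := fun h => (hp₂'.mem_or_mem h).elim hc₂ hd₁'p
  have hD : d₂ * c₁' ∉ p₂ := fun h => (hp₂'.mem_or_mem h).elim hd₂ hc₁'p
  have hc'n : c₂ * d₁' * τ + ω ∉ n := by
    intro h
    apply hωn
    have := n.sub_mem h (n.mul_mem_left (c₂ * d₁') (hp₁ hτ₁))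
    simpa using this
  have hd'n : d₂ * c₁' * τ + ω ∉ n := by
    intro h
    apply hωn
    have := n.sub_mem h (n.mul_mem_left (d₂ * c₁') (hp₁ hτ₁))
    simpa using this
  have hc'p : c₂ * d₁' * τ + ω ∉ p₂ := by
    intro h
    have := p₂.sub_mem h hω₂
    rw [add_sub_cancel_right] at this
    exact (hp₂'.mem_or_mem this).elim hC hτ₂
  have hd'p : d₂ * c₁' * τ + ω ∉ p₂ := by
    intro h
    have := p₂.sub_mem h hω₂
    rw [add_sub_cancel_right] at this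
    exact (hp₂'.mem_or_mem this).elim hD hτ₂
  refine ⟨c₁' * (c₂ * d₁' * τ + ω), d₁' * (d₂ * c₁' * τ + ω), ?_, ?_, ?_, ?_, ?_, ?_⟩
  · exact fun h => (hn'.mem_or_mem h).elim hc₁'n hc'n
  · exact fun h => (hn'.mem_or_mem h).elim hd₁'n hd'n
  · exact fun h => (hp₂'.mem_or_mem h).elim hc₁'p hc'p
  · exact fun h => (hp₂'.mem_or_mem h).elim hd₁'p hd'p
  · have : d₁' * (d₂ * c₁' * τ + ω) * c₁ - d₁ * (c₁' * (c₂ * d₁' * τ + ω)) =
        τ * (d₁' * d₂ * c₁' * c₁ - d₁ * c₁' * c₂ * d₁') + ω * d₁ * (-(c₁' - c₁))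
          + ω * c₁ * (d₁' - d₁) := by ring
    rw [this]
    refine p₁.add_mem (p₁.add_mem (p₁.mul_mem_right _ hτ₁) ?_) (p₁.mul_mem_left _ hd₁')
    exact p₁.mul_mem_left _ (p₁.neg_mem hc₁')
  · have : d₁' * (d₂ * c₁' * τ + ω) * c₂ - d₂ * (c₁' * (c₂ * d₁' * τ + ω)) =
        ω * (d₁' * c₂ - d₂ * c₁') := by ring
    rw [this]
    exact p₂.mul_mem_right _ hω₂

end ring

section field

variable {B F : Type*} [CommRing B] [Field F] [Algebra B F]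

/-- Division by an element of the chart which is a unit of the valuation ring. -/
theorem s35ap_nu_of_mul (V : ValuationSubring F) (p : Ideal B)
    (hB : ∀ b : B, algebraMap B F b ∈ V)
    (hp : ∀ b : B, b ∈ p ↔ algebraMap B F b ∈ V.nonunits) {c : B} (hc : c ∉ p) {x : F}
    (hx : algebraMap B F c * x ∈ V.nonunits) : x ∈ V.nonunits := by
  have hc' : algebraMap B F c ∉ V.nonunits := fun h => hc ((hp c).2 h)
  rw [ValuationSubring.mem_nonunits_iff] at hx hc' ⊢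
  have h1 : V.valuation (algebraMap B F c) = 1 :=
    le_antisymm ((V.valuation_le_one_iff _).2 (hB c)) (not_lt.mp hc')
  rwa [map_mul, h1, one_mul] at hx

/-- **Node, valuation form**: `h ≡ d₁ / c₁` on the first branch, `h ≡ d₂ / c₂` on the second,
both of value `1` at `n`; then `h ≡ d / c` on both branches for one fraction `d / c`. -/
theorem s35ap_node_val (V₁ V₂ : ValuationSubring F) (n p₁ p₂ : Ideal B) [hn' : n.IsPrime]
    (hB₁ : ∀ b : B, algebraMap B F b ∈ V₁) (hB₂ : ∀ b : B, algebraMap B F b ∈ V₂)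
    (hV₁ : ∀ b : B, b ∈ p₁ ↔ algebraMap B F b ∈ V₁.nonunits)
    (hV₂ : ∀ b : B, b ∈ p₂ ↔ algebraMap B F b ∈ V₂.nonunits)
    (hp₁ : p₁ ≤ n) (hp₂ : p₂ ≤ n)
    (hn : ∀ z ∈ n, ∃ s : B, s ∉ n ∧ s * z ∈ p₁ ⊔ p₂) (h : F)
    (c₁ d₁ c₂ d₂ : B) (hc₁ : c₁ ∉ n) (hd₁ : d₁ ∉ n) (hc₂ : c₂ ∉ n)
    (h₁ : d₁ - c₁ ∈ n) (h₂ : d₂ - c₂ ∈ n)
    (e₁ : h * algebraMap B F c₁ - algebraMap B F d₁ ∈ V₁.nonunits)
    (e₂ : h * algebraMap B F c₂ - algebraMap B F d₂ ∈ V₂.nonunits) :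
    ∃ c d : B, c ∉ n ∧ d ∉ n ∧ d - c ∈ n ∧
      h * algebraMap B F c - algebraMap B F d ∈ V₁.nonunits ∧
      h * algebraMap B F c - algebraMap B F d ∈ V₂.nonunits := by
  obtain ⟨c, d, hc, hd, hdc, q₁, q₂⟩ := s35ap_node n p₁ p₂ hp₁ hn c₁ d₁ c₂ d₂ hc₁ hd₁ hc₂ h₁ h₂
  refine ⟨c, d, hc, hd, hdc, ?_, ?_⟩
  · apply s35ap_nu_of_mul V₁ p₁ hB₁ hV₁ (fun hh => hc₁ (hp₁ hh))
    have : algebraMap B F c₁ * (h * algebraMap B F c - algebraMap B F d) =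
        algebraMap B F c * (h * algebraMap B F c₁ - algebraMap B F d₁) +
          (-(algebraMap B F (d * c₁ - d₁ * c))) := by
      rw [map_sub, map_mul, map_mul]
      ring
    rw [this]
    refine V₁.nonunits.add_mem ?_ (V₁.nonunits.neg_mem ((hV₁ _).1 q₁))
    rw [ValuationSubring.mem_nonunits_iff] at e₁ ⊢
    rw [map_mul]
    calc V₁.valuation (algebraMap B F c) * V₁.valuation _ ≤ 1 * V₁.valuation _ :=
          mul_le_mul_left ((V₁.valuation_le_one_iff _).2 (hB₁ c)) _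
      _ = V₁.valuation _ := one_mul _
      _ < 1 := e₁
  · apply s35ap_nu_of_mul V₂ p₂ hB₂ hV₂ (fun hh => hc₂ (hp₂ hh))
    have : algebraMap B F c₂ * (h * algebraMap B F c - algebraMap B F d) =
        algebraMap B F c * (h * algebraMap B F c₂ - algebraMap B F d₂) +
          (-(algebraMap B F (d * c₂ - d₂ * c))) := by
      rw [map_sub, map_mul, map_mul]
      ring
    rw [this]
    refine V₂.nonunits.add_mem ?_ (V₂.nonunits.neg_mem ((hV₂ _).1 q₂))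
    rw [ValuationSubring.mem_nonunits_iff] at e₂ ⊢
    rw [map_mul]
    calc V₂.valuation (algebraMap B F c) * V₂.valuation _ ≤ 1 * V₂.valuation _ :=
          mul_le_mul_left ((V₂.valuation_le_one_iff _).2 (hB₂ c)) _
      _ = V₂.valuation _ := one_mul _
      _ < 1 := e₂

/-- **Smooth point, valuation form** ([NF-APPR2]): `n` lies on the first branch only,
`h ≡ d₁ / c₁` on the first branch with `c₁, d₁ ∉ n`, `h` any unit of `V₂ = B_{p₂}`; then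
`h ≡ d / c` on both branches for one fraction `d / c` with `c, d ∉ n`. -/
theorem s35ap_smooth_val (V₁ V₂ : ValuationSubring F) (n p₁ p₂ : Ideal B) [hn' : n.IsPrime]
    [hp₂' : p₂.IsPrime]
    (hB₁ : ∀ b : B, algebraMap B F b ∈ V₁) (hB₂ : ∀ b : B, algebraMap B F b ∈ V₂)
    (hV₁ : ∀ b : B, b ∈ p₁ ↔ algebraMap B F b ∈ V₁.nonunits)
    (hV₂ : ∀ b : B, b ∈ p₂ ↔ algebraMap B F b ∈ V₂.nonunits)
    (hloc₂ : ∀ x ∈ V₂, ∃ a b : B, algebraMap B F b ∉ V₂.nonunits ∧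
      x * algebraMap B F b = algebraMap B F a)
    (hp₁ : p₁ ≤ n) (hp₂ : ¬ p₂ ≤ n) (h12 : ¬ p₁ ≤ p₂) (h : F)
    (hh : h ∈ V₂) (hh' : h ∉ V₂.nonunits)
    (c₁ d₁ : B) (hc₁ : c₁ ∉ n) (hd₁ : d₁ ∉ n)
    (e₁ : h * algebraMap B F c₁ - algebraMap B F d₁ ∈ V₁.nonunits) :
    ∃ c d : B, c ∉ n ∧ d ∉ n ∧ c ∉ p₂ ∧ d ∉ p₂ ∧
      h * algebraMap B F c - algebraMap B F d ∈ V₁.nonunits ∧
      h * algebraMap B F c - algebraMap B F d ∈ V₂.nonunits := by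
  obtain ⟨d₂, c₂, hc₂, e₂⟩ := hloc₂ h hh
  have hc₂p : c₂ ∉ p₂ := fun hm => hc₂ ((hV₂ c₂).1 hm)
  have hd₂p : d₂ ∉ p₂ := by
    intro hm
    have h1 := (hV₂ d₂).1 hm
    rw [← e₂] at h1
    rw [ValuationSubring.mem_nonunits_iff] at h1 hh' hc₂
    rw [map_mul] at h1
    have h2 : V₂.valuation h = 1 :=
      le_antisymm ((V₂.valuation_le_one_iff _).2 hh) (not_lt.mp hh')
    have h3 : V₂.valuation (algebraMap B F c₂) = 1 :=
      le_antisymm ((V₂.valuation_le_one_iff _).2 (hB₂ c₂)) (not_lt.mp hc₂)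
    rw [h2, h3, one_mul] at h1
    exact lt_irrefl _ h1
  obtain ⟨c, d, hc, hd, hcp, hdp, q₁, q₂⟩ :=
    s35ap_smooth n p₁ p₂ hp₁ hp₂ h12 c₁ d₁ c₂ d₂ hc₁ hd₁ hc₂p hd₂p
  refine ⟨c, d, hc, hd, hcp, hdp, ?_, ?_⟩
  · apply s35ap_nu_of_mul V₁ p₁ hB₁ hV₁ (fun hm => hc₁ (hp₁ hm))
    have : algebraMap B F c₁ * (h * algebraMap B F c - algebraMap B F d) =
        algebraMap B F c * (h * algebraMap B F c₁ - algebraMap B F d₁) +
          (-(algebraMap B F (d * c₁ - d₁ * c))) := by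
      rw [map_sub, map_mul, map_mul]
      ring
    rw [this]
    refine V₁.nonunits.add_mem ?_ (V₁.nonunits.neg_mem ((hV₁ _).1 q₁))
    rw [ValuationSubring.mem_nonunits_iff] at e₁ ⊢
    rw [map_mul]
    calc V₁.valuation (algebraMap B F c) * V₁.valuation _ ≤ 1 * V₁.valuation _ :=
          mul_le_mul_left ((V₁.valuation_le_one_iff _).2 (hB₁ c)) _
      _ = V₁.valuation _ := one_mul _
      _ < 1 := e₁
  · apply s35ap_nu_of_mul V₂ p₂ hB₂ hV₂ hc₂p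
    have : algebraMap B F c₂ * (h * algebraMap B F c - algebraMap B F d) =
        -(algebraMap B F (d * c₂ - d₂ * c)) := by
      rw [map_sub, map_mul, map_mul, ← e₂]
      ring
    rw [this]
    exact V₂.nonunits.neg_mem ((hV₂ _).1 q₂)

end field

end Fermat.Agent.S35
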