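/-
S35 [NF-APPR] (helper21), part 1: approximation for two valuation rings.  Prefix `s35ap_`.
Mathlib only.

Two valuation subrings `V₁`, `V₂` of a field `F`, none contained in the other, both
"archimedean" (e.g. discrete valuation rings): for `a ∈ V₁`, `b ∈ V₂` there is `x ∈ V₁ ⊓ V₂`
with `x ≡ a` modulo the maximal ideal of `V₁` and `x ≡ b` modulo the maximal ideal of `V₂`.
-/
import Mathlib

set_option autoImplicit false
set_option linter.unusedSectionVars false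

namespace Fermat.Agent.S35

variable {F : Type*} [Field F]

/-- The non-units form an ideal of the valuation ring. -/
theorem s35ap_mul_nu (V : ValuationSubring F) {x y : F} (hx : x ∈ V) (hy : y ∈ V.nonunits) :
    x * y ∈ V.nonunits := by
  rw [ValuationSubring.mem_nonunits_iff] at hy ⊢
  rw [map_mul]
  have h1 : V.valuation x ≤ 1 := (V.valuation_le_one_iff x).2 hx
  calc V.valuation x * V.valuation y ≤ 1 * V.valuation y := by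
        exact mul_le_mul_left h1 _
    _ = V.valuation y := one_mul _
    _ < 1 := hy

theorem s35ap_nu_mul (V : ValuationSubring F) {x y : F} (hx : x ∈ V.nonunits) (hy : y ∈ V) :
    x * y ∈ V.nonunits := by
  rw [mul_comm]
  exact s35ap_mul_nu V hy hx

theorem s35ap_pow_nu (V : ValuationSubring F) {z : F} (hz : z ∈ V.nonunits) {N : ℕ}
    (hN : 0 < N) : z ^ N ∈ V.nonunits := by
  obtain ⟨k, rfl⟩ : ∃ k, N = k + 1 := ⟨N - 1, by omega⟩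
  rw [pow_succ]
  exact s35ap_mul_nu V (pow_mem (V.nonunits_subset hz : z ∈ V) k) hz

/-- `1 + m` is a unit for a non-unit `m`. -/
theorem s35ap_one_add (V : ValuationSubring F) {m : F} (hm : m ∈ V.nonunits) :
    1 + m ≠ 0 ∧ (1 + m)⁻¹ ∈ V := by
  rw [ValuationSubring.mem_nonunits_iff] at hm
  have h1 : V.valuation (1 + m) = 1 := by
    have := Valuation.map_add_eq_of_lt_left V.valuation (x := 1) (y := m)
      (by rw [map_one]; exact hm)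
    rw [this, map_one]
  constructor
  · intro h0
    rw [h0, map_zero] at h1
    exact zero_ne_one h1
  · rw [← V.valuation_le_one_iff, map_inv₀, h1, inv_one]

/-- **Approximation, core form.** -/
theorem s35ap_approx_core (V₁ V₂ : ValuationSubring F) (z : F) (hz0 : z ≠ 0)
    (hz₁ : z ∈ V₁.nonunits) (hz₂ : z⁻¹ ∈ V₂.nonunits)
    (h₁ : ∀ b : F, ∃ N : ℕ, z ^ N * b ∈ V₁.nonunits)
    (h₂ : ∀ a : F, ∃ N : ℕ, z⁻¹ ^ N * a ∈ V₂.nonunits)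
    (a b : F) (ha : a ∈ V₁) (hb : b ∈ V₂) :
    ∃ x : F, x ∈ V₁ ∧ x ∈ V₂ ∧ x - a ∈ V₁.nonunits ∧ x - b ∈ V₂.nonunits := by
  obtain ⟨N₁, hN₁⟩ := h₁ (b - a)
  obtain ⟨N₂, hN₂⟩ := h₂ (a - b)
  obtain ⟨N, hN, hN1, hN2⟩ : ∃ N : ℕ, 0 < N ∧ N₁ ≤ N ∧ N₂ ≤ N :=
    ⟨max N₁ N₂ + 1, by omega, by omega, by omega⟩
  have hzN₁ : z ^ N ∈ V₁.nonunits := s35ap_pow_nu V₁ hz₁ hN
  have hzN₂ : z⁻¹ ^ N ∈ V₂.nonunits := s35ap_pow_nu V₂ hz₂ hN
  obtain ⟨hne₁, hinv₁⟩ := s35ap_one_add V₁ hzN₁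
  obtain ⟨hne₂, hinv₂⟩ := s35ap_one_add V₂ hzN₂
  have hzN0 : z ^ N ≠ 0 := pow_ne_zero N hz0
  -- the two congruences
  have e₁ : (b + (a - b) / (1 + z ^ N)) - a = z ^ (N - N₁) * (z ^ N₁ * (b - a)) * (1 + z ^ N)⁻¹ := by
    have : z ^ (N - N₁) * z ^ N₁ = z ^ N := by rw [← pow_add]; congr 1; omega
    field_simp
    linear_combination (a - b) * this
  have e₂ : (b + (a - b) / (1 + z ^ N)) - b =
      z⁻¹ ^ (N - N₂) * (z⁻¹ ^ N₂ * (a - b)) * (1 + z⁻¹ ^ N)⁻¹ := by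
    have : z⁻¹ ^ (N - N₂) * z⁻¹ ^ N₂ = z⁻¹ ^ N := by rw [← pow_add]; congr 1; omega
    have hne₂' : 1 + (z ^ N)⁻¹ ≠ 0 := by rw [← inv_pow]; exact hne₂
    have h4 : z⁻¹ ^ (N - N₂) * (z⁻¹ ^ N₂ * (a - b)) = (z ^ N)⁻¹ * (a - b) := by
      rw [← mul_assoc, this, inv_pow]
    rw [h4, inv_pow]
    have hne₁' : z ^ N + 1 ≠ 0 := by rwa [add_comm]
    have h5 : (1 + (z ^ N)⁻¹)⁻¹ = z ^ N / (z ^ N + 1) := by
      rw [inv_eq_iff_eq_inv, inv_div]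
      field_simp
    rw [h5]
    field_simp
    ring
  have m₁ : (b + (a - b) / (1 + z ^ N)) - a ∈ V₁.nonunits := by
    rw [e₁]
    exact s35ap_nu_mul V₁ (s35ap_mul_nu V₁ (pow_mem (V₁.nonunits_subset hz₁ : z ∈ V₁) _) hN₁) hinv₁
  have m₂ : (b + (a - b) / (1 + z ^ N)) - b ∈ V₂.nonunits := by
    rw [e₂]
    exact s35ap_nu_mul V₂ (s35ap_mul_nu V₂ (pow_mem (V₂.nonunits_subset hz₂ : z⁻¹ ∈ V₂) _) hN₂) hinv₂
  refine ⟨b + (a - b) / (1 + z ^ N), ?_, ?_, m₁, m₂⟩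
  · have h5 := V₁.add_mem _ _ (V₁.nonunits_subset m₁ : _ ∈ V₁) ha
    rwa [sub_add_cancel] at h5
  · have h5 := V₂.add_mem _ _ (V₂.nonunits_subset m₂ : _ ∈ V₂) hb
    rwa [sub_add_cancel] at h5

/-- Two valuation rings, none contained in the other: an element which is a non-unit of the
first and whose inverse is a non-unit of the second. -/
theorem s35ap_exists_z (V₁ V₂ : ValuationSubring F) (h12 : ¬ V₁ ≤ V₂) (h21 : ¬ V₂ ≤ V₁) :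
    ∃ z : F, z ≠ 0 ∧ z ∈ V₁.nonunits ∧ z⁻¹ ∈ V₂.nonunits := by
  obtain ⟨c, hc₁, hc₂⟩ : ∃ c, c ∈ V₁ ∧ c ∉ V₂ := by
    by_contra h
    push Not at h
    exact h12 h
  obtain ⟨d, hd₂, hd₁⟩ : ∃ d, d ∈ V₂ ∧ d ∉ V₁ := by
    by_contra h
    push Not at h
    exact h21 h
  have hc0 : c ≠ 0 := fun h => hc₂ (h ▸ V₂.zero_mem)
  have hd0 : d ≠ 0 := fun h => hd₁ (h ▸ V₁.zero_mem)
  refine ⟨c * d⁻¹, mul_ne_zero hc0 (inv_ne_zero hd0), ?_, ?_⟩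
  · exact s35ap_mul_nu V₁ hc₁ ((V₁.inv_mem_nonunits_iff).2 (Or.inr hd₁))
  · rw [mul_inv, inv_inv]
    exact s35ap_nu_mul V₂ ((V₂.inv_mem_nonunits_iff).2 (Or.inr hc₂)) hd₂


theorem s35ap_one_notMem_nu (V : ValuationSubring F) : (1 : F) ∉ V.nonunits := by
  rw [ValuationSubring.mem_nonunits_iff, map_one]
  exact lt_irrefl _

/-- A unit is not a non-unit. -/
theorem s35ap_unit_notMem_nu (V : ValuationSubring F) {x : F} (hx : x⁻¹ ∈ V) (hx0 : x ≠ 0) :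
    x ∉ V.nonunits := by
  intro h
  have := s35ap_nu_mul V h hx
  rw [mul_inv_cancel₀ hx0] at this
  exact s35ap_one_notMem_nu V this

/-- Positive integral powers of a non-unit are non-units. -/
theorem s35ap_zpow_nu (V : ValuationSubring F) {π : F} (hπ : π ∈ V.nonunits) {m : ℤ}
    (hm : 1 ≤ m) : π ^ m ∈ V.nonunits := by
  obtain ⟨k, rfl⟩ : ∃ k : ℕ, m = (k : ℤ) := ⟨m.toNat, (Int.toNat_of_nonneg (by omega)).symm⟩
  rw [zpow_natCast]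
  exact s35ap_pow_nu V hπ (by omega)

/-- In a valuation ring with a uniformizer, a non-zero non-unit has positive order. -/
theorem s35ap_order_pos (V : ValuationSubring F) {π : F} {z z' : F} {c : ℤ} (hz0 : z ≠ 0)
    (hz : z ∈ V.nonunits) (hπ : π ∈ V.nonunits) (hz' : z'⁻¹ ∈ V) (e : z = π ^ c * z') :
    1 ≤ c ∧ π ≠ 0 := by
  have hz'0 : z' ≠ 0 := by
    rintro rfl
    rw [mul_zero] at e
    exact hz0 e
  have hπc : π ^ c ≠ 0 := by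
    intro h
    rw [h, zero_mul] at e
    exact hz0 e
  have hc0 : c ≠ 0 := by
    rintro rfl
    rw [zpow_zero, one_mul] at e
    rw [e] at hz
    exact s35ap_unit_notMem_nu V hz' hz'0 hz
  have hπ0 : π ≠ 0 := by
    rintro rfl
    exact hπc (zero_zpow c hc0)
  refine ⟨?_, hπ0⟩
  by_contra hlt
  have hc : 1 ≤ -c := by omega
  have h1 : π ^ (-c) ∈ V.nonunits := s35ap_zpow_nu V hπ hc
  have h2 : z' = z * π ^ (-c) := by
    rw [e, zpow_neg]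
    field_simp
  have h3 : z' ∈ V.nonunits := by
    rw [h2]
    exact s35ap_mul_nu V (V.nonunits_subset hz : z ∈ V) h1
  exact s35ap_unit_notMem_nu V hz' hz'0 h3

/-- The archimedean property of a valuation ring with a uniformizer. -/
theorem s35ap_arch (V : ValuationSubring F) (π : F) (hπ : π ∈ V.nonunits)
    (hu : ∀ h : F, h ≠ 0 → ∃ (c : ℤ) (h' : F), h' ∈ V ∧ h'⁻¹ ∈ V ∧ h = π ^ c * h')
    {z : F} (hz : z ∈ V.nonunits) (b : F) : ∃ N : ℕ, z ^ N * b ∈ V.nonunits := by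
  rcases eq_or_ne b 0 with rfl | hb0
  · exact ⟨0, by rw [mul_zero]; exact V.nonunits.zero_mem⟩
  rcases eq_or_ne z 0 with rfl | hz0
  · exact ⟨1, by rw [pow_one, zero_mul]; exact V.nonunits.zero_mem⟩
  obtain ⟨c, z', hz'V, hz'inv, ez⟩ := hu z hz0
  obtain ⟨k, b', hb'V, -, eb⟩ := hu b hb0
  obtain ⟨hc, hπ0⟩ := s35ap_order_pos V hz0 hz hπ hz'inv ez
  refine ⟨(1 - k).toNat, ?_⟩
  have hN : (1 : ℤ) - k ≤ ((1 - k).toNat : ℤ) := Int.self_le_toNat _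
  have e1 : z ^ (1 - k).toNat * b =
      π ^ (c * ((1 - k).toNat : ℤ) + k) * (z' ^ (1 - k).toNat * b') := by
    rw [zpow_add₀ hπ0, zpow_mul, zpow_natCast]
    conv_lhs => rw [ez, eb]
    ring
  rw [e1]
  refine s35ap_nu_mul V (s35ap_zpow_nu V hπ ?_) (V.mul_mem _ _ (pow_mem hz'V _) hb'V)
  have h0 : (0 : ℤ) ≤ ((1 - k).toNat : ℤ) := Int.natCast_nonneg _
  nlinarith

/-- A valuation ring with a uniformizer is maximal among the valuation rings `≠ F`. -/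
theorem s35ap_le_of_le (V₁ V₂ : ValuationSubring F) (π₁ π₂ : F) (hπ₁ : π₁ ∈ V₁.nonunits)
    (hu₁ : ∀ h : F, h ≠ 0 → ∃ (c : ℤ) (h' : F), h' ∈ V₁ ∧ h'⁻¹ ∈ V₁ ∧ h = π₁ ^ c * h')
    (hπ₂ : π₂ ∈ V₂.nonunits) (hπ₂0 : π₂ ≠ 0) (h : V₁ ≤ V₂) : V₂ ≤ V₁ := by
  -- `π₁` is a non-unit of `V₂`
  have hπ₁V₂ : π₁ ∈ V₂ := h (V₁.nonunits_subset hπ₁ : π₁ ∈ V₁)
  have key : π₁⁻¹ ∉ V₂ := by
    intro hinv
    -- then every element lies in `V₂`, so `π₂` is a unit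
    have hall : ∀ y : F, y ≠ 0 → y ∈ V₂ := by
      intro y hy
      obtain ⟨c, y', hy'V, -, e⟩ := hu₁ y hy
      rw [e]
      refine V₂.mul_mem _ _ ?_ (h hy'V)
      rcases le_or_gt 0 c with hc | hc
      · obtain ⟨k, rfl⟩ : ∃ k : ℕ, c = (k : ℤ) := ⟨c.toNat, (Int.toNat_of_nonneg hc).symm⟩
        rw [zpow_natCast]
        exact pow_mem hπ₁V₂ k
      · obtain ⟨k, hk⟩ : ∃ k : ℕ, -c = (k : ℤ) :=
          ⟨(-c).toNat, (Int.toNat_of_nonneg (by omega)).symm⟩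
        have : π₁ ^ c = π₁⁻¹ ^ k := by
          rw [inv_pow, ← zpow_natCast, ← hk, zpow_neg, inv_inv]
        rw [this]
        exact pow_mem hinv k
    exact s35ap_unit_notMem_nu V₂ (hall _ (inv_ne_zero hπ₂0)) hπ₂0 hπ₂
  intro x hx
  rcases eq_or_ne x 0 with rfl | hx0
  · exact V₁.zero_mem
  obtain ⟨c, x', hx'V, hx'inv, e⟩ := hu₁ x hx0
  have hx'0 : x' ≠ 0 := by
    rintro rfl
    rw [mul_zero] at e
    exact hx0 e
  have hc : 0 ≤ c := by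
    by_contra hlt
    apply key
    obtain ⟨k, hk⟩ : ∃ k : ℕ, -c = (k : ℤ) + 1 :=
      ⟨(-c - 1).toNat, by rw [Int.toNat_of_nonneg (by omega)]; ring⟩
    have hπc : π₁ ^ c = x * x'⁻¹ := by
      rw [e]
      field_simp
    have h1 : π₁ ^ c ∈ V₂ := by
      rw [hπc]
      exact V₂.mul_mem _ _ hx (h hx'inv)
    have hπ₁0 : π₁ ≠ 0 := by
      rintro rfl
      rw [zero_zpow c (by omega), zero_mul] at e
      exact hx0 e
    have h2 : π₁⁻¹ = π₁ ^ c * π₁ ^ k := by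
      have hc' : c = -((k : ℤ) + 1) := by omega
      rw [← zpow_natCast, ← zpow_add₀ hπ₁0, hc']
      have : -((k : ℤ) + 1) + (k : ℤ) = -1 := by ring
      rw [this, zpow_neg_one]
    rw [h2]
    exact V₂.mul_mem _ _ h1 (pow_mem hπ₁V₂ k)
  obtain ⟨k, rfl⟩ : ∃ k : ℕ, c = (k : ℤ) := ⟨c.toNat, (Int.toNat_of_nonneg hc).symm⟩
  rw [e, zpow_natCast]
  exact V₁.mul_mem _ _ (pow_mem (V₁.nonunits_subset hπ₁ : π₁ ∈ V₁) k) hx'V

/-- **Approximation for two distinct valuation rings with uniformizers** (the shape of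
`unif` / `pi` of the vertical valuation rings of the model). -/
theorem s35ap_approx (V₁ V₂ : ValuationSubring F) (hne : V₁ ≠ V₂) (π₁ π₂ : F)
    (hπ₁ : π₁ ∈ V₁.nonunits) (hπ₁0 : π₁ ≠ 0)
    (hu₁ : ∀ h : F, h ≠ 0 → ∃ (c : ℤ) (h' : F), h' ∈ V₁ ∧ h'⁻¹ ∈ V₁ ∧ h = π₁ ^ c * h')
    (hπ₂ : π₂ ∈ V₂.nonunits) (hπ₂0 : π₂ ≠ 0)
    (hu₂ : ∀ h : F, h ≠ 0 → ∃ (c : ℤ) (h' : F), h' ∈ V₂ ∧ h'⁻¹ ∈ V₂ ∧ h = π₂ ^ c * h')
    (a b : F) (ha : a ∈ V₁) (hb : b ∈ V₂) :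
    ∃ x : F, x ∈ V₁ ∧ x ∈ V₂ ∧ x - a ∈ V₁.nonunits ∧ x - b ∈ V₂.nonunits := by
  have h12 : ¬ V₁ ≤ V₂ := fun h =>
    hne (le_antisymm h (s35ap_le_of_le V₁ V₂ π₁ π₂ hπ₁ hu₁ hπ₂ hπ₂0 h))
  have h21 : ¬ V₂ ≤ V₁ := fun h =>
    hne (le_antisymm (s35ap_le_of_le V₂ V₁ π₂ π₁ hπ₂ hu₂ hπ₁ hπ₁0 h) h)
  obtain ⟨z, hz0, hz₁, hz₂⟩ := s35ap_exists_z V₁ V₂ h12 h21
  exact s35ap_approx_core V₁ V₂ z hz0 hz₁ hz₂ (fun b => s35ap_arch V₁ π₁ hπ₁ hu₁ hz₁ b)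
    (fun a => s35ap_arch V₂ π₂ hπ₂ hu₂ hz₂ a) a b ha hb

/-- Unit form: the approximating element is a unit of `V₁` (resp. `V₂`) when `a` (resp. `b`)
is. -/
theorem s35ap_inv_mem_of_sub (V : ValuationSubring F) {x a : F} (hai : a⁻¹ ∈ V)
    (ha0 : a ≠ 0) (h : x - a ∈ V.nonunits) : x ≠ 0 ∧ x⁻¹ ∈ V := by
  have h1 : (x - a) * a⁻¹ ∈ V.nonunits := s35ap_nu_mul V h hai
  obtain ⟨hne, hinv⟩ := s35ap_one_add V h1
  have e : 1 + (x - a) * a⁻¹ = x * a⁻¹ := by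
    field_simp
    ring
  rw [e] at hne hinv
  have hx0 : x ≠ 0 := fun h0 => hne (by rw [h0, zero_mul])
  refine ⟨hx0, ?_⟩
  have e2 : x⁻¹ = (x * a⁻¹)⁻¹ * a⁻¹ := by
    field_simp
  rw [e2]
  exact V.mul_mem _ _ hinv hai


/-- A discrete valuation subring has a uniformizer in the sense used above. -/
theorem s35ap_unif_of_dvr (V : ValuationSubring F) [IsDiscreteValuationRing ↥V] :
    ∃ π : F, π ≠ 0 ∧ π ∈ V.nonunits ∧
      ∀ h : F, h ≠ 0 → ∃ (c : ℤ) (h' : F), h' ∈ V ∧ h'⁻¹ ∈ V ∧ h = π ^ c * h' := by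
  obtain ⟨ϖ, hϖ⟩ := IsDiscreteValuationRing.exists_irreducible ↥V
  refine ⟨(ϖ : F), ?_, ?_, ?_⟩
  · intro h0
    exact hϖ.ne_zero (Subtype.ext h0)
  · rw [ValuationSubring.coe_mem_nonunits_iff, IsLocalRing.mem_maximalIdeal]
    exact hϖ.not_isUnit
  · intro h hh
    obtain ⟨n, u, e⟩ :=
      IsDiscreteValuationRing.exists_units_eq_smul_zpow_of_irreducible (K := F) hϖ hh
    refine ⟨n, ((u : ↥V) : F), (u : ↥V).2, ?_, ?_⟩
    · have h1 : (((u : ↥V) : F))⁻¹ = (((u⁻¹ : (↥V)ˣ) : ↥V) : F) := by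
        have h2 : ((u : ↥V) : F) * (((u⁻¹ : (↥V)ˣ) : ↥V) : F) = 1 := by
          have h3 : ((u : ↥V) * ((u⁻¹ : (↥V)ˣ) : ↥V) : ↥V) = 1 := Units.mul_inv u
          have h4 := congrArg (fun y : ↥V => (y : F)) h3
          exact h4
        exact inv_eq_of_mul_eq_one_right h2
      rw [h1]
      exact ((u⁻¹ : (↥V)ˣ) : ↥V).2
    · rw [e, Units.smul_def, Algebra.smul_def, mul_comm]
      rfl

/-- **Approximation for two distinct discrete valuation subrings.** -/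
theorem s35ap_approx_dvr (V₁ V₂ : ValuationSubring F) [IsDiscreteValuationRing ↥V₁]
    [IsDiscreteValuationRing ↥V₂] (hne : V₁ ≠ V₂) (a b : F) (ha : a ∈ V₁) (hb : b ∈ V₂) :
    ∃ x : F, x ∈ V₁ ∧ x ∈ V₂ ∧ x - a ∈ V₁.nonunits ∧ x - b ∈ V₂.nonunits := by
  obtain ⟨π₁, hπ₁0, hπ₁, hu₁⟩ := s35ap_unif_of_dvr V₁
  obtain ⟨π₂, hπ₂0, hπ₂, hu₂⟩ := s35ap_unif_of_dvr V₂
  exact s35ap_approx V₁ V₂ hne π₁ π₂ hπ₁ hπ₁0 hu₁ hπ₂ hπ₂0 hu₂ a b ha hb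

end Fermat.Agent.S35
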