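/-
S35, leaf [NF-FROB] = (E1), the chart form (helper3).  Prefix `s35fr_`.

THE RESTRICTION TO A CHART, in the spelling of helper23's `S34/SsNodeChart.lean`
(`s34nd_rhoB`, `s34nd_WB`) - the inputs `σ`, `hσ` of `s35nb_frob` / `s35nb_dich` ([NF-NODE]).

  `s35fr_sigmaB O S τ h h'` : the restriction `B ≃+* B` of an automorphism `τ` of `F` to a chart
                              `B = s18_chart O S` with `τ B ⊆ B`, `τ⁻¹ B ⊆ B`;
  `s35fr_rhoB_sigma`        : `ρ_B (σ_B b) = Φ (ρ_B b)` for `ρ_B = ρ_∞` restricted to `B`;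
  `s35fr_rhoB_W_sigma`      : `ρ_B (W_B (σ_B b)) = Φ (ρ_B (W_B b))` (the second branch);
  `s35fr_sigmaB_WB`         : `σ_B` commutes with `W_B`;
  `s35fr_sigmaB_pi`         : `σ_B π = η π` with `η` a unit of `B`.
-/
import Mathlib
import Fermat.Agent.S34.SsNodeChart
import Fermat.Agent.S35.NfFrobChart

set_option autoImplicit false
set_option linter.unusedSectionVars false
set_option linter.unusedVariables false
set_option linter.style.haveILetI false

open AlgebraicCurve ModularCurve IntermediateField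
open Fermat.Agent.S18 Fermat.Agent.S34

noncomputable section

namespace Fermat.Agent.S35

/-! ### The restriction of an automorphism to a chart -/

section Abs

variable (O : Type*) [CommRing O] {F : Type*} [Field F] [Algebra O F] (S : Set F)
  (τ : F ≃+* F) (h : ∀ b ∈ s18_chart O S, τ b ∈ s18_chart O S)
  (h' : ∀ b ∈ s18_chart O S, τ.symm b ∈ s18_chart O S)

/-- **The restriction of `τ` to the chart.** -/
def s35fr_sigmaB : ↥(s18_chart O S) ≃+* ↥(s18_chart O S) where
  toFun b := ⟨τ (b : F), h b b.2⟩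
  invFun b := ⟨τ.symm (b : F), h' b b.2⟩
  left_inv b := Subtype.ext (τ.symm_apply_apply _)
  right_inv b := Subtype.ext (τ.apply_symm_apply _)
  map_mul' _ _ := Subtype.ext (map_mul τ _ _)
  map_add' _ _ := Subtype.ext (map_add τ _ _)

theorem s35fr_sigmaB_coe (b : ↥(s18_chart O S)) :
    ((s35fr_sigmaB O S τ h h' b : ↥(s18_chart O S)) : F) = τ (b : F) := rfl

theorem s35fr_sigmaB_symm_coe (b : ↥(s18_chart O S)) :
    (((s35fr_sigmaB O S τ h h').symm b : ↥(s18_chart O S)) : F) = τ.symm (b : F) := rfl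

/-- `hστ` of helper29's `s34l1_sq_oneMod` / `s34l1_abs`. -/
theorem s35fr_sigmaB_algebraMap (b : ↥(s18_chart O S)) :
    τ (algebraMap ↥(s18_chart O S) F b) =
      algebraMap ↥(s18_chart O S) F (s35fr_sigmaB O S τ h h' b) := rfl

/-- `σ_B π = η π` with `η` a unit of `B`. -/
theorem s35fr_sigmaB_pi {ϖ : O}
    (hπ : ∃ η : O, IsUnit η ∧ τ (algebraMap O F ϖ) = algebraMap O F η * algebraMap O F ϖ) :
    ∃ η : ↥(s18_chart O S), IsUnit η ∧
      s35fr_sigmaB O S τ h h' (algebraMap O ↥(s18_chart O S) ϖ) =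
        η * algebraMap O ↥(s18_chart O S) ϖ := by
  obtain ⟨η, hη, e⟩ := hπ
  exact ⟨algebraMap O ↥(s18_chart O S) η, hη.map _, Subtype.ext e⟩

/-- `σ_B` commutes with the restriction `W_B` of an involution commuting with `τ`. -/
theorem s35fr_sigmaB_WB (W : F ≃+* F)
    (hWO : ∀ a : O, W (algebraMap O F a) = algebraMap O F a) (hWS : ∀ t ∈ S, W t ∈ S)
    (hWW : ∀ x, W (W x) = x) (hWτ : ∀ x : F, W (τ x) = τ (W x)) (b : ↥(s18_chart O S)) :
    s34nd_WB W hWO S hWS hWW (s35fr_sigmaB O S τ h h' b) =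
      s35fr_sigmaB O S τ h h' (s34nd_WB W hWO S hWS hWW b) :=
  Subtype.ext (hWτ _)

end Abs

/-! ### The reductions -/

section Rho

variable {O K : Type} [CommRing O] [IsDomain O] [IsDiscreteValuationRing O] [Field K]
  [CharZero K] [Algebra O K] [IsFractionRing O K] {N : ℕ} [NeZero N] (σ : K ≃ₐ[ℚ] K)
  (φ : IsLocalRing.ResidueField O →+* IsLocalRing.ResidueField O)
  (hσ : s35fr_Induces (O := O) (σ : K →+* K) φ)

include hσ in
/-- **`ρ_B ∘ σ_B = Φ ∘ ρ_B`** (`hσ` of `s35nb_frob`, `s35nb_dich`), for any chart `B ⊆ V_∞`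
stable under `τ = arithmeticRingAut σ`. -/
theorem s35fr_rhoB_sigma (S : Set ↥(s18_F K N))
    (hO : letI := s18_algOF O K N
      ∀ a : O, algebraMap O ↥(s18_F K N) a ∈ s34g_V O K N)
    (hSV : ∀ t ∈ S, t ∈ s34g_V O K N)
    (h : letI := s18_algOF O K N
      ∀ b ∈ s18_chart O S,
        arithmeticRingAut (modularFunctionFieldFull N) σ b ∈ s18_chart O S)
    (h' : letI := s18_algOF O K N
      ∀ b ∈ s18_chart O S,
        (arithmeticRingAut (modularFunctionFieldFull N) σ).symm b ∈ s18_chart O S)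
    (b : letI := s18_algOF O K N
      ↥(s18_chart O S)) :
    letI := s18_algOF O K N
    s34nd_rhoB (s34g_V O K N) hO S hSV (s34g_rho O K N)
        (s35fr_sigmaB O S (arithmeticRingAut (modularFunctionFieldFull N) σ) h h' b) =
      coeffMap φ (s34nd_rhoB (s34g_V O K N) hO S hSV (s34g_rho O K N) b) := by
  letI := s18_algOF O K N
  have hb : (b : ↥(s18_F K N)) ∈ s34g_V O K N := s34nd_chart_le (s34g_V O K N) hO S hSV b b.2
  rw [s34nd_rhoB_eq (s34g_V O K N) hO S hSV (s34g_rho O K N) b ⟨(b : ↥(s18_F K N)), hb⟩ rfl,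
    ← s35fr_rho_tau σ φ hσ ⟨(b : ↥(s18_F K N)), hb⟩]
  exact s34nd_rhoB_eq (s34g_V O K N) hO S hSV (s34g_rho O K N) _ _ rfl

include hσ in
/-- **The second branch**: `ρ_B (W_B (σ_B b)) = Φ (ρ_B (W_B b))`. -/
theorem s35fr_rhoB_W_sigma (S : Set ↥(s18_F K N))
    (hO : letI := s18_algOF O K N
      ∀ a : O, algebraMap O ↥(s18_F K N) a ∈ s34g_V O K N)
    (hSV : ∀ t ∈ S, t ∈ s34g_V O K N)
    (h : letI := s18_algOF O K N
      ∀ b ∈ s18_chart O S,
        arithmeticRingAut (modularFunctionFieldFull N) σ b ∈ s18_chart O S)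
    (h' : letI := s18_algOF O K N
      ∀ b ∈ s18_chart O S,
        (arithmeticRingAut (modularFunctionFieldFull N) σ).symm b ∈ s18_chart O S)
    (W : ↥(s18_F K N) ≃+* ↥(s18_F K N))
    (hWO : letI := s18_algOF O K N
      ∀ a : O, W (algebraMap O ↥(s18_F K N) a) = algebraMap O ↥(s18_F K N) a)
    (hWS : ∀ t ∈ S, W t ∈ S) (hWW : ∀ x, W (W x) = x)
    (hWτ : ∀ x : ↥(s18_F K N), W (arithmeticRingAut (modularFunctionFieldFull N) σ x) =
      arithmeticRingAut (modularFunctionFieldFull N) σ (W x))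
    (b : letI := s18_algOF O K N
      ↥(s18_chart O S)) :
    letI := s18_algOF O K N
    s34nd_rhoB (s34g_V O K N) hO S hSV (s34g_rho O K N)
        (s34nd_WB W hWO S hWS hWW
          (s35fr_sigmaB O S (arithmeticRingAut (modularFunctionFieldFull N) σ) h h' b)) =
      coeffMap φ (s34nd_rhoB (s34g_V O K N) hO S hSV (s34g_rho O K N)
        (s34nd_WB W hWO S hWS hWW b)) := by
  letI := s18_algOF O K N
  have e := s35fr_sigmaB_WB O S (arithmeticRingAut (modularFunctionFieldFull N) σ) h h' W hWO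
    hWS hWW hWτ b
  rw [e]
  exact s35fr_rhoB_sigma σ φ hσ S hO hSV h h' (s34nd_WB W hWO S hWS hWW b)

end Rho

/-! ### The Frobenius square on constants -/

section Psi

variable {κ : Type*} [CommRing κ] (q : ℕ) [Fact q.Prime] [CharP κ q]

/-- `hψ` of `s35nb_frob` / `s35nb_dich` for `ψ = Frob ∘ Frob`. -/
theorem s35fr_psi_apply (c : κ) :
    ((frobenius κ q).comp (frobenius κ q)) c = c ^ q ^ 2 := by
  show (c ^ q) ^ q = c ^ q ^ 2
  rw [← pow_mul, pow_two]

end Psi

end Fermat.Agent.S35
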