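/-
S35, (NF-K), cut (K2), part 1 (helper18): the place-level pieces of the chart theorem.
Prefix `s35kc_`.  Mathlib + `S34/Loc1Place.lean`.

`B` a noetherian integrally closed domain with field of fractions `F`, `K ⊆ B[1/π]`, `n ∋ π` a
prime ideal.

* `s35kc_exists_G`    : `m ∣ ord_P f` for all places and local generators at the horizontal zeros
                        and poles of `f` through `n`  ⟹  `∃ G ≠ 0`, `f / G ^ m` is a unit at every
                        horizontal prime through `n` (the `G`-part of `s34l1_place_main`);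
* `s35kc_isHor_comap` : the horizontal primes through `n` are permuted by `σ` when `σ n = n`;
* `s35kc_hUnit`       : [LOC-UNIT] in the form consumed by `s35lo_node` / `s35lo_smooth`.
-/
import Mathlib
import Fermat.Agent.S34.Loc1Place

set_option autoImplicit false
set_option linter.unusedSectionVars false
set_option linter.unusedVariables false

open AlgebraicCurve IntermediateField

noncomputable section

namespace Fermat.Agent.S35

open Fermat.Agent.S18 Fermat.Agent.S34

section place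

variable {K F B : Type} [Field K] [CharZero K] [Field F] [Algebra K F] [CommRing B]
  [IsDomain B] [IsNoetherianRing B] [IsIntegrallyClosed B] [Algebra B F] [IsFractionRing B F]

/-- **The product of the local generators**: the `G`-part of `s34l1_place_main`. -/
theorem s35kc_exists_G (t : B) (ht : Transcendental K (algebraMap B F t))
    (hfin : FiniteDimensional K⟮algebraMap B F t⟯ F) (π : B)
    (hK : ∀ c : K, ∃ x y : B, ∃ k : ℕ, y ∣ π ^ k ∧
      algebraMap K F c * algebraMap B F y = algebraMap B F x)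
    (n : Ideal B) (m : ℕ) (f : F) (hf : f ≠ 0) (hdiv : ∀ P : Place K F, (m : ℤ) ∣ P.ord f)
    (hLG : ∀ q : Ideal B, s34l1_IsHor π n q → ∀ Q : Place K F, s34l1_IsPlaceOf q Q →
      Q.ord f ≠ 0 → ∃ g : F, s34l1_IsLocGen π n q g) :
    ∃ G : F, G ≠ 0 ∧ ∀ q : Ideal B, s34l1_IsHor π n q → s34l1_IsUnitAt q (f / G ^ m) := by
  classical
  have hinj : Function.Injective (algebraMap B F) := IsFractionRing.injective B F
  have hpl : ∀ i : {q : Ideal B // s34l1_IsHor π n q}, ∃ Q : Place K F,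
      s34l1_IsPlaceOf i.1 Q := fun i =>
    s34l1_exists_place K F B t ht hfin π hK i.1 i.2.prime i.2.ne_bot i.2.notMem
  choose Q hQ using hpl
  have hfinS : {i : {q : Ideal B // s34l1_IsHor π n q} | (Q i).ord f ≠ 0}.Finite := by
    have hfin' := s34l1_hor_finite π n f hf
    have hsub : {i : {q : Ideal B // s34l1_IsHor π n q} | (Q i).ord f ≠ 0} ⊆
        Subtype.val ⁻¹' {q : Ideal B | s34l1_IsHor π n q ∧ ¬ s34l1_IsUnitAt q f} := by
      intro i hi
      refine ⟨i.2, fun hu => hi ?_⟩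
      exact s34l1_ord_of_isUnitAt hinj (hQ i) hu
    exact (hfin'.preimage Subtype.val_injective.injOn).subset hsub
  have hloc : ∀ i : {q : Ideal B // s34l1_IsHor π n q}, (Q i).ord f ≠ 0 →
      ∃ g : F, g ≠ 0 ∧ (Q i).ord g = 1 ∧ ∀ j, j ≠ i → (Q j).ord g = 0 := by
    intro i hi
    obtain ⟨g, hg⟩ := hLG i.1 i.2 (Q i) (hQ i) hi
    refine ⟨g, hg.1, s34l1_locGen_ord hinj (hQ i) i.2.le i.2.notMem hg, ?_⟩
    intro j hj
    exact s34l1_locGen_ord' hinj i.2.ne_bot hg (hQ j) j.2.le j.2.notMem j.2.ht i.2.prime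
      (fun h => hj (Subtype.ext h))
  obtain ⟨G, hG0, hG⟩ := s34l1_prod (ι := {q : Ideal B // s34l1_IsHor π n q})
    (fun i x => (Q i).ord x) (fun i x y hx hy => (Q i).ord_mul hx hy) m f hf
    (fun i => hdiv (Q i)) hfinS hloc
  refine ⟨G, hG0, fun q hq => ?_⟩
  exact s34l1_isUnitAt_of_ord hinj (hQ ⟨q, hq⟩) (div_ne_zero hf (pow_ne_zero m hG0)) (hG ⟨q, hq⟩)

omit [IsNoetherianRing B] [IsIntegrallyClosed B] [IsDomain B] in
/-- The horizontal primes through `n` are permuted by `σ` when `σ n = n`. -/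
theorem s35kc_isHor_comap (π : B) (σ : B ≃+* B) (η : B) (hη : IsUnit η) (hσπ : σ π = η * π)
    (n : Ideal B) (hσn : ∀ b : B, σ b ∈ n ↔ b ∈ n) {q : Ideal B} (h : s34l1_IsHor π n q) :
    s34l1_IsHor π n (q.comap (σ : B →+* B)) := by
  have hqp := h.prime
  refine ⟨Ideal.comap_isPrime _ q, ?_, ?_, ?_, ?_⟩
  · intro b hb
    have hb' : σ b ∈ n := h.le (Ideal.mem_comap.mp hb)
    exact (hσn b).mp hb'
  · intro h0
    obtain ⟨x, hx, hx0⟩ := Submodule.exists_mem_ne_zero_of_ne_bot h.ne_bot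
    have h1 : σ.symm x ∈ q.comap (σ : B →+* B) := by
      rw [Ideal.mem_comap]
      simpa using hx
    rw [h0, Ideal.mem_bot] at h1
    apply hx0
    have := congrArg σ h1
    simpa using this
  · intro hπ
    have h1 : σ π ∈ q := Ideal.mem_comap.mp hπ
    rw [hσπ] at h1
    rcases hqp.mem_or_mem h1 with h2 | h2
    · exact hqp.ne_top (Ideal.eq_top_of_isUnit_mem q h2 hη)
    · exact h.notMem h2
  · intro q' hq' hle
    have hq'' : (q'.comap (σ.symm : B →+* B)).IsPrime := Ideal.comap_isPrime _ q'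
    have hle' : q'.comap (σ.symm : B →+* B) ≤ q := by
      intro b hb
      have h1 : σ.symm b ∈ q' := Ideal.mem_comap.mp hb
      have h2 := Ideal.mem_comap.mp (hle h1)
      simpa using h2
    rcases h.ht _ hq'' hle' with h1 | h1
    · left
      rw [eq_bot_iff]
      intro b hb
      have h2 : σ b ∈ q'.comap (σ.symm : B →+* B) := by
        rw [Ideal.mem_comap]
        simpa using hb
      rw [h1, Ideal.mem_bot] at h2
      rw [Ideal.mem_bot]
      have := congrArg σ.symm h2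
      simpa using this
    · right
      ext b
      rw [Ideal.mem_comap, ← h1, Ideal.mem_comap]
      simp

omit [IsNoetherianRing B] [IsIntegrallyClosed B] [IsDomain B] [IsFractionRing B F] in
/-- **[LOC-UNIT]** in the form consumed by `s35lo_node` / `s35lo_smooth`: a function which is a
unit at the vertical primes through `n` and at the horizontal primes through `n` is a unit at
`n`. -/
theorem s35kc_hUnit (π : B) (n p₁ p₂ : Ideal B)
    (hU : ∀ e : F, (∀ 𝔮 : Ideal B, 𝔮.IsPrime → 𝔮 ≤ n → 𝔮 ≠ ⊥ →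
        (∀ 𝔮' : Ideal B, 𝔮'.IsPrime → 𝔮' ≤ 𝔮 → 𝔮' = ⊥ ∨ 𝔮' = 𝔮) →
        ∃ y z : B, y ∉ 𝔮 ∧ z ∉ 𝔮 ∧ e * algebraMap B F z = algebraMap B F y) →
      ∃ y z : B, y ∉ n ∧ z ∉ n ∧ e * algebraMap B F z = algebraMap B F y)
    (hV : ∀ q : Ideal B, q.IsPrime → π ∈ q → s34l1_IsHt1 q → q = p₁ ∨ q = p₂)
    (x : F) (h₁ : p₁ ≤ n → s34l1_IsUnitAt p₁ x) (h₂ : p₂ ≤ n → s34l1_IsUnitAt p₂ x)
    (hhor : ∀ q : Ideal B, s34l1_IsHor π n q → s34l1_IsUnitAt q x) :
    s34l1_IsUnitAt n x := by
  apply hU x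
  intro 𝔮 h𝔮 hle h0 hht
  by_cases hπ𝔮 : π ∈ 𝔮
  · rcases hV 𝔮 h𝔮 hπ𝔮 hht with rfl | rfl
    · exact h₁ hle
    · exact h₂ hle
  · exact hhor 𝔮 ⟨h𝔮, hle, h0, hπ𝔮, hht⟩

end place

end Fermat.Agent.S35
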