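/-
S35, leaf [NF-LOC], cut (c)-NODE (owner: helper24): the two outer layers of the NODE case on top of
helper18's `s35lo_node` (`S35/NfLocMain.lean`).  Prefix `s35lp_`.

* `s35lp_isHor_comap` : the horizontal primes through `n` are permuted by `σ`, from
                        `σ b ∈ n ↔ b ∈ n` (the analogue of `s34l1_isHor_comap` without the
                        congruence `σ ≡ id` modulo `π`);
* `s35lp_node_asm`    : (abs) the spelling of `s34l1_asm`: a `σ`-stable family `hor i` of primes with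
                        additive orders `ord i`; `G` is the product of the local generators of `f`
                        (`s34l1_prod`);
* `s35lp_node_place`  : (place) the spelling of `s34l1_place_main`: `t` a coordinate, the horizontal
                        primes through `n` and their places, `hdiv` / `hLG` for `f`, [LOC-UNIT] `hU`,
                        and `hV`: the vertical primes of height one through `n` are `p₁`, `p₂`.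

The conclusion is the one of `s35lo_node`: `∃ g ≠ 0, g ∈ 1 + π B_{p_i}` (`i = 1, 2`) and
`g ^ m c = (u / V ^ m) d`, `c, d ∉ n`, for `u = τ (τ f) * f ^ Q / τ f ^ (Q + 1)`.
-/
import Mathlib
import Fermat.Agent.S34.Loc1Place
import Fermat.Agent.S35.NfLocMain

set_option autoImplicit false
set_option linter.unusedSectionVars false

open AlgebraicCurve IntermediateField

noncomputable section

namespace Fermat.Agent.S35

open Fermat.Agent.S34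

/-! ### The abstract layer -/

section abs

variable {B F : Type*} [CommRing B] [IsDomain B] [Field F] [Algebra B F] [IsFractionRing B F]

/-- **(abs), the node**: `s35lo_node` in the spelling of `s34l1_asm`. -/
theorem s35lp_node_asm (π : B) (τ : F ≃+* F) (σ : B ≃+* B) (η : B)
    (hστ : ∀ b : B, τ (algebraMap B F b) = algebraMap B F (σ b)) (hη : IsUnit η)
    (hσπ : σ π = η * π) (hπ0 : π ≠ 0)
    (n p₁ p₂ : Ideal B) [hn : n.IsPrime] [hp₁ : p₁.IsPrime] [hp₂ : p₂.IsPrime]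
    (hπ₁ : π ∈ p₁) (hπ₂ : π ∈ p₂)
    (hDVR₁ : ∀ h : F, h ≠ 0 → ∃ (c : ℤ) (h' : F), s34l1_IsUnitAt p₁ h' ∧
      h = algebraMap B F π ^ c * h')
    (hDVR₂ : ∀ h : F, h ≠ 0 → ∃ (c : ℤ) (h' : F), s34l1_IsUnitAt p₂ h' ∧
      h = algebraMap B F π ^ c * h')
    (hσp₁ : ∀ b : B, σ b ∈ p₁ ↔ b ∈ p₁) (hσp₂ : ∀ b : B, σ b ∈ p₂ ↔ b ∈ p₂)
    (Q : ℕ) (hQ : Q ≠ 0) (hF : ∀ b : B, σ b - b ^ Q ∈ n)
    (t₁ t₂ : B) (hBr₁ : s35lo_IsBranch p₁ n t₁) (hBr₂ : s35lo_IsBranch p₂ n t₂)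
    (hglue : ∀ z ∈ n, ∃ s, s ∉ n ∧ s * z ∈ p₁ ⊔ p₂)
    {ι : Type*} (hor : ι → Ideal B) (hhp : ∀ i, (hor i).IsPrime)
    (hhσ : ∀ i, ∃ j, hor j = (hor i).comap (σ : B →+* B))
    (ord : ι → F → ℤ)
    (hmul : ∀ i (x y : F), x ≠ 0 → y ≠ 0 → ord i (x * y) = ord i x + ord i y)
    (hord : ∀ i (x : F), x ≠ 0 → ord i x = 0 → s34l1_IsUnitAt (hor i) x)
    (hUnit : ∀ x : F, x ≠ 0 → s34l1_IsUnitAt p₁ x → s34l1_IsUnitAt p₂ x →
      (∀ i, s34l1_IsUnitAt (hor i) x) → s34l1_IsUnitAt n x)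
    (m : ℕ) (hm : m ≠ 0) (f : F) (hf : f ≠ 0) (hdiv : ∀ i, (m : ℤ) ∣ ord i f)
    (hfin : {i | ord i f ≠ 0}.Finite)
    (hloc : ∀ i, ord i f ≠ 0 → ∃ g : F, g ≠ 0 ∧ ord i g = 1 ∧ ∀ j, j ≠ i → ord j g = 0)
    (c₁ c₂ X₁ X₂ V : F) (hc₁ : s34l1_IsUnitAt n c₁) (hc₂ : s34l1_IsUnitAt n c₂)
    (hred₁ : s34l1_OneMod π p₁ ((τ f / f) / (c₁ * X₁ ^ m)))
    (hred₂ : s34l1_OneMod π p₂ ((τ f / f) / (c₂ * X₂ ^ m)))
    (happr₁ : s34l1_OneMod π p₁ (V / (τ X₁ / X₁ ^ Q)))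
    (happr₂ : s34l1_OneMod π p₂ (V / (τ X₂ / X₂ ^ Q))) :
    ∃ g : F, g ≠ 0 ∧ s34l1_OneMod π p₁ g ∧ s34l1_OneMod π p₂ g ∧
      ∃ c d : B, c ∉ n ∧ d ∉ n ∧
        g ^ m * algebraMap B F c =
          (τ (τ f) * f ^ Q / τ f ^ (Q + 1) / V ^ m) * algebraMap B F d := by
  obtain ⟨G, hG0, hG⟩ := s34l1_prod ord hmul m f hf hdiv hfin hloc
  refine s35lo_node π τ σ η hστ hη hσπ hπ0 n p₁ p₂ hπ₁ hπ₂ hDVR₁ hDVR₂ hσp₁ hσp₂ Q hQ hF
    t₁ t₂ hBr₁ hBr₂ hglue (Set.range hor) ?_ ?_ ?_ m hm f G hf hG0 ?_ c₁ c₂ X₁ X₂ V hc₁ hc₂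
    hred₁ hred₂ happr₁ happr₂
  · rintro q ⟨i, rfl⟩
    exact hhp i
  · rintro q ⟨i, rfl⟩
    obtain ⟨j, hj⟩ := hhσ i
    exact ⟨j, hj⟩
  · intro x hx h1 h2 h
    exact hUnit x hx h1 h2 fun i => h _ ⟨i, rfl⟩
  · rintro q ⟨i, rfl⟩
    exact hord i _ (div_ne_zero hf (pow_ne_zero m hG0)) (hG i)

end abs

/-! ### The place layer -/

section place

variable {K F B : Type} [Field K] [CharZero K] [Field F] [Algebra K F] [CommRing B] [IsDomain B]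
  [IsNoetherianRing B] [IsIntegrallyClosed B] [Algebra B F] [IsFractionRing B F]

omit [IsNoetherianRing B] [IsIntegrallyClosed B] in
/-- The horizontal primes through `n` are permuted by `σ`, if `σ n = n`. -/
theorem s35lp_isHor_comap (π : B) (σ : B ≃+* B) (η : B) (hη : IsUnit η) (hσπ : σ π = η * π)
    (n : Ideal B) (hσn : ∀ b : B, σ b ∈ n ↔ b ∈ n) {q : Ideal B} (h : s34l1_IsHor π n q) :
    s34l1_IsHor π n (q.comap (σ : B →+* B)) := by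
  have hqp := h.prime
  refine ⟨Ideal.comap_isPrime _ q, ?_, ?_, ?_, ?_⟩
  · intro b hb
    have hb' : σ b ∈ n := h.le (Ideal.mem_comap.mp hb)
    exact (hσn b).mp hb'
  · intro h0
    obtain ⟨x, hx, hx0⟩ := Submodule.exists_mem_ne_zero_of_ne_bot h.ne_bot
    have h1 : σ.symm x ∈ q.comap (σ : B →+* B) := by
      rw [Ideal.mem_comap]
      simpa using hx
    rw [h0, Ideal.mem_bot] at h1
    apply hx0
    have := congrArg σ h1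
    simpa using this
  · intro hπ
    have h1 : σ π ∈ q := Ideal.mem_comap.mp hπ
    rw [hσπ] at h1
    rcases hqp.mem_or_mem h1 with h2 | h2
    · exact hqp.ne_top (Ideal.eq_top_of_isUnit_mem q h2 hη)
    · exact h.notMem h2
  · intro q' hq' hle
    have hq'' : (q'.comap (σ.symm : B →+* B)).IsPrime := Ideal.comap_isPrime _ q'
    have hle' : q'.comap (σ.symm : B →+* B) ≤ q := by
      intro b hb
      have h1 : σ.symm b ∈ q' := Ideal.mem_comap.mp hb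
      have h2 := Ideal.mem_comap.mp (hle h1)
      simpa using h2
    rcases h.ht _ hq'' hle' with h1 | h1
    · left
      rw [eq_bot_iff]
      intro b hb
      have h2 : σ b ∈ q'.comap (σ.symm : B →+* B) := by
        rw [Ideal.mem_comap]
        simpa using hb
      rw [h1, Ideal.mem_bot] at h2
      rw [Ideal.mem_bot]
      have := congrArg σ.symm h2
      simpa using this
    · right
      ext b
      rw [Ideal.mem_comap, ← h1, Ideal.mem_comap]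
      simp

/-- **(place), the node**: `s35lo_node` in the spelling of `s34l1_place_main`.  The vertical primes
of height one through `n` are the two branches `p₁`, `p₂` (`hV`); `hdiv`, `hLG` concern `f`. -/
theorem s35lp_node_place (t : B) (ht : Transcendental K (algebraMap B F t))
    (hfin : FiniteDimensional K⟮algebraMap B F t⟯ F) (π : B) (hπ0 : π ≠ 0)
    (hK : ∀ c : K, ∃ x y : B, ∃ k : ℕ, y ∣ π ^ k ∧
      algebraMap K F c * algebraMap B F y = algebraMap B F x)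
    (τ : F ≃+* F) (σ : B ≃+* B) (η : B)
    (hστ : ∀ b : B, τ (algebraMap B F b) = algebraMap B F (σ b)) (hη : IsUnit η)
    (hσπ : σ π = η * π)
    (n p₁ p₂ : Ideal B) [hn : n.IsPrime] [hp₁ : p₁.IsPrime] [hp₂ : p₂.IsPrime]
    (hπ₁ : π ∈ p₁) (hπ₂ : π ∈ p₂)
    (hDVR₁ : ∀ h : F, h ≠ 0 → ∃ (c : ℤ) (h' : F), s34l1_IsUnitAt p₁ h' ∧
      h = algebraMap B F π ^ c * h')
    (hDVR₂ : ∀ h : F, h ≠ 0 → ∃ (c : ℤ) (h' : F), s34l1_IsUnitAt p₂ h' ∧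
      h = algebraMap B F π ^ c * h')
    (hσp₁ : ∀ b : B, σ b ∈ p₁ ↔ b ∈ p₁) (hσp₂ : ∀ b : B, σ b ∈ p₂ ↔ b ∈ p₂)
    (Q : ℕ) (hQ : Q ≠ 0) (hF : ∀ b : B, σ b - b ^ Q ∈ n)
    (t₁ t₂ : B) (hBr₁ : s35lo_IsBranch p₁ n t₁) (hBr₂ : s35lo_IsBranch p₂ n t₂)
    (hglue : ∀ z ∈ n, ∃ s, s ∉ n ∧ s * z ∈ p₁ ⊔ p₂)
    (hV : ∀ q : Ideal B, q.IsPrime → q ≤ n → π ∈ q → s34l1_IsHt1 q → q = p₁ ∨ q = p₂)
    (hU : ∀ e : F, (∀ 𝔮 : Ideal B, 𝔮.IsPrime → 𝔮 ≤ n → 𝔮 ≠ ⊥ →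
        (∀ 𝔮' : Ideal B, 𝔮'.IsPrime → 𝔮' ≤ 𝔮 → 𝔮' = ⊥ ∨ 𝔮' = 𝔮) →
        ∃ y z : B, y ∉ 𝔮 ∧ z ∉ 𝔮 ∧ e * algebraMap B F z = algebraMap B F y) →
      ∃ y z : B, y ∉ n ∧ z ∉ n ∧ e * algebraMap B F z = algebraMap B F y)
    (m : ℕ) (hm : m ≠ 0) (f : F) (hf : f ≠ 0) (hdiv : ∀ P : Place K F, (m : ℤ) ∣ P.ord f)
    (hLG : ∀ q : Ideal B, s34l1_IsHor π n q → ∀ P : Place K F, s34l1_IsPlaceOf q P →
      P.ord f ≠ 0 → ∃ g : F, s34l1_IsLocGen π n q g)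
    (c₁ c₂ X₁ X₂ V : F) (hc₁ : s34l1_IsUnitAt n c₁) (hc₂ : s34l1_IsUnitAt n c₂)
    (hred₁ : s34l1_OneMod π p₁ ((τ f / f) / (c₁ * X₁ ^ m)))
    (hred₂ : s34l1_OneMod π p₂ ((τ f / f) / (c₂ * X₂ ^ m)))
    (happr₁ : s34l1_OneMod π p₁ (V / (τ X₁ / X₁ ^ Q)))
    (happr₂ : s34l1_OneMod π p₂ (V / (τ X₂ / X₂ ^ Q))) :
    ∃ g : F, g ≠ 0 ∧ s34l1_OneMod π p₁ g ∧ s34l1_OneMod π p₂ g ∧
      ∃ c d : B, c ∉ n ∧ d ∉ n ∧
        g ^ m * algebraMap B F c =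
          (τ (τ f) * f ^ Q / τ f ^ (Q + 1) / V ^ m) * algebraMap B F d := by
  classical
  have hinj : Function.Injective (algebraMap B F) := IsFractionRing.injective B F
  have hσn : ∀ b : B, σ b ∈ n ↔ b ∈ n := s35lo_sigma_mem_of_frob n σ Q hF hQ
  have hpl : ∀ i : {q : Ideal B // s34l1_IsHor π n q}, ∃ P : Place K F,
      s34l1_IsPlaceOf i.1 P := fun i =>
    s34l1_exists_place K F B t ht hfin π hK i.1 i.2.prime i.2.ne_bot i.2.notMem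
  choose P hP using hpl
  refine s35lp_node_asm π τ σ η hστ hη hσπ hπ0 n p₁ p₂ hπ₁ hπ₂ hDVR₁ hDVR₂ hσp₁ hσp₂ Q hQ hF
    t₁ t₂ hBr₁ hBr₂ hglue
    (ι := {q : Ideal B // s34l1_IsHor π n q}) (fun i => i.1) (fun i => i.2.prime) ?_
    (fun i x => (P i).ord x) ?_ ?_ ?_ m hm f hf (fun i => hdiv (P i)) ?_ ?_
    c₁ c₂ X₁ X₂ V hc₁ hc₂ hred₁ hred₂ happr₁ happr₂
  · intro i
    exact ⟨⟨_, s35lp_isHor_comap π σ η hη hσπ n hσn i.2⟩, rfl⟩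
  · intro i x y hx hy
    exact (P i).ord_mul hx hy
  · intro i x hx h
    exact s34l1_isUnitAt_of_ord hinj (hP i) hx h
  · intro x hx h1 h2 hhor
    obtain ⟨y, z, hy, hz, h⟩ := hU x (fun 𝔮 h𝔮 hle h0 hht => by
      by_cases hπ𝔮 : π ∈ 𝔮
      · rcases hV 𝔮 h𝔮 hle hπ𝔮 hht with e | e
        · rw [e]; exact h1
        · rw [e]; exact h2
      · exact hhor ⟨𝔮, ⟨h𝔮, hle, h0, hπ𝔮, hht⟩⟩)
    exact ⟨y, z, hy, hz, h⟩
  · have hfin' := s34l1_hor_finite π n f hf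
    have hsub : {i : {q : Ideal B // s34l1_IsHor π n q} | (P i).ord f ≠ 0} ⊆
        Subtype.val ⁻¹' {q : Ideal B | s34l1_IsHor π n q ∧ ¬ s34l1_IsUnitAt q f} := by
      intro i hi
      refine ⟨i.2, fun hu => hi ?_⟩
      exact s34l1_ord_of_isUnitAt hinj (hP i) hu
    exact (hfin'.preimage Subtype.val_injective.injOn).subset hsub
  · intro i hi
    obtain ⟨g, hg⟩ := hLG i.1 i.2 (P i) (hP i) hi
    refine ⟨g, hg.1, s34l1_locGen_ord hinj (hP i) i.2.le i.2.notMem hg, ?_⟩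
    intro j hj
    exact s34l1_locGen_ord' hinj i.2.ne_bot hg (hP j) j.2.le j.2.notMem j.2.ht i.2.prime
      (fun h => hj (Subtype.ext h))

/-- `s35lp_node_place` with the set `𝒱` of the vertical primes in the spelling of
`s34l1_place_main` (`hV : … → q ∈ 𝒱`), for `𝒱 ⊆ {p₁, p₂}`. -/
theorem s35lp_node_place' (t : B) (ht : Transcendental K (algebraMap B F t))
    (hfin : FiniteDimensional K⟮algebraMap B F t⟯ F) (π : B) (hπ0 : π ≠ 0)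
    (hK : ∀ c : K, ∃ x y : B, ∃ k : ℕ, y ∣ π ^ k ∧
      algebraMap K F c * algebraMap B F y = algebraMap B F x)
    (τ : F ≃+* F) (σ : B ≃+* B) (η : B)
    (hστ : ∀ b : B, τ (algebraMap B F b) = algebraMap B F (σ b)) (hη : IsUnit η)
    (hσπ : σ π = η * π)
    (n p₁ p₂ : Ideal B) [hn : n.IsPrime] [hp₁ : p₁.IsPrime] [hp₂ : p₂.IsPrime]
    (hπ₁ : π ∈ p₁) (hπ₂ : π ∈ p₂)
    (hDVR₁ : ∀ h : F, h ≠ 0 → ∃ (c : ℤ) (h' : F), s34l1_IsUnitAt p₁ h' ∧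
      h = algebraMap B F π ^ c * h')
    (hDVR₂ : ∀ h : F, h ≠ 0 → ∃ (c : ℤ) (h' : F), s34l1_IsUnitAt p₂ h' ∧
      h = algebraMap B F π ^ c * h')
    (hσp₁ : ∀ b : B, σ b ∈ p₁ ↔ b ∈ p₁) (hσp₂ : ∀ b : B, σ b ∈ p₂ ↔ b ∈ p₂)
    (Q : ℕ) (hQ : Q ≠ 0) (hF : ∀ b : B, σ b - b ^ Q ∈ n)
    (t₁ t₂ : B) (hBr₁ : s35lo_IsBranch p₁ n t₁) (hBr₂ : s35lo_IsBranch p₂ n t₂)
    (hglue : ∀ z ∈ n, ∃ s, s ∉ n ∧ s * z ∈ p₁ ⊔ p₂)
    (𝒱 : Set (Ideal B)) (h𝒱 : ∀ q ∈ 𝒱, q = p₁ ∨ q = p₂)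
    (hV : ∀ q : Ideal B, q.IsPrime → q ≤ n → π ∈ q → s34l1_IsHt1 q → q ∈ 𝒱)
    (hU : ∀ e : F, (∀ 𝔮 : Ideal B, 𝔮.IsPrime → 𝔮 ≤ n → 𝔮 ≠ ⊥ →
        (∀ 𝔮' : Ideal B, 𝔮'.IsPrime → 𝔮' ≤ 𝔮 → 𝔮' = ⊥ ∨ 𝔮' = 𝔮) →
        ∃ y z : B, y ∉ 𝔮 ∧ z ∉ 𝔮 ∧ e * algebraMap B F z = algebraMap B F y) →
      ∃ y z : B, y ∉ n ∧ z ∉ n ∧ e * algebraMap B F z = algebraMap B F y)
    (m : ℕ) (hm : m ≠ 0) (f : F) (hf : f ≠ 0) (hdiv : ∀ P : Place K F, (m : ℤ) ∣ P.ord f)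
    (hLG : ∀ q : Ideal B, s34l1_IsHor π n q → ∀ P : Place K F, s34l1_IsPlaceOf q P →
      P.ord f ≠ 0 → ∃ g : F, s34l1_IsLocGen π n q g)
    (c₁ c₂ X₁ X₂ V : F) (hc₁ : s34l1_IsUnitAt n c₁) (hc₂ : s34l1_IsUnitAt n c₂)
    (hred₁ : s34l1_OneMod π p₁ ((τ f / f) / (c₁ * X₁ ^ m)))
    (hred₂ : s34l1_OneMod π p₂ ((τ f / f) / (c₂ * X₂ ^ m)))
    (happr₁ : s34l1_OneMod π p₁ (V / (τ X₁ / X₁ ^ Q)))
    (happr₂ : s34l1_OneMod π p₂ (V / (τ X₂ / X₂ ^ Q))) :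
    ∃ g : F, g ≠ 0 ∧ (∀ q ∈ 𝒱, s34l1_OneMod π q g) ∧
      ∃ c d : B, c ∉ n ∧ d ∉ n ∧
        g ^ m * algebraMap B F c =
          (τ (τ f) * f ^ Q / τ f ^ (Q + 1) / V ^ m) * algebraMap B F d := by
  obtain ⟨g, hg0, hg₁, hg₂, h⟩ := s35lp_node_place t ht hfin π hπ0 hK τ σ η hστ hη hσπ n p₁ p₂
    hπ₁ hπ₂ hDVR₁ hDVR₂ hσp₁ hσp₂ Q hQ hF t₁ t₂ hBr₁ hBr₂ hglue
    (fun q hq hle hπq hht => h𝒱 q (hV q hq hle hπq hht)) hU m hm f hf hdiv hLG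
    c₁ c₂ X₁ X₂ V hc₁ hc₂ hred₁ hred₂ happr₁ happr₂
  refine ⟨g, hg0, fun q hq => ?_, h⟩
  rcases h𝒱 q hq with e | e
  · rw [e]; exact hg₁
  · rw [e]; exact hg₂

end place

end Fermat.Agent.S35
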