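/-
S35, (NF-K), cut (K2) (helper18): THE CHART THEOREM.  Prefix `s35kc_`.

    theorem s35k_chart_main : s35k_ChartStatement        (`S35/NfKChartDefs.lean`, helper29)

On one chart `B = chart(j)` with exactly two vertical valuation rings `V₁`, `V₂`, at every closed
point `n` of the special fibre the refined dichotomy `s35k_IsDich` gives

* a NODE: helper24's place-level form `s35lp_node_place` of `s35lo_node`;
* a point of one branch only: `s35lo_smooth'` with `G` the product of the local generators of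
  `u` (`s35kc_exists_G`) and [LOC-UNIT] (`s35kc_hUnit`);

the data of [NF-RED] in the valuation spelling are converted by `S35/NfLocVal.lean`.
-/
import Mathlib
import Fermat.Agent.S35.NfKChartDefs
import Fermat.Agent.S35.NfKChartP
import Fermat.Agent.S35.NfLocNodeP
import Fermat.Agent.S35.NfLocAdapt
import Fermat.Agent.S35.NfLocVal

set_option autoImplicit false
set_option linter.unusedSectionVars false
set_option linter.unusedVariables false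
set_option linter.style.haveILetI false
set_option maxHeartbeats 1000000

open AlgebraicCurve ModularCurve IntermediateField

noncomputable section

namespace Fermat.Agent.S35

open Fermat.Agent.S18 Fermat.Agent.S34

section unit

variable {B F : Type*} [CommRing B] [Field F] [Algebra B F]

/-- `E = τ X / X ^ Q` is a unit of `V` when `X` is and `τ V = V`. -/
theorem s35kc_E_mem (V : ValuationSubring F) (τ : F ≃+* F) (hτV : ∀ x : F, τ x ∈ V ↔ x ∈ V)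
    (Q : ℕ) {X : F} (hX : X ∈ V) (hXi : X⁻¹ ∈ V) :
    τ X / X ^ Q ∈ V ∧ (τ X / X ^ Q)⁻¹ ∈ V := by
  constructor
  · rw [div_eq_mul_inv, ← inv_pow]
    exact V.mul_mem _ _ ((hτV X).mpr hX) (pow_mem hXi Q)
  · rw [inv_div, div_eq_mul_inv, ← map_inv₀]
    exact V.mul_mem _ _ (pow_mem hX Q) ((hτV X⁻¹).mpr hXi)

end unit

section chart

variable {O K F : Type} [CommRing O] [IsDomain O] [IsDiscreteValuationRing O]
  [Field K] [CharZero K] [Algebra O K] [IsFractionRing O K] [Field F] [Algebra K F]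
  [Algebra O F] [IsScalarTower O K F]

/-- **THE CHART THEOREM.** -/
theorem s35kc_chart (j : F) (htr : Transcendental K j) (hfin : FiniteDimensional ↥K⟮j⟯ F)
    (ϖ : O) (hϖ : Irreducible ϖ) (W : Subring F) (V₁ V₂ : ValuationSubring F)
    (hV : s34l1_IsVert O j ϖ W {V₁, V₂}) (hLG : s34l1_LocStatementAt O K j ϖ)
    (τ : F ≃+* F) (hτ : s35fr_IsFrobTau O j ϖ τ {V₁, V₂}) (Q : ℕ) (hQ : Q ≠ 0)
    (hdich : ∀ n : Ideal ↥(s18_chart O ({j} : Set F)), n.IsMaximal →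
      algebraMap O ↥(s18_chart O ({j} : Set F)) ϖ ∈ n →
      s35k_IsDich (s35k_sigma τ hτ.mem hτ.symm_mem) Q
        (s34l1_centre V₁ (fun b : ↥(s18_chart O ({j} : Set F)) =>
          hV.chart_le V₁ (Set.mem_insert V₁ {V₂}) b b.2))
        (s34l1_centre V₂ (fun b : ↥(s18_chart O ({j} : Set F)) =>
          hV.chart_le V₂ (Set.mem_insert_of_mem V₁ (Set.mem_singleton V₂)) b b.2)) n)
    (m : ℕ) (hm : m ≠ 0) (f : F) (hf : f ≠ 0)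
    (hdivf : ∀ P : Place K F, (m : ℤ) ∣ P.ord f)
    (hdegf : ∀ P : Place K F, P.ord f ≠ 0 → P.deg = 1)
    (hdivu : ∀ P : Place K F, (m : ℤ) ∣ P.ord (τ (τ f) * f ^ Q / τ f ^ (Q + 1)))
    (hdegu : ∀ P : Place K F, P.ord (τ (τ f) * f ^ Q / τ f ^ (Q + 1)) ≠ 0 → P.deg = 1)
    (η₁ η₂ : O) (a₁ a₂ : ℤ) (X₁ X₂ y₁ y₂ V₀ : F) (hη₁ : IsUnit η₁) (hη₂ : IsUnit η₂)
    (hX₁ : X₁ ∈ V₁) (hX₁i : X₁⁻¹ ∈ V₁) (hX₂ : X₂ ∈ V₂) (hX₂i : X₂⁻¹ ∈ V₂)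
    (hy₁ : y₁ ∈ V₁) (hy₂ : y₂ ∈ V₂)
    (hV₀ : V₀ ≠ 0) (hV₀₁ : V₀ ∈ V₁) (hV₀₂ : V₀ ∈ V₂)
    (hD₁ : τ f / f = algebraMap O F η₁ ^ a₁ * X₁ ^ m * (1 + algebraMap O F ϖ * y₁))
    (hD₂ : τ f / f = algebraMap O F η₂ ^ a₂ * X₂ ^ m * (1 + algebraMap O F ϖ * y₂))
    (hA₁ : V₀ - τ X₁ / X₁ ^ Q ∈ V₁.nonunits)
    (hA₂ : V₀ - τ X₂ / X₂ ^ Q ∈ V₂.nonunits)
    (hO₁ : τ (τ f) * f ^ Q / τ f ^ (Q + 1) / V₀ ^ m - 1 ∈ V₁.nonunits)
    (hO₂ : τ (τ f) * f ^ Q / τ f ^ (Q + 1) / V₀ ^ m - 1 ∈ V₂.nonunits) :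
    s34l_LocGen O j ϖ W (τ (τ f) * f ^ Q / τ f ^ (Q + 1) / V₀ ^ m) m := by
  classical
  intro n hn hle
  haveI hnp : n.IsPrime := hn.isPrime
  haveI hnoeth : IsNoetherianRing ↥(s18_chart O ({j} : Set F)) := s35k_noeth htr hfin
  haveI hfrac : IsFractionRing ↥(s18_chart O ({j} : Set F)) F := s35k_frac htr hfin
  haveI hic : IsIntegrallyClosed ↥(s18_chart O ({j} : Set F)) :=
    s34l1_chart_isIntegrallyClosed j hfrac
  have hπ0 : algebraMap O ↥(s18_chart O ({j} : Set F)) ϖ ≠ 0 := s35k_pi_ne_zero K hϖ j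
  have hπn : algebraMap O ↥(s18_chart O ({j} : Set F)) ϖ ∈ n := by
    apply hle
    exact Ideal.mem_map_of_mem _ (hϖ.maximalIdeal_eq ▸ Ideal.mem_span_singleton_self ϖ)
  have hm₁ : V₁ ∈ ({V₁, V₂} : Set (ValuationSubring F)) := Set.mem_insert V₁ {V₂}
  have hm₂ : V₂ ∈ ({V₁, V₂} : Set (ValuationSubring F)) :=
    Set.mem_insert_of_mem V₁ (Set.mem_singleton V₂)
  have hB₁ : ∀ b : ↥(s18_chart O ({j} : Set F)),
      algebraMap ↥(s18_chart O ({j} : Set F)) F b ∈ V₁ := fun b => hV.chart_le V₁ hm₁ b b.2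
  have hB₂ : ∀ b : ↥(s18_chart O ({j} : Set F)),
      algebraMap ↥(s18_chart O ({j} : Set F)) F b ∈ V₂ := fun b => hV.chart_le V₂ hm₂ b b.2
  have hdich' := hdich n hn hπn
  -- the centres
  have hc₁ : s34l1_centre V₁ hB₁ ∈ s35k_centres hV := s35k_centre_mem hV hm₁
  have hc₂ : s34l1_centre V₂ hB₂ ∈ s35k_centres hV := s35k_centre_mem hV hm₂
  haveI hp₁ : (s34l1_centre V₁ hB₁).IsPrime := s34l1_centre_isPrime V₁ hB₁
  haveI hp₂ : (s34l1_centre V₂ hB₂).IsPrime := s34l1_centre_isPrime V₂ hB₂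
  have hπ₁ := s35k_centres_pi hV _ hc₁
  have hπ₂ := s35k_centres_pi hV _ hc₂
  have hDVR₁ := s35k_centres_dvr hV _ hc₁
  have hDVR₂ := s35k_centres_dvr hV _ hc₂
  have hσp₁ := s35k_sigma_centre hV τ hτ.mem hτ.symm_mem hτ.nonunits _ hc₁
  have hσp₂ := s35k_sigma_centre hV τ hτ.mem hτ.symm_mem hτ.nonunits _ hc₂
  obtain ⟨η, hη, hτπ⟩ := hτ.pi
  have hσπ : s35k_sigma τ hτ.mem hτ.symm_mem (algebraMap O ↥(s18_chart O ({j} : Set F)) ϖ) =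
      algebraMap O ↥(s18_chart O ({j} : Set F)) η *
        algebraMap O ↥(s18_chart O ({j} : Set F)) ϖ := Subtype.ext hτπ
  have hηB : IsUnit (algebraMap O ↥(s18_chart O ({j} : Set F)) η) := hη.map _
  have hστ : ∀ b : ↥(s18_chart O ({j} : Set F)),
      τ (algebraMap ↥(s18_chart O ({j} : Set F)) F b) =
        algebraMap ↥(s18_chart O ({j} : Set F)) F (s35k_sigma τ hτ.mem hτ.symm_mem b) :=
    fun b => rfl
  have hK := s35k_hK (K := K) (F := F) hϖ j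
  have hU := s35k_hU (K := K) htr hfin hϖ n hπn
  have hj : j ∈ s18_chart O ({j} : Set F) := s18p_j_mem O j
  have hVall : ∀ q : Ideal ↥(s18_chart O ({j} : Set F)), q.IsPrime →
      algebraMap O ↥(s18_chart O ({j} : Set F)) ϖ ∈ q → s34l1_IsHt1 q →
      q = s34l1_centre V₁ hB₁ ∨ q = s34l1_centre V₂ hB₂ := by
    intro q hq hπq hht
    obtain ⟨V, hVm, rfl⟩ := s35k_centres_all hV q hq hπq hht
    rcases hVm with rfl | hVm
    · left; rfl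
    · right
      rw [Set.mem_singleton_iff] at hVm
      subst hVm
      rfl
  -- the data of [NF-RED]
  have hτf : τ f ≠ 0 := (map_ne_zero τ).mpr hf
  have hD0 : τ f / f ≠ 0 := div_ne_zero hτf hf
  have hu0 : τ (τ f) * f ^ Q / τ f ^ (Q + 1) ≠ 0 :=
    div_ne_zero (mul_ne_zero ((map_ne_zero τ).mpr hτf) (pow_ne_zero Q hf))
      (pow_ne_zero (Q + 1) hτf)
  have hX₁0 : X₁ ≠ 0 := by
    rintro rfl
    rw [zero_pow hm, mul_zero, zero_mul] at hD₁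
    exact hD0 hD₁
  have hX₂0 : X₂ ≠ 0 := by
    rintro rfl
    rw [zero_pow hm, mul_zero, zero_mul] at hD₂
    exact hD0 hD₂
  have hcη : ∀ (η' : O) (a : ℤ), IsUnit η' →
      algebraMap O F η' ^ a ≠ 0 ∧ s34l1_IsUnitAt n (algebraMap O F η' ^ a) := by
    intro η' a hη'
    have h1 : s34l1_IsUnitAt n (algebraMap ↥(s18_chart O ({j} : Set F)) F
        (algebraMap O ↥(s18_chart O ({j} : Set F)) η')) :=
      s34l1_isUnitAt_of_isUnit n (hη'.map _)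
    have h2 := s34l1_isUnitAt_zpow n h1 a
    exact ⟨s34l1_isUnitAt_ne_zero n h2, h2⟩
  have hred₁ : s34l1_OneMod (algebraMap O ↥(s18_chart O ({j} : Set F)) ϖ)
      (s34l1_centre V₁ hB₁) ((τ f / f) / (algebraMap O F η₁ ^ a₁ * X₁ ^ m)) :=
    s35lo_red_of_val V₁ hB₁ _ (hV.pi V₁ hm₁) (hV.unif V₁ hm₁) (hV.loc V₁ hm₁)
      (hcη η₁ a₁ hη₁).1 hX₁0 hy₁ hD₁
  have hred₂ : s34l1_OneMod (algebraMap O ↥(s18_chart O ({j} : Set F)) ϖ)
      (s34l1_centre V₂ hB₂) ((τ f / f) / (algebraMap O F η₂ ^ a₂ * X₂ ^ m)) :=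
    s35lo_red_of_val V₂ hB₂ _ (hV.pi V₂ hm₂) (hV.unif V₂ hm₂) (hV.loc V₂ hm₂)
      (hcη η₂ a₂ hη₂).1 hX₂0 hy₂ hD₂
  have hE₁ := s35kc_E_mem V₁ τ (hτ.val V₁ hm₁) Q hX₁ hX₁i
  have hE₂ := s35kc_E_mem V₂ τ (hτ.val V₂ hm₂) Q hX₂ hX₂i
  have hE₁0 : τ X₁ / X₁ ^ Q ≠ 0 :=
    div_ne_zero ((map_ne_zero τ).mpr hX₁0) (pow_ne_zero Q hX₁0)
  have hE₂0 : τ X₂ / X₂ ^ Q ≠ 0 :=
    div_ne_zero ((map_ne_zero τ).mpr hX₂0) (pow_ne_zero Q hX₂0)
  have happr₁ : s34l1_OneMod (algebraMap O ↥(s18_chart O ({j} : Set F)) ϖ)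
      (s34l1_centre V₁ hB₁) (V₀ / (τ X₁ / X₁ ^ Q)) :=
    s35lo_appr_of_val V₁ hB₁ _ (hV.pi V₁ hm₁) (hV.unif V₁ hm₁) (hV.loc V₁ hm₁) hE₁0 hE₁.2 hA₁
  have happr₂ : s34l1_OneMod (algebraMap O ↥(s18_chart O ({j} : Set F)) ϖ)
      (s34l1_centre V₂ hB₂) (V₀ / (τ X₂ / X₂ ^ Q)) :=
    s35lo_appr_of_val V₂ hB₂ _ (hV.pi V₂ hm₂) (hV.unif V₂ hm₂) (hV.loc V₂ hm₂) hE₂0 hE₂.2 hA₂
  have hone₁ : s34l1_OneMod (algebraMap O ↥(s18_chart O ({j} : Set F)) ϖ)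
      (s34l1_centre V₁ hB₁) (τ (τ f) * f ^ Q / τ f ^ (Q + 1) / V₀ ^ m) :=
    s35lo_oneMod_of_nonunits V₁ hB₁ _ (hV.pi V₁ hm₁) (hV.unif V₁ hm₁) (hV.loc V₁ hm₁) hO₁
  have hone₂ : s34l1_OneMod (algebraMap O ↥(s18_chart O ({j} : Set F)) ϖ)
      (s34l1_centre V₂ hB₂) (τ (τ f) * f ^ Q / τ f ^ (Q + 1) / V₀ ^ m) :=
    s35lo_oneMod_of_nonunits V₂ hB₂ _ (hV.pi V₂ hm₂) (hV.unif V₂ hm₂) (hV.loc V₂ hm₂) hO₂
  have hV₀u₁ : s34l1_IsUnitAt (s34l1_centre V₁ hB₁) V₀ := by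
    have h1 := s34l1_oneMod_isUnitAt (s34l1_centre V₁ hB₁) hπ₁ happr₁
    have h2 := s35lo_isUnitAt_of_val V₁ hB₁ (hV.loc V₁ hm₁) hE₁0 hE₁.1 hE₁.2
    have e : V₀ = V₀ / (τ X₁ / X₁ ^ Q) * (τ X₁ / X₁ ^ Q) := by rw [div_mul_cancel₀ _ hE₁0]
    rw [e]
    exact s34l1_isUnitAt_mul _ h1 h2
  have hV₀u₂ : s34l1_IsUnitAt (s34l1_centre V₂ hB₂) V₀ := by
    have h1 := s34l1_oneMod_isUnitAt (s34l1_centre V₂ hB₂) hπ₂ happr₂
    have h2 := s35lo_isUnitAt_of_val V₂ hB₂ (hV.loc V₂ hm₂) hE₂0 hE₂.1 hE₂.2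
    have e : V₀ = V₀ / (τ X₂ / X₂ ^ Q) * (τ X₂ / X₂ ^ Q) := by rw [div_mul_cancel₀ _ hE₂0]
    rw [e]
    exact s34l1_isUnitAt_mul _ h1 h2
  -- the local generator at `n`
  have key : ∃ g : F, g ≠ 0 ∧
      s34l1_OneMod (algebraMap O ↥(s18_chart O ({j} : Set F)) ϖ) (s34l1_centre V₁ hB₁) g ∧
      s34l1_OneMod (algebraMap O ↥(s18_chart O ({j} : Set F)) ϖ) (s34l1_centre V₂ hB₂) g ∧
      ∃ c d : ↥(s18_chart O ({j} : Set F)), c ∉ n ∧ d ∉ n ∧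
        g ^ m * algebraMap ↥(s18_chart O ({j} : Set F)) F c =
          (τ (τ f) * f ^ Q / τ f ^ (Q + 1) / V₀ ^ m) *
            algebraMap ↥(s18_chart O ({j} : Set F)) F d := by
    rcases hdich' with ⟨h1, h2, ⟨x, hx2, hx1⟩, ⟨y, hy1, hy2⟩, hglue, hF, ⟨t₁, ht₁, hu₁⟩,
      ⟨t₂, ht₂, hu₂⟩⟩ | ⟨h1, hθ, hBr⟩ | ⟨h2, hθ, hBr⟩
    · -- a node
      have hBr₁ : s35lo_IsBranch (s34l1_centre V₁ hB₁) n t₁ := by
        rcases s35lo_isBranch_or_le _ n h1 ht₁ hu₁ with h | h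
        · exact h
        · exact absurd (h (h2 hx2)) hx1
      have hBr₂ : s35lo_IsBranch (s34l1_centre V₂ hB₂) n t₂ := by
        rcases s35lo_isBranch_or_le _ n h2 ht₂ hu₂ with h | h
        · exact h
        · exact absurd (h (h1 hy1)) hy2
      exact s35lp_node_place (K := K) (⟨j, hj⟩ : ↥(s18_chart O ({j} : Set F))) htr hfin
        (algebraMap O ↥(s18_chart O ({j} : Set F)) ϖ) hπ0 hK τ
        (s35k_sigma τ hτ.mem hτ.symm_mem) (algebraMap O ↥(s18_chart O ({j} : Set F)) η)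
        hστ hηB hσπ n _ _ hπ₁ hπ₂ hDVR₁ hDVR₂ hσp₁ hσp₂ Q hQ hF t₁ t₂ hBr₁ hBr₂ hglue
        (fun q hq _ hπq hht => hVall q hq hπq hht) hU m hm f hf hdivf
        (fun q hq P hP hPf => hLG n hn hπn q hq P hP (hdegf P hPf))
        _ _ X₁ X₂ V₀ (hcη η₁ a₁ hη₁).2 (hcη η₂ a₂ hη₂).2 hred₁ hred₂ happr₁ happr₂
    · -- a point of `p₁` only
      obtain ⟨G, hG0, hG⟩ := s35kc_exists_G (K := K) (⟨j, hj⟩ : ↥(s18_chart O ({j} : Set F)))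
        htr hfin (algebraMap O ↥(s18_chart O ({j} : Set F)) ϖ) hK n m _ hu0 hdivu
        (fun q hq P hP hPu => hLG n hn hπn q hq P hP (hdegu P hPu))
      have hnot : ¬ s34l1_centre V₂ hB₂ ≤ n := by
        obtain ⟨θ, hθ2, hθn⟩ := hθ
        intro hle₂
        apply hnp.ne_top
        rw [Ideal.eq_top_iff_one]
        have : (1 : ↥(s18_chart O ({j} : Set F))) = θ - (θ - 1) := by ring
        rw [this]
        exact n.sub_mem (hle₂ hθ2) hθn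
      exact s35lo_smooth' (algebraMap O ↥(s18_chart O ({j} : Set F)) ϖ) hπ0 n _ _ hπ₁ hπ₂
        hDVR₁ hDVR₂ h1 hBr hθ {q | s34l1_IsHor (algebraMap O ↥(s18_chart O ({j} : Set F)) ϖ) n q}
        (fun q hq => hq.prime) (fun q hq => hq.notMem)
        (fun x _ hx1 hxh => s35kc_hUnit _ n _ _ hU hVall x (fun _ => hx1)
          (fun hle₂ => absurd hle₂ hnot) hxh)
        m hm _ V₀ G hG0 hG hV₀u₁ hone₁ hone₂
    · -- a point of `p₂` only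
      obtain ⟨G, hG0, hG⟩ := s35kc_exists_G (K := K) (⟨j, hj⟩ : ↥(s18_chart O ({j} : Set F)))
        htr hfin (algebraMap O ↥(s18_chart O ({j} : Set F)) ϖ) hK n m _ hu0 hdivu
        (fun q hq P hP hPu => hLG n hn hπn q hq P hP (hdegu P hPu))
      have hnot : ¬ s34l1_centre V₁ hB₁ ≤ n := by
        obtain ⟨θ, hθ1, hθn⟩ := hθ
        intro hle₁
        apply hnp.ne_top
        rw [Ideal.eq_top_iff_one]
        have : (1 : ↥(s18_chart O ({j} : Set F))) = θ - (θ - 1) := by ring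
        rw [this]
        exact n.sub_mem (hle₁ hθ1) hθn
      obtain ⟨g, hg0, hg₂, hg₁, h⟩ :=
        s35lo_smooth' (algebraMap O ↥(s18_chart O ({j} : Set F)) ϖ) hπ0 n _ _ hπ₂ hπ₁
          hDVR₂ hDVR₁ h2 hBr hθ
          {q | s34l1_IsHor (algebraMap O ↥(s18_chart O ({j} : Set F)) ϖ) n q}
          (fun q hq => hq.prime) (fun q hq => hq.notMem)
          (fun x _ hx2 hxh => s35kc_hUnit _ n _ _ hU hVall x (fun hle₁ => absurd hle₁ hnot)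
            (fun _ => hx2) hxh)
          m hm _ V₀ G hG0 hG hV₀u₂ hone₂ hone₁
      exact ⟨g, hg0, hg₁, hg₂, h⟩
  obtain ⟨g, hg0, hg₁, hg₂, c, d, hc, hd, hcd⟩ := key
  refine ⟨g, hg0, s35k_gauss K hϖ hV g ?_, c, d, hc, hd, hcd⟩
  rintro q ⟨V, hVm, rfl⟩
  rcases hVm with rfl | hVm
  · exact hg₁
  · rw [Set.mem_singleton_iff] at hVm
    subst hVm
    exact hg₂

end chart

/-- **(K2)** the chart theorem, in the form of `S35/NfKChartDefs.lean`. -/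
theorem s35k_chart_main : s35k_ChartStatement := by
  intro O K F _ _ _ _ _ _ _ _ _ _ _ j htr hfin ϖ hϖ W V₁ V₂ hV hLG τ hτ Q hQ hdich m hm f hf
    hdivf hdegf hdivu hdegu η₁ η₂ a₁ a₂ X₁ X₂ y₁ y₂ V₀ hη₁ hη₂ hX₁ hX₁i hX₂ hX₂i hy₁ hy₂
    hV₀ hV₀₁ hV₀₂ hD₁ hD₂ hA₁ hA₂ hO₁ hO₂
  exact s35kc_chart j htr hfin ϖ hϖ W V₁ V₂ hV hLG τ hτ Q hQ hdich m hm f hf
    hdivf hdegf hdivu hdegu η₁ η₂ a₁ a₂ X₁ X₂ y₁ y₂ V₀ hη₁ hη₂ hX₁ hX₁i hX₂ hX₂i hy₁ hy₂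
    hV₀ hV₀₁ hV₀₂ hD₁ hD₂ hA₁ hA₂ hO₁ hO₂

end Fermat.Agent.S35
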