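/-
S35, (NF-K), cut (K2) = THE CHART THEOREM, lemmas (a), (b), (c) (owner: helper7).
Prefix `s35x7_`.

Setting of `S35/NfKSetup.lean`: `O` a discrete valuation ring with uniformizer `ϖ`,
`K = Frac O`, `F / K(j)` finite, `B = s18_chart O {j}`, `hV : s34l1_IsVert O j ϖ W 𝒱`,
`V ∈ 𝒱` with centre `p = s34l1_centre V _` on `B`, `π = algebraMap O B ϖ`.

(a) THE CONVERTER from the valuation spelling to the spelling of `S34/Loc1Abs.lean`:
  * `s35x7_exists_of_nonunits` : `z ∈ V.nonunits → ∃ y ∈ V, z = ϖ * y`;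
  * `s35x7_oneMod_of_eq`       : `x - 1 = ϖ * y`, `y ∈ V` `→ s34l1_OneMod π p x`;
  * `s35x7_oneMod_of_nonunits` : `x - 1 ∈ V.nonunits → s34l1_OneMod π p x`;
  * `s35x7_red`   : `D ≠ 0`, `D = E * (1 + ϖ * y)`, `y ∈ V` `→ s34l1_OneMod π p (D / E)`  ([RED]);
  * `s35x7_appr`  : `E, E⁻¹ ∈ V`, `E ≠ 0`, `V₀ - E ∈ V.nonunits → s34l1_OneMod π p (V₀ / E)`
                    ([APPR]);  `s35x7_frobQuot_mem` / `_inv_mem` / `_ne_zero` : `E = τ X / X ^ Q`
                    is a unit of `V` for a unit `X` of `V` and `τ V = V`;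
  * `s35x7_isUnitAt_of_unit` : a unit of `V` is a unit at `p`;
    `s35x7_isUnitAt_of_sub`  : `V₀ - E ∈ V.nonunits`, `E` a unit of `V` `→` `V₀` is a unit at `p`.
(b) `s35x7_const_isUnitAt` : `algebraMap O F η ^ a` is a unit at every prime of `B` (`η ∈ Oˣ`).
(c) `s35x7_exists_G` (abstract, binders of `s34l1_place_main`) and `s35x7_exists_G_chart`
    (binders of `s35k_ChartStatement`): `∃ G ≠ 0, ∀ q, s34l1_IsHor π n q →
    s34l1_IsUnitAt q (f / G ^ m)`.
-/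
import Mathlib
import Fermat.Agent.S34.Loc1Chart
import Fermat.Agent.S35.NfKSetup

set_option autoImplicit false
set_option linter.unusedSectionVars false
set_option linter.unusedVariables false
set_option linter.style.haveILetI false

open AlgebraicCurve IntermediateField

noncomputable section

namespace Fermat.Agent.S35

open Fermat.Agent.S18 Fermat.Agent.S34

/-! ### (a) the converter -/

section conv

variable {O K : Type} {F : Type} [CommRing O] [IsDomain O] [IsDiscreteValuationRing O]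
  [Field K] [CharZero K] [Algebra O K] [IsFractionRing O K] [Field F] [Algebra K F]
  [Algebra O F] [IsScalarTower O K F]
  {j : F} {ϖ : O} {W : Subring F} {𝒱 : Set (ValuationSubring F)}

/-- A non-unit of `V` is divisible by `ϖ` in `V`. -/
theorem s35x7_exists_of_nonunits (hV : s34l1_IsVert O j ϖ W 𝒱) {V : ValuationSubring F}
    (hVm : V ∈ 𝒱) {z : F} (hz : z ∈ V.nonunits) :
    ∃ y : F, y ∈ V ∧ z = algebraMap O F ϖ * y := by
  by_cases hz0 : z = 0
  · exact ⟨0, V.zero_mem, by rw [hz0, mul_zero]⟩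
  obtain ⟨c, h', h1, h2, h3⟩ := hV.unif V hVm z hz0
  have hπ : algebraMap O F ϖ ∈ V.nonunits := hV.pi V hVm
  have hπV : algebraMap O F ϖ ∈ V := V.nonunits_le hπ
  have hπ0 : algebraMap O F ϖ ≠ 0 := by
    intro h
    rw [h, zero_zpow_eq] at h3
    split_ifs at h3 with hc
    · subst hc
      rw [one_mul] at h3
      -- `z = h'` is a unit of `V`: impossible
      rw [h3, V.mem_nonunits_iff] at hz
      have : V.valuation h' = 1 := by
        have h4 : V.valuation h' ≤ 1 := (V.valuation_le_one_iff _).mpr h1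
        have h5 : V.valuation h'⁻¹ ≤ 1 := (V.valuation_le_one_iff _).mpr h2
        rw [map_inv₀] at h5
        have h0 : V.valuation h' ≠ 0 := fun h => hz0 (h3 ▸ (V.valuation.zero_iff).mp h)
        exact le_antisymm h4 ((inv_le_one₀ (zero_lt_iff.mpr h0)).mp h5)
      rw [this] at hz
      exact lt_irrefl _ hz
    · rw [zero_mul] at h3
      exact hz0 h3
  have hh'0 : h' ≠ 0 := by
    rintro rfl
    rw [mul_zero] at h3
    exact hz0 h3
  have hvh : V.valuation h' = 1 := by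
    have h4 : V.valuation h' ≤ 1 := (V.valuation_le_one_iff _).mpr h1
    have h5 : V.valuation h'⁻¹ ≤ 1 := (V.valuation_le_one_iff _).mpr h2
    rw [map_inv₀] at h5
    have h0 : V.valuation h' ≠ 0 := fun h => hh'0 ((V.valuation.zero_iff).mp h)
    exact le_antisymm h4 ((inv_le_one₀ (zero_lt_iff.mpr h0)).mp h5)
  have hc : 1 ≤ c := by
    by_contra hc
    have hc' : c ≤ 0 := by omega
    obtain ⟨k, hk⟩ : ∃ k : ℕ, c = -(k : ℤ) := ⟨(-c).toNat, by omega⟩
    have hinv : z⁻¹ ∈ V := by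
      rw [h3, mul_inv, hk, zpow_neg, inv_inv, zpow_natCast]
      exact V.mul_mem _ _ (V.pow_mem hπV k) h2
    have hvz : V.valuation z < 1 := (V.mem_nonunits_iff).mp hz
    have hvz' : V.valuation z⁻¹ ≤ 1 := (V.valuation_le_one_iff _).mpr hinv
    rw [map_inv₀] at hvz'
    have h0 : V.valuation z ≠ 0 := fun h => hz0 ((V.valuation.zero_iff).mp h)
    exact absurd hvz (not_lt.mpr ((inv_le_one₀ (zero_lt_iff.mpr h0)).mp hvz'))
  obtain ⟨k, hk⟩ : ∃ k : ℕ, c = (k : ℤ) + 1 := ⟨(c - 1).toNat, by omega⟩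
  refine ⟨algebraMap O F ϖ ^ k * h', V.mul_mem _ _ (V.pow_mem hπV k) h1, ?_⟩
  rw [h3, hk, zpow_add_one₀ hπ0, zpow_natCast]
  ring

/-- `x - 1 = ϖ y` with `y ∈ V` gives `x ∈ 1 + π B_p` at the centre `p` of `V`. -/
theorem s35x7_oneMod_of_eq (hV : s34l1_IsVert O j ϖ W 𝒱) {V : ValuationSubring F}
    (hVm : V ∈ 𝒱) {x y : F} (hy : y ∈ V) (hxy : x - 1 = algebraMap O F ϖ * y) :
    s34l1_OneMod (algebraMap O ↥(s18_chart O ({j} : Set F)) ϖ)
      (s34l1_centre V (fun b : ↥(s18_chart O ({j} : Set F)) => hV.chart_le V hVm b b.2)) x := by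
  obtain ⟨a, b, hb, hab⟩ := hV.loc V hVm y hy
  refine ⟨a, b, ?_, ?_⟩
  · rw [s34l1_mem_centre]
    exact hb
  · rw [hxy, map_mul]
    show algebraMap O F ϖ * y * (b : F) = algebraMap O F ϖ * (a : F)
    rw [mul_assoc, hab]

/-- **(a) THE CONVERTER**: `x - 1 ∈ V.nonunits` gives `x ∈ 1 + π B_p`. -/
theorem s35x7_oneMod_of_nonunits (hV : s34l1_IsVert O j ϖ W 𝒱) {V : ValuationSubring F}
    (hVm : V ∈ 𝒱) {x : F} (hx : x - 1 ∈ V.nonunits) :
    s34l1_OneMod (algebraMap O ↥(s18_chart O ({j} : Set F)) ϖ)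
      (s34l1_centre V (fun b : ↥(s18_chart O ({j} : Set F)) => hV.chart_le V hVm b b.2)) x := by
  obtain ⟨y, hy, hxy⟩ := s35x7_exists_of_nonunits hV hVm hx
  exact s35x7_oneMod_of_eq hV hVm hy hxy

/-- **[RED]**: `D = E (1 + ϖ y)`, `y ∈ V`, `D ≠ 0` gives `D / E ∈ 1 + π B_p`. -/
theorem s35x7_red (hV : s34l1_IsVert O j ϖ W 𝒱) {V : ValuationSubring F}
    (hVm : V ∈ 𝒱) {D E y : F} (hD : D ≠ 0) (hy : y ∈ V)
    (h : D = E * (1 + algebraMap O F ϖ * y)) :
    s34l1_OneMod (algebraMap O ↥(s18_chart O ({j} : Set F)) ϖ)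
      (s34l1_centre V (fun b : ↥(s18_chart O ({j} : Set F)) => hV.chart_le V hVm b b.2))
      (D / E) := by
  have hE : E ≠ 0 := by
    rintro rfl
    rw [zero_mul] at h
    exact hD h
  refine s35x7_oneMod_of_eq hV hVm hy ?_
  rw [h, mul_div_cancel_left₀ _ hE]
  ring

/-- In `D = c X ^ m (1 + ϖ y)` with `D ≠ 0` and `m ≠ 0`, `X ≠ 0`. -/
theorem s35x7_X_ne_zero {D c X z : F} {m : ℕ} (hm : m ≠ 0) (hD : D ≠ 0)
    (h : D = c * X ^ m * z) : X ≠ 0 := by
  rintro rfl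
  rw [zero_pow hm, mul_zero, zero_mul] at h
  exact hD h

/-- The Frobenius quotient `τ X / X ^ Q` of a unit `X` of `V` lies in `V`. -/
theorem s35x7_frobQuot_mem {V : ValuationSubring F} (τ : F ≃+* F)
    (hval : ∀ x, τ x ∈ V ↔ x ∈ V) (Q : ℕ) {X : F} (hX : X ∈ V) (hX' : X⁻¹ ∈ V) :
    τ X / X ^ Q ∈ V := by
  rw [div_eq_mul_inv, ← inv_pow]
  exact V.mul_mem _ _ ((hval X).mpr hX) (V.pow_mem hX' Q)

/-- The inverse of the Frobenius quotient of a unit `X` of `V` lies in `V`. -/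
theorem s35x7_frobQuot_inv_mem {V : ValuationSubring F} (τ : F ≃+* F)
    (hval : ∀ x, τ x ∈ V ↔ x ∈ V) (Q : ℕ) {X : F} (hX : X ∈ V) (hX' : X⁻¹ ∈ V) :
    (τ X / X ^ Q)⁻¹ ∈ V := by
  rw [inv_div, div_eq_mul_inv, ← map_inv₀]
  exact V.mul_mem _ _ (V.pow_mem hX Q) ((hval X⁻¹).mpr hX')

theorem s35x7_frobQuot_ne_zero (τ : F ≃+* F) (Q : ℕ) {X : F} (hX : X ≠ 0) :
    τ X / X ^ Q ≠ 0 :=
  div_ne_zero ((map_ne_zero τ).mpr hX) (pow_ne_zero Q hX)

/-- **[APPR]**: `V₀ - E ∈ V.nonunits` with `E` a unit of `V` gives `V₀ / E ∈ 1 + π B_p`. -/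
theorem s35x7_appr (hV : s34l1_IsVert O j ϖ W 𝒱) {V : ValuationSubring F}
    (hVm : V ∈ 𝒱) {V₀ E : F} (hE0 : E ≠ 0) (hE' : E⁻¹ ∈ V) (h : V₀ - E ∈ V.nonunits) :
    s34l1_OneMod (algebraMap O ↥(s18_chart O ({j} : Set F)) ϖ)
      (s34l1_centre V (fun b : ↥(s18_chart O ({j} : Set F)) => hV.chart_le V hVm b b.2))
      (V₀ / E) := by
  obtain ⟨y, hy, hxy⟩ := s35x7_exists_of_nonunits hV hVm h
  refine s35x7_oneMod_of_eq hV hVm (V.mul_mem _ _ hy hE') ?_
  have h1 : V₀ = E + algebraMap O F ϖ * y := by rw [← hxy]; ring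
  rw [h1]
  field_simp
  ring

/-- **[APPR]** for `E = τ X / X ^ Q`. -/
theorem s35x7_appr_frob (hV : s34l1_IsVert O j ϖ W 𝒱) {V : ValuationSubring F}
    (hVm : V ∈ 𝒱) (τ : F ≃+* F) (hval : ∀ x, τ x ∈ V ↔ x ∈ V) (Q : ℕ) {V₀ X : F}
    (hX0 : X ≠ 0) (hX : X ∈ V) (hX' : X⁻¹ ∈ V) (h : V₀ - τ X / X ^ Q ∈ V.nonunits) :
    s34l1_OneMod (algebraMap O ↥(s18_chart O ({j} : Set F)) ϖ)
      (s34l1_centre V (fun b : ↥(s18_chart O ({j} : Set F)) => hV.chart_le V hVm b b.2))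
      (V₀ / (τ X / X ^ Q)) :=
  s35x7_appr hV hVm (s35x7_frobQuot_ne_zero τ Q hX0) (s35x7_frobQuot_inv_mem τ hval Q hX hX') h

/-- A unit of `V` is a unit at the centre of `V`. -/
theorem s35x7_isUnitAt_of_unit (hV : s34l1_IsVert O j ϖ W 𝒱) {V : ValuationSubring F}
    (hVm : V ∈ 𝒱) {x : F} (hx0 : x ≠ 0) (hx : x ∈ V) (hx' : x⁻¹ ∈ V) :
    s34l1_IsUnitAt
      (s34l1_centre V (fun b : ↥(s18_chart O ({j} : Set F)) => hV.chart_le V hVm b b.2)) x :=
  s34l1_isUnitAt_centre V _ hx0 hx hx' (hV.loc V hVm x hx)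

/-- `V₀ ≡ E` modulo the maximal ideal of `V`, `E` a unit of `V`: `V₀` is a unit of `V`. -/
theorem s35x7_unit_of_sub {V : ValuationSubring F} {V₀ E : F} (hE0 : E ≠ 0) (hE : E ∈ V)
    (hE' : E⁻¹ ∈ V) (h : V₀ - E ∈ V.nonunits) : V₀ ≠ 0 ∧ V₀ ∈ V ∧ V₀⁻¹ ∈ V := by
  have hvE : V.valuation E = 1 := by
    have h4 : V.valuation E ≤ 1 := (V.valuation_le_one_iff _).mpr hE
    have h5 : V.valuation E⁻¹ ≤ 1 := (V.valuation_le_one_iff _).mpr hE'
    rw [map_inv₀] at h5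
    have h0 : V.valuation E ≠ 0 := fun h => hE0 ((V.valuation.zero_iff).mp h)
    exact le_antisymm h4 ((inv_le_one₀ (zero_lt_iff.mpr h0)).mp h5)
  have hvz : V.valuation (V₀ - E) < 1 := (V.mem_nonunits_iff).mp h
  have hv : V.valuation V₀ = 1 := by
    have h1 : V₀ = E + (V₀ - E) := by ring
    rw [h1, Valuation.map_add_eq_of_lt_left _ (by rw [hvE]; exact hvz), hvE]
  have h0 : V₀ ≠ 0 := by
    rintro rfl
    rw [map_zero] at hv
    exact zero_ne_one hv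
  refine ⟨h0, (V.valuation_le_one_iff _).mp hv.le, ?_⟩
  rw [← V.valuation_le_one_iff, map_inv₀, hv, inv_one]

/-- `V₀ ≡ E` modulo the maximal ideal of `V`, `E` a unit of `V`: `V₀` is a unit at the centre. -/
theorem s35x7_isUnitAt_of_sub (hV : s34l1_IsVert O j ϖ W 𝒱) {V : ValuationSubring F}
    (hVm : V ∈ 𝒱) {V₀ E : F} (hE0 : E ≠ 0) (hE : E ∈ V) (hE' : E⁻¹ ∈ V)
    (h : V₀ - E ∈ V.nonunits) :
    s34l1_IsUnitAt
      (s34l1_centre V (fun b : ↥(s18_chart O ({j} : Set F)) => hV.chart_le V hVm b b.2)) V₀ := by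
  obtain ⟨h0, h1, h2⟩ := s35x7_unit_of_sub hE0 hE hE' h
  exact s35x7_isUnitAt_of_unit hV hVm h0 h1 h2

/-- `V₀ ≡ τ X / X ^ Q` modulo the maximal ideal of `V`: `V₀` is a unit at the centre. -/
theorem s35x7_isUnitAt_of_sub_frob (hV : s34l1_IsVert O j ϖ W 𝒱) {V : ValuationSubring F}
    (hVm : V ∈ 𝒱) (τ : F ≃+* F) (hval : ∀ x, τ x ∈ V ↔ x ∈ V) (Q : ℕ) {V₀ X : F}
    (hX0 : X ≠ 0) (hX : X ∈ V) (hX' : X⁻¹ ∈ V) (h : V₀ - τ X / X ^ Q ∈ V.nonunits) :
    s34l1_IsUnitAt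
      (s34l1_centre V (fun b : ↥(s18_chart O ({j} : Set F)) => hV.chart_le V hVm b b.2)) V₀ :=
  s35x7_isUnitAt_of_sub hV hVm (s35x7_frobQuot_ne_zero τ Q hX0)
    (s35x7_frobQuot_mem τ hval Q hX hX') (s35x7_frobQuot_inv_mem τ hval Q hX hX') h

/-! ### (b) the constants -/

/-- **(b)** `algebraMap O F η ^ a`, `η ∈ Oˣ`, is a unit at every prime of `B`. -/
theorem s35x7_const_isUnitAt (j : F) (q : Ideal ↥(s18_chart O ({j} : Set F))) [q.IsPrime]
    {η : O} (hη : IsUnit η) (a : ℤ) :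
    s34l1_IsUnitAt q (algebraMap O F η ^ a) := by
  obtain ⟨u, rfl⟩ := hη
  have h0 : algebraMap O F (((u ^ a : Oˣ) : Oˣ) : O) = algebraMap O F (u : O) ^ a := by
    have h := congrArg Units.val (map_zpow (Units.map (algebraMap O F : O →* F)) u a)
    rw [Units.val_zpow_eq_zpow_val] at h
    exact h
  rw [← h0]
  exact s34l1_isUnitAt_of_isUnit (F := F) q
    (((u ^ a : Oˣ).isUnit).map (algebraMap O ↥(s18_chart O ({j} : Set F))))

end conv

/-! ### (c) the product of the local generators -/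

section prodG

variable {K F B : Type} [Field K] [CharZero K] [Field F] [Algebra K F] [CommRing B] [IsDomain B]
  [IsNoetherianRing B] [IsIntegrallyClosed B] [Algebra B F] [IsFractionRing B F]

/-- **(c)**, abstract form (binders of `s34l1_place_main`): the product `G` of the local
generators of `f` at the horizontal primes through `n`. -/
theorem s35x7_exists_G (t : B) (ht : Transcendental K (algebraMap B F t))
    (hfin : FiniteDimensional K⟮algebraMap B F t⟯ F) (π : B)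
    (hK : ∀ c : K, ∃ x y : B, ∃ k : ℕ, y ∣ π ^ k ∧
      algebraMap K F c * algebraMap B F y = algebraMap B F x)
    (n : Ideal B) (m : ℕ) (f : F) (hf : f ≠ 0) (hdiv : ∀ P : Place K F, (m : ℤ) ∣ P.ord f)
    (hLG : ∀ q : Ideal B, s34l1_IsHor π n q → ∀ Q : Place K F, s34l1_IsPlaceOf q Q →
      Q.ord f ≠ 0 → ∃ g : F, s34l1_IsLocGen π n q g) :
    ∃ G : F, G ≠ 0 ∧ ∀ q : Ideal B, s34l1_IsHor π n q → s34l1_IsUnitAt q (f / G ^ m) := by
  classical
  have hinj : Function.Injective (algebraMap B F) := IsFractionRing.injective B F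
  have hpl : ∀ i : {q : Ideal B // s34l1_IsHor π n q}, ∃ Q : Place K F,
      s34l1_IsPlaceOf i.1 Q := fun i =>
    s34l1_exists_place K F B t ht hfin π hK i.1 i.2.prime i.2.ne_bot i.2.notMem
  choose Q hQ using hpl
  have hfinS : {i : {q : Ideal B // s34l1_IsHor π n q} | (Q i).ord f ≠ 0}.Finite := by
    have hfin' := s34l1_hor_finite π n f hf
    have hsub : {i : {q : Ideal B // s34l1_IsHor π n q} | (Q i).ord f ≠ 0} ⊆
        Subtype.val ⁻¹' {q : Ideal B | s34l1_IsHor π n q ∧ ¬ s34l1_IsUnitAt q f} := by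
      intro i hi
      refine ⟨i.2, fun hu => hi ?_⟩
      exact s34l1_ord_of_isUnitAt hinj (hQ i) hu
    exact (hfin'.preimage Subtype.val_injective.injOn).subset hsub
  have hloc : ∀ i : {q : Ideal B // s34l1_IsHor π n q}, (Q i).ord f ≠ 0 →
      ∃ g : F, g ≠ 0 ∧ (Q i).ord g = 1 ∧ ∀ j, j ≠ i → (Q j).ord g = 0 := by
    intro i hi
    obtain ⟨g, hg⟩ := hLG i.1 i.2 (Q i) (hQ i) hi
    refine ⟨g, hg.1, s34l1_locGen_ord hinj (hQ i) i.2.le i.2.notMem hg, ?_⟩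
    intro j hj
    exact s34l1_locGen_ord' hinj i.2.ne_bot hg (hQ j) j.2.le j.2.notMem j.2.ht i.2.prime
      (fun h => hj (Subtype.ext h))
  obtain ⟨G, hG0, hG⟩ := s34l1_prod (ι := {q : Ideal B // s34l1_IsHor π n q})
    (fun i x => (Q i).ord x) (fun i x y hx hy => (Q i).ord_mul hx hy) m f hf
    (fun i => hdiv (Q i)) hfinS hloc
  refine ⟨G, hG0, fun q hq => ?_⟩
  exact s34l1_isUnitAt_of_ord hinj (hQ ⟨q, hq⟩) (div_ne_zero hf (pow_ne_zero m hG0))
    (hG ⟨q, hq⟩)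

end prodG

section chartG

variable {O K : Type} {F : Type} [CommRing O] [IsDomain O] [IsDiscreteValuationRing O]
  [Field K] [CharZero K] [Algebra O K] [IsFractionRing O K] [Field F] [Algebra K F]
  [Algebra O F] [IsScalarTower O K F]

/-- **(c)** on the chart of `j` (binders of `s35k_ChartStatement`): for `f ≠ 0` with all orders
divisible by `m` and all zeros and poles of degree `1`, at every closed point `n` of the special
fibre there is `G ≠ 0` such that `f / G ^ m` is a unit at all horizontal primes through `n`. -/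
theorem s35x7_exists_G_chart (j : F) (htr : Transcendental K j)
    (hfin : FiniteDimensional ↥K⟮j⟯ F) (ϖ : O) (hϖ : Irreducible ϖ)
    (hLG : s34l1_LocStatementAt O K j ϖ)
    (n : Ideal ↥(s18_chart O ({j} : Set F))) (hn : n.IsMaximal)
    (hπn : algebraMap O ↥(s18_chart O ({j} : Set F)) ϖ ∈ n)
    (m : ℕ) (f : F) (hf : f ≠ 0) (hdiv : ∀ P : Place K F, (m : ℤ) ∣ P.ord f)
    (hdeg : ∀ P : Place K F, P.ord f ≠ 0 → P.deg = 1) :
    ∃ G : F, G ≠ 0 ∧ ∀ q : Ideal ↥(s18_chart O ({j} : Set F)),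
      s34l1_IsHor (algebraMap O ↥(s18_chart O ({j} : Set F)) ϖ) n q →
        s34l1_IsUnitAt q (f / G ^ m) := by
  haveI hnoeth : IsNoetherianRing ↥(s18_chart O ({j} : Set F)) := s35k_noeth htr hfin
  haveI hfrac : IsFractionRing ↥(s18_chart O ({j} : Set F)) F := s35k_frac htr hfin
  haveI hic : IsIntegrallyClosed ↥(s18_chart O ({j} : Set F)) :=
    s34l1_chart_isIntegrallyClosed j hfrac
  have hj : j ∈ s18_chart O ({j} : Set F) := s18p_j_mem O j
  exact s35x7_exists_G (K := K) (⟨j, hj⟩ : ↥(s18_chart O ({j} : Set F))) htr hfin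
    (algebraMap O ↥(s18_chart O ({j} : Set F)) ϖ) (fun c => s35k_hK hϖ j c) n m f hf hdiv
    (fun q hq Q hQ hQf => hLG n hn hπn q hq Q hQ (hdeg Q hQf))

end chartG

end Fermat.Agent.S35
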