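/-
S35, leaf [NF-NODE], THE MODEL INSTANCE (helper22).  Prefix `s35nd_`.

  `theorem s35nd_model_main : s35nd_ModelStatement`   (hypothesis-free)

At the level `M q` over the discrete valuation ring `O` of the number field `K0 ⊆ Q̄`
(`q ∤ M`, `4 ∣ M` or `9 ∣ M`, `O` over `q`), for a Frobenius lift `σ0` of `K0`
(the clause of (NF-K)), `τ = arithmeticRingAut (σ0 * σ0)`, `σ_B = s35k_sigma τ` its restriction
to the chart `B`, `p_∞ = s34l1_centre V_∞`, `p_0 = s34l1_centre V_0` the centres on `B` of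
`V_∞ = s34g_V`, `V_0 = s34g_V0 O W_q`:

at EVERY maximal ideal `n ∋ π` of `B = chart(J)` and of `B = chart(J⁻¹)`, `J = j · j_q`,
`s35nd_At π p_∞ p_0 σ_B (q ^ 2) n` holds, i.e. (in helper18's vocabulary, `S35/NfLocBr.lean`)

* NODE: `p_∞ ≤ n`, `p_0 ≤ n`, the node datum `s34nd_IsNode`, [FROB-n] `σ_B b - b ^ (q ^ 2) ∈ n`,
  `σ_B n = n`, [BR_∞] `∃ t, s35lo_IsBranch p_∞ n t`, [BR_0] `∃ t, s35lo_IsBranch p_0 n t`,
  [GLUE] `∀ z ∈ n, ∃ s ∉ n, s * z ∈ p_∞ ⊔ p_0`;  or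
* a point of `p_∞` only: `p_∞ ≤ n`, `∃ θ ∈ p_0, θ - 1 ∈ n`, [BR_∞];  or
* a point of `p_0` only: `p_0 ≤ n`, `∃ θ ∈ p_∞, θ - 1 ∈ n`, [BR_0].

The proofs `hB`, `hB0` (the chart lies in `V_∞`, `V_0`) and `hmem`, `hsymm` (`τ B = B`) are
universally quantified, so the statement applies to the centres / the `σ_B` of any consumer.
-/
import Mathlib
import Fermat.Agent.S34.SsNodeK
import Fermat.Agent.S35.NfFrobModel
import Fermat.Agent.S35.NfFrobB
import Fermat.Agent.S35.NfNodeGen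

set_option autoImplicit false
set_option linter.unusedSectionVars false
set_option linter.unusedVariables false
set_option linter.style.haveILetI false
set_option warn.classDefReducibility false
set_option synthInstance.maxHeartbeats 400000
set_option maxHeartbeats 1000000

open AlgebraicCurve ModularCurve IntermediateField
open Fermat.Agent.S18 Fermat.Agent.S34

noncomputable section

namespace Fermat.Agent.S35

/-- **[NF-NODE] at the model**: the refined dichotomy at every closed point of the special fibre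
of both charts. -/
def s35nd_ModelStatement : Prop :=
  ∀ (M q : ℕ) [NeZero M] [NeZero q] [NeZero (M * q)] (hq : q.Prime) (hqM : ¬ q ∣ M),
    (4 ∣ M ∨ 9 ∣ M) →
    ∀ (K0 : IntermediateField ℚ (AlgebraicClosure ℚ)), FiniteDimensional ℚ ↥K0 →
    ∀ (O : ValuationSubring ↥K0) [IsDiscreteValuationRing ↥O],
      (q : ↥O) ∈ IsLocalRing.maximalIdeal ↥O → ∀ ϖ : ↥O, Irreducible ϖ →
    ∀ σ0 : ↥K0 ≃ₐ[ℚ] ↥K0,
      (∀ x : ↥O, ∃ y : ↥O, y ∈ IsLocalRing.maximalIdeal ↥O ∧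
        (y : ↥K0) = σ0 (x : ↥K0) - (x : ↥K0) ^ q) →
      letI := s18_algOF ↥O ↥K0 (M * q)
      (∀ (hB : ∀ b : ↥(s18_chart ↥O ({s34km_J M q K0} : Set ↥(s18_F ↥K0 (M * q)))),
            algebraMap _ ↥(s18_F ↥K0 (M * q)) b ∈ s34g_V ↥O ↥K0 (M * q))
          (hB0 : ∀ b : ↥(s18_chart ↥O ({s34km_J M q K0} : Set ↥(s18_F ↥K0 (M * q)))),
            algebraMap _ ↥(s18_F ↥K0 (M * q)) b ∈ s34g_V0 ↥O (s34w_W M q K0 hq hqM))
          (hmem : ∀ b ∈ s18_chart ↥O ({s34km_J M q K0} : Set ↥(s18_F ↥K0 (M * q))),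
            arithmeticRingAut (modularFunctionFieldFull (M * q)) (σ0 * σ0) b ∈
              s18_chart ↥O ({s34km_J M q K0} : Set ↥(s18_F ↥K0 (M * q))))
          (hsymm : ∀ b ∈ s18_chart ↥O ({s34km_J M q K0} : Set ↥(s18_F ↥K0 (M * q))),
            (arithmeticRingAut (modularFunctionFieldFull (M * q)) (σ0 * σ0)).symm b ∈
              s18_chart ↥O ({s34km_J M q K0} : Set ↥(s18_F ↥K0 (M * q))))
          (n : Ideal ↥(s18_chart ↥O ({s34km_J M q K0} : Set ↥(s18_F ↥K0 (M * q))))),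
          n.IsMaximal →
          algebraMap ↥O ↥(s18_chart ↥O ({s34km_J M q K0} : Set ↥(s18_F ↥K0 (M * q)))) ϖ ∈ n →
          s35nd_At
            (algebraMap ↥O ↥(s18_chart ↥O ({s34km_J M q K0} : Set ↥(s18_F ↥K0 (M * q)))) ϖ)
            (s34l1_centre (s34g_V ↥O ↥K0 (M * q)) hB)
            (s34l1_centre (s34g_V0 ↥O (s34w_W M q K0 hq hqM)) hB0)
            (s35k_sigma (arithmeticRingAut (modularFunctionFieldFull (M * q)) (σ0 * σ0))
              hmem hsymm)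
            (q ^ 2) n) ∧
      (∀ (hB : ∀ b : ↥(s18_chart ↥O ({(s34km_J M q K0)⁻¹} : Set ↥(s18_F ↥K0 (M * q)))),
            algebraMap _ ↥(s18_F ↥K0 (M * q)) b ∈ s34g_V ↥O ↥K0 (M * q))
          (hB0 : ∀ b : ↥(s18_chart ↥O ({(s34km_J M q K0)⁻¹} : Set ↥(s18_F ↥K0 (M * q)))),
            algebraMap _ ↥(s18_F ↥K0 (M * q)) b ∈ s34g_V0 ↥O (s34w_W M q K0 hq hqM))
          (hmem : ∀ b ∈ s18_chart ↥O ({(s34km_J M q K0)⁻¹} : Set ↥(s18_F ↥K0 (M * q))),
            arithmeticRingAut (modularFunctionFieldFull (M * q)) (σ0 * σ0) b ∈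
              s18_chart ↥O ({(s34km_J M q K0)⁻¹} : Set ↥(s18_F ↥K0 (M * q))))
          (hsymm : ∀ b ∈ s18_chart ↥O ({(s34km_J M q K0)⁻¹} : Set ↥(s18_F ↥K0 (M * q))),
            (arithmeticRingAut (modularFunctionFieldFull (M * q)) (σ0 * σ0)).symm b ∈
              s18_chart ↥O ({(s34km_J M q K0)⁻¹} : Set ↥(s18_F ↥K0 (M * q))))
          (n : Ideal ↥(s18_chart ↥O ({(s34km_J M q K0)⁻¹} : Set ↥(s18_F ↥K0 (M * q))))),
          n.IsMaximal →
          algebraMap ↥O ↥(s18_chart ↥O ({(s34km_J M q K0)⁻¹} : Set ↥(s18_F ↥K0 (M * q)))) ϖ ∈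
            n →
          s35nd_At
            (algebraMap ↥O ↥(s18_chart ↥O ({(s34km_J M q K0)⁻¹} : Set ↥(s18_F ↥K0 (M * q)))) ϖ)
            (s34l1_centre (s34g_V ↥O ↥K0 (M * q)) hB)
            (s34l1_centre (s34g_V0 ↥O (s34w_W M q K0 hq hqM)) hB0)
            (s35k_sigma (arithmeticRingAut (modularFunctionFieldFull (M * q)) (σ0 * σ0))
              hmem hsymm)
            (q ^ 2) n)

/-- **[NF-NODE] at the model.** -/
theorem s35nd_model_main : s35nd_ModelStatement := by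
  intro M q _ _ _ hq hqM h49 K0 hK0 O _ hqO ϖ hϖ σ0 hσ0
  haveI : Fact q.Prime := ⟨hq⟩
  haveI : Finite (IsLocalRing.ResidueField ↥O) := s34nd_residue_finite (K := ↥K0) O q hqO
  haveI := s35fr_charP (O := ↥O) hq hqO
  letI := s18_algOF ↥O ↥K0 M
  haveI := s18_towerOF ↥O ↥K0 M
  letI := s18_algOF ↥O ↥K0 (M * q)
  have hgood := s34sb_model M q K0 hK0 O hq hqM h49 hqO
  have hDed := s34nd_fibre_dedekind ↥O ↥K0 ↥(s18_F ↥K0 M) hgood
  have hDed' := s34nd_fibre_dedekind ↥O ↥K0 ↥(s18_F ↥K0 M) (s18b_symm hgood)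
  obtain ⟨hint, hint'⟩ := s34iw_int_main M q hq hqM h49 K0 hK0 O hqO
  have hW := s34iw_kmain M q hq hqM h49 K0 hK0 O hqO ϖ hϖ
  have hσ := s35fr_model_induces_sq hq hqO σ0 hσ0
  have hφ : ∀ c : IsLocalRing.ResidueField ↥O,
      ((frobenius (IsLocalRing.ResidueField ↥O) q).comp
        (frobenius (IsLocalRing.ResidueField ↥O) q)) c = c ^ q ^ 2 := s35fr_psi_apply q
  refine ⟨fun hB hB0 hmem hsymm n hn hπn => ?_, fun hB hB0 hmem hsymm n hn hπn => ?_⟩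
  · exact s35nd_fin M q hqM hqO (s34w_W M q K0 hq hqM) (s34w_W_W hq hqM)
      (s34w_W_alpha hq hqM) (s34w_W_j hq hqM) (s34w_W_jq hq hqM) hϖ (σ0 * σ0) _ hσ hφ
      hint hint' hDed hW.sat hB hB0 hmem hsymm n hn hπn
  · exact s35nd_inf M q hqM hqO (s34w_W M q K0 hq hqM) (s34w_W_W hq hqM)
      (s34w_W_alpha hq hqM) (s34w_W_j hq hqM) (s34w_W_jq hq hqM) hϖ (σ0 * σ0) _ hσ hφ
      hint hint' hDed' hW.sat' hB hB0 hmem hsymm n hn hπn

end Fermat.Agent.S35
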