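/-
S35, (NF-K), cut (K1) (owner: helper22).  Prefix `s35kd_`.

  `theorem s35k_dich_main : s35k_DichStatement`     (VERBATIM `S35/NfKChartDefs.lean`)

THE REFINED DICHOTOMY AT THE MODEL, in helper29's vocabulary: on the chart of `t = J` and of
`t = J⁻¹`, for ANY ideals `p₁`, `p₂` with `b ∈ p₁ ↔ b ∈ 𝔪(V_∞)`, `b ∈ p₂ ↔ b ∈ 𝔪(V_0)` and ANY
automorphism `σ` of the chart with `σ b = τ b`, `τ = arithmeticRingAut (σ0 * σ0)`, every maximal
ideal `n ∋ π` satisfies `s35k_IsDich σ (q ^ 2) p₁ p₂ n`.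

A corollary of `s35nd_model_main` (`S35/NfNodeModel.lean`): `p₁`, `p₂` are the centres
`s34l1_centre` of `V_∞`, `V_0` (`Ideal.ext`), `σ = s35k_sigma τ` (`RingEquiv.ext`), and
`s35nd_At ⟹ s35k_IsDich` (`s35kd_isDich_of_at`).
-/
import Mathlib
import Fermat.Agent.S35.NfKChartDefs
import Fermat.Agent.S35.NfNodeModel

set_option autoImplicit false
set_option linter.unusedSectionVars false
set_option linter.unusedVariables false
set_option linter.style.haveILetI false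
set_option warn.classDefReducibility false
set_option synthInstance.maxHeartbeats 400000
set_option maxHeartbeats 1000000

open AlgebraicCurve ModularCurve IntermediateField
open Fermat.Agent.S18 Fermat.Agent.S34

noncomputable section

namespace Fermat.Agent.S35

section abs

variable {B : Type*} [CommRing B]

/-- `s35lo_IsBranch` gives the raw [BR]. -/
theorem s35kd_isBr_of_isBranch {p n : Ideal B} (h : ∃ t : B, s35lo_IsBranch p n t) :
    s35k_IsBr p n := by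
  obtain ⟨t, ht⟩ := h
  exact ⟨t, ht.mem, ht.unif⟩

/-- **`s35nd_At ⟹ s35k_IsDich`.** -/
theorem s35kd_isDich_of_at {π : B} {p₁ p₂ : Ideal B} {σ : B ≃+* B} {Q : ℕ} {n : Ideal B}
    (h : s35nd_At π p₁ p₂ σ Q n) : s35k_IsDich σ Q p₁ p₂ n := by
  rcases h with ⟨⟨x, y, hxy⟩, h1, h2, hfr, -, hb1, hb2, hglue⟩ | ⟨h1, hθ, hb⟩ | ⟨h2, hθ, hb⟩
  · left
    exact ⟨h1, h2, ⟨x, hxy.x_mem, hxy.x_not_mem⟩, ⟨y, hxy.y_mem, hxy.y_not_mem⟩, hglue, hfr,
      s35kd_isBr_of_isBranch hb1, s35kd_isBr_of_isBranch hb2⟩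
  · right; left
    exact ⟨h1, hθ, s35kd_isBr_of_isBranch hb⟩
  · right; right
    exact ⟨h2, hθ, s35kd_isBr_of_isBranch hb⟩

end abs

/-- **(K1)** the refined dichotomy at the model, both charts. -/
theorem s35k_dich_main : s35k_DichStatement := by
  intro M q _ _ _ hq hqM h49 K0 hK0 O _ hqO ϖ hϖ σ0 hσ0
  letI := s18_algOF ↥O ↥K0 (M * q)
  intro t ht p₁ p₂ σ hp₁ hp₂ hσ n hn hπn
  haveI : Fact q.Prime := ⟨hq⟩
  have hmodel := s35nd_model_main M q hq hqM h49 K0 hK0 O hqO ϖ hϖ σ0 hσ0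
  have hfrob := (s35fr_model_main M q hq hqM K0 O hqO ϖ hϖ σ0 hσ0).1
  have hJ2 := s34g_J_mem_W2 (O := ↥O) q (dvd_mul_left q M) (s34w_W M q K0 hq hqM)
    (s34w_W_j hq hqM) (s34w_W_jq hq hqM)
  have hJinv2 := s34g_J_inv_mem_W2 (O := ↥O) q (dvd_mul_left q M) (s34w_W M q K0 hq hqM)
    (s34w_W_j hq hqM) (s34w_W_jq hq hqM)
  -- the chart lies in `V_∞` and in `V_0`
  have htV : t ∈ s34g_V ↥O ↥K0 (M * q) := by
    rcases ht with rfl | rfl
    · exact hJ2.1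
    · exact hJinv2.1
  have htV0 : t ∈ s34g_V0 ↥O (s34w_W M q K0 hq hqM) := by
    rcases ht with rfl | rfl
    · exact hJ2.2
    · exact hJinv2.2
  have hB : ∀ b : ↥(s18_chart ↥O ({t} : Set ↥(s18_F ↥K0 (M * q)))),
      algebraMap ↥(s18_chart ↥O ({t} : Set ↥(s18_F ↥K0 (M * q)))) ↥(s18_F ↥K0 (M * q)) b ∈
        s34g_V ↥O ↥K0 (M * q) := fun b =>
    s34g_chart_le {t} (fun s hs => by rw [Set.mem_singleton_iff.1 hs]; exact htV) _ b.2
  have hB0 : ∀ b : ↥(s18_chart ↥O ({t} : Set ↥(s18_F ↥K0 (M * q)))),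
      algebraMap ↥(s18_chart ↥O ({t} : Set ↥(s18_F ↥K0 (M * q)))) ↥(s18_F ↥K0 (M * q)) b ∈
        s34g_V0 ↥O (s34w_W M q K0 hq hqM) := fun b =>
    s34g_chart_le0 (O := ↥O) (W := s34w_W M q K0 hq hqM) {t}
      (fun s hs => by rw [Set.mem_singleton_iff.1 hs]; exact htV0) _ b.2
  -- `τ` stabilises the chart
  have hmem : ∀ b ∈ s18_chart ↥O ({t} : Set ↥(s18_F ↥K0 (M * q))),
      arithmeticRingAut (modularFunctionFieldFull (M * q)) (σ0 * σ0) b ∈
        s18_chart ↥O ({t} : Set ↥(s18_F ↥K0 (M * q))) := by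
    rcases ht with rfl | rfl
    · exact hfrob.1.mem
    · exact hfrob.2.mem
  have hsymm : ∀ b ∈ s18_chart ↥O ({t} : Set ↥(s18_F ↥K0 (M * q))),
      (arithmeticRingAut (modularFunctionFieldFull (M * q)) (σ0 * σ0)).symm b ∈
        s18_chart ↥O ({t} : Set ↥(s18_F ↥K0 (M * q))) := by
    rcases ht with rfl | rfl
    · exact hfrob.1.symm_mem
    · exact hfrob.2.symm_mem
  -- the identifications
  have e₁ : p₁ = s34l1_centre (s34g_V ↥O ↥K0 (M * q)) hB := by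
    ext b
    rw [hp₁, s34l1_mem_centre]
    rfl
  have e₂ : p₂ = s34l1_centre (s34g_V0 ↥O (s34w_W M q K0 hq hqM)) hB0 := by
    ext b
    rw [hp₂, s34l1_mem_centre]
    rfl
  have eσ : σ = s35k_sigma (arithmeticRingAut (modularFunctionFieldFull (M * q)) (σ0 * σ0))
      hmem hsymm :=
    RingEquiv.ext (fun b => Subtype.ext (hσ b))
  rw [e₁, e₂, eσ]
  apply s35kd_isDich_of_at (π := algebraMap ↥O
    ↥(s18_chart ↥O ({t} : Set ↥(s18_F ↥K0 (M * q)))) ϖ)
  rcases ht with rfl | rfl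
  · exact hmodel.1 hB hB0 hmem hsymm n hn hπn
  · exact hmodel.2 hB hB0 hmem hsymm n hn hπn

end Fermat.Agent.S35
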