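/-
S35, leaf [NF-LOC], cut (c)-NODE, part 2 (owner: helper24).  Prefix `s35lp_`.

* `s35lp_hUnit2`     : (N2) [LOC-UNIT] at a node: a function which is a unit at the two branches and
                       at the horizontal primes through `n` is a unit at `n`;
* `s35lp_node_chart` : THE NODE CASE OF THE CHART THEOREM `s35k_ChartStatement`, in its binders:
                       one chart `B = chart(j)` over a discrete valuation ring `O`, the vertical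
                       valuation rings `V₁`, `V₂` with centres `p₁`, `p₂`, `τ` with
                       `s35fr_IsFrobTau`, a closed point `n` of the special fibre on BOTH branches
                       with the data of the first disjunct of `s35k_IsDich`, and the data of
                       [NF-RED] in the valuation spelling.  Conclusion: the body of
                       `s34l_LocGen O j ϖ W (u / V₀ ^ m) m` at `n`.
-/
import Mathlib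
import Fermat.Agent.S35.NfKChartDefs
import Fermat.Agent.S35.NfLocVal
import Fermat.Agent.S35.NfLocAdapt
import Fermat.Agent.S35.NfLocNodeP

set_option autoImplicit false
set_option linter.unusedSectionVars false
set_option linter.unusedVariables false
set_option linter.style.haveILetI false

open AlgebraicCurve ModularCurve IntermediateField

noncomputable section

namespace Fermat.Agent.S35

open Fermat.Agent.S18 Fermat.Agent.S34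

section hUnit

variable {B F : Type} [CommRing B] [Field F] [Algebra B F]

/-- **(N2)** [LOC-UNIT] at a node. -/
theorem s35lp_hUnit2 (π : B) (n p₁ p₂ : Ideal B)
    (hV : ∀ q : Ideal B, q.IsPrime → q ≤ n → π ∈ q → s34l1_IsHt1 q → q = p₁ ∨ q = p₂)
    (hU : ∀ e : F, (∀ 𝔮 : Ideal B, 𝔮.IsPrime → 𝔮 ≤ n → 𝔮 ≠ ⊥ →
        (∀ 𝔮' : Ideal B, 𝔮'.IsPrime → 𝔮' ≤ 𝔮 → 𝔮' = ⊥ ∨ 𝔮' = 𝔮) →
        ∃ y z : B, y ∉ 𝔮 ∧ z ∉ 𝔮 ∧ e * algebraMap B F z = algebraMap B F y) →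
      ∃ y z : B, y ∉ n ∧ z ∉ n ∧ e * algebraMap B F z = algebraMap B F y)
    (x : F) (h1 : s34l1_IsUnitAt p₁ x) (h2 : s34l1_IsUnitAt p₂ x)
    (hhor : ∀ q : Ideal B, s34l1_IsHor π n q → s34l1_IsUnitAt q x) :
    s34l1_IsUnitAt n x := by
  obtain ⟨y, z, hy, hz, h⟩ := hU x (fun 𝔮 h𝔮 hle h0 hht => by
    by_cases hπ𝔮 : π ∈ 𝔮
    · rcases hV 𝔮 h𝔮 hle hπ𝔮 hht with e | e
      · rw [e]; exact h1
      · rw [e]; exact h2
    · exact hhor 𝔮 ⟨h𝔮, hle, h0, hπ𝔮, hht⟩)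
  exact ⟨y, z, hy, hz, h⟩

end hUnit

section chart

variable {O K F : Type} [CommRing O] [IsDomain O] [IsDiscreteValuationRing O]
  [Field K] [CharZero K] [Algebra O K] [IsFractionRing O K] [Field F] [Algebra K F]
  [Algebra O F] [IsScalarTower O K F]

/-- **The node case of the chart theorem.** -/
theorem s35lp_node_chart (j : F) (htr : Transcendental K j) (hfin : FiniteDimensional ↥K⟮j⟯ F)
    (ϖ : O) (hϖ : Irreducible ϖ) (W : Subring F) (V₁ V₂ : ValuationSubring F)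
    (hV : s34l1_IsVert O j ϖ W {V₁, V₂}) (hLG : s34l1_LocStatementAt O K j ϖ)
    (τ : F ≃+* F) (hτ : s35fr_IsFrobTau O j ϖ τ {V₁, V₂}) (Q : ℕ) (hQ : Q ≠ 0)
    (p₁ p₂ : Ideal ↥(s18_chart O ({j} : Set F)))
    (σ : ↥(s18_chart O ({j} : Set F)) ≃+* ↥(s18_chart O ({j} : Set F)))
    (hp₁ : ∀ b : ↥(s18_chart O ({j} : Set F)), b ∈ p₁ ↔ (b : F) ∈ V₁.nonunits)
    (hp₂ : ∀ b : ↥(s18_chart O ({j} : Set F)), b ∈ p₂ ↔ (b : F) ∈ V₂.nonunits)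
    (hσ : ∀ b : ↥(s18_chart O ({j} : Set F)),
      ((σ b : ↥(s18_chart O ({j} : Set F))) : F) = τ (b : F))
    (n : Ideal ↥(s18_chart O ({j} : Set F))) (hn : n.IsMaximal)
    (hπn : algebraMap O ↥(s18_chart O ({j} : Set F)) ϖ ∈ n)
    (h1 : p₁ ≤ n) (h2 : p₂ ≤ n)
    (hx : ∃ x : ↥(s18_chart O ({j} : Set F)), x ∈ p₂ ∧ x ∉ p₁)
    (hy : ∃ y : ↥(s18_chart O ({j} : Set F)), y ∈ p₁ ∧ y ∉ p₂)
    (hglue : ∀ z ∈ n, ∃ s : ↥(s18_chart O ({j} : Set F)), s ∉ n ∧ s * z ∈ p₁ ⊔ p₂)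
    (hF : ∀ b : ↥(s18_chart O ({j} : Set F)), σ b - b ^ Q ∈ n)
    (hBr₁ : s35k_IsBr p₁ n) (hBr₂ : s35k_IsBr p₂ n)
    (m : ℕ) (hm : m ≠ 0) (f : F) (hf : f ≠ 0)
    (hdiv : ∀ P : Place K F, (m : ℤ) ∣ P.ord f)
    (hdeg : ∀ P : Place K F, P.ord f ≠ 0 → P.deg = 1)
    (η₁ η₂ : O) (a₁ a₂ : ℤ) (X₁ X₂ y₁ y₂ V₀ : F) (hη₁ : IsUnit η₁) (hη₂ : IsUnit η₂)
    (hX₁ : X₁ ∈ V₁) (hX₁' : X₁⁻¹ ∈ V₁) (hX₂ : X₂ ∈ V₂) (hX₂' : X₂⁻¹ ∈ V₂)
    (hy₁ : y₁ ∈ V₁) (hy₂ : y₂ ∈ V₂)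
    (hred₁ : τ f / f = algebraMap O F η₁ ^ a₁ * X₁ ^ m * (1 + algebraMap O F ϖ * y₁))
    (hred₂ : τ f / f = algebraMap O F η₂ ^ a₂ * X₂ ^ m * (1 + algebraMap O F ϖ * y₂))
    (happr₁ : V₀ - τ X₁ / X₁ ^ Q ∈ V₁.nonunits)
    (happr₂ : V₀ - τ X₂ / X₂ ^ Q ∈ V₂.nonunits) :
    ∃ g : F, g ≠ 0 ∧ g - 1 ∈ s34l_gauss O ϖ W 1 ∧
      ∃ c d : ↥(s18_chart O ({j} : Set F)), c ∉ n ∧ d ∉ n ∧
        g ^ m * (c : F) = (τ (τ f) * f ^ Q / τ f ^ (Q + 1) / V₀ ^ m) * (d : F) := by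
  classical
  haveI hnoeth : IsNoetherianRing ↥(s18_chart O ({j} : Set F)) := s35k_noeth htr hfin
  haveI hfrac : IsFractionRing ↥(s18_chart O ({j} : Set F)) F := s35k_frac htr hfin
  haveI hic : IsIntegrallyClosed ↥(s18_chart O ({j} : Set F)) :=
    s34l1_chart_isIntegrallyClosed j hfrac
  haveI hnp : n.IsPrime := hn.isPrime
  have hϖ0 : algebraMap O ↥(s18_chart O ({j} : Set F)) ϖ ≠ 0 := s35k_pi_ne_zero K hϖ j
  have hm₁ : V₁ ∈ ({V₁, V₂} : Set (ValuationSubring F)) := Set.mem_insert V₁ {V₂}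
  have hm₂ : V₂ ∈ ({V₁, V₂} : Set (ValuationSubring F)) :=
    Set.mem_insert_of_mem V₁ (Set.mem_singleton V₂)
  have hVB₁ : ∀ b : ↥(s18_chart O ({j} : Set F)),
      algebraMap ↥(s18_chart O ({j} : Set F)) F b ∈ V₁ := fun b => hV.chart_le V₁ hm₁ b b.2
  have hVB₂ : ∀ b : ↥(s18_chart O ({j} : Set F)),
      algebraMap ↥(s18_chart O ({j} : Set F)) F b ∈ V₂ := fun b => hV.chart_le V₂ hm₂ b b.2
  obtain rfl : p₁ = s34l1_centre V₁ hVB₁ := Ideal.ext fun b => by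
    rw [hp₁, s34l1_mem_centre]; rfl
  obtain rfl : p₂ = s34l1_centre V₂ hVB₂ := Ideal.ext fun b => by
    rw [hp₂, s34l1_mem_centre]; rfl
  haveI hpp₁ : (s34l1_centre V₁ hVB₁).IsPrime := s34l1_centre_isPrime V₁ hVB₁
  haveI hpp₂ : (s34l1_centre V₂ hVB₂).IsPrime := s34l1_centre_isPrime V₂ hVB₂
  -- the automorphism
  have hστ : ∀ b : ↥(s18_chart O ({j} : Set F)),
      τ (algebraMap ↥(s18_chart O ({j} : Set F)) F b) =
        algebraMap ↥(s18_chart O ({j} : Set F)) F (σ b) := fun b => (hσ b).symm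
  obtain ⟨η, hη, hτπ⟩ := hτ.pi
  have hσπ : σ (algebraMap O ↥(s18_chart O ({j} : Set F)) ϖ) =
      algebraMap O ↥(s18_chart O ({j} : Set F)) η *
        algebraMap O ↥(s18_chart O ({j} : Set F)) ϖ :=
    Subtype.ext ((hσ _).trans hτπ)
  have hηB : IsUnit (algebraMap O ↥(s18_chart O ({j} : Set F)) η) := hη.map _
  -- the two centres
  have hπV₁ : algebraMap ↥(s18_chart O ({j} : Set F)) F
      (algebraMap O ↥(s18_chart O ({j} : Set F)) ϖ) ∈ V₁.nonunits := hV.pi V₁ hm₁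
  have hπV₂ : algebraMap ↥(s18_chart O ({j} : Set F)) F
      (algebraMap O ↥(s18_chart O ({j} : Set F)) ϖ) ∈ V₂.nonunits := hV.pi V₂ hm₂
  have hπ₁ : algebraMap O ↥(s18_chart O ({j} : Set F)) ϖ ∈ s34l1_centre V₁ hVB₁ :=
    (s34l1_mem_centre V₁ hVB₁ _).mpr hπV₁
  have hπ₂ : algebraMap O ↥(s18_chart O ({j} : Set F)) ϖ ∈ s34l1_centre V₂ hVB₂ :=
    (s34l1_mem_centre V₂ hVB₂ _).mpr hπV₂
  have hDVR₁ := s35k_centres_dvr hV _ (s35k_centre_mem hV hm₁)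
  have hDVR₂ := s35k_centres_dvr hV _ (s35k_centre_mem hV hm₂)
  have hσp₁ : ∀ b : ↥(s18_chart O ({j} : Set F)),
      σ b ∈ s34l1_centre V₁ hVB₁ ↔ b ∈ s34l1_centre V₁ hVB₁ := by
    intro b
    rw [s34l1_mem_centre, s34l1_mem_centre]
    have := hτ.nonunits V₁ hm₁ (b : F)
    rw [← hσ b] at this
    exact this
  have hσp₂ : ∀ b : ↥(s18_chart O ({j} : Set F)),
      σ b ∈ s34l1_centre V₂ hVB₂ ↔ b ∈ s34l1_centre V₂ hVB₂ := by
    intro b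
    rw [s34l1_mem_centre, s34l1_mem_centre]
    have := hτ.nonunits V₂ hm₂ (b : F)
    rw [← hσ b] at this
    exact this
  -- the branches
  obtain ⟨x, hx2, hx1⟩ := hx
  obtain ⟨y, hy1, hy2⟩ := hy
  obtain ⟨t₁, ht₁n, hun₁⟩ := hBr₁
  obtain ⟨t₂, ht₂n, hun₂⟩ := hBr₂
  have hB₁ : s35lo_IsBranch (s34l1_centre V₁ hVB₁) n t₁ := by
    rcases s35lo_isBranch_or_le _ n h1 ht₁n hun₁ with h | h
    · exact h
    · exact absurd (h (h2 hx2)) hx1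
  have hB₂ : s35lo_IsBranch (s34l1_centre V₂ hVB₂) n t₂ := by
    rcases s35lo_isBranch_or_le _ n h2 ht₂n hun₂ with h | h
    · exact h
    · exact absurd (h (h1 hy1)) hy2
  -- the vertical primes
  have hVert : ∀ q : Ideal ↥(s18_chart O ({j} : Set F)), q.IsPrime → q ≤ n →
      algebraMap O ↥(s18_chart O ({j} : Set F)) ϖ ∈ q → s34l1_IsHt1 q →
      q = s34l1_centre V₁ hVB₁ ∨ q = s34l1_centre V₂ hVB₂ := by
    intro q hq _ hπq hht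
    obtain ⟨V, hVm, hVq⟩ := hV.all q hq hπq hht
    rcases hVm with rfl | hVm
    · left
      ext b
      rw [s34l1_mem_centre]
      exact hVq b
    · have hVe : V = V₂ := hVm
      subst hVe
      right
      ext b
      rw [s34l1_mem_centre]
      exact hVq b
  have hU := s35k_hU (K := K) htr hfin hϖ n hπn
  have hj : j ∈ s18_chart O ({j} : Set F) := s18p_j_mem O j
  -- the data of [NF-RED]
  have hτf : τ f ≠ 0 := (map_ne_zero τ).mpr hf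
  have hD0 : τ f / f ≠ 0 := div_ne_zero hτf hf
  have hX₁0 : X₁ ≠ 0 := by
    rintro rfl
    rw [zero_pow hm, mul_zero, zero_mul] at hred₁
    exact hD0 hred₁
  have hX₂0 : X₂ ≠ 0 := by
    rintro rfl
    rw [zero_pow hm, mul_zero, zero_mul] at hred₂
    exact hD0 hred₂
  have hc₁ : s34l1_IsUnitAt n (algebraMap ↥(s18_chart O ({j} : Set F)) F
      (algebraMap O ↥(s18_chart O ({j} : Set F)) η₁) ^ a₁) :=
    s34l1_isUnitAt_zpow n (s34l1_isUnitAt_of_isUnit n (hη₁.map _)) a₁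
  have hc₂ : s34l1_IsUnitAt n (algebraMap ↥(s18_chart O ({j} : Set F)) F
      (algebraMap O ↥(s18_chart O ({j} : Set F)) η₂) ^ a₂) :=
    s34l1_isUnitAt_zpow n (s34l1_isUnitAt_of_isUnit n (hη₂.map _)) a₂
  have hred₁' : s34l1_OneMod (algebraMap O ↥(s18_chart O ({j} : Set F)) ϖ)
      (s34l1_centre V₁ hVB₁) ((τ f / f) /
        (algebraMap ↥(s18_chart O ({j} : Set F)) F
          (algebraMap O ↥(s18_chart O ({j} : Set F)) η₁) ^ a₁ * X₁ ^ m)) :=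
    s35lo_red_of_val V₁ hVB₁ _ hπV₁ (hV.unif V₁ hm₁) (hV.loc V₁ hm₁)
      (s34l1_isUnitAt_ne_zero n hc₁) hX₁0 hy₁ hred₁
  have hred₂' : s34l1_OneMod (algebraMap O ↥(s18_chart O ({j} : Set F)) ϖ)
      (s34l1_centre V₂ hVB₂) ((τ f / f) /
        (algebraMap ↥(s18_chart O ({j} : Set F)) F
          (algebraMap O ↥(s18_chart O ({j} : Set F)) η₂) ^ a₂ * X₂ ^ m)) :=
    s35lo_red_of_val V₂ hVB₂ _ hπV₂ (hV.unif V₂ hm₂) (hV.loc V₂ hm₂)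
      (s34l1_isUnitAt_ne_zero n hc₂) hX₂0 hy₂ hred₂
  have hE : ∀ (V : ValuationSubring F), V ∈ ({V₁, V₂} : Set (ValuationSubring F)) →
      ∀ X : F, X ≠ 0 → X ∈ V → X⁻¹ ∈ V → τ X / X ^ Q ≠ 0 ∧ (τ X / X ^ Q)⁻¹ ∈ V := by
    intro V hVm X hX0 hX hXi
    have hτX0 : τ X ≠ 0 := (map_ne_zero τ).mpr hX0
    refine ⟨div_ne_zero hτX0 (pow_ne_zero Q hX0), ?_⟩
    have e : (τ X / X ^ Q)⁻¹ = X ^ Q * τ X⁻¹ := by
      rw [map_inv₀]
      field_simp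
    rw [e]
    exact V.mul_mem _ _ (pow_mem hX Q) ((hτ.val V hVm X⁻¹).mpr hXi)
  have happr₁' : s34l1_OneMod (algebraMap O ↥(s18_chart O ({j} : Set F)) ϖ)
      (s34l1_centre V₁ hVB₁) (V₀ / (τ X₁ / X₁ ^ Q)) :=
    s35lo_appr_of_val V₁ hVB₁ _ hπV₁ (hV.unif V₁ hm₁) (hV.loc V₁ hm₁)
      (hE V₁ hm₁ X₁ hX₁0 hX₁ hX₁').1 (hE V₁ hm₁ X₁ hX₁0 hX₁ hX₁').2 happr₁
  have happr₂' : s34l1_OneMod (algebraMap O ↥(s18_chart O ({j} : Set F)) ϖ)
      (s34l1_centre V₂ hVB₂) (V₀ / (τ X₂ / X₂ ^ Q)) :=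
    s35lo_appr_of_val V₂ hVB₂ _ hπV₂ (hV.unif V₂ hm₂) (hV.loc V₂ hm₂)
      (hE V₂ hm₂ X₂ hX₂0 hX₂ hX₂').1 (hE V₂ hm₂ X₂ hX₂0 hX₂ hX₂').2 happr₂
  -- the place level
  obtain ⟨g, hg0, hg₁, hg₂, c, d, hc, hd, hcd⟩ :=
    s35lp_node_place (K := K) (⟨j, hj⟩ : ↥(s18_chart O ({j} : Set F))) htr hfin
      (algebraMap O ↥(s18_chart O ({j} : Set F)) ϖ) hϖ0 (s35k_hK hϖ j) τ σ
      (algebraMap O ↥(s18_chart O ({j} : Set F)) η) hστ hηB hσπ n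
      (s34l1_centre V₁ hVB₁) (s34l1_centre V₂ hVB₂) hπ₁ hπ₂ hDVR₁ hDVR₂ hσp₁ hσp₂ Q hQ hF
      t₁ t₂ hB₁ hB₂ hglue hVert hU m hm f hf hdiv
      (fun q hq P hP hPf => hLG n hn hπn q hq P hP (hdeg P hPf))
      _ _ X₁ X₂ V₀ hc₁ hc₂ hred₁' hred₂' happr₁' happr₂'
  refine ⟨g, hg0, s35k_gauss K hϖ hV g ?_, c, d, hc, hd, hcd⟩
  rintro q ⟨V, hVm, rfl⟩
  rcases hVm with rfl | hVm
  · exact hg₁
  · have hVe : V = V₂ := hVm
    subst hVe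
    exact hg₂

end chart

end Fermat.Agent.S35
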