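/-
S35, leaf [NF-LOC], the correction on the OTHER BRANCH at a smooth point (helper9).
Prefix `s35ls_`.  Mathlib + the definitions `s34l1_IsUnitAt`, `s34l1_OneMod` of
`S34/Loc1Abs.lean`.

`B` a domain with field of fractions `F`, `π ∈ B`, `π ≠ 0`, `n ∋ π` a prime ideal, `p₂ ∋ π` a
prime ideal at which `B` is a discrete valuation ring with uniformizer `π`, and `θ ∈ p₂` with
`θ - 1 ∈ n` (so `n` is NOT on the branch `p₂`).  Then for every `β ∈ Fˣ` there is a unit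
`E = d / c` of `B_n`, `c, d ∉ n`, `d - c ∈ π B` (so `E ∈ 1 + π B_n`), with
`β / E ∈ 1 + π B_{p₂}` (`s35ls_other`).

Proof: `β = a / b`, `d := θ^N + π a`, `c := θ^N + π b` with `N = ord a + ord b + 2`.
-/
import Mathlib
import Fermat.Agent.S34.Loc1Abs

set_option autoImplicit false
set_option linter.unusedSectionVars false
set_option linter.unusedVariables false

namespace Fermat.Agent.S35

open Fermat.Agent.S34

variable {B F : Type*} [CommRing B] [IsDomain B] [Field F] [Algebra B F] [IsFractionRing B F]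

/-- The order at `p`: every `b ≠ 0` of `B` is `π^k t / s` with `s, t ∉ p`. -/
theorem s35ls_exists_pow (π : B) (hπ0 : π ≠ 0) (p : Ideal B) [hp : p.IsPrime] (hπp : π ∈ p)
    (hDVR : ∀ h : F, h ≠ 0 → ∃ (c : ℤ) (h' : F), s34l1_IsUnitAt p h' ∧
      h = algebraMap B F π ^ c * h')
    (b : B) (hb : b ≠ 0) :
    ∃ (k : ℕ) (s t : B), s ∉ p ∧ t ∉ p ∧ b * s = π ^ k * t := by
  have hinj : Function.Injective (algebraMap B F) := IsFractionRing.injective B F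
  have hb' : algebraMap B F b ≠ 0 := fun h => hb (hinj (h.trans (map_zero _).symm))
  have hπ' : algebraMap B F π ≠ 0 := fun h => hπ0 (hinj (h.trans (map_zero _).symm))
  obtain ⟨c, h', ⟨a', b', ha', hb'', hab⟩, hc⟩ := hDVR (algebraMap B F b) hb'
  rcases le_or_gt 0 c with hc0 | hc0
  · obtain ⟨k, rfl⟩ := Int.eq_ofNat_of_zero_le hc0
    refine ⟨k, b', a', hb'', ha', ?_⟩
    apply hinj
    rw [map_mul, map_mul, map_pow, hc, zpow_natCast, mul_assoc, hab]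
  · exfalso
    obtain ⟨k, hk⟩ : ∃ k : ℕ, c = -((k : ℤ) + 1) := ⟨(-c - 1).toNat, by omega⟩
    -- `π^(k+1) b b' = a'`
    have h1 : π ^ (k + 1) * b * b' = a' := by
      apply hinj
      rw [map_mul, map_mul, map_pow, hc, hk, mul_assoc, mul_assoc, hab, ← mul_assoc,
        ← zpow_natCast, ← zpow_add₀ hπ']
      have : ((k + 1 : ℕ) : ℤ) + -((k : ℤ) + 1) = 0 := by push_cast; ring
      rw [this, zpow_zero, one_mul]
    apply ha'
    rw [← h1, pow_succ, mul_assoc, mul_assoc]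
    exact p.mul_mem_left _ (p.mul_mem_right _ hπp)

/-- `p B_p = π B_p`: every element of `p` is `π a / s` with `s ∉ p`. -/
theorem s35ls_mem_pi (π : B) (hπ0 : π ≠ 0) (p : Ideal B) [hp : p.IsPrime] (hπp : π ∈ p)
    (hDVR : ∀ h : F, h ≠ 0 → ∃ (c : ℤ) (h' : F), s34l1_IsUnitAt p h' ∧
      h = algebraMap B F π ^ c * h')
    (θ : B) (hθ : θ ∈ p) : ∃ s a : B, s ∉ p ∧ θ * s = π * a := by
  rcases eq_or_ne θ 0 with rfl | hθ0
  · exact ⟨1, 0, fun h => hp.ne_top ((Ideal.eq_top_iff_one p).mpr h), by simp⟩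
  obtain ⟨k, s, t, hs, ht, hst⟩ := s35ls_exists_pow (F := F) π hπ0 p hπp hDVR θ hθ0
  rcases Nat.eq_zero_or_pos k with rfl | hk
  · exfalso
    rw [pow_zero, one_mul] at hst
    exact ht (hst ▸ p.mul_mem_right s hθ)
  · refine ⟨s, π ^ (k - 1) * t, hs, ?_⟩
    rw [hst, ← mul_assoc, ← pow_succ', Nat.sub_add_cancel hk]

/-- **The correction on the other branch.** -/
theorem s35ls_other (π : B) (hπ0 : π ≠ 0) (n p₂ : Ideal B) [hn : n.IsPrime] [hp₂ : p₂.IsPrime]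
    (hπn : π ∈ n) (hπ2 : π ∈ p₂) (θ : B) (hθ2 : θ ∈ p₂) (hθn : θ - 1 ∈ n)
    (hDVR : ∀ h : F, h ≠ 0 → ∃ (c : ℤ) (h' : F), s34l1_IsUnitAt p₂ h' ∧
      h = algebraMap B F π ^ c * h')
    (β : F) (hβ : β ≠ 0) :
    ∃ c d : B, c ∉ n ∧ d ∉ n ∧ (∃ e, d - c = π * e) ∧
      s34l1_OneMod π p₂ (β * algebraMap B F c / algebraMap B F d) := by
  have hinj : Function.Injective (algebraMap B F) := IsFractionRing.injective B F
  have hinj0 : ∀ {x : B}, algebraMap B F x = 0 → x = 0 := fun h =>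
    hinj (h.trans (map_zero _).symm)
  -- `β = a₂ / b₂`
  obtain ⟨a₂, b₂, hb₂, hab⟩ := IsFractionRing.div_surjective (A := B) β
  have hb₂0 : b₂ ≠ 0 := nonZeroDivisors.ne_zero hb₂
  have hb₂' : algebraMap B F b₂ ≠ 0 := fun h => hb₂0 (hinj0 h)
  have ha₂0 : a₂ ≠ 0 := by
    rintro rfl
    rw [map_zero, zero_div] at hab
    exact hβ hab.symm
  -- the orders
  obtain ⟨k₁, s₁, t₁, hs₁, ht₁, h₁⟩ := s35ls_exists_pow (F := F) π hπ0 p₂ hπ2 hDVR a₂ ha₂0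
  obtain ⟨k₂, s₂, t₂, hs₂, ht₂, h₂⟩ := s35ls_exists_pow (F := F) π hπ0 p₂ hπ2 hDVR b₂ hb₂0
  obtain ⟨s₀, a₀, hs₀, h₀⟩ := s35ls_mem_pi (F := F) π hπ0 p₂ hπ2 hDVR θ hθ2
  set N : ℕ := k₁ + k₂ + 2 with hN
  -- `θ^N ≡ 1` modulo `n`
  have hθN : θ ^ N - 1 ∈ n := by
    have h : θ ^ N - 1 = (θ - 1) * ∑ i ∈ Finset.range N, θ ^ i := by
      rw [mul_comm]; exact (geom_sum_mul θ N).symm
    rw [h]
    exact n.mul_mem_right _ hθn
  have h1n : (1 : B) ∉ n := fun h => hn.ne_top ((Ideal.eq_top_iff_one n).mpr h)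
  have hnot : ∀ x : B, θ ^ N + π * x ∉ n := by
    intro x hx
    apply h1n
    have h : (1 : B) = (θ ^ N + π * x) - (θ ^ N - 1) - π * x := by ring
    rw [h]
    exact n.sub_mem (n.sub_mem hx hθN) (n.mul_mem_right x hπn)
  -- the denominator `d = θ^N + π a₂` has order `k₁ + 1` at `p₂`
  set y₁ : B := π ^ (k₂ + 1) * a₀ ^ N * s₁ + t₁ * s₀ ^ N with hy₁
  have hy₁p : y₁ ∉ p₂ := by
    intro h
    have h' : t₁ * s₀ ^ N ∈ p₂ := by
      have e : t₁ * s₀ ^ N = y₁ - π ^ (k₂ + 1) * a₀ ^ N * s₁ := by rw [hy₁]; ring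
      rw [e]
      refine p₂.sub_mem h ?_
      have e' : π ^ (k₂ + 1) * a₀ ^ N * s₁ = π * (π ^ k₂ * a₀ ^ N * s₁) := by ring
      rw [e']
      exact p₂.mul_mem_right _ hπ2
    rcases hp₂.mem_or_mem h' with h'' | h''
    · exact ht₁ h''
    · exact hs₀ (hp₂.mem_of_pow_mem N h'')
  have hd : (θ ^ N + π * a₂) * (s₀ ^ N * s₁) = π ^ (k₁ + 1) * y₁ := by
    have e1 : θ ^ N * s₀ ^ N = π ^ N * a₀ ^ N := by rw [← mul_pow, h₀, mul_pow]
    have e2 : π ^ N = π ^ (k₁ + 1) * π ^ (k₂ + 1) := by rw [← pow_add, hN]; congr 1; omega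
    calc (θ ^ N + π * a₂) * (s₀ ^ N * s₁)
        = θ ^ N * s₀ ^ N * s₁ + π * (a₂ * s₁) * s₀ ^ N := by ring
      _ = π ^ N * a₀ ^ N * s₁ + π * (π ^ k₁ * t₁) * s₀ ^ N := by rw [e1, h₁]
      _ = π ^ (k₁ + 1) * y₁ := by rw [e2, hy₁]; ring
  set c : B := θ ^ N + π * b₂ with hc
  set d : B := θ ^ N + π * a₂ with hdd
  have hd0 : d ≠ 0 := fun h => hnot a₂ (by rw [← hdd, h]; exact n.zero_mem)
  have hd' : algebraMap B F d ≠ 0 := fun h => hd0 (hinj0 h)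
  refine ⟨c, d, hnot b₂, hnot a₂, ⟨a₂ - b₂, by rw [hc, hdd]; ring⟩, ?_⟩
  -- `β c / d - 1 = π · (a₀^N (a₂ - b₂) s₁ s₂) / (t₂ y₁)`
  refine ⟨a₀ ^ N * (a₂ - b₂) * s₁ * s₂, t₂ * y₁,
    fun h => (hp₂.mem_or_mem h).elim ht₂ hy₁p, ?_⟩
  -- the identity in `B`
  have key : θ ^ N * (a₂ - b₂) * (t₂ * y₁) = π * (a₀ ^ N * (a₂ - b₂) * s₁ * s₂) * (b₂ * d) := by
    have hs₀N : s₀ ^ N ≠ 0 := pow_ne_zero N (fun h => hs₀ (h ▸ p₂.zero_mem))
    apply mul_right_cancel₀ hs₀N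
    have e1 : θ ^ N * s₀ ^ N = π ^ N * a₀ ^ N := by rw [← mul_pow, h₀, mul_pow]
    have e2 : π ^ N = π * π ^ k₂ * π ^ (k₁ + 1) := by
      rw [← pow_succ', ← pow_add, hN]; congr 1; omega
    calc θ ^ N * (a₂ - b₂) * (t₂ * y₁) * s₀ ^ N
        = (θ ^ N * s₀ ^ N) * (a₂ - b₂) * (t₂ * y₁) := by ring
      _ = π ^ N * a₀ ^ N * (a₂ - b₂) * (t₂ * y₁) := by rw [e1]
      _ = π * a₀ ^ N * (a₂ - b₂) * (π ^ k₂ * t₂) * (π ^ (k₁ + 1) * y₁) := by rw [e2]; ring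
      _ = π * a₀ ^ N * (a₂ - b₂) * (b₂ * s₂) * (d * (s₀ ^ N * s₁)) := by rw [h₂, hd]
      _ = π * (a₀ ^ N * (a₂ - b₂) * s₁ * s₂) * (b₂ * d) * s₀ ^ N := by ring
  have key' := congrArg (algebraMap B F) key
  simp only [map_mul, map_sub, map_pow] at key'
  have hcF : algebraMap B F c = algebraMap B F θ ^ N + algebraMap B F π * algebraMap B F b₂ := by
    rw [hc, map_add, map_mul, map_pow]
  have hdF : algebraMap B F d = algebraMap B F θ ^ N + algebraMap B F π * algebraMap B F a₂ := by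
    rw [hdd, map_add, map_mul, map_pow]
  have hbd : algebraMap B F b₂ * algebraMap B F d ≠ 0 := mul_ne_zero hb₂' hd'
  apply mul_right_cancel₀ hbd
  rw [← hab]
  simp only [map_mul, map_sub, map_pow]
  have e : (algebraMap B F a₂ / algebraMap B F b₂ * algebraMap B F c / algebraMap B F d - 1) *
      (algebraMap B F t₂ * algebraMap B F y₁) * (algebraMap B F b₂ * algebraMap B F d) =
      algebraMap B F θ ^ N * (algebraMap B F a₂ - algebraMap B F b₂) *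
        (algebraMap B F t₂ * algebraMap B F y₁) := by
    rw [hcF]
    field_simp
    rw [hdF]
    ring
  rw [e, key']

end Fermat.Agent.S35
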