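/-
S35, leaf [NF-NODE] (owner: helper22), part 1.  Prefix `s35nd_`.  Mathlib only.

THE FROBENIUS AT THE NODES, abstract form.  Setting of helper23's `S34/SsNodeCore.lean`:
`B` a commutative ring (the chart), `ρ : B → A` (`ρ = ρ∞`), `W` an involution of `B`
(Atkin-Lehner), `p∞ = ker ρ`, `p₀ = ker (ρ ∘ W)`, `Φ : A → A` a ring endomorphism (`T ↦ T^q`)
with the lifting property `∀ b, ∃ b', ρ b' = ρ b ∧ ρ (W b') = Φ (ρ b)`.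
NEW: `σ : B → B` (the square of a Frobenius lift, acting on the coefficients) and `ψ : A → A`
(the coefficientwise Frobenius square) with `ρ ∘ σ = ψ ∘ ρ` and `Φ (Φ (ψ a)) = a ^ Q`.

* `s35nd_frob_decomp` : `σ b - b ^ Q = x + y` with `x ∈ p₀`, `y ∈ p∞`;
* `s35nd_frob`        : **[FROB-n]** `σ b - b ^ Q ∈ n` for every ideal `n ⊇ p∞ + p₀`;
* `s35nd_map_mem`     : `σ n ⊆ n`;  `s35nd_map_mem_iff` : `σ b ∈ n ↔ b ∈ n` (`n` maximal,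
                        `σ` bijective).
-/
import Mathlib

set_option autoImplicit false

namespace Fermat.Agent.S35

section Frob

variable {B A : Type*} [CommRing B] [CommRing A]
  (ρ : B →+* A) (W : B ≃+* B) (Φ : A →+* A)

/-- The lifting property gives, for every `c : B`, an element `x ∈ p₀` with
`ρ x = ρ c - Φ (Φ (ρ c))`. -/
theorem s35nd_fr_of_lift (hWW : ∀ b, W (W b) = b)
    (hlift : ∀ b : B, ∃ b' : B, ρ b' = ρ b ∧ ρ (W b') = Φ (ρ b)) (c : B) :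
    ∃ x : B, ρ (W x) = 0 ∧ ρ x = ρ c - Φ (Φ (ρ c)) := by
  obtain ⟨c', hc', hWc'⟩ := hlift c
  obtain ⟨c₂, hc₂, hWc₂⟩ := hlift (W c')
  refine ⟨c' - W c₂, ?_, ?_⟩
  · rw [map_sub, map_sub, hWW, hc₂, sub_self]
  · rw [map_sub, hc', hWc₂, hWc']

variable (σ : B →+* B) (ψ : A →+* A) (Q : ℕ)

/-- **[FROB-n]**, decomposition form: `σ b - b ^ Q ∈ p₀ + p∞`. -/
theorem s35nd_frob_decomp (hWW : ∀ b, W (W b) = b)
    (hlift : ∀ b : B, ∃ b' : B, ρ b' = ρ b ∧ ρ (W b') = Φ (ρ b))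
    (hσ : ∀ b, ρ (σ b) = ψ (ρ b)) (hQ : ∀ a : A, Φ (Φ (ψ a)) = a ^ Q) (b : B) :
    ∃ x y : B, ρ (W x) = 0 ∧ ρ y = 0 ∧ σ b - b ^ Q = x + y := by
  obtain ⟨x, hx0, hx⟩ := s35nd_fr_of_lift ρ W Φ hWW hlift (σ b)
  refine ⟨x, σ b - b ^ Q - x, hx0, ?_, by ring⟩
  rw [map_sub, map_sub, hx, hσ, hQ, map_pow]
  ring

/-- **[FROB-n]**: at every ideal `n` containing both branches, `σ b ≡ b ^ Q` modulo `n`. -/
theorem s35nd_frob (hWW : ∀ b, W (W b) = b)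
    (hlift : ∀ b : B, ∃ b' : B, ρ b' = ρ b ∧ ρ (W b') = Φ (ρ b))
    (hσ : ∀ b, ρ (σ b) = ψ (ρ b)) (hQ : ∀ a : A, Φ (Φ (ψ a)) = a ^ Q)
    (n : Ideal B) (h1 : ∀ b : B, ρ b = 0 → b ∈ n) (h0 : ∀ b : B, ρ (W b) = 0 → b ∈ n)
    (b : B) : σ b - b ^ Q ∈ n := by
  obtain ⟨x, y, hx, hy, hxy⟩ := s35nd_frob_decomp ρ W Φ σ ψ Q hWW hlift hσ hQ b
  rw [hxy]
  exact n.add_mem (h0 x hx) (h1 y hy)

/-- `σ` maps `n` into itself. -/
theorem s35nd_map_mem (hWW : ∀ b, W (W b) = b)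
    (hlift : ∀ b : B, ∃ b' : B, ρ b' = ρ b ∧ ρ (W b') = Φ (ρ b))
    (hσ : ∀ b, ρ (σ b) = ψ (ρ b)) (hQ : ∀ a : A, Φ (Φ (ψ a)) = a ^ Q) (hQ0 : 0 < Q)
    (n : Ideal B) (h1 : ∀ b : B, ρ b = 0 → b ∈ n) (h0 : ∀ b : B, ρ (W b) = 0 → b ∈ n)
    {b : B} (hb : b ∈ n) : σ b ∈ n := by
  have h := s35nd_frob ρ W Φ σ ψ Q hWW hlift hσ hQ n h1 h0 b
  have h2 : b ^ Q ∈ n := n.pow_mem_of_mem hb Q hQ0
  have h3 := n.add_mem h h2
  simpa using h3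

/-- `σ n = n` for a maximal ideal `n` containing both branches. -/
theorem s35nd_map_mem_iff (hWW : ∀ b, W (W b) = b)
    (hlift : ∀ b : B, ∃ b' : B, ρ b' = ρ b ∧ ρ (W b') = Φ (ρ b))
    (hσ : ∀ b, ρ (σ b) = ψ (ρ b)) (hQ : ∀ a : A, Φ (Φ (ψ a)) = a ^ Q) (hQ0 : 0 < Q)
    (n : Ideal B) [hn : n.IsMaximal] (h1 : ∀ b : B, ρ b = 0 → b ∈ n)
    (h0 : ∀ b : B, ρ (W b) = 0 → b ∈ n) (b : B) : σ b ∈ n ↔ b ∈ n := by
  have hle : n ≤ n.comap σ := fun c hc =>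
    Ideal.mem_comap.mpr (s35nd_map_mem ρ W Φ σ ψ Q hWW hlift hσ hQ hQ0 n h1 h0 hc)
  have hne : n.comap σ ≠ ⊤ := by
    intro htop
    have h1' : (1 : B) ∈ n.comap σ := by rw [htop]; exact Submodule.mem_top
    rw [Ideal.mem_comap, map_one] at h1'
    exact hn.ne_top ((Ideal.eq_top_iff_one n).mpr h1')
  have heq : n = n.comap σ := hn.eq_of_le hne hle
  constructor
  · intro h
    rw [heq]
    exact Ideal.mem_comap.mpr h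
  · intro h
    exact s35nd_map_mem ρ W Φ σ ψ Q hWW hlift hσ hQ hQ0 n h1 h0 h

end Frob

end Fermat.Agent.S35
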