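/-
S35, leaf **[NF-NODE]**, the branches and the refined dichotomy (helper10).  Prefix `s35nb_`.
(Part 1 = helper22's `S35/NfNode.lean`: [FROB-n] `s35nb_frob`, `s35nb_map_mem_iff`.)

SETTING = helper23's series form of [SS-NODE] (`S34/SsNodeSeries.lean`): `B` a commutative ring
(the chart at level `M q`), `π ∈ B`, `ρ : B → κ((T))` the reduction at the cusp `∞`, `W` an
involution of `B` (Atkin-Lehner), `p∞ = ker ρ`, `p₀ = ker (ρ ∘ W)`, `r : B → A` onto a Dedekind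
domain with `ker r = ker ρ`, the lifting property `hlift`; PLUS the Frobenius data: an
automorphism `σ` of `B` (the square of a Frobenius lift, acting on the coefficients) with
`ρ (σ b) = Ψ (ρ b)`, `Ψ` the coefficientwise map of `c ↦ c ^ (q ^ 2)`.

EXPORTS
* `s35nb_ded_pow`   a Dedekind domain at a prime `m`: every `a ≠ 0` is `(c / s) t ^ k`,
                    `s, c ∉ m`, for ONE `t ∈ m`;
* `s35nb_br`        [BR]: the branch `B / ker r` is a discrete valuation ring at `n` with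
                    uniformizer `t`;  `s35nb_br_inf`, `s35nb_br_zero` for `p∞`, `p₀`;
* `s35nb_exists_theta`: `n` maximal, `p ⊄ n`  ⟹  `∃ θ ∈ p, θ - 1 ∈ n`;
* `s35nb_frob`, `s35nb_sigma_mem_iff`: [FROB-n] and `σ n = n` in the series form;
* `s35nb_dich`      the refined dichotomy at every maximal ideal `n ∋ π`.
-/
import Mathlib
import Fermat.Agent.S34.SsNodeSeries
import Fermat.Agent.S35.NfNode

set_option autoImplicit false
set_option linter.unusedSectionVars false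
set_option linter.unusedVariables false
set_option linter.style.haveILetI false

open ModularCurve

noncomputable section

namespace Fermat.Agent.S35

open Fermat.Agent.S34

/-! ### A Dedekind domain at a prime -/

section Ded

variable {A : Type*} [CommRing A]

/-- If `s m ⊆ (t)` then `s ^ k m ^ k ⊆ (t ^ k)`. -/
theorem s35nb_pow_mul (m : Ideal A) {t s : A} (h : ∀ z ∈ m, ∃ c : A, s * z = c * t) :
    ∀ (k : ℕ) (a : A), a ∈ m ^ k → ∃ c : A, s ^ k * a = c * t ^ k := by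
  intro k
  induction k with
  | zero =>
    intro a _
    exact ⟨a, by rw [pow_zero, pow_zero, one_mul, mul_one]⟩
  | succ k ih =>
    intro a ha
    rw [pow_succ] at ha
    refine Submodule.mul_induction_on ha ?_ ?_
    · intro x hx z hz
      obtain ⟨c, hc⟩ := ih x hx
      obtain ⟨c', hc'⟩ := h z hz
      refine ⟨c * c', ?_⟩
      calc s ^ (k + 1) * (x * z) = (s ^ k * x) * (s * z) := by ring
        _ = (c * t ^ k) * (c' * t) := by rw [hc, hc']
        _ = c * c' * t ^ (k + 1) := by ring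
    · rintro x y ⟨c, hc⟩ ⟨c', hc'⟩
      exact ⟨c + c', by rw [mul_add, hc, hc', add_mul]⟩

/-- **A Dedekind domain is a discrete valuation ring at every prime**, in elementary form:
there is `t ∈ m` such that every `a ≠ 0` satisfies `s a = c t ^ k` with `s, c ∉ m`. -/
theorem s35nb_ded_pow [IsDedekindDomain A] (m : Ideal A) [hp : m.IsPrime] :
    ∃ t : A, t ∈ m ∧ ∀ a : A, a ≠ 0 →
      ∃ (k : ℕ) (s c : A), s ∉ m ∧ c ∉ m ∧ s * a = c * t ^ k := by
  classical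
  by_cases hm0 : m = ⊥
  · refine ⟨0, m.zero_mem, fun a ha => ⟨0, 1, a, ?_, ?_, ?_⟩⟩
    · exact fun h => hp.ne_top ((Ideal.eq_top_iff_one m).2 h)
    · rw [hm0, Ideal.mem_bot]
      exact ha
    · rw [pow_zero, one_mul, mul_one]
  · obtain ⟨t, htm, s, hs, hgen⟩ := s34nd_dedekind_locGen m
    have hmax : m.IsMaximal := hp.isMaximal hm0
    refine ⟨t, htm, fun a ha => ?_⟩
    have hK : (⨅ i : ℕ, m ^ i) = ⊥ := Ideal.iInf_pow_eq_bot_of_isDomain m hp.ne_top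
    have hex : ∃ k, a ∉ m ^ k := by
      by_contra hcon
      push Not at hcon
      have h1 : a ∈ (⨅ i : ℕ, m ^ i) := (Submodule.mem_iInf _).2 hcon
      rw [hK, Ideal.mem_bot] at h1
      exact ha h1
    have hk₁ : a ∉ m ^ Nat.find hex := Nat.find_spec hex
    have hk0 : Nat.find hex ≠ 0 := by
      intro h0
      rw [h0, pow_zero, Ideal.one_eq_top] at hk₁
      exact hk₁ Submodule.mem_top
    obtain ⟨k, hk⟩ : ∃ k, Nat.find hex = k + 1 := ⟨Nat.find hex - 1, by omega⟩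
    have hak : a ∈ m ^ k := by
      by_contra h
      exact Nat.find_min hex (by omega : k < Nat.find hex) h
    rw [hk] at hk₁
    obtain ⟨c, hc⟩ := s35nb_pow_mul m hgen k a hak
    refine ⟨k, s ^ k, c, fun h => hs (hp.mem_of_pow_mem k h), ?_, hc⟩
    intro hcm
    obtain ⟨c', hc'⟩ := hgen c hcm
    have h1 : s ^ (k + 1) * a ∈ m ^ (k + 1) := by
      have e : s ^ (k + 1) * a = c' * t ^ (k + 1) := by
        calc s ^ (k + 1) * a = s * (s ^ k * a) := by ring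
          _ = (s * c) * t ^ k := by rw [hc]; ring
          _ = c' * t ^ (k + 1) := by rw [hc']; ring
      rw [e]
      exact Ideal.mul_mem_left _ _ (Ideal.pow_mem_pow htm _)
    have hprim : (m ^ (k + 1)).IsPrimary := by
      apply Ideal.isPrimary_of_isMaximal_radical
      rw [Ideal.radical_pow m (Nat.succ_ne_zero k), hp.radical]
      exact hmax
    rw [mul_comm] at h1
    rcases (Ideal.isPrimary_iff.1 hprim).2 h1 with h2 | h2
    · exact hk₁ h2
    · rw [Ideal.radical_pow m (Nat.succ_ne_zero k), hp.radical] at h2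
      exact hs (hp.mem_of_pow_mem _ h2)

end Ded

/-! ### The branches -/

section Br

variable {B A : Type*} [CommRing B] [CommRing A] [IsDedekindDomain A] (r : B →+* A)

/-- **[BR]** the branch `B / ker r` is a discrete valuation ring at the prime `n ⊇ ker r`. -/
theorem s35nb_br (hr : Function.Surjective r) (n : Ideal B) [hn : n.IsPrime]
    (h1 : RingHom.ker r ≤ n) :
    ∃ t : B, t ∈ n ∧ ∀ a : B, a ∉ RingHom.ker r →
      ∃ (k : ℕ) (s c : B), s ∉ n ∧ c ∉ n ∧ s * a - c * t ^ k ∈ RingHom.ker r := by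
  haveI hm : (n.map r).IsPrime := Ideal.map_isPrime_of_surjective hr h1
  have hnot : ∀ b : B, r b ∉ n.map r → b ∉ n := fun b hb h => hb (Ideal.mem_map_of_mem r h)
  obtain ⟨t₀, ht₀, h⟩ := s35nb_ded_pow (n.map r)
  obtain ⟨t, htn, rfl⟩ := (Ideal.mem_map_iff_of_surjective r hr).1 ht₀
  refine ⟨t, htn, fun a ha => ?_⟩
  obtain ⟨k, s₀, c₀, hs₀, hc₀, e⟩ := h (r a) (fun h0 => ha ((RingHom.mem_ker).2 h0))
  obtain ⟨s, rfl⟩ := hr s₀
  obtain ⟨c, rfl⟩ := hr c₀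
  refine ⟨k, s, c, hnot s hs₀, hnot c hc₀, ?_⟩
  rw [RingHom.mem_ker, map_sub, map_mul, map_mul, map_pow, e, sub_self]

end Br

/-! ### The Frobenius at the nodes, series form -/

section Series

variable {B κ : Type*} [CommRing B] [Field κ]
  (q : ℕ) [NeZero q] [Fact q.Prime] [CharP κ q]
  (ρ : B →+* LaurentSeries κ) (W σ : B ≃+* B) (ψ : κ →+* κ)

include q in
/-- `Φ (Φ (Ψ a)) = a ^ (q ^ 2)` in `κ((T))`, `Φ : T ↦ T ^ q`, `Ψ` the coefficientwise map of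
`c ↦ c ^ (q ^ 2)`. -/
theorem s35nb_hQ (hψ : ∀ c : κ, ψ c = c ^ q ^ 2) (a : LaurentSeries κ) :
    (qExpand κ q : LaurentSeries κ →+* LaurentSeries κ)
      ((qExpand κ q : LaurentSeries κ →+* LaurentSeries κ) (coeffMap ψ a)) = a ^ q ^ 2 := by
  have hψ' : ψ = iterateFrobenius κ q 2 := by
    ext c
    rw [hψ, iterateFrobenius_def]
  rw [s34nd_frob_iter q 2 a, hψ']
  rfl

include q in
/-- **[FROB-n]** at a prime `n ⊇ p∞ + p₀`: `σ b ≡ b ^ (q ^ 2)` modulo `n`. -/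
theorem s35nb_frob (hWW : ∀ b, W (W b) = b)
    (hlift : ∀ b : B, ∃ b' : B, ρ b' = ρ b ∧ ρ (W b') = qExpand κ q (ρ b))
    (hψ : ∀ c : κ, ψ c = c ^ q ^ 2) (hσ : ∀ b : B, ρ (σ b) = coeffMap ψ (ρ b))
    (n : Ideal B) (h1 : ∀ b : B, ρ b = 0 → b ∈ n) (h0 : ∀ b : B, ρ (W b) = 0 → b ∈ n)
    (b : B) : σ b - b ^ q ^ 2 ∈ n :=
  s35nd_frob ρ W (qExpand κ q : LaurentSeries κ →+* LaurentSeries κ) (σ : B →+* B)
    (coeffMap ψ : LaurentSeries κ →+* LaurentSeries κ) (q ^ 2) hWW hlift hσ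
    (s35nb_hQ q ψ hψ) n h1 h0 b

include q in
/-- `σ n = n` at a maximal ideal `n ⊇ p∞ + p₀`. -/
theorem s35nb_sigma_mem_iff (hWW : ∀ b, W (W b) = b)
    (hlift : ∀ b : B, ∃ b' : B, ρ b' = ρ b ∧ ρ (W b') = qExpand κ q (ρ b))
    (hψ : ∀ c : κ, ψ c = c ^ q ^ 2) (hσ : ∀ b : B, ρ (σ b) = coeffMap ψ (ρ b))
    (n : Ideal B) [hn : n.IsMaximal] (h1 : ∀ b : B, ρ b = 0 → b ∈ n)
    (h0 : ∀ b : B, ρ (W b) = 0 → b ∈ n) (b : B) : σ b ∈ n ↔ b ∈ n :=
  s35nd_map_mem_iff ρ W (qExpand κ q : LaurentSeries κ →+* LaurentSeries κ) (σ : B →+* B)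
    (coeffMap ψ : LaurentSeries κ →+* LaurentSeries κ) (q ^ 2) hWW hlift hσ
    (s35nb_hQ q ψ hψ) (pow_pos (Nat.pos_of_ne_zero (NeZero.ne q)) 2) n h1 h0 b

end Series

/-! ### The refined dichotomy -/

section Dich

variable {B A κ : Type*} [CommRing B] [CommRing A] [IsDedekindDomain A] [Field κ] [Finite κ]
  (q : ℕ) [NeZero q] [Fact q.Prime] [CharP κ q]
  (π : B) (ρ : B →+* LaurentSeries κ) (r : B →+* A) (W σ : B ≃+* B) (ψ : κ →+* κ)

omit [IsDedekindDomain A] [Finite κ] in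
/-- A maximal ideal not containing `p` is comaximal with `p`. -/
theorem s35nb_exists_theta (n : Ideal B) [hn : n.IsMaximal] (p : Ideal B) (hp : ¬ p ≤ n) :
    ∃ θ : B, θ ∈ p ∧ θ - 1 ∈ n := by
  have h : p ⊔ n = ⊤ := by
    by_contra hne
    have h1 : n = p ⊔ n := hn.eq_of_le hne le_sup_right
    exact hp (h1 ▸ le_sup_left)
  obtain ⟨θ, hθ, z, hz, e⟩ := Submodule.mem_sup.1 ((Ideal.eq_top_iff_one _).1 h)
  refine ⟨θ, hθ, ?_⟩
  have : θ - 1 = -z := by rw [← e]; ring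
  rw [this]
  exact n.neg_mem hz

omit [Finite κ] [NeZero q] [Fact q.Prime] [CharP κ q] in
/-- **[BR]** for the branch `p∞ = ker ρ`. -/
theorem s35nb_br_inf (hr : Function.Surjective r) (hrρ : ∀ b, r b = 0 ↔ ρ b = 0)
    (n : Ideal B) [hn : n.IsPrime] (h1 : RingHom.ker ρ ≤ n) :
    ∃ t : B, t ∈ n ∧ ∀ a : B, a ∉ RingHom.ker ρ →
      ∃ (k : ℕ) (s c : B), s ∉ n ∧ c ∉ n ∧ s * a - c * t ^ k ∈ RingHom.ker ρ := by
  have hker : RingHom.ker r = RingHom.ker ρ := by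
    ext b
    rw [RingHom.mem_ker, RingHom.mem_ker, hrρ]
  have := s35nb_br r hr n (hker ▸ h1)
  rwa [hker] at this

omit [Finite κ] [NeZero q] [Fact q.Prime] [CharP κ q] in
/-- **[BR]** for the branch `p₀ = ker (ρ ∘ W)`. -/
theorem s35nb_br_zero (hr : Function.Surjective r) (hrρ : ∀ b, r b = 0 ↔ ρ b = 0)
    (n : Ideal B) [hn : n.IsPrime] (h0 : RingHom.ker (ρ.comp (W : B →+* B)) ≤ n) :
    ∃ t : B, t ∈ n ∧ ∀ a : B, a ∉ RingHom.ker (ρ.comp (W : B →+* B)) →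
      ∃ (k : ℕ) (s c : B), s ∉ n ∧ c ∉ n ∧
        s * a - c * t ^ k ∈ RingHom.ker (ρ.comp (W : B →+* B)) := by
  have hr' : Function.Surjective (r.comp (W : B →+* B)) := hr.comp W.surjective
  have hker : RingHom.ker (r.comp (W : B →+* B)) = RingHom.ker (ρ.comp (W : B →+* B)) := by
    ext b
    rw [RingHom.mem_ker, RingHom.mem_ker, RingHom.comp_apply, RingHom.comp_apply, hrρ]
  have := s35nb_br (r.comp (W : B →+* B)) hr' n (hker ▸ h0)
  rwa [hker] at this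

include q in
/-- **[NF-NODE], the refined dichotomy**: a maximal ideal `n ∋ π` of the chart is

* a NODE: `n ⊇ p∞ + p₀` with the node datum of [SS-NODE], `σ n = n`, `σ b ≡ b ^ (q ^ 2)` modulo
  `n`, and both branches are discrete valuation rings at `n`; or
* a point of `p∞` only, where the branch `p∞` is a discrete valuation ring and `p₀` is
  comaximal with `n`; or
* a point of `p₀` only (the mirror). -/
theorem s35nb_dich (hr : Function.Surjective r) (hrρ : ∀ b, r b = 0 ↔ ρ b = 0)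
    (hWW : ∀ b, W (W b) = b)
    (hcap : ∀ b : B, ρ b = 0 → ρ (W b) = 0 → b ∈ Ideal.span {π})
    (hne : ∃ b : B, ρ (W b) = 0 ∧ ρ b ≠ 0)
    (hlift : ∀ b : B, ∃ b' : B, ρ b' = ρ b ∧ ρ (W b') = qExpand κ q (ρ b))
    (hψ : ∀ c : κ, ψ c = c ^ q ^ 2) (hσ : ∀ b : B, ρ (σ b) = coeffMap ψ (ρ b))
    (n : Ideal B) [hn : n.IsMaximal] (hπn : π ∈ n) :
    ((∃ x y : B, s34nd_IsNode π (RingHom.ker ρ) (RingHom.ker (ρ.comp (W : B →+* B))) n x y) ∧
        (∀ b : B, σ b - b ^ q ^ 2 ∈ n) ∧ (∀ b : B, σ b ∈ n ↔ b ∈ n) ∧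
        (∃ t : B, t ∈ n ∧ ∀ a : B, a ∉ RingHom.ker ρ →
          ∃ (k : ℕ) (s c : B), s ∉ n ∧ c ∉ n ∧ s * a - c * t ^ k ∈ RingHom.ker ρ) ∧
        (∃ t : B, t ∈ n ∧ ∀ a : B, a ∉ RingHom.ker (ρ.comp (W : B →+* B)) →
          ∃ (k : ℕ) (s c : B), s ∉ n ∧ c ∉ n ∧
            s * a - c * t ^ k ∈ RingHom.ker (ρ.comp (W : B →+* B)))) ∨
      (RingHom.ker ρ ≤ n ∧ (∃ θ : B, θ ∈ RingHom.ker (ρ.comp (W : B →+* B)) ∧ θ - 1 ∈ n) ∧
        (∃ t : B, t ∈ n ∧ ∀ a : B, a ∉ RingHom.ker ρ →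
          ∃ (k : ℕ) (s c : B), s ∉ n ∧ c ∉ n ∧ s * a - c * t ^ k ∈ RingHom.ker ρ)) ∨
      (RingHom.ker (ρ.comp (W : B →+* B)) ≤ n ∧ (∃ θ : B, θ ∈ RingHom.ker ρ ∧ θ - 1 ∈ n) ∧
        (∃ t : B, t ∈ n ∧ ∀ a : B, a ∉ RingHom.ker (ρ.comp (W : B →+* B)) →
          ∃ (k : ℕ) (s c : B), s ∉ n ∧ c ∉ n ∧
            s * a - c * t ^ k ∈ RingHom.ker (ρ.comp (W : B →+* B)))) := by
  haveI hnp : n.IsPrime := hn.isPrime
  have hmem0 : ∀ b : B, b ∈ RingHom.ker (ρ.comp (W : B →+* B)) ↔ ρ (W b) = 0 := fun b => by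
    rw [RingHom.mem_ker]; rfl
  have hmem1 : ∀ b : B, b ∈ RingHom.ker ρ ↔ ρ b = 0 := fun b => RingHom.mem_ker
  -- `n` contains `p∞` or `p₀`
  have hor : RingHom.ker ρ ≤ n ∨ RingHom.ker (ρ.comp (W : B →+* B)) ≤ n := by
    by_contra hcon
    push Not at hcon
    obtain ⟨h1, h2⟩ := hcon
    obtain ⟨a, ha, han⟩ := Set.not_subset.1 h1
    obtain ⟨b, hb, hbn⟩ := Set.not_subset.1 h2
    have hab : a * b ∈ Ideal.span {π} := by
      apply hcap
      · rw [map_mul, (hmem1 a).1 ha, zero_mul]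
      · rw [map_mul, map_mul, (hmem0 b).1 hb, mul_zero]
    have habn : a * b ∈ n := (Ideal.span_singleton_le_iff_mem n).2 hπn hab
    rcases hnp.mem_or_mem habn with h | h
    · exact han h
    · exact hbn h
  by_cases h1 : RingHom.ker ρ ≤ n
  · by_cases h0 : RingHom.ker (ρ.comp (W : B →+* B)) ≤ n
    · -- a node
      left
      have h1' : ∀ b : B, ρ b = 0 → b ∈ n := fun b hb => h1 ((hmem1 b).2 hb)
      have h0' : ∀ b : B, ρ (W b) = 0 → b ∈ n := fun b hb => h0 ((hmem0 b).2 hb)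
      refine ⟨?_, s35nb_frob q ρ W σ ψ hWW hlift hψ hσ n h1' h0',
        s35nb_sigma_mem_iff q ρ W σ ψ hWW hlift hψ hσ n h1' h0',
        s35nb_br_inf ρ r hr hrρ n h1, s35nb_br_zero ρ r W hr hrρ n h0⟩
      obtain ⟨N, hN, hfrN⟩ := s34nd_series_fr q ρ r W hr hrρ hWW hlift
      have hcapr : ∀ b : B, r b = 0 → r (W b) = 0 → b ∈ Ideal.span {π} := fun b e1 e2 =>
        hcap b ((hrρ b).1 e1) ((hrρ _).1 e2)
      have h1r : ∀ b : B, r b = 0 → b ∈ n := fun b hb => h1' b ((hrρ b).1 hb)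
      have h0r : ∀ b : B, r (W b) = 0 → b ∈ n := fun b hb => h0' b ((hrρ _).1 hb)
      obtain ⟨b0, hb0, hb0'⟩ := hne
      obtain ⟨x, y, hx0, hxnz, hy0, hynz, hp0le, hpinfle, hnle, hmul⟩ :=
        s34nd_core_nz π r W hr hWW hcapr hN hfrN
          ⟨b0, (hrρ _).2 hb0, fun h => hb0' ((hrρ b0).1 h)⟩ n h1r h0r
      exact ⟨x, y, ⟨h1, h0,
        (hmem0 x).2 ((hrρ _).1 hx0), fun h => hxnz ((hrρ x).2 ((hmem1 x).1 h)),
        (hmem1 y).2 ((hrρ y).1 hy0), fun h => hynz ((hrρ _).2 ((hmem0 y).1 h)),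
        fun z hz => hp0le z ((hrρ _).2 ((hmem0 z).1 hz)),
        fun z hz => hpinfle z ((hrρ z).2 ((hmem1 z).1 hz)), hnle, hmul⟩⟩
    · right; left
      exact ⟨h1, s35nb_exists_theta n _ h0, s35nb_br_inf ρ r hr hrρ n h1⟩
  · right; right
    have h0 : RingHom.ker (ρ.comp (W : B →+* B)) ≤ n := hor.resolve_left h1
    exact ⟨h0, s35nb_exists_theta n _ h1, s35nb_br_zero ρ r W hr hrρ n h0⟩

end Dich

end Fermat.Agent.S35
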