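/-
S35, leaf [NF-NODE], THE CHART FORM (model instance: helper22).  Prefix `s35nd_`.
On top of helper23's `S34/SsNodeChart.lean` (`s34nd_rhoB`, `s34nd_WB`), helper10's
`S35/NfNodeBr.lean` (`s35nb_dich`), helper29's `S35/NfKSetup.lean` (`s35k_sigma`,
`s34l1_centre`) and helper18's `S35/NfLocBr.lean` (`s35lo_IsBranch`).

* `s35nd_At π p₁ p₂ σ Q n` : THE REFINED DICHOTOMY at `n`, in helper18's vocabulary:
    - NODE: `p₁, p₂ ≤ n`, the node datum `s34nd_IsNode`, [FROB-n] `σ b - b ^ Q ∈ n`, `σ n = n`,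
      [BR_1], [BR_2] (`s35lo_IsBranch`), [GLUE] `∀ z ∈ n, ∃ s ∉ n, s z ∈ p₁ ⊔ p₂`;  or
    - a point of `p₁` only: `p₁ ≤ n`, `θ ∈ p₂` with `θ - 1 ∈ n`, [BR_1];  or
    - a point of `p₂` only (the mirror);
* `s35nd_isBranch`         : [BR] of `s35nb_dich` + `n ≠ p`  ⟹  `s35lo_IsBranch p n t`;
* `s35nd_series_of_range`  : helper10's `s35nb_dich` with (D2) as an equality of images and the
                             non-maximality of `ker ρ`, concluding `s35nd_At`;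
* `s35nd_chart`            : `s35nd_At` for the chart `B = s18_chart O {j}` at every maximal
                             ideal `n ∋ π`, for the CENTRES of `V_∞`, `V_0` and the restriction
                             `s35k_sigma τ` of the square of the Frobenius lift.
-/
import Mathlib
import Fermat.Agent.S34.SsNodeChart
import Fermat.Agent.S35.NfNodeBr
import Fermat.Agent.S35.NfKSetup
import Fermat.Agent.S35.NfLocBr

set_option autoImplicit false
set_option linter.unusedSectionVars false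
set_option linter.unusedVariables false
set_option linter.style.haveILetI false

open ModularCurve
open Fermat.Agent.S18 Fermat.Agent.S34

noncomputable section

namespace Fermat.Agent.S35

/-! ### The datum -/

section Datum

variable {B : Type*} [CommRing B]

/-- **The refined dichotomy** at `n` (helper18's inputs of `s35lo_node` / `s35lo_smooth`). -/
def s35nd_At (π : B) (p₁ p₂ : Ideal B) (σ : B ≃+* B) (Q : ℕ) (n : Ideal B) : Prop :=
  ((∃ x y : B, s34nd_IsNode π p₁ p₂ n x y) ∧ p₁ ≤ n ∧ p₂ ≤ n ∧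
      (∀ b : B, σ b - b ^ Q ∈ n) ∧ (∀ b : B, σ b ∈ n ↔ b ∈ n) ∧
      (∃ t : B, s35lo_IsBranch p₁ n t) ∧ (∃ t : B, s35lo_IsBranch p₂ n t) ∧
      (∀ z ∈ n, ∃ s : B, s ∉ n ∧ s * z ∈ p₁ ⊔ p₂)) ∨
    (p₁ ≤ n ∧ (∃ θ : B, θ ∈ p₂ ∧ θ - 1 ∈ n) ∧ ∃ t : B, s35lo_IsBranch p₁ n t) ∨
    (p₂ ≤ n ∧ (∃ θ : B, θ ∈ p₁ ∧ θ - 1 ∈ n) ∧ ∃ t : B, s35lo_IsBranch p₂ n t)

/-- [BR] in the form of `s35nb_dich`, at a point `n ≠ p`, is `s35lo_IsBranch`. -/
theorem s35nd_isBranch {p n : Ideal B} [hp : p.IsPrime] (hpn : p ≤ n)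
    (hz : ∃ z : B, z ∈ n ∧ z ∉ p)
    (h : ∃ t : B, t ∈ n ∧ ∀ a : B, a ∉ p →
      ∃ (k : ℕ) (s c : B), s ∉ n ∧ c ∉ n ∧ s * a - c * t ^ k ∈ p) :
    ∃ t : B, s35lo_IsBranch p n t := by
  obtain ⟨t, htn, hun⟩ := h
  refine ⟨t, hpn, htn, ?_, hun⟩
  intro htp
  obtain ⟨z, hzn, hzp⟩ := hz
  obtain ⟨k, s, c, hs, hc, hsc⟩ := hun z hzp
  rcases Nat.eq_zero_or_pos k with hk | hk
  · apply hc
    rw [hk, pow_zero, mul_one] at hsc
    have e : c = s * z - (s * z - c) := by ring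
    rw [e]
    exact n.sub_mem (n.mul_mem_left _ hzn) (hpn hsc)
  · have h1 : c * t ^ k ∈ p := p.mul_mem_left _ (p.pow_mem_of_mem htp k hk)
    have h2 : s * z ∈ p := by
      have e : s * z = (s * z - c * t ^ k) + c * t ^ k := by ring
      rw [e]
      exact p.add_mem hsc h1
    rcases hp.mem_or_mem h2 with h3 | h3
    · exact hs (hpn h3)
    · exact hzp h3

end Datum

/-! ### The series form with (D2) as an equality of images -/

section Range

variable {B A κ : Type*} [CommRing B] [CommRing A] [IsDedekindDomain A] [Field κ] [Finite κ]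
  (q : ℕ) [NeZero q] [Fact q.Prime] [CharP κ q]
  (π : B) (ρ : B →+* LaurentSeries κ) (e : A →+* LaurentSeries κ) (W σ : B ≃+* B) (ψ : κ →+* κ)

include q in
/-- **[NF-NODE], series form**: helper10's `s35nb_dich` with (D2) as an equality of images and
`hnm`: no maximal ideal of `B` is contained in `ker ρ`. -/
theorem s35nd_series_of_range (he : Function.Injective e)
    (hsub : ∀ b : B, ∃ a : A, e a = ρ b) (hsup : ∀ a : A, ∃ b : B, ρ b = e a)
    (hWW : ∀ b, W (W b) = b) (hπ : ρ π = 0)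
    (hcap : ∀ b : B, ρ b = 0 → ρ (W b) = 0 → b ∈ Ideal.span {π})
    (hne : ∃ b : B, ρ (W b) = 0 ∧ ρ b ≠ 0)
    (hlift : ∀ b : B, ∃ b' : B, ρ b' = ρ b ∧ ρ (W b') = qExpand κ q (ρ b))
    (hψ : ∀ c : κ, ψ c = c ^ q ^ 2) (hσ : ∀ b : B, ρ (σ b) = coeffMap ψ (ρ b))
    (hnm : ∀ m : Ideal B, m.IsMaximal → ∃ b : B, b ∈ m ∧ ρ b ≠ 0)
    (n : Ideal B) [hn : n.IsMaximal] (hπn : π ∈ n) :
    s35nd_At π (RingHom.ker ρ) (RingHom.ker (ρ.comp (W : B →+* B))) σ (q ^ 2) n := by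
  classical
  choose f hf using hsub
  have hf_unique : ∀ (b : B) (a : A), e a = ρ b → a = f b := fun b a ha =>
    he (ha.trans (hf b).symm)
  let r : B →+* A :=
    { toFun := f
      map_one' := (hf_unique 1 1 (by rw [map_one, map_one])).symm
      map_mul' := fun x y => (hf_unique (x * y) (f x * f y)
        (by rw [map_mul, map_mul, hf, hf])).symm
      map_zero' := (hf_unique 0 0 (by rw [map_zero, map_zero])).symm
      map_add' := fun x y => (hf_unique (x + y) (f x + f y)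
        (by rw [map_add, map_add, hf, hf])).symm }
  have hr : Function.Surjective r := by
    intro a
    obtain ⟨b, hb⟩ := hsup a
    exact ⟨b, (hf_unique b a hb.symm).symm⟩
  have hrρ : ∀ b, r b = 0 ↔ ρ b = 0 := by
    intro b
    show f b = 0 ↔ ρ b = 0
    rw [← hf b]
    exact ⟨fun h => by rw [h, map_zero], fun h => he (h.trans (map_zero e).symm)⟩
  -- the two branches are prime
  haveI hp1 : (RingHom.ker ρ).IsPrime := RingHom.ker_isPrime ρ
  haveI hp0 : (RingHom.ker (ρ.comp (W : B →+* B))).IsPrime := RingHom.ker_isPrime _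
  -- no maximal ideal lies in a branch
  have hz1 : ∃ z : B, z ∈ n ∧ z ∉ RingHom.ker ρ := by
    obtain ⟨b, hb, hb'⟩ := hnm n hn
    exact ⟨b, hb, fun h => hb' (RingHom.mem_ker.1 h)⟩
  have hz0 : ∃ z : B, z ∈ n ∧ z ∉ RingHom.ker (ρ.comp (W : B →+* B)) := by
    haveI : (n.comap (W : B →+* B)).IsMaximal :=
      Ideal.comap_isMaximal_of_surjective (W : B →+* B) W.surjective
    obtain ⟨b, hb, hb'⟩ := hnm (n.comap (W : B →+* B)) inferInstance
    refine ⟨W b, hb, fun h => hb' ?_⟩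
    have h' : ρ (W (W b)) = 0 := RingHom.mem_ker.1 h
    rwa [hWW] at h'
  rcases s35nb_dich q π ρ r W σ ψ hr hrρ hWW hcap hne hlift hψ hσ n hπn with
    ⟨⟨x, y, hxy⟩, hfr, hσn, hb1, hb0⟩ | ⟨h1, hθ, hb1⟩ | ⟨h0, hθ, hb0⟩
  · left
    refine ⟨⟨x, y, hxy⟩, hxy.pinf_le_n, hxy.p0_le_n, hfr, hσn,
      s35nd_isBranch hxy.pinf_le_n hz1 hb1, s35nd_isBranch hxy.p0_le_n hz0 hb0, ?_⟩
    intro z hz
    obtain ⟨s, hs, hsz⟩ := hxy.n_le z hz
    refine ⟨s, hs, ?_⟩
    have hle : Ideal.span {π, x, y} ≤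
        RingHom.ker ρ ⊔ RingHom.ker (ρ.comp (W : B →+* B)) := by
      rw [Ideal.span_le]
      rintro w (rfl | rfl | rfl)
      · exact Ideal.mem_sup_left (RingHom.mem_ker.2 hπ)
      · exact Ideal.mem_sup_right hxy.x_mem
      · exact Ideal.mem_sup_left hxy.y_mem
    exact hle hsz
  · right; left
    exact ⟨h1, hθ, s35nd_isBranch h1 hz1 hb1⟩
  · right; right
    exact ⟨h0, hθ, s35nd_isBranch h0 hz0 hb0⟩

end Range

/-! ### The chart form -/

section Chart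

variable {O : Type} [CommRing O] {F : Type} [Field F] [Algebra O F]

theorem s35nd_hSV (V : ValuationSubring F) (j : F) (hjV : j ∈ V) :
    ∀ t ∈ ({j} : Set F), t ∈ V := fun t ht => by
  rw [Set.mem_singleton_iff.1 ht]
  exact hjV

theorem s35nd_hWS (W : F ≃+* F) (j : F) (hWj : W j = j) :
    ∀ t ∈ ({j} : Set F), W t ∈ ({j} : Set F) := fun t ht => by
  rw [Set.mem_singleton_iff.1 ht, hWj]
  exact Set.mem_singleton j

variable (V V0 : ValuationSubring F) (hO : ∀ a : O, algebraMap O F a ∈ V)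
  (W : F ≃+* F) (hWO : ∀ a : O, W (algebraMap O F a) = algebraMap O F a)
  (hWW : ∀ x, W (W x) = x)
  (j : F) (hjV : j ∈ V) (hWj : W j = j)
  (hV0 : ∀ x : F, x ∈ V0.nonunits ↔ W x ∈ V.nonunits)
  {A κ : Type*} [CommRing A] [IsDedekindDomain A] [Field κ] [Finite κ]
  (q : ℕ) [NeZero q] [Fact q.Prime] [CharP κ q]
  (ρ : ↥V →+* LaurentSeries κ) (e : A →+* LaurentSeries κ)

include q hV0 in
/-- **[NF-NODE] for a chart**: the refined dichotomy at every maximal ideal `n ∋ π` of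
`B = s18_chart O {j}`, for the centres of `V = V_∞` and `V0 = V_0` and the restriction to `B` of
the automorphism `τ` (the square of a Frobenius lift). -/
theorem s35nd_chart (π : O)
    (hρ : ∀ v : ↥V, ρ v = 0 ↔ (v : F) ∈ V.nonunits)
    (hπV : algebraMap O F π ∈ V.nonunits)
    (hB : ∀ b : ↥(s18_chart O ({j} : Set F)),
      algebraMap ↥(s18_chart O ({j} : Set F)) F b ∈ V)
    (hB0 : ∀ b : ↥(s18_chart O ({j} : Set F)),
      algebraMap ↥(s18_chart O ({j} : Set F)) F b ∈ V0)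
    (hcap : ∀ b : ↥(s18_chart O ({j} : Set F)),
      s34nd_rhoB V hO {j} (s35nd_hSV V j hjV) ρ b = 0 →
      s34nd_rhoB V hO {j} (s35nd_hSV V j hjV) ρ
        (s34nd_WB W hWO {j} (s35nd_hWS W j hWj) hWW b) = 0 →
      ∃ c : ↥(s18_chart O ({j} : Set F)),
        b = algebraMap O ↥(s18_chart O ({j} : Set F)) π * c)
    (he : Function.Injective e)
    (hsub : ∀ b : ↥(s18_chart O ({j} : Set F)),
      ∃ a : A, e a = s34nd_rhoB V hO {j} (s35nd_hSV V j hjV) ρ b)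
    (hsup : ∀ a : A, ∃ b : ↥(s18_chart O ({j} : Set F)),
      s34nd_rhoB V hO {j} (s35nd_hSV V j hjV) ρ b = e a)
    (hne : ∃ b : ↥(s18_chart O ({j} : Set F)),
      s34nd_rhoB V hO {j} (s35nd_hSV V j hjV) ρ
        (s34nd_WB W hWO {j} (s35nd_hWS W j hWj) hWW b) = 0 ∧
      s34nd_rhoB V hO {j} (s35nd_hSV V j hjV) ρ b ≠ 0)
    (hlift : ∀ b : ↥(s18_chart O ({j} : Set F)), ∃ b' : ↥(s18_chart O ({j} : Set F)),
      s34nd_rhoB V hO {j} (s35nd_hSV V j hjV) ρ b' =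
        s34nd_rhoB V hO {j} (s35nd_hSV V j hjV) ρ b ∧
      s34nd_rhoB V hO {j} (s35nd_hSV V j hjV) ρ
        (s34nd_WB W hWO {j} (s35nd_hWS W j hWj) hWW b') =
        qExpand κ q (s34nd_rhoB V hO {j} (s35nd_hSV V j hjV) ρ b))
    (hnm : ∀ m : Ideal ↥(s18_chart O ({j} : Set F)), m.IsMaximal →
      ∃ b : ↥(s18_chart O ({j} : Set F)), b ∈ m ∧
        s34nd_rhoB V hO {j} (s35nd_hSV V j hjV) ρ b ≠ 0)
    (τ : F ≃+* F)
    (hmem : ∀ b ∈ s18_chart O ({j} : Set F), τ b ∈ s18_chart O ({j} : Set F))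
    (hsymm : ∀ b ∈ s18_chart O ({j} : Set F), τ.symm b ∈ s18_chart O ({j} : Set F))
    (ψ : κ →+* κ) (hψ : ∀ c : κ, ψ c = c ^ q ^ 2)
    (hτρ : ∀ v : ↥V, ∃ h : τ (v : F) ∈ V, ρ ⟨τ (v : F), h⟩ = coeffMap ψ (ρ v))
    (n : Ideal ↥(s18_chart O ({j} : Set F))) [hn : n.IsMaximal]
    (hπn : algebraMap O ↥(s18_chart O ({j} : Set F)) π ∈ n) :
    s35nd_At (algebraMap O ↥(s18_chart O ({j} : Set F)) π)
      (s34l1_centre V hB) (s34l1_centre V0 hB0) (s35k_sigma τ hmem hsymm) (q ^ 2) n := by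
  have hker1 : RingHom.ker (s34nd_rhoB V hO {j} (s35nd_hSV V j hjV) ρ) = s34l1_centre V hB := by
    ext b
    rw [RingHom.mem_ker, s34l1_mem_centre, s34nd_rhoB_apply, hρ]
    rfl
  have hker0 : RingHom.ker ((s34nd_rhoB V hO {j} (s35nd_hSV V j hjV) ρ).comp
      (s34nd_WB W hWO {j} (s35nd_hWS W j hWj) hWW :
        ↥(s18_chart O ({j} : Set F)) →+* ↥(s18_chart O ({j} : Set F)))) =
      s34l1_centre V0 hB0 := by
    ext b
    rw [RingHom.mem_ker, s34l1_mem_centre, hV0]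
    show s34nd_rhoB V hO {j} (s35nd_hSV V j hjV) ρ
      (s34nd_WB W hWO {j} (s35nd_hWS W j hWj) hWW b) = 0 ↔ _
    rw [s34nd_rhoB_apply, hρ]
    rfl
  have hσ : ∀ b : ↥(s18_chart O ({j} : Set F)),
      s34nd_rhoB V hO {j} (s35nd_hSV V j hjV) ρ (s35k_sigma τ hmem hsymm b) =
        coeffMap ψ (s34nd_rhoB V hO {j} (s35nd_hSV V j hjV) ρ b) := by
    intro b
    obtain ⟨h, hh⟩ := hτρ ⟨(b : F), s34nd_chart_le V hO {j} (s35nd_hSV V j hjV) b b.2⟩
    rw [s34nd_rhoB_apply V hO {j} (s35nd_hSV V j hjV) ρ b, ← hh]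
    exact s34nd_rhoB_eq V hO {j} (s35nd_hSV V j hjV) ρ _ _ rfl
  have hcap' : ∀ b : ↥(s18_chart O ({j} : Set F)),
      s34nd_rhoB V hO {j} (s35nd_hSV V j hjV) ρ b = 0 →
      s34nd_rhoB V hO {j} (s35nd_hSV V j hjV) ρ
        (s34nd_WB W hWO {j} (s35nd_hWS W j hWj) hWW b) = 0 →
      b ∈ Ideal.span {algebraMap O ↥(s18_chart O ({j} : Set F)) π} := by
    intro b h1 h2
    obtain ⟨c, hc⟩ := hcap b h1 h2
    rw [hc]
    exact Ideal.mul_mem_right _ _ (Ideal.mem_span_singleton_self _)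
  have hπ0 : s34nd_rhoB V hO {j} (s35nd_hSV V j hjV) ρ
      (algebraMap O ↥(s18_chart O ({j} : Set F)) π) = 0 := by
    rw [s34nd_rhoB_apply, hρ]
    exact hπV
  have h := s35nd_series_of_range q (algebraMap O ↥(s18_chart O ({j} : Set F)) π)
    (s34nd_rhoB V hO {j} (s35nd_hSV V j hjV) ρ) e
    (s34nd_WB W hWO {j} (s35nd_hWS W j hWj) hWW) (s35k_sigma τ hmem hsymm) ψ he hsub hsup
    (s34nd_WB_WB W hWO {j} (s35nd_hWS W j hWj) hWW) hπ0 hcap' hne hlift hψ hσ hnm n hπn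
  rw [hker1, hker0] at h
  exact h

end Chart

end Fermat.Agent.S35
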