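/-
S35, leaf [NF-NODE], THE GENERIC WIRING (model instance: helper22).  Prefix `s35nd_`.

* `s35nd_aeval_isIntegral`, `s35nd_notMax` : [NOT-MAX] no maximal ideal of the chart
  `B = s18_chart O {t}` lies in the kernel of a reduction `ρ` with `ρ t` transcendental over the
  residue field (`B` is integral over `O[t]`, and `κ[X]` is not a field);
* `s35nd_unif` : the refined dichotomy `s35nd_At` at every maximal ideal `n ∋ π` of a chart
  `B = s18_chart O {t}` of level `M q` (`t ∈ V_∞`, `W t = t`), for the centres of `V_∞`, `V_0` and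
  the restriction of `τ = arithmeticRingAut σ` (`σ` inducing `c ↦ c ^ (q ^ 2)` on the residue
  field), from the inputs of helper23's `s34nd_dich_unif` and the transcendence of `ρ_∞ t`.
-/
import Mathlib
import Fermat.Agent.S34.SsNodeUnif
import Fermat.Agent.S34.CountRho
import Fermat.Agent.S34.KVertInst
import Fermat.Agent.S35.NfFrob
import Fermat.Agent.S35.NfNodeChart

set_option autoImplicit false
set_option linter.unusedSectionVars false
set_option linter.unusedVariables false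
set_option linter.style.haveILetI false
set_option warn.classDefReducibility false
set_option synthInstance.maxHeartbeats 400000
set_option maxHeartbeats 400000

open AlgebraicCurve ModularCurve IntermediateField Polynomial
open Fermat.Agent.S18 Fermat.Agent.S34

noncomputable section

namespace Fermat.Agent.S35

/-! ### [NOT-MAX] -/

section NotMax

variable {O : Type*} [CommRing O] {F : Type*} [Field F] [Algebra O F]

/-- The chart of `t` is integral over `O[X]` along `X ↦ t`. -/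
theorem s35nd_aeval_isIntegral (t : F) (ht : t ∈ s18_chart O ({t} : Set F)) :
    ((Polynomial.aeval (⟨t, ht⟩ : ↥(s18_chart O ({t} : Set F))) :
      O[X] →ₐ[O] ↥(s18_chart O ({t} : Set F))) :
        O[X] →+* ↥(s18_chart O ({t} : Set F))).IsIntegral := by
  classical
  intro b
  have hb : IsIntegral ↥(Algebra.adjoin O ({t} : Set F)) (b : F) := b.2
  obtain ⟨p, hp, hpb⟩ := hb
  -- the corestriction `O[X] → O[t]`
  let tA : ↥(Algebra.adjoin O ({t} : Set F)) := ⟨t, Algebra.subset_adjoin (Set.mem_singleton t)⟩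
  let g : O[X] →+* ↥(Algebra.adjoin O ({t} : Set F)) :=
    ((Polynomial.aeval tA : O[X] →ₐ[O] ↥(Algebra.adjoin O ({t} : Set F))) : O[X] →+* _)
  have hgcoe : ∀ P : O[X], ((g P : ↥(Algebra.adjoin O ({t} : Set F))) : F) =
      Polynomial.aeval t P := fun P =>
    (Polynomial.aeval_algHom_apply (Algebra.adjoin O ({t} : Set F)).val tA P).symm
  have hg : Function.Surjective g := by
    intro a
    have ha : (a : F) ∈ (Polynomial.aeval t : O[X] →ₐ[O] F).range := by
      rw [← Algebra.adjoin_singleton_eq_range_aeval]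
      exact a.2
    obtain ⟨P, hP⟩ := ha
    exact ⟨P, Subtype.ext ((hgcoe P).trans hP)⟩
  have hlift : p ∈ Polynomial.lifts g := by
    rw [Polynomial.mem_lifts]
    exact Polynomial.map_surjective g hg p
  obtain ⟨p', hp'map, -, hp'monic⟩ := Polynomial.lifts_and_natDegree_eq_and_monic hlift hp
  refine ⟨p', hp'monic, ?_⟩
  apply Subtype.ext
  have hfcoe : ∀ P : O[X],
      (((Polynomial.aeval (⟨t, ht⟩ : ↥(s18_chart O ({t} : Set F))) :
        O[X] →ₐ[O] ↥(s18_chart O ({t} : Set F))) P : ↥(s18_chart O ({t} : Set F))) : F) =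
      Polynomial.aeval t P := fun P =>
    (Polynomial.aeval_algHom_apply (s18_chart O ({t} : Set F)).val
      (⟨t, ht⟩ : ↥(s18_chart O ({t} : Set F))) P).symm
  have h1 := Polynomial.hom_eval₂ p'
    ((Polynomial.aeval (⟨t, ht⟩ : ↥(s18_chart O ({t} : Set F))) :
      O[X] →ₐ[O] ↥(s18_chart O ({t} : Set F))) : O[X] →+* ↥(s18_chart O ({t} : Set F)))
    ((s18_chart O ({t} : Set F)).val : ↥(s18_chart O ({t} : Set F)) →+* F) b
  have h2 : (((s18_chart O ({t} : Set F)).val : ↥(s18_chart O ({t} : Set F)) →+* F).comp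
      ((Polynomial.aeval (⟨t, ht⟩ : ↥(s18_chart O ({t} : Set F))) :
      O[X] →ₐ[O] ↥(s18_chart O ({t} : Set F))) : O[X] →+* ↥(s18_chart O ({t} : Set F)))) =
      (algebraMap ↥(Algebra.adjoin O ({t} : Set F)) F).comp g := by
    refine RingHom.ext (fun P => ?_)
    show ((Polynomial.aeval (⟨t, ht⟩ : ↥(s18_chart O ({t} : Set F))) P :
      ↥(s18_chart O ({t} : Set F))) : F) = ((g P : ↥(Algebra.adjoin O ({t} : Set F))) : F)
    rw [hfcoe, hgcoe]
  rw [h2, ← Polynomial.eval₂_map, hp'map] at h1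
  show ((Polynomial.eval₂ _ b p' : ↥(s18_chart O ({t} : Set F))) : F) = 0
  exact h1.trans hpb

/-- The coordinate lies in its chart. -/
theorem s35nd_self_mem (t : F) : t ∈ s18_chart O ({t} : Set F) := by
  rw [s18_mem_chart_iff]
  exact isIntegral_algebraMap
    (x := (⟨t, Algebra.subset_adjoin (Set.mem_singleton t)⟩ : ↥(Algebra.adjoin O ({t} : Set F))))

variable {κ L : Type*} [Field κ] [CommRing L] [Algebra κ L]

/-- **[NOT-MAX]** no maximal ideal of the chart of `t` lies in the kernel of a reduction `ρ` with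
`ρ t` transcendental over the residue field. -/
theorem s35nd_notMax (res : O →+* κ) (t : F) (ht : t ∈ s18_chart O ({t} : Set F))
    (ρ : ↥(s18_chart O ({t} : Set F)) →+* L)
    (hρ : ∀ P : O[X], ρ (Polynomial.aeval (⟨t, ht⟩ : ↥(s18_chart O ({t} : Set F))) P) =
      Polynomial.aeval (ρ ⟨t, ht⟩) (P.map res))
    (htr : Transcendental κ (ρ ⟨t, ht⟩))
    (m : Ideal ↥(s18_chart O ({t} : Set F))) (hm : m.IsMaximal) :
    ∃ b : ↥(s18_chart O ({t} : Set F)), b ∈ m ∧ ρ b ≠ 0 := by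
  classical
  by_contra hcon
  push Not at hcon
  haveI := hm
  have hmax := Ideal.isMaximal_comap_of_isIntegral_of_isMaximal' _
    (s35nd_aeval_isIntegral (O := O) t ht) m
  have hmap : ∀ P : O[X], P ∈ m.comap
      ((Polynomial.aeval (⟨t, ht⟩ : ↥(s18_chart O ({t} : Set F))) :
        O[X] →ₐ[O] ↥(s18_chart O ({t} : Set F))) : O[X] →+* ↥(s18_chart O ({t} : Set F))) →
      P.map res = 0 := by
    intro P hP
    have h1 : ρ (Polynomial.aeval (⟨t, ht⟩ : ↥(s18_chart O ({t} : Set F))) P) = 0 :=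
      hcon _ hP
    rw [hρ] at h1
    exact (transcendental_iff.1 htr) _ h1
  have hX : (Polynomial.X : O[X]) ∉ m.comap
      ((Polynomial.aeval (⟨t, ht⟩ : ↥(s18_chart O ({t} : Set F))) :
        O[X] →ₐ[O] ↥(s18_chart O ({t} : Set F))) : O[X] →+* ↥(s18_chart O ({t} : Set F))) := by
    intro h
    have := hmap _ h
    rw [Polynomial.map_X] at this
    exact Polynomial.X_ne_zero this
  obtain ⟨Y, i, hi, hYi⟩ := hmax.exists_inv hX
  have h1 := congrArg (Polynomial.map res) hYi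
  rw [Polynomial.map_add, Polynomial.map_mul, Polynomial.map_X, hmap i hi, add_zero,
    Polynomial.map_one] at h1
  exact Polynomial.not_isUnit_X (IsUnit.of_mul_eq_one _ ((mul_comm _ _).trans h1))

end NotMax

/-! ### The generic wiring -/

section Unif

variable {O K : Type} [CommRing O] [IsDomain O] [IsDiscreteValuationRing O] [Field K]
  [CharZero K] [Algebra O K] [IsFractionRing O K] (M q : ℕ) [NeZero M] [NeZero q]
  [NeZero (M * q)] [Fact q.Prime] [Finite (IsLocalRing.ResidueField O)]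
  (hqO : (q : O) ∈ IsLocalRing.maximalIdeal O)
  (W : ↥(s18_F K (M * q)) ≃ₐ[K] ↥(s18_F K (M * q)))
  (hWW : ∀ f, W (W f) = f)
  (hWα : ∀ f : ↥(s18_F K M), W (heckeAlphaBar K M q f) = heckeBetaBar K M q f)
  {ϖ : O} (hϖ : Irreducible ϖ)
  (t : ↥(s18_F K (M * q))) (htV : t ∈ s34g_V O K (M * q)) (hWt : W t = t)
  (T : Set ↥(s18_F K M)) (hTV : ∀ t ∈ T, t ∈ s34g_V O K M)
  (σ : K ≃ₐ[ℚ] K) (φ : IsLocalRing.ResidueField O →+* IsLocalRing.ResidueField O)
  (hσ : s35fr_Induces (O := O) (σ : K →+* K) φ)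
  (hφ : ∀ c : IsLocalRing.ResidueField O, φ c = c ^ q ^ 2)

include hqO hWW hWα hϖ htV hWt hσ hφ in
/-- **The refined dichotomy on a chart of the model, generic wiring.** -/
theorem s35nd_unif :
    letI := s18_algOF O K M
    letI := s18_algOF O K (M * q)
    IsDedekindDomain (s18_fibre O T) →
    Function.Injective (s34g_fibreMap (O := O) M T hTV) →
    (∀ b₀ ∈ s18_chart O T, heckeAlphaBar K M q b₀ ∈
      s18_chart O ({t} : Set ↥(s18_F K (M * q)))) →
    (∀ b ∈ s18_chart O ({t} : Set ↥(s18_F K (M * q))), ∀ hbV : b ∈ s34g_V O K (M * q),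
      ∃ b₀ ∈ s18_chart O T, ∃ hb₀ : b₀ ∈ s34g_V O K M,
        s34g_rho O K (M * q) ⟨b, hbV⟩ = s34g_rho O K M ⟨b₀, hb₀⟩) →
    (∃ b ∈ s18_chart O ({t} : Set ↥(s18_F K (M * q))), ∃ (hb : b ∈ s34g_V O K (M * q))
      (hWb : W b ∈ s34g_V O K (M * q)),
      s34g_rho O K (M * q) ⟨W b, hWb⟩ = 0 ∧ s34g_rho O K (M * q) ⟨b, hb⟩ ≠ 0) →
    (∀ w ∈ s34g_W2 O W, algebraMap O ↥(s18_F K (M * q)) ϖ * w ∈
        s18_chart O ({t} : Set ↥(s18_F K (M * q))) →
      w ∈ s18_chart O ({t} : Set ↥(s18_F K (M * q)))) →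
    Transcendental (IsLocalRing.ResidueField O) (s34g_rho O K (M * q) ⟨t, htV⟩) →
    ∀ (hB : ∀ b : ↥(s18_chart O ({t} : Set ↥(s18_F K (M * q)))),
        algebraMap ↥(s18_chart O ({t} : Set ↥(s18_F K (M * q)))) ↥(s18_F K (M * q)) b ∈
          s34g_V O K (M * q))
      (hB0 : ∀ b : ↥(s18_chart O ({t} : Set ↥(s18_F K (M * q)))),
        algebraMap ↥(s18_chart O ({t} : Set ↥(s18_F K (M * q)))) ↥(s18_F K (M * q)) b ∈
          s34g_V0 O W)
      (hmem : ∀ b ∈ s18_chart O ({t} : Set ↥(s18_F K (M * q))),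
        arithmeticRingAut (modularFunctionFieldFull (M * q)) σ b ∈
          s18_chart O ({t} : Set ↥(s18_F K (M * q))))
      (hsymm : ∀ b ∈ s18_chart O ({t} : Set ↥(s18_F K (M * q))),
        (arithmeticRingAut (modularFunctionFieldFull (M * q)) σ).symm b ∈
          s18_chart O ({t} : Set ↥(s18_F K (M * q))))
      (n : Ideal ↥(s18_chart O ({t} : Set ↥(s18_F K (M * q))))), n.IsMaximal →
      algebraMap O ↥(s18_chart O ({t} : Set ↥(s18_F K (M * q)))) ϖ ∈ n →
      s35nd_At (algebraMap O ↥(s18_chart O ({t} : Set ↥(s18_F K (M * q)))) ϖ)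
        (s34l1_centre (s34g_V O K (M * q)) hB) (s34l1_centre (s34g_V0 O W) hB0)
        (s35k_sigma (arithmeticRingAut (modularFunctionFieldFull (M * q)) σ) hmem hsymm)
        (q ^ 2) n := by
  letI := s18_algOF O K M
  letI := s18_algOF O K (M * q)
  intro hDed he hα hsub hne hsat htr hB hB0 hmem hsymm n hn hπn
  haveI := s18gq_charP O q hqO
  haveI := hDed
  haveI := hn
  have hO : ∀ a : O, algebraMap O ↥(s18_F K (M * q)) a ∈ s34g_V O K (M * q) :=
    fun a => s34g_algebraMap_mem a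
  have hWO : ∀ a : O, W.toRingEquiv (algebraMap O ↥(s18_F K (M * q)) a) =
      algebraMap O ↥(s18_F K (M * q)) a := fun a => s34g_W_algebraMap (W := W) a
  have hWW' : ∀ x, W.toRingEquiv (W.toRingEquiv x) = x := hWW
  have hWt' : W.toRingEquiv t = t := hWt
  have hSV : ∀ s ∈ ({t} : Set ↥(s18_F K (M * q))), s ∈ s34g_V O K (M * q) :=
    s35nd_hSV (s34g_V O K (M * q)) t htV
  have hle : ∀ b : ↥(s18_chart O ({t} : Set ↥(s18_F K (M * q)))),
      (b : ↥(s18_F K (M * q))) ∈ s34g_V O K (M * q) :=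
    fun b => s34nd_chart_le (s34g_V O K (M * q)) hO {t} hSV b b.2
  have hleM : ∀ b ∈ s18_chart O T, b ∈ s34g_V O K M :=
    fun b hb => s34g_chart_le T hTV b hb
  have hπ0 : algebraMap O ↥(s18_F K (M * q)) ϖ ≠ 0 := s34g_algebraMap_ne_zero hϖ.ne_zero
  refine s35nd_chart (s34g_V O K (M * q)) (s34g_V0 O W) hO W.toRingEquiv hWO hWW' t htV hWt'
    (fun x => s34kvi_comap_nonunits W x) q (s34g_rho O K (M * q))
    (s34g_fibreMap (O := O) M T hTV) ϖ ?_ (s34kvi_pi_mem hϖ) hB hB0 ?_ he ?_ ?_ ?_ ?_ ?_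
    (arithmeticRingAut (modularFunctionFieldFull (M * q)) σ) hmem hsymm φ hφ ?_ n hπn
  · -- hρ
    intro v
    exact ((s34kvi_mem_nonunits_iff (v : ↥(s18_F K (M * q))) v.2).symm)
  · -- (D1)
    intro b h1 h2
    have h1' : s34g_rho O K (M * q) ⟨(b : ↥(s18_F K (M * q))), hle b⟩ = 0 := h1
    have hWb : W (b : ↥(s18_F K (M * q))) ∈ s34g_V O K (M * q) :=
      hle (s34nd_WB W.toRingEquiv hWO {t} (s35nd_hWS W.toRingEquiv t hWt') hWW' b)
    have h2' : s34g_rho O K (M * q) ⟨W (b : ↥(s18_F K (M * q))), hWb⟩ = 0 := h2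
    have hd1 := s34g_rho_eq_zero hϖ _ h1'
    have hd2 := s34g_rho_eq_zero hϖ _ h2'
    have hw : (b : ↥(s18_F K (M * q))) / algebraMap O ↥(s18_F K (M * q)) ϖ ∈ s34g_W2 O W := by
      refine (s34g_mem_W2_iff _).2 ⟨hd1, ?_⟩
      rw [map_div₀, s34g_W_algebraMap (W := W)]
      exact hd2
    have hmem' := hsat _ hw (by rw [mul_div_cancel₀ _ hπ0]; exact b.2)
    refine ⟨⟨_, hmem'⟩, Subtype.ext ?_⟩
    show (b : ↥(s18_F K (M * q))) = algebraMap O ↥(s18_F K (M * q)) ϖ *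
      ((b : ↥(s18_F K (M * q))) / algebraMap O ↥(s18_F K (M * q)) ϖ)
    rw [mul_div_cancel₀ _ hπ0]
  · -- hsub
    intro b
    obtain ⟨b₀, hb₀, hb₀V, h⟩ := hsub b b.2 (hle b)
    exact ⟨Ideal.Quotient.mk _ ⟨b₀, hb₀⟩, h.symm⟩
  · -- hsup
    intro a
    obtain ⟨b₀, rfl⟩ := Ideal.Quotient.mk_surjective a
    refine ⟨⟨heckeAlphaBar K M q (b₀ : ↥(s18_F K M)), hα b₀ b₀.2⟩, ?_⟩
    exact s34g_rho_alpha M q ⟨(b₀ : ↥(s18_F K M)), hleM b₀ b₀.2⟩
  · -- hne
    obtain ⟨b, hb, hbV, hWbV, h1, h2⟩ := hne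
    exact ⟨⟨b, hb⟩, h1, h2⟩
  · -- hlift
    intro b
    obtain ⟨b₀, hb₀, hb₀V, h⟩ := hsub b b.2 (hle b)
    refine ⟨⟨heckeAlphaBar K M q b₀, hα b₀ hb₀⟩, ?_, ?_⟩
    · show s34g_rho O K (M * q) ⟨heckeAlphaBar K M q b₀, _⟩ =
        s34g_rho O K (M * q) ⟨(b : ↥(s18_F K (M * q))), hle b⟩
      rw [h]
      exact s34g_rho_alpha M q ⟨b₀, hb₀V⟩
    · show s34g_rho O K (M * q) ⟨W (heckeAlphaBar K M q b₀), _⟩ =
        qExpand (IsLocalRing.ResidueField O) q
          (s34g_rho O K (M * q) ⟨(b : ↥(s18_F K (M * q))), hle b⟩)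
      rw [h, ← s34g_rho_beta M q ⟨b₀, hb₀V⟩]
      congr 1
      exact Subtype.ext (hWα b₀)
  · -- [NOT-MAX]
    intro m hm
    have ht : t ∈ s18_chart O ({t} : Set ↥(s18_F K (M * q))) := s35nd_self_mem t
    refine s35nd_notMax (IsLocalRing.residue O) t ht
      (s34nd_rhoB (s34g_V O K (M * q)) hO {t} hSV (s34g_rho O K (M * q))) ?_ ?_ m hm
    · intro P
      have hcoe : ((Polynomial.aeval (⟨t, ht⟩ : ↥(s18_chart O ({t} : Set ↥(s18_F K (M * q)))))
          P : ↥(s18_chart O ({t} : Set ↥(s18_F K (M * q))))) : ↥(s18_F K (M * q))) =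
          Polynomial.aeval t P :=
        (Polynomial.aeval_algHom_apply (s18_chart O ({t} : Set ↥(s18_F K (M * q)))).val
          (⟨t, ht⟩ : ↥(s18_chart O ({t} : Set ↥(s18_F K (M * q))))) P).symm
      rw [s34nd_rhoB_eq (s34g_V O K (M * q)) hO {t} hSV (s34g_rho O K (M * q)) _
          ⟨Polynomial.aeval t P, s34co_aeval_mem t htV P⟩ hcoe.symm,
        s34nd_rhoB_eq (s34g_V O K (M * q)) hO {t} hSV (s34g_rho O K (M * q)) ⟨t, ht⟩
          ⟨t, htV⟩ rfl]
      exact s34co_rho_aeval t htV P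
    · rw [s34nd_rhoB_eq (s34g_V O K (M * q)) hO {t} hSV (s34g_rho O K (M * q)) ⟨t, ht⟩
          ⟨t, htV⟩ rfl]
      exact htr
  · -- hτρ
    intro v
    exact ⟨s35fr_tau_mem σ φ hσ _ v.2, s35fr_rho_tau σ φ hσ v⟩

end Unif

end Fermat.Agent.S35
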