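/-
S35, leaf [NF-NODE], THE TWO CHARTS `chart(J)`, `chart(J⁻¹)`, `J = j · j_q`, GENERIC FORM
(model instance: helper22).  Prefix `s35nd_`.

The S35 analogue of helper23's `S34/SsNodeGen.lean` (`s34nd_dich_fin`, `s34nd_dich_inf`), with the
refined conclusion `s35nd_At` of `S35/NfNodeChart.lean`: at every maximal ideal `n ∋ π` of the
chart, for the centres `p_∞`, `p_0` of `V_∞`, `V_0` and the restriction `σ_B` of
`τ = arithmeticRingAut σ`, `σ` inducing `c ↦ c ^ (q ^ 2)` on the residue field: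

  NODE  (`p_∞, p_0 ≤ n`, [FROB-n], `σ n = n`, [BR_∞], [BR_0], [GLUE])  or
  a point of one branch only (`θ` in the other branch with `θ ≡ 1` modulo `n`, [BR]).

Inputs as in `S34/SsNodeGen.lean` ((INT), [K-ISW] `sat`, the Dedekind fibre of level `M`), plus
`ρ_∞ J = j̄ ^ (q + 1)` transcendental (helper15's `s34sb_rho_J`).
-/
import Mathlib
import Fermat.Agent.S34.SsNodeGen
import Fermat.Agent.S35.NfNodeUnif

set_option autoImplicit false
set_option linter.unusedSectionVars false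
set_option linter.unusedVariables false
set_option linter.style.haveILetI false
set_option warn.classDefReducibility false
set_option synthInstance.maxHeartbeats 400000
set_option maxHeartbeats 400000

open AlgebraicCurve ModularCurve IntermediateField
open Fermat.Agent.S18 Fermat.Agent.S34

noncomputable section

namespace Fermat.Agent.S35

section Gen

variable {O K : Type} [CommRing O] [IsDomain O] [IsDiscreteValuationRing O] [Field K]
  [CharZero K] [Algebra O K] [IsFractionRing O K] (M q : ℕ) [NeZero M] [NeZero q]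
  [NeZero (M * q)] [Fact q.Prime] [Finite (IsLocalRing.ResidueField O)]
  (hqM : ¬ q ∣ M) (hqO : (q : O) ∈ IsLocalRing.maximalIdeal O)
  (W : ↥(s18_F K (M * q)) ≃ₐ[K] ↥(s18_F K (M * q)))
  (hWW : ∀ f, W (W f) = f)
  (hWα : ∀ f : ↥(s18_F K M), W (heckeAlphaBar K M q f) = heckeBetaBar K M q f)
  (hWj : W (s18_j K (M * q)) = s34g_jd K (M * q) q (dvd_mul_left q M))
  (hWjq : W (s34g_jd K (M * q) q (dvd_mul_left q M)) = s18_j K (M * q))
  {ϖ : O} (hϖ : Irreducible ϖ)
  (σ : K ≃ₐ[ℚ] K) (φ : IsLocalRing.ResidueField O →+* IsLocalRing.ResidueField O)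
  (hσ : s35fr_Induces (O := O) (σ : K →+* K) φ)
  (hφ : ∀ c : IsLocalRing.ResidueField O, φ c = c ^ q ^ 2)

include hqM hqO hWW hWα hWj hWjq hϖ hσ hφ in
/-- **The refined dichotomy on `chart(J)`.** -/
theorem s35nd_fin :
    letI := s18_algOF O K M
    letI := s18_algOF O K (M * q)
    IsIntegral ↥(Algebra.adjoin O ({s18_j K (M * q)} : Set ↥(s18_F K (M * q))))
      (s34g_jd K (M * q) q (dvd_mul_left q M)) →
    IsIntegral
      ↥(Algebra.adjoin O ({s34g_jd K (M * q) q (dvd_mul_left q M)} : Set ↥(s18_F K (M * q))))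
      (s18_j K (M * q)) →
    IsDedekindDomain (s18_fibre O ({s18_j K M} : Set ↥(s18_F K M))) →
    (∀ w ∈ s34g_W2 O W, algebraMap O ↥(s18_F K (M * q)) ϖ * w ∈
        s18_chart O ({s18_j K (M * q) * s34g_jd K (M * q) q (dvd_mul_left q M)} :
          Set ↥(s18_F K (M * q))) →
      w ∈ s18_chart O ({s18_j K (M * q) * s34g_jd K (M * q) q (dvd_mul_left q M)} :
          Set ↥(s18_F K (M * q)))) →
    ∀ (hB : ∀ b : ↥(s18_chart O
          ({s18_j K (M * q) * s34g_jd K (M * q) q (dvd_mul_left q M)} :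
            Set ↥(s18_F K (M * q)))),
        algebraMap _ ↥(s18_F K (M * q)) b ∈ s34g_V O K (M * q))
      (hB0 : ∀ b : ↥(s18_chart O
          ({s18_j K (M * q) * s34g_jd K (M * q) q (dvd_mul_left q M)} :
            Set ↥(s18_F K (M * q)))),
        algebraMap _ ↥(s18_F K (M * q)) b ∈ s34g_V0 O W)
      (hmem : ∀ b ∈ s18_chart O
          ({s18_j K (M * q) * s34g_jd K (M * q) q (dvd_mul_left q M)} :
            Set ↥(s18_F K (M * q))),
        arithmeticRingAut (modularFunctionFieldFull (M * q)) σ b ∈ s18_chart O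
          ({s18_j K (M * q) * s34g_jd K (M * q) q (dvd_mul_left q M)} :
            Set ↥(s18_F K (M * q))))
      (hsymm : ∀ b ∈ s18_chart O
          ({s18_j K (M * q) * s34g_jd K (M * q) q (dvd_mul_left q M)} :
            Set ↥(s18_F K (M * q))),
        (arithmeticRingAut (modularFunctionFieldFull (M * q)) σ).symm b ∈ s18_chart O
          ({s18_j K (M * q) * s34g_jd K (M * q) q (dvd_mul_left q M)} :
            Set ↥(s18_F K (M * q))))
      (n : Ideal ↥(s18_chart O
        ({s18_j K (M * q) * s34g_jd K (M * q) q (dvd_mul_left q M)} :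
          Set ↥(s18_F K (M * q))))),
      n.IsMaximal → algebraMap O _ ϖ ∈ n →
        s35nd_At (algebraMap O _ ϖ) (s34l1_centre (s34g_V O K (M * q)) hB)
          (s34l1_centre (s34g_V0 O W) hB0)
          (s35k_sigma (arithmeticRingAut (modularFunctionFieldFull (M * q)) σ) hmem hsymm)
          (q ^ 2) n := by
  letI := s18_algOF O K M
  letI := s18_algOF O K (M * q)
  intro hint hint' hDed hsat hB hB0 hmem hsymm n hn hπn
  have hj : s18_j K (M * q) ∈ s18_chart O
      ({s18_j K (M * q) * s34g_jd K (M * q) q (dvd_mul_left q M)} :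
        Set ↥(s18_F K (M * q))) := s34in_left_mem hint'
  have hjq : s34g_jd K (M * q) q (dvd_mul_left q M) ∈ s18_chart O
      ({s18_j K (M * q) * s34g_jd K (M * q) q (dvd_mul_left q M)} :
        Set ↥(s18_F K (M * q))) := s34in_right_mem hint
  have hdom : IsDomain (s18_fibre O ({s18_j K M} : Set ↥(s18_F K M))) := inferInstance
  have hic : IsIntegrallyClosed (s18_fibre O ({s18_j K M} : Set ↥(s18_F K M))) :=
    inferInstance
  refine s35nd_unif M q hqO W hWW hWα hϖ _ s34sb_J_mem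
    (s34g_W_J q (dvd_mul_left q M) W hWj hWjq) _ (s34g_hS_j M) σ φ hσ hφ hDed
    (s34g_fibreMap_j_injective M q hqM hqO) ?_ ?_ ?_ hsat ?_ hB hB0 hmem hsymm n hn hπn
  · intro b₀ hb₀
    exact s34wc_alpha_mem O M q b₀ hint' hb₀
  · intro b hb hbV
    obtain ⟨b₀, h⟩ := s34sb_sub_J W hqM hqO hWW hWj hdom hic ⟨b, hb⟩
    exact ⟨b₀.1, b₀.2, s34g_chart_le _ (s34g_hS_j M) _ b₀.2, h⟩
  · obtain ⟨x, hx, hWx, hxe, h1, h2⟩ :=
      s34g_ne_witness (O := O) q (dvd_mul_left q M) hqO W hWj hWjq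
    refine ⟨x, ?_, hx, hWx, h1, h2⟩
    rw [hxe]
    exact sub_mem (pow_mem hjq q) hj
  · rw [s34sb_rho_J hqO]
    exact (s18gq_transc_jq _).pow (Nat.succ_pos q)

include hqM hqO hWW hWα hWj hWjq hϖ hσ hφ in
/-- **The refined dichotomy on `chart(J⁻¹)`.** -/
theorem s35nd_inf :
    letI := s18_algOF O K M
    letI := s18_algOF O K (M * q)
    IsIntegral ↥(Algebra.adjoin O ({s18_j K (M * q)} : Set ↥(s18_F K (M * q))))
      (s34g_jd K (M * q) q (dvd_mul_left q M)) →
    IsIntegral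
      ↥(Algebra.adjoin O ({s34g_jd K (M * q) q (dvd_mul_left q M)} : Set ↥(s18_F K (M * q))))
      (s18_j K (M * q)) →
    IsDedekindDomain (s18_fibre O ({(s18_j K M)⁻¹} : Set ↥(s18_F K M))) →
    (∀ w ∈ s34g_W2 O W, algebraMap O ↥(s18_F K (M * q)) ϖ * w ∈
        s18_chart O ({(s18_j K (M * q) * s34g_jd K (M * q) q (dvd_mul_left q M))⁻¹} :
          Set ↥(s18_F K (M * q))) →
      w ∈ s18_chart O ({(s18_j K (M * q) * s34g_jd K (M * q) q (dvd_mul_left q M))⁻¹} :
          Set ↥(s18_F K (M * q)))) →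
    ∀ (hB : ∀ b : ↥(s18_chart O
          ({(s18_j K (M * q) * s34g_jd K (M * q) q (dvd_mul_left q M))⁻¹} :
            Set ↥(s18_F K (M * q)))),
        algebraMap _ ↥(s18_F K (M * q)) b ∈ s34g_V O K (M * q))
      (hB0 : ∀ b : ↥(s18_chart O
          ({(s18_j K (M * q) * s34g_jd K (M * q) q (dvd_mul_left q M))⁻¹} :
            Set ↥(s18_F K (M * q)))),
        algebraMap _ ↥(s18_F K (M * q)) b ∈ s34g_V0 O W)
      (hmem : ∀ b ∈ s18_chart O
          ({(s18_j K (M * q) * s34g_jd K (M * q) q (dvd_mul_left q M))⁻¹} :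
            Set ↥(s18_F K (M * q))),
        arithmeticRingAut (modularFunctionFieldFull (M * q)) σ b ∈ s18_chart O
          ({(s18_j K (M * q) * s34g_jd K (M * q) q (dvd_mul_left q M))⁻¹} :
            Set ↥(s18_F K (M * q))))
      (hsymm : ∀ b ∈ s18_chart O
          ({(s18_j K (M * q) * s34g_jd K (M * q) q (dvd_mul_left q M))⁻¹} :
            Set ↥(s18_F K (M * q))),
        (arithmeticRingAut (modularFunctionFieldFull (M * q)) σ).symm b ∈ s18_chart O
          ({(s18_j K (M * q) * s34g_jd K (M * q) q (dvd_mul_left q M))⁻¹} :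
            Set ↥(s18_F K (M * q))))
      (n : Ideal ↥(s18_chart O
        ({(s18_j K (M * q) * s34g_jd K (M * q) q (dvd_mul_left q M))⁻¹} :
          Set ↥(s18_F K (M * q))))),
      n.IsMaximal → algebraMap O _ ϖ ∈ n →
        s35nd_At (algebraMap O _ ϖ) (s34l1_centre (s34g_V O K (M * q)) hB)
          (s34l1_centre (s34g_V0 O W) hB0)
          (s35k_sigma (arithmeticRingAut (modularFunctionFieldFull (M * q)) σ) hmem hsymm)
          (q ^ 2) n := by
  letI := s18_algOF O K M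
  letI := s18_algOF O K (M * q)
  intro hint hint' hDed hsat hB hB0 hmem hsymm n hn hπn
  have hj0 : s18_j K (M * q) ≠ 0 := s18gq_j_ne_zero K (M * q)
  have hjq0 : s34g_jd K (M * q) q (dvd_mul_left q M) ≠ 0 := by
    rw [← hWj]
    exact (map_ne_zero W).2 hj0
  have hj : (s18_j K (M * q))⁻¹ ∈ s18_chart O
      ({(s18_j K (M * q) * s34g_jd K (M * q) q (dvd_mul_left q M))⁻¹} :
        Set ↥(s18_F K (M * q))) := s34in_inv_left_mem hjq0 hint
  have hjq : (s34g_jd K (M * q) q (dvd_mul_left q M))⁻¹ ∈ s18_chart O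
      ({(s18_j K (M * q) * s34g_jd K (M * q) q (dvd_mul_left q M))⁻¹} :
        Set ↥(s18_F K (M * q))) := s34in_inv_right_mem hj0 hint'
  have hJinv := s34g_J_inv_mem_W2 (O := O) q (dvd_mul_left q M) W hWj hWjq
  have hJ := s34g_J_mem_W2 (O := O) q (dvd_mul_left q M) W hWj hWjq
  have hWJ := s34g_W_J q (dvd_mul_left q M) W hWj hWjq
  have hWJinv : W (s18_j K (M * q) * s34g_jd K (M * q) q (dvd_mul_left q M))⁻¹ =
      (s18_j K (M * q) * s34g_jd K (M * q) q (dvd_mul_left q M))⁻¹ := by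
    rw [map_inv₀, hWJ]
  have hdom : IsDomain (s18_fibre O ({(s18_j K M)⁻¹} : Set ↥(s18_F K M))) := inferInstance
  have hic : IsIntegrallyClosed (s18_fibre O ({(s18_j K M)⁻¹} : Set ↥(s18_F K M))) :=
    inferInstance
  refine s35nd_unif M q hqO W hWW hWα hϖ _ s34sb_J_inv_mem hWJinv _
    (s34g_hS_jinv M) σ φ hσ hφ hDed (s34g_fibreMap_jinv_injective M q hqM hqO) ?_ ?_ ?_ hsat ?_
    hB hB0 hmem hsymm n hn hπn
  · intro b₀ hb₀
    exact s34wc_alpha_inv_mem O M q b₀ hint hb₀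
  · intro b hb hbV
    obtain ⟨b₀, h⟩ := s34sb_sub_Jinv W hqM hqO hWW hWj hdom hic ⟨b, hb⟩
    exact ⟨b₀.1, b₀.2, s34g_chart_le _ (s34g_hS_jinv M) _ b₀.2, h⟩
  · obtain ⟨x, hx, hWx, hxe, h1, h2⟩ :=
      s34g_ne_witness (O := O) q (dvd_mul_left q M) hqO W hWj hWjq
    have hρJ : s34g_rho O K (M * q) ⟨_, hJinv.1⟩ ≠ 0 := by
      intro h0
      have e : (⟨_, hJ.1⟩ : ↥(s34g_V O K (M * q))) * ⟨_, hJinv.1⟩ = 1 := by
        apply Subtype.ext
        show s18_j K (M * q) * s34g_jd K (M * q) q (dvd_mul_left q M) *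
          (s18_j K (M * q) * s34g_jd K (M * q) q (dvd_mul_left q M))⁻¹ = 1
        exact mul_inv_cancel₀ (mul_ne_zero hj0 hjq0)
      have e' := congrArg (s34g_rho O K (M * q)) e
      rw [map_mul, h0, mul_zero, map_one] at e'
      exact zero_ne_one e'
    have hbV : x * (s18_j K (M * q) * s34g_jd K (M * q) q (dvd_mul_left q M))⁻¹ ^ q ∈
        s34g_V O K (M * q) := mul_mem hx (pow_mem hJinv.1 q)
    have hWb : W (x * (s18_j K (M * q) * s34g_jd K (M * q) q (dvd_mul_left q M))⁻¹ ^ q) =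
        W x * (s18_j K (M * q) * s34g_jd K (M * q) q (dvd_mul_left q M))⁻¹ ^ q := by
      rw [map_mul, map_pow, hWJinv]
    have hWbV : W (x * (s18_j K (M * q) * s34g_jd K (M * q) q (dvd_mul_left q M))⁻¹ ^ q) ∈
        s34g_V O K (M * q) := by
      rw [hWb]
      exact mul_mem hWx (pow_mem hJinv.1 q)
    refine ⟨x * (s18_j K (M * q) * s34g_jd K (M * q) q (dvd_mul_left q M))⁻¹ ^ q, ?_, hbV,
      hWbV, ?_, ?_⟩
    · -- membership in the chart
      have hq1 : q - 1 + 1 = q := Nat.succ_pred_eq_of_ne_zero (NeZero.ne q)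
      have hpow : s18_j K (M * q) * (s18_j K (M * q))⁻¹ ^ q =
          (s18_j K (M * q))⁻¹ ^ (q - 1) := by
        have h : s18_j K (M * q) * (s18_j K (M * q))⁻¹ ^ (q - 1 + 1) =
            (s18_j K (M * q))⁻¹ ^ (q - 1) := by
          rw [pow_succ, ← mul_assoc, mul_comm (s18_j K (M * q)), mul_assoc,
            mul_inv_cancel₀ hj0, mul_one]
        rwa [hq1] at h
      have e : x * (s18_j K (M * q) * s34g_jd K (M * q) q (dvd_mul_left q M))⁻¹ ^ q =
          (s18_j K (M * q))⁻¹ ^ q -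
            (s18_j K (M * q))⁻¹ ^ (q - 1) *
              (s34g_jd K (M * q) q (dvd_mul_left q M))⁻¹ ^ q := by
        rw [hxe, mul_inv, mul_pow, sub_mul, ← hpow]
        congr 1
        · rw [mul_comm ((s18_j K (M * q))⁻¹ ^ q), ← mul_assoc, ← mul_pow,
            mul_inv_cancel₀ hjq0, one_pow, one_mul]
        · rw [mul_assoc]
      rw [e]
      exact sub_mem (pow_mem hj q) (mul_mem (pow_mem hj (q - 1)) (pow_mem hjq q))
    · have e : (⟨_, hWbV⟩ : ↥(s34g_V O K (M * q))) = ⟨W x, hWx⟩ * ⟨_, hJinv.1⟩ ^ q :=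
        Subtype.ext hWb
      rw [e, map_mul, h1, zero_mul]
    · have e : (⟨_, hbV⟩ : ↥(s34g_V O K (M * q))) = ⟨x, hx⟩ * ⟨_, hJinv.1⟩ ^ q := rfl
      rw [e, map_mul, map_pow]
      exact mul_ne_zero h2 (pow_ne_zero q hρJ)
  · rw [s34sb_rho_J_inv hqO]
    exact (s18gq_transc_jq_inv _).pow (Nat.succ_pos q)

end Gen

end Fermat.Agent.S35
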