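/-
S35, leaf **[NF-NODE]**, the refined dichotomy in the vocabulary of [NF-LOC-ABS] (helper10).
Prefix `s35nb_`.

`S35/NfNodeBr.lean` proves the refined dichotomy `s35nb_dich` with [BR] in the form
`∃ t ∈ n, ∀ a ∉ p, ∃ k s c, s ∉ n ∧ c ∉ n ∧ s * a - c * t ^ k ∈ p`.  The consumers
`s35lo_NodeStatement` / `s35lo_SmoothStatement` (`S35/NfLocDefs.lean`) take
`s35lo_IsBranch p n t`, which has the additional field `notMem : t ∉ p`.  This field holds as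
soon as `n ≠ p` (`s35nb_isBranch_of`), and in the model `n ≠ p` because no vertical prime is a
closed point (`hnm`, proved for the charts in `S35/NfNodeMax.lean`).

EXPORTS
* `s35nb_isBranch_of`  : `p ≤ n`, `t ∈ n`, `∃ a ∈ n, a ∉ p`, [BR]  ⟹  `s35lo_IsBranch p n t`;
* `s35nb_glue_of_node` : the node datum of [SS-NODE] and `π ∈ p∞`  ⟹  [GLUE];
* `s35nb_dich_lo`      : the refined dichotomy at a maximal ideal `n ∋ π`:
    NODE    `p∞, p₀ ≤ n`, [FROB-n], `σ n = n`, `s35lo_IsBranch p∞ n t₁`,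
            `s35lo_IsBranch p₀ n t₂`, [GLUE];  or
    SMOOTH∞ `s35lo_IsBranch p∞ n t₁`, `θ ∈ p₀`, `θ - 1 ∈ n`;  or
    SMOOTH₀ `s35lo_IsBranch p₀ n t₂`, `θ ∈ p∞`, `θ - 1 ∈ n`.
-/
import Mathlib
import Fermat.Agent.S35.NfNodeBr
import Fermat.Agent.S35.NfLocBr

set_option autoImplicit false
set_option linter.unusedSectionVars false
set_option linter.unusedVariables false
set_option linter.style.haveILetI false

open ModularCurve

noncomputable section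

namespace Fermat.Agent.S35

open Fermat.Agent.S34

section Abs

variable {B : Type*} [CommRing B]

/-- **[BR] ⟹ `s35lo_IsBranch`**, as soon as `n ≠ p`. -/
theorem s35nb_isBranch_of (p n : Ideal B) [hp : p.IsPrime] (hpn : p ≤ n)
    (hne : ∃ a : B, a ∈ n ∧ a ∉ p) {t : B} (ht : t ∈ n)
    (hunif : ∀ a : B, a ∉ p →
      ∃ (k : ℕ) (s c : B), s ∉ n ∧ c ∉ n ∧ s * a - c * t ^ k ∈ p) :
    s35lo_IsBranch p n t := by
  refine ⟨hpn, ht, ?_, hunif⟩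
  intro htp
  obtain ⟨a, han, hap⟩ := hne
  obtain ⟨k, s, c, hs, hc, h⟩ := hunif a hap
  rcases Nat.eq_zero_or_pos k with hk | hk
  · subst hk
    rw [pow_zero, mul_one] at h
    apply hc
    have e : c = s * a - (s * a - c) := by ring
    rw [e]
    exact n.sub_mem (n.mul_mem_left _ han) (hpn h)
  · have h1 : c * t ^ k ∈ p := p.mul_mem_left _ (Ideal.pow_mem_of_mem p htp k hk)
    have h2 : s * a ∈ p := by
      have e : s * a = (s * a - c * t ^ k) + c * t ^ k := by ring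
      rw [e]
      exact p.add_mem h h1
    rcases hp.mem_or_mem h2 with h3 | h3
    · exact hs (hpn h3)
    · exact hap h3

/-- **[GLUE]** from the node datum of [SS-NODE]. -/
theorem s35nb_glue_of_node {π : B} {pinf p0 n : Ideal B} {x y : B}
    (h : s34nd_IsNode π pinf p0 n x y) (hπ : π ∈ pinf) :
    ∀ z ∈ n, ∃ s : B, s ∉ n ∧ s * z ∈ pinf ⊔ p0 := by
  intro z hz
  obtain ⟨s, hs, hsz⟩ := h.n_le z hz
  refine ⟨s, hs, ?_⟩
  have hle : Ideal.span ({π, x, y} : Set B) ≤ pinf ⊔ p0 := by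
    rw [Ideal.span_le]
    intro w hw
    rcases hw with rfl | rfl | rfl
    · exact Ideal.mem_sup_left hπ
    · exact Ideal.mem_sup_right h.x_mem
    · exact Ideal.mem_sup_left h.y_mem
  exact hle hsz

end Abs

section DichLo

variable {B A κ : Type*} [CommRing B] [CommRing A] [IsDedekindDomain A] [Field κ] [Finite κ]
  (q : ℕ) [NeZero q] [Fact q.Prime] [CharP κ q]
  (π : B) (ρ : B →+* LaurentSeries κ) (r : B →+* A) (W σ : B ≃+* B) (ψ : κ →+* κ)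

include q in
/-- **[NF-NODE], the refined dichotomy in the vocabulary of [NF-LOC-ABS]**
(`s35lo_NodeStatement`, `s35lo_SmoothStatement`), at a maximal ideal `n ∋ π` which is not a
vertical prime (`hnm`). -/
theorem s35nb_dich_lo (hr : Function.Surjective r) (hrρ : ∀ b, r b = 0 ↔ ρ b = 0)
    (hWW : ∀ b, W (W b) = b)
    (hcap : ∀ b : B, ρ b = 0 → ρ (W b) = 0 → b ∈ Ideal.span {π})
    (hne : ∃ b : B, ρ (W b) = 0 ∧ ρ b ≠ 0)
    (hlift : ∀ b : B, ∃ b' : B, ρ b' = ρ b ∧ ρ (W b') = qExpand κ q (ρ b))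
    (hψ : ∀ c : κ, ψ c = c ^ q ^ 2) (hσ : ∀ b : B, ρ (σ b) = coeffMap ψ (ρ b))
    (hπ : ρ π = 0)
    (n : Ideal B) [hn : n.IsMaximal] (hπn : π ∈ n)
    (hnm : ∃ a : B, a ∈ n ∧ ρ a ≠ 0 ∧ ρ (W a) ≠ 0) :
    (RingHom.ker ρ ≤ n ∧ RingHom.ker (ρ.comp (W : B →+* B)) ≤ n ∧
        (∀ b : B, σ b - b ^ q ^ 2 ∈ n) ∧ (∀ b : B, σ b ∈ n ↔ b ∈ n) ∧
        ∃ t₁ t₂ : B, s35lo_IsBranch (RingHom.ker ρ) n t₁ ∧
          s35lo_IsBranch (RingHom.ker (ρ.comp (W : B →+* B))) n t₂ ∧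
          ∀ z ∈ n, ∃ s : B, s ∉ n ∧
            s * z ∈ RingHom.ker ρ ⊔ RingHom.ker (ρ.comp (W : B →+* B))) ∨
      (∃ t₁ θ : B, s35lo_IsBranch (RingHom.ker ρ) n t₁ ∧
        θ ∈ RingHom.ker (ρ.comp (W : B →+* B)) ∧ θ - 1 ∈ n) ∨
      (∃ t₂ θ : B, s35lo_IsBranch (RingHom.ker (ρ.comp (W : B →+* B))) n t₂ ∧
        θ ∈ RingHom.ker ρ ∧ θ - 1 ∈ n) := by
  haveI hp1 : (RingHom.ker ρ).IsPrime := RingHom.ker_isPrime ρ
  haveI hp0 : (RingHom.ker (ρ.comp (W : B →+* B))).IsPrime := RingHom.ker_isPrime _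
  obtain ⟨a, han, ha1, ha0⟩ := hnm
  have hne1 : ∃ a : B, a ∈ n ∧ a ∉ RingHom.ker ρ :=
    ⟨a, han, fun h => ha1 (RingHom.mem_ker.1 h)⟩
  have hne0 : ∃ a : B, a ∈ n ∧ a ∉ RingHom.ker (ρ.comp (W : B →+* B)) :=
    ⟨a, han, fun h => ha0 (RingHom.mem_ker.1 h)⟩
  rcases s35nb_dich q π ρ r W σ ψ hr hrρ hWW hcap hne hlift hψ hσ n hπn with
    ⟨⟨x, y, hnode⟩, hfrob, hσn, ⟨t₁, ht₁, hu₁⟩, ⟨t₂, ht₂, hu₂⟩⟩ |
    ⟨h1, ⟨θ, hθ, hθn⟩, ⟨t₁, ht₁, hu₁⟩⟩ | ⟨h0, ⟨θ, hθ, hθn⟩, ⟨t₂, ht₂, hu₂⟩⟩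
  · left
    exact ⟨hnode.pinf_le_n, hnode.p0_le_n, hfrob, hσn, t₁, t₂,
      s35nb_isBranch_of _ n hnode.pinf_le_n hne1 ht₁ hu₁,
      s35nb_isBranch_of _ n hnode.p0_le_n hne0 ht₂ hu₂,
      s35nb_glue_of_node hnode (RingHom.mem_ker.2 hπ)⟩
  · right; left
    exact ⟨t₁, θ, s35nb_isBranch_of _ n h1 hne1 ht₁ hu₁, hθ, hθn⟩
  · right; right
    exact ⟨t₂, θ, s35nb_isBranch_of _ n h0 hne0 ht₂ hu₂, hθ, hθn⟩

end DichLo

end Fermat.Agent.S35
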