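/-
S35, leaf **[NF-NODE]**, the model fact behind `s35lo_IsBranch.notMem` (helper10).
Prefix `s35nb_`.

NO VERTICAL PRIME IS A CLOSED POINT.  `O` a discrete valuation ring with residue field `κ`,
`B = s18_chart O {s}` the chart of one function `s ∈ V_∞` with `W s = s` (`s = J` or `s = J⁻¹`,
`J = j · j_q`), `ρ_B : B → κ((T))` the reduction at the cusp `∞`, `W_B` the Atkin-Lehner
involution of `B`.  Then every maximal ideal `n ∋ π` of `B` contains an element `a` with
`ρ_B a ≠ 0` and `ρ_B (W_B a) ≠ 0`; i.e. `n ≠ p∞ = ker ρ_B` and `n ≠ p₀ = ker (ρ_B ∘ W_B)`.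
This is the hypothesis `hnm` of `s35nb_dich_lo` (`S35/NfNodeLo.lean`).

PROOF.  `B / n` is a field, integral over `κ[X]` (`X ↦ s`, helper29's `s18loc_polyMap_integral`),
so the kernel of `κ[X] → B / n` is a maximal ideal of `κ[X]`, hence nonzero: some `P ∈ O[X]`
with `P̄ ≠ 0` has `a := P (s) ∈ n`.  Now `ρ_B a = P̄ (ρ s) ≠ 0` because `ρ s` is transcendental
over `κ` (`ρ J = j̄ ^ (q + 1)`, `s18gq_transc_jq`), and `W_B a = a`.

EXPORTS
* `s35nb_exists_poly`        (Mathlib + `S18/LocDim`): `∃ P, P̄ ≠ 0 ∧ P (j) ∈ n`;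
* `s35nb_rhoB_aeval`, `s35nb_WB_aeval`: `ρ_B (P (s)) = P̄ (ρ s)`, `W_B (P (s)) = P (s)`;
* `s35nb_not_vertical_chart` (chart form), `s35nb_not_vertical_gen` (the model, one function);
* `s35nb_rho_J`, `s35nb_transc_J`, `s35nb_transc_Jinv`;
* `s35nb_not_vertical_J`, `s35nb_not_vertical_Jinv`: the two charts of the model, generic
  `O`, `K`, any `W`, ANY proofs `hO`, `hSV`, `hWO`, `hWW`, `hWS` (the binders of helper23's
  `s34nd_dich_fin` / `s34nd_dich_inf` and of helper3's `s35fr_rhoB_sigma`).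
-/
import Mathlib
import Fermat.Agent.S18.LocDim
import Fermat.Agent.S34.SsNodeChart
import Fermat.Agent.S34.SsGaussNe

set_option autoImplicit false
set_option linter.unusedSectionVars false
set_option linter.unusedVariables false
set_option linter.style.haveILetI false

open ModularCurve Polynomial
open Fermat.Agent.S18

noncomputable section

namespace Fermat.Agent.S35

open Fermat.Agent.S34

section Abs

variable (O : Type) [CommRing O] [IsLocalRing O] {F : Type} [Field F] [Algebra O F] (j : F)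

/-- Every maximal ideal `n ⊇ 𝔪 B` of the chart `B = s18_chart O {j}` contains `P (j)` for some
`P ∈ O[X]` with nonzero reduction (`B / n` is integral over `κ[X]`, `X ↦ j`, and `κ[X]` is not a
field). -/
theorem s35nb_exists_poly (n : Ideal ↥(s18_chart O ({j} : Set F))) [hn : n.IsMaximal]
    (hle : s18_fibreIdeal O ({j} : Set F) ≤ n) :
    ∃ P : O[X], P.map (IsLocalRing.residue O) ≠ 0 ∧
      Polynomial.aeval (R := O)
        (⟨j, s18loc_j_mem O j⟩ : ↥(s18_chart O ({j} : Set F))) P ∈ n := by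
  let g : s18_fibre O ({j} : Set F) →+* ↥(s18_chart O ({j} : Set F)) ⧸ n :=
    Ideal.Quotient.factor hle
  have hg : Function.Surjective g := Ideal.Quotient.factor_surjective hle
  have hχ : (g.comp (s18loc_polyMap O j)).IsIntegral :=
    RingHom.IsIntegral.trans _ _ (s18loc_polyMap_integral O j)
      (RingHom.isIntegral_of_surjective g hg)
  letI : Field (↥(s18_chart O ({j} : Set F)) ⧸ n) := Ideal.Quotient.field n
  haveI hbot : (⊥ : Ideal (↥(s18_chart O ({j} : Set F)) ⧸ n)).IsMaximal := Ideal.bot_isMaximal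
  have hmax : (Ideal.comap (g.comp (s18loc_polyMap O j))
      (⊥ : Ideal (↥(s18_chart O ({j} : Set F)) ⧸ n))).IsMaximal :=
    Ideal.isMaximal_comap_of_isIntegral_of_isMaximal' _ hχ ⊥
  have hne := Ring.ne_bot_of_isMaximal_of_not_isField hmax
    (Polynomial.not_isField (IsLocalRing.ResidueField O))
  obtain ⟨Pbar, hPmem, hP0⟩ := Submodule.exists_mem_ne_zero_of_ne_bot hne
  obtain ⟨P, rfl⟩ := Polynomial.map_surjective (IsLocalRing.residue O)
    IsLocalRing.residue_surjective Pbar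
  refine ⟨P, hP0, ?_⟩
  rw [Ideal.mem_comap, Ideal.mem_bot, RingHom.comp_apply] at hPmem
  have h1 : s18loc_polyMap O j (P.map (IsLocalRing.residue O)) =
      Ideal.Quotient.mk (s18_fibreIdeal O ({j} : Set F))
        (Polynomial.aeval (R := O)
          (⟨j, s18loc_j_mem O j⟩ : ↥(s18_chart O ({j} : Set F))) P) := by
    have := congrArg (fun φ => φ P) (s18loc_polyMap_comp O j)
    exact this
  rw [h1] at hPmem
  have h2 : g (Ideal.Quotient.mk (s18_fibreIdeal O ({j} : Set F))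
        (Polynomial.aeval (R := O)
          (⟨j, s18loc_j_mem O j⟩ : ↥(s18_chart O ({j} : Set F))) P)) =
      Ideal.Quotient.mk n (Polynomial.aeval (R := O)
          (⟨j, s18loc_j_mem O j⟩ : ↥(s18_chart O ({j} : Set F))) P) :=
    Ideal.Quotient.factor_mk hle _
  rw [h2] at hPmem
  exact Ideal.Quotient.eq_zero_iff_mem.1 hPmem

end Abs

section Chart

variable {O : Type} [CommRing O] [IsLocalRing O] {F : Type} [Field F] [Algebra O F]
  (V : ValuationSubring F) (hO : ∀ a : O, algebraMap O F a ∈ V)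
  (W : F ≃+* F) (hWO : ∀ a : O, W (algebraMap O F a) = algebraMap O F a)
  (hWW : ∀ x, W (W x) = x)
  (s : F) (hSV : ∀ t ∈ ({s} : Set F), t ∈ V) (hWS : ∀ t ∈ ({s} : Set F), W t ∈ ({s} : Set F))
  (ρ : ↥V →+* LaurentSeries (IsLocalRing.ResidueField O))

/-- `ρ_B (P (s)) = P̄ (ρ s)`. -/
theorem s35nb_rhoB_aeval
    (hρO : ∀ a : O, ρ ⟨algebraMap O F a, hO a⟩ = HahnSeries.C (IsLocalRing.residue O a))
    (P : O[X]) :
    s34nd_rhoB V hO ({s} : Set F) hSV ρ (Polynomial.aeval (R := O)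
        (⟨s, s18loc_j_mem O s⟩ : ↥(s18_chart O ({s} : Set F))) P) =
      Polynomial.eval₂ (HahnSeries.C : IsLocalRing.ResidueField O →+*
          LaurentSeries (IsLocalRing.ResidueField O))
        (ρ ⟨s, hSV s (Set.mem_singleton s)⟩) (P.map (IsLocalRing.residue O)) := by
  rw [Polynomial.aeval_def, Polynomial.hom_eval₂, Polynomial.eval₂_map]
  have hc : (s34nd_rhoB V hO ({s} : Set F) hSV ρ).comp
      (algebraMap O ↥(s18_chart O ({s} : Set F))) =
      (HahnSeries.C : IsLocalRing.ResidueField O →+*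
        LaurentSeries (IsLocalRing.ResidueField O)).comp (IsLocalRing.residue O) := by
    refine RingHom.ext (fun a => ?_)
    rw [RingHom.comp_apply, RingHom.comp_apply,
      s34nd_rhoB_eq V hO ({s} : Set F) hSV ρ _ ⟨algebraMap O F a, hO a⟩ rfl]
    exact hρO a
  rw [hc]
  rfl

/-- `W_B (P (s)) = P (s)`. -/
theorem s35nb_WB_aeval (P : O[X]) :
    s34nd_WB W hWO ({s} : Set F) hWS hWW (Polynomial.aeval (R := O)
        (⟨s, s18loc_j_mem O s⟩ : ↥(s18_chart O ({s} : Set F))) P) =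
      Polynomial.aeval (R := O)
        (⟨s, s18loc_j_mem O s⟩ : ↥(s18_chart O ({s} : Set F))) P := by
  have hs : s34nd_WB W hWO ({s} : Set F) hWS hWW
      (⟨s, s18loc_j_mem O s⟩ : ↥(s18_chart O ({s} : Set F))) = ⟨s, s18loc_j_mem O s⟩ :=
    Subtype.ext (Set.mem_singleton_iff.1 (hWS s (Set.mem_singleton s)))
  have h := Polynomial.hom_eval₂ P (algebraMap O ↥(s18_chart O ({s} : Set F)))
    (s34nd_WB W hWO ({s} : Set F) hWS hWW : ↥(s18_chart O ({s} : Set F)) →+*
      ↥(s18_chart O ({s} : Set F))) (⟨s, s18loc_j_mem O s⟩ : ↥(s18_chart O ({s} : Set F)))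
  rw [Polynomial.aeval_def]
  refine h.trans ?_
  have hc : ((s34nd_WB W hWO ({s} : Set F) hWS hWW : ↥(s18_chart O ({s} : Set F)) →+*
      ↥(s18_chart O ({s} : Set F))).comp (algebraMap O ↥(s18_chart O ({s} : Set F)))) =
      algebraMap O ↥(s18_chart O ({s} : Set F)) := by
    ext a
    exact congrArg Subtype.val (s34nd_WB_algebraMap W hWO ({s} : Set F) hWS hWW a)
  rw [hc]
  congr 1

/-- **No vertical prime is a closed point, chart form.**  Every maximal ideal `n ⊇ 𝔪 B` of the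
chart `B = s18_chart O {s}` contains an element `a` with `ρ a ≠ 0` and `ρ (W a) ≠ 0`, if `ρ s`
is transcendental over the residue field. -/
theorem s35nb_not_vertical_chart
    (hρO : ∀ a : O, ρ ⟨algebraMap O F a, hO a⟩ = HahnSeries.C (IsLocalRing.residue O a))
    (htr : ∀ P : (IsLocalRing.ResidueField O)[X], P ≠ 0 →
      Polynomial.eval₂ (HahnSeries.C : IsLocalRing.ResidueField O →+*
          LaurentSeries (IsLocalRing.ResidueField O))
        (ρ ⟨s, hSV s (Set.mem_singleton s)⟩) P ≠ 0)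
    (n : Ideal ↥(s18_chart O ({s} : Set F))) [hn : n.IsMaximal]
    (hle : s18_fibreIdeal O ({s} : Set F) ≤ n) :
    ∃ a : ↥(s18_chart O ({s} : Set F)), a ∈ n ∧ s34nd_rhoB V hO ({s} : Set F) hSV ρ a ≠ 0 ∧
      s34nd_rhoB V hO ({s} : Set F) hSV ρ (s34nd_WB W hWO ({s} : Set F) hWS hWW a) ≠ 0 := by
  obtain ⟨P, hP0, hPn⟩ := s35nb_exists_poly O s n hle
  have h1 := s35nb_rhoB_aeval V hO s hSV ρ hρO P
  refine ⟨_, hPn, ?_, ?_⟩
  · rw [h1]
    exact htr _ hP0
  · rw [s35nb_WB_aeval W hWO hWW s hWS P, h1]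
    exact htr _ hP0

end Chart

section Model

/-- The structure map of `κ((T))` is `C`. -/
theorem s35nb_algebraMap_eq_C (κ : Type) [Field κ] :
    algebraMap κ (LaurentSeries κ) = HahnSeries.C := by
  refine RingHom.ext (fun c => ?_)
  rw [HahnSeries.algebraMap_apply']
  simp

variable {O K : Type} [CommRing O] [IsDomain O] [IsDiscreteValuationRing O] [Field K]
  [CharZero K] [Algebra O K] [IsFractionRing O K] {N : ℕ} [NeZero N]

/-- `𝔪 B ⊆ n` as soon as `π ∈ n`. -/
theorem s35nb_fibreIdeal_le {F : Type} [Field F] [Algebra O F] {ϖ : O} (hϖ : Irreducible ϖ)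
    (S : Set F) (n : Ideal ↥(s18_chart O S)) (hπn : algebraMap O ↥(s18_chart O S) ϖ ∈ n) :
    s18_fibreIdeal O S ≤ n := by
  unfold s18_fibreIdeal
  rw [Ideal.map_le_iff_le_comap]
  intro a ha
  rw [hϖ.maximalIdeal_eq, Ideal.mem_span_singleton'] at ha
  obtain ⟨c, rfl⟩ := ha
  rw [Ideal.mem_comap, map_mul]
  exact n.mul_mem_left _ hπn

/-- **No vertical prime is a closed point**: the chart of ONE function `s ∈ V_∞`, `W s = s`, whose
reduction `ρ_∞ s` is transcendental over the residue field. -/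
theorem s35nb_not_vertical_gen {ϖ : O} (hϖ : Irreducible ϖ) (s : ↥(s18_F K N)) :
    letI := s18_algOF O K N
    ∀ (hO : ∀ a : O, algebraMap O ↥(s18_F K N) a ∈ s34g_V O K N)
      (hSV : ∀ t ∈ ({s} : Set ↥(s18_F K N)), t ∈ s34g_V O K N),
      Transcendental (IsLocalRing.ResidueField O)
        (s34g_rho O K N ⟨s, hSV s (Set.mem_singleton s)⟩) →
      ∀ (Wr : ↥(s18_F K N) ≃+* ↥(s18_F K N))
        (hWO : ∀ a : O, Wr (algebraMap O ↥(s18_F K N) a) = algebraMap O ↥(s18_F K N) a)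
        (hWW : ∀ x, Wr (Wr x) = x)
        (hWS : ∀ t ∈ ({s} : Set ↥(s18_F K N)), Wr t ∈ ({s} : Set ↥(s18_F K N)))
        (n : Ideal ↥(s18_chart O ({s} : Set ↥(s18_F K N)))), n.IsMaximal →
        algebraMap O ↥(s18_chart O ({s} : Set ↥(s18_F K N))) ϖ ∈ n →
        ∃ a : ↥(s18_chart O ({s} : Set ↥(s18_F K N))), a ∈ n ∧
          s34nd_rhoB (s34g_V O K N) hO ({s} : Set ↥(s18_F K N)) hSV (s34g_rho O K N) a ≠ 0 ∧
          s34nd_rhoB (s34g_V O K N) hO ({s} : Set ↥(s18_F K N)) hSV (s34g_rho O K N)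
            (s34nd_WB Wr hWO ({s} : Set ↥(s18_F K N)) hWS hWW a) ≠ 0 := by
  letI := s18_algOF O K N
  intro hO hSV htr Wr hWO hWW hWS n hn hπn
  haveI := hn
  refine s35nb_not_vertical_chart (s34g_V O K N) hO Wr hWO hWW s hSV hWS (s34g_rho O K N)
    (fun a => s34g_rho_algebraMap a _ rfl) ?_ n (s35nb_fibreIdeal_le hϖ _ n hπn)
  intro P hP h0
  apply hP
  refine (transcendental_iff.1 htr) P ?_
  rw [Polynomial.aeval_def, s35nb_algebraMap_eq_C]
  exact h0

end Model

section JJ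

variable {O K : Type} [CommRing O] [IsDomain O] [IsDiscreteValuationRing O] [Field K]
  [CharZero K] [Algebra O K] [IsFractionRing O K] (M q : ℕ) [NeZero M] [NeZero q]
  [NeZero (M * q)] [Fact q.Prime]
  (hqO : (q : O) ∈ IsLocalRing.maximalIdeal O)
  {ϖ : O} (hϖ : Irreducible ϖ)

include hqO in
/-- `ρ_∞ J = j̄ ^ (q + 1)`. -/
theorem s35nb_rho_J
    (hJ : s18_j K (M * q) * s34g_jd K (M * q) q (dvd_mul_left q M) ∈ s34g_V O K (M * q)) :
    s34g_rho O K (M * q)
        ⟨s18_j K (M * q) * s34g_jd K (M * q) q (dvd_mul_left q M), hJ⟩ =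
      jqModC (IsLocalRing.ResidueField O) ^ (q + 1) := by
  have e : (⟨s18_j K (M * q) * s34g_jd K (M * q) q (dvd_mul_left q M), hJ⟩ :
      ↥(s34g_V O K (M * q))) =
      ⟨s18_j K (M * q), s34g_j_mem⟩ *
        ⟨s34g_jd K (M * q) q (dvd_mul_left q M), s34g_jd_mem q (dvd_mul_left q M)⟩ := rfl
  rw [e, map_mul, s34g_rho_j, s34g_rho_jq q (dvd_mul_left q M) hqO, pow_succ, mul_comm]

include hqO in
/-- `ρ_∞ J` is transcendental over the residue field. -/
theorem s35nb_transc_J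
    (hJ : s18_j K (M * q) * s34g_jd K (M * q) q (dvd_mul_left q M) ∈ s34g_V O K (M * q)) :
    Transcendental (IsLocalRing.ResidueField O) (s34g_rho O K (M * q)
        ⟨s18_j K (M * q) * s34g_jd K (M * q) q (dvd_mul_left q M), hJ⟩) := by
  rw [s35nb_rho_J M q hqO hJ]
  exact (s18gq_transc_jq (IsLocalRing.ResidueField O)).pow (Nat.succ_pos q)

include hqO in
/-- `ρ_∞ J⁻¹` is transcendental over the residue field. -/
theorem s35nb_transc_Jinv
    (hJ' : (s18_j K (M * q) * s34g_jd K (M * q) q (dvd_mul_left q M))⁻¹ ∈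
      s34g_V O K (M * q)) :
    Transcendental (IsLocalRing.ResidueField O) (s34g_rho O K (M * q)
        ⟨(s18_j K (M * q) * s34g_jd K (M * q) q (dvd_mul_left q M))⁻¹, hJ'⟩) := by
  have hJ : s18_j K (M * q) * s34g_jd K (M * q) q (dvd_mul_left q M) ∈ s34g_V O K (M * q) :=
    mul_mem s34g_j_mem (s34g_jd_mem q (dvd_mul_left q M))
  have htr := s35nb_transc_J M q hqO hJ
  have hJ0 : s18_j K (M * q) * s34g_jd K (M * q) q (dvd_mul_left q M) ≠ 0 := by
    intro h0
    apply htr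
    have e : (⟨s18_j K (M * q) * s34g_jd K (M * q) q (dvd_mul_left q M), hJ⟩ :
        ↥(s34g_V O K (M * q))) = 0 := Subtype.ext h0
    rw [e, map_zero]
    exact isAlgebraic_zero
  have e1 : (⟨s18_j K (M * q) * s34g_jd K (M * q) q (dvd_mul_left q M), hJ⟩ :
      ↥(s34g_V O K (M * q))) *
      ⟨(s18_j K (M * q) * s34g_jd K (M * q) q (dvd_mul_left q M))⁻¹, hJ'⟩ = 1 :=
    Subtype.ext (mul_inv_cancel₀ hJ0)
  have e2 := congrArg (s34g_rho O K (M * q)) e1
  rw [map_mul, map_one] at e2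
  intro halg
  apply htr
  rw [eq_inv_of_mul_eq_one_left e2]
  exact halg.inv

include hqO hϖ in
/-- **No vertical prime of `chart(J)` is a closed point.** -/
theorem s35nb_not_vertical_J :
    letI := s18_algOF O K (M * q)
    ∀ (hO : ∀ a : O, algebraMap O ↥(s18_F K (M * q)) a ∈ s34g_V O K (M * q))
      (hSV : ∀ t ∈ ({s18_j K (M * q) * s34g_jd K (M * q) q (dvd_mul_left q M)} :
        Set ↥(s18_F K (M * q))), t ∈ s34g_V O K (M * q))
      (Wr : ↥(s18_F K (M * q)) ≃+* ↥(s18_F K (M * q)))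
      (hWO : ∀ a : O, Wr (algebraMap O ↥(s18_F K (M * q)) a) =
        algebraMap O ↥(s18_F K (M * q)) a)
      (hWW : ∀ x, Wr (Wr x) = x)
      (hWS : ∀ t ∈ ({s18_j K (M * q) * s34g_jd K (M * q) q (dvd_mul_left q M)} :
        Set ↥(s18_F K (M * q))), Wr t ∈
          ({s18_j K (M * q) * s34g_jd K (M * q) q (dvd_mul_left q M)} :
            Set ↥(s18_F K (M * q))))
      (n : Ideal ↥(s18_chart O
        ({s18_j K (M * q) * s34g_jd K (M * q) q (dvd_mul_left q M)} :
          Set ↥(s18_F K (M * q))))), n.IsMaximal →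
      algebraMap O ↥(s18_chart O
        ({s18_j K (M * q) * s34g_jd K (M * q) q (dvd_mul_left q M)} :
          Set ↥(s18_F K (M * q)))) ϖ ∈ n →
      ∃ a : ↥(s18_chart O
        ({s18_j K (M * q) * s34g_jd K (M * q) q (dvd_mul_left q M)} :
          Set ↥(s18_F K (M * q)))), a ∈ n ∧
        s34nd_rhoB (s34g_V O K (M * q)) hO _ hSV (s34g_rho O K (M * q)) a ≠ 0 ∧
        s34nd_rhoB (s34g_V O K (M * q)) hO _ hSV (s34g_rho O K (M * q))
          (s34nd_WB Wr hWO _ hWS hWW a) ≠ 0 := by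
  letI := s18_algOF O K (M * q)
  intro hO hSV Wr hWO hWW hWS n hn hπn
  exact s35nb_not_vertical_gen hϖ _ hO hSV (s35nb_transc_J M q hqO _) Wr hWO hWW hWS n hn hπn

include hqO hϖ in
/-- **No vertical prime of `chart(J⁻¹)` is a closed point.** -/
theorem s35nb_not_vertical_Jinv :
    letI := s18_algOF O K (M * q)
    ∀ (hO : ∀ a : O, algebraMap O ↥(s18_F K (M * q)) a ∈ s34g_V O K (M * q))
      (hSV : ∀ t ∈ ({(s18_j K (M * q) * s34g_jd K (M * q) q (dvd_mul_left q M))⁻¹} :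
        Set ↥(s18_F K (M * q))), t ∈ s34g_V O K (M * q))
      (Wr : ↥(s18_F K (M * q)) ≃+* ↥(s18_F K (M * q)))
      (hWO : ∀ a : O, Wr (algebraMap O ↥(s18_F K (M * q)) a) =
        algebraMap O ↥(s18_F K (M * q)) a)
      (hWW : ∀ x, Wr (Wr x) = x)
      (hWS : ∀ t ∈ ({(s18_j K (M * q) * s34g_jd K (M * q) q (dvd_mul_left q M))⁻¹} :
        Set ↥(s18_F K (M * q))), Wr t ∈
          ({(s18_j K (M * q) * s34g_jd K (M * q) q (dvd_mul_left q M))⁻¹} :
            Set ↥(s18_F K (M * q))))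
      (n : Ideal ↥(s18_chart O
        ({(s18_j K (M * q) * s34g_jd K (M * q) q (dvd_mul_left q M))⁻¹} :
          Set ↥(s18_F K (M * q))))), n.IsMaximal →
      algebraMap O ↥(s18_chart O
        ({(s18_j K (M * q) * s34g_jd K (M * q) q (dvd_mul_left q M))⁻¹} :
          Set ↥(s18_F K (M * q)))) ϖ ∈ n →
      ∃ a : ↥(s18_chart O
        ({(s18_j K (M * q) * s34g_jd K (M * q) q (dvd_mul_left q M))⁻¹} :
          Set ↥(s18_F K (M * q)))), a ∈ n ∧
        s34nd_rhoB (s34g_V O K (M * q)) hO _ hSV (s34g_rho O K (M * q)) a ≠ 0 ∧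
        s34nd_rhoB (s34g_V O K (M * q)) hO _ hSV (s34g_rho O K (M * q))
          (s34nd_WB Wr hWO _ hWS hWW a) ≠ 0 := by
  letI := s18_algOF O K (M * q)
  intro hO hSV Wr hWO hWW hWS n hn hπn
  exact s35nb_not_vertical_gen hϖ _ hO hSV (s35nb_transc_Jinv M q hqO _) Wr hWO hWW hWS n hn
    hπn

end JJ

end Fermat.Agent.S35
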