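/-
S35, leaf [NF-NORM] = (E2), part 5 (E2-c): NORM BASE CHANGE `K1 → Q̄` (owner: helper7).
Prefix `s35nn_`.

For every field `K1 ⊆ Q̄` and `f ∈ F_{K1}(M q)`:

  `ι (N_α f) = N_α (ι f)`,   `ι (N_β f) = N_β (ι f)`

(`ι` the coefficientwise embedding `F_{K1}(N) → F̄_N`).  DIRECT PROOF: the norm formula
`s35nn_norm` (`N_α(x)(t^q) = x(t^q) · ∏_{i<q} (W x)(ζ^i t)` in `Q̄((t))`) holds over `K1` (with
helper8's `s34w_W`) and over `Q̄` (with `s34w_Wbar`), and `ι ∘ W = W̄ ∘ ι` (`s34w_W_bar`).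
-/
import Mathlib
import Fermat.Agent.S35.NfNormAB
import Fermat.Agent.S34.SsWMain
import Fermat.Agent.S37.RatlQ

set_option autoImplicit false
set_option linter.style.haveILetI false
set_option linter.unusedSectionVars false

open ModularCurve AlgebraicCurve IntermediateField
open Fermat.Agent.S18 Fermat.Agent.S24 Fermat.Agent.S37 Fermat.Agent.S34

noncomputable section

namespace Fermat.Agent.S35

theorem s35nn_coeffMap_self {R : Type*} [Field R] (x : LaurentSeries R) :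
    coeffMap (algebraMap R R) x = x := by
  ext n
  rw [coeffMap_coeff]
  rfl

/-- **(E2-c), the `α` half.** -/
theorem s35nn_normBC_A (M q : ℕ) [NeZero M] [NeZero q] (hq : q.Prime) (hqM : ¬ q ∣ M)
    (K1 : IntermediateField ℚ (AlgebraicClosure ℚ)) (f : ↥(s18_F ↥K1 (M * q))) :
    S37.s37rl_iota M K1 (s35_normA ↥K1 M q f) =
      s35_normA (AlgebraicClosure ℚ) M q (S37.s37rl_iota (M * q) K1 f) := by
  obtain ⟨ζ, hζ⟩ := s35nn_exists_zeta (K := ℚ) q
  have h1 := s35nn_norm ↥K1 (AlgebraicClosure ℚ) M q hq hqM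
    (s34w_W M q K1 hq hqM).toAlgHom (s34w_W_alpha hq hqM) (s34w_W_beta hq hqM) ζ hζ f
  have h2 := s35nn_norm (AlgebraicClosure ℚ) (AlgebraicClosure ℚ) M q hq hqM
    (s34w_Wbar M q hq hqM).toAlgHom (s34w_Wbar_alpha M q hq hqM) (s34w_Wbar_beta M q hq hqM)
    ζ hζ (S37.s37rl_iota (M * q) K1 f)
  rw [s35nn_coeffMap_self, s35nn_coeffMap_self, s35nn_coeffMap_self] at h2
  have h3 : ((s34w_Wbar M q hq hqM).toAlgHom (S37.s37rl_iota (M * q) K1 f) :
      FunField (M * q)) = S37.s37rl_iota (M * q) K1 ((s34w_W M q K1 hq hqM).toAlgHom f) :=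
    (s34w_W_bar hq hqM f).symm
  rw [h3] at h2
  apply Subtype.ext
  apply qExpand_injective (R := AlgebraicClosure ℚ) q
  exact h1.trans h2.symm

/-- **(E2-c), the `β` half.** -/
theorem s35nn_normBC_B (M q : ℕ) [NeZero M] [NeZero q] (hq : q.Prime) (hqM : ¬ q ∣ M)
    (K1 : IntermediateField ℚ (AlgebraicClosure ℚ)) (f : ↥(s18_F ↥K1 (M * q))) :
    S37.s37rl_iota M K1 (s35_normB ↥K1 M q f) =
      s35_normB (AlgebraicClosure ℚ) M q (S37.s37rl_iota (M * q) K1 f) := by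
  have e1 : s35_normB ↥K1 M q f = s35_normA ↥K1 M q (s34w_W M q K1 hq hqM f) :=
    s35nn_normB_eq M q (s34w_W M q K1 hq hqM) (s34w_W_beta hq hqM) f
  have e2 : s35_normB (AlgebraicClosure ℚ) M q (S37.s37rl_iota (M * q) K1 f) =
      s35_normA (AlgebraicClosure ℚ) M q
        (s34w_Wbar M q hq hqM (S37.s37rl_iota (M * q) K1 f)) :=
    s35nn_normB_eq M q (s34w_Wbar M q hq hqM) (s34w_Wbar_beta M q hq hqM)
      (S37.s37rl_iota (M * q) K1 f)
  have e3 : S37.s37rl_iota (M * q) K1 (s34w_W M q K1 hq hqM f) =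
      s34w_Wbar M q hq hqM (S37.s37rl_iota (M * q) K1 f) := s34w_W_bar hq hqM f
  rw [e1, e2, s35nn_normBC_A M q hq hqM K1, e3]

/-- **(E2-c) = NORM BASE CHANGE `K1 → Q̄`**, the statement of helper25's
`s35nr_NormBCStatement` (inlined). -/
theorem s35nn_normBC : ∀ (M q : ℕ) [NeZero M] [NeZero q], q.Prime → ¬ q ∣ M →
    ∀ (K1 : IntermediateField ℚ (AlgebraicClosure ℚ)) (f : ↥(s18_F ↥K1 (M * q))),
      S37.s37rl_iota M K1 (s35_normA ↥K1 M q f) =
          s35_normA (AlgebraicClosure ℚ) M q (S37.s37rl_iota (M * q) K1 f) ∧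
        S37.s37rl_iota M K1 (s35_normB ↥K1 M q f) =
          s35_normB (AlgebraicClosure ℚ) M q (S37.s37rl_iota (M * q) K1 f) :=
  fun M q _ _ hq hqM K1 f =>
    ⟨s35nn_normBC_A M q hq hqM K1 f, s35nn_normBC_B M q hq hqM K1 f⟩

end Fermat.Agent.S35
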