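/-
S35, a small leaf of [NF-NORM] / [NF-RED] / [NF-RAT] (helper8).  Prefix `s35wn_`.

THE NORM ALONG `β` IS THE NORM ALONG `α` AFTER THE ATKIN-LEHNER INVOLUTION, over ANY field of
constants `L` and over the number fields `K0 ⊆ Q̄` (with `W = s34w_W`, S34/SsWMain.lean):

  `s35wn_normB_eq`   : `W α = β` on `F_L(M)`  ⟹  `N_β (W x) = N_α x`;
  `s35wn_normB_eq'`  : `W β = α` on `F_L(M)`  ⟹  `N_β x = N_α (W x)`;
  `s35wn_normB_W`    : `s35_normB ↥K0 M q x = s35_normA ↥K0 M q (s34w_W M q K0 hq hM x)`;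
  `s35wn_normA_W`    : `s35_normA ↥K0 M q x = s35_normB ↥K0 M q (s34w_W M q K0 hq hM x)`;
  `s35wn_normB_bar`, `s35wn_normA_bar` : the same over `Q̄` with `s34w_Wbar`.
-/
import Mathlib
import Fermat.Agent.S34.SsWMain
import Fermat.Agent.S35.NfDefs
import Fermat.Agent.S35.NfDownNorm

set_option autoImplicit false
set_option linter.unusedSectionVars false
set_option linter.unusedVariables false
set_option linter.style.haveILetI false
set_option maxHeartbeats 400000
set_option synthInstance.maxHeartbeats 400000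

open AlgebraicCurve ModularCurve IntermediateField
open Fermat.Agent.S18 Fermat.Agent.S24 Fermat.Agent.S34 Fermat.Agent.S37

noncomputable section

namespace Fermat.Agent.S35

section Gen

variable {L : Type*} [Field L] [Algebra ℚ L] (M q : ℕ) [NeZero M] [NeZero q]
  (W : ↥(laurentBaseChange L (modularFunctionFieldFull (M * q))) ≃ₐ[L]
    ↥(laurentBaseChange L (modularFunctionFieldFull (M * q))))

theorem s35wn_normA_eq_normAlong
    (x : ↥(laurentBaseChange L (modularFunctionFieldFull (M * q)))) :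
    s35_normA L M q x = s37bc_normAlong (heckeAlphaBar L M q) x := rfl

theorem s35wn_normB_eq_normAlong
    (x : ↥(laurentBaseChange L (modularFunctionFieldFull (M * q)))) :
    s35_normB L M q x = s37bc_normAlong (heckeBetaBar L M q) x := rfl

/-- `W α = β` ⟹ `N_β (W x) = N_α x`. -/
theorem s35wn_normB_eq
    (hWα : ∀ f, W (heckeAlphaBar L M q f) = heckeBetaBar L M q f)
    (x : ↥(laurentBaseChange L (modularFunctionFieldFull (M * q)))) :
    s35_normB L M q (W x) = s35_normA L M q x :=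
  s35dn_normAlong_equiv (heckeAlphaBar L M q) (heckeBetaBar L M q) W hWα x

/-- `W β = α` ⟹ `N_α (W x) = N_β x`. -/
theorem s35wn_normA_eq
    (hWβ : ∀ f, W (heckeBetaBar L M q f) = heckeAlphaBar L M q f)
    (x : ↥(laurentBaseChange L (modularFunctionFieldFull (M * q)))) :
    s35_normA L M q (W x) = s35_normB L M q x :=
  s35dn_normAlong_equiv (heckeBetaBar L M q) (heckeAlphaBar L M q) W hWβ x

/-- `W β = α` ⟹ `N_β x = N_α (W x)`. -/
theorem s35wn_normB_eq'
    (hWβ : ∀ f, W (heckeBetaBar L M q f) = heckeAlphaBar L M q f)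
    (x : ↥(laurentBaseChange L (modularFunctionFieldFull (M * q)))) :
    s35_normB L M q x = s35_normA L M q (W x) :=
  (s35wn_normA_eq M q W hWβ x).symm

/-- `W α = β` ⟹ `N_α x = N_β (W x)`. -/
theorem s35wn_normA_eq'
    (hWα : ∀ f, W (heckeAlphaBar L M q f) = heckeBetaBar L M q f)
    (x : ↥(laurentBaseChange L (modularFunctionFieldFull (M * q)))) :
    s35_normA L M q x = s35_normB L M q (W x) :=
  (s35wn_normB_eq M q W hWα x).symm

end Gen

section K0

variable {M q : ℕ} [NeZero M] [NeZero q] (hq : q.Prime) (hM : ¬ q ∣ M)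
  (K0 : IntermediateField ℚ (AlgebraicClosure ℚ))

/-- `N_β x = N_α (W x)` over `K0`. -/
theorem s35wn_normB_W (x : ↥(s18_F ↥K0 (M * q))) :
    s35_normB ↥K0 M q x = s35_normA ↥K0 M q (s34w_W M q K0 hq hM x) :=
  s35wn_normB_eq' M q (s34w_W M q K0 hq hM) (s34w_W_beta hq hM) x

/-- `N_α x = N_β (W x)` over `K0`. -/
theorem s35wn_normA_W (x : ↥(s18_F ↥K0 (M * q))) :
    s35_normA ↥K0 M q x = s35_normB ↥K0 M q (s34w_W M q K0 hq hM x) :=
  s35wn_normA_eq' M q (s34w_W M q K0 hq hM) (s34w_W_alpha hq hM) x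

/-- `N_β x = N_α (W x)` over `Q̄`. -/
theorem s35wn_normB_bar (x : FunField (M * q)) :
    s35_normB (AlgebraicClosure ℚ) M q x =
      s35_normA (AlgebraicClosure ℚ) M q (s34w_Wbar M q hq hM x) :=
  s35wn_normB_eq' M q (s34w_Wbar M q hq hM) (s34w_Wbar_beta M q hq hM) x

/-- `N_α x = N_β (W x)` over `Q̄`. -/
theorem s35wn_normA_bar (x : FunField (M * q)) :
    s35_normA (AlgebraicClosure ℚ) M q x =
      s35_normB (AlgebraicClosure ℚ) M q (s34w_Wbar M q hq hM x) :=
  s35wn_normA_eq' M q (s34w_Wbar M q hq hM) (s34w_Wbar_alpha M q hq hM) x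

include hq hM in
/-- The base change of the norm along `β` from `K0` to `Q̄` follows from the base change of the
norm along `α`. -/
theorem s35wn_normB_bc
    (hA : ∀ x : ↥(s18_F ↥K0 (M * q)),
      s34w_iota ↥K0 (AlgebraicClosure ℚ) M (s35_normA ↥K0 M q x) =
        s35_normA (AlgebraicClosure ℚ) M q (s34w_iota ↥K0 (AlgebraicClosure ℚ) (M * q) x))
    (x : ↥(s18_F ↥K0 (M * q))) :
    s34w_iota ↥K0 (AlgebraicClosure ℚ) M (s35_normB ↥K0 M q x) =
      s35_normB (AlgebraicClosure ℚ) M q (s34w_iota ↥K0 (AlgebraicClosure ℚ) (M * q) x) := by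
  rw [s35wn_normB_W hq hM K0 x, hA, s34w_W_bar hq hM, ← s35wn_normB_bar hq hM]

end K0

end Fermat.Agent.S35
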