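/-
S35, leaf [NF-RED] = (E3), THE EXPORT in the spelling of [NF-LOC-ABS] (owner: helper28).
Prefix `s35rd_`.

`B = s18_chart O {t}` a chart, `π = algebraMap O B ϖ`, `p_∞`, `p_0` the centres on `B` of
`V_∞ = s34g_V`, `V_0 = s34g_V0 O W`; `τ = arithmeticRingAut … (σ * σ)`, `Q = q²`.

    theorem s35rd_export : ∃ V ≠ 0, ∃ u₁ u₂ ∈ Oˣ, ∃ X₁ X₂,
        u / V ^ n - 1 ∈ π (V_∞ ⊓ V_0) ∧
        ∀ chart t (with `s34l1_IsVert` for `𝒱 = {V_∞, V_0}`), for `i = ∞, 0` and `c_i = u_i`: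
          [RED_i]   `s34l1_OneMod π p_i ((τ f / f) / (c_i * X_i ^ n))`
          [CONST_i] `s34l1_OneMod π p_i (τ c_i / c_i ^ Q)`
          [APPR_i]  `s34l1_OneMod π p_i (V / (τ X_i / X_i ^ Q))`
          [U_i]     `s34l1_OneMod π p_i (s35_fd f / V ^ n)`

at the model `(M, q, K0, O, A, σ0, n, f)` with the binders of `s35k_DataStatement` VERBATIM;
`s35rd_export_centres` is the same statement quantified over `p ∈ s35k_centres hV`.
-/
import Mathlib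
import Fermat.Agent.S34.Loc1Chart
import Fermat.Agent.S34.KMainDefs
import Fermat.Agent.S34.SsGaussNe
import Fermat.Agent.S35.NfKDefs
import Fermat.Agent.S35.NfKSetup
import Fermat.Agent.S35.NfRedMain

set_option autoImplicit false
set_option linter.unusedSectionVars false
set_option linter.unusedVariables false
set_option linter.style.haveILetI false
set_option maxHeartbeats 400000

open AlgebraicCurve ModularCurve IntermediateField
open Fermat.Agent.S18 Fermat.Agent.S34 Fermat.Agent.S37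

noncomputable section

namespace Fermat.Agent.S35

section Adapter

variable {B F : Type*} [CommRing B] [Field F] [Algebra B F]

/-- `x ∈ 1 + 𝔪_V`, `𝔪_V = π V`, `V = B` localised at its centre `p`  ⟹  `x ∈ 1 + π B_p`. -/
theorem s35rd_oneMod_of_one (V : ValuationSubring F) (hVB : ∀ b : B, algebraMap B F b ∈ V)
    (π : B) (hπ0 : algebraMap B F π ≠ 0)
    (hdiv : ∀ x ∈ V.nonunits, x / algebraMap B F π ∈ V)
    (hloc : ∀ x ∈ V, ∃ a b : B, algebraMap B F b ∉ V.nonunits ∧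
      x * algebraMap B F b = algebraMap B F a)
    {x : F} (hx : s35rd_One V x) : s34l1_OneMod π (s34l1_centre V hVB) x := by
  obtain ⟨a, b, hb, hab⟩ := hloc _ (hdiv _ hx)
  refine ⟨a, b, fun h => hb ((s34l1_mem_centre V hVB b).1 h), ?_⟩
  rw [map_mul, ← hab]
  field_simp

/-- The four congruences of one branch, from the valuation-theoretic data. -/
theorem s35rd_branch_abs (V : ValuationSubring F) (hVB : ∀ b : B, algebraMap B F b ∈ V)
    (π : B) (hπ0 : algebraMap B F π ≠ 0)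
    (hdiv : ∀ x ∈ V.nonunits, x / algebraMap B F π ∈ V)
    (hloc : ∀ x ∈ V, ∃ a b : B, algebraMap B F b ∉ V.nonunits ∧
      x * algebraMap B F b = algebraMap B F a)
    (τ : F ≃+* F) (hτV : ∀ x ∈ V, τ x ∈ V) (Q n : ℕ) (D c X y V₀ u : F)
    (hπ : algebraMap B F π ∈ V.nonunits) (hy : y ∈ V) (hX0 : X ≠ 0) (hX : X ∈ V)
    (hXi : X⁻¹ ∈ V) (hc0 : c ≠ 0) (hc : s35rd_One V (τ c / c ^ Q))
    (hD : D = c * X ^ n * (1 + algebraMap B F π * y))
    (hV₀ : V₀ - τ X / X ^ Q ∈ V.nonunits) (hu : s35rd_One V u) :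
    s34l1_OneMod π (s34l1_centre V hVB) (D / (c * X ^ n)) ∧
      s34l1_OneMod π (s34l1_centre V hVB) (τ c / c ^ Q) ∧
      s34l1_OneMod π (s34l1_centre V hVB) (V₀ / (τ X / X ^ Q)) ∧
      s34l1_OneMod π (s34l1_centre V hVB) u := by
  have hτX0 : τ X ≠ 0 := (map_ne_zero τ).2 hX0
  refine ⟨s35rd_oneMod_of_one V hVB π hπ0 hdiv hloc ?_,
    s35rd_oneMod_of_one V hVB π hπ0 hdiv hloc hc,
    s35rd_oneMod_of_one V hVB π hπ0 hdiv hloc ?_,
    s35rd_oneMod_of_one V hVB π hπ0 hdiv hloc hu⟩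
  · have e : D / (c * X ^ n) = 1 + y * algebraMap B F π := by
      rw [hD, mul_div_cancel_left₀ _ (mul_ne_zero hc0 (pow_ne_zero _ hX0)), mul_comm y]
    rw [e]
    exact s35rd_one_add (s35rd_nu_mul hy hπ)
  · refine s35rd_one_of_sub (div_ne_zero hτX0 (pow_ne_zero _ hX0)) ?_ hV₀
    have e : (τ X / X ^ Q)⁻¹ = X ^ Q * τ X⁻¹ := by
      rw [inv_div, map_inv₀, div_eq_mul_inv]
    rw [e]
    exact V.mul_mem _ _ (pow_mem hX _) (hτV _ hXi)

end Adapter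

section Unit

variable {O K : Type} [CommRing O] [IsDomain O] [IsDiscreteValuationRing O] [Field K]
  [CharZero K] [Algebra O K] [IsFractionRing O K] {N : ℕ} [NeZero N]

/-- `c = η ^ a`, `η ∈ Oˣ`, `a ∈ ℤ`, is the constant of a unit of `O`. -/
theorem s35rd_unit_zpow {η : O} (hη : IsUnit η) (a : ℤ) :
    ∃ u : O, IsUnit u ∧ s35rd_const O K N u = s35rd_const O K N η ^ a := by
  refine ⟨((hη.unit ^ a : Oˣ) : O), (hη.unit ^ a).isUnit, ?_⟩
  unfold s35rd_const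
  rw [← map_zpow₀]
  congr 1
  have h1 : algebraMap O K ((hη.unit ^ a : Oˣ) : O) =
      ((Units.map (algebraMap O K : O →* K) (hη.unit ^ a) : Kˣ) : K) := rfl
  have h2 : algebraMap O K η = ((Units.map (algebraMap O K : O →* K) hη.unit : Kˣ) : K) := rfl
  rw [h1, h2, map_zpow, Units.val_zpow_eq_zpow_val]

theorem s35rd_const_ne_zero {u : O} (hu : IsUnit u) : s35rd_const O K N u ≠ 0 := by
  unfold s35rd_const
  rw [Ne, map_eq_zero_iff _ (algebraMap K ↥(s18_F K N)).injective,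
    map_eq_zero_iff _ (IsFractionRing.injective O K)]
  exact hu.ne_zero

/-- The constant of a unit of `O` is a unit at every prime of every chart. -/
theorem s35rd_isUnitAt_const {O F : Type} [CommRing O] [Field F] [Algebra O F] (t : F) {u : O}
    (hu : IsUnit u) (n : Ideal ↥(s18_chart O ({t} : Set F))) [n.IsPrime] :
    s34l1_IsUnitAt n (algebraMap O F u) :=
  s34l1_isUnitAt_of_isUnit n (hu.map (algebraMap O ↥(s18_chart O ({t} : Set F))))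

end Unit

/-- **The congruences of one branch**, in the spelling of [NF-LOC-ABS]: `[RED]`, `[CONST]`,
`[APPR]` at the prime `p` of `B`, and `u ∈ 1 + π B_p`. -/
structure s35rd_At {B F : Type*} [CommRing B] [Field F] [Algebra B F] (π : B) (p : Ideal B)
    (τ : F ≃+* F) (Q m : ℕ) (f c X V u : F) : Prop where
  red : s34l1_OneMod π p ((τ f / f) / (c * X ^ m))
  const : s34l1_OneMod π p (τ c / c ^ Q)
  appr : s34l1_OneMod π p (V / (τ X / X ^ Q))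
  one : s34l1_OneMod π p u

section Chart

variable {O K : Type} [CommRing O] [IsDomain O] [IsDiscreteValuationRing O] [Field K]
  [CharZero K] [Algebra O K] [IsFractionRing O K]
  (M q : ℕ) [NeZero M] [NeZero q] [NeZero (M * q)] (hq : q.Prime)
  (hqM : ¬ q ∣ M) (hqO : (q : O) ∈ IsLocalRing.maximalIdeal O) {ϖ : O} (hϖ : Irreducible ϖ)
  (W : ↥(s18_F K (M * q)) ≃ₐ[K] ↥(s18_F K (M * q)))
  (hWα : ∀ f : ↥(s18_F K M), W (heckeAlphaBar K M q f) = heckeBetaBar K M q f)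
  (hWβ : ∀ f : ↥(s18_F K M), W (heckeBetaBar K M q f) = heckeAlphaBar K M q f)
  (hWW : ∀ f : ↥(s18_F K (M * q)), W (W f) = f)
  (hne : s34g_V O K (M * q) ≠ s34g_V0 O W)
  (σ : K ≃ₐ[ℚ] K)
  (hσ : ∀ x : O, ∃ y : O, y ∈ IsLocalRing.maximalIdeal O ∧
    algebraMap O K y = σ (algebraMap O K x) - algebraMap O K x ^ q)
  (hWσ : ∀ y : ↥(s18_F K (M * q)),
    W (arithmeticGalois (modularFunctionFieldFull (M * q)) (σ * σ) • y) =
      arithmeticGalois (modularFunctionFieldFull (M * q)) (σ * σ) • W y)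

include hq hqM hqO hϖ hWα hWβ hWW hne hσ hWσ in
/-- **[NF-RED], the export on the charts** (abstract `O`, `K`): the data of both branches at the
centres of `V_∞` and `V_0` on every chart `B = s18_chart O {t}` contained in them. -/
theorem s35rd_chart (n : ℕ) (hn : n ≠ 0) (f : ↥(s18_F K (M * q))) (hf : f ≠ 0)
    (g g' : ↥(s18_F K M)) (hg : g ^ n = s35_normA K M q f) (hg' : g' ^ n = s35_normB K M q f) :
    letI := s18_algOF O K (M * q)
    ∃ (V₀ : ↥(s18_F K (M * q))) (u₁ u₂ : O) (X₁ X₂ : ↥(s18_F K (M * q))),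
      V₀ ≠ 0 ∧ IsUnit u₁ ∧ IsUnit u₂ ∧
      s35_fd (M * q) q (σ * σ) f / V₀ ^ n - 1 ∈ s34l_gauss O ϖ (s34g_W2 O W) 1 ∧
      (∀ (t : ↥(s18_F K (M * q)))
          (hB : ∀ b : ↥(s18_chart O ({t} : Set ↥(s18_F K (M * q)))),
            algebraMap ↥(s18_chart O ({t} : Set ↥(s18_F K (M * q)))) ↥(s18_F K (M * q)) b ∈
              s34g_V O K (M * q)),
          (∀ x ∈ s34g_V O K (M * q), ∃ a b : ↥(s18_chart O ({t} : Set ↥(s18_F K (M * q)))),
            (b : ↥(s18_F K (M * q))) ∉ (s34g_V O K (M * q)).nonunits ∧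
              x * (b : ↥(s18_F K (M * q))) = (a : ↥(s18_F K (M * q)))) →
          s35rd_At (algebraMap O ↥(s18_chart O ({t} : Set ↥(s18_F K (M * q)))) ϖ)
            (s34l1_centre (s34g_V O K (M * q)) hB)
            (arithmeticRingAut (modularFunctionFieldFull (M * q)) (σ * σ)) (q ^ 2) n f
            (algebraMap O ↥(s18_F K (M * q)) u₁) X₁ V₀
            (s35_fd (M * q) q (σ * σ) f / V₀ ^ n)) ∧
      (∀ (t : ↥(s18_F K (M * q)))
          (hB : ∀ b : ↥(s18_chart O ({t} : Set ↥(s18_F K (M * q)))),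
            algebraMap ↥(s18_chart O ({t} : Set ↥(s18_F K (M * q)))) ↥(s18_F K (M * q)) b ∈
              s34g_V0 O W),
          (∀ x ∈ s34g_V0 O W, ∃ a b : ↥(s18_chart O ({t} : Set ↥(s18_F K (M * q)))),
            (b : ↥(s18_F K (M * q))) ∉ (s34g_V0 O W).nonunits ∧
              x * (b : ↥(s18_F K (M * q))) = (a : ↥(s18_F K (M * q)))) →
          s35rd_At (algebraMap O ↥(s18_chart O ({t} : Set ↥(s18_F K (M * q)))) ϖ)
            (s34l1_centre (s34g_V0 O W) hB)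
            (arithmeticRingAut (modularFunctionFieldFull (M * q)) (σ * σ)) (q ^ 2) n f
            (algebraMap O ↥(s18_F K (M * q)) u₂) X₂ V₀
            (s35_fd (M * q) q (σ * σ) f / V₀ ^ n)) := by
  letI := s18_algOF O K (M * q)
  haveI : Fact q.Prime := ⟨hq⟩
  haveI := s35fr_charP (O := O) hq hqO
  have hσ' : s35fr_Induces (O := O) (σ : K →+* K)
      (frobenius (IsLocalRing.ResidueField O) q) := s35fr_induces_frob σ q hσ
  have hs := s35fr_induces_mul hσ' hσ'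
  obtain ⟨V₀, η₁, η₂, a, b, X₁, X₂, y₁, y₂, hV₀0, hV₁, hV₂, hη₁, hη₂, hX₁, hX₂, hy₁, hy₂,
    hD₁, hD₂, hA₁, hA₂, hone₁, hone₂, hgauss⟩ :=
    s35rd_main M q hq hqM hqO hϖ W hWα hWβ hWW hne σ hσ hWσ n hn f hf g g' hg hg'
  obtain ⟨u₁, hu₁, hc₁⟩ := s35rd_unit_zpow (K := K) (N := M * q) hη₁ a
  obtain ⟨u₂, hu₂, hc₂⟩ := s35rd_unit_zpow (K := K) (N := M * q) hη₂ b
  have hX₁0 : (X₁ : ↥(s18_F K (M * q))) ≠ 0 := s35rd_unit_ne_zero X₁ hX₁
  have hX₂0 : (X₂ : ↥(s18_F K (M * q))) ≠ 0 := by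
    intro h0
    apply hX₂
    have : X₂ = 0 := Subtype.ext h0
    rw [this, map_zero]
  have hX₁i : (X₁ : ↥(s18_F K (M * q)))⁻¹ ∈ s34g_V O K (M * q) := s34g_inv_mem X₁ hX₁
  have hX₂i : (X₂ : ↥(s18_F K (M * q)))⁻¹ ∈ s34g_V0 O W := s34g_inv_mem0 X₂ hX₂
  have hτV₁ : ∀ x ∈ s34g_V O K (M * q),
      arithmeticRingAut (modularFunctionFieldFull (M * q)) (σ * σ) x ∈ s34g_V O K (M * q) :=
    fun x hx => s35fr_tau_mem (σ * σ) _ hs x hx
  have hτV₂ : ∀ x ∈ s34g_V0 O W,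
      arithmeticRingAut (modularFunctionFieldFull (M * q)) (σ * σ) x ∈ s34g_V0 O W :=
    fun x hx => s35fr_tau_mem0 (σ * σ) _ hs W hWσ x hx
  have hπ0 : s35rd_pi K (M * q) ϖ ≠ 0 := s35rd_pi_ne_zero hϖ
  have hcone₁ : s35rd_One (s34g_V O K (M * q))
      (arithmeticRingAut (modularFunctionFieldFull (M * q)) (σ * σ)
        (s35rd_const O K (M * q) u₁) / s35rd_const O K (M * q) u₁ ^ (q ^ 2)) := by
    rw [hc₁]
    exact s35rd_const_one q (σ * σ) hs (s34g_V O K (M * q)) (fun c => s35rd_const_mem c)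
      (fun c hc => s35rd_const_nu hc) η₁ hη₁ a
  have hcone₂ : s35rd_One (s34g_V0 O W)
      (arithmeticRingAut (modularFunctionFieldFull (M * q)) (σ * σ)
        (s35rd_const O K (M * q) u₂) / s35rd_const O K (M * q) u₂ ^ (q ^ 2)) := by
    rw [hc₂]
    exact s35rd_const_one q (σ * σ) hs (s34g_V0 O W) (fun c => s35rd_const_mem0 W c)
      (fun c hc => s35rd_const_nu0 W hc) η₂ hη₂ b
  refine ⟨V₀, u₁, u₂, X₁, X₂, hV₀0, hu₁, hu₂, hgauss, ?_, ?_⟩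
  · intro t hB hloc
    obtain ⟨h1, h2, h3, h4⟩ := s35rd_branch_abs (s34g_V O K (M * q)) hB
      (algebraMap O ↥(s18_chart O ({t} : Set ↥(s18_F K (M * q)))) ϖ) hπ0
      (fun x hx => s35rd_nu_div hϖ x hx) hloc
      (arithmeticRingAut (modularFunctionFieldFull (M * q)) (σ * σ)) hτV₁ (q ^ 2) n
      (arithmeticRingAut (modularFunctionFieldFull (M * q)) (σ * σ) f / f)
      (s35rd_const O K (M * q) u₁) (X₁ : ↥(s18_F K (M * q))) y₁ V₀
      (s35_fd (M * q) q (σ * σ) f / V₀ ^ n)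
      (s35rd_pi_nonunit hϖ) hy₁ hX₁0 X₁.2 hX₁i (s35rd_const_ne_zero hu₁) hcone₁
      (by rw [hc₁]; exact hD₁) hA₁ hone₁
    exact ⟨h1, h2, h3, h4⟩
  · intro t hB hloc
    obtain ⟨h1, h2, h3, h4⟩ := s35rd_branch_abs (s34g_V0 O W) hB
      (algebraMap O ↥(s18_chart O ({t} : Set ↥(s18_F K (M * q)))) ϖ) hπ0
      (fun x hx => s35rd_nu_div0 W hϖ x hx) hloc
      (arithmeticRingAut (modularFunctionFieldFull (M * q)) (σ * σ)) hτV₂ (q ^ 2) n
      (arithmeticRingAut (modularFunctionFieldFull (M * q)) (σ * σ) f / f)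
      (s35rd_const O K (M * q) u₂) (X₂ : ↥(s18_F K (M * q))) y₂ V₀
      (s35_fd (M * q) q (σ * σ) f / V₀ ^ n)
      (s35rd_pi_nonunit0 W hϖ) hy₂ hX₂0 X₂.2 hX₂i (s35rd_const_ne_zero hu₂) hcone₂
      (by rw [hc₂]; exact hD₂) hA₂ hone₂
    exact ⟨h1, h2, h3, h4⟩

end Chart

section Model

/-- **[NF-RED] = (E3), THE EXPORT AT THE MODEL**, binders of `s35k_DataStatement` VERBATIM
(then the uniformizer `ϖ`): the approximating function `V ≠ 0`, the constants `c_i = u_i ∈ Oˣ`,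
the functions `X_i`, and on every chart `B = s18_chart O {t}` with `s34l1_IsVert` for
`𝒱 = {V_∞, V_0}` the congruences `[RED_i]`, `[CONST_i]`, `[APPR_i]`, `[U_i]` at the centres
`p_∞`, `p_0` of `V_∞`, `V_0` (`s35rd_At`, fields `red`, `const`, `appr`, `one`). -/
theorem s35rd_export (M q : ℕ) [NeZero M] [NeZero q] (hq : q.Prime) (hqM : ¬ q ∣ M)
    (h49 : 4 ∣ M ∨ 9 ∣ M)
    (A : ValuationSubring (AlgebraicClosure ℚ)) (hA : A.LiesOverPrime q)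
    (K0 : IntermediateField ℚ (AlgebraicClosure ℚ)) (hK0 : FiniteDimensional ℚ ↥K0)
    (O : ValuationSubring ↥K0) [IsDiscreteValuationRing ↥O]
    (hO : ∀ x : ↥K0, x ∈ O ↔ (x : AlgebraicClosure ℚ) ∈ A)
    (σ0 : ↥K0 ≃ₐ[ℚ] ↥K0)
    (hσ0 : ∀ x : ↥O, ∃ y : ↥O, y ∈ IsLocalRing.maximalIdeal ↥O ∧
      (y : ↥K0) = σ0 (x : ↥K0) - (x : ↥K0) ^ q)
    (n : ℕ) (hn : ¬ q ∣ n) (f : ↥(s18_F ↥K0 (M * q))) (hf : f ≠ 0)
    (hord : ∀ P : Place ↥K0 ↥(s18_F ↥K0 (M * q)), (n : ℤ) ∣ P.ord f)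
    (hdeg : ∀ P : Place ↥K0 ↥(s18_F ↥K0 (M * q)), P.ord f ≠ 0 → P.deg = 1)
    (hNA : ∃ g : ↥(s18_F ↥K0 M), g ^ n = s35_normA ↥K0 M q f)
    (hNB : ∃ g : ↥(s18_F ↥K0 M), g ^ n = s35_normB ↥K0 M q f)
    (ϖ : ↥O) (hϖ : Irreducible ϖ) :
    letI := s18_algOF ↥O ↥K0 (M * q)
    ∃ (V : ↥(s18_F ↥K0 (M * q))) (u₁ u₂ : ↥O) (X₁ X₂ : ↥(s18_F ↥K0 (M * q))),
      V ≠ 0 ∧ IsUnit u₁ ∧ IsUnit u₂ ∧
      s35_fd (M * q) q (σ0 * σ0) f / V ^ n - 1 ∈
        s34l_gauss ↥O ϖ (s34g_W2 ↥O (s34w_W M q K0 hq hqM)) 1 ∧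
      ∀ (t : ↥(s18_F ↥K0 (M * q)))
        (hV : s34l1_IsVert ↥O t ϖ (s34g_W2 ↥O (s34w_W M q K0 hq hqM))
          (s34km_Vset M q K0 hq hqM O)),
        s35rd_At (algebraMap ↥O ↥(s18_chart ↥O ({t} : Set ↥(s18_F ↥K0 (M * q)))) ϖ)
            (s34l1_centre (s34g_V ↥O ↥K0 (M * q))
              (fun b : ↥(s18_chart ↥O ({t} : Set ↥(s18_F ↥K0 (M * q)))) =>
                hV.chart_le _ (Set.mem_insert _ _) b b.2))
            (arithmeticRingAut (modularFunctionFieldFull (M * q)) (σ0 * σ0)) (q ^ 2) n f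
            (algebraMap ↥O ↥(s18_F ↥K0 (M * q)) u₁) X₁ V
            (s35_fd (M * q) q (σ0 * σ0) f / V ^ n) ∧
          s35rd_At (algebraMap ↥O ↥(s18_chart ↥O ({t} : Set ↥(s18_F ↥K0 (M * q)))) ϖ)
            (s34l1_centre (s34g_V0 ↥O (s34w_W M q K0 hq hqM))
              (fun b : ↥(s18_chart ↥O ({t} : Set ↥(s18_F ↥K0 (M * q)))) =>
                hV.chart_le _ (Set.mem_insert_of_mem _ rfl) b b.2))
            (arithmeticRingAut (modularFunctionFieldFull (M * q)) (σ0 * σ0)) (q ^ 2) n f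
            (algebraMap ↥O ↥(s18_F ↥K0 (M * q)) u₂) X₂ V
            (s35_fd (M * q) q (σ0 * σ0) f / V ^ n) := by
  letI := s18_algOF ↥O ↥K0 (M * q)
  haveI : Fact q.Prime := ⟨hq⟩
  have hqO : (q : ↥O) ∈ IsLocalRing.maximalIdeal ↥O := s35k_q_mem hA K0 O hO
  have hn0 : n ≠ 0 := by
    rintro rfl
    exact hn (dvd_zero q)
  obtain ⟨g, hg⟩ := hNA
  obtain ⟨g', hg'⟩ := hNB
  obtain ⟨V, u₁, u₂, X₁, X₂, hV0, hu₁, hu₂, hgauss, h1, h2⟩ :=
    s35rd_chart (O := ↥O) (K := ↥K0) M q hq hqM hqO hϖ (s34w_W M q K0 hq hqM)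
      (s34w_W_alpha hq hqM) (s34w_W_beta hq hqM) (s34w_W_W hq hqM)
      (s34g_V_ne_V0 q (dvd_mul_left q M) hqO (s34w_W M q K0 hq hqM) (s34w_W_j hq hqM)
        (s34w_W_jq hq hqM))
      σ0 hσ0 (fun y => s34w_W_galois hq hqM (σ0 * σ0) y) n hn0 f hf g g' hg hg'
  refine ⟨V, u₁, u₂, X₁, X₂, hV0, hu₁, hu₂, hgauss, fun t hV => ⟨?_, ?_⟩⟩
  · exact h1 t _ (hV.loc _ (Set.mem_insert _ _))
  · exact h2 t _ (hV.loc _ (Set.mem_insert_of_mem _ rfl))

/-- **[NF-RED], the export at the model, quantified over the centres** `p ∈ s35k_centres hV`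
(the centres on the chart of the `V ∈ 𝒱 = {V_∞, V_0}`). -/
theorem s35rd_export_centres (M q : ℕ) [NeZero M] [NeZero q] (hq : q.Prime) (hqM : ¬ q ∣ M)
    (h49 : 4 ∣ M ∨ 9 ∣ M)
    (A : ValuationSubring (AlgebraicClosure ℚ)) (hA : A.LiesOverPrime q)
    (K0 : IntermediateField ℚ (AlgebraicClosure ℚ)) (hK0 : FiniteDimensional ℚ ↥K0)
    (O : ValuationSubring ↥K0) [IsDiscreteValuationRing ↥O]
    (hO : ∀ x : ↥K0, x ∈ O ↔ (x : AlgebraicClosure ℚ) ∈ A)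
    (σ0 : ↥K0 ≃ₐ[ℚ] ↥K0)
    (hσ0 : ∀ x : ↥O, ∃ y : ↥O, y ∈ IsLocalRing.maximalIdeal ↥O ∧
      (y : ↥K0) = σ0 (x : ↥K0) - (x : ↥K0) ^ q)
    (n : ℕ) (hn : ¬ q ∣ n) (f : ↥(s18_F ↥K0 (M * q))) (hf : f ≠ 0)
    (hord : ∀ P : Place ↥K0 ↥(s18_F ↥K0 (M * q)), (n : ℤ) ∣ P.ord f)
    (hdeg : ∀ P : Place ↥K0 ↥(s18_F ↥K0 (M * q)), P.ord f ≠ 0 → P.deg = 1)
    (hNA : ∃ g : ↥(s18_F ↥K0 M), g ^ n = s35_normA ↥K0 M q f)
    (hNB : ∃ g : ↥(s18_F ↥K0 M), g ^ n = s35_normB ↥K0 M q f)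
    (ϖ : ↥O) (hϖ : Irreducible ϖ) :
    letI := s18_algOF ↥O ↥K0 (M * q)
    ∃ V : ↥(s18_F ↥K0 (M * q)), V ≠ 0 ∧
      s35_fd (M * q) q (σ0 * σ0) f / V ^ n - 1 ∈
        s34l_gauss ↥O ϖ (s34g_W2 ↥O (s34w_W M q K0 hq hqM)) 1 ∧
      ∀ (t : ↥(s18_F ↥K0 (M * q)))
        (hV : s34l1_IsVert ↥O t ϖ (s34g_W2 ↥O (s34w_W M q K0 hq hqM))
          (s34km_Vset M q K0 hq hqM O)),
        ∀ p ∈ s35k_centres hV, ∃ (u : ↥O) (X : ↥(s18_F ↥K0 (M * q))), IsUnit u ∧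
          s35rd_At (algebraMap ↥O ↥(s18_chart ↥O ({t} : Set ↥(s18_F ↥K0 (M * q)))) ϖ) p
            (arithmeticRingAut (modularFunctionFieldFull (M * q)) (σ0 * σ0)) (q ^ 2) n f
            (algebraMap ↥O ↥(s18_F ↥K0 (M * q)) u) X V
            (s35_fd (M * q) q (σ0 * σ0) f / V ^ n) := by
  letI := s18_algOF ↥O ↥K0 (M * q)
  obtain ⟨V, u₁, u₂, X₁, X₂, hV0, hu₁, hu₂, hgauss, h⟩ :=
    s35rd_export M q hq hqM h49 A hA K0 hK0 O hO σ0 hσ0 n hn f hf hord hdeg hNA hNB ϖ hϖ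
  refine ⟨V, hV0, hgauss, fun t hV p hp => ?_⟩
  obtain ⟨V', hVm, rfl⟩ := hp
  have hVm' : V' = s34g_V ↥O ↥K0 (M * q) ∨ V' = s34g_V0 ↥O (s34w_W M q K0 hq hqM) := hVm
  rcases hVm' with rfl | rfl
  · exact ⟨u₁, X₁, hu₁, (h t hV).1⟩
  · exact ⟨u₂, X₂, hu₂, (h t hV).2⟩

end Model

end Fermat.Agent.S35
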