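/-
S35, [J-GAL] (helper16).  Prefix `s35_`.

The push-forwards `J₀(M q) → J₀(M)` along the two degeneracy maps are Galois equivariant:
`s35_pushGal_main : s35_PushGalStatement` (`S35/NModDefs.lean`).  The push-forward of divisors is
equivariant for every pair of intertwined semilinear automorphisms (`S37/DescGal.lean`); the two
degeneracy maps are intertwined by the coefficientwise actions (`S29/QuadHG.lean`).
-/
import Mathlib
import Fermat.Agent.S35.NModDefs
import Fermat.Agent.S29.QuadHG

set_option autoImplicit false

open ModularCurve AlgebraicCurve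

namespace Fermat.Agent.S35

section Abs

variable {K F F' : Type*} [Field K] [Field F] [Field F'] [Algebra K F] [Algebra K F']

/-- The push-forward of divisor classes is equivariant for intertwined semilinear
automorphisms. -/
theorem s35_pushPic_smul (φ : F →ₐ[K] F') (g : SemilinearAut K F) (g' : SemilinearAut K F')
    (h : SemilinearAut.IntertwinesAlong φ.toRingHom g g') (x : Pic0 K F') :
    s35_pushPic φ (g' • x) = g • s35_pushPic φ x := by
  by_cases hin : s35_PushInputs φ
  · obtain ⟨hφ, hfin, hN⟩ := hin
    obtain ⟨D, rfl⟩ := Pic0.mk_surjective x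
    rw [SemilinearAut.pic0_smul_mk, s35_pushPic_mk φ hφ hfin hN, s35_pushPic_mk φ hφ hfin hN,
      SemilinearAut.pic0_smul_mk]
    refine congrArg Pic0.mk (Subtype.ext ?_)
    rw [s35_coe_pushDeg, SemilinearAut.coe_degZeroSMulHom, SemilinearAut.coe_degZeroSMulHom,
      s35_coe_pushDeg]
    exact S37.s37dg_pushforwardAlong_smul φ hφ h D.1
  · rw [s35_pushPic, dif_neg hin, AddMonoidHom.zero_apply, AddMonoidHom.zero_apply]
    exact (smul_zero (A := Pic0 K F) g).symm

end Abs

/-- **[J-GAL]** the push-forwards along the two degeneracy maps are Galois equivariant. -/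
theorem s35_pushGal_main : s35_PushGalStatement := by
  intro M q _ _ _ _ σ y
  exact ⟨s35_pushPic_smul (heckeAlphaBar (AlgebraicClosure ℚ) M q) _ _
      (Fermat.Agent.S29.s29q_alpha_intertwines M q σ) y,
    s35_pushPic_smul (heckeBetaBar (AlgebraicClosure ℚ) M q) _ _
      (Fermat.Agent.S29.s29q_beta_intertwines M q σ) y⟩

end Fermat.Agent.S35
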